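import Fermat.Agent.S18.CuspAbhD

/-!
# S18, leaf N, sub-leaf CUSP, part C (char 0): the Kummer cover away from the cusps

* `FA_S18_CUC_exists_over` : every zero `v` of `u - α ^ w` (`α ≠ 0`) has an extension `q` with
  `ord_q (x - α) > 0`.
* `FA_S18_CUC_unram_ne` : if all zeros of `u - α ^ w` (`α ≠ 0`) are simple, then all zeros of
  `x - α` are simple.
-/

set_option autoImplicit false

noncomputable section

namespace Fermat.Agent.S18

open AlgebraicCurve FA_RR IntermediateField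

variable {K F F' : Type} [Field K] [IsAlgClosed K] [CharZero K] [Field F] [Field F']
  [Algebra K F] [Algebra K F']

/-- Every zero of `u - α ^ w` extends to a zero of `x - α`. -/
theorem FA_S18_CUC_exists_over (hF : FA_RR_IsFF K F) (hF' : FA_RR_IsFF K F')
    (σ : F →ₐ[K] F')
    (hint : ∀ x : F', ∃ P : Polynomial F, P.Monic ∧ Polynomial.eval₂ (σ : F →+* F') x P = 0)
    (u : F) (hu : Transcendental K u) (x : F') (w : ℕ) (hw : 0 < w)
    (hxw : x ^ w = σ u) (ζ : K) (hζ : IsPrimitiveRoot ζ w) (τ : F' ≃ₐ[K] F')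
    (hτσ : ∀ f : F, τ (σ f) = σ f) (hτx : τ x = algebraMap K F' ζ * x)
    (α : K) (hα : α ≠ 0) (v : Place K F)
    (hv : 0 < v.ord (u - algebraMap K F (α ^ w))) :
    ∃ q : Place K F', 0 < q.ord (x - algebraMap K F' α) ∧
      ∃ m : ℤ, 0 < m ∧ ∀ a : F, a ≠ 0 → q.ord (σ a) = m * v.ord a := by
  classical
  have hx : Transcendental K x := FA_S18_CUC_transcendental_x σ u hu x w hxw
  have hu0 : u ≠ 0 := by
    rintro rfl
    exact hu isAlgebraic_zero
  have hx0 : x ≠ 0 := by
    rintro rfl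
    exact hx isAlgebraic_zero
  have hζ0 : ζ ≠ 0 := hζ.ne_zero hw.ne'
  obtain ⟨v', m, hm, hE⟩ := FA_S18_CUC_exists_extension hF hF' σ hint v
  set y : F := u - algebraMap K F (α ^ w) with hy
  have hy0 : y ≠ 0 := by
    intro h0
    rw [h0, Place.ord_zero] at hv
    omega
  have hαw : algebraMap K F (α ^ w) ≠ 0 := by
    rw [ne_eq, map_eq_zero_iff _ (algebraMap K F).injective]
    exact pow_ne_zero _ hα
  -- `ord_v u = 0`
  have hordu : v.ord u = 0 := by
    have h1 : u = algebraMap K F (α ^ w) + y := by rw [hy]; ring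
    rw [h1, FA_RR.ord_add_eq_of_lt v hαw (Or.inr (by rw [FA_RR.ord_algebraMap]; exact hv)),
      FA_RR.ord_algebraMap]
  have hordx : v'.ord x = 0 := by
    have h1 : (w : ℤ) * v'.ord x = m * v.ord u := by
      rw [← FA_S18_CUC_ord_pow, hxw, hE u hu0]
    rw [hordu, mul_zero] at h1
    have h2 : (w : ℤ) ≠ 0 := by exact_mod_cast hw.ne'
    rcases mul_eq_zero.mp h1 with h3 | h3
    · exact absurd h3 h2
    · exact h3
  -- the residue of `x`
  have hxmem : v'.adicValuation x ≤ 1 := by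
    rw [v'.adicValuation_le_one_iff]
    exact Or.inr hordx.ge
  obtain ⟨r, hr⟩ := FA_RR.residue hF' v' x hxmem
  rw [FA_RR.adicValuation_lt_one_iff] at hr
  have hxr0 : x - algebraMap K F' r ≠ 0 := by
    intro h0
    apply hx
    rw [sub_eq_zero.mp h0]
    exact isAlgebraic_algebraMap r
  have hxr : 0 < v'.ord (x - algebraMap K F' r) := hr.resolve_left hxr0
  -- `ord (x ^ w - α ^ w) > 0`
  have hσy : σ y = x ^ w - algebraMap K F' (α ^ w) := by
    rw [hy, map_sub, AlgHom.commutes, hxw]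
  have hyord : 0 < v'.ord (x ^ w - algebraMap K F' (α ^ w)) := by
    rw [← hσy, hE y hy0]
    exact mul_pos hm hv
  -- `ord (x ^ w - r ^ w) > 0` or zero
  have hgeom : (∑ i ∈ Finset.range w, x ^ i * (algebraMap K F' r) ^ (w - 1 - i))
      * (x - algebraMap K F' r) = x ^ w - (algebraMap K F' r) ^ w :=
    (Commute.all x (algebraMap K F' r)).geom_sum₂_mul w
  have hgmem : (∑ i ∈ Finset.range w, x ^ i * (algebraMap K F' r) ^ (w - 1 - i))
      ∈ v'.toValuationSubring := by
    apply Subring.sum_mem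
    intro i _
    apply Subring.mul_mem
    · apply Subring.pow_mem
      rw [ValuationSubring.mem_toSubring, FA_RR.mem_iff_ord]
      exact Or.inr hordx.ge
    · apply Subring.pow_mem
      exact v'.algebraMap_mem' r
  have hxwr : x ^ w - (algebraMap K F' r) ^ w = 0 ∨
      1 ≤ v'.ord (x ^ w - (algebraMap K F' r) ^ w) := by
    by_cases h0 : x ^ w - (algebraMap K F' r) ^ w = 0
    · exact Or.inl h0
    · right
      rw [← hgeom] at h0 ⊢
      have hg0 : (∑ i ∈ Finset.range w, x ^ i * (algebraMap K F' r) ^ (w - 1 - i)) ≠ 0 :=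
        left_ne_zero_of_mul h0
      rw [v'.ord_mul hg0 hxr0]
      have := (FA_RR.mem_iff_ord v').mp hgmem
      rcases this with h1 | h1
      · exact absurd h1 hg0
      · omega
  -- `r ^ w = α ^ w`
  have hrw : r ^ w = α ^ w := by
    by_contra hne
    have hc : algebraMap K F' (α ^ w - r ^ w) ≠ 0 := by
      rw [ne_eq, map_eq_zero_iff _ (algebraMap K F').injective]
      exact sub_ne_zero.mpr (Ne.symm hne)
    have h4 : (x ^ w - (algebraMap K F' r) ^ w) - (x ^ w - algebraMap K F' (α ^ w))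
        = algebraMap K F' (α ^ w - r ^ w) := by
      rw [map_sub, map_pow, map_pow]; ring
    have h6 : 1 ≤ v'.ord ((x ^ w - (algebraMap K F' r) ^ w)
        - (x ^ w - algebraMap K F' (α ^ w))) := by
      refine FA_RR.ord_sub_ge v' ?_ 1 hxwr (Or.inr (by omega))
      rw [h4]
      exact hc
    rw [h4, FA_RR.ord_algebraMap] at h6
    omega
  -- `r = ζ ^ k * α`
  have hrα : (r / α) ^ w = 1 := by
    rw [div_pow, hrw, div_self (pow_ne_zero _ hα)]
  haveI : NeZero w := ⟨hw.ne'⟩
  obtain ⟨k, hk, hkr⟩ := hζ.eq_pow_of_pow_eq_one hrα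
  have hr' : r = ζ ^ k * α := by
    rw [hkr, div_mul_cancel₀ _ hα]
  -- rotate
  set k' := w - k with hk'
  have hζk : ζ ^ k' * ζ ^ k = 1 := by
    rw [← pow_add, hk', Nat.sub_add_cancel hk.le, hζ.pow_eq_one]
  refine ⟨(τ ^ k')⁻¹ • v', ?_, m, hm, ?_⟩
  · rw [FA_S18_CUC_ord_inv_smul, map_sub, AlgEquiv.commutes, FA_S18_CUC_pow_x τ x ζ hτx]
    have h1 : algebraMap K F' (ζ ^ k') * x - algebraMap K F' α
        = algebraMap K F' (ζ ^ k') * (x - algebraMap K F' r) := by
      rw [hr', mul_sub, ← map_mul, ← mul_assoc, hζk, one_mul]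
    rw [h1, v'.ord_mul
      (by rw [ne_eq, map_eq_zero_iff _ (algebraMap K F').injective]; exact pow_ne_zero _ hζ0)
      hxr0, FA_RR.ord_algebraMap, zero_add]
    exact hxr
  · intro a ha
    rw [FA_S18_CUC_ord_inv_smul, FA_S18_CUC_pow_sigma τ hτσ, hE a ha]

/-- **The Kummer cover away from the cusps**: all zeros of `x - α` are simple. -/
theorem FA_S18_CUC_unram_ne (hF : FA_RR_IsFF K F) (hF' : FA_RR_IsFF K F')
    (σ : F →ₐ[K] F')
    (hint : ∀ x : F', ∃ P : Polynomial F, P.Monic ∧ Polynomial.eval₂ (σ : F →+* F') x P = 0)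
    (u : F) (hu : Transcendental K u) (x : F') (w : ℕ) (hw : 0 < w)
    (hxw : x ^ w = σ u) (ζ : K) (hζ : IsPrimitiveRoot ζ w) (τ : F' ≃ₐ[K] F')
    (hτσ : ∀ f : F, τ (σ f) = σ f) (hτx : τ x = algebraMap K F' ζ * x)
    (hdeg : Module.finrank K⟮x⟯ F' ≤ Module.finrank K⟮u⟯ F)
    (α : K) (hα : α ≠ 0)
    (hunr : ∀ v : Place K F, 0 < v.ord (u - algebraMap K F (α ^ w)) →
      v.ord (u - algebraMap K F (α ^ w)) = 1)
    (v' : Place K F') (hv' : 0 < v'.ord (x - algebraMap K F' α)) :
    v'.ord (x - algebraMap K F' α) = 1 := by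
  classical
  have hx : Transcendental K x := FA_S18_CUC_transcendental_x σ u hu x w hxw
  have hex := fun (v : Place K F) (hv : 0 < v.ord (u - algebraMap K F (α ^ w))) =>
    FA_S18_CUC_exists_over hF hF' σ hint u hu x w hw hxw ζ hζ τ hτσ hτx α hα v hv
  choose Q hQ m hm hE using hex
  set P : Place K F → ℕ → Place K F' := fun v _ =>
    if hv : 0 < v.ord (u - algebraMap K F (α ^ w)) then Q v hv else v' with hP
  have hPpos : ∀ (v : Place K F) (i : ℕ) (hv : 0 < v.ord (u - algebraMap K F (α ^ w))),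
      P v i = Q v hv := by
    intro v i hv
    rw [hP]
    simp only [dif_pos hv]
  have hdeg' : Module.finrank K⟮x - algebraMap K F' α⟯ F'
      ≤ Module.finrank K⟮u - algebraMap K F (α ^ w)⟯ F := by
    rw [FA_RR.finrank_adjoin_sub_const, FA_RR.finrank_adjoin_sub_const]
    exact hdeg
  refine FA_S18_CUC_count hF hF' (u - algebraMap K F (α ^ w))
    (FA_RR.transcendental_sub_const hu _) (x - algebraMap K F' α)
    (FA_RR.transcendental_sub_const hx _) hdeg' P ?_ ?_ v' hv'
  · intro v i hi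
    have hv : 0 < v.ord (u - algebraMap K F (α ^ w)) := by omega
    rw [hPpos v i hv]
    exact hQ v hv
  · intro v v₂ i j hi hj hPP
    have hv : 0 < v.ord (u - algebraMap K F (α ^ w)) := by omega
    have hv₂ : 0 < v₂.ord (u - algebraMap K F (α ^ w)) := by omega
    rw [hPpos v i hv, hPpos v₂ j hv₂] at hPP
    have hvv : v = v₂ := by
      refine FA_S18_CUC_below_unique σ (Q v hv) v v₂ (m v hv) (m v₂ hv₂) (hm v hv) (hm v₂ hv₂)
        (hE v hv) ?_
      intro a ha
      rw [hPP]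
      exact hE v₂ hv₂ a ha
    refine ⟨hvv, ?_⟩
    have h1 := hunr v hv
    have h2 := hunr v₂ hv₂
    omega

end Fermat.Agent.S18
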