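import Mathlib
import Fermat.Prelude.Def_ModularCurve_X0ModL
import Fermat.Prelude.Def_ModularCurve_LaurentCoeff

/-!
# S18, leaf N / CUSP, part E1: the twist `t ↦ ζ t` on Laurent series over a commutative ring

`FA_S18_CUE_tw ζ` (`ζ` a unit of `R`) multiplies the coefficient of `t ^ n` by `ζ ^ n`.
It is a ring endomorphism, natural in `R`, fixes `R((t^w))` when `ζ ^ w = 1`, and the average of
the twists by the powers of a primitive `w`-th root of unity is the projection onto `R((t^w))`.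
-/

set_option autoImplicit false

noncomputable section

namespace Fermat.Agent.S18

open ModularCurve

variable {R : Type*} [CommRing R]

/-- The twist `f(t) ↦ f(ζ t)`, as a function. -/
def FA_S18_CUE_twFun (ζ : Rˣ) (f : LaurentSeries R) : LaurentSeries R :=
  HahnSeries.ofSuppBddBelow (fun n : ℤ => ((ζ ^ n : Rˣ) : R) * f.coeff n)
    ⟨f.order, fun n hn => by
      by_contra hlt
      exact hn (by
        show ((ζ ^ n : Rˣ) : R) * f.coeff n = 0
        rw [HahnSeries.coeff_eq_zero_of_lt_order (not_le.mp hlt), mul_zero])⟩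

@[simp] theorem FA_S18_CUE_twFun_coeff (ζ : Rˣ) (f : LaurentSeries R) (n : ℤ) :
    (FA_S18_CUE_twFun ζ f).coeff n = ((ζ ^ n : Rˣ) : R) * f.coeff n := rfl

theorem FA_S18_CUE_twFun_support (ζ : Rˣ) (f : LaurentSeries R) :
    (FA_S18_CUE_twFun ζ f).support = f.support := by
  ext n
  simp only [HahnSeries.mem_support, FA_S18_CUE_twFun_coeff, ne_eq]
  rw [Units.mul_right_eq_zero]

theorem FA_S18_CUE_twFun_mul (ζ : Rˣ) (f g : LaurentSeries R) :
    FA_S18_CUE_twFun ζ (f * g) = FA_S18_CUE_twFun ζ f * FA_S18_CUE_twFun ζ g := by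
  ext n
  rw [FA_S18_CUE_twFun_coeff, HahnSeries.coeff_mul, HahnSeries.coeff_mul, Finset.mul_sum]
  refine Finset.sum_congr ?_ ?_
  · ext ij
    simp only [Finset.mem_antidiagonal, FA_S18_CUE_twFun_support]
  · intro ij hij
    have h : ij.1 + ij.2 = n := (Finset.mem_antidiagonal.mp hij).2.2
    rw [FA_S18_CUE_twFun_coeff, FA_S18_CUE_twFun_coeff, ← h, zpow_add, Units.val_mul]
    ring

/-- The twist `f(t) ↦ f(ζ t)` as a ring endomorphism. -/
def FA_S18_CUE_tw (ζ : Rˣ) : LaurentSeries R →+* LaurentSeries R where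
  toFun := FA_S18_CUE_twFun ζ
  map_one' := by
    ext n
    rw [FA_S18_CUE_twFun_coeff, HahnSeries.coeff_one]
    split_ifs with h
    · subst h; simp
    · simp
  map_mul' := FA_S18_CUE_twFun_mul ζ
  map_zero' := by
    ext n
    simp
  map_add' f g := by
    ext n
    simp [mul_add]

@[simp] theorem FA_S18_CUE_tw_coeff (ζ : Rˣ) (f : LaurentSeries R) (n : ℤ) :
    (FA_S18_CUE_tw ζ f).coeff n = ((ζ ^ n : Rˣ) : R) * f.coeff n := rfl

theorem FA_S18_CUE_tw_one (f : LaurentSeries R) : FA_S18_CUE_tw (1 : Rˣ) f = f := by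
  ext n
  rw [FA_S18_CUE_tw_coeff, one_zpow, Units.val_one, one_mul]

theorem FA_S18_CUE_tw_tw (ζ ξ : Rˣ) (f : LaurentSeries R) :
    FA_S18_CUE_tw ζ (FA_S18_CUE_tw ξ f) = FA_S18_CUE_tw (ζ * ξ) f := by
  ext n
  rw [FA_S18_CUE_tw_coeff, FA_S18_CUE_tw_coeff, FA_S18_CUE_tw_coeff, mul_zpow, Units.val_mul,
    mul_assoc]

/-- The twist fixes constants. -/
theorem FA_S18_CUE_tw_C (ζ : Rˣ) (c : R) :
    FA_S18_CUE_tw ζ (HahnSeries.C c) = HahnSeries.C c := by
  show FA_S18_CUE_tw ζ (HahnSeries.single 0 c) = HahnSeries.single 0 c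
  ext n
  rw [FA_S18_CUE_tw_coeff, HahnSeries.coeff_single]
  split_ifs with h
  · subst h; simp
  · simp

/-- The twist of a monomial. -/
theorem FA_S18_CUE_tw_single (ζ : Rˣ) (m : ℤ) (c : R) :
    FA_S18_CUE_tw ζ (HahnSeries.single m c) = HahnSeries.single m (((ζ ^ m : Rˣ) : R) * c) := by
  ext n
  rw [FA_S18_CUE_tw_coeff, HahnSeries.coeff_single, HahnSeries.coeff_single]
  split_ifs with h
  · subst h; rfl
  · simp

/-- The twist by a `w`-th root of unity fixes `R((t^w))`. -/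
theorem FA_S18_CUE_tw_qExpand (ζ : Rˣ) (w : ℕ) [NeZero w] (h1 : ζ ^ w = 1)
    (f : LaurentSeries R) : FA_S18_CUE_tw ζ (qExpand R w f) = qExpand R w f := by
  ext n
  rw [FA_S18_CUE_tw_coeff]
  by_cases hn : (w : ℤ) ∣ n
  · obtain ⟨m, rfl⟩ := hn
    rw [zpow_mul, zpow_natCast, h1, one_zpow, Units.val_one, one_mul]
  · rw [qExpand_coeff_of_not_dvd w f hn, mul_zero]

/-- Naturality of the twist in the coefficient ring. -/
theorem FA_S18_CUE_coeffMap_tw {S : Type*} [CommRing S] (φ : R →+* S) (ζ : Rˣ)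
    (f : LaurentSeries R) :
    coeffMap φ (FA_S18_CUE_tw ζ f) = FA_S18_CUE_tw (Units.map φ.toMonoidHom ζ) (coeffMap φ f) := by
  ext n
  rw [coeffMap_coeff, FA_S18_CUE_tw_coeff, FA_S18_CUE_tw_coeff, coeffMap_coeff, map_mul,
    ← map_zpow, Units.coe_map]
  rfl

end Fermat.Agent.S18
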