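import Mathlib
import Fermat.Agent.S18.CuspAbhE
import Fermat.Agent.S18.CuspTwist

/-!
# S18, leaf N / CUSP: the Kummer field `F' = σ_w(F)(x) ⊂ K((t))`

`K` a field, `F ⊂ K((q))` an intermediate field, `w ≥ 1`, `σ = qExpand w : K((q)) → K((t))`
(`q = t^w`), `x ∈ K((t))`.

* `FA_S18_CUF_field K w F x` : the intermediate field `σ(F)(x)` of `K((t)) / K`.
* `FA_S18_CUF_sigma` : `σ` as a `K`-algebra map `F → F'`;  `FA_S18_CUF_x` : `x` as an element
  of `F'`.
* `FA_S18_CUF_hint` : `F'` is integral over `σ F` if `x ^ w ∈ σ F`.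
* `FA_S18_CUF_tau` : the twist `t ↦ ζ t` as an automorphism of `F'` over `σ F`
  (`x = t · g(t^w)`, `ζ ^ w = 1`).
* `FA_S18_CUF_hdeg` : `[F' : K(x)] ≤ [F : K(u)]` if `x ^ w = σ u`.
* `FA_S18_CUF_isFF` : `F'` is a function field.
-/

set_option autoImplicit false
set_option linter.unusedSectionVars false

noncomputable section

namespace Fermat.Agent.S18

open ModularCurve IntermediateField AlgebraicCurve

section Def

variable (K : Type) [Field K] (w : ℕ) [NeZero w]

/-- The Kummer field `F' = σ_w(F)(x) ⊂ K((t))`. -/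
def FA_S18_CUF_field (F : IntermediateField K (LaurentSeries K)) (x : LaurentSeries K) :
    IntermediateField K (LaurentSeries K) :=
  F.map (qExpandAlgHomC K w) ⊔ IntermediateField.adjoin K {x}

variable {K w} (F : IntermediateField K (LaurentSeries K)) (x : LaurentSeries K)

theorem FA_S18_CUF_map_le : F.map (qExpandAlgHomC K w) ≤ FA_S18_CUF_field K w F x :=
  le_sup_left

theorem FA_S18_CUF_sigma_mem {f : LaurentSeries K} (hf : f ∈ F) :
    qExpand K w f ∈ FA_S18_CUF_field K w F x :=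
  FA_S18_CUF_map_le F x ((IntermediateField.mem_map _).mpr ⟨f, hf, rfl⟩)

theorem FA_S18_CUF_x_mem : x ∈ FA_S18_CUF_field K w F x :=
  (le_sup_right : IntermediateField.adjoin K {x} ≤ FA_S18_CUF_field K w F x)
    (IntermediateField.mem_adjoin_simple_self K x)

/-- An intermediate field containing `σ F` and `x` contains `F'`. -/
theorem FA_S18_CUF_le {E : IntermediateField K (LaurentSeries K)}
    (h1 : ∀ f ∈ F, qExpand K w f ∈ E) (h2 : x ∈ E) : FA_S18_CUF_field K w F x ≤ E := by
  refine sup_le ?_ ?_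
  · rintro _ ⟨f, hf, rfl⟩
    exact h1 f hf
  · rw [IntermediateField.adjoin_le_iff]
    rintro _ rfl
    exact h2

variable (w) in
/-- `σ` as a `K`-algebra map `F → F'`. -/
def FA_S18_CUF_sigma : ↥F →ₐ[K] ↥(FA_S18_CUF_field K w F x) :=
  ((qExpandAlgHomC K w).comp F.val).codRestrict (FA_S18_CUF_field K w F x).toSubalgebra
    (fun f => FA_S18_CUF_sigma_mem F x f.2)

theorem FA_S18_CUF_sigma_coe (f : ↥F) :
    ((FA_S18_CUF_sigma w F x f : ↥(FA_S18_CUF_field K w F x)) : LaurentSeries K)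
      = qExpand K w (f : LaurentSeries K) := rfl

variable (w) in
/-- `x` as an element of `F'`. -/
def FA_S18_CUF_x : ↥(FA_S18_CUF_field K w F x) := ⟨x, FA_S18_CUF_x_mem F x⟩

theorem FA_S18_CUF_x_coe :
    ((FA_S18_CUF_x w F x : ↥(FA_S18_CUF_field K w F x)) : LaurentSeries K) = x := rfl

end Def

end Fermat.Agent.S18
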