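import Mathlib
import Fermat.Agent.S18.CuspField

/-!
# S18, leaf N / CUSP: the Kummer field, integrality over `σ F` and the twist

* `FA_S18_CUF_hint` : `F'` is integral over `σ F` if `x ^ w ∈ σ F`.
* `FA_S18_CUF_tau` : the twist `t ↦ ζ t` as an automorphism of `F'` over `σ F`
  (`x = t · g(t^w)`, `ζ ^ w = 1`).
-/

set_option autoImplicit false
set_option linter.unusedSectionVars false

noncomputable section

namespace Fermat.Agent.S18

open ModularCurve IntermediateField AlgebraicCurve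

section Hint

variable {K : Type} [Field K] {w : ℕ} [NeZero w]
  (F : IntermediateField K (LaurentSeries K)) (x : LaurentSeries K)

/-- Elements of `F'` are algebraic over `σ F`. -/
theorem FA_S18_CUF_isIntegral (u : LaurentSeries K) (hu : u ∈ F) (hxw : x ^ w = qExpand K w u)
    {y : LaurentSeries K} (hy : y ∈ FA_S18_CUF_field K w F x) :
    IsIntegral ↥(F.map (qExpandAlgHomC K w)) y := by
  have hle : FA_S18_CUF_field K w F x
      ≤ (algebraicClosure ↥(F.map (qExpandAlgHomC K w)) (LaurentSeries K)).restrictScalars K := by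
    refine FA_S18_CUF_le F x (fun f hf => ?_) ?_
    · show qExpand K w f ∈ algebraicClosure ↥(F.map (qExpandAlgHomC K w)) (LaurentSeries K)
      rw [mem_algebraicClosure_iff]
      exact isAlgebraic_algebraMap
        (⟨qExpand K w f, (IntermediateField.mem_map _).mpr ⟨f, hf, rfl⟩⟩ :
          ↥(F.map (qExpandAlgHomC K w)))
    · show x ∈ algebraicClosure ↥(F.map (qExpandAlgHomC K w)) (LaurentSeries K)
      rw [mem_algebraicClosure_iff]
      refine IsIntegral.isAlgebraic ?_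
      refine ⟨Polynomial.X ^ w - Polynomial.C (⟨qExpand K w u,
        (IntermediateField.mem_map _).mpr ⟨u, hu, rfl⟩⟩ : ↥(F.map (qExpandAlgHomC K w))),
        Polynomial.monic_X_pow_sub_C _ (NeZero.ne w), ?_⟩
      rw [Polynomial.eval₂_sub, Polynomial.eval₂_pow, Polynomial.eval₂_X, Polynomial.eval₂_C, hxw]
      exact sub_self _
  have h1 := hle hy
  have h2 : y ∈ algebraicClosure ↥(F.map (qExpandAlgHomC K w)) (LaurentSeries K) := h1
  rw [mem_algebraicClosure_iff] at h2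
  exact h2.isIntegral

/-- **Integrality**: every element of `F'` is a root of a monic polynomial over `F` (via `σ`). -/
theorem FA_S18_CUF_hint (u : LaurentSeries K) (hu : u ∈ F) (hxw : x ^ w = qExpand K w u)
    (y : ↥(FA_S18_CUF_field K w F x)) :
    ∃ P : Polynomial ↥F, P.Monic ∧
      Polynomial.eval₂ ((FA_S18_CUF_sigma w F x : ↥F →ₐ[K] ↥(FA_S18_CUF_field K w F x)) :
        ↥F →+* ↥(FA_S18_CUF_field K w F x)) y P = 0 := by
  have hint := FA_S18_CUF_isIntegral F x u hu hxw y.2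
  set e : ↥F ≃ₐ[K] ↥(F.map (qExpandAlgHomC K w)) :=
    IntermediateField.equivMap F (qExpandAlgHomC K w) with he
  refine ⟨(minpoly ↥(F.map (qExpandAlgHomC K w)) (y : LaurentSeries K)).map
    (e.symm : ↥(F.map (qExpandAlgHomC K w)) →+* ↥F), (minpoly.monic hint).map _, ?_⟩
  apply Subtype.ext
  have h1 : ((Polynomial.eval₂ ((FA_S18_CUF_sigma w F x :
      ↥F →ₐ[K] ↥(FA_S18_CUF_field K w F x)) : ↥F →+* ↥(FA_S18_CUF_field K w F x)) y
      ((minpoly ↥(F.map (qExpandAlgHomC K w)) (y : LaurentSeries K)).map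
        (e.symm : ↥(F.map (qExpandAlgHomC K w)) →+* ↥F)) : ↥(FA_S18_CUF_field K w F x)) :
        LaurentSeries K)
      = Polynomial.eval₂ (algebraMap ↥(F.map (qExpandAlgHomC K w)) (LaurentSeries K))
        (y : LaurentSeries K) (minpoly ↥(F.map (qExpandAlgHomC K w)) (y : LaurentSeries K)) := by
    rw [Polynomial.eval₂_map]
    have h2 := Polynomial.hom_eval₂
      (minpoly ↥(F.map (qExpandAlgHomC K w)) (y : LaurentSeries K))
      (((FA_S18_CUF_sigma w F x : ↥F →ₐ[K] ↥(FA_S18_CUF_field K w F x)) :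
        ↥F →+* ↥(FA_S18_CUF_field K w F x)).comp
          (e.symm : ↥(F.map (qExpandAlgHomC K w)) →+* ↥F))
      ((FA_S18_CUF_field K w F x).val : ↥(FA_S18_CUF_field K w F x) →+* LaurentSeries K) y
    refine h2.trans ?_
    congr 1
    refine RingHom.ext fun z => ?_
    show qExpand K w ((e.symm z : ↥F) : LaurentSeries K) = (z : LaurentSeries K)
    have h3 : e (e.symm z) = z := e.apply_symm_apply z
    have h4 := congrArg Subtype.val h3
    exact h4
  rw [h1]
  exact minpoly.aeval _ _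

end Hint

section Tau

variable {K : Type} [Field K] {w : ℕ} [NeZero w]

/-- The twist `t ↦ ζ t` as a `K`-algebra endomorphism of `K((t))`. -/
def FA_S18_CUF_twAlg (ζ : Kˣ) : LaurentSeries K →ₐ[K] LaurentSeries K :=
  { FA_S18_CUE_tw ζ with
    commutes' := fun c => by
      show FA_S18_CUE_tw ζ (algebraMap K (LaurentSeries K) c) = algebraMap K (LaurentSeries K) c
      rw [algebraMap_laurentSeries_eq_single]
      exact FA_S18_CUE_tw_C ζ c }

theorem FA_S18_CUF_twAlg_apply (ζ : Kˣ) (f : LaurentSeries K) :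
    FA_S18_CUF_twAlg ζ f = FA_S18_CUE_tw ζ f := rfl

/-- The twist of `x = t · g(t^w)` by a `w`-th root of unity. -/
theorem FA_S18_CUF_tw_x (ζ : Kˣ) (hζ : ζ ^ w = 1) (g : LaurentSeries K) :
    FA_S18_CUE_tw ζ (HahnSeries.single (1 : ℤ) (1 : K) * qExpand K w g)
      = algebraMap K (LaurentSeries K) (ζ : K)
        * (HahnSeries.single (1 : ℤ) (1 : K) * qExpand K w g) := by
  rw [map_mul, FA_S18_CUE_tw_single, FA_S18_CUE_tw_qExpand ζ w hζ, zpow_one, mul_one,
    algebraMap_laurentSeries_eq_single, ← mul_assoc, HahnSeries.single_mul_single, zero_add,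
    mul_one]

variable (F : IntermediateField K (LaurentSeries K)) (x : LaurentSeries K)

/-- The twist maps `F'` into `F'`. -/
theorem FA_S18_CUF_tw_mem (ζ : Kˣ) (hζ : ζ ^ w = 1) (g : LaurentSeries K)
    (hx : x = HahnSeries.single (1 : ℤ) (1 : K) * qExpand K w g)
    {y : LaurentSeries K} (hy : y ∈ FA_S18_CUF_field K w F x) :
    FA_S18_CUE_tw ζ y ∈ FA_S18_CUF_field K w F x := by
  have hle : FA_S18_CUF_field K w F x
      ≤ (FA_S18_CUF_field K w F x).comap (FA_S18_CUF_twAlg ζ) := by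
    refine FA_S18_CUF_le F x (fun f hf => ?_) ?_
    · show FA_S18_CUE_tw ζ (qExpand K w f) ∈ FA_S18_CUF_field K w F x
      rw [FA_S18_CUE_tw_qExpand ζ w hζ]
      exact FA_S18_CUF_sigma_mem F x hf
    · show FA_S18_CUE_tw ζ x ∈ FA_S18_CUF_field K w F x
      have h1 := FA_S18_CUF_tw_x ζ hζ g
      rw [← hx] at h1
      rw [h1]
      exact mul_mem ((FA_S18_CUF_field K w F x).algebraMap_mem _) (FA_S18_CUF_x_mem F x)
  exact hle hy

/-- The twist as an endomorphism of `F'`. -/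
def FA_S18_CUF_tauHom (ζ : Kˣ) (hζ : ζ ^ w = 1) (g : LaurentSeries K)
    (hx : x = HahnSeries.single (1 : ℤ) (1 : K) * qExpand K w g) :
    ↥(FA_S18_CUF_field K w F x) →ₐ[K] ↥(FA_S18_CUF_field K w F x) :=
  ((FA_S18_CUF_twAlg ζ).comp (FA_S18_CUF_field K w F x).val).codRestrict
    (FA_S18_CUF_field K w F x).toSubalgebra (fun y => FA_S18_CUF_tw_mem F x ζ hζ g hx y.2)

theorem FA_S18_CUF_tauHom_coe (ζ : Kˣ) (hζ : ζ ^ w = 1) (g : LaurentSeries K)
    (hx : x = HahnSeries.single (1 : ℤ) (1 : K) * qExpand K w g)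
    (y : ↥(FA_S18_CUF_field K w F x)) :
    ((FA_S18_CUF_tauHom F x ζ hζ g hx y : ↥(FA_S18_CUF_field K w F x)) : LaurentSeries K)
      = FA_S18_CUE_tw ζ (y : LaurentSeries K) := rfl

/-- **The twist** `τ` as an automorphism of `F'`. -/
def FA_S18_CUF_tau (ζ : Kˣ) (hζ : ζ ^ w = 1) (g : LaurentSeries K)
    (hx : x = HahnSeries.single (1 : ℤ) (1 : K) * qExpand K w g) :
    ↥(FA_S18_CUF_field K w F x) ≃ₐ[K] ↥(FA_S18_CUF_field K w F x) :=
  AlgEquiv.ofAlgHom (FA_S18_CUF_tauHom F x ζ hζ g hx)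
    (FA_S18_CUF_tauHom F x ζ⁻¹ (by rw [inv_pow, hζ, inv_one]) g hx)
    (by
      refine AlgHom.ext fun y => Subtype.ext ?_
      show FA_S18_CUE_tw ζ (FA_S18_CUE_tw ζ⁻¹ (y : LaurentSeries K)) = (y : LaurentSeries K)
      rw [FA_S18_CUE_tw_tw, mul_inv_cancel, FA_S18_CUE_tw_one])
    (by
      refine AlgHom.ext fun y => Subtype.ext ?_
      show FA_S18_CUE_tw ζ⁻¹ (FA_S18_CUE_tw ζ (y : LaurentSeries K)) = (y : LaurentSeries K)
      rw [FA_S18_CUE_tw_tw, inv_mul_cancel, FA_S18_CUE_tw_one])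

theorem FA_S18_CUF_tau_coe (ζ : Kˣ) (hζ : ζ ^ w = 1) (g : LaurentSeries K)
    (hx : x = HahnSeries.single (1 : ℤ) (1 : K) * qExpand K w g)
    (y : ↥(FA_S18_CUF_field K w F x)) :
    ((FA_S18_CUF_tau F x ζ hζ g hx y : ↥(FA_S18_CUF_field K w F x)) : LaurentSeries K)
      = FA_S18_CUE_tw ζ (y : LaurentSeries K) := rfl

/-- `τ ∘ σ = σ`. -/
theorem FA_S18_CUF_tau_sigma (ζ : Kˣ) (hζ : ζ ^ w = 1) (g : LaurentSeries K)
    (hx : x = HahnSeries.single (1 : ℤ) (1 : K) * qExpand K w g) (f : ↥F) :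
    FA_S18_CUF_tau F x ζ hζ g hx (FA_S18_CUF_sigma w F x f) = FA_S18_CUF_sigma w F x f := by
  apply Subtype.ext
  rw [FA_S18_CUF_tau_coe, FA_S18_CUF_sigma_coe]
  exact FA_S18_CUE_tw_qExpand ζ w hζ _

/-- `τ x = ζ x`. -/
theorem FA_S18_CUF_tau_x (ζ : Kˣ) (hζ : ζ ^ w = 1) (g : LaurentSeries K)
    (hx : x = HahnSeries.single (1 : ℤ) (1 : K) * qExpand K w g) :
    FA_S18_CUF_tau F x ζ hζ g hx (FA_S18_CUF_x w F x)
      = algebraMap K ↥(FA_S18_CUF_field K w F x) (ζ : K) * FA_S18_CUF_x w F x := by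
  apply Subtype.ext
  rw [FA_S18_CUF_tau_coe, FA_S18_CUF_x_coe]
  show FA_S18_CUE_tw ζ x = algebraMap K (LaurentSeries K) (ζ : K) * x
  have h1 := FA_S18_CUF_tw_x ζ hζ g
  rw [← hx] at h1
  exact h1

end Tau

end Fermat.Agent.S18
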