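import Mathlib
import Fermat.Agent.S18.CuspFieldA

/-!
# S18, leaf N / CUSP: the Kummer field is a function field of degree `≤ [F : K(u)]` over `K(x)`

* `FA_S18_CUF_finrank_adjoin` : `[F : K(y)]` (inside `F`) is `relfinrank K(y) F` (inside `Ω`).
* `FA_S18_CUF_relfinrank_sup_le` : `[E X : X] ≤ [E : B]` for `B ≤ E`, `B ≤ X`, `X / B` finite.
* `FA_S18_CUF_hdeg` : `[F' : K(x)] ≤ [F : K(u)]` if `x ^ w = σ u`.
* `FA_S18_CUF_isFF` : `F'` is a function field in one variable over `K`.
-/

set_option autoImplicit false
set_option linter.unusedSectionVars false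
set_option linter.style.haveILetI false

noncomputable section

namespace Fermat.Agent.S18

open ModularCurve IntermediateField AlgebraicCurve

section General

variable {K Ω : Type} [Field K] [Field Ω] [Algebra K Ω]

theorem FA_S18_CUF_finrank_congr {X Y : IntermediateField K Ω} (h : X = Y) :
    Module.finrank ↥X Ω = Module.finrank ↥Y Ω := by
  subst h
  rfl

/-- `[F : K(y)]` computed inside `F` equals the relative degree computed inside `Ω`. -/
theorem FA_S18_CUF_finrank_adjoin (F : IntermediateField K Ω) (y : ↥F) :
    Module.finrank ↥(IntermediateField.adjoin K {y}) ↥F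
      = IntermediateField.relfinrank (IntermediateField.adjoin K {(y : Ω)}) F := by
  have e1 : IntermediateField.adjoin K {y}
      = (IntermediateField.adjoin K {(y : Ω)}).comap F.val := by
    apply le_antisymm
    · rw [adjoin_le_iff]
      rintro z hz
      rw [Set.mem_singleton_iff] at hz
      subst hz
      show F.val z ∈ IntermediateField.adjoin K {(z : Ω)}
      exact IntermediateField.mem_adjoin_simple_self _ _
    · intro z hz
      have hz' : (z : Ω) ∈ IntermediateField.adjoin K {(y : Ω)} := hz
      have hmap : (IntermediateField.adjoin K {y}).map F.val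
          = IntermediateField.adjoin K {(y : Ω)} := by
        rw [IntermediateField.adjoin_map, Set.image_singleton]
        rfl
      rw [← hmap] at hz'
      obtain ⟨z', hz'', hzz⟩ := (IntermediateField.mem_map _).mp hz'
      have : z' = z := Subtype.ext hzz
      rw [← this]
      exact hz''
  have h2 : Module.finrank ↥(IntermediateField.adjoin K {y}) ↥F
      = Module.finrank ↥((IntermediateField.adjoin K {(y : Ω)}).comap F.val) ↥F := by
    rw [e1]
  rw [h2, IntermediateField.finrank_comap, IntermediateField.fieldRange_val]

/-- `extendScalars` of a supremum. -/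
theorem FA_S18_CUF_extendScalars_sup {B E X : IntermediateField K Ω} (hE : B ≤ E) (hX : B ≤ X) :
    IntermediateField.extendScalars (le_trans hE (le_sup_left : E ≤ E ⊔ X))
      = IntermediateField.extendScalars hE ⊔ IntermediateField.extendScalars hX := by
  apply le_antisymm
  · rw [IntermediateField.extendScalars_le_iff]
    refine sup_le ?_ ?_
    · intro z hz
      exact (le_sup_left : IntermediateField.extendScalars hE
        ≤ IntermediateField.extendScalars hE ⊔ IntermediateField.extendScalars hX) hz
    · intro z hz
      exact (le_sup_right : IntermediateField.extendScalars hX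
        ≤ IntermediateField.extendScalars hE ⊔ IntermediateField.extendScalars hX) hz
  · refine sup_le ?_ ?_
    · rw [IntermediateField.extendScalars_le_extendScalars_iff]
      exact le_sup_left
    · rw [IntermediateField.extendScalars_le_extendScalars_iff]
      exact le_sup_right

/-- `[E X : B] ≤ [E : B] [X : B]`. -/
theorem FA_S18_CUF_relfinrank_sup {B E X : IntermediateField K Ω} (hE : B ≤ E) (hX : B ≤ X) :
    IntermediateField.relfinrank B (E ⊔ X)
      ≤ IntermediateField.relfinrank B E * IntermediateField.relfinrank B X := by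
  rw [IntermediateField.relfinrank_eq_finrank_of_le (le_trans hE (le_sup_left : E ≤ E ⊔ X)),
    IntermediateField.relfinrank_eq_finrank_of_le hE,
    IntermediateField.relfinrank_eq_finrank_of_le hX, FA_S18_CUF_extendScalars_sup hE hX]
  exact IntermediateField.finrank_sup_le _ _

/-- `[E X : X] ≤ [E : B]` if `X / B` is finite. -/
theorem FA_S18_CUF_relfinrank_sup_le {B E X : IntermediateField K Ω} (hE : B ≤ E) (hX : B ≤ X)
    (hfin : IntermediateField.relfinrank B X ≠ 0) :
    IntermediateField.relfinrank X (E ⊔ X) ≤ IntermediateField.relfinrank B E := by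
  have h1 := IntermediateField.relfinrank_mul_relfinrank hX (le_sup_right : X ≤ E ⊔ X)
  have h2 := FA_S18_CUF_relfinrank_sup hE hX
  rw [← h1, mul_comm (IntermediateField.relfinrank B E)] at h2
  exact Nat.le_of_mul_le_mul_left h2 (Nat.pos_of_ne_zero hfin)

/-- `K(x)` is finite over `K(x ^ w)`, `w ≠ 0`. -/
theorem FA_S18_CUF_relfinrank_pow (x : Ω) (w : ℕ) (hw : w ≠ 0) :
    IntermediateField.relfinrank (IntermediateField.adjoin K {x ^ w})
      (IntermediateField.adjoin K {x}) ≠ 0 := by
  have hle : IntermediateField.adjoin K {x ^ w} ≤ IntermediateField.adjoin K {x} := by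
    rw [adjoin_le_iff]
    rintro z hz
    rw [Set.mem_singleton_iff] at hz
    subst hz
    exact pow_mem (IntermediateField.mem_adjoin_simple_self K x) w
  rw [IntermediateField.relfinrank_eq_finrank_of_le hle]
  have hint : IsIntegral ↥(IntermediateField.adjoin K {x ^ w}) x := by
    refine ⟨Polynomial.X ^ w - Polynomial.C (⟨x ^ w,
      IntermediateField.mem_adjoin_simple_self K (x ^ w)⟩ :
        ↥(IntermediateField.adjoin K {x ^ w})), Polynomial.monic_X_pow_sub_C _ hw, ?_⟩
    rw [Polynomial.eval₂_sub, Polynomial.eval₂_pow, Polynomial.eval₂_X, Polynomial.eval₂_C]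
    exact sub_self _
  have heq : IntermediateField.extendScalars hle
      = IntermediateField.adjoin ↥(IntermediateField.adjoin K {x ^ w}) {x} := by
    apply le_antisymm
    · rw [IntermediateField.extendScalars_le_iff, adjoin_le_iff]
      rintro z hz
      rw [Set.mem_singleton_iff] at hz
      subst hz
      exact IntermediateField.mem_adjoin_simple_self _ _
    · rw [adjoin_le_iff]
      rintro z hz
      rw [Set.mem_singleton_iff] at hz
      subst hz
      exact IntermediateField.mem_adjoin_simple_self K z
  rw [heq]
  haveI : FiniteDimensional ↥(IntermediateField.adjoin K {x ^ w})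
      ↥(IntermediateField.adjoin ↥(IntermediateField.adjoin K {x ^ w}) {x}) :=
    IntermediateField.adjoin.finiteDimensional hint
  exact Module.finrank_pos.ne'

end General

section Kummer

variable {K : Type} [Field K] {w : ℕ} [NeZero w]
  (F : IntermediateField K (LaurentSeries K)) (x : LaurentSeries K)

/-- `relfinrank K(x) F' ≤ [F : K(u)]` and `relfinrank K(x) F' ≠ 0`. -/
theorem FA_S18_CUF_relfinrank (u : ↥F)
    (hfin : FiniteDimensional ↥(IntermediateField.adjoin K {u}) ↥F)
    (hxw : x ^ w = qExpand K w (u : LaurentSeries K)) :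
    IntermediateField.relfinrank (IntermediateField.adjoin K {x}) (FA_S18_CUF_field K w F x)
        ≤ Module.finrank ↥(IntermediateField.adjoin K {u}) ↥F ∧
      IntermediateField.relfinrank (IntermediateField.adjoin K {x}) (FA_S18_CUF_field K w F x)
        ≠ 0 := by
  set B : IntermediateField K (LaurentSeries K) := IntermediateField.adjoin K {x ^ w} with hB
  set E : IntermediateField K (LaurentSeries K) := F.map (qExpandAlgHomC K w) with hE
  set X : IntermediateField K (LaurentSeries K) := IntermediateField.adjoin K {x} with hX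
  have hBmap : B = (IntermediateField.adjoin K {(u : LaurentSeries K)}).map
      (qExpandAlgHomC K w) := by
    rw [IntermediateField.adjoin_map, Set.image_singleton, hB, hxw]
    rfl
  have hBE : B ≤ E := by
    rw [hB, adjoin_le_iff]
    rintro z hz
    rw [Set.mem_singleton_iff] at hz
    subst hz
    rw [hxw]
    exact (IntermediateField.mem_map _).mpr ⟨u, u.2, rfl⟩
  have hBX : B ≤ X := by
    rw [hB, adjoin_le_iff]
    rintro z hz
    rw [Set.mem_singleton_iff] at hz
    subst hz
    exact pow_mem (IntermediateField.mem_adjoin_simple_self K x) w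
  have hBXfin : IntermediateField.relfinrank B X ≠ 0 :=
    FA_S18_CUF_relfinrank_pow x w (NeZero.ne w)
  have hBEeq : IntermediateField.relfinrank B E
      = Module.finrank ↥(IntermediateField.adjoin K {u}) ↥F := by
    rw [hBmap, hE, IntermediateField.relfinrank_map_map, FA_S18_CUF_finrank_adjoin]
  have hBEfin : IntermediateField.relfinrank B E ≠ 0 := by
    rw [hBEeq]
    exact Module.finrank_pos.ne'
  have hF' : FA_S18_CUF_field K w F x = E ⊔ X := rfl
  refine ⟨?_, ?_⟩
  · rw [hF', ← hBEeq]
    exact FA_S18_CUF_relfinrank_sup_le hBE hBX hBXfin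
  · rw [hF']
    intro h0
    have h1 := IntermediateField.relfinrank_mul_relfinrank hBX (le_sup_right : X ≤ E ⊔ X)
    rw [h0, mul_zero] at h1
    -- `relfinrank B (E ⊔ X) ≠ 0`
    have h2 : IntermediateField.relfinrank B (E ⊔ X) ≠ 0 := by
      rw [IntermediateField.relfinrank_eq_finrank_of_le
        (le_trans hBE (le_sup_left : E ≤ E ⊔ X)), FA_S18_CUF_extendScalars_sup hBE hBX]
      haveI : FiniteDimensional ↥B ↥(IntermediateField.extendScalars hBE) := by
        apply Module.finite_of_finrank_pos
        rw [← IntermediateField.relfinrank_eq_finrank_of_le hBE]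
        exact Nat.pos_of_ne_zero hBEfin
      haveI : FiniteDimensional ↥B ↥(IntermediateField.extendScalars hBX) := by
        apply Module.finite_of_finrank_pos
        rw [← IntermediateField.relfinrank_eq_finrank_of_le hBX]
        exact Nat.pos_of_ne_zero hBXfin
      exact Module.finrank_pos.ne'
    exact h2 h1.symm

/-- **Degree bound**: `[F' : K(x)] ≤ [F : K(u)]`. -/
theorem FA_S18_CUF_hdeg (u : ↥F)
    (hfin : FiniteDimensional ↥(IntermediateField.adjoin K {u}) ↥F)
    (hxw : x ^ w = qExpand K w (u : LaurentSeries K)) :
    Module.finrank ↥(IntermediateField.adjoin K {FA_S18_CUF_x w F x})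
        ↥(FA_S18_CUF_field K w F x)
      ≤ Module.finrank ↥(IntermediateField.adjoin K {u}) ↥F := by
  rw [FA_S18_CUF_finrank_adjoin]
  exact (FA_S18_CUF_relfinrank F x u hfin hxw).1

/-- `F'` is finite over `K(x)`. -/
theorem FA_S18_CUF_finite (u : ↥F)
    (hfin : FiniteDimensional ↥(IntermediateField.adjoin K {u}) ↥F)
    (hxw : x ^ w = qExpand K w (u : LaurentSeries K)) :
    FiniteDimensional ↥(IntermediateField.adjoin K {FA_S18_CUF_x w F x})
      ↥(FA_S18_CUF_field K w F x) := by
  apply Module.finite_of_finrank_pos
  rw [FA_S18_CUF_finrank_adjoin]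
  exact Nat.pos_of_ne_zero (FA_S18_CUF_relfinrank F x u hfin hxw).2

/-- `x` is transcendental over `K`. -/
theorem FA_S18_CUF_transcendental (u : ↥F) (hu : Transcendental K u)
    (hxw : x ^ w = qExpand K w (u : LaurentSeries K)) :
    Transcendental K (FA_S18_CUF_x w F x) := by
  intro halg
  apply hu
  have h1 : IsAlgebraic K (FA_S18_CUF_sigma w F x u) := by
    have h2 : FA_S18_CUF_sigma w F x u = (FA_S18_CUF_x w F x) ^ w := Subtype.ext hxw.symm
    rw [h2]
    exact halg.pow w
  exact (isAlgebraic_algHom_iff (FA_S18_CUF_sigma w F x)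
    (FA_S18_CUF_sigma w F x).toRingHom.injective).mp h1

/-- **`F'` is a function field in one variable.** -/
theorem FA_S18_CUF_isFF (u : ↥F) (hu : Transcendental K u)
    (hfin : FiniteDimensional ↥(IntermediateField.adjoin K {u}) ↥F)
    (hxw : x ^ w = qExpand K w (u : LaurentSeries K)) :
    FA_RR_IsFF K ↥(FA_S18_CUF_field K w F x) :=
  ⟨FA_S18_CUF_x w F x, FA_S18_CUF_transcendental F x u hu hxw,
    FA_S18_CUF_finite F x u hfin hxw⟩

end Kummer

end Fermat.Agent.S18
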