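import Mathlib
import Fermat.Prelude.Def_ModularCurve_LaurentCoeff
import Fermat.Prelude.Def_ModularCurve_ReductionModL
import Fermat.Prelude.Def_FLTPrelim_Ramification

/-!
# S18, leaf B (Gauss valuation), part 1: the ring of Gauss-integral Laurent series

`K` a field, `A` a valuation subring, `π : A →+* k` a ring hom to a field (in the application
the residue map).  `ι = coeffMap A.subtype : A((q)) → K((q))`, `ρ = coeffMap π : A((q)) → k((q))`.

* `FA_S18_B_IsInt A π y` : `y ∈ K((q))` is a quotient `w / u` of `A`-integral series with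
  `ρ u ≠ 0` (this is the abstract "`v(y) ≥ 0`"; it does NOT say that `y` itself is integral).
* `FA_S18_B_red A π y = ρ w / ρ u` : the reduction (junk value `0` outside the ring).
* `FA_S18_B_ring A π` : the subring of Gauss-integral series, `FA_S18_B_redHom` the reduction
  as a ring hom.
-/

set_option autoImplicit false
set_option linter.unusedSectionVars false

noncomputable section

namespace Fermat.Agent.S18

open ModularCurve

variable {K : Type*} [Field K] (A : ValuationSubring K) {k : Type*} [Field k] (π : A →+* k)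

theorem FA_S18_B_iota_injective : Function.Injective (coeffMap A.subtype) := by
  intro x y h
  ext n
  have h1 := congrArg (fun z => z.coeff n) h
  simp only [coeffMap_coeff] at h1
  exact h1

theorem FA_S18_B_rho_surjective (hπ : Function.Surjective π) :
    Function.Surjective (coeffMap π) := by
  classical
  intro y
  choose g hg using hπ
  refine ⟨HahnSeries.ofSuppBddBelow (fun n => if y.coeff n = 0 then 0 else g (y.coeff n))
    ⟨y.order, ?_⟩, ?_⟩
  · intro n hn
    by_contra hlt
    apply hn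
    show (if y.coeff n = 0 then 0 else g (y.coeff n)) = 0
    rw [if_pos (HahnSeries.coeff_eq_zero_of_lt_order (not_le.mp hlt))]
  · ext n
    rw [coeffMap_coeff]
    show π (if y.coeff n = 0 then 0 else g (y.coeff n)) = y.coeff n
    split_ifs with h
    · rw [map_zero, h]
    · exact hg _

/-- `y` is a quotient of `A`-integral Laurent series with a denominator of nonzero reduction. -/
def FA_S18_B_IsInt (y : LaurentSeries K) : Prop :=
  ∃ w u : LaurentSeries A, coeffMap π u ≠ 0 ∧ coeffMap A.subtype u * y = coeffMap A.subtype w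

variable {A π}

theorem FA_S18_B_iota_ne_zero {u : LaurentSeries A} (hu : coeffMap π u ≠ 0) :
    coeffMap A.subtype u ≠ 0 := by
  intro h
  apply hu
  have : u = 0 := FA_S18_B_iota_injective A (by rw [h, map_zero])
  rw [this, map_zero]

theorem FA_S18_B_isInt_iota (w : LaurentSeries A) : FA_S18_B_IsInt A π (coeffMap A.subtype w) :=
  ⟨w, 1, by rw [map_one]; exact one_ne_zero, by rw [map_one, one_mul]⟩

theorem FA_S18_B_isInt_zero : FA_S18_B_IsInt A π 0 := by
  simpa using FA_S18_B_isInt_iota (A := A) (π := π) 0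

theorem FA_S18_B_isInt_one : FA_S18_B_IsInt A π 1 := by
  simpa using FA_S18_B_isInt_iota (A := A) (π := π) 1

theorem FA_S18_B_isInt_add {y y' : LaurentSeries K} (h : FA_S18_B_IsInt A π y)
    (h' : FA_S18_B_IsInt A π y') : FA_S18_B_IsInt A π (y + y') := by
  obtain ⟨w, u, hu, e⟩ := h
  obtain ⟨w', u', hu', e'⟩ := h'
  refine ⟨w * u' + w' * u, u * u', ?_, ?_⟩
  · rw [map_mul]
    exact mul_ne_zero hu hu'
  · rw [map_mul, map_add, map_mul, map_mul, ← e, ← e']
    ring

theorem FA_S18_B_isInt_mul {y y' : LaurentSeries K} (h : FA_S18_B_IsInt A π y)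
    (h' : FA_S18_B_IsInt A π y') : FA_S18_B_IsInt A π (y * y') := by
  obtain ⟨w, u, hu, e⟩ := h
  obtain ⟨w', u', hu', e'⟩ := h'
  refine ⟨w * w', u * u', ?_, ?_⟩
  · rw [map_mul]
    exact mul_ne_zero hu hu'
  · rw [map_mul, map_mul, ← e, ← e']
    ring

theorem FA_S18_B_isInt_neg {y : LaurentSeries K} (h : FA_S18_B_IsInt A π y) :
    FA_S18_B_IsInt A π (-y) := by
  obtain ⟨w, u, hu, e⟩ := h
  exact ⟨-w, u, hu, by rw [map_neg, ← e, mul_neg]⟩

theorem FA_S18_B_isInt_sub {y y' : LaurentSeries K} (h : FA_S18_B_IsInt A π y)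
    (h' : FA_S18_B_IsInt A π y') : FA_S18_B_IsInt A π (y - y') := by
  rw [sub_eq_add_neg]
  exact FA_S18_B_isInt_add h (FA_S18_B_isInt_neg h')

theorem FA_S18_B_isInt_sum {ι : Type*} (s : Finset ι) (f : ι → LaurentSeries K)
    (h : ∀ i ∈ s, FA_S18_B_IsInt A π (f i)) : FA_S18_B_IsInt A π (∑ i ∈ s, f i) := by
  classical
  induction s using Finset.induction_on with
  | empty => simpa using FA_S18_B_isInt_zero (A := A) (π := π)
  | insert a s ha ih =>
    rw [Finset.sum_insert ha]
    exact FA_S18_B_isInt_add (h a (Finset.mem_insert_self a s))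
      (ih fun i hi => h i (Finset.mem_insert_of_mem hi))

theorem FA_S18_B_isInt_pow {y : LaurentSeries K} (h : FA_S18_B_IsInt A π y) (n : ℕ) :
    FA_S18_B_IsInt A π (y ^ n) := by
  induction n with
  | zero => simpa using FA_S18_B_isInt_one (A := A) (π := π)
  | succ n ih => rw [pow_succ]; exact FA_S18_B_isInt_mul ih h

variable (A π)

/-- The reduction of a Gauss-integral series (`0` outside the ring). -/
def FA_S18_B_red (y : LaurentSeries K) : LaurentSeries k := by
  classical
  exact if h : FA_S18_B_IsInt A π y then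
    coeffMap π h.choose / coeffMap π h.choose_spec.choose else 0

variable {A π}

theorem FA_S18_B_red_eq {y : LaurentSeries K} {w u : LaurentSeries A} (hu : coeffMap π u ≠ 0)
    (e : coeffMap A.subtype u * y = coeffMap A.subtype w) :
    FA_S18_B_red A π y = coeffMap π w / coeffMap π u := by
  classical
  have h : FA_S18_B_IsInt A π y := ⟨w, u, hu, e⟩
  rw [FA_S18_B_red, dif_pos h]
  have hspec := h.choose_spec.choose_spec
  generalize h.choose_spec.choose = u0 at hspec
  generalize h.choose = w0 at hspec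
  obtain ⟨hu', e'⟩ := hspec
  rw [div_eq_div_iff hu' hu, ← map_mul, ← map_mul]
  congr 1
  apply FA_S18_B_iota_injective A
  rw [map_mul, map_mul, ← e, ← e']
  ring

theorem FA_S18_B_red_of_not {y : LaurentSeries K} (h : ¬ FA_S18_B_IsInt A π y) :
    FA_S18_B_red A π y = 0 := by
  classical
  rw [FA_S18_B_red, dif_neg h]

theorem FA_S18_B_red_iota (w : LaurentSeries A) :
    FA_S18_B_red A π (coeffMap A.subtype w) = coeffMap π w := by
  have h := FA_S18_B_red_eq (A := A) (π := π) (y := coeffMap A.subtype w) (w := w) (u := 1)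
    (by rw [map_one]; exact one_ne_zero) (by rw [map_one, one_mul])
  rw [h, map_one, div_one]

theorem FA_S18_B_red_zero : FA_S18_B_red A π (0 : LaurentSeries K) = 0 := by
  have h := FA_S18_B_red_iota (A := A) (π := π) 0
  rwa [map_zero, map_zero] at h

theorem FA_S18_B_red_one : FA_S18_B_red A π (1 : LaurentSeries K) = 1 := by
  have h := FA_S18_B_red_iota (A := A) (π := π) 1
  rwa [map_one, map_one] at h

theorem FA_S18_B_red_add {y y' : LaurentSeries K} (h : FA_S18_B_IsInt A π y)
    (h' : FA_S18_B_IsInt A π y') :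
    FA_S18_B_red A π (y + y') = FA_S18_B_red A π y + FA_S18_B_red A π y' := by
  obtain ⟨w, u, hu, e⟩ := h
  obtain ⟨w', u', hu', e'⟩ := h'
  have e2 : coeffMap A.subtype (u * u') * (y + y') = coeffMap A.subtype (w * u' + w' * u) := by
    rw [map_mul, map_add, map_mul, map_mul, ← e, ← e']
    ring
  rw [FA_S18_B_red_eq (by rw [map_mul]; exact mul_ne_zero hu hu') e2, FA_S18_B_red_eq hu e,
    FA_S18_B_red_eq hu' e', map_add, map_mul, map_mul, map_mul]
  field_simp

theorem FA_S18_B_red_mul {y y' : LaurentSeries K} (h : FA_S18_B_IsInt A π y)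
    (h' : FA_S18_B_IsInt A π y') :
    FA_S18_B_red A π (y * y') = FA_S18_B_red A π y * FA_S18_B_red A π y' := by
  obtain ⟨w, u, hu, e⟩ := h
  obtain ⟨w', u', hu', e'⟩ := h'
  have e2 : coeffMap A.subtype (u * u') * (y * y') = coeffMap A.subtype (w * w') := by
    rw [map_mul, map_mul, ← e, ← e']
    ring
  rw [FA_S18_B_red_eq (by rw [map_mul]; exact mul_ne_zero hu hu') e2, FA_S18_B_red_eq hu e,
    FA_S18_B_red_eq hu' e', map_mul, map_mul]
  field_simp

theorem FA_S18_B_red_neg {y : LaurentSeries K} (h : FA_S18_B_IsInt A π y) :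
    FA_S18_B_red A π (-y) = -FA_S18_B_red A π y := by
  obtain ⟨w, u, hu, e⟩ := h
  have e2 : coeffMap A.subtype u * (-y) = coeffMap A.subtype (-w) := by
    rw [map_neg, ← e, mul_neg]
  rw [FA_S18_B_red_eq hu e2, FA_S18_B_red_eq hu e, map_neg, neg_div]

theorem FA_S18_B_red_sub {y y' : LaurentSeries K} (h : FA_S18_B_IsInt A π y)
    (h' : FA_S18_B_IsInt A π y') :
    FA_S18_B_red A π (y - y') = FA_S18_B_red A π y - FA_S18_B_red A π y' := by
  rw [sub_eq_add_neg, FA_S18_B_red_add h (FA_S18_B_isInt_neg h'), FA_S18_B_red_neg h',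
    sub_eq_add_neg]

theorem FA_S18_B_red_sum {ι : Type*} (s : Finset ι) (f : ι → LaurentSeries K)
    (h : ∀ i ∈ s, FA_S18_B_IsInt A π (f i)) :
    FA_S18_B_red A π (∑ i ∈ s, f i) = ∑ i ∈ s, FA_S18_B_red A π (f i) := by
  classical
  induction s using Finset.induction_on with
  | empty => simpa using FA_S18_B_red_zero (A := A) (π := π)
  | insert a s ha ih =>
    rw [Finset.sum_insert ha, Finset.sum_insert ha,
      FA_S18_B_red_add (h a (Finset.mem_insert_self a s))
        (FA_S18_B_isInt_sum s f fun i hi => h i (Finset.mem_insert_of_mem hi)),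
      ih fun i hi => h i (Finset.mem_insert_of_mem hi)]

theorem FA_S18_B_red_pow {y : LaurentSeries K} (h : FA_S18_B_IsInt A π y) (n : ℕ) :
    FA_S18_B_red A π (y ^ n) = FA_S18_B_red A π y ^ n := by
  induction n with
  | zero => simpa using FA_S18_B_red_one (A := A) (π := π)
  | succ n ih => rw [pow_succ, pow_succ, FA_S18_B_red_mul (FA_S18_B_isInt_pow h n) h, ih]

/-- Units: a Gauss-integral series with nonzero reduction has a Gauss-integral inverse. -/
theorem FA_S18_B_isInt_inv {y : LaurentSeries K} (h : FA_S18_B_IsInt A π y)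
    (hr : FA_S18_B_red A π y ≠ 0) :
    FA_S18_B_IsInt A π y⁻¹ ∧ FA_S18_B_red A π y⁻¹ = (FA_S18_B_red A π y)⁻¹ := by
  obtain ⟨w, u, hu, e⟩ := h
  rw [FA_S18_B_red_eq hu e] at hr ⊢
  have hw : coeffMap π w ≠ 0 := fun h0 => hr (by rw [h0, zero_div])
  have hw' : coeffMap A.subtype w ≠ 0 := FA_S18_B_iota_ne_zero hw
  have hy : y ≠ 0 := by
    rintro rfl
    rw [mul_zero] at e
    exact hw' e.symm
  have e2 : coeffMap A.subtype w * y⁻¹ = coeffMap A.subtype u := by
    rw [← e, mul_assoc, mul_inv_cancel₀ hy, mul_one]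
  exact ⟨⟨u, w, hw, e2⟩, by rw [FA_S18_B_red_eq hw e2, inv_div]⟩

variable (A π)

/-- The subring of Gauss-integral Laurent series. -/
def FA_S18_B_ring : Subring (LaurentSeries K) where
  carrier := {y | FA_S18_B_IsInt A π y}
  mul_mem' := FA_S18_B_isInt_mul
  one_mem' := FA_S18_B_isInt_one
  add_mem' := FA_S18_B_isInt_add
  zero_mem' := FA_S18_B_isInt_zero
  neg_mem' := FA_S18_B_isInt_neg

theorem FA_S18_B_mem_ring {y : LaurentSeries K} :
    y ∈ FA_S18_B_ring A π ↔ FA_S18_B_IsInt A π y := Iff.rfl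

/-- The reduction as a ring hom on the subring of Gauss-integral series. -/
def FA_S18_B_redHom : FA_S18_B_ring A π →+* LaurentSeries k where
  toFun y := FA_S18_B_red A π y.1
  map_one' := FA_S18_B_red_one
  map_mul' y y' := FA_S18_B_red_mul y.2 y'.2
  map_zero' := FA_S18_B_red_zero
  map_add' y y' := FA_S18_B_red_add y.2 y'.2

theorem FA_S18_B_redHom_apply (y : FA_S18_B_ring A π) :
    FA_S18_B_redHom A π y = FA_S18_B_red A π y.1 := rfl

variable {A π}

/-! ### Constants -/

theorem FA_S18_B_iota_C (a : A) :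
    coeffMap A.subtype (HahnSeries.C a) = algebraMap K (LaurentSeries K) (a : K) := by
  rw [algebraMap_laurentSeries_eq_single]
  exact coeffMap_single _ _ _

theorem FA_S18_B_rho_C (a : A) :
    coeffMap π (HahnSeries.C a) = algebraMap k (LaurentSeries k) (π a) := by
  rw [algebraMap_laurentSeries_eq_single]
  exact coeffMap_single _ _ _

theorem FA_S18_B_isInt_const (a : A) :
    FA_S18_B_IsInt A π (algebraMap K (LaurentSeries K) (a : K)) := by
  rw [← FA_S18_B_iota_C]
  exact FA_S18_B_isInt_iota _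

theorem FA_S18_B_red_const (a : A) :
    FA_S18_B_red A π (algebraMap K (LaurentSeries K) (a : K))
      = algebraMap k (LaurentSeries k) (π a) := by
  rw [← FA_S18_B_iota_C, FA_S18_B_red_iota, FA_S18_B_rho_C]

theorem FA_S18_B_isInt_const_mul (a : A) {y : LaurentSeries K} (h : FA_S18_B_IsInt A π y) :
    FA_S18_B_IsInt A π (algebraMap K (LaurentSeries K) (a : K) * y) :=
  FA_S18_B_isInt_mul (FA_S18_B_isInt_const a) h

theorem FA_S18_B_red_const_mul (a : A) {y : LaurentSeries K} (h : FA_S18_B_IsInt A π y) :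
    FA_S18_B_red A π (algebraMap K (LaurentSeries K) (a : K) * y)
      = algebraMap k (LaurentSeries k) (π a) * FA_S18_B_red A π y := by
  rw [FA_S18_B_red_mul (FA_S18_B_isInt_const a) h, FA_S18_B_red_const]

/-! ### Constants of `K` -/

theorem FA_S18_B_mem_of_isInt_const (hπ : ∀ a : A, a ∈ IsLocalRing.maximalIdeal A → π a = 0)
    {c : K} (h : FA_S18_B_IsInt A π (algebraMap K (LaurentSeries K) c)) : c ∈ A := by
  by_contra hc
  obtain ⟨w, u, hu, e⟩ := h
  have hc0 : c ≠ 0 := fun h0 => hc (h0 ▸ A.zero_mem)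
  have hci : c⁻¹ ∈ A := (A.mem_or_inv_mem c).resolve_left hc
  have hm : (⟨c⁻¹, hci⟩ : A) ∈ IsLocalRing.maximalIdeal A := by
    rw [IsLocalRing.mem_maximalIdeal, mem_nonunits_iff]
    intro hunit
    apply hc
    obtain ⟨b, hb⟩ := isUnit_iff_exists_inv.mp hunit
    have h1 : c⁻¹ * (b : K) = 1 := by
      have := congrArg Subtype.val hb
      simpa using this
    have h2 : (b : K) = c := by
      have h3 := congrArg (fun t => c * t) h1
      simp only [← mul_assoc, mul_inv_cancel₀ hc0, one_mul, mul_one] at h3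
      exact h3
    rw [← h2]
    exact b.2
  apply hu
  have hu2 : u = HahnSeries.C (⟨c⁻¹, hci⟩ : A) * w := by
    apply FA_S18_B_iota_injective A
    rw [map_mul, FA_S18_B_iota_C, ← e]
    show coeffMap A.subtype u
      = algebraMap K (LaurentSeries K) c⁻¹ * (coeffMap A.subtype u * algebraMap K (LaurentSeries K) c)
    rw [mul_comm (coeffMap A.subtype u), ← mul_assoc, ← map_mul, inv_mul_cancel₀ hc0, map_one,
      one_mul]
  rw [hu2, map_mul, FA_S18_B_rho_C, hπ _ hm, map_zero, zero_mul]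

/-! ## The modular instance: definitions and TARGETS of leaf B

Notation (binding, see `NOTES/plan/S18.md`): `A` a valuation subring of `ℚ̄`, `k` its residue
field, `F = modularFunctionFieldBar n ⊂ ℚ̄((q))`, `F̄ = modularFunctionFieldFullC k n ⊂ k((q))`.
For `y : F` (or `y : ℚ̄((q))`):  "`y ∈ O`" is `FA_S18_B_IsInt A (residue A) y` and
`red y = FA_S18_B_red A (residue A) y ∈ k((q))`.  Multiplication by a constant `c : ℚ̄` is written
`algebraMap ℚ̄ ℚ̄((q)) c * y`. -/

section Instance

open ModularCurve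

variable (A : ValuationSubring (AlgebraicClosure ℚ)) (n : ℕ) [NeZero n]

/-- The residue map of `A`. -/
abbrev FA_S18_pi : A →+* IsLocalRing.ResidueField A := IsLocalRing.residue A

/-- The valuation ring `O = F ∩ (Gauss-integral series)` as a subring of `F`. -/
def FA_S18_B_O : Subring ↥(modularFunctionFieldBar n) :=
  (FA_S18_B_ring A (FA_S18_pi A)).comap (modularFunctionFieldBar n).val.toRingHom

theorem FA_S18_B_mem_O {y : ↥(modularFunctionFieldBar n)} :
    y ∈ FA_S18_B_O A n ↔ FA_S18_B_IsInt A (FA_S18_pi A) (y : LaurentSeries (AlgebraicClosure ℚ)) :=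
  Iff.rfl

/-- The reduction `O → k((q))` as a ring hom. -/
def FA_S18_B_redO : FA_S18_B_O A n →+* LaurentSeries (IsLocalRing.ResidueField A) :=
  (FA_S18_B_redHom A (FA_S18_pi A)).comp
    (((modularFunctionFieldBar n).val.toRingHom.domRestrict (FA_S18_B_O A n)).codRestrict
      (FA_S18_B_ring A (FA_S18_pi A)) fun y => y.2)

theorem FA_S18_B_redO_apply (y : FA_S18_B_O A n) :
    FA_S18_B_redO A n y
      = FA_S18_B_red A (FA_S18_pi A) ((y : ↥(modularFunctionFieldBar n)) :
          LaurentSeries (AlgebraicClosure ℚ)) := rfl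

/-- **B1 (scaling; `O` is a valuation ring with the value group of `A`)**: every nonzero
`y ∈ F` is a constant times a unit of `O`. -/
def FA_S18_Target_B_scale (ℓ : ℕ) : Prop :=
  ℓ.Prime → A.LiesOverPrime ℓ → ¬ ℓ ∣ n →
    ∀ y ∈ modularFunctionFieldBar n, y ≠ 0 → ∃ c : AlgebraicClosure ℚ, c ≠ 0 ∧
      FA_S18_B_IsInt A (FA_S18_pi A) (algebraMap _ (LaurentSeries (AlgebraicClosure ℚ)) c * y) ∧
      FA_S18_B_red A (FA_S18_pi A) (algebraMap _ (LaurentSeries (AlgebraicClosure ℚ)) c * y) ≠ 0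

/-- **B1 (kernel of `red` is `𝔪·O`)**: `y ∈ O`, `y ≠ 0`, `red y = 0` gives `m ∈ 𝔪`, `m ≠ 0`, with
`m⁻¹ y ∈ O^×`. -/
def FA_S18_Target_B_ker (ℓ : ℕ) : Prop :=
  ℓ.Prime → A.LiesOverPrime ℓ → ¬ ℓ ∣ n →
    ∀ y ∈ modularFunctionFieldBar n, y ≠ 0 → FA_S18_B_IsInt A (FA_S18_pi A) y →
      FA_S18_B_red A (FA_S18_pi A) y = 0 →
      ∃ m : A, m ∈ IsLocalRing.maximalIdeal A ∧ m ≠ 0 ∧
        FA_S18_B_IsInt A (FA_S18_pi A)
          (algebraMap _ (LaurentSeries (AlgebraicClosure ℚ)) (m : AlgebraicClosure ℚ)⁻¹ * y) ∧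
        FA_S18_B_red A (FA_S18_pi A)
          (algebraMap _ (LaurentSeries (AlgebraicClosure ℚ)) (m : AlgebraicClosure ℚ)⁻¹ * y) ≠ 0

/-- **B1 (residue field)**: `red` maps `O` onto `F̄ = modularFunctionFieldFullC k n`. -/
def FA_S18_Target_B_range (ℓ : ℕ) : Prop :=
  ℓ.Prime → A.LiesOverPrime ℓ → ¬ ℓ ∣ n →
    (∀ y ∈ modularFunctionFieldBar n, FA_S18_B_IsInt A (FA_S18_pi A) y →
      FA_S18_B_red A (FA_S18_pi A) y ∈ modularFunctionFieldFullC (IsLocalRing.ResidueField A) n) ∧
    (∀ z ∈ modularFunctionFieldFullC (IsLocalRing.ResidueField A) n,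
      ∃ y ∈ modularFunctionFieldBar n, FA_S18_B_IsInt A (FA_S18_pi A) y ∧
        FA_S18_B_red A (FA_S18_pi A) y = z)

/-- **B3 (integrality)**: for `x = j` or `x = j⁻¹`: `y ∈ O` integral over `ℚ̄[x]` has `red y`
integral over `k[x̄]`; and `y ∈ O` integral over `ℚ̄[j, j⁻¹]` has `red y` integral over
`k[j̄, j̄⁻¹]`. -/
def FA_S18_Target_B_integral (ℓ : ℕ) : Prop :=
  ℓ.Prime → A.LiesOverPrime ℓ → ¬ ℓ ∣ n →
    ∀ y ∈ modularFunctionFieldBar n, FA_S18_B_IsInt A (FA_S18_pi A) y →
      (IsIntegral ↥(Algebra.adjoin (AlgebraicClosure ℚ) {jqModC (AlgebraicClosure ℚ)}) y →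
        IsIntegral ↥(Algebra.adjoin (IsLocalRing.ResidueField A)
          {jqModC (IsLocalRing.ResidueField A)}) (FA_S18_B_red A (FA_S18_pi A) y)) ∧
      (IsIntegral ↥(Algebra.adjoin (AlgebraicClosure ℚ) {(jqModC (AlgebraicClosure ℚ))⁻¹}) y →
        IsIntegral ↥(Algebra.adjoin (IsLocalRing.ResidueField A)
          {(jqModC (IsLocalRing.ResidueField A))⁻¹}) (FA_S18_B_red A (FA_S18_pi A) y)) ∧
      (IsIntegral ↥(Algebra.adjoin (AlgebraicClosure ℚ)
          {jqModC (AlgebraicClosure ℚ), (jqModC (AlgebraicClosure ℚ))⁻¹}) y →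
        IsIntegral ↥(Algebra.adjoin (IsLocalRing.ResidueField A)
          {jqModC (IsLocalRing.ResidueField A), (jqModC (IsLocalRing.ResidueField A))⁻¹})
          (FA_S18_B_red A (FA_S18_pi A) y))

/-- **B4 (cartesian lattices / freeness)**: every finite-dimensional `ℚ̄`-subspace `W ⊂ F` has
a basis `b` consisting of elements of `O` whose reductions are `k`-linearly independent; then
`W ∩ O = ⊕ A·b_i` (last clause), so `W ∩ O` is a free `A`-module of rank `dim W` and
`(W ∩ O)/𝔪 ≅ red (W ∩ O)` has `k`-dimension `dim W`. -/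
def FA_S18_Target_B_cart (ℓ : ℕ) : Prop :=
  ℓ.Prime → A.LiesOverPrime ℓ → ¬ ℓ ∣ n →
    ∀ W : Submodule (AlgebraicClosure ℚ) ↥(modularFunctionFieldBar n),
      FiniteDimensional (AlgebraicClosure ℚ) W →
      ∃ b : Fin (Module.finrank (AlgebraicClosure ℚ) W) → ↥(modularFunctionFieldBar n),
        (∀ i, b i ∈ W) ∧ LinearIndependent (AlgebraicClosure ℚ) b ∧
        (∀ i, FA_S18_B_IsInt A (FA_S18_pi A) (b i : LaurentSeries (AlgebraicClosure ℚ))) ∧
        (∀ c : Fin (Module.finrank (AlgebraicClosure ℚ) W) → IsLocalRing.ResidueField A,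
          (∑ i, algebraMap _ (LaurentSeries (IsLocalRing.ResidueField A)) (c i) *
            FA_S18_B_red A (FA_S18_pi A) (b i : LaurentSeries (AlgebraicClosure ℚ))) = 0 →
          ∀ i, c i = 0) ∧
        (∀ c : Fin (Module.finrank (AlgebraicClosure ℚ) W) → AlgebraicClosure ℚ,
          FA_S18_B_IsInt A (FA_S18_pi A)
            (∑ i, algebraMap _ (LaurentSeries (AlgebraicClosure ℚ)) (c i) *
              (b i : LaurentSeries (AlgebraicClosure ℚ))) → ∀ i, c i ∈ A)

end Instance

end Fermat.Agent.S18
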