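import Mathlib
import Fermat.Agent.S18.CuspTwist
import Fermat.Agent.S18.GaussDefs
import Fermat.Prelude.Thm_ModularCurve_coeffMap_qExpand

/-!
# S18, leaf N / CUSP, part E: descent from the Kummer cover `σ F (x)` to `F`

* `FA_S18_CUE_dec w` : decimation `Σ aₙ tⁿ ↦ Σ a_{wn} qⁿ`; `σ ∘ dec` is the average of the twists by
  the powers of a primitive `w`-th root of unity (`FA_S18_CUE_sigma_dec`).
* Gauss-integrality and reduction are compatible with twists (`FA_S18_CUE_isInt_tw`,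
  `FA_S18_CUE_red_tw`) and descend along `σ = qExpand w` (`FA_S18_CUE_isInt_of_qExpand`).
-/

set_option autoImplicit false
set_option linter.unusedSectionVars false

noncomputable section

namespace Fermat.Agent.S18

open ModularCurve

section Dec

variable {R : Type*} [CommRing R]

/-- Decimation: keep the coefficients at the multiples of `w`. -/
def FA_S18_CUE_dec (w : ℕ) [NeZero w] (f : LaurentSeries R) : LaurentSeries R :=
  HahnSeries.ofSuppBddBelow (fun n : ℤ => f.coeff ((w : ℤ) * n))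
    ⟨min f.order 0, fun n hn => by
      have hw : (1 : ℤ) ≤ w := by exact_mod_cast Nat.pos_of_ne_zero (NeZero.ne w)
      by_contra hlt
      push Not at hlt
      apply hn
      show f.coeff ((w : ℤ) * n) = 0
      apply HahnSeries.coeff_eq_zero_of_lt_order
      have h1 : n < f.order := lt_of_lt_of_le hlt (min_le_left _ _)
      have h2 : n < 0 := lt_of_lt_of_le hlt (min_le_right _ _)
      nlinarith⟩

@[simp] theorem FA_S18_CUE_dec_coeff (w : ℕ) [NeZero w] (f : LaurentSeries R) (n : ℤ) :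
    (FA_S18_CUE_dec w f).coeff n = f.coeff ((w : ℤ) * n) := rfl

theorem FA_S18_CUE_dec_qExpand (w : ℕ) [NeZero w] (f : LaurentSeries R) :
    FA_S18_CUE_dec w (qExpand R w f) = f := by
  ext n
  rw [FA_S18_CUE_dec_coeff, qExpand_coeff_mul]

theorem FA_S18_CUE_coeffMap_dec {S : Type*} [CommRing S] (φ : R →+* S) (w : ℕ) [NeZero w]
    (f : LaurentSeries R) :
    coeffMap φ (FA_S18_CUE_dec w f) = FA_S18_CUE_dec w (coeffMap φ f) := by
  ext n
  rw [coeffMap_coeff, FA_S18_CUE_dec_coeff, FA_S18_CUE_dec_coeff, coeffMap_coeff]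

theorem FA_S18_CUE_dec_add (w : ℕ) [NeZero w] (f g : LaurentSeries R) :
    FA_S18_CUE_dec w (f + g) = FA_S18_CUE_dec w f + FA_S18_CUE_dec w g := by
  ext n
  simp

end Dec

section Avg

variable {K : Type*} [Field K]

/-- Sum of the powers of a `w`-th root of unity `≠ 1`. -/
theorem FA_S18_CUE_geom (w : ℕ) (ξ : K) (h1 : ξ ^ w = 1) (hne : ξ ≠ 1) :
    ∑ m ∈ Finset.range w, ξ ^ m = 0 := by
  have h := mul_neg_geom_sum ξ w
  rw [h1, sub_self] at h
  have hx : (1 - ξ) ≠ 0 := sub_ne_zero.mpr (Ne.symm hne)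
  exact (mul_eq_zero.mp h).resolve_left hx

/-- `σ ∘ dec` is the average of the twists. -/
theorem FA_S18_CUE_sigma_dec (w : ℕ) [NeZero w] (ζ : Kˣ) (hζ : IsPrimitiveRoot ζ w)
    (hw : (w : K) ≠ 0) (f : LaurentSeries K) :
    qExpand K w (FA_S18_CUE_dec w f)
      = HahnSeries.C ((w : K)⁻¹) * ∑ m ∈ Finset.range w, FA_S18_CUE_tw (ζ ^ m) f := by
  ext n
  have hC : ∀ g : LaurentSeries K, (HahnSeries.C ((w : K)⁻¹) * g).coeff n
      = (w : K)⁻¹ * g.coeff n := by
    intro g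
    rw [HahnSeries.C_mul_eq_smul, HahnSeries.coeff_smul, smul_eq_mul]
  rw [hC, HahnSeries.coeff_sum]
  have hsum : ∀ m ∈ Finset.range w, (FA_S18_CUE_tw (ζ ^ m) f).coeff n
      = (((ζ ^ n : Kˣ) : K)) ^ m * f.coeff n := by
    intro m _
    rw [FA_S18_CUE_tw_coeff]
    congr 1
    rw [← Units.val_pow_eq_pow_val]
    congr 1
    rw [← zpow_natCast, ← zpow_natCast, ← zpow_mul, ← zpow_mul, mul_comm]
  rw [Finset.sum_congr rfl hsum, ← Finset.sum_mul]
  by_cases hn : (w : ℤ) ∣ n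
  · obtain ⟨n', rfl⟩ := hn
    rw [qExpand_coeff_mul, FA_S18_CUE_dec_coeff]
    have h1 : ((ζ ^ ((w : ℤ) * n') : Kˣ) : K) = 1 := by
      rw [zpow_mul, zpow_natCast, hζ.pow_eq_one, one_zpow, Units.val_one]
    rw [h1]
    simp only [one_pow, Finset.sum_const, Finset.card_range, nsmul_eq_mul, mul_one]
    rw [← mul_assoc, inv_mul_cancel₀ hw, one_mul]
  · rw [qExpand_coeff_of_not_dvd w _ hn]
    have hne : ((ζ ^ n : Kˣ) : K) ≠ 1 := by
      intro h
      apply hn
      have : ζ ^ n = 1 := Units.ext h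
      exact (hζ.zpow_eq_one_iff_dvd n).mp this
    have h1 : (((ζ ^ n : Kˣ) : K)) ^ w = 1 := by
      rw [← Units.val_pow_eq_pow_val, ← zpow_natCast, ← zpow_mul, mul_comm, zpow_mul,
        zpow_natCast, hζ.pow_eq_one, one_zpow, Units.val_one]
    rw [FA_S18_CUE_geom w _ h1 hne, zero_mul, mul_zero]

/-- `dec (f · σ g) = dec f · g`. -/
theorem FA_S18_CUE_dec_mul_qExpand (w : ℕ) [NeZero w] (ζ : Kˣ) (hζ : IsPrimitiveRoot ζ w)
    (hw : (w : K) ≠ 0) (f g : LaurentSeries K) :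
    FA_S18_CUE_dec w (f * qExpand K w g) = FA_S18_CUE_dec w f * g := by
  apply qExpand_injective w
  rw [map_mul, FA_S18_CUE_sigma_dec w ζ hζ hw, FA_S18_CUE_sigma_dec w ζ hζ hw, mul_assoc,
    Finset.sum_mul]
  congr 1
  refine Finset.sum_congr rfl fun m _ => ?_
  rw [map_mul, FA_S18_CUE_tw_qExpand (ζ ^ m) w (by rw [← pow_mul, mul_comm, pow_mul,
    hζ.pow_eq_one, one_pow])]

end Avg


section Gauss

variable {K : Type*} [Field K] (A : ValuationSubring K) {k : Type*} [Field k] (π : A →+* k)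

/-- The image of a unit of `A` in `K`. -/
abbrev FA_S18_CUE_uK (ζ : Aˣ) : Kˣ := Units.map A.subtype.toMonoidHom ζ

/-- The image of a unit of `A` in `k`. -/
abbrev FA_S18_CUE_uk (ζ : Aˣ) : kˣ := Units.map π.toMonoidHom ζ

variable {A π}

theorem FA_S18_CUE_tw_injective {R : Type*} [CommRing R] (ζ : Rˣ) :
    Function.Injective (FA_S18_CUE_tw ζ) := by
  intro f g h
  have := congrArg (FA_S18_CUE_tw ζ⁻¹) h
  rwa [FA_S18_CUE_tw_tw, FA_S18_CUE_tw_tw, inv_mul_cancel, FA_S18_CUE_tw_one,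
    FA_S18_CUE_tw_one] at this

/-- Gauss-integrality is stable under twists by units of `A`. -/
theorem FA_S18_CUE_isInt_tw (ζ : Aˣ) {y : LaurentSeries K} (h : FA_S18_B_IsInt A π y) :
    FA_S18_B_IsInt A π (FA_S18_CUE_tw (FA_S18_CUE_uK A ζ) y) := by
  obtain ⟨W, U, hU, e⟩ := h
  refine ⟨FA_S18_CUE_tw ζ W, FA_S18_CUE_tw ζ U, ?_, ?_⟩
  · rw [FA_S18_CUE_coeffMap_tw]
    intro h0
    apply hU
    apply FA_S18_CUE_tw_injective (Units.map π.toMonoidHom ζ)
    rw [h0, map_zero]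
  · rw [FA_S18_CUE_coeffMap_tw, FA_S18_CUE_coeffMap_tw, ← map_mul, e]

/-- The reduction commutes with twists. -/
theorem FA_S18_CUE_red_tw (ζ : Aˣ) {y : LaurentSeries K} (h : FA_S18_B_IsInt A π y) :
    FA_S18_B_red A π (FA_S18_CUE_tw (FA_S18_CUE_uK A ζ) y)
      = FA_S18_CUE_tw (FA_S18_CUE_uk A π ζ) (FA_S18_B_red A π y) := by
  obtain ⟨W, U, hU, e⟩ := h
  have hU' : coeffMap π (FA_S18_CUE_tw ζ U) ≠ 0 := by
    rw [FA_S18_CUE_coeffMap_tw]
    intro h0
    apply hU
    apply FA_S18_CUE_tw_injective (Units.map π.toMonoidHom ζ)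
    rw [h0, map_zero]
  have e' : coeffMap A.subtype (FA_S18_CUE_tw ζ U) * FA_S18_CUE_tw (FA_S18_CUE_uK A ζ) y
      = coeffMap A.subtype (FA_S18_CUE_tw ζ W) := by
    rw [FA_S18_CUE_coeffMap_tw, FA_S18_CUE_coeffMap_tw, ← map_mul, e]
  rw [FA_S18_B_red_eq hU' e', FA_S18_B_red_eq hU e, FA_S18_CUE_coeffMap_tw,
    FA_S18_CUE_coeffMap_tw, map_div₀]

/-- Gauss-integrality is stable under `σ = qExpand w`. -/
theorem FA_S18_CUE_isInt_qExpand (w : ℕ) [NeZero w] {y : LaurentSeries K}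
    (h : FA_S18_B_IsInt A π y) : FA_S18_B_IsInt A π (qExpand K w y) := by
  obtain ⟨W, U, hU, e⟩ := h
  refine ⟨qExpand A w W, qExpand A w U, ?_, ?_⟩
  · rw [coeffMap_qExpand]
    intro h0
    apply hU
    apply qExpand_injective w
    rw [h0, map_zero]
  · rw [coeffMap_qExpand, coeffMap_qExpand, ← map_mul, e]

/-- The reduction commutes with `σ = qExpand w`. -/
theorem FA_S18_CUE_red_qExpand (w : ℕ) [NeZero w] {y : LaurentSeries K}
    (h : FA_S18_B_IsInt A π y) :
    FA_S18_B_red A π (qExpand K w y) = qExpand k w (FA_S18_B_red A π y) := by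
  obtain ⟨W, U, hU, e⟩ := h
  have hU' : coeffMap π (qExpand A w U) ≠ 0 := by
    rw [coeffMap_qExpand]
    intro h0
    apply hU
    apply qExpand_injective w
    rw [h0, map_zero]
  have e' : coeffMap A.subtype (qExpand A w U) * qExpand K w y
      = coeffMap A.subtype (qExpand A w W) := by
    rw [coeffMap_qExpand, coeffMap_qExpand, ← map_mul, e]
  rw [FA_S18_B_red_eq hU' e', FA_S18_B_red_eq hU e, coeffMap_qExpand, coeffMap_qExpand, map_div₀]

/-- Gauss-integrality descends along `σ = qExpand w`. -/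
theorem FA_S18_CUE_isInt_of_qExpand (w : ℕ) [NeZero w] (ζ : Kˣ) (hζ : IsPrimitiveRoot ζ w)
    (hw : (w : K) ≠ 0) {y : LaurentSeries K} (h : FA_S18_B_IsInt A π (qExpand K w y)) :
    FA_S18_B_IsInt A π y := by
  obtain ⟨W, U, hU, e⟩ := h
  -- a coefficient of `U` with nonzero reduction
  obtain ⟨m₀, hm₀⟩ : ∃ m₀ : ℤ, (coeffMap π U).coeff m₀ ≠ 0 := by
    by_contra hall
    push Not at hall
    exact hU (HahnSeries.ext (funext fun n => by rw [hall n]; rfl))
  set sh : LaurentSeries A := HahnSeries.single (-m₀) 1 with hsh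
  have hcoeff : ∀ (R : Type _) [CommRing R] (f : LaurentSeries R) (n : ℤ),
      (HahnSeries.single (-m₀) (1 : R) * f).coeff n = f.coeff (n + m₀) := by
    intro R _ f n
    have := HahnSeries.coeff_single_mul_add (x := f) (r := (1 : R)) (a := n + m₀) (b := -m₀)
    rw [one_mul] at this
    rw [← this]
    congr 1
    ring
  refine ⟨FA_S18_CUE_dec w (sh * W), FA_S18_CUE_dec w (sh * U), ?_, ?_⟩
  · intro h0
    apply hm₀
    have h1 := congrArg (fun f => f.coeff 0) h0
    simp only [HahnSeries.coeff_zero] at h1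
    rw [FA_S18_CUE_coeffMap_dec, FA_S18_CUE_dec_coeff, map_mul, hsh, coeffMap_single, map_one,
      hcoeff k, mul_zero, zero_add] at h1
    exact h1
  · rw [FA_S18_CUE_coeffMap_dec, FA_S18_CUE_coeffMap_dec, map_mul, map_mul,
      ← FA_S18_CUE_dec_mul_qExpand w ζ hζ hw, mul_assoc, e]

end Gauss


section Kummer

variable {K : Type*} [Field K]

theorem FA_S18_CUE_dec_zero (w : ℕ) [NeZero w] :
    FA_S18_CUE_dec w (0 : LaurentSeries K) = 0 := by
  ext n
  simp

theorem FA_S18_CUE_dec_sum (w : ℕ) [NeZero w] {ι : Type*} (s : Finset ι)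
    (f : ι → LaurentSeries K) :
    FA_S18_CUE_dec w (∑ i ∈ s, f i) = ∑ i ∈ s, FA_S18_CUE_dec w (f i) := by
  classical
  induction s using Finset.induction_on with
  | empty => simp [FA_S18_CUE_dec_zero]
  | insert a s ha ih => rw [Finset.sum_insert ha, Finset.sum_insert ha, FA_S18_CUE_dec_add, ih]

/-- `x ^ i = t ^ i · σ (g ^ i)` for `x = t · σ g`. -/
theorem FA_S18_CUE_x_pow (w : ℕ) [NeZero w] (g : LaurentSeries K) (i : ℕ) :
    (HahnSeries.single (1 : ℤ) (1 : K) * qExpand K w g) ^ i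
      = HahnSeries.single (i : ℤ) (1 : K) * qExpand K w (g ^ i) := by
  rw [mul_pow, HahnSeries.single_pow, one_pow, map_pow]
  simp

/-- The decimation of `σ a · x ^ i` vanishes for `0 < i < w`. -/
theorem FA_S18_CUE_dec_mul_x_pow (w : ℕ) [NeZero w] (g a : LaurentSeries K) (i : ℕ)
    (hi0 : 0 < i) (hiw : i < w) :
    FA_S18_CUE_dec w (qExpand K w a * (HahnSeries.single (1 : ℤ) (1 : K) * qExpand K w g) ^ i)
      = 0 := by
  ext n
  rw [FA_S18_CUE_dec_coeff, FA_S18_CUE_x_pow, ← mul_assoc, mul_comm (qExpand K w a), mul_assoc,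
    ← map_mul, HahnSeries.coeff_zero]
  have h := HahnSeries.coeff_single_mul_add (x := qExpand K w (a * g ^ i)) (r := (1 : K))
    (a := (w : ℤ) * n - i) (b := (i : ℤ))
  rw [sub_add_cancel, one_mul] at h
  rw [h]
  apply qExpand_coeff_of_not_dvd
  intro hd
  have h2 : (w : ℤ) ∣ (i : ℤ) := by
    have := dvd_sub (dvd_mul_right (w : ℤ) n) hd
    simpa using this
  have h3 : w ∣ i := by exact_mod_cast h2
  exact absurd (Nat.le_of_dvd hi0 h3) (not_le.mpr hiw)

/-- **The `x⁰`-component**: the decimation of `Σ_{i<w} σ(a i) x ^ i` is `a 0`. -/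
theorem FA_S18_CUE_dec_eq (w : ℕ) [NeZero w] (g : LaurentSeries K) (a : ℕ → LaurentSeries K) :
    FA_S18_CUE_dec w (∑ i ∈ Finset.range w,
        qExpand K w (a i) * (HahnSeries.single (1 : ℤ) (1 : K) * qExpand K w g) ^ i) = a 0 := by
  rw [FA_S18_CUE_dec_sum]
  have hw : 0 < w := Nat.pos_of_ne_zero (NeZero.ne w)
  rw [Finset.sum_eq_single_of_mem 0 (Finset.mem_range.mpr hw)]
  · rw [pow_zero, mul_one, FA_S18_CUE_dec_qExpand]
  · intro i hi hi0
    exact FA_S18_CUE_dec_mul_x_pow w g (a i) i (Nat.pos_of_ne_zero hi0) (Finset.mem_range.mp hi)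

end Kummer

section Descent

variable {K : Type*} [Field K] {A : ValuationSubring K} {k : Type*} [Field k] {π : A →+* k}

theorem FA_S18_CUE_C_eq_algebraMap (c : K) :
    (HahnSeries.C c : LaurentSeries K) = algebraMap K (LaurentSeries K) c := by
  rw [algebraMap_laurentSeries_eq_single]
  rfl

/-- **Descent, Gauss part**: the `x⁰`-component `a 0 = dec y'` of a Gauss-integral `y'` is
Gauss-integral, and its reduction is the average of the twists of `red y'`. -/
theorem FA_S18_CUE_descent_isInt (w : ℕ) [NeZero w] (ζ : Aˣ)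
    (hζ : IsPrimitiveRoot (FA_S18_CUE_uK A ζ) w) (winv : A) (hwinv : winv * (w : A) = 1)
    {y' : LaurentSeries K} (hint : FA_S18_B_IsInt A π y') :
    FA_S18_B_IsInt A π (FA_S18_CUE_dec w y') ∧
    qExpand k w (FA_S18_B_red A π (FA_S18_CUE_dec w y'))
      = algebraMap k (LaurentSeries k) (π winv)
        * ∑ m ∈ Finset.range w, FA_S18_CUE_tw (FA_S18_CUE_uk A π (ζ ^ m)) (FA_S18_B_red A π y') := by
  have hcast : ((winv : A) : K) * (w : K) = 1 := by
    have h1 := congrArg (A.subtype) hwinv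
    rw [map_mul, map_natCast, map_one] at h1
    exact h1
  have hwK : (w : K) ≠ 0 := right_ne_zero_of_mul_eq_one hcast
  have hwinvK : ((winv : A) : K) = (w : K)⁻¹ := eq_inv_of_mul_eq_one_left hcast
  have hsig := FA_S18_CUE_sigma_dec w (FA_S18_CUE_uK A ζ) hζ hwK y'
  have hpow : ∀ m : ℕ, (FA_S18_CUE_uK A ζ) ^ m = FA_S18_CUE_uK A (ζ ^ m) := fun m =>
    (map_pow _ _ _).symm
  have hsig' : qExpand K w (FA_S18_CUE_dec w y')
      = algebraMap K (LaurentSeries K) ((winv : A) : K)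
        * ∑ m ∈ Finset.range w, FA_S18_CUE_tw (FA_S18_CUE_uK A (ζ ^ m)) y' := by
    rw [hsig, hwinvK, FA_S18_CUE_C_eq_algebraMap]
    exact congrArg _ (Finset.sum_congr rfl fun m _ => by rw [hpow])
  have hsumInt : FA_S18_B_IsInt A π
      (∑ m ∈ Finset.range w, FA_S18_CUE_tw (FA_S18_CUE_uK A (ζ ^ m)) y') :=
    FA_S18_B_isInt_sum _ _ fun m _ => FA_S18_CUE_isInt_tw (ζ ^ m) hint
  have hInt : FA_S18_B_IsInt A π (qExpand K w (FA_S18_CUE_dec w y')) := by
    rw [hsig']
    exact FA_S18_B_isInt_const_mul winv hsumInt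
  have hdec := FA_S18_CUE_isInt_of_qExpand w (FA_S18_CUE_uK A ζ) hζ hwK hInt
  refine ⟨hdec, ?_⟩
  rw [← FA_S18_CUE_red_qExpand w hdec, hsig', FA_S18_B_red_const_mul winv hsumInt,
    FA_S18_B_red_sum _ _ fun m _ => FA_S18_CUE_isInt_tw (ζ ^ m) hint]
  congr 1
  exact Finset.sum_congr rfl fun m _ => FA_S18_CUE_red_tw (ζ ^ m) hint

/-- **Descent, Gauss part, reduction**: if `red y' = σ̄ z` then `red (dec y') = z`. -/
theorem FA_S18_CUE_descent_red (w : ℕ) [NeZero w] (ζ : Aˣ)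
    (hζ : IsPrimitiveRoot (FA_S18_CUE_uK A ζ) w) (winv : A) (hwinv : winv * (w : A) = 1)
    {y' : LaurentSeries K} (hint : FA_S18_B_IsInt A π y') (z : LaurentSeries k)
    (hz : FA_S18_B_red A π y' = qExpand k w z) :
    FA_S18_B_red A π (FA_S18_CUE_dec w y') = z := by
  obtain ⟨-, h⟩ := FA_S18_CUE_descent_isInt (π := π) w ζ hζ winv hwinv hint
  apply qExpand_injective w
  rw [h, hz]
  have h1 : ∀ m ∈ Finset.range w,
      FA_S18_CUE_tw (FA_S18_CUE_uk A π (ζ ^ m)) (qExpand k w z) = qExpand k w z := by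
    intro m _
    apply FA_S18_CUE_tw_qExpand
    have hζw : ζ ^ w = 1 := by
      have := hζ.pow_eq_one
      rw [← map_pow] at this
      have h2 : ((ζ ^ w : Aˣ) : A) = 1 := by
        have h3 := congrArg (fun u : Kˣ => (u : K)) this
        simp only [Units.coe_map, Units.val_one] at h3
        exact Subtype.ext h3
      exact Units.ext h2
    rw [← map_pow, ← pow_mul, mul_comm, pow_mul, hζw, one_pow, map_one]
  rw [Finset.sum_congr rfl h1, Finset.sum_const, Finset.card_range, nsmul_eq_mul, ← mul_assoc]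
  have h2 : algebraMap k (LaurentSeries k) (π winv) * (w : LaurentSeries k) = 1 := by
    have : (w : LaurentSeries k) = algebraMap k (LaurentSeries k) (π (w : A)) := by
      rw [map_natCast, map_natCast]
    rw [this, ← map_mul, ← map_mul, hwinv, map_one, map_one]
  rw [h2, one_mul]

end Descent

end Fermat.Agent.S18
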