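import Mathlib
import Fermat.Prelude.Def_ModularCurve_X0ModL

/-!
# S18, leaf N, sub-leaf CUSP, part A: the Kummer element `x = (1/j)^{1/w}`

Over a commutative ring `R` in which `w` is a unit:

* `FA_S18_CU_u R = 1 / j ∈ R((q))` (`q · jNum⁻¹`), `FA_S18_CU_j_mul_u : j · u = 1`;
* `FA_S18_CU_exists_root` : `jNum⁻¹` has a `w`-th root `G` with constant coefficient `1`
  (Hensel's lemma in `R⟦X⟧`);
* `FA_S18_CU_exists_x` : there is `x ∈ R((t))`, `x = t · G(t^w)`, with `x ^ w = u(t^w)`.
-/

set_option autoImplicit false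

noncomputable section

namespace Fermat.Agent.S18

open ModularCurve PowerSeries

variable (R : Type*) [CommRing R]

/-- `jNum` over `R`. -/
def FA_S18_CU_jNum : PowerSeries R := jNum.map (Int.castRingHom R)

theorem FA_S18_CU_constantCoeff_jNum : constantCoeff (FA_S18_CU_jNum R) = 1 := by
  rw [FA_S18_CU_jNum, ← PowerSeries.coeff_zero_eq_constantCoeff_apply, PowerSeries.coeff_map,
    PowerSeries.coeff_zero_eq_constantCoeff_apply, constantCoeff_jNum]
  simp

/-- The inverse of `jNum` over `R`. -/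
def FA_S18_CU_g : PowerSeries R := PowerSeries.invOfUnit (FA_S18_CU_jNum R) 1

theorem FA_S18_CU_jNum_mul_g : FA_S18_CU_jNum R * FA_S18_CU_g R = 1 :=
  PowerSeries.mul_invOfUnit _ 1 (by rw [FA_S18_CU_constantCoeff_jNum]; rfl)

theorem FA_S18_CU_constantCoeff_g : constantCoeff (FA_S18_CU_g R) = 1 := by
  have h := congrArg constantCoeff (FA_S18_CU_jNum_mul_g R)
  rwa [map_mul, FA_S18_CU_constantCoeff_jNum, one_mul, map_one] at h

/-- `u = 1 / j` as a Laurent series over `R`. -/
def FA_S18_CU_u : LaurentSeries R :=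
  HahnSeries.single (1 : ℤ) 1 * HahnSeries.ofPowerSeries ℤ R (FA_S18_CU_g R)

theorem FA_S18_CU_j_mul_u : jqModC R * FA_S18_CU_u R = 1 := by
  rw [jqModC, FA_S18_CU_u]
  have h1 : HahnSeries.ofPowerSeries ℤ R (jNum.map (Int.castRingHom R))
      * HahnSeries.ofPowerSeries ℤ R (FA_S18_CU_g R) = 1 := by
    rw [← map_mul]
    have := FA_S18_CU_jNum_mul_g R
    rw [FA_S18_CU_jNum] at this
    rw [this, map_one]
  have h2 : (HahnSeries.single (-1 : ℤ) (1 : R)) * HahnSeries.single (1 : ℤ) 1 = 1 := by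
    rw [HahnSeries.single_mul_single]
    simp
  calc HahnSeries.single (-1 : ℤ) 1 * HahnSeries.ofPowerSeries ℤ R (jNum.map (Int.castRingHom R))
        * (HahnSeries.single (1 : ℤ) 1 * HahnSeries.ofPowerSeries ℤ R (FA_S18_CU_g R))
      = (HahnSeries.single (-1 : ℤ) (1 : R) * HahnSeries.single (1 : ℤ) 1)
        * (HahnSeries.ofPowerSeries ℤ R (jNum.map (Int.castRingHom R))
          * HahnSeries.ofPowerSeries ℤ R (FA_S18_CU_g R)) := by ring
    _ = 1 := by rw [h1, h2, one_mul]

variable {R}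

/-- **Hensel**: a `w`-th root of `jNum⁻¹` with constant coefficient `1`. -/
theorem FA_S18_CU_exists_root (w : ℕ) (hw0 : w ≠ 0) (hw : IsUnit ((w : ℕ) : R)) :
    ∃ G : PowerSeries R, G ^ w = FA_S18_CU_g R ∧ constantCoeff G = 1 := by
  classical
  set I : Ideal (PowerSeries R) := Ideal.span {PowerSeries.X} with hI
  have hmem : ∀ f : PowerSeries R, f ∈ I ↔ constantCoeff f = 0 := by
    intro f
    rw [hI, Ideal.mem_span_singleton, PowerSeries.X_dvd_iff]
  set f : Polynomial (PowerSeries R) :=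
    Polynomial.X ^ w - Polynomial.C (FA_S18_CU_g R) with hf
  have hmonic : f.Monic := Polynomial.monic_X_pow_sub_C _ hw0
  have h1 : f.eval 1 ∈ I := by
    rw [hmem, hf]
    simp [FA_S18_CU_constantCoeff_g]
  have h2 : IsUnit (Ideal.Quotient.mk I (f.derivative.eval 1)) := by
    have hd : f.derivative.eval 1 = ((w : ℕ) : PowerSeries R) := by
      rw [hf, Polynomial.derivative_sub, Polynomial.derivative_C, sub_zero,
        Polynomial.derivative_X_pow, Polynomial.eval_mul, Polynomial.eval_pow, Polynomial.eval_X,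
        one_pow, mul_one, Polynomial.eval_C]
    rw [hd]
    apply IsUnit.map
    have : ((w : ℕ) : PowerSeries R) = PowerSeries.C ((w : ℕ) : R) := by
      simp
    rw [this]
    exact hw.map _
  obtain ⟨G, hG, hG1⟩ := HenselianRing.is_henselian (R := PowerSeries R) (I := I) f hmonic 1 h1 h2
  refine ⟨G, ?_, ?_⟩
  · have := hG
    rw [Polynomial.IsRoot, hf] at this
    simp only [Polynomial.eval_sub, Polynomial.eval_pow, Polynomial.eval_X,
      Polynomial.eval_C] at this
    exact sub_eq_zero.mp this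
  · have := (hmem _).mp hG1
    rw [map_sub, map_one, sub_eq_zero] at this
    exact this

/-- **The Kummer element**: `x = t · G(t^w)` with `x ^ w = u(t^w)`. -/
theorem FA_S18_CU_exists_x (w : ℕ) [NeZero w] (hw : IsUnit ((w : ℕ) : R)) :
    ∃ G : PowerSeries R, constantCoeff G = 1 ∧
      (HahnSeries.single (1 : ℤ) (1 : R) * qExpand R w (HahnSeries.ofPowerSeries ℤ R G)) ^ w
        = qExpand R w (FA_S18_CU_u R) := by
  obtain ⟨G, hG, hG1⟩ := FA_S18_CU_exists_root w (NeZero.ne w) hw
  refine ⟨G, hG1, ?_⟩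
  rw [mul_pow, ← (qExpand R w).map_pow, ← (HahnSeries.ofPowerSeries ℤ R).map_pow, hG,
    FA_S18_CU_u, map_mul, qExpand_single, HahnSeries.single_pow]
  simp

end Fermat.Agent.S18
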