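import Mathlib
import Fermat.Agent.S18.CuspKummer
import Fermat.Agent.S18.CuspDescent
import Fermat.Agent.S18.CuspField

/-!
# S18, leaf N / CUSP: the Kummer element `x` and the elements of the Kummer field `F' = σ(F)(x)`

`w ≥ 1` with `w ∈ Aˣ`, `σ = qExpand w`, `t` the variable of the target Laurent series, `q = t ^ w`.

* `FA_S18_CUK_xA A w hw : LaurentSeries A`, `FA_S18_CUK_x A w hw : LaurentSeries K`,
  `FA_S18_CUK_xbar A π w hw : LaurentSeries k` : the Kummer element `x = t · σ(G)`,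
  `x ^ w = σ(u)`, `u = 1 / j` (`FA_S18_CUK_x_pow`, `FA_S18_CUK_xbar_pow`).
* `FA_S18_CUF_Kum w F x` : the field `σ(F)(x)` as an intermediate field of `K((t)) / K`.
* `FA_S18_CUK_mem_Kum` : every element of `σ(F)(x)` is `Σ_{i<w} σ(a i) x ^ i` with `a i ∈ F`.
* `FA_S18_CUK_dec_mem` : the `x⁰`-component `dec y` of `y ∈ σ(F)(x)` lies in `F`.
-/

set_option autoImplicit false
set_option linter.unusedSectionVars false

noncomputable section

namespace Fermat.Agent.S18

open ModularCurve Polynomial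

section Naturality

variable {R S : Type*} [CommRing R] [CommRing S]

theorem FA_S18_CUK_coeffMap_jqModC (φ : R →+* S) : coeffMap φ (jqModC R) = jqModC S :=
  map_jqModC φ

/-- `u = 1 / j` is natural in the coefficient ring. -/
theorem FA_S18_CUK_coeffMap_u (φ : R →+* S) :
    coeffMap φ (FA_S18_CU_u R) = FA_S18_CU_u S := by
  have h1 : jqModC S * coeffMap φ (FA_S18_CU_u R) = 1 := by
    rw [← FA_S18_CUK_coeffMap_jqModC φ, ← map_mul, FA_S18_CU_j_mul_u, map_one]
  have h2 := FA_S18_CU_j_mul_u S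
  calc coeffMap φ (FA_S18_CU_u R)
      = (jqModC S * FA_S18_CU_u S) * coeffMap φ (FA_S18_CU_u R) := by rw [h2, one_mul]
    _ = FA_S18_CU_u S * (jqModC S * coeffMap φ (FA_S18_CU_u R)) := by ring
    _ = FA_S18_CU_u S := by rw [h1, mul_one]

end Naturality

section Element

variable {K : Type*} [Field K] (A : ValuationSubring K) {k : Type*} [Field k] (π : A →+* k)
  (w : ℕ) [NeZero w] (hw : IsUnit ((w : ℕ) : A))

/-- The `w`-th root `G` of `(q j)⁻¹`, over `A`. -/
def FA_S18_CUK_G : PowerSeries A := Classical.choose (FA_S18_CU_exists_x (R := A) w hw)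

/-- `G` as a Laurent series over `A`. -/
def FA_S18_CUK_gA : LaurentSeries A := HahnSeries.ofPowerSeries ℤ A (FA_S18_CUK_G A w hw)

/-- The Kummer element over `A`. -/
def FA_S18_CUK_xA : LaurentSeries A :=
  HahnSeries.single (1 : ℤ) (1 : A) * qExpand A w (FA_S18_CUK_gA A w hw)

/-- `G` over `K`. -/
def FA_S18_CUK_g : LaurentSeries K := coeffMap A.subtype (FA_S18_CUK_gA A w hw)

/-- **The Kummer element** `x = t · σ(G)` over `K`. -/
def FA_S18_CUK_x : LaurentSeries K :=
  HahnSeries.single (1 : ℤ) (1 : K) * qExpand K w (FA_S18_CUK_g A w hw)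

/-- `G` over `k`. -/
def FA_S18_CUK_gbar : LaurentSeries k := coeffMap π (FA_S18_CUK_gA A w hw)

/-- **The Kummer element** over the residue field. -/
def FA_S18_CUK_xbar : LaurentSeries k :=
  HahnSeries.single (1 : ℤ) (1 : k) * qExpand k w (FA_S18_CUK_gbar A π w hw)

theorem FA_S18_CUK_xA_pow :
    (FA_S18_CUK_xA A w hw) ^ w = qExpand A w (FA_S18_CU_u A) :=
  (Classical.choose_spec (FA_S18_CU_exists_x (R := A) w hw)).2

theorem FA_S18_CUK_x_eq : FA_S18_CUK_x A w hw = coeffMap A.subtype (FA_S18_CUK_xA A w hw) := by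
  rw [FA_S18_CUK_xA, map_mul, coeffMap_single, map_one, coeffMap_qExpand]
  rfl

theorem FA_S18_CUK_xbar_eq : FA_S18_CUK_xbar A π w hw = coeffMap π (FA_S18_CUK_xA A w hw) := by
  rw [FA_S18_CUK_xA, map_mul, coeffMap_single, map_one, coeffMap_qExpand]
  rfl

/-- `x ^ w = σ(u)`. -/
theorem FA_S18_CUK_x_pow : (FA_S18_CUK_x A w hw) ^ w = qExpand K w (FA_S18_CU_u K) := by
  rw [FA_S18_CUK_x_eq, ← map_pow, FA_S18_CUK_xA_pow, coeffMap_qExpand, FA_S18_CUK_coeffMap_u]

/-- `x̄ ^ w = σ(ū)`. -/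
theorem FA_S18_CUK_xbar_pow :
    (FA_S18_CUK_xbar A π w hw) ^ w = qExpand k w (FA_S18_CU_u k) := by
  rw [FA_S18_CUK_xbar_eq, ← map_pow, FA_S18_CUK_xA_pow, coeffMap_qExpand, FA_S18_CUK_coeffMap_u]

/-- `x` is Gauss-integral. -/
theorem FA_S18_CUK_x_isInt : FA_S18_B_IsInt A π (FA_S18_CUK_x A w hw) := by
  rw [FA_S18_CUK_x_eq]
  exact FA_S18_B_isInt_iota _

/-- `red x = x̄`. -/
theorem FA_S18_CUK_x_red : FA_S18_B_red A π (FA_S18_CUK_x A w hw) = FA_S18_CUK_xbar A π w hw := by
  rw [FA_S18_CUK_x_eq, FA_S18_B_red_iota, FA_S18_CUK_xbar_eq]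

/-- The twist of `x`. -/
theorem FA_S18_CUK_tw_x (ξ : Kˣ) (hξ : ξ ^ w = 1) :
    FA_S18_CUE_tw ξ (FA_S18_CUK_x A w hw) = HahnSeries.C (ξ : K) * FA_S18_CUK_x A w hw := by
  rw [FA_S18_CUK_x, map_mul, FA_S18_CUE_tw_single, FA_S18_CUE_tw_qExpand ξ w hξ, zpow_one, mul_one,
    ← mul_assoc]
  congr 1
  rw [HahnSeries.C_apply, HahnSeries.single_mul_single, zero_add, mul_one]

end Element

section Field

variable {K : Type*} [Field K]

/-- **The Kummer field** `σ(F)(x)`, an intermediate field of `K((t)) / K`. -/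
def FA_S18_CUF_Kum (w : ℕ) [NeZero w] (F : IntermediateField K (LaurentSeries K))
    (x : LaurentSeries K) : IntermediateField K (LaurentSeries K) :=
  IntermediateField.adjoin K
    (((F.map (qExpandAlgHomC K w) : IntermediateField K (LaurentSeries K)) :
        Set (LaurentSeries K)) ∪ {x})

theorem FA_S18_CUK_sigma_mem (w : ℕ) [NeZero w] (F : IntermediateField K (LaurentSeries K))
    (x : LaurentSeries K) {a : LaurentSeries K} (ha : a ∈ F) :
    qExpand K w a ∈ FA_S18_CUF_Kum w F x :=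
  IntermediateField.subset_adjoin K _ (Or.inl ⟨a, ha, rfl⟩)

theorem FA_S18_CUK_x_mem (w : ℕ) [NeZero w] (F : IntermediateField K (LaurentSeries K))
    (x : LaurentSeries K) : x ∈ FA_S18_CUF_Kum w F x :=
  IntermediateField.subset_adjoin K _ (Or.inr rfl)

/-- Every element of `σ(F)(x)` is `Σ_{i<w} σ(a i) x ^ i`. -/
theorem FA_S18_CUK_mem_Kum (w : ℕ) [NeZero w] (F : IntermediateField K (LaurentSeries K))
    (x : LaurentSeries K) (c : LaurentSeries K) (hc : c ∈ F) (hx : x ^ w = qExpand K w c)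
    {y : LaurentSeries K} (hy : y ∈ FA_S18_CUF_Kum w F x) :
    ∃ a : ℕ → LaurentSeries K, (∀ i, a i ∈ F) ∧
      y = ∑ i ∈ Finset.range w, qExpand K w (a i) * x ^ i := by
  have hw : 0 < w := Nat.pos_of_ne_zero (NeZero.ne w)
  set E : IntermediateField K (LaurentSeries K) := F.map (qExpandAlgHomC K w) with hE
  have hcE : qExpand K w c ∈ E := ⟨c, hc, rfl⟩
  let cE : E := ⟨qExpand K w c, hcE⟩
  -- `x` is algebraic over `E`
  have hmon : (X ^ w - C cE : E[X]).Monic := monic_X_pow_sub_C cE hw.ne'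
  have hroot : aeval x (X ^ w - C cE : E[X]) = 0 := by
    rw [map_sub, map_pow, aeval_X, aeval_C, hx]
    exact sub_self _
  have halg : IsAlgebraic E x := ⟨_, hmon.ne_zero, hroot⟩
  have hy' : y ∈ IntermediateField.adjoin E ({x} : Set (LaurentSeries K)) := by
    have h1 := IntermediateField.restrictScalars_adjoin (F := K) E ({x} : Set (LaurentSeries K))
    have h2 : y ∈ IntermediateField.restrictScalars K
        (IntermediateField.adjoin E ({x} : Set (LaurentSeries K))) := by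
      rw [h1]; exact hy
    exact h2
  have hy'' : y ∈ Algebra.adjoin E ({x} : Set (LaurentSeries K)) := by
    rw [← IntermediateField.adjoin_simple_toSubalgebra_of_isAlgebraic halg]
    exact hy'
  rw [Algebra.adjoin_singleton_eq_range_aeval] at hy''
  obtain ⟨p, rfl⟩ := hy''
  set r := p %ₘ (X ^ w - C cE) with hr
  have hdeg : r.natDegree < w := by
    have h1 := natDegree_modByMonic_lt p hmon (by
      intro h
      have := congrArg natDegree h
      rw [natDegree_X_pow_sub_C, natDegree_one] at this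
      omega)
    rwa [natDegree_X_pow_sub_C] at h1
  have hval : aeval x p = aeval x r := by
    have h1 := modByMonic_add_div p (X ^ w - C cE)
    conv_lhs => rw [← h1]
    rw [map_add, map_mul, hroot, zero_mul, add_zero]
  have hcoeff : ∀ i, ∃ a ∈ F, qExpand K w a = ((r.coeff i : E) : LaurentSeries K) := by
    intro i
    obtain ⟨a, ha, hae⟩ := (r.coeff i).2
    exact ⟨a, ha, hae⟩
  choose a ha hae using hcoeff
  refine ⟨a, ha, ?_⟩
  show aeval x p = _
  rw [hval, aeval_eq_sum_range' hdeg]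
  refine Finset.sum_congr rfl fun i _ => ?_
  rw [hae i]
  rfl

/-- The `x⁰`-component of an element of `σ(F)(x)` lies in `F`. -/
theorem FA_S18_CUK_dec_mem (w : ℕ) [NeZero w] (F : IntermediateField K (LaurentSeries K))
    (g : LaurentSeries K) (c : LaurentSeries K) (hc : c ∈ F)
    (hx : (HahnSeries.single (1 : ℤ) (1 : K) * qExpand K w g) ^ w = qExpand K w c)
    {y : LaurentSeries K}
    (hy : y ∈ FA_S18_CUF_Kum w F (HahnSeries.single (1 : ℤ) (1 : K) * qExpand K w g)) :
    FA_S18_CUE_dec w y ∈ F := by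
  obtain ⟨a, ha, rfl⟩ := FA_S18_CUK_mem_Kum w F _ c hc hx hy
  rw [FA_S18_CUE_dec_eq]
  exact ha 0

end Field

section FieldCompat

variable {K : Type} [Field K]

/-- The two descriptions of the Kummer field agree. -/
theorem FA_S18_CUK_Kum_eq_field (w : ℕ) [NeZero w] (F : IntermediateField K (LaurentSeries K))
    (x : LaurentSeries K) : FA_S18_CUF_Kum w F x = FA_S18_CUF_field K w F x := by
  apply le_antisymm
  · rw [FA_S18_CUF_Kum, IntermediateField.adjoin_le_iff]
    rintro s (hs | hs)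
    · exact FA_S18_CUF_map_le F x hs
    · rw [Set.mem_singleton_iff] at hs
      rw [hs]
      exact FA_S18_CUF_x_mem F x
  · exact FA_S18_CUF_le F x (fun f hf => FA_S18_CUK_sigma_mem w F x hf) (FA_S18_CUK_x_mem w F x)

/-- Every element of `F' = FA_S18_CUF_field K w F x` is `Σ_{i<w} σ(a i) x ^ i` with `a i ∈ F`. -/
theorem FA_S18_CUK_mem_field (w : ℕ) [NeZero w] (F : IntermediateField K (LaurentSeries K))
    (x : LaurentSeries K) (c : LaurentSeries K) (hc : c ∈ F) (hx : x ^ w = qExpand K w c)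
    {y : LaurentSeries K} (hy : y ∈ FA_S18_CUF_field K w F x) :
    ∃ a : ℕ → LaurentSeries K, (∀ i, a i ∈ F) ∧
      y = ∑ i ∈ Finset.range w, qExpand K w (a i) * x ^ i :=
  FA_S18_CUK_mem_Kum w F x c hc hx (by rw [FA_S18_CUK_Kum_eq_field]; exact hy)

/-- The same with `Fin w`-indexed coefficients. -/
theorem FA_S18_CUK_mem_field_fin (w : ℕ) [NeZero w] (F : IntermediateField K (LaurentSeries K))
    (x : LaurentSeries K) (c : LaurentSeries K) (hc : c ∈ F) (hx : x ^ w = qExpand K w c)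
    {y : LaurentSeries K} (hy : y ∈ FA_S18_CUF_field K w F x) :
    ∃ f : Fin w → LaurentSeries K, (∀ r, f r ∈ F) ∧
      y = ∑ r : Fin w, qExpand K w (f r) * x ^ (r : ℕ) := by
  obtain ⟨a, ha, rfl⟩ := FA_S18_CUK_mem_field w F x c hc hx hy
  refine ⟨fun r => a r, fun r => ha r, ?_⟩
  rw [Finset.sum_range]

/-- The `x⁰`-component of an element of `F'` lies in `F`. -/
theorem FA_S18_CUK_dec_mem_field (w : ℕ) [NeZero w] (F : IntermediateField K (LaurentSeries K))
    (g : LaurentSeries K) (c : LaurentSeries K) (hc : c ∈ F)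
    (hx : (HahnSeries.single (1 : ℤ) (1 : K) * qExpand K w g) ^ w = qExpand K w c)
    {y : LaurentSeries K}
    (hy : y ∈ FA_S18_CUF_field K w F (HahnSeries.single (1 : ℤ) (1 : K) * qExpand K w g)) :
    FA_S18_CUE_dec w y ∈ F :=
  FA_S18_CUK_dec_mem w F g c hc hx (by rw [FA_S18_CUK_Kum_eq_field]; exact hy)

end FieldCompat

end Fermat.Agent.S18
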