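import Mathlib
import Fermat.Agent.S28.DegZero
import Fermat.Agent.S28.IndB
import Fermat.Agent.S24.DBC

/-!
# S18, leaf G (descent), part 1: the degree `[F_N : ℚ̄(j)] = ψ(N)` inside `ℚ̄((q))`

`F_N = modularFunctionFieldBar N = modularFunctionFieldFullC ℚ̄ N = FA_S28_fld ℚ̄ {d | d ∣ N}`,
`κ = ℚ̄(j)`; from the analytic package of S24 (as in `FA_S28_degZero`):
`relrank κ F_N = ψ(N)`.
-/

set_option autoImplicit false
set_option linter.unusedSectionVars false
set_option linter.style.haveILetI false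

noncomputable section

namespace Fermat.Agent.S18

open Fermat.Agent.S24 Fermat.Agent.S28 Fermat.Agent.Mero ModularCurve Polynomial IntermediateField

/-- `coeffEmb` is `coeffMap` of the algebra map. -/
theorem FA_S18_G_coeffEmb_jd (K : Type) [Field K] [Algebra ℚ K] (d : ℕ) [NeZero d] :
    coeffEmb K (qExpand ℚ d jq) = qExpand K d (jqModC K) := by
  have h1 : coeffEmb K (qExpand ℚ d jq) = coeffMap (algebraMap ℚ K) (qExpand ℚ d (jqModC ℚ)) :=
    rfl
  rw [h1, coeffMap_qExpand, coeffMap_jqModC]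

/-- The three descriptions of `F_N` over `ℚ̄` agree (1). -/
theorem FA_S18_G_bar_eq_fullC (N : ℕ) [NeZero N] :
    modularFunctionFieldBar N = modularFunctionFieldFullC (AlgebraicClosure ℚ) N := by
  rw [FA_S24_BC N]
  unfold modularFunctionFieldFullC divisorExpansionsC
  congr 1
  ext x
  constructor
  · rintro ⟨d, hd, hdN, rfl⟩
    exact ⟨d, hd, hdN, FA_S18_G_coeffEmb_jd _ d⟩
  · rintro ⟨d, hd, hdN, rfl⟩
    exact ⟨d, hd, hdN, (FA_S18_G_coeffEmb_jd _ d).symm⟩

/-- The three descriptions of `F_N` agree (2). -/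
theorem FA_S18_G_fullC_eq_fld (k : Type) [Field k] (N : ℕ) [NeZero N] :
    modularFunctionFieldFullC k N = FA_S28_fld k {d | d ∣ N} := by
  unfold modularFunctionFieldFullC divisorExpansionsC FA_S28_fld
  apply le_antisymm
  · rw [adjoin_le_iff]
    rintro x ⟨d, hd, hdN, rfl⟩
    refine subset_adjoin k _ (Set.mem_insert_of_mem _ ⟨d, hdN, ?_⟩)
    rw [FA_S28_jd_eq]
    rfl
  · rw [adjoin_le_iff]
    rintro x (hx | ⟨d, hdN, rfl⟩)
    · rw [hx]
      refine subset_adjoin k _ ⟨1, inferInstance, one_dvd N, ?_⟩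
      rw [qExpand_one_apply]
    · have hd : NeZero d := ⟨fun h => NeZero.ne N (by
        have hdN' : d ∣ N := hdN
        rw [h] at hdN'
        exact zero_dvd_iff.mp hdN')⟩
      refine subset_adjoin k _ ⟨d, hd, hdN, ?_⟩
      rw [FA_S28_jd_eq]
      rfl

theorem FA_S18_G_finrank_congr {K F : Type} [Field K] [Field F] [Algebra K F]
    {X Y : IntermediateField K F} (h : X = Y) : Module.finrank ↥X F = Module.finrank ↥Y F := by
  subst h
  rfl

/-- `relfinrank κ F_N = ψ(N)` over `ℚ̄`. -/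
theorem FA_S18_G_relfinrank (N : ℕ) [NeZero N] :
    IntermediateField.relfinrank (FA_S28_kappa (AlgebraicClosure ℚ)) (modularFunctionFieldBar N)
      = dedekindPsi N := by
  have halg : Algebra.IsAlgebraic ℚ (AlgebraicClosure ℚ) := AlgebraicClosure.isAlgebraic ℚ
  letI algC : Algebra (AlgebraicClosure ℚ) ℂ :=
    (IsAlgClosed.lift (R := ℚ) (S := AlgebraicClosure ℚ) (M := ℂ)).toRingHom.toAlgebra
  letI algM : Algebra (AlgebraicClosure ℚ) FA_Mero_Field :=
    ((algebraMap ℂ FA_Mero_Field).comp (algebraMap (AlgebraicClosure ℚ) ℂ)).toAlgebra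
  have ht : FA_S24_Tower (AlgebraicClosure ℚ) := fun c => rfl
  have hP := FA_S24_props FA_S24_UT FA_S24_UT0 FA_S24_QE FA_S24_TW FA_S24_BDD FA_S24_HOL
    FA_S24_RAT FA_S24_NORM FA_S24_COEF (AlgebraicClosure ℚ) ht N
    (FA_S24_roots_mem (AlgebraicClosure ℚ))
  obtain ⟨τ, hτ, hj⟩ := FA_S28_d0_transfer (AlgebraicClosure ℚ) ht N
  obtain ⟨τ', hτ', hval⟩ := FA_S28_d0_transport (FA_S24_BC N) τ
  have hjmem : coeffEmb (AlgebraicClosure ℚ) jq ∈ modularFunctionFieldBar N :=
    coeffEmb_mem_laurentBaseChange (AlgebraicClosure ℚ)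
      (modularFunctionField_le_full N (jq_mem N))
  set jbar : ↥(modularFunctionFieldBar N) := ⟨_, hjmem⟩ with hjbar
  have hx : τ' jbar = FA_S24_g 1 := (hval _ hjmem ((FA_S24_BC N) ▸ hjmem)).trans (hj _)
  have hfr := FA_S28_d0_finrank hP (modularFunctionFieldBar N) τ' (hτ'.trans hτ) jbar hx
  have hjq : coeffEmb (AlgebraicClosure ℚ) jq = jqModC (AlgebraicClosure ℚ) := by
    have h1 : coeffEmb (AlgebraicClosure ℚ) jq
        = coeffMap (algebraMap ℚ (AlgebraicClosure ℚ)) (jqModC ℚ) := rfl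
    rw [h1, coeffMap_jqModC]
  have e1 : IntermediateField.adjoin (AlgebraicClosure ℚ) {jbar}
      = (FA_S28_kappa (AlgebraicClosure ℚ)).comap (modularFunctionFieldBar N).val := by
    apply le_antisymm
    · rw [adjoin_le_iff]
      rintro x hx
      rw [Set.mem_singleton_iff] at hx
      subst hx
      show (modularFunctionFieldBar N).val jbar ∈ FA_S28_kappa (AlgebraicClosure ℚ)
      show coeffEmb (AlgebraicClosure ℚ) jq ∈ _
      rw [hjq]
      exact IntermediateField.mem_adjoin_simple_self _ _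
    · intro x hx
      have hx' : (x : LaurentSeries (AlgebraicClosure ℚ)) ∈ FA_S28_kappa (AlgebraicClosure ℚ) := hx
      have hmap : (IntermediateField.adjoin (AlgebraicClosure ℚ) {jbar}).map
          (modularFunctionFieldBar N).val = FA_S28_kappa (AlgebraicClosure ℚ) := by
        rw [IntermediateField.adjoin_map, Set.image_singleton]
        show IntermediateField.adjoin _ {coeffEmb (AlgebraicClosure ℚ) jq} = _
        rw [hjq]
        rfl
      rw [← hmap] at hx'
      obtain ⟨y, hy, hyx⟩ := (IntermediateField.mem_map _).mp hx'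
      have : y = x := Subtype.ext hyx
      rw [← this]
      exact hy
  rw [FA_S18_G_finrank_congr e1, IntermediateField.finrank_comap,
    IntermediateField.fieldRange_val] at hfr
  exact hfr

end Fermat.Agent.S18
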