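import Mathlib
import Fermat.Agent.S28.IndB
import Fermat.Agent.S28.Phi
import Fermat.Agent.S24.BIndexPsi

/-!
# S18, leaf G (descent), part 2: `F_{N r²} ∩ k((q^{r²})) = σ(F_N)`, `σ = (q ↦ q^{r²})`

Abstract version over a field `k` with a primitive `r`-th root of unity, given the three
degrees `[F_n : k(j)] = ψ(n)` for `n = N, r², N r²`.

`A₁ = k(j_r)`, `A₂ = k(j_{r²})`, `E₀ = k(j, j_r)`, `E₁ = k(j_r, j_{r²})`, `B₂ = σ(F_N)`:
`[E₁ : A₂] = [E₀ : A₁] ≤ r + 1`, `[F_{r²} : E₁] ≤ r` (`j` is a root of `Φ_r(X, j_r)/(X - j_{r²})`),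
so `[F_{N r²} : A₂] ≤ ψ(N r²) ≤ r (r + 1) ψ(N)` and `[F_{N r²} : B₂] ≤ r (r + 1) < 2 r²`, whereas
`[F_{N r²} : F_{N r²} ∩ k((q^{r²}))] ≥ r²`.
-/

set_option autoImplicit false

noncomputable section

namespace Fermat.Agent.S18

open Fermat.Agent.S24 Fermat.Agent.S28 ModularCurve Polynomial IntermediateField

variable {k : Type} [Field k]

/-- `σ_r ∘ σ_r = σ_{r r}`. -/
theorem FA_S18_G_comp (r : ℕ) [NeZero r] :
    (qExpandAlgHomC k r).comp (qExpandAlgHomC k r) = qExpandAlgHomC k (r * r) := by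
  apply AlgHom.ext
  intro f
  show qExpand k r (qExpand k r f) = qExpand k (r * r) f
  rw [qExpand_qExpand]

theorem FA_S18_G_sigma_jq (m : ℕ) [NeZero m] : qExpandAlgHomC k m (jqModC k) = FA_S28_jd k m := by
  rw [FA_S28_jd_eq]
  rfl

theorem FA_S18_G_sigma_jd (m d : ℕ) [NeZero m] (hd : d ≠ 0) :
    qExpandAlgHomC k m (FA_S28_jd k d) = FA_S28_jd k (m * d) := by
  have : NeZero d := ⟨hd⟩
  exact FA_S28_qExpand_jd m d

/-- No nonzero polynomial of degree `< m` with coefficients in `k((q^m))` kills `j`. -/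
theorem FA_S18_G_ram (m : ℕ) [NeZero m] (X : IntermediateField k (LaurentSeries k))
    (hX : ∀ x ∈ X, ∃ c : LaurentSeries k, qExpand k m c = x)
    (P : Polynomial ↥X) (hP0 : P ≠ 0) (hPx : Polynomial.aeval (jqModC k) P = 0) :
    m ≤ P.natDegree := by
  by_contra hlt
  push Not at hlt
  have hex : ∀ i : ℕ, ∃ c : LaurentSeries k, qExpand k m c = ((P.coeff i : ↥X) :
      LaurentSeries k) := fun i => hX _ (P.coeff i).2
  choose c hc using hex
  have hsum : ∑ i ∈ Finset.range (P.natDegree + 1), qExpand k m (c i) * jqModC k ^ i = 0 := by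
    rw [← hPx, Polynomial.aeval_eq_sum_range]
    refine Finset.sum_congr rfl fun i _ => ?_
    rw [hc i]
    rfl
  have hall := FA_S28_indB_indep m (Finset.range (P.natDegree + 1))
    (fun i hi => by rw [Finset.mem_range] at hi; omega) c hsum
  apply hP0
  refine Polynomial.ext fun i => ?_
  rw [Polynomial.coeff_zero]
  by_cases hi : i ≤ P.natDegree
  · have h1 := hall i (Finset.mem_range.mpr (by omega))
    have h2 := hc i
    rw [h1, map_zero] at h2
    exact Subtype.ext h2.symm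
  · exact Polynomial.coeff_eq_zero_of_natDegree_lt (by omega)

/-- `j` is a root of a monic polynomial of degree `r` over `E₁ = k(j_r, j_{r²})`. -/
theorem FA_S18_G_quot (r : ℕ) [NeZero r] (hr : 2 ≤ r) (hPHI : FA_S28_Target_PHI r) (ζ : k)
    (hζr : IsPrimitiveRoot ζ r) (E₁ : IntermediateField k (LaurentSeries k))
    (h1 : FA_S28_jd k r ∈ E₁) (h2 : FA_S28_jd k (r * r) ∈ E₁) :
    ∃ Q : Polynomial ↥E₁, Q.Monic ∧ Q.natDegree = r ∧ Polynomial.aeval (jqModC k) Q = 0 := by
  have hζ : ζ ≠ 0 := hζr.ne_zero (NeZero.ne r)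
  obtain ⟨P, hmonic, hdeg, hfac⟩ := FA_S28_irr_setup r hPHI ζ hζr hζ (FA_S28_kappa k) le_rfl
  -- transport `P` to `E₁` along `σ_r`
  have hmem : ∀ x : ↥(FA_S28_kappa k), qExpand k r (x : LaurentSeries k) ∈ E₁ := by
    intro x
    have hle : (FA_S28_kappa k).map (qExpandAlgHomC k r) ≤ E₁ := by
      rw [FA_S28_kappa, IntermediateField.adjoin_map, IntermediateField.adjoin_le_iff]
      rintro y ⟨z, hz, rfl⟩
      rw [Set.mem_singleton_iff] at hz
      subst hz
      rw [FA_S18_G_sigma_jq]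
      exact h1
    exact hle ((IntermediateField.mem_map _).mpr ⟨x, x.2, rfl⟩)
  let φ : ↥(FA_S28_kappa k) →+* ↥E₁ :=
    { toFun := fun x => ⟨qExpand k r (x : LaurentSeries k), hmem x⟩
      map_one' := Subtype.ext (by simp)
      map_mul' := fun x y => Subtype.ext (by simp)
      map_zero' := Subtype.ext (by simp)
      map_add' := fun x y => Subtype.ext (by simp) }
  have hφ : (algebraMap ↥E₁ (LaurentSeries k)).comp φ
      = (qExpand k r).comp (algebraMap ↥(FA_S28_kappa k) (LaurentSeries k)) := by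
    ext x
    rfl
  set P' : Polynomial ↥E₁ := P.map φ with hP'
  have hP'monic : P'.Monic := hmonic.map _
  have hP'deg : P'.natDegree = r + 1 := by rw [hP', hmonic.natDegree_map, hdeg]
  have hP'fac : P'.map (algebraMap ↥E₁ (LaurentSeries k))
      = (X - C (jqNModC k (r * r))) * ∏ b : Fin r, (X - C (FA_S28_root ζ hζ r b)) := by
    rw [hP', Polynomial.map_map, hφ, hfac]
  have hjd : jqNModC k (r * r) = FA_S28_jd k (r * r) := (FA_S28_jd_eq (r * r)).symm
  set a : ↥E₁ := ⟨FA_S28_jd k (r * r), h2⟩ with ha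
  have hroot : P'.IsRoot a := by
    have h3 : (P'.map (algebraMap ↥E₁ (LaurentSeries k))).eval (algebraMap ↥E₁ _ a) = 0 := by
      rw [hP'fac, Polynomial.eval_mul, Polynomial.eval_sub, Polynomial.eval_X,
        Polynomial.eval_C, hjd]
      show (FA_S28_jd k (r * r) - FA_S28_jd k (r * r)) * _ = 0
      rw [sub_self, zero_mul]
    rw [Polynomial.eval_map_algebraMap] at h3
    have h4 : algebraMap ↥E₁ (LaurentSeries k) (P'.eval a) = 0 := by
      rw [← h3]
      exact (Polynomial.aeval_algebraMap_apply (LaurentSeries k) a P').symm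
    exact (FaithfulSMul.algebraMap_injective ↥E₁ (LaurentSeries k)) (by rw [h4, map_zero])
  have hfactor : (X - C a) * (P' /ₘ (X - C a)) = P' :=
    Polynomial.mul_divByMonic_eq_iff_isRoot.mpr hroot
  set Q : Polynomial ↥E₁ := P' /ₘ (X - C a) with hQ
  have hQmonic : Q.Monic := by
    have h5 : ((X - C a) * Q).Monic := by rw [hfactor]; exact hP'monic
    exact (Polynomial.monic_X_sub_C a).of_mul_monic_left h5
  have hQdeg : Q.natDegree = r := by
    have h6 := congrArg Polynomial.natDegree hfactor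
    rw [(Polynomial.monic_X_sub_C a).natDegree_mul hQmonic, Polynomial.natDegree_X_sub_C,
      hP'deg] at h6
    omega
  refine ⟨Q, hQmonic, hQdeg, ?_⟩
  have h7 : Polynomial.aeval (jqModC k) P' = 0 := by
    rw [Polynomial.aeval_def, ← Polynomial.eval_map, hP'fac, Polynomial.eval_mul,
      Polynomial.eval_prod]
    have hr0 : 0 < r := by omega
    have h0 : FA_S28_root ζ hζ r (⟨0, hr0⟩ : Fin r) = jqModC k := by
      ext n
      rw [FA_S28_root_coeff]
      simp
    rw [Finset.prod_eq_zero (Finset.mem_univ (⟨0, hr0⟩ : Fin r)) (by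
      rw [Polynomial.eval_sub, Polynomial.eval_X, Polynomial.eval_C, h0, sub_self]), mul_zero]
  rw [← hfactor, map_mul, map_sub, Polynomial.aeval_X, Polynomial.aeval_C] at h7
  rcases mul_eq_zero.mp h7 with h8 | h8
  · exfalso
    have h9 : jqModC k = FA_S28_jd k (r * r) := sub_eq_zero.mp h8
    have h10 := congrArg (fun f : LaurentSeries k => f.coeff (-1)) h9
    simp only [coeff_jqModC_neg_one] at h10
    rw [FA_S28_jd_eq, jqNModC, qExpand_coeff_of_not_dvd] at h10
    · exact one_ne_zero h10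
    · intro hd
      have h11 : ((r * r : ℕ) : ℤ) ∣ 1 := by simpa using hd
      have h12 : (r * r : ℕ) ∣ 1 := by exact_mod_cast h11
      have h13 : r * r = 1 := Nat.dvd_one.mp h12
      nlinarith
  · exact h8

end Fermat.Agent.S18
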