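import Mathlib
import Fermat.Agent.S18.DescentBound
import Fermat.Agent.S28.IndInduct

/-!
# S18, leaf G (descent), part 3: `F_{N r²} ∩ k((q^{r²})) ≤ σ(F_N)` (abstract form)
-/

set_option autoImplicit false

noncomputable section

namespace Fermat.Agent.S18

open Fermat.Agent.S24 Fermat.Agent.S28 ModularCurve Polynomial IntermediateField

variable {k : Type} [Field k]

/-- From a cardinal bound to a natural-number bound. -/
theorem FA_S18_G_relfinrank_le {F E : Type} [Field F] [Field E] [Algebra F E]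
    (A B : IntermediateField F E) (n : ℕ) (h : relrank A B ≤ n) :
    relfinrank A B ≠ 0 ∧ relfinrank A B ≤ n := by
  have hlt : relrank A B < Cardinal.aleph0 := lt_of_le_of_lt h (Cardinal.natCast_lt_aleph0)
  have h0 : relrank A B ≠ 0 := by
    unfold relrank Subfield.relrank
    exact rank_pos.ne'
  refine ⟨Cardinal.toNat_ne_zero.mpr ⟨h0, hlt⟩, ?_⟩
  have := Cardinal.toNat_le_toNat h (Cardinal.natCast_lt_aleph0)
  rwa [Cardinal.toNat_natCast] at this

/-- From a cardinal lower bound to a natural-number lower bound, in the finite case. -/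
theorem FA_S18_G_le_relfinrank {F E : Type} [Field F] [Field E] [Algebra F E]
    (A B : IntermediateField F E) (n : ℕ) (h : (n : Cardinal) ≤ relrank A B)
    (hfin : relfinrank A B ≠ 0) : n ≤ relfinrank A B := by
  have hlt : relrank A B < Cardinal.aleph0 := (Cardinal.toNat_ne_zero.mp hfin).2
  have := Cardinal.toNat_le_toNat h hlt
  rwa [Cardinal.toNat_natCast] at this

theorem FA_S18_G_psi_pos (n : ℕ) (hn : n ≠ 0) : 0 < dedekindPsi n := by
  rw [FA_S24_psi_def]
  apply Finset.sum_pos'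
  · intro d _
    exact Nat.zero_le _
  · refine ⟨1, ?_, ?_⟩
    · rw [Finset.mem_filter, Nat.mem_divisors]
      exact ⟨⟨one_dvd n, hn⟩, squarefree_one⟩
    · rw [Nat.div_one]
      exact Nat.pos_of_ne_zero hn

theorem FA_S18_G_psi_sq (r : ℕ) (hr : r.Prime) : dedekindPsi (r * r) = r * (r + 1) := by
  rw [FA_S24_psi_mul_prime_of_dvd hr hr.pos dvd_rfl]
  have h1 := FA_S24_psi_mul_prime_of_not_dvd (M := 1) hr one_pos
    (by rw [Nat.dvd_one]; exact hr.one_lt.ne')
  rw [one_mul, dedekindPsi_one, mul_one] at h1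
  rw [h1]

theorem FA_S18_G_psi_le (r : ℕ) (hr : r.Prime) (N : ℕ) (hN : N ≠ 0) :
    dedekindPsi (N * (r * r)) ≤ r * (r + 1) * dedekindPsi N := by
  have hNr : 0 < N * r := Nat.mul_pos (Nat.pos_of_ne_zero hN) hr.pos
  rw [← mul_assoc, FA_S24_psi_mul_prime_of_dvd hr hNr (Dvd.intro_left N rfl),
    FA_S24_psi_mul_prime hr (Nat.pos_of_ne_zero hN)]
  split_ifs
  · rw [mul_assoc]
    apply Nat.mul_le_mul_left
    apply Nat.mul_le_mul_right
    omega
  · rw [mul_assoc]

/-- **The intersection** (and finiteness).  Given the degrees `[F_n : k(j)] = ψ(n)` for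
`n = N, r², N r²`: `F_{N r²}` is finite over `σ(F_N)` and `F_{N r²} ∩ k((q^{r²})) ≤ σ(F_N)`. -/
theorem FA_S18_G_inter_aux (r : ℕ) [NeZero r] (hr : r.Prime) (hPHI : FA_S28_Target_PHI r) (ζ : k)
    (hζr : IsPrimitiveRoot ζ r) (N : ℕ) (hN : N ≠ 0)
    (d1 : relfinrank (FA_S28_kappa k) (FA_S28_fld k {d | d ∣ N}) = dedekindPsi N)
    (d2 : relfinrank (FA_S28_kappa k) (FA_S28_fld k {d | d ∣ r * r}) = dedekindPsi (r * r))
    (d3 : relfinrank (FA_S28_kappa k) (FA_S28_fld k {d | d ∣ N * (r * r)})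
      = dedekindPsi (N * (r * r))) :
    relfinrank ((FA_S28_fld k {d | d ∣ N}).map (qExpandAlgHomC k (r * r)))
        (FA_S28_fld k {d | d ∣ N * (r * r)}) ≠ 0 ∧
    (FA_S28_fld k {d | d ∣ N}).map (qExpandAlgHomC k (r * r))
        ≤ FA_S28_fld k {d | d ∣ N * (r * r)} ∧
    FA_S28_fld k {d | d ∣ N * (r * r)} ⊓ (qExpandAlgHomC k (r * r)).fieldRange
      ≤ (FA_S28_fld k {d | d ∣ N}).map (qExpandAlgHomC k (r * r)) := by
  have hr2 : 2 ≤ r := hr.two_le
  have hrr : NeZero (r * r) := ⟨Nat.mul_ne_zero hr.ne_zero hr.ne_zero⟩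
  have hN'0 : N * (r * r) ≠ 0 := Nat.mul_ne_zero hN (NeZero.ne (r * r))
  set σ := qExpandAlgHomC k (r * r) with hσ
  set σr := qExpandAlgHomC k r with hσr
  set κ := FA_S28_kappa k with hκ
  set FN := FA_S28_fld k {d | d ∣ N} with hFN
  set FM := FA_S28_fld k {d | d ∣ r * r} with hFM
  set FN' := FA_S28_fld k {d | d ∣ N * (r * r)} with hFN'
  set A₁ := κ.map σr with hA₁
  set A₂ := κ.map σ with hA₂
  set E₀ : IntermediateField k (LaurentSeries k) :=
    IntermediateField.adjoin k {jqModC k, FA_S28_jd k r} with hE₀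
  set E₁ := E₀.map σr with hE₁
  set B₂ := FN.map σ with hB₂
  set K' := FN' ⊓ σ.fieldRange with hK'
  -- basic memberships
  have hjdN' : ∀ d, d ∣ N * (r * r) → FA_S28_jd k d ∈ FN' := fun d hd =>
    IntermediateField.subset_adjoin k _ (Set.mem_insert_of_mem _ ⟨d, hd, rfl⟩)
  have hjdM : ∀ d, d ∣ r * r → FA_S28_jd k d ∈ FM := fun d hd =>
    IntermediateField.subset_adjoin k _ (Set.mem_insert_of_mem _ ⟨d, hd, rfl⟩)
  have hjN' : jqModC k ∈ FN' := IntermediateField.subset_adjoin k _ (Set.mem_insert _ _)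
  have hA₁A₂ : A₁.map σr = A₂ := by
    rw [hA₁, IntermediateField.map_map, FA_S18_G_comp]
  have hA₁eq : A₁ = IntermediateField.adjoin k {FA_S28_jd k r} := by
    rw [hA₁, hκ, FA_S28_kappa, IntermediateField.adjoin_map, Set.image_singleton,
      FA_S18_G_sigma_jq]
  have hE₁eq : E₁ = IntermediateField.adjoin k {FA_S28_jd k r, FA_S28_jd k (r * r)} := by
    rw [hE₁, hE₀, IntermediateField.adjoin_map, Set.image_pair, FA_S18_G_sigma_jq,
      FA_S18_G_sigma_jd r r hr.ne_zero]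
  -- inclusions
  have hκM : κ ≤ FM := FA_S28_ii_kappa_le _
  have hκN : κ ≤ FN := FA_S28_ii_kappa_le _
  have hκN' : κ ≤ FN' := FA_S28_ii_kappa_le _
  have hMN' : FM ≤ FN' := FA_S28_ii_fld_mono (fun d hd => Dvd.dvd.mul_left hd N)
  have hA₁E₀ : A₁ ≤ E₀ := by
    rw [hA₁eq, IntermediateField.adjoin_le_iff]
    rintro x hx
    rw [Set.mem_singleton_iff] at hx
    rw [hx]
    exact IntermediateField.subset_adjoin k _ (Set.mem_insert_of_mem _ rfl)
  have hA₂E₁ : A₂ ≤ E₁ := by
    rw [← hA₁A₂]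
    exact IntermediateField.map_mono _ hA₁E₀
  have hE₁M : E₁ ≤ FM := by
    rw [hE₁eq, IntermediateField.adjoin_le_iff]
    rintro x (hx | hx)
    · rw [hx]
      exact hjdM r (Dvd.intro r rfl)
    · rw [Set.mem_singleton_iff] at hx
      rw [hx]
      exact hjdM (r * r) dvd_rfl
  have hA₂B₂ : A₂ ≤ B₂ := IntermediateField.map_mono _ hκN
  have hB₂N' : B₂ ≤ FN' := by
    rw [hB₂, hFN, FA_S28_fld, IntermediateField.adjoin_map, IntermediateField.adjoin_le_iff]
    rintro x ⟨y, hy, rfl⟩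
    rcases hy with hy | ⟨d, hd, rfl⟩
    · rw [hy, FA_S18_G_sigma_jq]
      exact hjdN' (r * r) (Dvd.intro_left N rfl)
    · have hd0 : d ≠ 0 := fun h => hN (by
        have hd' : d ∣ N := hd
        rw [h] at hd'
        exact zero_dvd_iff.mp hd')
      rw [FA_S18_G_sigma_jd (r * r) d hd0]
      have hd' : d ∣ N := hd
      exact hjdN' (r * r * d) (by rw [mul_comm]; exact Nat.mul_dvd_mul_right hd' (r * r))
  have hB₂K' : B₂ ≤ K' := by
    apply le_inf hB₂N'
    intro x hx
    obtain ⟨y, _, rfl⟩ := (IntermediateField.mem_map _).mp hx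
    exact ⟨y, rfl⟩
  have hK'N' : K' ≤ FN' := inf_le_left
  -- the bounds
  have b1 : relrank A₁ E₀ ≤ ((r + 1 : ℕ) : Cardinal) := by
    obtain ⟨P, hmonic, hdeg, hroot⟩ := FA_S28_indB_modEq r hPHI ζ hζr
    have := FA_S28_indB_relrank_le A₁ {jqModC k, FA_S28_jd k r} hA₁E₀ (jqModC k) (by
        rintro y (hy | hy)
        · exact Or.inr hy
        · rw [Set.mem_singleton_iff] at hy
          rw [hy, hA₁eq]
          exact Or.inl (IntermediateField.mem_adjoin_simple_self k _)) P hmonic hroot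
    rw [hdeg] at this
    exact this
  have b1' : relrank A₂ E₁ ≤ ((r + 1 : ℕ) : Cardinal) := by
    rw [← hA₁A₂, hE₁, IntermediateField.relrank_map_map]
    exact b1
  have b2 : relrank E₁ FM ≤ ((r : ℕ) : Cardinal) := by
    obtain ⟨Q, hQmonic, hQdeg, hQroot⟩ := FA_S18_G_quot r hr2 hPHI ζ hζr E₁
      (by rw [hE₁eq]; exact IntermediateField.subset_adjoin k _ (Set.mem_insert _ _))
      (by rw [hE₁eq]; exact IntermediateField.subset_adjoin k _ (Set.mem_insert_of_mem _ rfl))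
    have := FA_S28_indB_relrank_le E₁ (insert (jqModC k) (FA_S28_jd k '' {d | d ∣ r * r}))
      hE₁M (jqModC k) (by
        rintro y (hy | ⟨d, hd, rfl⟩)
        · exact Or.inr hy
        · have hd' : d ∣ r ^ 2 := by rw [pow_two]; exact hd
          obtain ⟨i, hi, rfl⟩ := (Nat.dvd_prime_pow hr).mp hd'
          interval_cases i
          · right
            rw [pow_zero, FA_S28_jd_one]
          · left
            rw [pow_one, hE₁eq]
            exact IntermediateField.subset_adjoin k _ (Set.mem_insert _ _)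
          · left
            rw [pow_two, hE₁eq]
            exact IntermediateField.subset_adjoin k _ (Set.mem_insert_of_mem _ rfl))
      Q hQmonic hQroot
    rw [hQdeg] at this
    exact this
  have b3 : ((r * r : ℕ) : Cardinal) ≤ relrank K' FN' :=
    FA_S28_indB_le_relrank K' FN' hK'N' (jqModC k) hjN' (r * r)
      (fun P hP0 hPx => FA_S18_G_ram (r * r) K' (fun x hx => by
        obtain ⟨c, hc⟩ := (inf_le_right : K' ≤ σ.fieldRange) hx
        exact ⟨c, hc⟩) P hP0 hPx)
  -- natural numbers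
  obtain ⟨ha0, ha⟩ := FA_S18_G_relfinrank_le A₂ E₁ (r + 1) b1'
  obtain ⟨hb0, hb⟩ := FA_S18_G_relfinrank_le E₁ FM r b2
  have e1 : relfinrank A₂ B₂ = dedekindPsi N := by
    rw [hA₂, hB₂, IntermediateField.relfinrank_map_map]
    exact d1
  have e2 : relfinrank κ FM * relfinrank FM FN' = relfinrank κ FN' :=
    IntermediateField.relfinrank_mul_relfinrank hκM hMN'
  have e3 : relfinrank A₂ E₁ * relfinrank E₁ FM = relfinrank A₂ FM :=
    IntermediateField.relfinrank_mul_relfinrank hA₂E₁ hE₁M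
  have e4 : relfinrank A₂ FM * relfinrank FM FN' = relfinrank A₂ FN' :=
    IntermediateField.relfinrank_mul_relfinrank (hA₂E₁.trans hE₁M) hMN'
  have e5 : relfinrank A₂ B₂ * relfinrank B₂ FN' = relfinrank A₂ FN' :=
    IntermediateField.relfinrank_mul_relfinrank hA₂B₂ hB₂N'
  have e6 : relfinrank B₂ K' * relfinrank K' FN' = relfinrank B₂ FN' :=
    IntermediateField.relfinrank_mul_relfinrank hB₂K' hK'N'
  rw [d2, d3, FA_S18_G_psi_sq r hr] at e2
  rw [e1] at e5
  have hψN : 0 < dedekindPsi N := FA_S18_G_psi_pos N hN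
  have hψN' : 0 < dedekindPsi (N * (r * r)) := FA_S18_G_psi_pos _ hN'0
  have hψle := FA_S18_G_psi_le r hr N hN
  set a := relfinrank A₂ E₁
  set b := relfinrank E₁ FM
  set t := relfinrank FM FN'
  set ρ := relfinrank B₂ FN'
  set c := relfinrank B₂ K'
  set e := relfinrank K' FN'
  have ht0 : t ≠ 0 := by
    intro h
    rw [h, mul_zero] at e2
    omega
  have hρ0 : ρ ≠ 0 := by
    intro h
    rw [h, mul_zero] at e5
    rw [← e5, ← e3] at e4
    rcases Nat.mul_eq_zero.mp e4 with h1 | h1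
    · rcases Nat.mul_eq_zero.mp h1 with h2 | h2
      · exact ha0 h2
      · exact hb0 h2
    · exact ht0 h1
  have hc0 : c ≠ 0 := fun h => hρ0 (by rw [← e6, h, zero_mul])
  have he0 : e ≠ 0 := fun h => hρ0 (by rw [← e6, h, mul_zero])
  have he : r * r ≤ e := FA_S18_G_le_relfinrank K' FN' (r * r) b3 he0
  -- `ψ(N) ρ = a b t ≤ (r + 1) r t = ψ(N r²) ≤ r (r + 1) ψ(N)`
  have hρle : ρ ≤ r * (r + 1) := by
    have h1 : dedekindPsi N * ρ ≤ dedekindPsi N * (r * (r + 1)) := by
      calc dedekindPsi N * ρ = a * b * t := by rw [e5, ← e4, ← e3]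
        _ ≤ (r + 1) * r * t := Nat.mul_le_mul_right _ (Nat.mul_le_mul ha hb)
        _ = r * (r + 1) * t := by ring
        _ = dedekindPsi (N * (r * r)) := e2
        _ ≤ r * (r + 1) * dedekindPsi N := hψle
        _ = dedekindPsi N * (r * (r + 1)) := by ring
    exact Nat.le_of_mul_le_mul_left h1 hψN
  have hc1 : c = 1 := by
    by_contra hne
    have hc2 : 2 ≤ c := by omega
    have h2 : 2 * (r * r) ≤ c * e := Nat.mul_le_mul hc2 he
    rw [e6] at h2
    nlinarith
  exact ⟨hρ0, hB₂N', IntermediateField.relfinrank_eq_one_iff.mp hc1⟩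

/-- **The intersection.**  Given the degrees `[F_n : k(j)] = ψ(n)` for `n = N, r², N r²`:
`F_{N r²} ∩ k((q^{r²})) ≤ σ(F_N)`. -/
theorem FA_S18_G_inter (r : ℕ) [NeZero r] (hr : r.Prime) (hPHI : FA_S28_Target_PHI r) (ζ : k)
    (hζr : IsPrimitiveRoot ζ r) (N : ℕ) (hN : N ≠ 0)
    (d1 : relfinrank (FA_S28_kappa k) (FA_S28_fld k {d | d ∣ N}) = dedekindPsi N)
    (d2 : relfinrank (FA_S28_kappa k) (FA_S28_fld k {d | d ∣ r * r}) = dedekindPsi (r * r))
    (d3 : relfinrank (FA_S28_kappa k) (FA_S28_fld k {d | d ∣ N * (r * r)})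
      = dedekindPsi (N * (r * r))) :
    FA_S28_fld k {d | d ∣ N * (r * r)} ⊓ (qExpandAlgHomC k (r * r)).fieldRange
      ≤ (FA_S28_fld k {d | d ∣ N}).map (qExpandAlgHomC k (r * r)) :=
  (FA_S18_G_inter_aux r hr hPHI ζ hζr N hN d1 d2 d3).2.2

end Fermat.Agent.S18
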