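import Mathlib
import Fermat.Agent.S28.IndDefs
import Fermat.Agent.S28.IndBOrd

/-!
# S18, leaf G (descent), part 4: a `p`-th root of an element of `k((q^m))`

If `h ^ p = c · g(q^m)` with `p ∣ ord g`, then `h ∈ k((q^m))` (`k` algebraically closed with a
primitive `m`-th root of unity).
-/

set_option autoImplicit false

noncomputable section

namespace Fermat.Agent.S18

open Fermat.Agent.S28 ModularCurve Polynomial

variable {k : Type} [Field k]

/-- The order of `g(q^m)`. -/
theorem FA_S18_G_order_qExpand (m : ℕ) [NeZero m] (g : LaurentSeries k) (hg : g ≠ 0) :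
    (qExpand k m g).order = (m : ℤ) * g.order := by
  have hm : (0 : ℤ) < m := by exact_mod_cast Nat.pos_of_ne_zero (NeZero.ne m)
  have hne : qExpand k m g ≠ 0 := fun h => hg (qExpand_injective m (by rw [h, map_zero]))
  apply le_antisymm
  · apply HahnSeries.order_le_of_coeff_ne_zero
    rw [qExpand_coeff_mul]
    exact HahnSeries.coeff_order_eq_zero.not.mpr hg
  · rw [HahnSeries.le_order_iff_forall hne]
    intro n hn
    by_cases hd : (m : ℤ) ∣ n
    · obtain ⟨n', rfl⟩ := hd
      rw [qExpand_coeff_mul]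
      exact HahnSeries.coeff_eq_zero_of_lt_order (lt_of_mul_lt_mul_left hn hm.le)
    · exact qExpand_coeff_of_not_dvd m g hd

/-- A series supported on `m ℤ` is in the range of `qExpand m`. -/
theorem FA_S18_G_mem_range (m : ℕ) [NeZero m] (h : LaurentSeries k)
    (hsupp : ∀ n : ℤ, h.coeff n ≠ 0 → (m : ℤ) ∣ n) : ∃ h₀ : LaurentSeries k, qExpand k m h₀ = h := by
  have hm : (0 : ℤ) < m := by exact_mod_cast Nat.pos_of_ne_zero (NeZero.ne m)
  have hm1 : (1 : ℤ) ≤ m := hm
  refine ⟨HahnSeries.ofSuppBddBelow (fun n : ℤ => h.coeff ((m : ℤ) * n))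
    ⟨min h.order 0, fun n hn => ?_⟩, ?_⟩
  · by_contra hlt
    push Not at hlt
    apply hn
    show h.coeff ((m : ℤ) * n) = 0
    apply HahnSeries.coeff_eq_zero_of_lt_order
    have h1 : n < h.order := lt_of_lt_of_le hlt (min_le_left _ _)
    have h2 : n < 0 := lt_of_lt_of_le hlt (min_le_right _ _)
    nlinarith
  · ext n
    by_cases hd : (m : ℤ) ∣ n
    · obtain ⟨n', rfl⟩ := hd
      rw [qExpand_coeff_mul]
      rfl
    · rw [qExpand_coeff_of_not_dvd m _ hd]
      by_contra hne
      exact hd (hsupp n (Ne.symm hne))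

/-- The twist fixes constants. -/
theorem FA_S18_G_tw_const (ζ : k) (hζ : ζ ≠ 0) (c : k) :
    FA_S28_tw ζ hζ (algebraMap k (LaurentSeries k) c) = algebraMap k (LaurentSeries k) c := by
  rw [algebraMap_laurentSeries_eq_single]
  ext n
  rw [FA_S28_tw_coeff, HahnSeries.coeff_single]
  split_ifs with h
  · subst h
    simp
  · simp

/-- A `p`-th root of unity in `k((q))` is a constant (`k` algebraically closed). -/
theorem FA_S18_G_unity [IsAlgClosed k] (p : ℕ) (hp : p ≠ 0) (u : LaurentSeries k)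
    (hu : u ^ p = 1) : ∃ ξ : k, u = algebraMap k (LaurentSeries k) ξ := by
  have hmonic : (X ^ p - C (1 : k)).Monic := monic_X_pow_sub_C 1 hp
  have hf := (IsAlgClosed.splits (X ^ p - C (1 : k))).eq_prod_roots_of_monic hmonic
  have h1 : Polynomial.aeval u (X ^ p - C (1 : k)) = 0 := by
    simp [hu]
  rw [hf, map_multiset_prod, Multiset.map_map] at h1
  have hy := Multiset.prod_eq_zero_iff.mp h1
  obtain ⟨ξ, _, hy0⟩ := Multiset.mem_map.mp hy
  refine ⟨ξ, ?_⟩
  simp only [Function.comp_apply, map_sub, aeval_X, aeval_C] at hy0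
  exact sub_eq_zero.mp hy0

/-- **The `p`-th root descends to `k((q^m))`.** -/
theorem FA_S18_G_root [IsAlgClosed k] (m : ℕ) [NeZero m] (ζ : k) (hζm : IsPrimitiveRoot ζ m)
    (p : ℕ) (hp : p ≠ 0) (g h : LaurentSeries k) (hg : g ≠ 0) (hord : (p : ℤ) ∣ g.order)
    (c : k) (hc : c ≠ 0)
    (hpow : qExpand k m g = algebraMap k (LaurentSeries k) c * h ^ p) :
    ∃ h₀ : LaurentSeries k, qExpand k m h₀ = h := by
  have hζ : ζ ≠ 0 := hζm.ne_zero (NeZero.ne m)
  have hσg : qExpand k m g ≠ 0 := fun h0 => hg (qExpand_injective m (by rw [h0, map_zero]))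
  have hC : algebraMap k (LaurentSeries k) c ≠ 0 := by
    rw [Ne, map_eq_zero_iff _ (algebraMap k (LaurentSeries k)).injective]
    exact hc
  have hh : h ≠ 0 := by
    intro h0
    rw [h0, zero_pow hp, mul_zero] at hpow
    exact hσg hpow
  have hhp : h ^ p ≠ 0 := pow_ne_zero _ hh
  set τ := FA_S28_tw ζ hζ with hτ
  -- `(τ h)^p = h^p`
  have h1 : (τ h) ^ p = h ^ p := by
    have h2 : τ (qExpand k m g) = qExpand k m g := FA_S28_tw_qExpand ζ hζ m hζm.pow_eq_one g
    rw [hpow, map_mul, map_pow, FA_S18_G_tw_const] at h2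
    exact mul_left_cancel₀ hC h2
  have h3 : (τ h * h⁻¹) ^ p = 1 := by
    rw [mul_pow, h1, inv_pow, mul_inv_cancel₀ hhp]
  obtain ⟨ξ, hξ⟩ := FA_S18_G_unity p hp _ h3
  have h4 : τ h = algebraMap k (LaurentSeries k) ξ * h := by
    rw [← hξ, mul_assoc, inv_mul_cancel₀ hh, mul_one]
  -- orders
  have hordh : (m : ℤ) * g.order = (p : ℤ) * h.order := by
    have h5 := congrArg HahnSeries.order hpow
    rw [FA_S18_G_order_qExpand m g hg, HahnSeries.order_mul hC hhp, HahnSeries.order_pow,
      algebraMap_laurentSeries_eq_single, HahnSeries.order_single hc] at h5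
    rw [h5]
    simp
  obtain ⟨a, ha⟩ := hord
  have hpz : (p : ℤ) ≠ 0 := by exact_mod_cast hp
  have hn₀ : h.order = (m : ℤ) * a := by
    rw [ha] at hordh
    have : (p : ℤ) * h.order = (p : ℤ) * ((m : ℤ) * a) := by rw [← hordh]; ring
    exact mul_left_cancel₀ hpz this
  -- `ξ = 1`
  have hcoeff : h.coeff h.order ≠ 0 := HahnSeries.coeff_order_eq_zero.not.mpr hh
  have h6 := congrArg (fun x : LaurentSeries k => x.coeff h.order) h4
  simp only [hτ, FA_S28_tw_coeff] at h6
  rw [algebraMap_laurentSeries_eq_single, HahnSeries.coeff_single_zero_mul] at h6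
  have hξ1 : ξ = 1 := by
    have h7 : ζ ^ h.order = ξ := mul_right_cancel₀ hcoeff h6
    rw [← h7, hn₀, zpow_mul, zpow_natCast, hζm.pow_eq_one, one_zpow]
  rw [hξ1, map_one, one_mul] at h4
  -- support
  apply FA_S18_G_mem_range m h
  intro n hn
  have h8 := congrArg (fun x : LaurentSeries k => x.coeff n) h4
  simp only [hτ, FA_S28_tw_coeff] at h8
  have h9 : ζ ^ n = 1 := by
    have : ζ ^ n * h.coeff n = 1 * h.coeff n := by rw [h8, one_mul]
    exact mul_right_cancel₀ hn this
  exact (hζm.zpow_eq_one_iff_dvd n).mp h9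

end Fermat.Agent.S18
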