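import Mathlib
import Fermat.Agent.S18.DescentDeg
import Fermat.Agent.S18.DescentInter
import Fermat.Agent.S18.DescentRoot

/-!
# S18, leaf G (descent, stage 3 of `NOTES/plan/S18.md`)

`K = ℚ̄`, `F_n = modularFunctionFieldBar n ⊂ K((q))`, `M = r²` (`r` prime; `r = 2` or `3` in the
application), `σ = qExpand K M = (q ↦ q^M)`.

* `FA_S18_G_inter_bar` : `F_{N M} ∩ K((q^M)) ≤ σ(F_N)`;
* `FA_S18_G_descent` : if `f ≠ 0`, `p ∣ ord_q f`, `h ∈ F_{N M}` and `σ f = c · h ^ p`, then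
  `f = c · h₀ ^ p` with `h₀ ∈ F_N`.
-/

set_option autoImplicit false

noncomputable section

namespace Fermat.Agent.S18

open Fermat.Agent.S24 Fermat.Agent.S28 ModularCurve Polynomial IntermediateField

/-- Primitive roots of unity in `ℚ̄`. -/
theorem FA_S18_G_exists_primitiveRoot (n : ℕ) (hn : n ≠ 0) :
    ∃ ζ : AlgebraicClosure ℚ, IsPrimitiveRoot ζ n := by
  have hpk : (n : AlgebraicClosure ℚ) ≠ 0 := by exact_mod_cast hn
  have : NeZero (n : AlgebraicClosure ℚ) := ⟨hpk⟩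
  obtain ⟨ζ, hζ⟩ := IsAlgClosed.exists_root (cyclotomic n (AlgebraicClosure ℚ))
    (degree_cyclotomic_pos n _ (Nat.pos_of_ne_zero hn)).ne'
  exact ⟨ζ, isRoot_cyclotomic_iff.mp hζ⟩

theorem FA_S18_G_bar_eq_fld (N : ℕ) [NeZero N] :
    modularFunctionFieldBar N = FA_S28_fld (AlgebraicClosure ℚ) {d | d ∣ N} := by
  rw [FA_S18_G_bar_eq_fullC, FA_S18_G_fullC_eq_fld]

theorem FA_S18_G_relfinrank_fld (N : ℕ) [NeZero N] :
    IntermediateField.relfinrank (FA_S28_kappa (AlgebraicClosure ℚ))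
      (FA_S28_fld (AlgebraicClosure ℚ) {d | d ∣ N}) = dedekindPsi N := by
  rw [← FA_S18_G_bar_eq_fld]
  exact FA_S18_G_relfinrank N

/-- `F_{N r²} ∩ ℚ̄((q^{r²})) ≤ σ(F_N)`. -/
theorem FA_S18_G_inter_bar (r : ℕ) (hr : r.Prime) (M : ℕ) [NeZero M] (hM : M = r * r)
    (N N' : ℕ) [NeZero N] (hN' : N' = N * M) :
    modularFunctionFieldBar N' ⊓ (qExpandAlgHomC (AlgebraicClosure ℚ) M).fieldRange
      ≤ (modularFunctionFieldBar N).map (qExpandAlgHomC (AlgebraicClosure ℚ) M) := by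
  subst hM
  subst hN'
  have hrN : NeZero r := ⟨hr.ne_zero⟩
  have hN'N : NeZero (N * (r * r)) := ⟨Nat.mul_ne_zero (NeZero.ne N) (NeZero.ne (r * r))⟩
  have : Fact r.Prime := ⟨hr⟩
  obtain ⟨ζ, hζ⟩ := FA_S18_G_exists_primitiveRoot r hr.ne_zero
  rw [FA_S18_G_bar_eq_fld, FA_S18_G_bar_eq_fld]
  exact FA_S18_G_inter r hr (FA_S28_phi r) ζ hζ N (NeZero.ne N) (FA_S18_G_relfinrank_fld N)
    (FA_S18_G_relfinrank_fld (r * r)) (FA_S18_G_relfinrank_fld (N * (r * r)))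

/-- **Leaf G (descent).**  A `p`-th root at level `N r²` of a function of level `N` (pulled back by
`q ↦ q^{r²}`) comes from level `N`, provided `p ∣ ord_q f`. -/
theorem FA_S18_G_descent (r : ℕ) (hr : r.Prime) (M : ℕ) [NeZero M] (hM : M = r * r)
    (N N' : ℕ) [NeZero N] (hN' : N' = N * M) (p : ℕ) (hp : p ≠ 0)
    (f h : LaurentSeries (AlgebraicClosure ℚ)) (hf0 : f ≠ 0)
    (hord : (p : ℤ) ∣ f.order) (hh : h ∈ modularFunctionFieldBar N')
    (c : AlgebraicClosure ℚ) (hc : c ≠ 0)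
    (hpow : qExpand (AlgebraicClosure ℚ) M f
      = algebraMap (AlgebraicClosure ℚ) (LaurentSeries (AlgebraicClosure ℚ)) c * h ^ p) :
    ∃ h₀ ∈ modularFunctionFieldBar N,
      f = algebraMap (AlgebraicClosure ℚ) (LaurentSeries (AlgebraicClosure ℚ)) c * h₀ ^ p := by
  obtain ⟨ζ, hζ⟩ := FA_S18_G_exists_primitiveRoot M (NeZero.ne M)
  obtain ⟨h₁, hh₁⟩ := FA_S18_G_root M ζ hζ p hp f h hf0 hord c hc hpow
  have hmem : h ∈ modularFunctionFieldBar N'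
      ⊓ (qExpandAlgHomC (AlgebraicClosure ℚ) M).fieldRange := ⟨hh, ⟨h₁, hh₁⟩⟩
  have hmem' := FA_S18_G_inter_bar r hr M hM N N' hN' hmem
  obtain ⟨h₀, hh₀, hh₀h⟩ := (IntermediateField.mem_map _).mp hmem'
  refine ⟨h₀, hh₀, ?_⟩
  apply qExpand_injective M
  rw [hpow, map_mul, map_pow]
  have h1 : qExpand (AlgebraicClosure ℚ) M h₀ = h := hh₀h
  rw [h1]
  congr 1
  rw [algebraMap_laurentSeries_eq_single, qExpand_single, mul_zero]

end Fermat.Agent.S18
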