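import Fermat.Agent.S28.DegZero2
import Fermat.Agent.Lib.RR.Principal
import Fermat.Prelude.Def_ModularCurve_ReductionModL

/-!
# S18, leaf A (Stage 1), part 0: `F_N = modularFunctionFieldBar N` is a function field over `ℚ̄`

`FA_S18_A_isFF` : `FA_RR_IsFF ℚ̄ F_N`, with the transcendental `j` exposed and the degree
`[F_N : ℚ̄(j)] = ψ(N)`; consequences from `Lib/RR` (char. 0): principal divisors, places of
degree one, existence of a place.
-/

set_option autoImplicit false
set_option linter.unusedSectionVars false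
set_option linter.style.haveILetI false

noncomputable section

namespace Fermat.Agent.S18

open Fermat.Agent.S24 Fermat.Agent.S28 Fermat.Agent.Mero ModularCurve Polynomial IntermediateField
  AlgebraicCurve

/-- `j` as an element of `F_N`. -/
def FA_S18_A_jbar (N : ℕ) [NeZero N] : ↥(modularFunctionFieldBar N) :=
  ⟨coeffEmb (AlgebraicClosure ℚ) jq,
    coeffEmb_mem_laurentBaseChange (AlgebraicClosure ℚ) (modularFunctionField_le_full N (jq_mem N))⟩

/-- `j` is transcendental over `ℚ̄` and `[F_N : ℚ̄(j)] = ψ(N)`. -/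
theorem FA_S18_A_jbar_spec (N : ℕ) [NeZero N] :
    Transcendental (AlgebraicClosure ℚ) (FA_S18_A_jbar N) ∧
    FiniteDimensional (IntermediateField.adjoin (AlgebraicClosure ℚ) {FA_S18_A_jbar N})
      ↥(modularFunctionFieldBar N) ∧
    Module.finrank (IntermediateField.adjoin (AlgebraicClosure ℚ) {FA_S18_A_jbar N})
      ↥(modularFunctionFieldBar N) = dedekindPsi N := by
  have halg : Algebra.IsAlgebraic ℚ (AlgebraicClosure ℚ) := AlgebraicClosure.isAlgebraic ℚ
  letI algC : Algebra (AlgebraicClosure ℚ) ℂ :=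
    (IsAlgClosed.lift (R := ℚ) (S := AlgebraicClosure ℚ) (M := ℂ)).toRingHom.toAlgebra
  letI algM : Algebra (AlgebraicClosure ℚ) FA_Mero_Field :=
    ((algebraMap ℂ FA_Mero_Field).comp (algebraMap (AlgebraicClosure ℚ) ℂ)).toAlgebra
  have ht : FA_S24_Tower (AlgebraicClosure ℚ) := fun c => rfl
  have hP := FA_S24_props FA_S24_UT FA_S24_UT0 FA_S24_QE FA_S24_TW FA_S24_BDD FA_S24_HOL
    FA_S24_RAT FA_S24_NORM FA_S24_COEF (AlgebraicClosure ℚ) ht N
    (FA_S24_roots_mem (AlgebraicClosure ℚ))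
  obtain ⟨τ, hτ, hj⟩ := FA_S28_d0_transfer (AlgebraicClosure ℚ) ht N
  obtain ⟨τ', hτ', hval⟩ := FA_S28_d0_transport (FA_S24_BC N) τ
  have hjmem : coeffEmb (AlgebraicClosure ℚ) jq ∈ modularFunctionFieldBar N :=
    coeffEmb_mem_laurentBaseChange (AlgebraicClosure ℚ)
      (modularFunctionField_le_full N (jq_mem N))
  have hx : τ' (FA_S18_A_jbar N) = FA_S24_g 1 :=
    (hval _ hjmem ((FA_S24_BC N) ▸ hjmem)).trans (hj _)
  refine ⟨?_, FA_S28_d0_finite hP (modularFunctionFieldBar N) τ' (hτ'.trans hτ) _ hx,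
    FA_S28_d0_finrank hP (modularFunctionFieldBar N) τ' (hτ'.trans hτ) _ hx⟩
  intro hx'
  apply hP.transc
  rw [← hx]
  exact hx'.algHom τ'

/-- `F_N / ℚ̄` is a function field in one variable. -/
theorem FA_S18_A_isFF (N : ℕ) [NeZero N] :
    FA_RR_IsFF (AlgebraicClosure ℚ) ↥(modularFunctionFieldBar N) :=
  ⟨FA_S18_A_jbar N, (FA_S18_A_jbar_spec N).1, (FA_S18_A_jbar_spec N).2.1⟩

/-- Principal divisors of `F_N` exist and have degree `0`. -/
theorem FA_S18_A_hasPrincipalDivisors (N : ℕ) [NeZero N] :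
    HasPrincipalDivisors (AlgebraicClosure ℚ) ↥(modularFunctionFieldBar N) :=
  FA_RR.hasPrincipalDivisors (FA_S18_A_isFF N)

/-- Places of `F_N` have degree one. -/
theorem FA_S18_A_deg_eq_one (N : ℕ) [NeZero N]
    (P : Place (AlgebraicClosure ℚ) ↥(modularFunctionFieldBar N)) : P.deg = 1 :=
  FA_RR.deg_eq_one (FA_S18_A_isFF N) P

/-- `F_N` has a place. -/
theorem FA_S18_A_exists_place (N : ℕ) [NeZero N] :
    Nonempty (Place (AlgebraicClosure ℚ) ↥(modularFunctionFieldBar N)) := by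
  obtain ⟨htr, hfin, hdeg⟩ := FA_S18_A_jbar_spec N
  obtain ⟨D, hD, hdegD⟩ := FA_RR.sumZeros (FA_S18_A_isFF N) (FA_S18_A_jbar N) htr
  by_contra hne
  rw [not_nonempty_iff] at hne
  have hD0 : D = 0 := Subsingleton.elim _ _
  rw [hD0, map_zero, hdeg] at hdegD
  have hpos : 0 < dedekindPsi N := by
    rw [← hdeg]
    exact Module.finrank_pos
  omega

end Fermat.Agent.S18
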