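import Fermat.Agent.S18.Charts0
import Fermat.Agent.S18.StageA0

/-!
# S18, leaf H2: the three char-0 charts of `F_n = modularFunctionFieldBar n`

`FA_S18_H2_Bf n`, `FA_S18_H2_Bi n`, `FA_S18_H2_Bm n` : the integral closures of `ℚ̄[j]`, `ℚ̄[1/j]`,
`ℚ̄[j, 1/j]` in `F_n`, as `ℚ̄`-subalgebras of `F_n` (`j = FA_S18_A_jbar n`), with the facts
needed by `FA_S18.FA_S18_E_Hyp`.
-/

set_option autoImplicit false
set_option linter.unusedSectionVars false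
set_option linter.style.haveILetI false

noncomputable section

namespace Fermat.Agent.S18

open AlgebraicCurve IntermediateField ModularCurve

variable (n : ℕ) [NeZero n]

/-- The finite chart: integral closure of `ℚ̄[j]` in `F_n`. -/
def FA_S18_H2_Bf : Subalgebra (AlgebraicClosure ℚ) ↥(modularFunctionFieldBar n) :=
  FA_S18_H2_icl (AlgebraicClosure ℚ) (FA_S18_A_jbar n)

/-- The chart at infinity: integral closure of `ℚ̄[1/j]` in `F_n`. -/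
def FA_S18_H2_Bi : Subalgebra (AlgebraicClosure ℚ) ↥(modularFunctionFieldBar n) :=
  FA_S18_H2_icl (AlgebraicClosure ℚ) (FA_S18_A_jbar n)⁻¹

/-- The middle chart: integral closure of `ℚ̄[j, 1/j]` in `F_n`. -/
def FA_S18_H2_Bm : Subalgebra (AlgebraicClosure ℚ) ↥(modularFunctionFieldBar n) :=
  FA_S18_H2_iclMid (AlgebraicClosure ℚ) (FA_S18_A_jbar n)

theorem FA_S18_H2_jbar_ne_zero : FA_S18_A_jbar n ≠ 0 :=
  FA_S18_C.sep_ne_zero_of_transcendental (FA_S18_A_jbar_spec n).1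

theorem FA_S18_H2_j_mem_Bf : FA_S18_A_jbar n ∈ FA_S18_H2_Bf n := FA_S18_H2_self_mem _

theorem FA_S18_H2_jinv_mem_Bi : (FA_S18_A_jbar n)⁻¹ ∈ FA_S18_H2_Bi n := FA_S18_H2_self_mem _

theorem FA_S18_H2_Bf_le_Bm : FA_S18_H2_Bf n ≤ FA_S18_H2_Bm n := FA_S18_H2_icl_le_mid _

theorem FA_S18_H2_Bi_le_Bm : FA_S18_H2_Bi n ≤ FA_S18_H2_Bm n := FA_S18_H2_icl_inv_le_mid _

/-- (1) `Bf ∩ Bi = ℚ̄`. -/
theorem FA_S18_H2_Bf_inter_Bi {y : ↥(modularFunctionFieldBar n)} (h1 : y ∈ FA_S18_H2_Bf n)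
    (h2 : y ∈ FA_S18_H2_Bi n) : ∃ c : AlgebraicClosure ℚ, y = algebraMap _ _ c :=
  FA_S18_H2_consts (FA_S18_A_jbar_spec n).1 h1 h2

/-- (2) `Bm = ⋃ j^{-m} Bf = ⋃ j^m Bi`. -/
theorem FA_S18_H2_Bm_bound {z : ↥(modularFunctionFieldBar n)} (hz : z ∈ FA_S18_H2_Bm n) :
    ∃ m : ℕ, z * FA_S18_A_jbar n ^ m ∈ FA_S18_H2_Bf n ∧
      z * (FA_S18_A_jbar n)⁻¹ ^ m ∈ FA_S18_H2_Bi n :=
  FA_S18_H2_mid_bound (FA_S18_H2_jbar_ne_zero n) hz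

/-- (3) `Bf` by places. -/
theorem FA_S18_H2_mem_Bf_iff {y : ↥(modularFunctionFieldBar n)} :
    y ∈ FA_S18_H2_Bf n ↔
      ∀ P : Place (AlgebraicClosure ℚ) ↥(modularFunctionFieldBar n),
        0 ≤ P.ord (FA_S18_A_jbar n) → 0 ≤ P.ord y :=
  haveI := (FA_S18_A_jbar_spec n).2.1
  FA_S18_H2_mem_icl_iff (FA_S18_A_jbar_spec n).1

/-- (3') `Bi` by places. -/
theorem FA_S18_H2_mem_Bi_iff {y : ↥(modularFunctionFieldBar n)} :
    y ∈ FA_S18_H2_Bi n ↔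
      ∀ P : Place (AlgebraicClosure ℚ) ↥(modularFunctionFieldBar n),
        P.ord (FA_S18_A_jbar n) ≤ 0 → 0 ≤ P.ord y :=
  haveI := (FA_S18_A_jbar_spec n).2.1
  FA_S18_H2_mem_icl_inv_iff (FA_S18_A_jbar_spec n).1

/-- (5) closed under roots. -/
theorem FA_S18_H2_Bf_of_pow {y : ↥(modularFunctionFieldBar n)} {p : ℕ} (hp : 0 < p)
    (h : y ^ p ∈ FA_S18_H2_Bf n) : y ∈ FA_S18_H2_Bf n := FA_S18_H2_icl_of_pow hp h

theorem FA_S18_H2_Bi_of_pow {y : ↥(modularFunctionFieldBar n)} {p : ℕ} (hp : 0 < p)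
    (h : y ^ p ∈ FA_S18_H2_Bi n) : y ∈ FA_S18_H2_Bi n := FA_S18_H2_icl_of_pow hp h

theorem FA_S18_H2_Bm_of_pow {y : ↥(modularFunctionFieldBar n)} {p : ℕ} (hp : 0 < p)
    (h : y ^ p ∈ FA_S18_H2_Bm n) : y ∈ FA_S18_H2_Bm n := FA_S18_H2_iclMid_of_pow hp h

end Fermat.Agent.S18
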