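import Fermat.Agent.S18.RRpConst
import Fermat.Agent.Lib.RR.ChartX

/-!
# S18, leaf H2: the charts of a function field, ring-theoretic form ↔ places

`K` a field, `F / K` a field, `x : F`.
* `FA_S18_H2_icl K x`   : the integral closure of `K[x]` in `F`, as a `K`-subalgebra of `F`;
* `FA_S18_H2_iclMid K x` : the integral closure of `K[x, x⁻¹]`.

(1) `FA_S18_H2_consts`    : `icl x ∩ icl x⁻¹ = K` (`K` algebraically closed, `x` transcendental);
(2) `FA_S18_H2_mid_bound` : `z ∈ iclMid x → ∃ m, z·x^m ∈ icl x ∧ z·x⁻ᵐ ∈ icl x⁻¹`;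
(3) `FA_S18_H2_mem_icl_iff`, `FA_S18_H2_mem_icl_inv_iff` : description by places (char. 0);
(5) `FA_S18_H2_icl_of_pow` : `y^p ∈ icl x → y ∈ icl x`.
-/

set_option autoImplicit false
set_option linter.unusedSectionVars false
set_option linter.style.haveILetI false

noncomputable section

namespace Fermat.Agent.S18

open AlgebraicCurve IntermediateField FA_RR Polynomial

variable {K F : Type*} [Field K] [Field F] [Algebra K F]

variable (K) in
/-- The integral closure of `K[x]` in `F`, as a `K`-subalgebra. -/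
def FA_S18_H2_icl (x : F) : Subalgebra K F :=
  (integralClosure (Algebra.adjoin K {x}) F).restrictScalars K

variable (K) in
/-- The integral closure of `K[x, x⁻¹]` in `F`, as a `K`-subalgebra. -/
def FA_S18_H2_iclMid (x : F) : Subalgebra K F :=
  (integralClosure (Algebra.adjoin K {x, x⁻¹}) F).restrictScalars K

theorem FA_S18_H2_mem_icl {x y : F} :
    y ∈ FA_S18_H2_icl K x ↔ IsIntegral (Algebra.adjoin K {x}) y := Iff.rfl

theorem FA_S18_H2_mem_iclMid {x y : F} :
    y ∈ FA_S18_H2_iclMid K x ↔ IsIntegral (Algebra.adjoin K {x, x⁻¹}) y := Iff.rfl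

/-- Integrality over a subalgebra passes to a larger subalgebra. -/
theorem FA_S18_H2_isIntegral_mono {S S' : Subalgebra K F} (h : S ≤ S') {y : F}
    (hy : IsIntegral S y) : IsIntegral S' y := by
  obtain ⟨p, hp, hpy⟩ := hy
  refine ⟨p.map (Subalgebra.inclusion h).toRingHom, hp.map _, ?_⟩
  rw [eval₂_map]
  exact hpy

theorem FA_S18_H2_self_mem (x : F) : x ∈ FA_S18_H2_icl K x :=
  x_mem_chartRing x

theorem FA_S18_H2_subset_icl {x y : F} (hy : y ∈ Algebra.adjoin K {x}) :
    y ∈ FA_S18_H2_icl K x := by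
  have : y = algebraMap (Algebra.adjoin K {x}) F ⟨y, hy⟩ := rfl
  rw [FA_S18_H2_mem_icl, this]
  exact isIntegral_algebraMap

theorem FA_S18_H2_icl_le_mid (x : F) : FA_S18_H2_icl K x ≤ FA_S18_H2_iclMid K x := by
  intro y hy
  exact FA_S18_H2_isIntegral_mono (Algebra.adjoin_mono (by simp)) hy

theorem FA_S18_H2_icl_inv_le_mid (x : F) : FA_S18_H2_icl K x⁻¹ ≤ FA_S18_H2_iclMid K x := by
  intro y hy
  exact FA_S18_H2_isIntegral_mono (Algebra.adjoin_mono (by simp)) hy

/-- **(1)** constants. -/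
theorem FA_S18_H2_consts [IsAlgClosed K] {x : F} (hx : Transcendental K x) {y : F}
    (h1 : y ∈ FA_S18_H2_icl K x) (h2 : y ∈ FA_S18_H2_icl K x⁻¹) :
    ∃ c : K, y = algebraMap K F c := by
  obtain ⟨c, hc⟩ := FA_S18_C.sep_const_of_integral hx h1 h2
  exact ⟨c, hc.symm⟩

/-- **(5)** the charts are closed under taking roots. -/
theorem FA_S18_H2_icl_of_pow {x y : F} {p : ℕ} (hp : 0 < p) (h : y ^ p ∈ FA_S18_H2_icl K x) :
    y ∈ FA_S18_H2_icl K x :=
  IsIntegral.of_pow hp h

theorem FA_S18_H2_iclMid_of_pow {x y : F} {p : ℕ} (hp : 0 < p)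
    (h : y ^ p ∈ FA_S18_H2_iclMid K x) : y ∈ FA_S18_H2_iclMid K x :=
  IsIntegral.of_pow hp h

/-- Scaling lemma: if every element of `S'` is moved into `S` by a power of `s ∈ S`, then every
element integral over `S'` is moved into the integral closure of `S` by a power of `s`. -/
theorem FA_S18_H2_scale {S S' : Subalgebra K F} {s : F} (hs : s ∈ S)
    (h : ∀ r ∈ S', ∃ k : ℕ, s ^ k * r ∈ S) {z : F} (hz : IsIntegral S' z) :
    ∃ m : ℕ, IsIntegral S (s ^ m * z) := by
  classical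
  obtain ⟨P, hP, hPz⟩ := hz
  -- a uniform exponent for the coefficients
  have hk : ∃ m : ℕ, ∀ i : ℕ, s ^ m * ((P.coeff i : S') : F) ∈ S := by
    have hfin : ∀ i ∈ P.support, ∃ k : ℕ, s ^ k * ((P.coeff i : S') : F) ∈ S :=
      fun i _ => h _ (P.coeff i).2
    choose! kf hkf using hfin
    refine ⟨P.support.sup kf, fun i => ?_⟩
    by_cases hi : i ∈ P.support
    · have hle : kf i ≤ P.support.sup kf := Finset.le_sup hi
      obtain ⟨d, hd⟩ := Nat.exists_eq_add_of_le hle
      rw [hd, pow_add, mul_comm (s ^ kf i), mul_assoc]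
      exact S.mul_mem (S.pow_mem hs d) (hkf i hi)
    · rw [Polynomial.notMem_support_iff.mp hi]
      simp
  obtain ⟨m, hm⟩ := hk
  refine ⟨m, ?_⟩
  -- the scaled polynomial over `F`
  set PF : F[X] := P.map (algebraMap S' F) with hPF
  have hPFmonic : PF.Monic := hP.map _
  have hroot : (scaleRoots PF (s ^ m)).eval (s ^ m * z) = 0 := by
    have h1 : PF.eval z = 0 := by
      rw [hPF, eval_map]
      exact hPz
    have h2 := scaleRoots_eval₂_mul (f := RingHom.id F) (p := PF) (r := z) (s := s ^ m)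
    simp only [eval₂_id, RingHom.id_apply] at h2
    rw [h2, h1, mul_zero]
  have hmonic : (scaleRoots PF (s ^ m)).Monic := (monic_scaleRoots_iff _).mpr hPFmonic
  -- its coefficients lie in `S`
  have hcoeff : ∀ i, (scaleRoots PF (s ^ m)).coeff i ∈ S := by
    intro i
    rw [coeff_scaleRoots]
    by_cases hi : i < PF.natDegree
    · have hpos : 0 < PF.natDegree - i := by omega
      obtain ⟨d, hd⟩ := Nat.exists_eq_succ_of_ne_zero hpos.ne'
      have h3 : PF.coeff i = ((P.coeff i : S') : F) := by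
        rw [hPF, coeff_map]; rfl
      have h4 : PF.coeff i * (s ^ m) ^ (PF.natDegree - i)
          = (s ^ m * ((P.coeff i : S') : F)) * (s ^ m) ^ d := by
        rw [hd, pow_succ, h3]; ring
      rw [h4]
      exact S.mul_mem (hm i) (S.pow_mem (S.pow_mem hs m) d)
    · rcases Nat.lt_or_ge PF.natDegree i with h4 | h4
      · rw [coeff_eq_zero_of_natDegree_lt h4, zero_mul]
        exact S.zero_mem
      · have : i = PF.natDegree := by omega
        rw [this, Nat.sub_self, pow_zero, mul_one, coeff_natDegree, hPFmonic.leadingCoeff]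
        exact S.one_mem
  -- lift the polynomial to `S`
  have hlift : scaleRoots PF (s ^ m) ∈ Polynomial.lifts (algebraMap S F) := by
    rw [Polynomial.lifts_iff_coeff_lifts]
    intro i
    exact ⟨⟨_, hcoeff i⟩, rfl⟩
  obtain ⟨Q, hQ, -, hQmonic⟩ := Polynomial.lifts_and_degree_eq_and_monic hlift hmonic
  refine ⟨Q, hQmonic, ?_⟩
  rw [← eval_map, hQ]
  exact hroot

/-- Every element of `K[x, x⁻¹]` is moved into `K[x]` by a power of `x`. -/
theorem FA_S18_H2_adjoin_pair {x : F} (hx0 : x ≠ 0) (y : F) :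
    ∀ r ∈ Algebra.adjoin K {x, y}, y = x⁻¹ → ∃ k : ℕ, x ^ k * r ∈ Algebra.adjoin K {x} := by
  intro r hr hy
  have hxmem : x ∈ Algebra.adjoin K {x} := Algebra.subset_adjoin (Set.mem_singleton x)
  induction hr using Algebra.adjoin_induction with
  | mem r hr =>
    rcases hr with rfl | hr
    · exact ⟨0, by simp [hxmem]⟩
    · rw [Set.mem_singleton_iff] at hr
      refine ⟨1, ?_⟩
      rw [hr, hy, pow_one, mul_inv_cancel₀ hx0]
      exact Subalgebra.one_mem _
  | algebraMap c => exact ⟨0, by simp⟩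
  | add a b _ _ ha hb =>
    obtain ⟨k, hk⟩ := ha
    obtain ⟨l, hl⟩ := hb
    refine ⟨k + l, ?_⟩
    have : x ^ (k + l) * (a + b) = x ^ l * (x ^ k * a) + x ^ k * (x ^ l * b) := by ring
    rw [this]
    exact Subalgebra.add_mem _ (Subalgebra.mul_mem _ (Subalgebra.pow_mem _ hxmem l) hk)
      (Subalgebra.mul_mem _ (Subalgebra.pow_mem _ hxmem k) hl)
  | mul a b _ _ ha hb =>
    obtain ⟨k, hk⟩ := ha
    obtain ⟨l, hl⟩ := hb
    refine ⟨k + l, ?_⟩
    have : x ^ (k + l) * (a * b) = (x ^ k * a) * (x ^ l * b) := by ring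
    rw [this]
    exact Subalgebra.mul_mem _ hk hl

/-- **(2)** elements of the middle chart are moved into the two charts by powers of `x`. -/
theorem FA_S18_H2_mid_bound {x : F} (hx0 : x ≠ 0) {z : F} (hz : z ∈ FA_S18_H2_iclMid K x) :
    ∃ m : ℕ, z * x ^ m ∈ FA_S18_H2_icl K x ∧ z * x⁻¹ ^ m ∈ FA_S18_H2_icl K x⁻¹ := by
  have hxmem : x ∈ Algebra.adjoin K {x} := Algebra.subset_adjoin (Set.mem_singleton x)
  have hximem : x⁻¹ ∈ Algebra.adjoin K {x⁻¹} := Algebra.subset_adjoin (Set.mem_singleton _)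
  obtain ⟨m₁, h₁⟩ := FA_S18_H2_scale (S := Algebra.adjoin K {x}) (S' := Algebra.adjoin K {x, x⁻¹})
    hxmem (fun r hr => FA_S18_H2_adjoin_pair hx0 x⁻¹ r hr rfl) hz
  have hz' : IsIntegral (Algebra.adjoin K {x⁻¹, x⁻¹⁻¹}) z := by
    have : ({x⁻¹, x⁻¹⁻¹} : Set F) = {x, x⁻¹} := by rw [inv_inv, Set.pair_comm]
    rw [this]
    exact hz
  obtain ⟨m₂, h₂⟩ := FA_S18_H2_scale (S := Algebra.adjoin K {x⁻¹})
    (S' := Algebra.adjoin K {x⁻¹, x⁻¹⁻¹}) hximem
    (fun r hr => FA_S18_H2_adjoin_pair (inv_ne_zero hx0) x⁻¹⁻¹ r hr rfl) hz'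
  refine ⟨m₁ + m₂, ?_, ?_⟩
  · have : z * x ^ (m₁ + m₂) = x ^ m₂ * (x ^ m₁ * z) := by ring
    rw [this]
    exact Subalgebra.mul_mem _ (Subalgebra.pow_mem _ (FA_S18_H2_self_mem x) m₂) h₁
  · have : z * x⁻¹ ^ (m₁ + m₂) = x⁻¹ ^ m₁ * (x⁻¹ ^ m₂ * z) := by ring
    rw [this]
    exact Subalgebra.mul_mem _ (Subalgebra.pow_mem _ (FA_S18_H2_self_mem x⁻¹) m₁) h₂

section Places

variable [CharZero K] {x : F} (hx : Transcendental K x) [FiniteDimensional K⟮x⟯ F]
include hx

/-- **(3)** `y` is integral over `K[x]` iff it has no pole at the places where `x` has none. -/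
theorem FA_S18_H2_mem_icl_iff {y : F} :
    y ∈ FA_S18_H2_icl K x ↔ ∀ P : Place K F, 0 ≤ P.ord x → 0 ≤ P.ord y := by
  have hx0 : x ≠ 0 := FA_S18_C.sep_ne_zero_of_transcendental hx
  haveI : CharZero K⟮x⟯ := charZero_of_injective_algebraMap (algebraMap K K⟮x⟯).injective
  constructor
  · intro hy P hP
    have hxP : x ∈ P.toValuationSubring := (mem_iff_ord P).mpr (Or.inr hP)
    have hyP : y ∈ P.toValuationSubring := chartRing_le P hxP ⟨y, hy⟩
    rcases (mem_iff_ord P).mp hyP with h | h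
    · rw [h, Place.ord_zero]
    · exact h
  · intro h
    apply FA_S18_C.sep_mem_chartRing_of_forall_ord_nonneg hx y
    intro v hv
    rcases (mem_iff_ord v).mp hv with h' | h'
    · exact absurd h' hx0
    · exact h v h'

end Places

section Places'

variable [CharZero K] {x : F} (hx : Transcendental K x) [FiniteDimensional K⟮x⟯ F]
include hx

/-- **(3')** the chart at infinity. -/
theorem FA_S18_H2_mem_icl_inv_iff {y : F} :
    y ∈ FA_S18_H2_icl K x⁻¹ ↔ ∀ P : Place K F, P.ord x ≤ 0 → 0 ≤ P.ord y := by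
  have hx' : Transcendental K x⁻¹ := transcendental_inv hx
  haveI : FiniteDimensional K⟮x⁻¹⟯ F := FA_S18_C.sep_finiteDimensional_congr (adjoin_inv_eq x)
  rw [FA_S18_H2_mem_icl_iff hx']
  refine forall_congr' fun P => ?_
  rw [P.ord_inv]
  constructor
  · intro h h'
    exact h (by omega)
  · intro h h'
    exact h (by omega)

end Places'

end Fermat.Agent.S18
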