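import Fermat.Agent.S18.NCh0DualCore
import Fermat.Agent.S18.Charts0
import Fermat.Prelude.Def_AlgebraicCurve_DivisorPushPull

/-!
# S18, leaf N, sub-leaf N-CH0: the trace-dual form, in the language of places

`F / K` a function field (char. 0) with coordinate `x`, `F' / F` finite.  If every place of `F'`
at which `x` is regular is unramified over `F`, then the chart ring of `F'` is unimodular over
the chart ring of `F`:  `Tr_{F'/F}(y · b)` regular for all regular `b`  ⟹  `y` regular.
-/

set_option autoImplicit false
set_option linter.style.haveILetI false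
set_option linter.unusedSectionVars false

noncomputable section

namespace Fermat.Agent.S24

open AlgebraicCurve IntermediateField FA_RR IsDedekindDomain Fermat.Agent.S18

section Places

variable {K F F' : Type*} [Field K] [CharZero K] [Field F] [Field F']
  [Algebra K F] [Algebra K F'] [Algebra F F'] [IsScalarTower K F F'] [FiniteDimensional F F']
  {x : F} (hx : Transcendental K x) [FiniteDimensional K⟮x⟯ F]

/-- Regularity of `x` descends to the restricted place. -/
theorem FA_S18_NC_restrict_regular (w : Place K F') {f : F}
    (hw : 0 ≤ w.ord (algebraMap F F' f)) : 0 ≤ (w.restrict F).ord f := by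
  have h := w.ord_restrict (F := F) f
  have hepos := w.ramificationIndex_pos (F := F)
  rw [h] at hw
  by_contra hneg
  push Not at hneg
  have : (w.ramificationIndex F : ℤ) * (w.restrict F).ord f < 0 :=
    mul_neg_of_pos_of_neg (by exact_mod_cast hepos) hneg
  omega

include hx in
/-- The chart ring of `F` is regular at the finite places of `F'`. -/
theorem FA_S18_NC_regA (a : chartRing K x) (w : Place K F')
    (hw : 0 ≤ w.ord (algebraMap F F' x)) :
    algebraMap F F' (a : F) ∈ w.toValuationSubring := by
  have hv : 0 ≤ (w.restrict F).ord x := FA_S18_NC_restrict_regular w hw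
  have hxv : x ∈ (w.restrict F).toValuationSubring := (mem_iff_ord _).mpr (Or.inr hv)
  exact chartRing_le (w.restrict F) hxv a

include hx in
/-- A uniformizer in the chart ring at a finite place. -/
theorem FA_S18_NC_exists_uniformizer (v : Place K F) (hv : 0 ≤ v.ord x) :
    ∃ π : chartRing K x, v.ord (π : F) = 1 := by
  haveI := isDedekindDomain_chartRing hx
  haveI := isFractionRing_chartRing (K := K) x
  have hxv : x ∈ v.toValuationSubring := (mem_iff_ord _).mpr (Or.inr hv)
  obtain ⟨p', hp'⟩ := exists_chartPlace_eq hx v hxv
  obtain ⟨π, hπ⟩ := p'.intValuation_exists_uniformizer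
  refine ⟨π, ?_⟩
  have h1 : p'.valuation F (π : F) = p'.intValuation π :=
    HeightOneSpectrum.valuation_of_algebraMap p' π
  rw [← hp', Place.ord, chartPlace_adicValuation hx p' (π : F), h1, hπ, WithZero.log_exp]
  norm_num

end Places

section Abstract

variable {K F' : Type*} [Field K] [Field F'] [Algebra K F']
variable {R : Type*} [CommRing R] [IsDedekindDomain R] [Algebra R F'] [IsFractionRing R F']
  [Algebra K R] [IsScalarTower K R F']

/-- Elements of `R` are regular at the place of a height one prime. -/
theorem FA_S18_NC_ord_nonneg_of_mem (wP : HeightOneSpectrum R) (r : R) :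
    0 ≤ (Place.ofHeightOneSpectrum (K := K) (F := F') wP).ord (algebraMap R F' r) := by
  have hmem : algebraMap R F' r ∈
      (Place.ofHeightOneSpectrum (K := K) (F := F') wP).toValuationSubring := by
    rw [Place.ofHeightOneSpectrum_toValuationSubring, Valuation.mem_valuationSubring_iff]
    exact wP.valuation_le_one r
  rcases (mem_iff_ord _).mp hmem with h | h
  · rw [h, Place.ord_zero]
  · exact h

/-- An element of `R` of order one at the place of `P` lies in `P` but not in `P ^ 2`. -/
theorem FA_S18_NC_mem_of_ord_eq_one (wP : HeightOneSpectrum R) (β : R)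
    (h : (Place.ofHeightOneSpectrum (K := K) (F := F') wP).ord (algebraMap R F' β) = 1) :
    β ∈ wP.asIdeal ∧ β ∉ wP.asIdeal ^ 2 := by
  rw [ord_ofHeightOneSpectrum, HeightOneSpectrum.valuation_of_algebraMap] at h
  have hne : wP.intValuation β ≠ 0 := by
    intro h0
    rw [h0, WithZero.log_zero] at h
    norm_num at h
  have hval : wP.intValuation β = WithZero.exp (-1 : ℤ) := by
    rw [← WithZero.exp_log hne]
    congr 1
    omega
  constructor
  · have := (wP.intValuation_le_pow_iff_mem β 1).mp (by rw [hval]; norm_num)
    simpa using this
  · intro hmem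
    have := (wP.intValuation_le_pow_iff_mem β 2).mpr hmem
    rw [hval, WithZero.exp_le_exp] at this
    norm_num at this

end Abstract

section Abstract2

variable (K A F F' : Type*) [Field K] [CharZero K] [Field F] [Field F']
    [Algebra K F] [Algebra K F'] [Algebra F F'] [IsScalarTower K F F'] [FiniteDimensional F F']
    [CommRing A] [IsDedekindDomain A] [Algebra A F] [IsFractionRing A F]
    [Algebra K A] [IsScalarTower K A F]
    [Algebra A F'] [IsScalarTower A F F'] [IsScalarTower K A F']

/-- The hypothesis of the core, for an abstract Dedekind chart `A` of `F`. -/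
theorem FA_S18_NC_core_hyp
    (hunr : ∀ w : Place K F', (∀ a : A, 0 ≤ w.ord (algebraMap A F' a)) →
      w.ramificationIndex F = 1)
    [IsDedekindDomain (integralClosure A F')] [IsFractionRing (integralClosure A F') F']
    (P : Ideal (integralClosure A F')) (hPmax : P.IsMaximal) (hP0 : P ≠ ⊥) :
    ∃ a : A, algebraMap A (integralClosure A F') a ∈ P ∧
      algebraMap A (integralClosure A F') a ∉ P ^ 2 := by
  let wP : HeightOneSpectrum (integralClosure A F') := ⟨P, hPmax.isPrime, hP0⟩
  have hreg : ∀ a : A,
      0 ≤ (Place.ofHeightOneSpectrum (K := K) (F := F') wP).ord (algebraMap A F' a) :=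
    fun a => FA_S18_NC_ord_nonneg_of_mem (K := K) wP (algebraMap A (integralClosure A F') a)
  have he := hunr _ hreg
  have hv : ∀ r : A, algebraMap A F r ∈
      ((Place.ofHeightOneSpectrum (K := K) (F := F') wP).restrict F).toValuationSubring := by
    intro r
    rw [Place.mem_restrict_iff, ← IsScalarTower.algebraMap_apply A F F']
    exact (mem_iff_ord _).mpr (Or.inr (hreg r))
  obtain ⟨p', hp'⟩ := exists_ofHeightOneSpectrum_eq (K := K) (F := F) (R := A) _ hv
  obtain ⟨π, hπ⟩ := p'.intValuation_exists_uniformizer
  have hordv : ((Place.ofHeightOneSpectrum (K := K) (F := F') wP).restrict F).ord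
      (algebraMap A F π) = 1 := by
    rw [← hp', ord_ofHeightOneSpectrum, HeightOneSpectrum.valuation_of_algebraMap, hπ,
      WithZero.log_exp]
    norm_num
  have hordw : (Place.ofHeightOneSpectrum (K := K) (F := F') wP).ord
      (algebraMap (integralClosure A F') F' (algebraMap A (integralClosure A F') π)) = 1 := by
    rw [← IsScalarTower.algebraMap_apply A (integralClosure A F') F',
      IsScalarTower.algebraMap_apply A F F', Place.ord_restrict (F := F), he, hordv]
    norm_num
  exact ⟨π, FA_S18_NC_mem_of_ord_eq_one (K := K) wP
    (algebraMap A (integralClosure A F') π) hordw⟩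

/-- **Trace-dual form for an abstract Dedekind chart.** -/
theorem FA_S18_NC_dual_abstract
    (hunr : ∀ w : Place K F', (∀ a : A, 0 ≤ w.ord (algebraMap A F' a)) →
      w.ramificationIndex F = 1)
    (y : F')
    (hy : ∀ b : F', IsIntegral A b → ∃ a : A, Algebra.trace F F' (y * b) = algebraMap A F a) :
    IsIntegral A y := by
  classical
  haveI : CharZero F := charZero_of_injective_algebraMap (algebraMap K F).injective
  haveI : IsDedekindDomain (integralClosure A F') := integralClosure.isDedekindDomain A F F'
  haveI : IsFractionRing (integralClosure A F') F' :=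
    integralClosure.isFractionRing_of_finite_extension F F'
  haveI : Module.IsTorsionFree A F' := .trans_faithfulSMul _ F F'
  obtain ⟨b, hb⟩ := FA_S18_NC_dual_mem K A (integralClosure A F') F F'
    (FA_S18_NC_core_hyp K A F F' hunr) y (fun b => hy (b : F') b.2)
  rw [← hb]
  exact b.2

end Abstract2

section Main

variable {K F F' : Type*} [Field K] [CharZero K] [Field F] [Field F']
  [Algebra K F] [Algebra K F'] [Algebra F F'] [IsScalarTower K F F'] [FiniteDimensional F F']
  {x : F} (hx : Transcendental K x) [FiniteDimensional K⟮x⟯ F]

include hx in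
/-- The elements of `F'` integral over the chart ring of `F` are regular at the finite places. -/
theorem FA_S18_NC_regB (b : F') (hb : IsIntegral (chartRing K x) b) (w : Place K F')
    (hw : 0 ≤ w.ord (algebraMap F F' x)) : 0 ≤ w.ord b := by
  let φ : chartRing K x →+* w.toValuationSubring :=
    ((algebraMap F F').comp (algebraMap (chartRing K x) F)).codRestrict
      w.toValuationSubring.toSubring (fun a => FA_S18_NC_regA hx a w hw)
  have hφ : (algebraMap w.toValuationSubring F').comp φ
      = (RingHom.id F').comp (algebraMap (chartRing K x) F') := by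
    ext a
    rfl
  have hint : IsIntegral w.toValuationSubring b :=
    IsIntegral.map_of_comp_eq φ (RingHom.id F') hφ hb
  obtain ⟨z, hz⟩ := IsIntegrallyClosed.isIntegral_iff.mp hint
  have hmem : b ∈ w.toValuationSubring := by
    rw [← hz]
    exact z.2
  rcases (mem_iff_ord w).mp hmem with h | h
  · rw [h, Place.ord_zero]
  · exact h



include hx in
/-- **N-CH0, trace-dual form (places).**  If every place of `F'` at which `x` is regular is
unramified over `F`, then: `Tr_{F'/F}(y · b)` regular (at all finite places of `F`) for all
regular `b`  implies  `y` regular (at all finite places of `F'`). -/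
theorem FA_S18_NC_dual_places
    (hunr : ∀ w : Place K F', 0 ≤ w.ord (algebraMap F F' x) → w.ramificationIndex F = 1)
    (y : F')
    (hy : ∀ b : F', (∀ w : Place K F', 0 ≤ w.ord (algebraMap F F' x) → 0 ≤ w.ord b) →
        ∀ v : Place K F, 0 ≤ v.ord x → 0 ≤ v.ord (Algebra.trace F F' (y * b))) :
    ∀ w : Place K F', 0 ≤ w.ord (algebraMap F F' x) → 0 ≤ w.ord y := by
  classical
  haveI hA_ded : IsDedekindDomain (chartRing K x) := isDedekindDomain_chartRing hx
  haveI hA_frac : IsFractionRing (chartRing K x) F := isFractionRing_chartRing (K := K) x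
  haveI : IsScalarTower K (chartRing K x) F' := IsScalarTower.of_algebraMap_eq fun c => by
    rw [IsScalarTower.algebraMap_apply K F F']
    rfl
  have hxx : algebraMap (chartRing K x) F' ⟨x, x_mem_chartRing x⟩ = algebraMap F F' x := by
    rw [IsScalarTower.algebraMap_apply (chartRing K x) F F']
    rfl
  have hunr' : ∀ w : Place K F',
      (∀ a : chartRing K x, 0 ≤ w.ord (algebraMap (chartRing K x) F' a)) →
      w.ramificationIndex F = 1 := by
    intro w hw
    apply hunr w
    rw [← hxx]
    exact hw _
  have hy' : ∀ b : F', IsIntegral (chartRing K x) b →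
      ∃ a : chartRing K x, Algebra.trace F F' (y * b) = algebraMap (chartRing K x) F a := by
    intro b hb
    have hreg := hy b (FA_S18_NC_regB hx b hb)
    have hmem : Algebra.trace F F' (y * b) ∈ FA_S18_H2_icl K x :=
      (FA_S18_H2_mem_icl_iff hx).mpr hreg
    exact ⟨⟨_, hmem⟩, rfl⟩
  have key := FA_S18_NC_dual_abstract K (chartRing K x) F F' hunr' y hy'
  exact FA_S18_NC_regB hx y key

end Main

end Fermat.Agent.S24

end
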