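import Fermat.Agent.S18.NCh0Unram
import Fermat.Agent.S18.NCh0Dual
import Fermat.Agent.S18.Charts0Inst

/-!
# S18, leaf N, sub-leaf N-CH0: the finite chart of `F_n` is unimodular over that of `F_M`

`M ∣ n`, both levels without elliptic points (e.g. `4 ∣ M` or `9 ∣ M`):
`∀ y ∈ F_n, (∀ b ∈ Bf n, Tr_{F_n/F_M}(y b) ∈ Bf M) → y ∈ Bf n`,
where `Bf L = FA_S18_H2_Bf L` is the integral closure of `ℚ̄[j]` in `F_L`.
-/

set_option autoImplicit false
set_option linter.style.haveILetI false

noncomputable section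

namespace Fermat.Agent.S24

open AlgebraicCurve IntermediateField ModularCurve Fermat.Agent.S18

local notation "Qb" => AlgebraicClosure ℚ

/-- The two names of `j ∈ F_L` agree. -/
theorem FA_S18_NC_jBar_eq (L : ℕ) [NeZero L] : FA_S18_NC_jBar L = FA_S18_A_jbar L := by
  apply Subtype.ext
  show coeffEmb Qb (qExpand ℚ 1 jq) = coeffEmb Qb jq
  rw [qExpand_one_apply]

/-- **N-CH0, place form**, with `j = FA_S18_A_jbar`. -/
theorem FA_S18_NC_unram' (M n : ℕ) [NeZero M] [NeZero n] (hMn : M ∣ n) (hM : 2 ≤ M)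
    (h2M : nuTwo M = 0) (h3M : nuThree M = 0) (h2n : nuTwo n = 0) (h3n : nuThree n = 0) :
    letI : Algebra (modularFunctionFieldBar M) (modularFunctionFieldBar n) :=
      (IntermediateField.inclusion (FA_S18_NC_bar_le hMn)).toRingHom.toAlgebra
    ∀ w : Place Qb (modularFunctionFieldBar n), 0 ≤ w.ord (FA_S18_A_jbar n) →
      w.ramificationIndex (modularFunctionFieldBar M) = 1 := by
  have h := FA_S18_NC_unram M n hMn hM h2M h3M h2n h3n
  rw [FA_S18_NC_jBar_eq] at h
  exact h

/-- **N-CH0, trace-dual form.**  For `M ∣ n`, `M ≥ 2`, both levels without elliptic points,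
the finite chart `Bf n` of `F_n` is unimodular over the finite chart `Bf M` of `F_M`. -/
theorem FA_S18_NC_dual (M n : ℕ) [NeZero M] [NeZero n] (hMn : M ∣ n) (hM : 2 ≤ M)
    (h2M : nuTwo M = 0) (h3M : nuThree M = 0) (h2n : nuTwo n = 0) (h3n : nuThree n = 0) :
    letI : Algebra (modularFunctionFieldBar M) (modularFunctionFieldBar n) :=
      (IntermediateField.inclusion (FA_S18_NC_bar_le hMn)).toRingHom.toAlgebra
    ∀ y : modularFunctionFieldBar n,
      (∀ b ∈ FA_S18_H2_Bf n,
        Algebra.trace (modularFunctionFieldBar M) (modularFunctionFieldBar n) (y * b)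
          ∈ FA_S18_H2_Bf M) →
      y ∈ FA_S18_H2_Bf n := by
  letI : Algebra (modularFunctionFieldBar M) (modularFunctionFieldBar n) :=
    (IntermediateField.inclusion (FA_S18_NC_bar_le hMn)).toRingHom.toAlgebra
  haveI : IsScalarTower Qb (modularFunctionFieldBar M) (modularFunctionFieldBar n) :=
    IsScalarTower.of_algebraMap_eq fun c => rfl
  haveI : FiniteDimensional (modularFunctionFieldBar M) (modularFunctionFieldBar n) :=
    FA_S18_NC_finite_bar hMn hM
  haveI := (FA_S18_A_jbar_spec M).2.1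
  have hjM := (FA_S18_A_jbar_spec M).1
  have hmap : algebraMap (modularFunctionFieldBar M) (modularFunctionFieldBar n)
      (FA_S18_A_jbar M) = FA_S18_A_jbar n := Subtype.ext rfl
  have hunr := FA_S18_NC_unram' M n hMn hM h2M h3M h2n h3n
  intro y hy
  rw [FA_S18_H2_mem_Bf_iff]
  have key := FA_S18_NC_dual_places (K := Qb) (F := modularFunctionFieldBar M)
    (F' := modularFunctionFieldBar n) hjM (by rw [hmap]; exact hunr) y (by
      intro b hb
      rw [hmap] at hb
      have hb' : b ∈ FA_S18_H2_Bf n := (FA_S18_H2_mem_Bf_iff n).mpr hb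
      exact (FA_S18_H2_mem_Bf_iff M).mp (hy b hb'))
  rw [hmap] at key
  exact key

/-- No elliptic points at levels divisible by `4` or by `9`. -/
theorem FA_S18_NC_nu_zero {L : ℕ} (h : 4 ∣ L ∨ 9 ∣ L) : nuTwo L = 0 ∧ nuThree L = 0 := by
  rcases h with h | h
  · exact ⟨FA_S18_NC_nuTwo_of_four_dvd h,
      FA_S18_NC_nuThree_of_two_dvd (dvd_trans (by norm_num) h)⟩
  · exact ⟨FA_S18_NC_nuTwo_of_three_dvd (dvd_trans (by norm_num) h),
      FA_S18_NC_nuThree_of_nine_dvd h⟩

/-- **N-CH0, trace-dual form, for `4 ∣ M` or `9 ∣ M`, `M ∣ n`.** -/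
theorem FA_S18_NC_dual_base (M n : ℕ) [NeZero M] [NeZero n] (hMn : M ∣ n)
    (h : 4 ∣ M ∨ 9 ∣ M) :
    letI : Algebra (modularFunctionFieldBar M) (modularFunctionFieldBar n) :=
      (IntermediateField.inclusion (FA_S18_NC_bar_le hMn)).toRingHom.toAlgebra
    ∀ y : modularFunctionFieldBar n,
      (∀ b ∈ FA_S18_H2_Bf n,
        Algebra.trace (modularFunctionFieldBar M) (modularFunctionFieldBar n) (y * b)
          ∈ FA_S18_H2_Bf M) →
      y ∈ FA_S18_H2_Bf n := by
  have hM : 2 ≤ M := by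
    have hpos : 0 < M := Nat.pos_of_ne_zero (NeZero.ne M)
    rcases h with h | h
    · exact le_trans (by norm_num) (Nat.le_of_dvd hpos h)
    · exact le_trans (by norm_num) (Nat.le_of_dvd hpos h)
  have hn : 4 ∣ n ∨ 9 ∣ n := h.imp (fun h => h.trans hMn) (fun h => h.trans hMn)
  exact FA_S18_NC_dual M n hMn hM (FA_S18_NC_nu_zero h).1 (FA_S18_NC_nu_zero h).2
    (FA_S18_NC_nu_zero hn).1 (FA_S18_NC_nu_zero hn).2

end Fermat.Agent.S24

end
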