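import Fermat.Agent.S18.NCh0Model

/-!
# S18, leaf N, sub-leaf N-CH0 (char 0): the transfer keeps track of `j`

The model of S24 for the prelude's field `modularFunctionFieldBar N`, with coordinate `x = j`.
-/

set_option autoImplicit false

noncomputable section

open UpperHalfPlane ModularForm EisensteinSeries Complex MatrixGroups Filter
open scoped Manifold Topology

namespace Fermat.Agent.S24

open Fermat.Agent.Mero AlgebraicCurve

section transfer

variable (K : Type) [Field K] [Algebra ℚ K] [Algebra K ℂ] [Algebra K FA_Mero_Field]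
  (ht : FA_S24_Tower K)
variable (N : ℕ) [NeZero N]

/-- The formal `j`, as a Laurent series over `K`. -/
def FA_S18_NC_jK : LaurentSeries K :=
  ModularCurve.coeffEmb K (ModularCurve.qExpand ℚ 1 ModularCurve.jq)

include ht in
/-- The transfer, keeping track of the generator `j`. -/
theorem FA_S18_NC_transfer :
    ∃ τ : IntermediateField.adjoin K {x : LaurentSeries K | ∃ (d : ℕ) (_ : NeZero d), d ∣ N ∧
        x = ModularCurve.coeffEmb K (ModularCurve.qExpand ℚ d ModularCurve.jq)}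
          →ₐ[K] FA_Mero_Field,
      Set.range τ = (FA_S24_F0 K FA_S24_g N : Set FA_Mero_Field) ∧
      ∀ y : IntermediateField.adjoin K {x : LaurentSeries K | ∃ (d : ℕ) (_ : NeZero d), d ∣ N ∧
        x = ModularCurve.coeffEmb K (ModularCurve.qExpand ℚ d ModularCurve.jq)},
        (y : LaurentSeries K) = FA_S18_NC_jK K → τ y = FA_S24_g 1 := by
  obtain ⟨τ, hτ, hQ⟩ := FA_S24_TR K FA_Mero_Field (LaurentSeries K) (LaurentSeries ℂ)
    (FA_S24_Lam K N)
    (FA_S24_good N) (FA_S24_Qinf N)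
    (fun x hx y hy => FA_S24_Qinf_add hx hy)
    (fun x hx y hy => FA_S24_Qinf_mul hx hy)
    (fun x hx h0 => by
      by_contra hne
      exact FA_S24_Qinf_ne_zero hx hne h0)
    (fun c => ⟨FA_S24_constK_mem_good K ht N c, by
      rw [FA_S24_Lam_const, ht c, FA_S24_Qinf_const]⟩)
    {d : ℕ // d ∣ N} (FA_S24_sGen K N) (fun i => FA_S24_g i.1)
    (fun i => by
      have : NeZero i.1 := FA_S24_neZero_of_dvd i.2
      have hd : 0 < (i.1 : ℤ) := by exact_mod_cast Nat.pos_of_ne_zero (NeZero.ne i.1)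
      refine ⟨?_, ?_⟩
      · rw [FA_S24_g_eq hd]
        exact FA_S24_jaffM_mem_good FA_S24_QE N _ 0 1 hd one_pos (i.1 * N) (by push_cast; ring)
      · rw [FA_S24_Qinf_g FA_S24_QE FA_S24_QX FA_S24_JQ N i.1]
        unfold FA_S24_sGen
        rw [FA_S24_Lam_gen])
  have h1 : IntermediateField.adjoin K {x : LaurentSeries K | ∃ (d : ℕ) (_ : NeZero d), d ∣ N ∧
        x = ModularCurve.coeffEmb K (ModularCurve.qExpand ℚ d ModularCurve.jq)}
      = IntermediateField.adjoin K (Set.range (FA_S24_sGen K N)) := by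
    rw [FA_S24_range_sGen]
  -- `τ` sends `j` to `g 1`
  have hgood : ∀ y, τ y ∈ FA_S24_good N := by
    intro y
    have hy : τ y ∈ Set.range τ := ⟨y, rfl⟩
    rw [hτ] at hy
    have hy' : τ y ∈ IntermediateField.adjoin K
        (Set.range (fun i : {d : ℕ // d ∣ N} => FA_S24_g i.1)) := hy
    have hle : IntermediateField.adjoin K
        (Set.range (fun i : {d : ℕ // d ∣ N} => FA_S24_g i.1)) ≤
        FA_S24_E (FA_S24_rho K ht) FA_S24_g N := by
      unfold FA_S24_E
      apply IntermediateField.adjoin.mono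
      rintro x ⟨i, rfl⟩
      exact ⟨i.1, 1, i.2, by simp⟩
    exact FA_S24_E_le_good FA_S24_UT FA_S24_QE K ht N (hle hy')
  have hg1good : FA_S24_g 1 ∈ FA_S24_good N := by
    have hd : 0 < ((1 : ℕ) : ℤ) := by norm_num
    rw [FA_S24_g_eq hd]
    exact FA_S24_jaffM_mem_good FA_S24_QE N _ 0 1 hd one_pos (1 * N) (by push_cast; ring)
  have hkey : ∀ y : IntermediateField.adjoin K (Set.range (FA_S24_sGen K N)),
      (y : LaurentSeries K) = FA_S18_NC_jK K → τ y = FA_S24_g 1 := by
    intro y hy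
    have h2 : FA_S24_Qinf N (τ y) = FA_S24_Qinf N (FA_S24_g 1) := by
      rw [hQ y, hy, FA_S24_Qinf_g FA_S24_QE FA_S24_QX FA_S24_JQ N 1]
      unfold FA_S18_NC_jK
      rw [FA_S24_Lam_gen]
    by_contra hne
    have hsub : τ y - FA_S24_g 1 ∈ FA_S24_good N := sub_mem (hgood y) hg1good
    have hsub0 : τ y - FA_S24_g 1 ≠ 0 := sub_ne_zero.mpr hne
    apply FA_S24_Qinf_ne_zero hsub hsub0
    have h3 := FA_S24_Qinf_add hsub hg1good
    rw [sub_add_cancel, h2] at h3
    exact right_eq_add.mp h3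
  clear hQ hgood
  revert τ
  rw [← h1]
  intro τ hτ hkey
  exact ⟨τ, by rw [hτ, FA_S24_range_tGen]; rfl, hkey⟩

end transfer

/-- `j` as an element of the prelude's field `ℚ̄(X₀(N))`. -/
def FA_S18_NC_jBar (N : ℕ) [NeZero N] : ModularCurve.modularFunctionFieldBar N :=
  ⟨FA_S18_NC_jK (AlgebraicClosure ℚ), by
    rw [FA_S24_BC N]
    exact IntermediateField.subset_adjoin _ _ ⟨1, ⟨one_ne_zero⟩, one_dvd N, rfl⟩⟩

theorem FA_S18_NC_jBar_coe (N : ℕ) [NeZero N] :
    ((FA_S18_NC_jBar N : ModularCurve.modularFunctionFieldBar N) :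
      LaurentSeries (AlgebraicClosure ℚ)) = FA_S18_NC_jK (AlgebraicClosure ℚ) := rfl

/-- **The S24 model at level `N ≥ 2` with coordinate `x = j`.** -/
theorem FA_S18_NC_model (N : ℕ) [NeZero N] (hN : 2 ≤ N) :
    FA_S18_NC_ModelAt (AlgebraicClosure ℚ) (ModularCurve.modularFunctionFieldBar N) N
      (FA_S18_NC_jBar N) := by
  have halg : Algebra.IsAlgebraic ℚ (AlgebraicClosure ℚ) := AlgebraicClosure.isAlgebraic ℚ
  let algC : Algebra (AlgebraicClosure ℚ) ℂ :=
    (IsAlgClosed.lift (R := ℚ) (S := AlgebraicClosure ℚ) (M := ℂ)).toRingHom.toAlgebra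
  let algM : Algebra (AlgebraicClosure ℚ) FA_Mero_Field :=
    ((algebraMap ℂ FA_Mero_Field).comp (algebraMap (AlgebraicClosure ℚ) ℂ)).toAlgebra
  have ht : FA_S24_Tower (AlgebraicClosure ℚ) := fun c => rfl
  have hP := FA_S24_props_final (AlgebraicClosure ℚ) ht N
  obtain ⟨τ, hτ, hj⟩ := FA_S18_NC_transfer (AlgebraicClosure ℚ) ht N
  have hBC := FA_S24_BC N
  have key : ∀ (F : IntermediateField (AlgebraicClosure ℚ) (LaurentSeries (AlgebraicClosure ℚ)))
      (hF : F = IntermediateField.adjoin (AlgebraicClosure ℚ)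
          {x | ∃ (d : ℕ) (_ : NeZero d), d ∣ N ∧
            x = ModularCurve.coeffEmb (AlgebraicClosure ℚ)
                  (ModularCurve.qExpand ℚ d ModularCurve.jq)})
      (x : F), (x : LaurentSeries (AlgebraicClosure ℚ)) = FA_S18_NC_jK (AlgebraicClosure ℚ) →
      FA_S18_NC_ModelAt (AlgebraicClosure ℚ) F N x := by
    intro F hF
    subst hF
    intro x hx
    exact FA_S18_NC_modelAt hP hN _ τ hτ x (hj x hx)
  exact key _ hBC _ rfl

end Fermat.Agent.S24

end
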