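import Fermat.Agent.S18.NCh0Width
import Fermat.Agent.S18.NCh0Transfer
import Fermat.Agent.S18.StageA0

/-!
# S18, leaf N / CUSP, input Z2: the widths of the cusps of `X₀(L)` divide `L`

`FA_S18_NCW_Z2 (L ≥ 2) (v : Place ℚ̄ F_L) (hv : v.ord j < 0) : (-v.ord j) ∣ L`, with
`j = FA_S18_A_jbar L`.  From the S24 model (`Γ(L)` acts trivially on `E`, so `φ(T)^L = 1`) and
`FA_S18_NCW_width_abs`.
-/

set_option autoImplicit false
set_option linter.style.haveILetI false
set_option linter.unusedSectionVars false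

noncomputable section

namespace Fermat.Agent.S24

open AlgebraicCurve MatrixGroups IntermediateField

/-- The part of the S24 model at `∞`, with prescribed coordinate `x`, and `Γ(N) ≤ ker φ`. -/
def FA_S18_NCW_ModelInf (K F : Type) [Field K] [Field F] [Algebra K F] (N : ℕ) (x : F) : Prop :=
  ∃ (E : Type) (_ : Field E) (_ : Algebra K E) (_ : Algebra F E) (_ : IsScalarTower K F E)
    (φ : SL(2, ℤ) →* (E ≃ₐ[K] E)),
    (Set.range φ).Finite ∧
    Transcendental K x ∧
    (∀ γ : SL(2, ℤ), φ γ (algebraMap F E x) = algebraMap F E x) ∧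
    (∀ e : E, (∀ γ : SL(2, ℤ), φ γ e = e) →
      ∃ f : F, f ∈ IntermediateField.adjoin K {x} ∧ algebraMap F E f = e) ∧
    (∀ γ ∈ CongruenceSubgroup.Gamma0 N, ∀ f : F, φ γ (algebraMap F E f) = algebraMap F E f) ∧
    (∀ e : E, (∀ γ ∈ CongruenceSubgroup.Gamma0 N, φ γ e = e) →
      e ∈ Set.range (algebraMap F E)) ∧
    CongruenceSubgroup.Gamma N ≤ φ.ker ∧
    (∃ w : Place K E,
      w.ord (algebraMap F E x) < 0 ∧
      (∀ γ ∈ Subgroup.zpowers ModularGroup.T, ∀ e : E, w.ord (φ γ e) = w.ord e) ∧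
      - w.ord (algebraMap F E x) ≤ (Nat.card ((Subgroup.zpowers ModularGroup.T).map φ) : ℤ))

section model

variable {K M : Type} [Field K] [Field M] [Algebra K M]
variable {ρ : SL(2, ℤ) →* (M ≃ₐ[K] M)} {g : ℕ → M} {N : ℕ}

/-- **The model at `∞` from the analytic package, with prescribed coordinate.** -/
theorem FA_S18_NCW_modelInf (hP : FA_S24_Props ρ g N) [NeZero N] (F : Type) [Field F]
    [Algebra K F] (τ : F →ₐ[K] M)
    (hτ : Set.range τ = (FA_S24_F0 K g N : Set M)) (x : F) (hx : τ x = g 1) :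
    FA_S18_NCW_ModelInf K F N x := by
  classical
  have hτmem : ∀ f : F, τ f ∈ FA_S24_F0 K g N := fun f => by
    have : τ f ∈ Set.range τ := ⟨f, rfl⟩
    rw [hτ] at this
    exact this
  have hτsurj : ∀ y ∈ FA_S24_F0 K g N, ∃ f : F, τ f = y := fun y hy => by
    have : y ∈ Set.range τ := by rw [hτ]; exact hy
    exact this
  let τE : F →ₐ[K] FA_S24_E ρ g N :=
    AlgHom.codRestrict τ (FA_S24_E ρ g N).toSubalgebra
      (fun f => FA_S24_F0_le_E ρ g N (hτmem f))
  let algFE : Algebra F (FA_S24_E ρ g N) := τE.toRingHom.toAlgebra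
  have hcoe : ∀ f : F, ((algebraMap F (FA_S24_E ρ g N) f : FA_S24_E ρ g N) : M) = τ f :=
    fun f => rfl
  have tower : IsScalarTower K F (FA_S24_E ρ g N) :=
    IsScalarTower.of_algebraMap_eq (fun c => (τE.commutes c).symm)
  refine ⟨FA_S24_E ρ g N, inferInstance, inferInstance, algFE, tower, FA_S24_phi ρ g N,
    hP.finite_range, ?_, ?_, ?_, ?_, ?_, hP.Gamma_le_ker, ?_⟩
  · -- transcendence
    intro hx'
    apply hP.transc
    rw [← hx]
    exact hx'.algHom τ
  · intro γ
    apply Subtype.ext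
    show ρ γ (τ x) = τ x
    rw [hx]
    exact hP.fix_g_one γ
  · intro e he
    have he' : ∀ γ : SL(2, ℤ), ρ γ (e : M) = (e : M) := fun γ =>
      congrArg (fun y : FA_S24_E ρ g N => (y : M)) (he γ)
    have h1 := hP.invariants (e : M) e.2 he'
    have h2 : (IntermediateField.adjoin K {x}).map τ = IntermediateField.adjoin K {g 1} := by
      rw [IntermediateField.adjoin_map, Set.image_singleton, hx]
    rw [← h2] at h1
    obtain ⟨f, hf, hfe⟩ := h1
    exact ⟨f, hf, Subtype.ext hfe⟩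
  · intro γ hγ f
    apply Subtype.ext
    show ρ γ (τ f) = τ f
    exact hP.fix_F0 γ hγ (hτmem f)
  · intro e he
    obtain ⟨f, hf⟩ := hτsurj _ (hP.mem_F0_of_fixed e he)
    exact ⟨f, Subtype.ext hf⟩
  · -- the place at infinity
    obtain ⟨ν, hν, hneg, hinv, hle⟩ := hP.valInf
    obtain ⟨w, m, hm, hord, -⟩ := hν.exists_place
    have ha0 : (algebraMap F (FA_S24_E ρ g N) x) ≠ 0 := by
      intro h
      have h1 := congrArg (fun y : FA_S24_E ρ g N => (y : M)) h
      have h2 : τ x = 0 := h1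
      rw [hx] at h2
      exact hP.g_one_ne_zero h2
    have hval : ν (g 1) = m * w.ord (algebraMap F (FA_S24_E ρ g N) x) := by
      rw [← hord _ ha0]
      show ν (g 1) = ν (τ x)
      rw [hx]
    have hwneg : w.ord (algebraMap F (FA_S24_E ρ g N) x) < 0 := by
      rw [hval] at hneg
      by_contra hcon
      have hcon' := not_lt.mp hcon
      exact absurd hneg (not_lt.mpr (mul_nonneg hm.le hcon'))
    refine ⟨w, hwneg, ?_, ?_⟩
    · intro γ hγ e
      by_cases he0 : e = 0
      · subst he0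
        rw [map_zero]
      have he0' : FA_S24_phi ρ g N γ e ≠ 0 := by
        rwa [ne_eq, EmbeddingLike.map_eq_zero_iff]
      have h1 := hord _ he0
      have h2 := hord _ he0'
      have h3 : ν ((FA_S24_phi ρ g N γ e : FA_S24_E ρ g N) : M) = ν (e : M) :=
        hinv γ hγ e e.2
      rw [h3, h1] at h2
      exact (mul_left_cancel₀ hm.ne' h2).symm
    · have h1 : - w.ord (algebraMap F (FA_S24_E ρ g N) x)
          ≤ - (m * w.ord (algebraMap F (FA_S24_E ρ g N) x)) := by
        nlinarith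
      calc - w.ord (algebraMap F (FA_S24_E ρ g N) x)
          ≤ - ν (g 1) := by rw [hval]; exact h1
        _ ≤ (N : ℤ) := hle
        _ ≤ _ := hP.card_T

end model

/-- `T ^ N ∈ Γ(N)`. -/
theorem FA_S18_NCW_T_pow_mem (N : ℕ) : ModularGroup.T ^ N ∈ CongruenceSubgroup.Gamma N := by
  rw [CongruenceSubgroup.Gamma_mem]
  have h : ((ModularGroup.T ^ N : SL(2, ℤ)) : Matrix (Fin 2) (Fin 2) ℤ) = !![1, (N : ℤ); 0, 1] := by
    have := ModularGroup.coe_T_zpow (N : ℤ)
    rwa [zpow_natCast] at this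
  rw [h]
  simp

/-- **Widths divide the level**, from the model. -/
theorem FA_S18_NCW_width_of_model {K F : Type} [Field K] [IsAlgClosed K] [CharZero K] [Field F]
    [Algebra K F] {N : ℕ} {x : F} (hM : FA_S18_NCW_ModelInf K F N x)
    (v : Place K F) (hv : v.ord x < 0) : (- v.ord x) ∣ (N : ℤ) := by
  obtain ⟨E, _, _, _, _, φ, hfin, hx, hxΓ, hfixΓ, hH, hfixH, hker, w, hw1, hw2, hw3⟩ := hM
  exact FA_S18_NCW_width_abs φ hfin x hx hxΓ hfixΓ (CongruenceSubgroup.Gamma0 N) hH hfixH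
    ModularGroup.T N (MonoidHom.mem_ker.mp (hker (FA_S18_NCW_T_pow_mem N))) w hw1 hw2 hw3 v hv

/-- **The S24 model at `∞`, level `N`, with coordinate `x = j`.** -/
theorem FA_S18_NCW_model (N : ℕ) [NeZero N] :
    FA_S18_NCW_ModelInf (AlgebraicClosure ℚ) (ModularCurve.modularFunctionFieldBar N) N
      (FA_S18_NC_jBar N) := by
  have halg : Algebra.IsAlgebraic ℚ (AlgebraicClosure ℚ) := AlgebraicClosure.isAlgebraic ℚ
  let algC : Algebra (AlgebraicClosure ℚ) ℂ :=
    (IsAlgClosed.lift (R := ℚ) (S := AlgebraicClosure ℚ) (M := ℂ)).toRingHom.toAlgebra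
  let algM : Algebra (AlgebraicClosure ℚ) Fermat.Agent.Mero.FA_Mero_Field :=
    ((algebraMap ℂ Fermat.Agent.Mero.FA_Mero_Field).comp
      (algebraMap (AlgebraicClosure ℚ) ℂ)).toAlgebra
  have ht : FA_S24_Tower (AlgebraicClosure ℚ) := fun c => rfl
  have hP := FA_S24_props_final (AlgebraicClosure ℚ) ht N
  obtain ⟨τ, hτ, hj⟩ := FA_S18_NC_transfer (AlgebraicClosure ℚ) ht N
  have hBC := FA_S24_BC N
  have key : ∀ (F : IntermediateField (AlgebraicClosure ℚ) (LaurentSeries (AlgebraicClosure ℚ)))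
      (hF : F = IntermediateField.adjoin (AlgebraicClosure ℚ)
          {x | ∃ (d : ℕ) (_ : NeZero d), d ∣ N ∧
            x = ModularCurve.coeffEmb (AlgebraicClosure ℚ)
                  (ModularCurve.qExpand ℚ d ModularCurve.jq)})
      (x : F), (x : LaurentSeries (AlgebraicClosure ℚ)) = FA_S18_NC_jK (AlgebraicClosure ℚ) →
      FA_S18_NCW_ModelInf (AlgebraicClosure ℚ) F N x := by
    intro F hF
    subst hF
    intro x hx
    exact FA_S18_NCW_modelInf hP _ τ hτ x (hj x hx)
  exact key _ hBC _ rfl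

/-- **Z2**: the widths of the cusps of `X₀(L)` divide `L`. -/
theorem FA_S18_NCW_Z2 (L : ℕ) [NeZero L]
    (v : Place (AlgebraicClosure ℚ) ↥(ModularCurve.modularFunctionFieldBar L))
    (hv : v.ord (Fermat.Agent.S18.FA_S18_A_jbar L) < 0) :
    (- v.ord (Fermat.Agent.S18.FA_S18_A_jbar L)) ∣ (L : ℤ) := by
  have hj : FA_S18_NC_jBar L = Fermat.Agent.S18.FA_S18_A_jbar L := by
    apply Subtype.ext
    show ModularCurve.coeffEmb (AlgebraicClosure ℚ) (ModularCurve.qExpand ℚ 1 ModularCurve.jq)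
      = ModularCurve.coeffEmb (AlgebraicClosure ℚ) ModularCurve.jq
    rw [ModularCurve.qExpand_one_apply]
  rw [← hj] at hv ⊢
  exact FA_S18_NCW_width_of_model (FA_S18_NCW_model L) v hv

end Fermat.Agent.S24

end
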