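import Mathlib
import Fermat.Agent.S18.CuspFieldB
import Fermat.Agent.S18.CuspKum
import Fermat.Agent.S18.NCh0Final
import Fermat.Agent.S18.Descent
import Fermat.Agent.S18.NCh0WidthInst

/-!
# S18, leaf N / CUSP, part C-INST: the Kummer cover `F' = σ(F_n)(x)` is unramified over `|x| < 1`

* `FA_S18_CUCI_unram` (abstract, any `F ⊂ K((q))`): the hypotheses of helper8's
  `FA_S18_CUC_unram_zero` / `FA_S18_CUC_unram_ne` at the Kummer field `FA_S18_CUF_field K w F x`.
* `FA_S18_CUCI_unram_inst` : for `F = F_n = modularFunctionFieldBar n` (`n ≥ 2`), `w = n`,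
  `u = 1 / j`, `x = t · g(t^n)` with `x ^ n = σ u`: for every `α` with `1728 · α ^ n ≠ 1`, all
  zeros of `x - α` on `F'` are simple.  Input (Z2): cusp widths divide `n`.
-/

set_option autoImplicit false
set_option linter.unusedSectionVars false
set_option linter.style.haveILetI false

noncomputable section

namespace Fermat.Agent.S18

open ModularCurve IntermediateField AlgebraicCurve Fermat.Agent.S24

section Abstract

variable {K : Type} [Field K] [IsAlgClosed K] [CharZero K] {w : ℕ} [NeZero w]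

/-- a primitive `w`-th root of unity -/
theorem FA_S18_CUCI_exists_primitiveRoot (w : ℕ) [NeZero w] :
    ∃ ζ : K, IsPrimitiveRoot ζ w := by
  have hpk : (w : K) ≠ 0 := by exact_mod_cast NeZero.ne w
  haveI : NeZero (w : K) := ⟨hpk⟩
  obtain ⟨ζ, hζ⟩ := IsAlgClosed.exists_root (Polynomial.cyclotomic w K)
    (Polynomial.degree_cyclotomic_pos w _ (Nat.pos_of_ne_zero (NeZero.ne w))).ne'
  exact ⟨ζ, Polynomial.isRoot_cyclotomic_iff.mp hζ⟩

/-- **The Kummer cover is unramified over `x = α`** (abstract form): simple zeros of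
`u - α ^ w` (`α ≠ 0`), resp. zeros of `u` of order dividing `w` (`α = 0`), give simple zeros of
`x - α`. -/
theorem FA_S18_CUCI_unram (F : IntermediateField K (LaurentSeries K)) (hF : FA_RR_IsFF K ↥F)
    (u : ↥F) (hu : Transcendental K u)
    (hfin : FiniteDimensional ↥(IntermediateField.adjoin K {u}) ↥F)
    (g x : LaurentSeries K) (hx : x = HahnSeries.single (1 : ℤ) (1 : K) * qExpand K w g)
    (hxw : x ^ w = qExpand K w (u : LaurentSeries K))
    (α : K)
    (hwidth : α = 0 → ∀ v : Place K ↥F, 0 < v.ord u → ∃ h : ℕ, v.ord u = h ∧ h ∣ w)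
    (hunr : α ≠ 0 → ∀ v : Place K ↥F, 0 < v.ord (u - algebraMap K ↥F (α ^ w)) →
      v.ord (u - algebraMap K ↥F (α ^ w)) = 1)
    (v' : Place K ↥(FA_S18_CUF_field K w F x))
    (hv' : 0 < v'.ord (FA_S18_CUF_x w F x - algebraMap K ↥(FA_S18_CUF_field K w F x) α)) :
    v'.ord (FA_S18_CUF_x w F x - algebraMap K ↥(FA_S18_CUF_field K w F x) α) = 1 := by
  obtain ⟨ζ, hζ⟩ := FA_S18_CUCI_exists_primitiveRoot (K := K) w
  have hw : 0 < w := Nat.pos_of_ne_zero (NeZero.ne w)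
  have hζ0 : ζ ≠ 0 := hζ.ne_zero hw.ne'
  set ζu : Kˣ := Units.mk0 ζ hζ0 with hζu
  have hζw : ζu ^ w = 1 := by
    apply Units.ext
    rw [Units.val_pow_eq_pow_val, Units.val_one]
    exact hζ.pow_eq_one
  have hF' := FA_S18_CUF_isFF F x u hu hfin hxw
  have hint := FA_S18_CUF_hint F x (u : LaurentSeries K) u.2 hxw
  have hxw' : (FA_S18_CUF_x w F x) ^ w = FA_S18_CUF_sigma w F x u := Subtype.ext hxw
  have hτσ := FA_S18_CUF_tau_sigma F x ζu hζw g hx
  have hτx : FA_S18_CUF_tau F x ζu hζw g hx (FA_S18_CUF_x w F x)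
      = algebraMap K ↥(FA_S18_CUF_field K w F x) ζ * FA_S18_CUF_x w F x :=
    FA_S18_CUF_tau_x F x ζu hζw g hx
  have hdeg := FA_S18_CUF_hdeg F x u hfin hxw
  by_cases hα : α = 0
  · subst hα
    rw [map_zero, sub_zero] at hv' ⊢
    exact FA_S18_CUC_unram_zero hF hF' (FA_S18_CUF_sigma w F x) hint u hu (FA_S18_CUF_x w F x) w
      hw hxw' ζ hζ (FA_S18_CUF_tau F x ζu hζw g hx) hτσ hτx hdeg (hwidth rfl) v' hv'
  · exact FA_S18_CUC_unram_ne hF hF' (FA_S18_CUF_sigma w F x) hint u hu (FA_S18_CUF_x w F x) w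
      hw hxw' ζ hζ (FA_S18_CUF_tau F x ζu hζw g hx) hτσ hτx hdeg α hα (hunr hα) v' hv'

end Abstract

section Inst

local notation "Qb" => AlgebraicClosure ℚ

variable (n : ℕ) [NeZero n]

/-- `u = 1 / j` as an element of `F_n`. -/
def FA_S18_CUCI_u : ↥(modularFunctionFieldBar n) := (FA_S18_A_jbar n)⁻¹

theorem FA_S18_CUCI_jbar_coe :
    ((FA_S18_A_jbar n : ↥(modularFunctionFieldBar n)) : LaurentSeries Qb) = jqModC Qb := by
  show coeffEmb Qb jq = _
  have h1 : coeffEmb Qb jq = coeffMap (algebraMap ℚ Qb) (jqModC ℚ) := rfl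
  rw [h1, coeffMap_jqModC]

theorem FA_S18_CUCI_u_coe :
    ((FA_S18_CUCI_u n : ↥(modularFunctionFieldBar n)) : LaurentSeries Qb) = FA_S18_CU_u Qb := by
  have h1 : ((FA_S18_CUCI_u n : ↥(modularFunctionFieldBar n)) : LaurentSeries Qb)
      = (jqModC Qb)⁻¹ := by
    rw [← FA_S18_CUCI_jbar_coe n]
    rfl
  rw [h1]
  exact (eq_inv_of_mul_eq_one_right (FA_S18_CU_j_mul_u Qb)).symm

theorem FA_S18_CUCI_jbar_ne_zero : FA_S18_A_jbar n ≠ 0 := by
  intro h
  apply (FA_S18_A_jbar_spec n).1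
  rw [h]
  exact isAlgebraic_zero

theorem FA_S18_CUCI_u_transcendental : Transcendental Qb (FA_S18_CUCI_u n) := by
  intro h
  apply (FA_S18_A_jbar_spec n).1
  have h1 : IsAlgebraic Qb ((FA_S18_CUCI_u n)⁻¹) := IsAlgebraic.inv_iff.mpr h
  rwa [FA_S18_CUCI_u, inv_inv] at h1

theorem FA_S18_CUCI_adjoin_u :
    IntermediateField.adjoin Qb {FA_S18_CUCI_u n}
      = IntermediateField.adjoin Qb {FA_S18_A_jbar n} := by
  apply le_antisymm
  · rw [adjoin_le_iff]
    rintro z hz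
    rw [Set.mem_singleton_iff] at hz
    subst hz
    exact inv_mem (IntermediateField.mem_adjoin_simple_self Qb _)
  · rw [adjoin_le_iff]
    rintro z hz
    rw [Set.mem_singleton_iff] at hz
    subst hz
    have h1 : FA_S18_A_jbar n = (FA_S18_CUCI_u n)⁻¹ := by rw [FA_S18_CUCI_u, inv_inv]
    rw [h1]
    exact inv_mem (IntermediateField.mem_adjoin_simple_self Qb _)

theorem FA_S18_CUCI_u_finite :
    FiniteDimensional ↥(IntermediateField.adjoin Qb {FA_S18_CUCI_u n})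
      ↥(modularFunctionFieldBar n) := by
  rw [FA_S18_CUCI_adjoin_u]
  exact (FA_S18_A_jbar_spec n).2.1

/-- (Z2) in the form needed: the order of `u` at a zero divides `n`. -/
theorem FA_S18_CUCI_width (v : Place Qb ↥(modularFunctionFieldBar n))
    (hv : 0 < v.ord (FA_S18_CUCI_u n)) :
    ∃ h : ℕ, v.ord (FA_S18_CUCI_u n) = h ∧ h ∣ n := by
  have h1 : v.ord (FA_S18_CUCI_u n) = - v.ord (FA_S18_A_jbar n) := by
    rw [FA_S18_CUCI_u, Place.ord_inv]
  have h2 : v.ord (FA_S18_A_jbar n) < 0 := by omega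
  have h3 := FA_S18_NCW_Z2 n v h2
  rw [← h1] at h3
  refine ⟨(v.ord (FA_S18_CUCI_u n)).toNat, (Int.toNat_of_nonneg hv.le).symm, ?_⟩
  rw [← Int.natCast_dvd_natCast, Int.toNat_of_nonneg hv.le]
  exact h3

/-- (Z1) in the form needed: zeros of `u - a`, `a ≠ 0`, `1728 a ≠ 1`, are simple. -/
theorem FA_S18_CUCI_simple (hn : 2 ≤ n) (a : Qb) (ha : a ≠ 0) (ha' : 1728 * a ≠ 1)
    (v : Place Qb ↥(modularFunctionFieldBar n))
    (hv : 0 < v.ord (FA_S18_CUCI_u n - algebraMap Qb ↥(modularFunctionFieldBar n) a)) :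
    v.ord (FA_S18_CUCI_u n - algebraMap Qb ↥(modularFunctionFieldBar n) a) = 1 := by
  set F := ↥(modularFunctionFieldBar n)
  set u : F := FA_S18_CUCI_u n with hu
  set j : F := FA_S18_A_jbar n with hj
  have hj0 : j ≠ 0 := FA_S18_CUCI_jbar_ne_zero n
  have huj : u * j = 1 := by rw [hu, FA_S18_CUCI_u, inv_mul_cancel₀ hj0]
  have ha0 : algebraMap Qb F a ≠ 0 := by
    rw [ne_eq, map_eq_zero_iff _ (algebraMap Qb F).injective]
    exact ha
  set y : F := u - algebraMap Qb F a with hy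
  have hy0 : y ≠ 0 := by
    intro h0
    rw [h0, Place.ord_zero] at hv
    omega
  -- `ord u = 0`
  have hordu : v.ord u = 0 := by
    have h1 : u = algebraMap Qb F a + y := by rw [hy]; ring
    rw [h1, FA_RR.ord_add_eq_of_lt v ha0 (Or.inr (by rw [FA_RR.ord_algebraMap]; exact hv)),
      FA_RR.ord_algebraMap]
  have hordj : v.ord j = 0 := by
    have h1 : j = u⁻¹ := by rw [hu, FA_S18_CUCI_u, inv_inv]
    rw [h1, Place.ord_inv, hordu, neg_zero]
  -- `j - c = -(a⁻¹) * j * (u - a)`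
  have hkey : j - algebraMap Qb F a⁻¹ = algebraMap Qb F (-a⁻¹) * (j * y) := by
    have h2 : algebraMap Qb F a⁻¹ * algebraMap Qb F a = 1 := by
      rw [← map_mul, inv_mul_cancel₀ ha, map_one]
    have h3 : j * u = 1 := by rw [mul_comm]; exact huj
    rw [hy, map_neg, mul_sub, h3]
    calc j - algebraMap Qb F a⁻¹
        = j * (algebraMap Qb F a⁻¹ * algebraMap Qb F a) - algebraMap Qb F a⁻¹ := by
          rw [h2, mul_one]
      _ = -algebraMap Qb F a⁻¹ * (1 - j * algebraMap Qb F a) := by ring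
  have hc0 : algebraMap Qb F (-a⁻¹) ≠ 0 := by
    rw [ne_eq, map_eq_zero_iff _ (algebraMap Qb F).injective]
    exact neg_ne_zero.mpr (inv_ne_zero ha)
  have hord : v.ord (j - algebraMap Qb F a⁻¹) = v.ord y := by
    rw [hkey, v.ord_mul hc0 (mul_ne_zero hj0 hy0), FA_RR.ord_algebraMap, zero_add,
      v.ord_mul hj0 hy0, hordj, zero_add]
  have hle := FA_S18_NC_ord_le_of_model (FA_S18_NC_model n hn) a⁻¹ v (by
    rw [FA_S18_NC_jBar_eq]
    show 0 < v.ord (j - algebraMap Qb F a⁻¹)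
    rw [hord]
    exact hv)
  rw [FA_S18_NC_jBar_eq] at hle
  have hle' : v.ord (j - algebraMap Qb F a⁻¹) ≤ FA_S24_eBound a⁻¹ := hle
  have heB : FA_S24_eBound a⁻¹ = 1 := by
    have hc1 : a⁻¹ ≠ 0 := inv_ne_zero ha
    have hc2 : a⁻¹ ≠ 1728 := by
      intro h
      apply ha'
      rw [← h, inv_mul_cancel₀ ha]
    simp [FA_S24_eBound, hc1, hc2]
  rw [hord, heB] at hle'
  omega

/-- **CU-C-INST**: the Kummer cover `F' = σ(F_n)(x)`, `x ^ n = σ(1/j)`, is unramified over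
`x = α` for every `α` with `1728 · α ^ n ≠ 1`. -/
theorem FA_S18_CUCI_unram_inst (hn : 2 ≤ n) (g x : LaurentSeries Qb)
    (hx : x = HahnSeries.single (1 : ℤ) (1 : Qb) * qExpand Qb n g)
    (hxw : x ^ n = qExpand Qb n (FA_S18_CU_u Qb))
    (α : Qb) (hα : 1728 * α ^ n ≠ 1)
    (v' : Place Qb ↥(FA_S18_CUF_field Qb n (modularFunctionFieldBar n) x))
    (hv' : 0 < v'.ord (FA_S18_CUF_x n (modularFunctionFieldBar n) x
      - algebraMap Qb ↥(FA_S18_CUF_field Qb n (modularFunctionFieldBar n) x) α)) :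
    v'.ord (FA_S18_CUF_x n (modularFunctionFieldBar n) x
      - algebraMap Qb ↥(FA_S18_CUF_field Qb n (modularFunctionFieldBar n) x) α) = 1 := by
  refine FA_S18_CUCI_unram (modularFunctionFieldBar n) (FA_S18_A_isFF n) (FA_S18_CUCI_u n)
    (FA_S18_CUCI_u_transcendental n) (FA_S18_CUCI_u_finite n) g x hx
    (by rw [FA_S18_CUCI_u_coe]; exact hxw) α
    (fun _ v hv => FA_S18_CUCI_width n v hv)
    (fun hα0 v hv => FA_S18_CUCI_simple n hn (α ^ n) (pow_ne_zero _ hα0) hα v hv) v' hv'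

/-- The same in the form of the hypothesis `hsimple` of `FA_S18_CUD_dual`, for any polynomial
`s` vanishing at the branch points `1728 · β ^ n = 1`. -/
theorem FA_S18_CUCI_hsimple (hn : 2 ≤ n) (g x : LaurentSeries Qb)
    (hx : x = HahnSeries.single (1 : ℤ) (1 : Qb) * qExpand Qb n g)
    (hxw : x ^ n = qExpand Qb n (FA_S18_CU_u Qb))
    (s : Polynomial Qb) (hs : ∀ β : Qb, 1728 * β ^ n = 1 → s.eval β = 0) :
    ∀ β : Qb, s.eval β ≠ 0 →
      ∀ v : Place Qb ↥(FA_S18_CUF_field Qb n (modularFunctionFieldBar n) x),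
        0 < v.ord (FA_S18_CUF_x n (modularFunctionFieldBar n) x
          - algebraMap Qb ↥(FA_S18_CUF_field Qb n (modularFunctionFieldBar n) x) β) →
        v.ord (FA_S18_CUF_x n (modularFunctionFieldBar n) x
          - algebraMap Qb ↥(FA_S18_CUF_field Qb n (modularFunctionFieldBar n) x) β) = 1 :=
  fun β hβ v hv => FA_S18_CUCI_unram_inst n hn g x hx hxw β (fun h => hβ (hs β h)) v hv

/-- **CU-C-INST for the Kummer element of `S18/CuspKum.lean`.** -/
theorem FA_S18_CUCI_unram_kum (hn : 2 ≤ n) (A : ValuationSubring Qb)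
    (hw : IsUnit ((n : ℕ) : ↥A)) (α : Qb) (hα : 1728 * α ^ n ≠ 1)
    (v' : Place Qb ↥(FA_S18_CUF_field Qb n (modularFunctionFieldBar n) (FA_S18_CUK_x A n hw)))
    (hv' : 0 < v'.ord (FA_S18_CUF_x n (modularFunctionFieldBar n) (FA_S18_CUK_x A n hw)
      - algebraMap Qb
        ↥(FA_S18_CUF_field Qb n (modularFunctionFieldBar n) (FA_S18_CUK_x A n hw)) α)) :
    v'.ord (FA_S18_CUF_x n (modularFunctionFieldBar n) (FA_S18_CUK_x A n hw)
      - algebraMap Qb
        ↥(FA_S18_CUF_field Qb n (modularFunctionFieldBar n) (FA_S18_CUK_x A n hw)) α) = 1 :=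
  FA_S18_CUCI_unram_inst n hn (FA_S18_CUK_g A n hw) (FA_S18_CUK_x A n hw) rfl
    (FA_S18_CUK_x_pow A n hw) α hα v' hv'

end Inst

end Fermat.Agent.S18
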