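import Fermat.Agent.S18.GaussDeg

/-!
# S18, leaf N / CUSP: the degrees of a Gauss datum (field `deg` of the glue bundle)

Abstract: `L / K` fields, `x : L`, `e : Fin n → L` (`0 < n`) with
* (indep) `Σ c_i(x) e_i = 0 ⟹ c = 0` for polynomial coefficients,
* (span) every `y : L` satisfies `Q(x) y = Σ P_i(x) e_i` with `Q ≠ 0`.
Then `e` is a basis of `L` over `K(x)`: `L` is finite over `K(x)` of degree `n`
(`FA_S18_DEG_finrank`).

For a datum `D : FA_S18_B_Datum A π F n`:
* `FA_S18_DEG_char0` : `finrank K(x') F = n`, `x' = ⟨ι D.x, _⟩`;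
* `FA_S18_DEG_bar`   : `finrank k(x̄') F̄ = n`, `F̄ = FA_S18_B_redField F hπ`, `x̄' = ⟨ρ D.x, _⟩`.
-/

set_option autoImplicit false
set_option linter.unusedSectionVars false
set_option linter.style.haveILetI false

noncomputable section

namespace Fermat.Agent.S18

open ModularCurve Polynomial IntermediateField

section abstract

variable {K L : Type*} [Field K] [Field L] [Algebra K L]

/-- Transcendence of `x` from (indep). -/
theorem FA_S18_DEG_transc (x : L) {n : ℕ} (hn : 0 < n) (e : Fin n → L)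
    (hindep : ∀ c : Fin n → K[X], ∑ i, aeval x (c i) * e i = 0 → ∀ i, c i = 0)
    (Q : K[X]) (hQ : aeval x Q = 0) : Q = 0 := by
  classical
  have h := hindep (fun i => if i = ⟨0, hn⟩ then Q else 0) (by
    rw [Finset.sum_eq_single (⟨0, hn⟩ : Fin n)]
    · rw [if_pos rfl, hQ, zero_mul]
    · intro i _ hi
      rw [if_neg hi, map_zero, zero_mul]
    · intro h
      exact absurd (Finset.mem_univ _) h) ⟨0, hn⟩
  simpa using h

/-- Elements of `K(x)` have polynomial numerators over a common polynomial denominator. -/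
theorem FA_S18_DEG_common_den (x : L) {n : ℕ} (g : Fin n → ↥(K⟮x⟯)) :
    ∃ (S : K[X]) (c : Fin n → K[X]), aeval x S ≠ 0 ∧
      ∀ i, aeval x (c i) = ((g i : ↥(K⟮x⟯)) : L) * aeval x S := by
  classical
  have h1 : ∀ i, ∃ r s : K[X], aeval x s ≠ 0 ∧ ((g i : ↥(K⟮x⟯)) : L) * aeval x s = aeval x r := by
    intro i
    obtain ⟨r, s, hrs⟩ := (IntermediateField.mem_adjoin_simple_iff K _).mp (g i).2
    by_cases hs : aeval x s = 0
    · refine ⟨0, 1, by rw [map_one]; exact one_ne_zero, ?_⟩
      rw [hrs, hs, div_zero, zero_mul, map_zero]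
    · exact ⟨r, s, hs, by rw [hrs, div_mul_cancel₀ _ hs]⟩
  choose r s hs hrs using h1
  refine ⟨∏ i, s i, fun i => r i * ∏ l ∈ Finset.univ.erase i, s l, ?_, fun i => ?_⟩
  · rw [map_prod]
    exact Finset.prod_ne_zero_iff.mpr fun i _ => hs i
  · rw [map_mul, ← hrs i, ← Finset.mul_prod_erase Finset.univ s (Finset.mem_univ i), map_mul,
      mul_assoc]

/-- **Degree of a datum** (abstract): `e` is a basis of `L` over `K(x)`. -/
theorem FA_S18_DEG_finrank (x : L) {n : ℕ} (hn : 0 < n) (e : Fin n → L)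
    (hindep : ∀ c : Fin n → K[X], ∑ i, aeval x (c i) * e i = 0 → ∀ i, c i = 0)
    (hspan : ∀ y : L, ∃ (Q : K[X]) (P : Fin n → K[X]), Q ≠ 0 ∧
      aeval x Q * y = ∑ i, aeval x (P i) * e i) :
    FiniteDimensional ↥(K⟮x⟯) L ∧ Module.finrank ↥(K⟮x⟯) L = n := by
  classical
  have htr : ∀ Q : K[X], aeval x Q = 0 → Q = 0 :=
    FA_S18_DEG_transc x hn e hindep
  have hmem : ∀ P : K[X], aeval x P ∈ K⟮x⟯ := fun P =>
    algebra_adjoin_le_adjoin K _ (aeval_mem_adjoin_singleton K x)
  -- linear independence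
  have hli : LinearIndependent ↥(K⟮x⟯) e := by
    rw [Fintype.linearIndependent_iff]
    intro g hg i
    obtain ⟨S, c, hS, hc⟩ := FA_S18_DEG_common_den x g
    have h0 : ∑ i, aeval x (c i) * e i = 0 := by
      have h1 : ∑ i, aeval x (c i) * e i = aeval x S * ∑ i, g i • e i := by
        rw [Finset.mul_sum]
        refine Finset.sum_congr rfl fun i _ => ?_
        rw [hc i, Algebra.smul_def]
        show _ = aeval x S * (((g i : ↥(K⟮x⟯)) : L) * e i)
        ring
      rw [h1, hg, mul_zero]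
    have h2 := hindep c h0 i
    have h3 := hc i
    rw [h2, map_zero] at h3
    have h4 : ((g i : ↥(K⟮x⟯)) : L) = 0 := by
      rcases mul_eq_zero.mp h3.symm with h | h
      · exact h
      · exact absurd h hS
    exact Subtype.ext h4
  -- spanning
  have hsp : ⊤ ≤ Submodule.span ↥(K⟮x⟯) (Set.range e) := by
    intro y _
    obtain ⟨Q, P, hQ, hy⟩ := hspan y
    have hQ0 : aeval x Q ≠ 0 := fun h => hQ (htr Q h)
    have hy' : y = ∑ i, (⟨aeval x (P i) / aeval x Q,
        div_mem (hmem (P i)) (hmem Q)⟩ : ↥(K⟮x⟯)) • e i := by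
      have h1 : ∀ i, (⟨aeval x (P i) / aeval x Q,
          div_mem (hmem (P i)) (hmem Q)⟩ : ↥(K⟮x⟯)) • e i
          = (aeval x Q)⁻¹ * (aeval x (P i) * e i) := by
        intro i
        rw [Algebra.smul_def]
        show aeval x (P i) / aeval x Q * e i = _
        rw [div_eq_mul_inv]
        ring
      simp only [h1]
      rw [← Finset.mul_sum, ← hy, ← mul_assoc, inv_mul_cancel₀ hQ0, one_mul]
    rw [hy']
    exact Submodule.sum_mem _ fun i _ =>
      Submodule.smul_mem _ _ (Submodule.subset_span ⟨i, rfl⟩)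
  let b : Module.Basis (Fin n) ↥(K⟮x⟯) L := Module.Basis.mk hli hsp
  refine ⟨Module.Finite.of_basis b, ?_⟩
  rw [Module.finrank_eq_card_basis b, Fintype.card_fin]

end abstract

section datum

variable {K : Type*} [Field K] {A : ValuationSubring K} {k : Type*} [Field k] {π : A →+* k}
  {F : IntermediateField K (LaurentSeries K)} {n : ℕ}

/-- coercion of `aeval` in an intermediate field of Laurent series -/
theorem FA_S18_DEG_coe_aeval {L : Type*} [Field L] (E : IntermediateField L (LaurentSeries L))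
    (x : ↥E) (P : L[X]) :
    ((aeval x P : ↥E) : LaurentSeries L) = FA_S18_B_ev (x : LaurentSeries L) P := by
  rw [← FA_S18_B_aeval_eq_ev]
  exact (Polynomial.aeval_algHom_apply E.val x P).symm

/-- coercion of a finite sum in an intermediate field -/
theorem FA_S18_DEG_coe_sum {L : Type*} [Field L] (E : IntermediateField L (LaurentSeries L))
    {ι : Type*} (s : Finset ι) (f : ι → ↥E) :
    ((∑ i ∈ s, f i : ↥E) : LaurentSeries L) = ∑ i ∈ s, (f i : LaurentSeries L) :=
  map_sum E.val f s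

/-- **Degree of a datum, characteristic `0` side**: `[F : K(x)] = n`. -/
theorem FA_S18_DEG_char0 (D : FA_S18_B_Datum A π F n) (x' : ↥F)
    (hx' : (x' : LaurentSeries K) = coeffMap A.subtype D.x) :
    FiniteDimensional ↥(K⟮x'⟯) ↥F ∧ Module.finrank ↥(K⟮x'⟯) ↥F = n := by
  classical
  refine FA_S18_DEG_finrank x' D.pos (fun i => (⟨coeffMap A.subtype (D.e i), D.e_mem i⟩ : ↥F))
    ?_ ?_
  · intro c hc
    by_contra hne
    push Not at hne
    obtain ⟨a, ha, c', hc', hi⟩ := FA_S18_B_content_poly A π c hne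
    have h0 : (∑ i, FA_S18_B_ev (coeffMap A.subtype D.x) (c i) * coeffMap A.subtype (D.e i))
        = 0 := by
      have h1 : (∑ i, ((aeval x' (c i)
          * (⟨coeffMap A.subtype (D.e i), D.e_mem i⟩ : ↥F) : ↥F) : LaurentSeries K)) = 0 := by
        rw [← FA_S18_DEG_coe_sum, hc]
        rfl
      rw [← h1]
      refine Finset.sum_congr rfl fun i _ => ?_
      show _ = ((aeval x' (c i) : ↥F) : LaurentSeries K) * coeffMap A.subtype (D.e i)
      rw [FA_S18_DEG_coe_aeval, hx']
    have h2 : coeffMap A.subtype (D.comb c') = 0 := by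
      rw [D.iota_comb]
      have h3 : ∀ i, FA_S18_B_ev (coeffMap A.subtype D.x) ((c' i).map A.subtype)
          * coeffMap A.subtype (D.e i)
          = FA_S18_B_ev (coeffMap A.subtype D.x) (C a⁻¹)
            * (FA_S18_B_ev (coeffMap A.subtype D.x) (c i) * coeffMap A.subtype (D.e i)) := by
        intro i
        rw [hc' i, FA_S18_B_ev_mul, mul_assoc]
      simp only [h3]
      rw [← Finset.mul_sum, h0, mul_zero]
    have h4 : D.comb c' = 0 := FA_S18_B_iota_injective A (by rw [h2, map_zero])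
    exact D.rho_comb_ne_zero hi (by rw [h4, map_zero])
  · intro y
    obtain ⟨Q, P, hQ, hy⟩ := D.span (y : LaurentSeries K) y.2
    refine ⟨Q, P, hQ, ?_⟩
    apply Subtype.ext
    rw [FA_S18_DEG_coe_sum]
    show ((aeval x' Q : ↥F) : LaurentSeries K) * (y : LaurentSeries K) = _
    rw [FA_S18_DEG_coe_aeval, hx', hy]
    refine Finset.sum_congr rfl fun i _ => ?_
    show _ = ((aeval x' (P i) : ↥F) : LaurentSeries K) * coeffMap A.subtype (D.e i)
    rw [FA_S18_DEG_coe_aeval, hx']

/-- The reductions of the basis elements lie in the reduction field. -/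
theorem FA_S18_DEG_rho_mem (hπ : Function.Surjective π) {w : LaurentSeries A}
    (hw : coeffMap A.subtype w ∈ F) : coeffMap π w ∈ FA_S18_B_redField (A := A) F hπ :=
  ⟨coeffMap A.subtype w, hw, FA_S18_B_isInt_iota w, FA_S18_B_red_iota w⟩

/-- **Degree of a datum, residue side**: `[F̄ : k(x̄)] = n`. -/
theorem FA_S18_DEG_bar (D : FA_S18_B_Datum A π F n) (hπ : Function.Surjective π)
    (xb : ↥(FA_S18_B_redField (A := A) F hπ))
    (hxb : (xb : LaurentSeries k) = coeffMap π D.x) :
    FiniteDimensional ↥(k⟮xb⟯) ↥(FA_S18_B_redField (A := A) F hπ) ∧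
      Module.finrank ↥(k⟮xb⟯) ↥(FA_S18_B_redField (A := A) F hπ) = n := by
  classical
  refine FA_S18_DEG_finrank xb D.pos
    (fun i => (⟨coeffMap π (D.e i), FA_S18_DEG_rho_mem hπ (D.e_mem i)⟩ :
      ↥(FA_S18_B_redField (A := A) F hπ))) ?_ ?_
  · intro c hc
    apply D.indep c
    have h1 : (∑ i, ((aeval xb (c i)
        * (⟨coeffMap π (D.e i), FA_S18_DEG_rho_mem hπ (D.e_mem i)⟩ :
          ↥(FA_S18_B_redField (A := A) F hπ)) : ↥(FA_S18_B_redField (A := A) F hπ)) :
        LaurentSeries k)) = 0 := by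
      rw [← FA_S18_DEG_coe_sum, hc]
      rfl
    rw [← h1]
    refine Finset.sum_congr rfl fun i _ => ?_
    show _ = ((aeval xb (c i) : ↥(FA_S18_B_redField (A := A) F hπ)) : LaurentSeries k)
      * coeffMap π (D.e i)
    rw [FA_S18_DEG_coe_aeval, hxb]
  · intro z
    obtain ⟨y, hy, hint, hz⟩ := z.2
    obtain ⟨Q, P, hQ, e⟩ := FA_S18_B_redspan D hy hint
    refine ⟨Q, P, hQ, ?_⟩
    apply Subtype.ext
    rw [FA_S18_DEG_coe_sum]
    show ((aeval xb Q : ↥(FA_S18_B_redField (A := A) F hπ)) : LaurentSeries k)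
      * (z : LaurentSeries k) = _
    rw [FA_S18_DEG_coe_aeval, hxb, ← hz, e]
    refine Finset.sum_congr rfl fun i _ => ?_
    show _ = ((aeval xb (P i) : ↥(FA_S18_B_redField (A := A) F hπ)) : LaurentSeries k)
      * coeffMap π (D.e i)
    rw [FA_S18_DEG_coe_aeval, hxb]

/-- **The field `deg`** of the glue bundle for a datum. -/
theorem FA_S18_DEG_eq (D : FA_S18_B_Datum A π F n) (hπ : Function.Surjective π) (x' : ↥F)
    (hx' : (x' : LaurentSeries K) = coeffMap A.subtype D.x)
    (xb : ↥(FA_S18_B_redField (A := A) F hπ))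
    (hxb : (xb : LaurentSeries k) = coeffMap π D.x) :
    Module.finrank ↥(k⟮xb⟯) ↥(FA_S18_B_redField (A := A) F hπ)
      = Module.finrank ↥(K⟮x'⟯) ↥F := by
  rw [(FA_S18_DEG_bar D hπ xb hxb).2, (FA_S18_DEG_char0 D x' hx').2]

end datum

end Fermat.Agent.S18
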