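import Mathlib

/-!
# S18, leaf N3-glue: `h1` from finite generation (abstract)

`O` an `A`-subalgebra of a field `F ⊇ K ⊇ A`, `j, j⁻¹ ∈ O`, `BfQ, BiQ, BmQ` `K`-subalgebras of `F`
(the three charts).  If

* (mid) every `w ∈ BmQ` has `w j^m ∈ BfQ` for some `m`;
* (fg) `O ∩ BfQ` is generated as an `A[j]`-module by finitely many `e_i ∈ O ∩ BfQ`;
* (bound) every `y ∈ BfQ` has `y j^{-c} ∈ BiQ` for some `c`;

then there is `c` such that every `w ∈ O ∩ BmQ` is `w₁ + j^c w₂` with `w₁ ∈ O ∩ BfQ`,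
`w₂ ∈ O ∩ BiQ` (field `h1` of `FA_S18_E_Hyp`).
-/

set_option autoImplicit false

noncomputable section

namespace FA_S18

open Polynomial

variable {A K F : Type*} [CommRing A] [Field K] [Algebra A K]
  [Field F] [Algebra K F] [Algebra A F] [IsScalarTower A K F]

/-- Splitting `a(j) = j^m (q(j) + s(1/j))`. -/
theorem FA_S18_H1_split {x : F} (hx : x ≠ 0) (m : ℕ) (a : A[X]) :
    ∃ q s : A[X], aeval x a = x ^ m * (aeval x q + aeval x⁻¹ s) := by
  induction a using Polynomial.induction_on' with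
  | add a b ha hb =>
    obtain ⟨q, s, h⟩ := ha
    obtain ⟨q', s', h'⟩ := hb
    refine ⟨q + q', s + s', ?_⟩
    rw [map_add, map_add, map_add, h, h']
    ring
  | monomial t c =>
    by_cases htm : m ≤ t
    · refine ⟨monomial (t - m) c, 0, ?_⟩
      rw [map_zero, add_zero, aeval_monomial, aeval_monomial]
      have : x ^ t = x ^ m * x ^ (t - m) := by rw [← pow_add, Nat.add_sub_cancel' htm]
      rw [this]
      ring
    · push Not at htm
      refine ⟨0, monomial (m - t) c, ?_⟩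
      rw [map_zero, zero_add, aeval_monomial, aeval_monomial]
      have : x ^ m * x⁻¹ ^ (m - t) = x ^ t := by
        have h1 : x ^ m = x ^ t * x ^ (m - t) := by rw [← pow_add, Nat.add_sub_cancel' htm.le]
        rw [h1, mul_assoc, ← mul_pow, mul_inv_cancel₀ hx, one_pow, mul_one]
      calc algebraMap A F c * x ^ t = algebraMap A F c * (x ^ m * x⁻¹ ^ (m - t)) := by rw [this]
        _ = x ^ m * (algebraMap A F c * x⁻¹ ^ (m - t)) := by ring

theorem FA_S18_H1_aeval_mem_O (O : Subalgebra A F) {x : F} (hx : x ∈ O) (q : A[X]) :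
    aeval x q ∈ O := by
  have : aeval x q ∈ Algebra.adjoin A {x} := aeval_mem_adjoin_singleton A x
  exact Algebra.adjoin_le (by simpa using hx) this

theorem FA_S18_H1_aeval_mem_B (B : Subalgebra K F) {x : F} (hx : x ∈ B) (q : A[X]) :
    aeval x q ∈ B := by
  have h1 : aeval x q = aeval x (q.map (algebraMap A K)) := (aeval_map_algebraMap K x q).symm
  rw [h1]
  have : aeval x (q.map (algebraMap A K)) ∈ Algebra.adjoin K {x} :=
    aeval_mem_adjoin_singleton K x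
  exact Algebra.adjoin_le (by simpa using hx) this

/-- **`h1` from finite generation.** -/
theorem FA_S18_H1_glue (O : Subalgebra A F) (j jinv : O) (hj0 : (j : F) ≠ 0)
    (hjinv : (jinv : F) = (j : F)⁻¹) (BfQ BiQ BmQ : Subalgebra K F)
    (hjf : (j : F) ∈ BfQ) (hji : (j : F)⁻¹ ∈ BiQ)
    (mid : ∀ w ∈ BmQ, ∃ m : ℕ, w * (j : F) ^ m ∈ BfQ)
    (fg : ∃ (r : ℕ) (e : Fin r → F), (∀ i, e i ∈ O ∧ e i ∈ BfQ) ∧
      ∀ y ∈ O, y ∈ BfQ → ∃ a : Fin r → A[X], y = ∑ i, aeval (j : F) (a i) * e i)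
    (bound : ∀ y ∈ BfQ, ∃ c : ℕ, y * ((j : F)⁻¹) ^ c ∈ BiQ) :
    ∃ c : ℕ, ∀ w : O, (w : F) ∈ BmQ →
      ∃ w1 w2 : O, (w1 : F) ∈ BfQ ∧ (w2 : F) ∈ BiQ ∧ (w : F) = w1 + (j : F) ^ c * w2 := by
  obtain ⟨r, e, he, hgen⟩ := fg
  have hjO : (j : F) ∈ O := j.2
  have hjiO : (j : F)⁻¹ ∈ O := by rw [← hjinv]; exact jinv.2
  -- a common bound for the generators
  choose ci hci using fun i => bound (e i) (he i).2
  set c : ℕ := ∑ i, ci i with hc
  have hle : ∀ i, ci i ≤ c := fun i =>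
    Finset.single_le_sum (f := ci) (fun _ _ => Nat.zero_le _) (Finset.mem_univ i)
  have hec : ∀ i, e i * ((j : F)⁻¹) ^ c ∈ BiQ := by
    intro i
    obtain ⟨d, hd⟩ := Nat.exists_eq_add_of_le (hle i)
    rw [hd, pow_add, ← mul_assoc]
    exact BiQ.mul_mem (hci i) (BiQ.pow_mem hji d)
  refine ⟨c, fun w hw => ?_⟩
  obtain ⟨m, hm⟩ := mid (w : F) hw
  have hmO : (w : F) * (j : F) ^ m ∈ O := O.mul_mem w.2 (O.pow_mem hjO m)
  obtain ⟨a, ha⟩ := hgen _ hmO hm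
  choose q s hqs using fun i => FA_S18_H1_split hj0 m (a i)
  have hjm : (j : F) ^ m ≠ 0 := pow_ne_zero m hj0
  have hw' : (w : F) = ∑ i, (aeval (j : F) (q i) + aeval (j : F)⁻¹ (s i)) * e i := by
    apply mul_right_cancel₀ hjm
    rw [ha, Finset.sum_mul]
    refine Finset.sum_congr rfl fun i _ => ?_
    rw [hqs i]
    ring
  have hw1O : (∑ i, aeval (j : F) (q i) * e i) ∈ O :=
    O.sum_mem fun i _ => O.mul_mem (FA_S18_H1_aeval_mem_O O hjO (q i)) (he i).1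
  have hw1B : (∑ i, aeval (j : F) (q i) * e i) ∈ BfQ :=
    BfQ.sum_mem fun i _ => BfQ.mul_mem (FA_S18_H1_aeval_mem_B BfQ hjf (q i)) (he i).2
  have hw2O : (∑ i, aeval (j : F)⁻¹ (s i) * (e i * ((j : F)⁻¹) ^ c)) ∈ O :=
    O.sum_mem fun i _ => O.mul_mem (FA_S18_H1_aeval_mem_O O hjiO (s i))
      (O.mul_mem (he i).1 (O.pow_mem hjiO c))
  have hw2B : (∑ i, aeval (j : F)⁻¹ (s i) * (e i * ((j : F)⁻¹) ^ c)) ∈ BiQ :=
    BiQ.sum_mem fun i _ => BiQ.mul_mem (FA_S18_H1_aeval_mem_B BiQ hji (s i)) (hec i)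
  refine ⟨⟨_, hw1O⟩, ⟨_, hw2O⟩, hw1B, hw2B, ?_⟩
  show (w : F) = (∑ i, aeval (j : F) (q i) * e i)
    + (j : F) ^ c * ∑ i, aeval (j : F)⁻¹ (s i) * (e i * ((j : F)⁻¹) ^ c)
  rw [hw', Finset.mul_sum, ← Finset.sum_add_distrib]
  refine Finset.sum_congr rfl fun i _ => ?_
  have hjc : (j : F) ^ c * ((j : F)⁻¹) ^ c = 1 := by
    rw [← mul_pow, mul_inv_cancel₀ hj0, one_pow]
  calc (aeval (j : F) (q i) + aeval (j : F)⁻¹ (s i)) * e i
      = aeval (j : F) (q i) * e i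
        + ((j : F) ^ c * ((j : F)⁻¹) ^ c) * (aeval (j : F)⁻¹ (s i) * e i) := by
        rw [hjc]; ring
    _ = _ := by ring

end FA_S18

end
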