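import Fermat.Agent.S18.C0Gen

/-!
# S18, leaf C0: the (twisted) Riemann–Roch spaces in ring-theoretic form

For a transcendental `x` with divisor of zeros `Z` and divisor of poles `P`, and `f` with
`div f = p • Dh`:
`y ∈ L(a Z + b P + k Dh)` iff `y^p f^k x^{pa}` is integral over `K[x]` and
`y^p f^k x^{-pb}` is integral over `K[x⁻¹]`.
-/

set_option autoImplicit false
set_option linter.unusedSectionVars false
set_option linter.style.haveILetI false

noncomputable section

namespace FA_S18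

open AlgebraicCurve IntermediateField IsDedekindDomain WithZero KaehlerDifferential FA_RR FA_RR.WPB

variable {K F : Type*} [Field K] [Field F] [Algebra K F] [IsAlgClosed K] [CharZero K]

theorem FA_S18_C0_ord_pow (v : Place K F) (f : F) (m : ℕ) : v.ord (f ^ m) = m * v.ord f := by
  have := v.ord_zpow f (m : ℤ)
  rwa [zpow_natCast] at this

/-- `ord_v (y^p f^k x^m)`. -/
theorem FA_S18_C0_ord_prod (v : Place K F) {y f x : F} (hy : y ≠ 0) (hf : f ≠ 0) (hx : x ≠ 0)
    (p k m : ℕ) :
    v.ord (y ^ p * f ^ k * x ^ m) = p * v.ord y + k * v.ord f + m * v.ord x := by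
  rw [v.ord_mul (mul_ne_zero (pow_ne_zero _ hy) (pow_ne_zero _ hf)) (pow_ne_zero _ hx),
    v.ord_mul (pow_ne_zero _ hy) (pow_ne_zero _ hf), FA_S18_C0_ord_pow, FA_S18_C0_ord_pow,
    FA_S18_C0_ord_pow]

/-- The twisted Riemann–Roch space in ring form. -/
theorem FA_S18_C0_mem_L_iff (hF : FA_RR_IsFF K F) {x : F} (hx : Transcendental K x)
    {Z P Dh : Divisor K F} (hZ : ∀ v : Place K F, Z v = max (v.ord x) 0)
    (hP : ∀ v : Place K F, P v = max (-(v.ord x)) 0)
    {p : ℕ} (hp : 0 < p) {f : F} (hf : f ≠ 0)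
    (hDh : ∀ v : Place K F, (p : ℤ) * Dh v = v.ord f) (k a b : ℕ) (y : F) :
    y ∈ riemannRochSpace ((a : ℤ) • Z + (b : ℤ) • P + (k : ℤ) • Dh) ↔
      IsIntegral (Algebra.adjoin K {x}) (y ^ p * f ^ k * x ^ (p * a)) ∧
      IsIntegral (Algebra.adjoin K {x⁻¹}) (y ^ p * f ^ k * x⁻¹ ^ (p * b)) := by
  have hx0 : x ≠ 0 := by
    rintro rfl
    exact hx isAlgebraic_zero
  have hxi0 : x⁻¹ ≠ 0 := inv_ne_zero hx0
  have hp' : (0 : ℤ) < p := by exact_mod_cast hp
  rw [FA_S18_C0_isIntegral_iff hF hx, FA_S18_C0_isIntegral_iff hF (transcendental_inv hx),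
    mem_riemannRochSpace_iff]
  rcases eq_or_ne y 0 with rfl | hy
  · have h0 : ((0 : F) ^ p) = 0 := zero_pow hp.ne'
    simp [h0]
  have hval : ∀ v : Place K F, ((a : ℤ) • Z + (b : ℤ) • P + (k : ℤ) • Dh) v
      = a * Z v + b * P v + k * Dh v := fun v => by
    simp [Finsupp.add_apply, Finsupp.smul_apply]
  have key1 : ∀ v : Place K F, (y ^ p * f ^ k * x ^ (p * a) ∈ v.toValuationSubring ↔
      0 ≤ v.ord y + k * Dh v + a * v.ord x) := by
    intro v
    rw [mem_iff_ord, FA_S18_C0_ord_prod v hy hf hx0, ← hDh v]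
    have hne : y ^ p * f ^ k * x ^ (p * a) ≠ 0 :=
      mul_ne_zero (mul_ne_zero (pow_ne_zero _ hy) (pow_ne_zero _ hf)) (pow_ne_zero _ hx0)
    rw [or_iff_right hne]
    have : (p : ℤ) * v.ord y + k * ((p : ℤ) * Dh v) + ((p * a : ℕ) : ℤ) * v.ord x
        = p * (v.ord y + k * Dh v + a * v.ord x) := by push_cast; ring
    rw [this]
    constructor
    · intro h
      by_contra hlt
      push Not at hlt
      have := mul_neg_of_pos_of_neg hp' hlt
      omega
    · intro h
      exact mul_nonneg hp'.le h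
  have key2 : ∀ v : Place K F, (y ^ p * f ^ k * x⁻¹ ^ (p * b) ∈ v.toValuationSubring ↔
      0 ≤ v.ord y + k * Dh v - b * v.ord x) := by
    intro v
    rw [mem_iff_ord, FA_S18_C0_ord_prod v hy hf hxi0, ← hDh v, v.ord_inv]
    have hne : y ^ p * f ^ k * x⁻¹ ^ (p * b) ≠ 0 :=
      mul_ne_zero (mul_ne_zero (pow_ne_zero _ hy) (pow_ne_zero _ hf)) (pow_ne_zero _ hxi0)
    rw [or_iff_right hne]
    have : (p : ℤ) * v.ord y + k * ((p : ℤ) * Dh v) + ((p * b : ℕ) : ℤ) * -v.ord x
        = p * (v.ord y + k * Dh v - b * v.ord x) := by push_cast; ring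
    rw [this]
    constructor
    · intro h
      by_contra hlt
      push Not at hlt
      have := mul_neg_of_pos_of_neg hp' hlt
      omega
    · intro h
      exact mul_nonneg hp'.le h
  have hxmem : ∀ v : Place K F, x ∈ v.toValuationSubring ↔ 0 ≤ v.ord x := fun v => by
    rw [mem_iff_ord, or_iff_right hx0]
  have hximem : ∀ v : Place K F, x⁻¹ ∈ v.toValuationSubring ↔ v.ord x ≤ 0 := fun v => by
    rw [mem_iff_ord, or_iff_right hxi0, v.ord_inv]
    omega
  constructor
  · intro h
    refine ⟨fun v hv => ?_, fun v hv => ?_⟩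
    · rw [key1]
      have hv' := (hxmem v).mp hv
      have h1 := (h v).resolve_left hy
      rw [hval, hZ, hP, max_eq_left hv', max_eq_right (by omega)] at h1
      linarith
    · rw [key2]
      have hv' := (hximem v).mp hv
      have h1 := (h v).resolve_left hy
      rw [hval, hZ, hP, max_eq_right hv', max_eq_left (by omega)] at h1
      linarith
  · rintro ⟨h1, h2⟩ v
    right
    rw [hval, hZ, hP]
    rcases le_total 0 (v.ord x) with hv | hv
    · have := (key1 v).mp (h1 v ((hxmem v).mpr hv))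
      rw [max_eq_left hv, max_eq_right (by omega)]
      linarith
    · have := (key2 v).mp (h2 v ((hximem v).mpr hv))
      rw [max_eq_right hv, max_eq_left (by omega)]
      linarith

/-- Degree of `a Z + b P + k Dh`. -/
theorem FA_S18_C0_degree_twist {Z P Dh : Divisor K F} {ψ : ℤ}
    (hZ : Divisor.degree Z = ψ) (hP : Divisor.degree P = ψ) (hDh : Divisor.degree Dh = 0)
    (k a b : ℕ) :
    Divisor.degree ((a : ℤ) • Z + (b : ℤ) • P + (k : ℤ) • Dh) = ((a : ℤ) + b) * ψ := by
  rw [map_add, map_add, map_zsmul, map_zsmul, map_zsmul, hZ, hP, hDh]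
  simp only [smul_eq_mul, mul_zero, add_zero]
  ring

end FA_S18

end
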