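import Fermat.Agent.S18.C0Base
import Fermat.Agent.S18.C0Twist

/-!
# S18, leaf C0: Riemann–Roch dimensions for `F_n = modularFunctionFieldBar n` (characteristic 0)

`j = FA_S18_C0_j n`, `ψ = dedekindPsi n`, `g = genusFF ℚ̄ F_n`.  For `f ≠ 0` with `p ∣ ord_v f` for all
places `v` (so `div f = p • Dh`), the twisted space in ring form

`FA_S18_C0_Lset n p k a b f = {y | y^p f^k j^{pa} integral over ℚ̄[j], y^p f^k j^{-pb} integral over ℚ̄[1/j]}`

is `L(a (j)_0 + b (j)_∞ + k Dh)`: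

* `FA_S18_C0_main : FA_S18_Target_C0 n` — it is a finite-dimensional subspace, of dimension
  `(a+b) ψ + 1 - g` as soon as `(a+b) ψ > 2g - 2`;
* `FA_S18_C0_inter` — `L(a,b) ∩ L(a',b') = L(min a a', min b b')`;
* `FA_S18_C0_const` — for `k = 0`, `a = b = 0` it consists of constants;
* `FA_S18_C0_h0 : FA_S18_Target_C0_H0 n` — if `p` is prime, `p ∤ k` and `L_k(0,0) ≠ 0` then `f = c g^p`.
-/

set_option autoImplicit false
set_option linter.unusedSectionVars false
set_option linter.style.haveILetI false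

noncomputable section

namespace FA_S18

open AlgebraicCurve IntermediateField WithZero FA_RR FA_RR.WPB ModularCurve

/-- The twisted Riemann–Roch space of `F_n` in ring-theoretic form. -/
def FA_S18_C0_Lset (n : ℕ) [NeZero n] (p k a b : ℕ) (f : ↥(modularFunctionFieldBar n)) :
    Set ↥(modularFunctionFieldBar n) :=
  {y | IsIntegral (Algebra.adjoin (AlgebraicClosure ℚ) {FA_S18_C0_j n})
        (y ^ p * f ^ k * (FA_S18_C0_j n) ^ (p * a)) ∧
      IsIntegral (Algebra.adjoin (AlgebraicClosure ℚ) {(FA_S18_C0_j n)⁻¹})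
        (y ^ p * f ^ k * (FA_S18_C0_j n)⁻¹ ^ (p * b))}

/-- **Target C0** (dimension of the twisted spaces). -/
def FA_S18_Target_C0 (n : ℕ) [NeZero n] : Prop :=
  ∀ (p : ℕ) (_ : 0 < p) (f : ↥(modularFunctionFieldBar n)) (_ : f ≠ 0)
    (_ : ∀ v : Place (AlgebraicClosure ℚ) ↥(modularFunctionFieldBar n), (p : ℤ) ∣ v.ord f)
    (k a b : ℕ),
    ∃ L : Submodule (AlgebraicClosure ℚ) ↥(modularFunctionFieldBar n),
      (L : Set ↥(modularFunctionFieldBar n)) = FA_S18_C0_Lset n p k a b f ∧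
      Module.Finite (AlgebraicClosure ℚ) L ∧
      (2 * (genusFF (AlgebraicClosure ℚ) ↥(modularFunctionFieldBar n) : ℤ) - 2
          < ((a : ℤ) + b) * dedekindPsi n →
        (Module.finrank (AlgebraicClosure ℚ) L : ℤ)
          = ((a : ℤ) + b) * dedekindPsi n + 1
            - (genusFF (AlgebraicClosure ℚ) ↥(modularFunctionFieldBar n) : ℤ))

/-- **Target C0-H0**: a nonzero element of `L_k(0,0)` with `p ∤ k` makes `f` a `p`-th power up to
a constant. -/
def FA_S18_Target_C0_H0 (n : ℕ) [NeZero n] : Prop :=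
  ∀ (p : ℕ) (_ : p.Prime) (f : ↥(modularFunctionFieldBar n)) (_ : f ≠ 0)
    (_ : ∀ v : Place (AlgebraicClosure ℚ) ↥(modularFunctionFieldBar n), (p : ℤ) ∣ v.ord f)
    (k : ℕ) (_ : ¬ p ∣ k) (y : ↥(modularFunctionFieldBar n)) (_ : y ≠ 0)
    (_ : y ∈ FA_S18_C0_Lset n p k 0 0 f),
    ∃ (g : ↥(modularFunctionFieldBar n)) (c : AlgebraicClosure ℚ), c ≠ 0 ∧ g ^ p = c • f

section

variable (n : ℕ) [NeZero n]

/-- the divisor of zeros of `j` -/
def FA_S18_C0_Z : Divisor (AlgebraicClosure ℚ) ↥(modularFunctionFieldBar n) :=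
  Classical.choose (sumZeros (FA_S18_C0_isFF n) (FA_S18_C0_j n) (FA_S18_C0_j_transcendental n))

theorem FA_S18_C0_Z_apply (v : Place (AlgebraicClosure ℚ) ↥(modularFunctionFieldBar n)) :
    FA_S18_C0_Z n v = max (v.ord (FA_S18_C0_j n)) 0 :=
  (Classical.choose_spec
    (sumZeros (FA_S18_C0_isFF n) (FA_S18_C0_j n) (FA_S18_C0_j_transcendental n))).1 v

theorem FA_S18_C0_Z_degree : Divisor.degree (FA_S18_C0_Z n) = (dedekindPsi n : ℤ) := by
  have h := (Classical.choose_spec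
    (sumZeros (FA_S18_C0_isFF n) (FA_S18_C0_j n) (FA_S18_C0_j_transcendental n))).2
  exact h.trans (congrArg Nat.cast (FA_S18_C0_finrank n))

/-- the divisor of poles of `j` -/
def FA_S18_C0_P : Divisor (AlgebraicClosure ℚ) ↥(modularFunctionFieldBar n) :=
  Classical.choose (sumZeros (FA_S18_C0_isFF n) (FA_S18_C0_j n)⁻¹
    (transcendental_inv (FA_S18_C0_j_transcendental n)))

theorem FA_S18_C0_P_apply (v : Place (AlgebraicClosure ℚ) ↥(modularFunctionFieldBar n)) :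
    FA_S18_C0_P n v = max (-(v.ord (FA_S18_C0_j n))) 0 := by
  rw [← v.ord_inv]
  exact (Classical.choose_spec (sumZeros (FA_S18_C0_isFF n) (FA_S18_C0_j n)⁻¹
    (transcendental_inv (FA_S18_C0_j_transcendental n)))).1 v

theorem FA_S18_C0_P_degree : Divisor.degree (FA_S18_C0_P n) = (dedekindPsi n : ℤ) := by
  have h := (Classical.choose_spec (sumZeros (FA_S18_C0_isFF n) (FA_S18_C0_j n)⁻¹
    (transcendental_inv (FA_S18_C0_j_transcendental n)))).2
  exact h.trans (congrArg Nat.cast ((finrank_adjoin_inv _).trans (FA_S18_C0_finrank n)))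

variable {n}

/-- `L_k(a,b)` is the Riemann–Roch space of `a Z + b P + k Dh`. -/
theorem FA_S18_C0_Lset_eq {p : ℕ} (hp : 0 < p) {f : ↥(modularFunctionFieldBar n)} (hf : f ≠ 0)
    {Dh : Divisor (AlgebraicClosure ℚ) ↥(modularFunctionFieldBar n)}
    (hDh : ∀ v : Place (AlgebraicClosure ℚ) ↥(modularFunctionFieldBar n),
      (p : ℤ) * Dh v = v.ord f) (k a b : ℕ) :
    (riemannRochSpace ((a : ℤ) • FA_S18_C0_Z n + (b : ℤ) • FA_S18_C0_P n + (k : ℤ) • Dh) :
        Set ↥(modularFunctionFieldBar n)) = FA_S18_C0_Lset n p k a b f := by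
  ext y
  exact FA_S18_C0_mem_L_iff (FA_S18_C0_isFF n) (FA_S18_C0_j_transcendental n)
    (FA_S18_C0_Z_apply n) (FA_S18_C0_P_apply n) hp hf hDh k a b y

/-- **C0**. -/
theorem FA_S18_C0_main (n : ℕ) [NeZero n] : FA_S18_Target_C0 n := by
  intro p hp f hf hdiv k a b
  obtain ⟨Dh, hdeg, hDh⟩ := FA_S18_C0_exists_root_divisor (FA_S18_C0_isFF n) hp hf hdiv
  refine ⟨riemannRochSpace ((a : ℤ) • FA_S18_C0_Z n + (b : ℤ) • FA_S18_C0_P n + (k : ℤ) • Dh),
    FA_S18_C0_Lset_eq hp hf hDh k a b, finiteL (FA_S18_C0_isFF n) _, ?_⟩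
  intro hab
  have hd := FA_S18_C0_degree_twist (FA_S18_C0_Z_degree n) (FA_S18_C0_P_degree n) hdeg k a b
  rw [FA_S18_C0_finrank_L (FA_S18_C0_isFF n) _ (by rw [hd]; exact hab), hd]

/-- Intersections of the twisted spaces. -/
theorem FA_S18_C0_inter {p : ℕ} (hp : 0 < p) {f : ↥(modularFunctionFieldBar n)} (hf : f ≠ 0)
    (hdiv : ∀ v : Place (AlgebraicClosure ℚ) ↥(modularFunctionFieldBar n), (p : ℤ) ∣ v.ord f)
    (k a b a' b' : ℕ) :
    FA_S18_C0_Lset n p k a b f ∩ FA_S18_C0_Lset n p k a' b' f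
      = FA_S18_C0_Lset n p k (min a a') (min b b') f := by
  obtain ⟨Dh, hdeg, hDh⟩ := FA_S18_C0_exists_root_divisor (FA_S18_C0_isFF n) hp hf hdiv
  rw [← FA_S18_C0_Lset_eq hp hf hDh, ← FA_S18_C0_Lset_eq hp hf hDh, ← FA_S18_C0_Lset_eq hp hf hDh]
  ext y
  simp only [Set.mem_inter_iff, SetLike.mem_coe, mem_riemannRochSpace_iff]
  have hval : ∀ (a b : ℕ) (v : Place (AlgebraicClosure ℚ) ↥(modularFunctionFieldBar n)),
      ((a : ℤ) • FA_S18_C0_Z n + (b : ℤ) • FA_S18_C0_P n + (k : ℤ) • Dh) v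
        = a * max (v.ord (FA_S18_C0_j n)) 0 + b * max (-(v.ord (FA_S18_C0_j n))) 0
          + k * Dh v := fun a b v => by
    simp [Finsupp.add_apply, Finsupp.smul_apply, FA_S18_C0_Z_apply, FA_S18_C0_P_apply]
  simp only [hval]
  rcases eq_or_ne y 0 with rfl | hy
  · simp
  simp only [hy, false_or]
  have hmin : ∀ (x y : ℕ), ((min x y : ℕ) : ℤ) = min (x : ℤ) (y : ℤ) := fun x y => by
    push_cast; rfl
  constructor
  · rintro ⟨h1, h2⟩ v
    have e1 := h1 v
    have e2 := h2 v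
    rw [hmin, hmin]
    rcases le_total 0 (v.ord (FA_S18_C0_j n)) with hv | hv
    · rw [max_eq_left hv, max_eq_right (by omega)] at e1 e2 ⊢
      rcases le_total (a : ℤ) a' with haa | haa
      · rw [min_eq_left haa]; linarith
      · rw [min_eq_right haa]; linarith
    · rw [max_eq_right hv, max_eq_left (by omega)] at e1 e2 ⊢
      rcases le_total (b : ℤ) b' with hbb | hbb
      · rw [min_eq_left hbb]; linarith
      · rw [min_eq_right hbb]; linarith
  · intro h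
    refine ⟨fun v => ?_, fun v => ?_⟩
    · have e := h v
      rw [hmin, hmin] at e
      have h1 : (0 : ℤ) ≤ max (v.ord (FA_S18_C0_j n)) 0 := le_max_right _ _
      have h2 : (0 : ℤ) ≤ max (-(v.ord (FA_S18_C0_j n))) 0 := le_max_right _ _
      have h3 := mul_le_mul_of_nonneg_right (min_le_left (a : ℤ) a') h1
      have h4 := mul_le_mul_of_nonneg_right (min_le_left (b : ℤ) b') h2
      linarith
    · have e := h v
      rw [hmin, hmin] at e
      have h1 : (0 : ℤ) ≤ max (v.ord (FA_S18_C0_j n)) 0 := le_max_right _ _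
      have h2 : (0 : ℤ) ≤ max (-(v.ord (FA_S18_C0_j n))) 0 := le_max_right _ _
      have h3 := mul_le_mul_of_nonneg_right (min_le_right (a : ℤ) a') h1
      have h4 := mul_le_mul_of_nonneg_right (min_le_right (b : ℤ) b') h2
      linarith

/-- Monotonicity of the twisted spaces. -/
theorem FA_S18_C0_mono {p : ℕ} (hp : 0 < p) {f : ↥(modularFunctionFieldBar n)} (hf : f ≠ 0)
    (hdiv : ∀ v : Place (AlgebraicClosure ℚ) ↥(modularFunctionFieldBar n), (p : ℤ) ∣ v.ord f)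
    (k : ℕ) {a b a' b' : ℕ} (ha : a ≤ a') (hb : b ≤ b') :
    FA_S18_C0_Lset n p k a b f ⊆ FA_S18_C0_Lset n p k a' b' f := by
  intro y hy
  have h := FA_S18_C0_inter hp hf hdiv k a' b' a b
  rw [min_eq_right ha, min_eq_right hb] at h
  rw [← h] at hy
  exact hy.1

/-- An element of `L_k(0,0)` satisfies `y^p f^k ∈ ℚ̄`. -/
theorem FA_S18_C0_const {p : ℕ} {f : ↥(modularFunctionFieldBar n)}
    (k : ℕ) {y : ↥(modularFunctionFieldBar n)} (hy : y ∈ FA_S18_C0_Lset n p k 0 0 f) :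
    ∃ c : AlgebraicClosure ℚ, algebraMap (AlgebraicClosure ℚ) ↥(modularFunctionFieldBar n) c
      = y ^ p * f ^ k := by
  obtain ⟨h1, h2⟩ := hy
  simp only [mul_zero, pow_zero, mul_one] at h1 h2
  have hF := FA_S18_C0_isFF n
  rw [FA_S18_C0_isIntegral_iff hF (FA_S18_C0_j_transcendental n)] at h1
  rw [FA_S18_C0_isIntegral_iff hF (transcendental_inv (FA_S18_C0_j_transcendental n))] at h2
  apply L_zero hF
  rw [mem_riemannRochSpace_iff]
  intro v
  have hmem : y ^ p * f ^ k ∈ v.toValuationSubring := by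
    rcases v.toValuationSubring.mem_or_inv_mem (FA_S18_C0_j n) with h | h
    · exact h1 v h
    · exact h2 v h
  rcases (mem_iff_ord v).mp hmem with h | h
  · exact Or.inl h
  · right
    simpa using h

/-- For `k = 0`: `L_0(0,0) = ℚ̄`. -/
theorem FA_S18_C0_const_zero {p : ℕ} (hp : 0 < p) {f : ↥(modularFunctionFieldBar n)}
    {y : ↥(modularFunctionFieldBar n)} (hy : y ∈ FA_S18_C0_Lset n p 0 0 0 f) :
    ∃ c : AlgebraicClosure ℚ, algebraMap (AlgebraicClosure ℚ) ↥(modularFunctionFieldBar n) c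
      = y := by
  have hy1 : y ∈ FA_S18_C0_Lset n p 0 0 0 (1 : ↥(modularFunctionFieldBar n)) := by
    simpa [FA_S18_C0_Lset] using hy
  obtain ⟨c, hc⟩ := FA_S18_C0_const 0 hy1
  simp only [pow_zero, mul_one] at hc
  -- `y^p` constant, so `y` algebraic over `ℚ̄`, so constant
  apply exists_const_of_isAlgebraic
  have halg : IsAlgebraic (AlgebraicClosure ℚ) (y ^ p) := by
    rw [← hc]
    exact isAlgebraic_algebraMap c
  exact (IsAlgebraic.of_pow hp halg)

/-- **C0-H0**. -/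
theorem FA_S18_C0_h0 (n : ℕ) [NeZero n] : FA_S18_Target_C0_H0 n := by
  intro p hp f hf hdiv k hk y hy hyL
  obtain ⟨c, hc⟩ := FA_S18_C0_const k hyL
  have hc0 : c ≠ 0 := by
    rintro rfl
    rw [map_zero] at hc
    exact (mul_ne_zero (pow_ne_zero _ hy) (pow_ne_zero _ hf)) hc.symm
  -- Bezout: s k + t p = 1
  have hcop : IsCoprime (k : ℤ) (p : ℤ) := by
    rw [Int.isCoprime_iff_gcd_eq_one, Int.gcd_natCast_natCast]
    exact (Nat.coprime_comm.mp ((Nat.Prime.coprime_iff_not_dvd hp).mpr hk))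
  obtain ⟨s, t, hst⟩ := hcop
  set C := algebraMap (AlgebraicClosure ℚ) ↥(modularFunctionFieldBar n) c with hC
  have hcF : C ≠ 0 := by
    rw [hC, Ne, map_eq_zero]
    exact hc0
  have hfk : f ^ k = C * (y ^ p)⁻¹ := by
    rw [hc]
    field_simp
  have hfkz : f ^ (k : ℤ) = C * y ^ (-(p : ℤ)) := by
    rw [zpow_natCast, hfk, zpow_neg, zpow_natCast]
  have hks : (k : ℤ) * s + t * p = 1 := by linarith
  have h1 : f = C ^ s * y ^ (-(p : ℤ) * s) * f ^ (t * p) := by
    conv_lhs => rw [← zpow_one f, ← hks, zpow_add₀ hf, zpow_mul, hfkz, mul_zpow, ← zpow_mul]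
  refine ⟨(y ^ s)⁻¹ * f ^ t, (c ^ s)⁻¹, inv_ne_zero (zpow_ne_zero _ hc0), ?_⟩
  rw [Algebra.smul_def, map_inv₀, map_zpow₀, ← hC]
  have hcs : C ^ s ≠ 0 := zpow_ne_zero _ hcF
  have e1 : ((y ^ s)⁻¹ * f ^ t) ^ p = y ^ (-(p : ℤ) * s) * f ^ (t * p) := by
    rw [mul_pow, inv_pow, ← zpow_natCast (y ^ s) p, ← zpow_natCast (f ^ t) p, ← zpow_mul,
      ← zpow_mul, ← zpow_neg]
    congr 2
    ring
  rw [e1]
  conv_rhs => rw [h1]
  rw [mul_assoc (C ^ s), ← mul_assoc (C ^ s)⁻¹, inv_mul_cancel₀ hcs, one_mul]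

end

end FA_S18

end
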