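import Fermat.Agent.S18.Charts0Inst
import Fermat.Agent.S18.C0Main

/-!
# S18, leaf H2, part (4): the twisted spaces `W k m` and their dimensions

For `f ≠ 0` in `F_n` with `p ∣ ord_P f` for all places `P`:
`FA_S18_H2_W n p f k m = {y | y^p f^k ∈ Bf ∧ y^p f^k j^{-pm} ∈ Bi}` is a finite-dimensional
`ℚ̄`-subspace of `F_n` of dimension `m ψ(n) + 1 - g` for `m ≥ 2 g` (`g = genusFF`); by C0.
-/

set_option autoImplicit false
set_option linter.unusedSectionVars false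
set_option linter.style.haveILetI false

noncomputable section

namespace Fermat.Agent.S18

open AlgebraicCurve IntermediateField ModularCurve FA_S18

variable (n : ℕ) [NeZero n]

theorem FA_S18_H2_jbar_eq : FA_S18_A_jbar n = FA_S18_C0_j n := rfl

open Classical in
/-- The twisted space `W k m = L(k·D_h + m·(j)_∞)` in ring form (`⊥` for bad input). -/
def FA_S18_H2_W (p : ℕ) (f : ↥(modularFunctionFieldBar n)) (k m : ℕ) :
    Submodule (AlgebraicClosure ℚ) ↥(modularFunctionFieldBar n) :=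
  if h : 0 < p ∧ f ≠ 0 ∧
      ∀ v : Place (AlgebraicClosure ℚ) ↥(modularFunctionFieldBar n), (p : ℤ) ∣ v.ord f then
    (FA_S18_C0_main n p h.1 f h.2.1 h.2.2 k 0 m).choose
  else ⊥

variable {n} {p : ℕ} {f : ↥(modularFunctionFieldBar n)}

theorem FA_S18_H2_W_spec (hp : 0 < p) (hf : f ≠ 0)
    (hdiv : ∀ v : Place (AlgebraicClosure ℚ) ↥(modularFunctionFieldBar n), (p : ℤ) ∣ v.ord f)
    (k m : ℕ) :
    ((FA_S18_H2_W n p f k m : Submodule (AlgebraicClosure ℚ) ↥(modularFunctionFieldBar n)) :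
        Set ↥(modularFunctionFieldBar n)) = FA_S18_C0_Lset n p k 0 m f ∧
      Module.Finite (AlgebraicClosure ℚ) (FA_S18_H2_W n p f k m) ∧
      (2 * (genusFF (AlgebraicClosure ℚ) ↥(modularFunctionFieldBar n) : ℤ) - 2
          < ((0 : ℕ) + (m : ℤ)) * dedekindPsi n →
        (Module.finrank (AlgebraicClosure ℚ) (FA_S18_H2_W n p f k m) : ℤ)
          = ((0 : ℕ) + (m : ℤ)) * dedekindPsi n + 1
            - (genusFF (AlgebraicClosure ℚ) ↥(modularFunctionFieldBar n) : ℤ)) := by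
  have h : 0 < p ∧ f ≠ 0 ∧
      ∀ v : Place (AlgebraicClosure ℚ) ↥(modularFunctionFieldBar n), (p : ℤ) ∣ v.ord f :=
    ⟨hp, hf, hdiv⟩
  rw [FA_S18_H2_W, dif_pos h]
  exact (FA_S18_C0_main n p h.1 f h.2.1 h.2.2 k 0 m).choose_spec

/-- **`W_mem`** in the form of `FA_S18.FA_S18_E_Hyp`. -/
theorem FA_S18_H2_W_mem (hp : 0 < p) (hf : f ≠ 0)
    (hdiv : ∀ v : Place (AlgebraicClosure ℚ) ↥(modularFunctionFieldBar n), (p : ℤ) ∣ v.ord f)
    (k m : ℕ) (y : ↥(modularFunctionFieldBar n)) :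
    y ∈ FA_S18_H2_W n p f k m ↔
      y ^ p * f ^ k ∈ FA_S18_H2_Bf n ∧
        y ^ p * f ^ k * (FA_S18_A_jbar n)⁻¹ ^ (p * m) ∈ FA_S18_H2_Bi n := by
  have h1 := (FA_S18_H2_W_spec hp hf hdiv k m).1
  rw [← SetLike.mem_coe, h1]
  show (IsIntegral _ (y ^ p * f ^ k * (FA_S18_C0_j n) ^ (p * 0)) ∧ _) ↔ _
  rw [mul_zero, pow_zero, mul_one]
  rfl

/-- positivity of `ψ` -/
theorem FA_S18_H2_psi_pos (n : ℕ) [NeZero n] : 0 < dedekindPsi n := by
  rw [← (FA_S18_A_jbar_spec n).2.2]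
  haveI := (FA_S18_A_jbar_spec n).2.1
  exact Module.finrank_pos

/-- **`dim`** in the form of `FA_S18.FA_S18_E_Hyp` (`g = genusFF`, `ψ = dedekindPsi n`,
`c₁ = 2 g`). -/
theorem FA_S18_H2_W_dim (hp : 0 < p) (hf : f ≠ 0)
    (hdiv : ∀ v : Place (AlgebraicClosure ℚ) ↥(modularFunctionFieldBar n), (p : ℤ) ∣ v.ord f) :
    ∃ c₁ : ℕ, ∀ k m, k < p → c₁ ≤ m →
      FiniteDimensional (AlgebraicClosure ℚ) (FA_S18_H2_W n p f k m) ∧
        Module.finrank (AlgebraicClosure ℚ) (FA_S18_H2_W n p f k m)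
          + genusFF (AlgebraicClosure ℚ) ↥(modularFunctionFieldBar n)
          = m * dedekindPsi n + 1 := by
  refine ⟨2 * genusFF (AlgebraicClosure ℚ) ↥(modularFunctionFieldBar n), fun k m _ hm => ?_⟩
  obtain ⟨-, hfin, hdim⟩ := FA_S18_H2_W_spec hp hf hdiv k m
  refine ⟨hfin, ?_⟩
  have hψ := FA_S18_H2_psi_pos n
  have h1 : 2 * (genusFF (AlgebraicClosure ℚ) ↥(modularFunctionFieldBar n) : ℤ) - 2
      < ((0 : ℕ) + (m : ℤ)) * dedekindPsi n := by
    have h2 : (2 * genusFF (AlgebraicClosure ℚ) ↥(modularFunctionFieldBar n) : ℤ) ≤ m := by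
      exact_mod_cast hm
    have h3 : (m : ℤ) * 1 ≤ (m : ℤ) * dedekindPsi n :=
      mul_le_mul_of_nonneg_left (by exact_mod_cast hψ) (Int.natCast_nonneg m)
    simp only [Nat.cast_zero, zero_add]
    omega
  have h4 := hdim h1
  simp only [Nat.cast_zero, zero_add] at h4
  have : ((Module.finrank (AlgebraicClosure ℚ) (FA_S18_H2_W n p f k m)
      + genusFF (AlgebraicClosure ℚ) ↥(modularFunctionFieldBar n) : ℕ) : ℤ)
      = ((m * dedekindPsi n + 1 : ℕ) : ℤ) := by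
    push_cast
    rw [h4]
    ring
  exact_mod_cast this

end Fermat.Agent.S18
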