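import Mathlib

/-!
# S18, leaf E (abstract part): lifting lemma, twisted lifting lemma, componentwise `H2`

Abstract setting (to be instantiated with `A ⊂ ℚ̄` the valuation ring, `K = ℚ̄`, `F = F_n`,
`O` the Gauss valuation ring of leaf B, `red : O → F̄`, `kk` the residue field of `A`):

* `A` a local domain in which any two elements of `𝔪` have a common divisor in `𝔪` (valuation ring),
  `K` its fraction field, `F / K` a field, `O` an `A`-subalgebra of `F`, `red : O →+* Fb` a ring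
  homomorphism with kernel `𝔪 O`.
* `W : Submodule K F` "Riemann–Roch spaces" in characteristic `0`, `M = W ∩ O` their unit balls.

See `NOTES/plan/S18.md`, leaf E.
-/

set_option autoImplicit false

noncomputable section

namespace FA_S18

open IsLocalRing

section Basic

variable {A K F Fb kk : Type*} [CommRing A] [IsDomain A] [IsLocalRing A]
  [Field K] [Algebra A K] [IsFractionRing A K]
  [Field F] [Algebra K F] [Algebra A F] [IsScalarTower A K F]
  [Field kk] [Field Fb] [Algebra kk Fb]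

/-- The unit ball `W ∩ O` of a `K`-subspace `W` of `F`, as an `A`-submodule of `F`. -/
def FA_S18_E_ball (O : Subalgebra A F) (W : Submodule K F) : Submodule A F :=
  W.restrictScalars A ⊓ Subalgebra.toSubmodule O

theorem FA_S18_E_mem_ball {O : Subalgebra A F} {W : Submodule K F} {y : F} :
    y ∈ FA_S18_E_ball O W ↔ y ∈ W ∧ y ∈ O := by
  simp [FA_S18_E_ball]

/-- The image under `red` of `N ∩ O`, as a set. -/
def FA_S18_E_redSet (O : Subalgebra A F) (red : O →+* Fb) (N : Submodule A F) : Set Fb :=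
  {x | ∃ y : O, (y : F) ∈ N ∧ red y = x}

/-- The `kk`-span of the image under `red` of `N ∩ O`. -/
def FA_S18_E_redImage (O : Subalgebra A F) (red : O →+* Fb) (N : Submodule A F) :
    Submodule kk Fb :=
  Submodule.span kk (FA_S18_E_redSet O red N)

variable {O : Subalgebra A F} {red : O →+* Fb} {res : A →+* kk}

/-- If `res` is surjective and compatible with `red`, the image of `N ∩ O` is already a
`kk`-subspace. -/
theorem FA_S18_E_mem_redImage (hres : Function.Surjective res)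
    (hcompat : ∀ a : A, red (algebraMap A O a) = algebraMap kk Fb (res a))
    (N : Submodule A F) {x : Fb} :
    x ∈ FA_S18_E_redImage (kk := kk) O red N ↔ ∃ y : O, (y : F) ∈ N ∧ red y = x := by
  constructor
  · intro hx
    induction hx using Submodule.span_induction with
    | mem x hx => exact hx
    | zero => exact ⟨0, by simp, by simp⟩
    | add x y _ _ hx hy =>
      obtain ⟨u, hu, rfl⟩ := hx
      obtain ⟨w, hw, rfl⟩ := hy
      exact ⟨u + w, by simpa using N.add_mem hu hw, by simp⟩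
    | smul c x _ hx =>
      obtain ⟨u, hu, rfl⟩ := hx
      obtain ⟨a, rfl⟩ := hres c
      refine ⟨algebraMap A O a * u, ?_, ?_⟩
      · have : ((algebraMap A O a * u : O) : F) = a • (u : F) := by
          rw [Algebra.smul_def]; rfl
        rw [this]
        exact N.smul_mem a hu
      · rw [map_mul, hcompat, Algebra.smul_def]
  · rintro ⟨y, hy, rfl⟩
    exact Submodule.subset_span ⟨y, hy, rfl⟩

theorem FA_S18_E_redImage_mono (N N' : Submodule A F) (h : N ≤ N') :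
    FA_S18_E_redImage (kk := kk) O red N ≤ FA_S18_E_redImage (kk := kk) O red N' := by
  apply Submodule.span_mono
  rintro x ⟨y, hy, rfl⟩
  exact ⟨y, h hy, rfl⟩

end Basic

section Lift

variable {A K F Fb kk : Type*} [CommRing A] [IsDomain A] [IsLocalRing A]
  [Field K] [Algebra A K] [IsFractionRing A K]
  [Field F] [Algebra K F] [Algebra A F] [IsScalarTower A K F]
  [Field kk] [Field Fb] [Algebra kk Fb]

/-- The space `L̄(n) = B̄^fin ∩ j̄ⁿ B̄^inf` in ring-theoretic form. -/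
def FA_S18_E_Lbar (Bbf Bbi : Subalgebra kk Fb) (jb : Fb) (n : ℕ) : Submodule kk Fb where
  carrier := {x | x ∈ Bbf ∧ x * jb⁻¹ ^ n ∈ Bbi}
  add_mem' := by
    rintro x y ⟨hx, hx'⟩ ⟨hy, hy'⟩
    exact ⟨Bbf.add_mem hx hy, by rw [add_mul]; exact Bbi.add_mem hx' hy'⟩
  zero_mem' := ⟨Bbf.zero_mem, by rw [zero_mul]; exact Bbi.zero_mem⟩
  smul_mem' := by
    rintro c x ⟨hx, hx'⟩
    exact ⟨Bbf.smul_mem hx c, by rw [smul_mul_assoc]; exact Bbi.smul_mem hx' c⟩

theorem FA_S18_E_mem_Lbar {Bbf Bbi : Subalgebra kk Fb} {jb : Fb} {n : ℕ} {x : Fb} :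
    x ∈ FA_S18_E_Lbar Bbf Bbi jb n ↔ x ∈ Bbf ∧ x * jb⁻¹ ^ n ∈ Bbi := Iff.rfl

variable (O : Subalgebra A F) (red : O →+* Fb) (res : A →+* kk)

/-- `red (m • y) = res m • red y`. -/
theorem FA_S18_E_red_smul
    (hcompat : ∀ a : A, red (algebraMap A O a) = algebraMap kk Fb (res a))
    (m : A) (y : O) : red (m • y) = algebraMap kk Fb (res m) * red y := by
  rw [Algebra.smul_def, map_mul, hcompat]

/-- **Untwisted lifting lemma** (from normality of the two charts and `H¹ = 0` integrally):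
every element of `L̄(n)`, `n ≥ c`, is the reduction of an element `y ∈ O` with `y ∈ B^fin`,
`y j⁻ⁿ ∈ B^inf`. -/
theorem FA_S18_E_lift0
    (hcompat : ∀ a : A, red (algebraMap A O a) = algebraMap kk Fb (res a))
    (hresm : ∀ m ∈ maximalIdeal A, res m = 0)
    (hker : ∀ y : O, red y = 0 → ∃ m ∈ maximalIdeal A, ∃ y' : O, y = m • y')
    (j : O) (hj0 : (j : F) ≠ 0) (jinv : O) (hjinv : (jinv : F) = (j : F)⁻¹)
    (BfQ BiQ BmQ : Subalgebra K F)
    (hjf : (j : F) ∈ BfQ) (hji : (j : F)⁻¹ ∈ BiQ) (hfm : BfQ ≤ BmQ) (him : BiQ ≤ BmQ)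
    (Bbf Bbi : Subalgebra kk Fb)
    (e7f : ∀ x ∈ Bbf, ∃ y : O, (y : F) ∈ BfQ ∧ red y = x)
    (e7i : ∀ x ∈ Bbi, ∃ y : O, (y : F) ∈ BiQ ∧ red y = x)
    (c : ℕ)
    (e8 : ∀ w : O, (w : F) ∈ BmQ →
      ∃ w1 w2 : O, (w1 : F) ∈ BfQ ∧ (w2 : F) ∈ BiQ ∧ (w : F) = w1 + (j : F) ^ c * w2)
    (n : ℕ) (hn : c ≤ n) (x : Fb) (hx : x ∈ FA_S18_E_Lbar Bbf Bbi (red j) n) :
    ∃ y : O, (y : F) ∈ BfQ ∧ (y : F) * ((j : F)⁻¹) ^ n ∈ BiQ ∧ red y = x := by
  obtain ⟨hxf, hxi⟩ := hx
  obtain ⟨y1, hy1, hy1x⟩ := e7f x hxf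
  obtain ⟨y2, hy2, hy2x⟩ := e7i _ hxi
  have hjj : j * jinv = 1 := by
    apply Subtype.ext
    show (j : F) * (jinv : F) = 1
    rw [hjinv, mul_inv_cancel₀ hj0]
  have hredj : red j * red jinv = 1 := by rw [← map_mul, hjj, map_one]
  have hredj0 : red j ≠ 0 := left_ne_zero_of_mul_eq_one hredj
  have hredjinv : red jinv = (red j)⁻¹ := eq_inv_of_mul_eq_one_right hredj
  -- the difference reduces to zero
  have h0 : red (y1 - j ^ n * y2) = 0 := by
    rw [map_sub, map_mul, map_pow, hy1x, hy2x, mul_comm x, ← mul_assoc, ← mul_pow,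
      mul_inv_cancel₀ hredj0, one_pow, one_mul, sub_self]
  obtain ⟨m, hm, w, hw⟩ := hker _ h0
  by_cases hm0 : m = 0
  · -- `y1 = jⁿ y2`
    refine ⟨y1, hy1, ?_, hy1x⟩
    have h1 : (y1 : F) = (j : F) ^ n * (y2 : F) := by
      have := congrArg (Subtype.val) hw
      rw [hm0, zero_smul] at this
      have h2 : ((y1 - j ^ n * y2 : O) : F) = (y1 : F) - (j : F) ^ n * (y2 : F) := rfl
      rw [h2] at this
      exact sub_eq_zero.mp this
    rw [h1, mul_comm, ← mul_assoc, ← mul_pow, inv_mul_cancel₀ hj0, one_pow, one_mul]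
    exact hy2
  · have hmK : (algebraMap A K m) ≠ 0 := by
      simpa using (IsFractionRing.injective A K).ne hm0
    have hwF : (w : F) = (algebraMap A K m)⁻¹ • ((y1 : F) - (j : F) ^ n * (y2 : F)) := by
      have := congrArg (Subtype.val) hw
      have h2 : ((y1 - j ^ n * y2 : O) : F) = (y1 : F) - (j : F) ^ n * (y2 : F) := rfl
      have h3 : ((m • w : O) : F) = (algebraMap A K m) • (w : F) := by
        show m • (w : F) = _
        rw [algebraMap_smul]
      rw [h2, h3] at this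
      rw [this, smul_smul, inv_mul_cancel₀ hmK, one_smul]
    have hwm : (w : F) ∈ BmQ := by
      rw [hwF]
      refine BmQ.smul_mem (BmQ.sub_mem (hfm hy1) (BmQ.mul_mem (BmQ.pow_mem (hfm hjf) n) (him hy2))) _
    obtain ⟨w1, w2, hw1, hw2, hww⟩ := e8 w hwm
    refine ⟨y1 - m • w1, ?_, ?_, ?_⟩
    · have : ((y1 - m • w1 : O) : F) = (y1 : F) - (algebraMap A K m) • (w1 : F) := by
        show (y1 : F) - m • (w1 : F) = _
        rw [algebraMap_smul]
      rw [this]
      exact BfQ.sub_mem hy1 (BfQ.smul_mem hw1 _)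
    · -- `y = jⁿ y2 + m j^c w2`
      have hy : ((y1 - m • w1 : O) : F)
          = (j : F) ^ n * (y2 : F) + (algebraMap A K m) • ((j : F) ^ c * (w2 : F)) := by
        have e1 : ((y1 - m • w1 : O) : F) = (y1 : F) - (algebraMap A K m) • (w1 : F) := by
          show (y1 : F) - m • (w1 : F) = _
          rw [algebraMap_smul]
        have e2 : (algebraMap A K m) • (w : F) = (y1 : F) - (j : F) ^ n * (y2 : F) := by
          rw [hwF, smul_smul, mul_inv_cancel₀ hmK, one_smul]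
        rw [e1]
        rw [hww, smul_add] at e2
        simp only [Algebra.smul_def] at e2 ⊢
        linear_combination (-1 : F) * e2
      rw [hy, add_mul]
      refine BiQ.add_mem ?_ ?_
      · rw [mul_comm ((j : F) ^ n), mul_assoc, ← mul_pow, mul_inv_cancel₀ hj0, one_pow, mul_one]
        exact hy2
      · rw [smul_mul_assoc]
        refine BiQ.smul_mem ?_ _
        have : (j : F) ^ c * (w2 : F) * ((j : F)⁻¹) ^ n = (w2 : F) * ((j : F)⁻¹) ^ (n - c) := by
          obtain ⟨d, rfl⟩ := Nat.exists_eq_add_of_le hn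
          rw [Nat.add_sub_cancel_left, pow_add]
          have : (j : F) ^ c * ((j : F)⁻¹) ^ c = 1 := by
            rw [← mul_pow, mul_inv_cancel₀ hj0, one_pow]
          calc (j : F) ^ c * (w2 : F) * (((j : F)⁻¹) ^ c * ((j : F)⁻¹) ^ d)
              = ((j : F) ^ c * ((j : F)⁻¹) ^ c) * ((w2 : F) * ((j : F)⁻¹) ^ d) := by ring
            _ = (w2 : F) * ((j : F)⁻¹) ^ d := by rw [this, one_mul]
        rw [this]
        exact BiQ.mul_mem hw2 (BiQ.pow_mem hji _)
    · rw [map_sub, FA_S18_E_red_smul O red res hcompat, hresm m hm, map_zero, zero_mul, sub_zero,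
        hy1x]

end Lift

section Twisted

variable {A K F Fb kk : Type*} [CommRing A] [IsDomain A] [IsLocalRing A]
  [Field K] [Algebra A K] [IsFractionRing A K]
  [Field F] [Algebra K F] [Algebra A F] [IsScalarTower A K F]
  [Field kk] [Field Fb] [Algebra kk Fb]

/-- All hypotheses of leaf E in one structure (deliverables of leaves B, C0, N). -/
structure FA_S18_E_Hyp (O : Subalgebra A F) (red : O →+* Fb) (res : A →+* kk)
    (j jinv : O) (BfQ BiQ BmQ : Subalgebra K F) (Bbf Bbi : Subalgebra kk Fb)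
    (p : ℕ) (f : O) (W : ℕ → ℕ → Submodule K F) (ψ g : ℕ) : Prop where
  res_surj : Function.Surjective res
  res_max : ∀ m ∈ maximalIdeal A, res m = 0
  compat : ∀ a : A, red (algebraMap A O a) = algebraMap kk Fb (res a)
  ker : ∀ y : O, red y = 0 → ∃ m ∈ maximalIdeal A, ∃ y' : O, y = m • y'
  j_ne : (j : F) ≠ 0
  jinv_eq : (jinv : F) = (j : F)⁻¹
  j_fin : (j : F) ∈ BfQ
  jinv_inf : (j : F)⁻¹ ∈ BiQ
  fin_le : BfQ ≤ BmQ
  inf_le : BiQ ≤ BmQ
  jb_fin : red j ∈ Bbf
  jbinv_inf : (red j)⁻¹ ∈ Bbi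
  icl_fin : ∀ x : Fb, x ^ p ∈ Bbf → x ∈ Bbf
  icl_inf : ∀ x : Fb, x ^ p ∈ Bbi → x ∈ Bbi
  into_fin : ∀ y : O, (y : F) ∈ BfQ → red y ∈ Bbf
  into_inf : ∀ y : O, (y : F) ∈ BiQ → red y ∈ Bbi
  onto_fin : ∀ x ∈ Bbf, ∃ y : O, (y : F) ∈ BfQ ∧ red y = x
  onto_inf : ∀ x ∈ Bbi, ∃ y : O, (y : F) ∈ BiQ ∧ red y = x
  h1 : ∃ c : ℕ, ∀ w : O, (w : F) ∈ BmQ →
    ∃ w1 w2 : O, (w1 : F) ∈ BfQ ∧ (w2 : F) ∈ BiQ ∧ (w : F) = w1 + (j : F) ^ c * w2
  p_pos : 0 < p
  f_red : red f = 1
  W_mem : ∀ k n (y : F), y ∈ W k n ↔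
    y ^ p * (f : F) ^ k ∈ BfQ ∧ y ^ p * (f : F) ^ k * ((j : F)⁻¹) ^ (p * n) ∈ BiQ
  cart : ∀ V : Submodule K F, FiniteDimensional K V → (FA_S18_E_ball O V).FG ∧
    Module.finrank kk (FA_S18_E_redImage (kk := kk) O red (FA_S18_E_ball O V))
      = Module.finrank K V
  dim : ∃ c₁ : ℕ, ∀ k n, k < p → c₁ ≤ n →
    FiniteDimensional K (W k n) ∧ Module.finrank K (W k n) + g = n * ψ + 1
  psi_pos : 0 < ψ

variable {O : Subalgebra A F} {red : O →+* Fb} {res : A →+* kk}
  {j jinv : O} {BfQ BiQ BmQ : Subalgebra K F} {Bbf Bbi : Subalgebra kk Fb}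
  {p : ℕ} {f : O} {W : ℕ → ℕ → Submodule K F} {ψ g : ℕ}

namespace FA_S18_E_Hyp

variable (H : FA_S18_E_Hyp O red res j jinv BfQ BiQ BmQ Bbf Bbi p f W ψ g)
include H

theorem j_mul_jinv : j * jinv = 1 := by
  apply Subtype.ext
  show (j : F) * (jinv : F) = 1
  rw [H.jinv_eq, mul_inv_cancel₀ H.j_ne]

theorem red_j_mul : red j * red jinv = 1 := by rw [← map_mul, H.j_mul_jinv, map_one]

theorem red_j_ne : red j ≠ 0 := left_ne_zero_of_mul_eq_one H.red_j_mul

theorem red_jinv : red jinv = (red j)⁻¹ := eq_inv_of_mul_eq_one_right H.red_j_mul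

/-- "Into": the reduction of an element of the twisted lattice lies in `L̄(n)`. -/
theorem into (k n : ℕ) (y : O) (hy : (y : F) ∈ W k n) :
    red y ∈ FA_S18_E_Lbar Bbf Bbi (red j) n := by
  obtain ⟨h1, h2⟩ := (H.W_mem k n y).mp hy
  constructor
  · apply H.icl_fin
    have : red (y ^ p * f ^ k) = (red y) ^ p := by
      rw [map_mul, map_pow, map_pow, H.f_red, one_pow, mul_one]
    rw [← this]
    exact H.into_fin _ h1
  · apply H.icl_inf
    have : red (y ^ p * f ^ k * jinv ^ (p * n)) = (red y * (red j)⁻¹ ^ n) ^ p := by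
      rw [map_mul, map_mul, map_pow, map_pow, map_pow, H.f_red, one_pow, mul_one, H.red_jinv,
        mul_pow, ← pow_mul, mul_comm n p]
    rw [← this]
    apply H.into_inf
    have e : ((y ^ p * f ^ k * jinv ^ (p * n) : O) : F)
        = (y : F) ^ p * (f : F) ^ k * ((j : F)⁻¹) ^ (p * n) := by
      show (y : F) ^ p * (f : F) ^ k * (jinv : F) ^ (p * n) = _
      rw [H.jinv_eq]
    rw [e]
    exact h2

/-- Untwisted lifting, in terms of `W 0 n`. -/
theorem lift_zero : ∃ c : ℕ, ∀ n, c ≤ n → ∀ x ∈ FA_S18_E_Lbar Bbf Bbi (red j) n,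
    ∃ y : O, (y : F) ∈ W 0 n ∧ red y = x := by
  obtain ⟨c, hc⟩ := H.h1
  refine ⟨c, fun n hn x hx => ?_⟩
  obtain ⟨y, hy1, hy2, hyx⟩ := FA_S18_E_lift0 O red res H.compat H.res_max H.ker j H.j_ne jinv
    H.jinv_eq BfQ BiQ BmQ H.j_fin H.jinv_inf H.fin_le H.inf_le Bbf Bbi H.onto_fin H.onto_inf c hc
    n hn x hx
  refine ⟨y, (H.W_mem 0 n y).mpr ⟨?_, ?_⟩, hyx⟩
  · rw [pow_zero, mul_one]
    exact BfQ.pow_mem hy1 p
  · rw [pow_zero, mul_one, mul_comm p n, pow_mul, ← mul_pow]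
    exact BiQ.pow_mem hy2 p

theorem redImage_le (k n : ℕ) :
    FA_S18_E_redImage (kk := kk) O red (FA_S18_E_ball O (W k n))
      ≤ FA_S18_E_Lbar Bbf Bbi (red j) n := by
  apply Submodule.span_le.mpr
  rintro x ⟨y, hy, rfl⟩
  exact H.into k n y (FA_S18_E_mem_ball.mp hy).1

/-- **Twisted lifting lemma.** -/
theorem lift : ∃ c : ℕ, ∀ k n, k < p → c ≤ n → ∀ x ∈ FA_S18_E_Lbar Bbf Bbi (red j) n,
    ∃ y : O, (y : F) ∈ W k n ∧ red y = x := by
  obtain ⟨c0, hc0⟩ := H.lift_zero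
  obtain ⟨c1, hc1⟩ := H.dim
  refine ⟨max (max c0 c1) g, fun k n hk hn x hx => ?_⟩
  have hn0 : c0 ≤ n := le_trans (le_trans (le_max_left _ _) (le_max_left _ _)) hn
  have hn1 : c1 ≤ n := le_trans (le_trans (le_max_right _ _) (le_max_left _ _)) hn
  have hng : g ≤ n := le_trans (le_max_right _ _) hn
  -- dimension of `L̄(n)`
  have hL0 : FA_S18_E_redImage (kk := kk) O red (FA_S18_E_ball O (W 0 n))
      = FA_S18_E_Lbar Bbf Bbi (red j) n := by
    apply le_antisymm (H.redImage_le 0 n)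
    intro x hx
    obtain ⟨y, hy, hyx⟩ := hc0 n hn0 x hx
    exact Submodule.subset_span ⟨y, FA_S18_E_mem_ball.mpr ⟨hy, y.2⟩, hyx⟩
  obtain ⟨hfd0, hdim0⟩ := hc1 0 n H.p_pos hn1
  obtain ⟨hfdk, hdimk⟩ := hc1 k n hk hn1
  have hr0 := (H.cart (W 0 n) hfd0).2
  have hrk := (H.cart (W k n) hfdk).2
  have hpos : 0 < Module.finrank K (W 0 n) := by
    have : n * 1 ≤ n * ψ := Nat.mul_le_mul_left n H.psi_pos
    omega
  have hfin : Module.Finite kk (FA_S18_E_Lbar Bbf Bbi (red j) n) := by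
    apply Module.finite_of_finrank_pos
    rw [← hL0, hr0]
    exact hpos
  have heq : FA_S18_E_redImage (kk := kk) O red (FA_S18_E_ball O (W k n))
      = FA_S18_E_Lbar Bbf Bbi (red j) n := by
    apply Submodule.eq_of_le_of_finrank_eq (H.redImage_le k n)
    rw [hrk, ← hL0, hr0]
    omega
  have hx' : x ∈ FA_S18_E_redImage (kk := kk) O red (FA_S18_E_ball O (W k n)) := by
    rw [heq]; exact hx
  obtain ⟨y, hy, hyx⟩ := (FA_S18_E_mem_redImage H.res_surj H.compat _).mp hx'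
  exact ⟨y, (FA_S18_E_mem_ball.mp hy).1, hyx⟩

end FA_S18_E_Hyp

end Twisted

end FA_S18
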