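import Mathlib
import Fermat.Agent.S18.LiftAbs

/-!
# S18, leaf E (abstract part 2): the lattices `Λ_k(a,b)`, sum property, componentwise `H2`
-/

set_option autoImplicit false
set_option linter.unusedSectionVars false

noncomputable section

namespace FA_S18

open IsLocalRing

section General

/-- Multiplication by a nonzero element, as a linear equivalence. -/
def FA_S18_E_mulEquiv (K : Type*) {F : Type*} [Field K] [Field F] [Algebra K F] (u : F)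
    (hu : u ≠ 0) : F ≃ₗ[K] F :=
  LinearEquiv.ofLinearMap (LinearMap.mulLeft K u) (LinearMap.mulLeft K u⁻¹)
    (by ext x; simp [hu]) (by ext x; simp [hu])

/-- The preimage of a subspace under multiplication by a nonzero element is isomorphic to it. -/
def FA_S18_E_comapEquiv {K F : Type*} [Field K] [Field F] [Algebra K F] (u : F) (hu : u ≠ 0)
    (U : Submodule K F) : ↥(U.comap (LinearMap.mulLeft K u)) ≃ₗ[K] ↥U :=
  (FA_S18_E_mulEquiv K u hu).ofSubmodule' U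

theorem FA_S18_E_finrank_comap {K F : Type*} [Field K] [Field F] [Algebra K F] (u : F)
    (hu : u ≠ 0) (U : Submodule K F) :
    Module.finrank K ↥(U.comap (LinearMap.mulLeft K u)) = Module.finrank K ↥U :=
  (FA_S18_E_comapEquiv u hu U).finrank_eq

theorem FA_S18_E_finite_comap {K F : Type*} [Field K] [Field F] [Algebra K F] (u : F)
    (hu : u ≠ 0) (U : Submodule K F) [Module.Finite K ↥U] :
    Module.Finite K ↥(U.comap (LinearMap.mulLeft K u)) :=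
  Module.Finite.equiv (FA_S18_E_comapEquiv u hu U).symm

/-- A finitely generated module all of whose elements have a nonzero multiple in `N` has a common
such multiplier. -/
theorem FA_S18_E_common_mult {A M : Type*} [CommRing A] [IsDomain A] [AddCommGroup M] [Module A M]
    (L N : Submodule A M) (hL : L.FG) (h : ∀ y ∈ L, ∃ π : A, π ≠ 0 ∧ π • y ∈ N) :
    ∃ c : A, c ≠ 0 ∧ ∀ y ∈ L, c • y ∈ N := by
  classical
  obtain ⟨s, rfl⟩ := hL
  choose! π hπ0 hπ using h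
  refine ⟨∏ x ∈ s, π x, ?_, ?_⟩
  · apply Finset.prod_ne_zero_iff.mpr
    intro x hx
    exact hπ0 x (Submodule.subset_span hx)
  · intro y hy
    induction hy using Submodule.span_induction with
    | mem x hx =>
      have hx' : x ∈ s := hx
      rw [← Finset.mul_prod_erase s π hx', mul_comm, mul_smul]
      exact N.smul_mem _ (hπ x (Submodule.subset_span hx))
    | zero => rw [smul_zero]; exact N.zero_mem
    | add x y _ _ hx hy => rw [smul_add]; exact N.add_mem hx hy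
    | smul a x _ hx => rw [smul_comm]; exact N.smul_mem _ hx

end General

variable {A K F Fb kk : Type*} [CommRing A] [IsDomain A] [IsLocalRing A]
  [Field K] [Algebra A K] [IsFractionRing A K]
  [Field F] [Algebra K F] [Algebra A F] [IsScalarTower A K F]
  [Field kk] [Field Fb] [Algebra kk Fb]

/-- The `K`-space `{y | jᵃ y ∈ W}`. -/
def FA_S18_E_WLam (j : F) (W : ℕ → ℕ → Submodule K F) (k a b : ℕ) : Submodule K F :=
  (W k (a + b)).comap (LinearMap.mulLeft K (j ^ a))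

theorem FA_S18_E_mem_WLam {j : F} {W : ℕ → ℕ → Submodule K F} {k a b : ℕ} {y : F} :
    y ∈ FA_S18_E_WLam j W k a b ↔ j ^ a * y ∈ W k (a + b) := Iff.rfl

/-- The lattice `Λ_k(a,b) = {y ∈ O | jᵃ y ∈ W k (a+b)}`. -/
def FA_S18_E_Lam (O : Subalgebra A F) (j : F) (W : ℕ → ℕ → Submodule K F) (k a b : ℕ) :
    Submodule A F :=
  FA_S18_E_ball O (FA_S18_E_WLam j W k a b)

theorem FA_S18_E_mem_Lam {O : Subalgebra A F} {j : F} {W : ℕ → ℕ → Submodule K F} {k a b : ℕ}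
    {y : F} : y ∈ FA_S18_E_Lam O j W k a b ↔ j ^ a * y ∈ W k (a + b) ∧ y ∈ O := by
  rw [FA_S18_E_Lam, FA_S18_E_mem_ball, FA_S18_E_mem_WLam]


/-- The two-sided space `L̄(a,b) = {x | j̄ᵃ x ∈ L̄(a+b)}`. -/
def FA_S18_E_Lbar2 (Bbf Bbi : Subalgebra kk Fb) (jb : Fb) (a b : ℕ) : Submodule kk Fb :=
  (FA_S18_E_Lbar Bbf Bbi jb (a + b)).comap (LinearMap.mulLeft kk (jb ^ a))

theorem FA_S18_E_mem_Lbar2 {Bbf Bbi : Subalgebra kk Fb} {jb : Fb} {a b : ℕ} {x : Fb} :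
    x ∈ FA_S18_E_Lbar2 Bbf Bbi jb a b ↔ jb ^ a * x ∈ FA_S18_E_Lbar Bbf Bbi jb (a + b) := Iff.rfl


/-- The chart lattice `Λ₁_k = ⋃_b Λ_k(0,b)`. -/
def FA_S18_E_Lam1 (O : Subalgebra A F) (j : F) (W : ℕ → ℕ → Submodule K F) (k : ℕ) :
    Submodule A F := ⨆ b, FA_S18_E_Lam O j W k 0 b

/-- The chart lattice `Λ₂_k = ⋃_a Λ_k(a,0)`. -/
def FA_S18_E_Lam2 (O : Subalgebra A F) (j : F) (W : ℕ → ℕ → Submodule K F) (k : ℕ) :
    Submodule A F := ⨆ a, FA_S18_E_Lam O j W k a 0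

/-- The lattice `Λ₁₂_k = ⋃_n Λ_k(n,n)` on the intersection of the charts. -/
def FA_S18_E_Lam12 (O : Subalgebra A F) (j : F) (W : ℕ → ℕ → Submodule K F) (k : ℕ) :
    Submodule A F := ⨆ n, FA_S18_E_Lam O j W k n n

/-- The chart space `W₁_k = ⋃_b W_k(0,b)`. -/
def FA_S18_E_W1 (j : F) (W : ℕ → ℕ → Submodule K F) (k : ℕ) : Submodule K F :=
  ⨆ b, FA_S18_E_WLam j W k 0 b

/-- The chart space `W₂_k = ⋃_a W_k(a,0)`. -/
def FA_S18_E_W2 (j : F) (W : ℕ → ℕ → Submodule K F) (k : ℕ) : Submodule K F :=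
  ⨆ a, FA_S18_E_WLam j W k a 0

/-- The second bundle of hypotheses of leaf E. -/
structure FA_S18_E_Hyp2 (O : Subalgebra A F) (BfQ BiQ : Subalgebra K F) (p : ℕ) : Prop where
  p_prime : p.Prime
  p_unit : ∃ pinv : A, pinv * (p : A) = 1
  hV : ∀ m₁ ∈ maximalIdeal A, ∀ m₂ ∈ maximalIdeal A, ∃ m ∈ maximalIdeal A, m ∣ m₁ ∧ m ∣ m₂
  hrank : ∀ m ∈ maximalIdeal A, ∀ π : A, π ≠ 0 → ∃ n : ℕ, π ∣ m ^ n
  m_ne : ∃ π₀ ∈ maximalIdeal A, π₀ ≠ 0
  scale : ∀ y : F, ∃ π : A, π ≠ 0 ∧ π • y ∈ O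
  consts : ∀ y : F, y ∈ BfQ → y ∈ BiQ → ∃ c : K, y = algebraMap K F c
  Kclosed : ∀ (x : F) (c : K), x ^ p = algebraMap K F c → ∃ c' : K, x = algebraMap K F c'
  O_K : ∀ c : K, algebraMap K F c ∈ O → ∃ a : A, algebraMap A K a = c

variable {O : Subalgebra A F} {red : O →+* Fb} {res : A →+* kk}
  {j jinv : O} {BfQ BiQ BmQ : Subalgebra K F} {Bbf Bbi : Subalgebra kk Fb}
  {p : ℕ} {f : O} {W : ℕ → ℕ → Submodule K F} {ψ g : ℕ}

namespace FA_S18_E_Hyp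

variable (H : FA_S18_E_Hyp O red res j jinv BfQ BiQ BmQ Bbf Bbi p f W ψ g)
include H

/-- Two-sided description of `WLam`. -/
theorem mem_WLam_iff (k a b : ℕ) (y : F) :
    y ∈ FA_S18_E_WLam (j : F) W k a b ↔
      y ^ p * (f : F) ^ k * (j : F) ^ (p * a) ∈ BfQ ∧
      y ^ p * (f : F) ^ k * ((j : F)⁻¹) ^ (p * b) ∈ BiQ := by
  have hj := H.j_ne
  have e1 : ((j : F) ^ a * y) ^ p * (f : F) ^ k = y ^ p * (f : F) ^ k * (j : F) ^ (p * a) := by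
    rw [mul_pow, ← pow_mul, mul_comm a p]; ring
  have e2 : ((j : F) ^ a * y) ^ p * (f : F) ^ k * ((j : F)⁻¹) ^ (p * (a + b))
      = y ^ p * (f : F) ^ k * ((j : F)⁻¹) ^ (p * b) := by
    rw [mul_pow, ← pow_mul, mul_comm a p, mul_add, pow_add]
    have : (j : F) ^ (p * a) * ((j : F)⁻¹) ^ (p * a) = 1 := by
      rw [← mul_pow, mul_inv_cancel₀ hj, one_pow]
    calc (j : F) ^ (p * a) * y ^ p * (f : F) ^ k * (((j : F)⁻¹) ^ (p * a) * ((j : F)⁻¹) ^ (p * b))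
        = ((j : F) ^ (p * a) * ((j : F)⁻¹) ^ (p * a)) * (y ^ p * (f : F) ^ k * ((j : F)⁻¹) ^ (p * b)) := by
          ring
      _ = _ := by rw [this, one_mul]
  rw [FA_S18_E_mem_WLam, H.W_mem, e2, e1]

theorem WLam_mono (k : ℕ) {a a' b b' : ℕ} (ha : a ≤ a') (hb : b ≤ b') :
    FA_S18_E_WLam (j : F) W k a b ≤ FA_S18_E_WLam (j : F) W k a' b' := by
  intro y hy
  rw [H.mem_WLam_iff] at hy ⊢
  obtain ⟨h1, h2⟩ := hy
  obtain ⟨d, rfl⟩ := Nat.exists_eq_add_of_le ha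
  obtain ⟨e, rfl⟩ := Nat.exists_eq_add_of_le hb
  constructor
  · rw [mul_add, pow_add, ← mul_assoc]
    exact BfQ.mul_mem h1 (BfQ.pow_mem H.j_fin _)
  · rw [mul_add, pow_add, ← mul_assoc]
    exact BiQ.mul_mem h2 (BiQ.pow_mem H.jinv_inf _)

theorem Lam_mono (k : ℕ) {a a' b b' : ℕ} (ha : a ≤ a') (hb : b ≤ b') :
    FA_S18_E_Lam O (j : F) W k a b ≤ FA_S18_E_Lam O (j : F) W k a' b' := by
  intro y hy
  rw [FA_S18_E_Lam, FA_S18_E_mem_ball] at hy ⊢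
  exact ⟨H.WLam_mono k ha hb hy.1, hy.2⟩

/-- Elements of the lattice with zero reduction are in `𝔪 Λ`. -/
theorem Lam_ker (k a b : ℕ) (y : O) (hy : (y : F) ∈ FA_S18_E_Lam O (j : F) W k a b)
    (h0 : red y = 0) :
    ∃ m ∈ maximalIdeal A, ∃ y' : O, (y' : F) ∈ FA_S18_E_Lam O (j : F) W k a b ∧ y = m • y' := by
  obtain ⟨m, hm, y', hy'⟩ := H.ker y h0
  by_cases hm0 : m = 0
  · refine ⟨0, (maximalIdeal A).zero_mem, 0, (FA_S18_E_Lam O (j : F) W k a b).zero_mem, ?_⟩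
    rw [hy', hm0, zero_smul, zero_smul]
  · refine ⟨m, hm, y', ?_, hy'⟩
    have hmK : (algebraMap A K m) ≠ 0 := by
      simpa using (IsFractionRing.injective A K).ne hm0
    have e : (y' : F) = (algebraMap A K m)⁻¹ • (y : F) := by
      have h3 : ((m • y' : O) : F) = (algebraMap A K m) • (y' : F) := by
        show m • (y' : F) = _
        rw [algebraMap_smul]
      rw [hy', h3, smul_smul, inv_mul_cancel₀ hmK, one_smul]
    rw [FA_S18_E_Lam, FA_S18_E_mem_ball] at hy ⊢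
    refine ⟨?_, y'.2⟩
    rw [e]
    exact Submodule.smul_mem _ _ hy.1


/-- Two-sided description of `L̄(a,b)`. -/
theorem mem_Lbar2_iff (a b : ℕ) (x : Fb) :
    x ∈ FA_S18_E_Lbar2 Bbf Bbi (red j) a b ↔
      x * (red j) ^ a ∈ Bbf ∧ x * ((red j)⁻¹) ^ b ∈ Bbi := by
  have hj := H.red_j_ne
  have e2 : (red j) ^ a * x * ((red j)⁻¹) ^ (a + b) = x * ((red j)⁻¹) ^ b := by
    rw [pow_add]
    have : (red j) ^ a * ((red j)⁻¹) ^ a = 1 := by
      rw [← mul_pow, mul_inv_cancel₀ hj, one_pow]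
    calc (red j) ^ a * x * (((red j)⁻¹) ^ a * ((red j)⁻¹) ^ b)
        = ((red j) ^ a * ((red j)⁻¹) ^ a) * (x * ((red j)⁻¹) ^ b) := by ring
      _ = _ := by rw [this, one_mul]
  rw [FA_S18_E_mem_Lbar2, FA_S18_E_mem_Lbar, e2, mul_comm]

theorem Lbar2_mono {a a' b b' : ℕ} (ha : a ≤ a') (hb : b ≤ b') :
    FA_S18_E_Lbar2 Bbf Bbi (red j) a b ≤ FA_S18_E_Lbar2 Bbf Bbi (red j) a' b' := by
  intro x hx
  rw [H.mem_Lbar2_iff] at hx ⊢
  obtain ⟨h1, h2⟩ := hx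
  obtain ⟨d, rfl⟩ := Nat.exists_eq_add_of_le ha
  obtain ⟨e, rfl⟩ := Nat.exists_eq_add_of_le hb
  constructor
  · rw [pow_add, ← mul_assoc]
    exact Bbf.mul_mem h1 (Bbf.pow_mem H.jb_fin _)
  · rw [pow_add, ← mul_assoc]
    exact Bbi.mul_mem h2 (Bbi.pow_mem H.jbinv_inf _)

theorem Lbar2_inf (a a' b b' : ℕ) :
    FA_S18_E_Lbar2 Bbf Bbi (red j) a b' ⊓ FA_S18_E_Lbar2 Bbf Bbi (red j) a' b
      ≤ FA_S18_E_Lbar2 Bbf Bbi (red j) a' b' := by
  intro x hx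
  obtain ⟨h1, h2⟩ := Submodule.mem_inf.mp hx
  rw [H.mem_Lbar2_iff] at h1 h2 ⊢
  exact ⟨h2.1, h1.2⟩

/-- Dimension of `L̄(n)` for `n` large. -/
theorem Lbar_dim : ∃ c : ℕ, ∀ n, c ≤ n →
    Module.Finite kk (FA_S18_E_Lbar Bbf Bbi (red j) n) ∧
      Module.finrank kk (FA_S18_E_Lbar Bbf Bbi (red j) n) + g = n * ψ + 1 := by
  obtain ⟨c0, hc0⟩ := H.lift_zero
  obtain ⟨c1, hc1⟩ := H.dim
  refine ⟨max (max c0 c1) g, fun n hn => ?_⟩
  have hn0 : c0 ≤ n := le_trans (le_trans (le_max_left _ _) (le_max_left _ _)) hn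
  have hn1 : c1 ≤ n := le_trans (le_trans (le_max_right _ _) (le_max_left _ _)) hn
  have hng : g ≤ n := le_trans (le_max_right _ _) hn
  have hL0 : FA_S18_E_redImage (kk := kk) O red (FA_S18_E_ball O (W 0 n))
      = FA_S18_E_Lbar Bbf Bbi (red j) n := by
    apply le_antisymm (H.redImage_le 0 n)
    intro x hx
    obtain ⟨y, hy, hyx⟩ := hc0 n hn0 x hx
    exact Submodule.subset_span ⟨y, FA_S18_E_mem_ball.mpr ⟨hy, y.2⟩, hyx⟩
  obtain ⟨hfd0, hdim0⟩ := hc1 0 n H.p_pos hn1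
  have hr0 := (H.cart (W 0 n) hfd0).2
  have hpos : 0 < Module.finrank K (W 0 n) := by
    have : n * 1 ≤ n * ψ := Nat.mul_le_mul_left n H.psi_pos
    omega
  constructor
  · apply Module.finite_of_finrank_pos
    rw [← hL0, hr0]
    exact hpos
  · rw [← hL0, hr0]
    exact hdim0

/-- Dimension of `L̄(a,b)` for `a + b` large. -/
theorem Lbar2_dim : ∃ c : ℕ, ∀ a b, c ≤ a + b →
    Module.Finite kk (FA_S18_E_Lbar2 Bbf Bbi (red j) a b) ∧
      Module.finrank kk (FA_S18_E_Lbar2 Bbf Bbi (red j) a b) + g = (a + b) * ψ + 1 := by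
  obtain ⟨c, hc⟩ := H.Lbar_dim
  refine ⟨c, fun a b hab => ?_⟩
  obtain ⟨hfin, hdim⟩ := hc (a + b) hab
  have hu : (red j) ^ a ≠ 0 := pow_ne_zero _ H.red_j_ne
  exact ⟨FA_S18_E_finite_comap _ hu _, by
    rw [FA_S18_E_Lbar2, FA_S18_E_finrank_comap _ hu]; exact hdim⟩

/-- Sum property in characteristic `ℓ`. -/
theorem Lbar2_sum : ∃ c : ℕ, ∀ a a' b b', a' ≤ a → b' ≤ b → c ≤ a' + b' →
    FA_S18_E_Lbar2 Bbf Bbi (red j) a b
      ≤ FA_S18_E_Lbar2 Bbf Bbi (red j) a b' ⊔ FA_S18_E_Lbar2 Bbf Bbi (red j) a' b := by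
  obtain ⟨c, hc⟩ := H.Lbar2_dim
  refine ⟨c, fun a a' b b' ha hb hab => ?_⟩
  obtain ⟨hf1, hd1⟩ := hc a b' (by omega)
  obtain ⟨hf2, hd2⟩ := hc a' b (by omega)
  obtain ⟨hf3, hd3⟩ := hc a' b' hab
  obtain ⟨hf4, hd4⟩ := hc a b (by omega)
  have hinf : FA_S18_E_Lbar2 Bbf Bbi (red j) a b' ⊓ FA_S18_E_Lbar2 Bbf Bbi (red j) a' b
      = FA_S18_E_Lbar2 Bbf Bbi (red j) a' b' :=
    le_antisymm (H.Lbar2_inf a a' b b')
      (le_inf (H.Lbar2_mono ha le_rfl) (H.Lbar2_mono le_rfl hb))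
  have hsup := Submodule.finrank_sup_add_finrank_inf_eq
    (FA_S18_E_Lbar2 Bbf Bbi (red j) a b') (FA_S18_E_Lbar2 Bbf Bbi (red j) a' b)
  rw [hinf] at hsup
  have hle : FA_S18_E_Lbar2 Bbf Bbi (red j) a b' ⊔ FA_S18_E_Lbar2 Bbf Bbi (red j) a' b
      ≤ FA_S18_E_Lbar2 Bbf Bbi (red j) a b :=
    sup_le (H.Lbar2_mono le_rfl hb) (H.Lbar2_mono ha le_rfl)
  have harith : (a + b') * ψ + (a' + b) * ψ = (a + b) * ψ + (a' + b') * ψ := by ring
  have heq := Submodule.eq_of_le_of_finrank_eq hle (by omega)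
  rw [heq]

/-- "Into", two-sided. -/
theorem into2 (k a b : ℕ) (y : O) (hy : (y : F) ∈ FA_S18_E_WLam (j : F) W k a b) :
    red y ∈ FA_S18_E_Lbar2 Bbf Bbi (red j) a b := by
  rw [FA_S18_E_mem_Lbar2, ← map_pow, ← map_mul]
  exact H.into k (a + b) (j ^ a * y) (FA_S18_E_mem_WLam.mp hy)

/-- Two-sided twisted lifting. -/
theorem lift2 : ∃ c : ℕ, ∀ k a b, k < p → c ≤ a + b →
    ∀ x ∈ FA_S18_E_Lbar2 Bbf Bbi (red j) a b,
      ∃ y : O, (y : F) ∈ FA_S18_E_Lam O (j : F) W k a b ∧ red y = x := by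
  obtain ⟨c, hc⟩ := H.lift
  refine ⟨c, fun k a b hk hab x hx => ?_⟩
  obtain ⟨y0, hy0, hy0x⟩ := hc k (a + b) hk hab _ (FA_S18_E_mem_Lbar2.mp hx)
  have hjj : (j : F) ^ a * (jinv : F) ^ a = 1 := by
    rw [← mul_pow, H.jinv_eq, mul_inv_cancel₀ H.j_ne, one_pow]
  refine ⟨jinv ^ a * y0, FA_S18_E_mem_Lam.mpr ⟨?_, (jinv ^ a * y0).2⟩, ?_⟩
  · have : (j : F) ^ a * ((jinv ^ a * y0 : O) : F) = (y0 : F) := by
      show (j : F) ^ a * ((jinv : F) ^ a * (y0 : F)) = _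
      rw [← mul_assoc, hjj, one_mul]
    rw [this]
    exact hy0
  · rw [map_mul, map_pow, hy0x, H.red_jinv, ← mul_assoc, ← mul_pow,
      inv_mul_cancel₀ H.red_j_ne, one_pow, one_mul]

/-- Dimension of `WLam`. -/
theorem WLam_dim : ∃ c : ℕ, ∀ k a b, k < p → c ≤ a + b →
    FiniteDimensional K (FA_S18_E_WLam (j : F) W k a b) ∧
      Module.finrank K (FA_S18_E_WLam (j : F) W k a b) + g = (a + b) * ψ + 1 := by
  obtain ⟨c, hc⟩ := H.dim
  refine ⟨c, fun k a b hk hab => ?_⟩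
  obtain ⟨hfin, hdim⟩ := hc k (a + b) hk hab
  have hu : (j : F) ^ a ≠ 0 := pow_ne_zero _ H.j_ne
  exact ⟨FA_S18_E_finite_comap _ hu _, by
    rw [FA_S18_E_WLam, FA_S18_E_finrank_comap _ hu]; exact hdim⟩

/-- The lattices are finitely generated (for `a + b` large). -/
theorem Lam_fg : ∃ c : ℕ, ∀ k a b, k < p → c ≤ a + b →
    (FA_S18_E_Lam O (j : F) W k a b).FG := by
  obtain ⟨c, hc⟩ := H.WLam_dim
  exact ⟨c, fun k a b hk hab => (H.cart _ (hc k a b hk hab).1).1⟩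

/-- **Sum property** for the lattices. -/
theorem Lam_sum : ∃ c : ℕ, ∀ k a a' b b', k < p → a' ≤ a → b' ≤ b → c ≤ a' + b' →
    FA_S18_E_Lam O (j : F) W k a b
      ≤ FA_S18_E_Lam O (j : F) W k a b' ⊔ FA_S18_E_Lam O (j : F) W k a' b := by
  obtain ⟨c1, hc1⟩ := H.Lbar2_sum
  obtain ⟨c2, hc2⟩ := H.lift2
  obtain ⟨c3, hc3⟩ := H.Lam_fg
  refine ⟨max (max c1 c2) c3, fun k a a' b b' hk ha hb hab => ?_⟩
  have h1 : c1 ≤ a' + b' := le_trans (le_trans (le_max_left _ _) (le_max_left _ _)) hab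
  have h2 : c2 ≤ a' + b' := le_trans (le_trans (le_max_right _ _) (le_max_left _ _)) hab
  have h3 : c3 ≤ a' + b' := le_trans (le_max_right _ _) hab
  apply Submodule.le_of_le_smul_of_le_jacobson_bot (I := maximalIdeal A)
    (hc3 k a b hk (by omega)) (maximalIdeal_le_jacobson _)
  intro y hy
  have hyO : y ∈ O := (FA_S18_E_mem_Lam.mp hy).2
  have hyW : y ∈ FA_S18_E_WLam (j : F) W k a b := (FA_S18_E_mem_ball.mp hy).1
  have hr : red ⟨y, hyO⟩ ∈ FA_S18_E_Lbar2 Bbf Bbi (red j) a b := H.into2 k a b ⟨y, hyO⟩ hyW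
  obtain ⟨x1, hx1, x2, hx2, hx12⟩ := Submodule.mem_sup.mp (hc1 a a' b b' ha hb h1 hr)
  obtain ⟨y1, hy1, hy1x⟩ := hc2 k a b' hk (by omega) x1 hx1
  obtain ⟨y2, hy2, hy2x⟩ := hc2 k a' b hk (by omega) x2 hx2
  have hmono1 := H.Lam_mono k (le_refl a) hb
  have hmono2 := H.Lam_mono k ha (le_refl b)
  have hd : ((⟨y, hyO⟩ - y1 - y2 : O) : F) ∈ FA_S18_E_Lam O (j : F) W k a b := by
    show y - (y1 : F) - (y2 : F) ∈ _
    exact Submodule.sub_mem _ (Submodule.sub_mem _ hy (hmono1 hy1)) (hmono2 hy2)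
  have hd0 : red (⟨y, hyO⟩ - y1 - y2 : O) = 0 := by
    rw [map_sub, map_sub, hy1x, hy2x, ← hx12]; ring
  obtain ⟨m, hm, y', hy', hyy'⟩ := H.Lam_ker k a b _ hd hd0
  have hy_eq : y = ((y1 : F) + (y2 : F)) + m • (y' : F) := by
    have := congrArg Subtype.val hyy'
    have e1 : ((⟨y, hyO⟩ - y1 - y2 : O) : F) = y - (y1 : F) - (y2 : F) := rfl
    have e2 : ((m • y' : O) : F) = m • (y' : F) := rfl
    rw [e1, e2] at this
    rw [← this]; ring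
  rw [hy_eq]
  exact Submodule.add_mem_sup
    (Submodule.add_mem_sup hy1 hy2)
    (Submodule.smul_mem_smul hm hy')


theorem mem_Lam1 (k : ℕ) (y : F) :
    y ∈ FA_S18_E_Lam1 O (j : F) W k ↔ ∃ b, y ∈ FA_S18_E_Lam O (j : F) W k 0 b :=
  Submodule.mem_iSup_of_directed _
    (Monotone.directed_le fun _ _ h => H.Lam_mono k le_rfl h)

theorem mem_Lam2 (k : ℕ) (y : F) :
    y ∈ FA_S18_E_Lam2 O (j : F) W k ↔ ∃ a, y ∈ FA_S18_E_Lam O (j : F) W k a 0 :=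
  Submodule.mem_iSup_of_directed _
    (Monotone.directed_le fun _ _ h => H.Lam_mono k h le_rfl)

theorem mem_Lam12 (k : ℕ) (y : F) :
    y ∈ FA_S18_E_Lam12 O (j : F) W k ↔ ∃ n, y ∈ FA_S18_E_Lam O (j : F) W k n n :=
  Submodule.mem_iSup_of_directed _
    (Monotone.directed_le fun _ _ h => H.Lam_mono k h h)

theorem mem_W1 (k : ℕ) (y : F) :
    y ∈ FA_S18_E_W1 (j : F) W k ↔ ∃ b, y ∈ FA_S18_E_WLam (j : F) W k 0 b :=
  Submodule.mem_iSup_of_directed _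
    (Monotone.directed_le fun _ _ h => H.WLam_mono k le_rfl h)

theorem mem_W2 (k : ℕ) (y : F) :
    y ∈ FA_S18_E_W2 (j : F) W k ↔ ∃ a, y ∈ FA_S18_E_WLam (j : F) W k a 0 :=
  Submodule.mem_iSup_of_directed _
    (Monotone.directed_le fun _ _ h => H.WLam_mono k h le_rfl)

theorem Lam1_le_Lam12 (k : ℕ) :
    FA_S18_E_Lam1 O (j : F) W k ≤ FA_S18_E_Lam12 O (j : F) W k := by
  intro y hy
  obtain ⟨b, hb⟩ := (H.mem_Lam1 k y).mp hy
  exact (H.mem_Lam12 k y).mpr ⟨b, H.Lam_mono k (Nat.zero_le b) le_rfl hb⟩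

theorem Lam2_le_Lam12 (k : ℕ) :
    FA_S18_E_Lam2 O (j : F) W k ≤ FA_S18_E_Lam12 O (j : F) W k := by
  intro y hy
  obtain ⟨a, ha⟩ := (H.mem_Lam2 k y).mp hy
  exact (H.mem_Lam12 k y).mpr ⟨a, H.Lam_mono k le_rfl (Nat.zero_le a) ha⟩

theorem Lam12_le_O (k : ℕ) (y : F) (hy : y ∈ FA_S18_E_Lam12 O (j : F) W k) : y ∈ O := by
  obtain ⟨n, hn⟩ := (H.mem_Lam12 k y).mp hy
  exact (FA_S18_E_mem_Lam.mp hn).2

/-- Multiplicativity of the twisted spaces. -/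
theorem WLam_mul {k k' a a' b b' : ℕ} {y y' : F}
    (hy : y ∈ FA_S18_E_WLam (j : F) W k a b) (hy' : y' ∈ FA_S18_E_WLam (j : F) W k' a' b') :
    y * y' ∈ FA_S18_E_WLam (j : F) W (k + k') (a + a') (b + b') := by
  rw [H.mem_WLam_iff] at hy hy' ⊢
  constructor
  · have : (y * y') ^ p * (f : F) ^ (k + k') * (j : F) ^ (p * (a + a'))
        = (y ^ p * (f : F) ^ k * (j : F) ^ (p * a)) * (y' ^ p * (f : F) ^ k' * (j : F) ^ (p * a')) := by
      rw [mul_add, pow_add, pow_add, mul_pow]; ring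
    rw [this]
    exact BfQ.mul_mem hy.1 hy'.1
  · have : (y * y') ^ p * (f : F) ^ (k + k') * ((j : F)⁻¹) ^ (p * (b + b'))
        = (y ^ p * (f : F) ^ k * ((j : F)⁻¹) ^ (p * b))
          * (y' ^ p * (f : F) ^ k' * ((j : F)⁻¹) ^ (p * b')) := by
      rw [mul_add, pow_add, pow_add, mul_pow]; ring
    rw [this]
    exact BiQ.mul_mem hy.2 hy'.2

/-- Multiplicativity of the twisted spaces, with wrap-around. -/
theorem WLam_mul_f {k k' a a' b b' : ℕ} (hkk : p ≤ k + k') {y y' : F}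
    (hy : y ∈ FA_S18_E_WLam (j : F) W k a b) (hy' : y' ∈ FA_S18_E_WLam (j : F) W k' a' b') :
    y * y' * (f : F) ∈ FA_S18_E_WLam (j : F) W (k + k' - p) (a + a') (b + b') := by
  have h := H.WLam_mul hy hy'
  rw [H.mem_WLam_iff] at h ⊢
  have e : (y * y' * (f : F)) ^ p * (f : F) ^ (k + k' - p) = (y * y') ^ p * (f : F) ^ (k + k') := by
    rw [mul_pow (y * y'), mul_assoc, ← pow_add, Nat.add_sub_cancel' hkk]
  rw [e]
  exact h

theorem one_mem_Lam : (1 : F) ∈ FA_S18_E_Lam O (j : F) W 0 0 0 := by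
  rw [FA_S18_E_Lam, FA_S18_E_mem_ball, H.mem_WLam_iff]
  simp only [one_pow, pow_zero, mul_one, Nat.mul_zero]
  exact ⟨⟨BfQ.one_mem, BiQ.one_mem⟩, O.one_mem⟩

/-- Multiplicativity of the lattices `Λ(a,b)`. -/
theorem Lam_mul_cases {k k' a a' b b' : ℕ} {y y' : F}
    (hy : y ∈ FA_S18_E_Lam O (j : F) W k a b) (hy' : y' ∈ FA_S18_E_Lam O (j : F) W k' a' b') :
    (k + k' < p → y * y' ∈ FA_S18_E_Lam O (j : F) W (k + k') (a + a') (b + b')) ∧
    (p ≤ k + k' → y * y' * (f : F) ∈ FA_S18_E_Lam O (j : F) W (k + k' - p) (a + a') (b + b')) := by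
  rw [FA_S18_E_Lam, FA_S18_E_mem_ball] at hy hy'
  constructor
  · intro _
    rw [FA_S18_E_Lam, FA_S18_E_mem_ball]
    exact ⟨H.WLam_mul hy.1 hy'.1, O.mul_mem hy.2 hy'.2⟩
  · intro hkk
    rw [FA_S18_E_Lam, FA_S18_E_mem_ball]
    exact ⟨H.WLam_mul_f hkk hy.1 hy'.1, O.mul_mem (O.mul_mem hy.2 hy'.2) f.2⟩

end FA_S18_E_Hyp

end FA_S18
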