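import Mathlib
import Fermat.Prelude.Def_FLTPrelim_Ramification

/-!
# S18: facts on the valuation ring `A ⊂ ℚ̄` over `ℓ` needed by the connectedness lemma

* `FA_S18_V_dvd_dir` : two elements of `𝔪` have a common divisor in `𝔪` (valuation ring);
* `FA_S18_V_rank` : rank one — for `m ∈ 𝔪` and `π ≠ 0` some power of `m` is divisible by `π`;
* `FA_S18_V_unit` : an integer prime to `ℓ` is a unit of `A`;
* `FA_S18_V_ell_mem`, `FA_S18_V_ell_ne` : `ℓ ∈ 𝔪`, `ℓ ≠ 0`.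
-/

set_option autoImplicit false

namespace FA_S18

open IsLocalRing

section general

variable {L : Type*} [Field L] (A : ValuationSubring L)

theorem FA_S18_V_dvd_dir (m₁ : A) (hm₁ : m₁ ∈ maximalIdeal A) (m₂ : A)
    (hm₂ : m₂ ∈ maximalIdeal A) : ∃ m ∈ maximalIdeal A, m ∣ m₁ ∧ m ∣ m₂ := by
  rcases ValuationRing.dvd_total m₁ m₂ with h | h
  · exact ⟨m₁, hm₁, dvd_rfl, h⟩
  · exact ⟨m₂, hm₂, h, dvd_rfl⟩

theorem FA_S18_V_ell_mem {ℓ : ℕ} (hA : A.LiesOverPrime ℓ) : ((ℓ : ℕ) : A) ∈ maximalIdeal A := by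
  obtain ⟨ha, h⟩ := (ValuationSubring.mem_nonunits_iff_exists_mem_maximalIdeal).1 hA
  have e : (⟨(ℓ : L), ha⟩ : A) = ((ℓ : ℕ) : A) := by
    apply Subtype.ext
    simp
  rw [e] at h
  exact h

theorem FA_S18_V_ell_ne [CharZero L] {ℓ : ℕ} (hℓ : ℓ ≠ 0) : ((ℓ : ℕ) : A) ≠ 0 := by
  intro h
  have := congrArg (Subtype.val) h
  simp only [ZeroMemClass.coe_zero] at this
  have h' : ((ℓ : ℕ) : L) = 0 := by simpa using this
  exact hℓ (Nat.cast_eq_zero.1 h')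

/-- An integer prime to `ℓ` is a unit of `A`. -/
theorem FA_S18_V_unit {ℓ : ℕ} (hℓ : ℓ.Prime) (hA : A.LiesOverPrime ℓ) (d : ℤ)
    (hd : ¬ (ℓ : ℤ) ∣ d) : IsUnit ((d : ℤ) : A) := by
  have hcop : IsCoprime d (ℓ : ℤ) := by
    have hp : Prime (ℓ : ℤ) := Nat.prime_iff_prime_int.1 hℓ
    exact ((Prime.coprime_iff_not_dvd hp).2 hd).symm
  obtain ⟨a, b, hab⟩ := hcop
  have hmem : ((b : ℤ) : A) * ((ℓ : ℕ) : A) ∈ maximalIdeal A :=
    Ideal.mul_mem_left _ _ (FA_S18_V_ell_mem A hA)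
  have h1 : IsUnit ((1 : A) - ((b : ℤ) : A) * ((ℓ : ℕ) : A)) :=
    IsLocalRing.isUnit_one_sub_self_of_mem_nonunits _ hmem
  have e : ((a : ℤ) : A) * ((d : ℤ) : A) = 1 - ((b : ℤ) : A) * ((ℓ : ℕ) : A) := by
    have := congrArg (fun z : ℤ => (z : A)) hab
    simp only [Int.cast_add, Int.cast_mul, Int.cast_one, Int.cast_natCast] at this
    rw [← this]; ring
  rw [← e] at h1
  exact isUnit_of_mul_isUnit_right h1

theorem FA_S18_V_unit_nat {ℓ : ℕ} (hℓ : ℓ.Prime) (hA : A.LiesOverPrime ℓ) (d : ℕ)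
    (hd : ¬ ℓ ∣ d) : ∃ dinv : A, dinv * ((d : ℕ) : A) = 1 := by
  have h := FA_S18_V_unit A hℓ hA (d : ℤ) (by exact_mod_cast hd)
  obtain ⟨u, hu⟩ := h
  refine ⟨((u⁻¹ : Aˣ) : A), ?_⟩
  have : ((d : ℕ) : A) = (u : A) := by rw [hu]; simp
  rw [this]
  exact Units.inv_mul u

end general


section algebraic

open Polynomial

variable {L : Type*} [Field L] [CharZero L] (A : ValuationSubring L)

omit [CharZero L] in
/-- every element of `A` is a root of a nonzero integer polynomial (evaluated in `A`) -/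
theorem FA_S18_V_int_poly (halg : ∀ x : L, IsAlgebraic ℤ x) (x : A) :
    ∃ P : ℤ[X], P ≠ 0 ∧ Polynomial.eval₂ (Int.castRingHom A) x P = 0 := by
  have h2 : IsAlgebraic ℤ (x : L) := halg _
  obtain ⟨P, hP, hPx⟩ := h2
  refine ⟨P, hP, ?_⟩
  apply Subtype.ext
  have : ((Polynomial.eval₂ (Int.castRingHom A) x P : A) : L)
      = Polynomial.eval₂ (Int.castRingHom L) (x : L) P := by
    have e1 := Polynomial.hom_eval₂ P (Int.castRingHom A) A.subtype x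
    have e2 : A.subtype.comp (Int.castRingHom A) = Int.castRingHom L := RingHom.ext_int _ _
    rw [e2] at e1
    exact e1
  rw [this]
  rw [Polynomial.aeval_def] at hPx
  simpa using hPx

omit [CharZero L] in
/-- every nonzero element of `A` divides a nonzero integer -/
theorem FA_S18_V_dvd_int (halg : ∀ x : L, IsAlgebraic ℤ x) (x : A) (hx : x ≠ 0) :
    ∃ d : ℤ, d ≠ 0 ∧ x ∣ ((d : ℤ) : A) := by
  have hxL : (x : L) ≠ 0 := fun h => hx (Subtype.ext h)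
  have h2 : IsAlgebraic ℤ ((x : L)⁻¹) := halg _
  obtain ⟨d, hd, hint⟩ := h2.exists_integral_multiple
  refine ⟨d, hd, ?_⟩
  have hmem : d • (x : L)⁻¹ ∈ A := by
    have : IsIntegral A (d • (x : L)⁻¹) := hint.tower_top
    have h3 := (IsIntegrallyClosed.isIntegral_iff (R := A) (K := L)).1 this
    obtain ⟨y, hy⟩ := h3
    rw [← hy]
    exact y.2
  refine ⟨⟨_, hmem⟩, ?_⟩
  apply Subtype.ext
  simp only [MulMemClass.coe_mul]
  rw [zsmul_eq_mul]
  field_simp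
  simp

/-- `ℓ` divides a power of every element of `𝔪` -/
theorem FA_S18_V_ell_dvd_pow (halg : ∀ x : L, IsAlgebraic ℤ x)
    {ℓ : ℕ} (hℓ : ℓ.Prime) (hA : A.LiesOverPrime ℓ) (m : A)
    (hm : m ∈ maximalIdeal A) : ∃ n : ℕ, ((ℓ : ℕ) : A) ∣ m ^ n := by
  by_cases hm0 : m = 0
  · exact ⟨1, by rw [hm0]; simp⟩
  by_contra hcon
  push Not at hcon
  have hdvd : ∀ n : ℕ, m ^ n ∣ ((ℓ : ℕ) : A) := fun n =>
    (ValuationRing.dvd_total (m ^ n) ((ℓ : ℕ) : A)).resolve_right (hcon n)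
  obtain ⟨P₀, hP₀, hP₀x⟩ := FA_S18_V_int_poly A halg m
  have hinj : Function.Injective (Int.castRingHom A) := by
    intro a b hab
    have := congrArg (fun z : A => (z : L)) hab
    simpa using this
  have hP : Polynomial.eval₂ (Int.castRingHom A) m P₀.primPart = 0 :=
    Polynomial.eval₂_primPart_eq_zero hinj hP₀ hP₀x
  set P := P₀.primPart with hPdef
  have hprim : P.IsPrimitive := Polynomial.isPrimitive_primPart P₀
  have hex : ∃ i, ¬ (ℓ : ℤ) ∣ P.coeff i := by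
    by_contra h
    push Not at h
    have := (Polynomial.isPrimitive_iff_isUnit_of_C_dvd.1 hprim) (ℓ : ℤ)
      ((Polynomial.C_dvd_iff_dvd_coeff _ _).2 h)
    have h1 := Int.isUnit_iff.1 this
    have h2 := hℓ.one_lt
    omega
  classical
  set i₀ := Nat.find hex with hi₀
  have hi₀spec : ¬ (ℓ : ℤ) ∣ P.coeff i₀ := Nat.find_spec hex
  have hi₀min : ∀ i < i₀, (ℓ : ℤ) ∣ P.coeff i := fun i hi => by
    by_contra h
    exact Nat.find_min hex hi h
  have hi₀le : i₀ ≤ P.natDegree := by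
    by_contra h
    push Not at h
    exact hi₀spec (by rw [Polynomial.coeff_eq_zero_of_natDegree_lt h]; exact dvd_zero _)
  rw [Polynomial.eval₂_eq_sum_range] at hP
  have hsplit := Finset.add_sum_erase (Finset.range (P.natDegree + 1))
    (fun i => (Int.castRingHom A) (P.coeff i) * m ^ i) (Finset.mem_range.2 (by omega : i₀ < P.natDegree + 1))
  rw [hP] at hsplit
  have hrest : m ^ (i₀ + 1) ∣ ∑ i ∈ (Finset.range (P.natDegree + 1)).erase i₀,
      (Int.castRingHom A) (P.coeff i) * m ^ i := by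
    refine Finset.dvd_sum fun i hi => ?_
    have hne : i ≠ i₀ := (Finset.mem_erase.1 hi).1
    rcases lt_or_gt_of_ne hne with h | h
    · obtain ⟨c, hc⟩ := hi₀min i h
      have : (Int.castRingHom A) (P.coeff i) = ((ℓ : ℕ) : A) * ((c : ℤ) : A) := by
        rw [hc]; simp
      rw [this]
      exact Dvd.dvd.mul_right (Dvd.dvd.mul_right (hdvd _) _) _
    · exact Dvd.dvd.mul_left (pow_dvd_pow m (by omega)) _
  have hmain : m ^ (i₀ + 1) ∣ (Int.castRingHom A) (P.coeff i₀) * m ^ i₀ := by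
    have e : (Int.castRingHom A) (P.coeff i₀) * m ^ i₀
        = - ∑ i ∈ (Finset.range (P.natDegree + 1)).erase i₀,
          (Int.castRingHom A) (P.coeff i) * m ^ i := by
      rw [eq_neg_iff_add_eq_zero]
      exact hsplit
    rw [e]
    exact (dvd_neg).2 hrest
  rw [pow_succ, mul_comm (m ^ i₀) m] at hmain
  have hdiv : m ∣ (Int.castRingHom A) (P.coeff i₀) :=
    (mul_dvd_mul_iff_right (pow_ne_zero i₀ hm0)).1 hmain
  have hmem : (Int.castRingHom A) (P.coeff i₀) ∈ maximalIdeal A := by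
    obtain ⟨c, hc⟩ := hdiv
    rw [hc]
    exact Ideal.mul_mem_right _ _ hm
  have hunit := FA_S18_V_unit A hℓ hA (P.coeff i₀) hi₀spec
  exact (IsLocalRing.mem_maximalIdeal _).1 hmem (by simpa using hunit)

/-- **Rank one.**  For `m ∈ 𝔪` and `π ≠ 0` some power of `m` is divisible by `π`. -/
theorem FA_S18_V_rank (halg : ∀ x : L, IsAlgebraic ℤ x)
    {ℓ : ℕ} (hℓ : ℓ.Prime) (hA : A.LiesOverPrime ℓ) (m : A)
    (hm : m ∈ maximalIdeal A) (π : A) (hπ : π ≠ 0) : ∃ n : ℕ, π ∣ m ^ n := by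
  obtain ⟨d, hd, hπd⟩ := FA_S18_V_dvd_int A halg π hπ
  obtain ⟨n, hn⟩ := FA_S18_V_ell_dvd_pow A halg hℓ hA m hm
  -- d = ± ℓ^e d' with d' prime to ℓ
  obtain ⟨e, d', hd', hdd'⟩ := Nat.exists_eq_pow_mul_and_not_dvd (Int.natAbs_ne_zero.2 hd) ℓ
    hℓ.ne_one
  have hunit : IsUnit ((d' : ℤ) : A) :=
    FA_S18_V_unit A hℓ hA (d' : ℤ) (by exact_mod_cast hd')
  have h1 : ((d : ℤ) : A) ∣ ((ℓ : ℕ) : A) ^ e * ((d' : ℤ) : A) := by
    have : (d : ℤ) ∣ ((ℓ ^ e * d' : ℕ) : ℤ) := by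
      rw [← hdd']
      exact Int.dvd_natAbs.2 dvd_rfl
    obtain ⟨c, hc⟩ := this
    refine ⟨((c : ℤ) : A), ?_⟩
    have := congrArg (fun z : ℤ => (z : A)) hc
    simp only [Nat.cast_mul, Nat.cast_pow, Int.cast_mul, Int.cast_pow, Int.cast_natCast] at this
    simpa using this
  have h2 : π ∣ ((ℓ : ℕ) : A) ^ e := by
    have := hπd.trans h1
    exact (IsUnit.dvd_mul_right hunit).1 this
  refine ⟨n * e, h2.trans ?_⟩
  rw [pow_mul]
  exact pow_dvd_pow_of_dvd hn e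

end algebraic


theorem FA_S18_V_halg (x : AlgebraicClosure ℚ) : IsAlgebraic ℤ x :=
  (IsFractionRing.isAlgebraic_iff ℤ ℚ (AlgebraicClosure ℚ)).2
    ((AlgebraicClosure.isAlgebraic ℚ).isAlgebraic x)

/-- All the hypotheses on `A` of `FA_S18_conn_inst_red`, for a valuation subring of `ℚ̄` over `ℓ`
and a natural number `p` prime to `ℓ`. -/
theorem FA_S18_V_all (A : ValuationSubring (AlgebraicClosure ℚ)) {ℓ : ℕ} (hℓ : ℓ.Prime)
    (hA : A.LiesOverPrime ℓ) (p : ℕ) (hp : ¬ ℓ ∣ p) :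
    (∀ m₁ ∈ maximalIdeal A, ∀ m₂ ∈ maximalIdeal A, ∃ m ∈ maximalIdeal A, m ∣ m₁ ∧ m ∣ m₂) ∧
    (∀ m ∈ maximalIdeal A, ∀ π : A, π ≠ 0 → ∃ n : ℕ, π ∣ m ^ n) ∧
    (((ℓ : ℕ) : A) ∈ maximalIdeal A ∧ ((ℓ : ℕ) : A) ≠ 0) ∧
    (∀ a b : A, a ≠ 0 → b ≠ 0 → a * b ≠ 0) ∧
    (∃ pinv : A, pinv * ((p : ℕ) : A) = 1) :=
  ⟨FA_S18_V_dvd_dir A, FA_S18_V_rank A FA_S18_V_halg hℓ hA,
    ⟨FA_S18_V_ell_mem A hA, FA_S18_V_ell_ne A hℓ.ne_zero⟩,
    fun _ _ ha hb => mul_ne_zero ha hb, FA_S18_V_unit_nat A hℓ hA p hp⟩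

end FA_S18
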