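import Fermat.Agent.S18.InstDefs
import Fermat.Agent.S18.Charts0Dim
import Fermat.Agent.S18.LiftAbs2
import Fermat.Agent.S18.ValA

/-!
# S18, leaf I (B-glue): the fields of `FA_S18_E_Hyp` / `FA_S18_E_Hyp2` for the concrete objects

Concrete objects of `S18/InstDefs.lean` (`O`, `red`, `res`, `j`, `jinv`, `redAlg`), charts of
`S18/Charts0Inst.lean` (`Bf`, `Bi`, `Bm`), twisted spaces of `S18/Charts0Dim.lean`.  The targets of
leaf B (`FA_S18_Target_B_*`, `S18/GaussDefs.lean`) and of leaf N (`FA_S18_I_Target_N_*`, below) are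
HYPOTHESES.

* `FA_S18_I_hyp`  : the bundle `FA_S18_E_Hyp`  from `Target_B_ker`, `Target_B_cart`, `Target_N_*`.
* `FA_S18_I_hyp2` : the bundle `FA_S18_E_Hyp2` from `Target_B_scale`.
-/

set_option autoImplicit false
set_option linter.unusedSectionVars false

noncomputable section

namespace Fermat.Agent.S18

open ModularCurve IsLocalRing FA_S18 AlgebraicCurve

variable (A : ValuationSubring (AlgebraicClosure ℚ)) (n : ℕ) [NeZero n]

/-! ### Coercions -/

theorem FA_S18_I_coe_smul (c : AlgebraicClosure ℚ) (y : ↥(modularFunctionFieldBar n)) :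
    ((c • y : ↥(modularFunctionFieldBar n)) : LaurentSeries (AlgebraicClosure ℚ))
      = algebraMap (AlgebraicClosure ℚ) (LaurentSeries (AlgebraicClosure ℚ)) c
        * (y : LaurentSeries (AlgebraicClosure ℚ)) := by
  rw [Algebra.smul_def]
  rfl

theorem FA_S18_I_coe_smulA (a : ↥A) (y : ↥(modularFunctionFieldBar n)) :
    ((a • y : ↥(modularFunctionFieldBar n)) : LaurentSeries (AlgebraicClosure ℚ))
      = algebraMap (AlgebraicClosure ℚ) (LaurentSeries (AlgebraicClosure ℚ))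
          (a : AlgebraicClosure ℚ) * (y : LaurentSeries (AlgebraicClosure ℚ)) :=
  FA_S18_I_coe_smul n (a : AlgebraicClosure ℚ) y

theorem FA_S18_I_smulA_eq (a : ↥A) (y : ↥(modularFunctionFieldBar n)) :
    a • y = (a : AlgebraicClosure ℚ) • y := rfl

theorem FA_S18_I_coe_sum {ι : Type*} (s : Finset ι) (f : ι → ↥(modularFunctionFieldBar n)) :
    ((∑ i ∈ s, f i : ↥(modularFunctionFieldBar n)) : LaurentSeries (AlgebraicClosure ℚ))
      = ∑ i ∈ s, (f i : LaurentSeries (AlgebraicClosure ℚ)) :=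
  map_sum (modularFunctionFieldBar n).val f s

theorem FA_S18_I_coe_sum_bar {ι : Type*} (s : Finset ι)
    (f : ι → ↥(modularFunctionFieldFullC (IsLocalRing.ResidueField ↥A) n)) :
    ((∑ i ∈ s, f i : ↥(modularFunctionFieldFullC (IsLocalRing.ResidueField ↥A) n)) :
        LaurentSeries (IsLocalRing.ResidueField ↥A))
      = ∑ i ∈ s, (f i : LaurentSeries (IsLocalRing.ResidueField ↥A)) :=
  map_sum (modularFunctionFieldFullC (IsLocalRing.ResidueField ↥A) n).val f s

theorem FA_S18_I_coe_smul_bar (c : IsLocalRing.ResidueField ↥A)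
    (y : ↥(modularFunctionFieldFullC (IsLocalRing.ResidueField ↥A) n)) :
    ((c • y : ↥(modularFunctionFieldFullC (IsLocalRing.ResidueField ↥A) n)) :
        LaurentSeries (IsLocalRing.ResidueField ↥A))
      = algebraMap (IsLocalRing.ResidueField ↥A) (LaurentSeries (IsLocalRing.ResidueField ↥A)) c
        * (y : LaurentSeries (IsLocalRing.ResidueField ↥A)) := by
  rw [Algebra.smul_def]
  rfl

/-! ### The easy fields -/

theorem FA_S18_I_range_of_target {ℓ : ℕ} (hℓ : ℓ.Prime) (hA : A.LiesOverPrime ℓ) (hn : ¬ ℓ ∣ n)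
    (hrange : FA_S18_Target_B_range A n ℓ) : FA_S18_I_Range A n :=
  (hrange hℓ hA hn).1

theorem FA_S18_I_res_surj : Function.Surjective (FA_S18_I_res A) :=
  IsLocalRing.residue_surjective

theorem FA_S18_I_res_max : ∀ m ∈ maximalIdeal ↥A, FA_S18_I_res A m = 0 :=
  fun m hm => (IsLocalRing.residue_eq_zero_iff m).mpr hm

theorem FA_S18_I_j_ne : ((FA_S18_I_j A n : ↥(FA_S18_I_O A n)) : ↥(modularFunctionFieldBar n)) ≠ 0 :=
  FA_S18_H2_jbar_ne_zero n

theorem FA_S18_I_jinv_eq :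
    ((FA_S18_I_jinv A n : ↥(FA_S18_I_O A n)) : ↥(modularFunctionFieldBar n))
      = ((FA_S18_I_j A n : ↥(FA_S18_I_O A n)) : ↥(modularFunctionFieldBar n))⁻¹ := rfl

theorem FA_S18_I_j_mul_jinv : FA_S18_I_j A n * FA_S18_I_jinv A n = 1 := by
  apply Subtype.ext
  show (FA_S18_A_jbar n) * (FA_S18_A_jbar n)⁻¹ = 1
  exact mul_inv_cancel₀ (FA_S18_H2_jbar_ne_zero n)

theorem FA_S18_I_red_jinv (h : FA_S18_I_Range A n) :
    FA_S18_I_red A n h (FA_S18_I_jinv A n) = (FA_S18_I_red A n h (FA_S18_I_j A n))⁻¹ := by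
  apply eq_inv_of_mul_eq_one_right
  rw [← map_mul, FA_S18_I_j_mul_jinv, map_one]

/-- `red j = j̄` (the series `jqModC kk`). -/
theorem FA_S18_I_red_j_coe (h : FA_S18_I_Range A n) :
    ((FA_S18_I_red A n h (FA_S18_I_j A n) :
        ↥(modularFunctionFieldFullC (IsLocalRing.ResidueField ↥A) n)) :
        LaurentSeries (IsLocalRing.ResidueField ↥A))
      = jqModC (IsLocalRing.ResidueField ↥A) :=
  FA_S18_I_jbar_red A n

theorem FA_S18_I_jb_fin (h : FA_S18_I_Range A n) :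
    FA_S18_I_red A n h (FA_S18_I_j A n) ∈ FA_S18_I_redAlg A n h (FA_S18_H2_Bf n) :=
  ⟨FA_S18_I_j A n, FA_S18_H2_j_mem_Bf n, rfl⟩

theorem FA_S18_I_jbinv_inf (h : FA_S18_I_Range A n) :
    (FA_S18_I_red A n h (FA_S18_I_j A n))⁻¹ ∈ FA_S18_I_redAlg A n h (FA_S18_H2_Bi n) :=
  ⟨FA_S18_I_jinv A n, FA_S18_H2_jinv_mem_Bi n, FA_S18_I_red_jinv A n h⟩

/-! ### `ker` from `FA_S18_Target_B_ker` -/

theorem FA_S18_I_ker {ℓ : ℕ} (hℓ : ℓ.Prime) (hA : A.LiesOverPrime ℓ) (hn : ¬ ℓ ∣ n)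
    (h : FA_S18_I_Range A n) (hker : FA_S18_Target_B_ker A n ℓ)
    (y : ↥(FA_S18_I_O A n)) (hy : FA_S18_I_red A n h y = 0) :
    ∃ m ∈ maximalIdeal ↥A, ∃ y' : ↥(FA_S18_I_O A n), y = m • y' := by
  by_cases hy0 : y = 0
  · exact ⟨0, Ideal.zero_mem _, 0, by rw [hy0, smul_zero]⟩
  · have hyL : ((y : ↥(modularFunctionFieldBar n)) : LaurentSeries (AlgebraicClosure ℚ)) ≠ 0 := by
      intro h0
      apply hy0
      apply Subtype.ext
      apply Subtype.ext
      exact h0
    have hred : FA_S18_B_red A (FA_S18_pi A)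
        ((y : ↥(modularFunctionFieldBar n)) : LaurentSeries (AlgebraicClosure ℚ)) = 0 := by
      have := congrArg Subtype.val hy
      exact this
    obtain ⟨m, hm, hm0, hint, -⟩ := hker hℓ hA hn _ (y : ↥(modularFunctionFieldBar n)).2 hyL
      y.2 hred
    have hmK : (m : AlgebraicClosure ℚ) ≠ 0 := fun h0 => hm0 (Subtype.ext h0)
    refine ⟨m, hm, ⟨(m : AlgebraicClosure ℚ)⁻¹ • (y : ↥(modularFunctionFieldBar n)), ?_⟩, ?_⟩
    · refine (FA_S18_I_mem_O A n).mpr ?_
      rw [FA_S18_I_coe_smul]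
      exact hint
    · apply Subtype.ext
      show (y : ↥(modularFunctionFieldBar n))
        = m • ((m : AlgebraicClosure ℚ)⁻¹ • (y : ↥(modularFunctionFieldBar n)))
      rw [FA_S18_I_smulA_eq, smul_smul, mul_inv_cancel₀ hmK, one_smul]

/-! ### `cart` from `FA_S18_Target_B_cart` -/

theorem FA_S18_I_cart {ℓ : ℕ} (hℓ : ℓ.Prime) (hA : A.LiesOverPrime ℓ) (hn : ¬ ℓ ∣ n)
    (h : FA_S18_I_Range A n) (hcart : FA_S18_Target_B_cart A n ℓ)
    (V : Submodule (AlgebraicClosure ℚ) ↥(modularFunctionFieldBar n))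
    (hV : FiniteDimensional (AlgebraicClosure ℚ) V) :
    (FA_S18_E_ball (FA_S18_I_O A n) V).FG ∧
      Module.finrank (IsLocalRing.ResidueField ↥A)
        (FA_S18_E_redImage (kk := IsLocalRing.ResidueField ↥A) (FA_S18_I_O A n)
          (FA_S18_I_red A n h) (FA_S18_E_ball (FA_S18_I_O A n) V))
        = Module.finrank (AlgebraicClosure ℚ) V := by
  classical
  obtain ⟨b, hbV, hli, hint, hredli, hcoef⟩ := hcart hℓ hA hn V hV
  -- `b` spans `V`
  have hspan : Submodule.span (AlgebraicClosure ℚ) (Set.range b) = V := by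
    apply Submodule.eq_of_le_of_finrank_eq
    · rw [Submodule.span_le]
      rintro _ ⟨i, rfl⟩
      exact hbV i
    · rw [finrank_span_eq_card hli, Fintype.card_fin]
  -- the elements of the ball are `A`-combinations of `b`
  have hball : ∀ y ∈ FA_S18_E_ball (FA_S18_I_O A n) V,
      ∃ a : Fin (Module.finrank (AlgebraicClosure ℚ) V) → ↥A, y = ∑ i, a i • b i := by
    intro y hy
    obtain ⟨hyV, hyO⟩ := FA_S18_E_mem_ball.mp hy
    rw [← hspan] at hyV
    obtain ⟨c, rfl⟩ := (Submodule.mem_span_range_iff_exists_fun (AlgebraicClosure ℚ)).mp hyV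
    have hc := hcoef c (by
      have h1 : FA_S18_B_IsInt A (FA_S18_pi A)
          ((∑ i, c i • b i : ↥(modularFunctionFieldBar n)) :
            LaurentSeries (AlgebraicClosure ℚ)) := hyO
      rw [FA_S18_I_coe_sum] at h1
      simp only [FA_S18_I_coe_smul] at h1
      exact h1)
    exact ⟨fun i => ⟨c i, hc i⟩, rfl⟩
  -- elements of `O`
  let bO : Fin (Module.finrank (AlgebraicClosure ℚ) V) → ↥(FA_S18_I_O A n) :=
    fun i => ⟨b i, hint i⟩
  let bb : Fin (Module.finrank (AlgebraicClosure ℚ) V) →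
      ↥(modularFunctionFieldFullC (IsLocalRing.ResidueField ↥A) n) :=
    fun i => FA_S18_I_red A n h (bO i)
  have hbball : ∀ i, b i ∈ FA_S18_E_ball (FA_S18_I_O A n) V :=
    fun i => FA_S18_E_mem_ball.mpr ⟨hbV i, hint i⟩
  constructor
  · -- finite generation
    have heq : FA_S18_E_ball (FA_S18_I_O A n) V = Submodule.span ↥A (Set.range b) := by
      apply le_antisymm
      · intro y hy
        obtain ⟨a, rfl⟩ := hball y hy
        exact Submodule.sum_mem _ fun i _ =>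
          Submodule.smul_mem _ _ (Submodule.subset_span ⟨i, rfl⟩)
      · rw [Submodule.span_le]
        rintro _ ⟨i, rfl⟩
        exact hbball i
    rw [heq]
    exact Submodule.fg_span (Set.finite_range b)
  · -- the reductions of the `b i` are a basis of the image
    have hbbli : LinearIndependent (IsLocalRing.ResidueField ↥A) bb := by
      rw [Fintype.linearIndependent_iff]
      intro g hg
      apply hredli g
      have h1 := congrArg Subtype.val hg
      rw [FA_S18_I_coe_sum_bar] at h1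
      simp only [FA_S18_I_coe_smul_bar] at h1
      exact h1
    have himg : FA_S18_E_redImage (kk := IsLocalRing.ResidueField ↥A) (FA_S18_I_O A n)
        (FA_S18_I_red A n h) (FA_S18_E_ball (FA_S18_I_O A n) V)
        = Submodule.span (IsLocalRing.ResidueField ↥A) (Set.range bb) := by
      apply le_antisymm
      · apply Submodule.span_le.mpr
        rintro x ⟨y, hy, rfl⟩
        obtain ⟨a, ha⟩ := hball _ hy
        have hyO : y = ∑ i, a i • bO i := by
          apply Subtype.ext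
          rw [ha]
          symm
          exact map_sum (FA_S18_I_O A n).val (fun i => a i • bO i) Finset.univ
        rw [hyO, map_sum]
        refine Submodule.sum_mem _ fun i _ => ?_
        rw [FA_S18_E_red_smul (FA_S18_I_O A n) (FA_S18_I_red A n h) (FA_S18_I_res A)
          (FA_S18_I_compat A n h), ← Algebra.smul_def]
        exact Submodule.smul_mem _ _ (Submodule.subset_span ⟨i, rfl⟩)
      · rw [Submodule.span_le]
        rintro _ ⟨i, rfl⟩
        exact Submodule.subset_span ⟨bO i, hbball i, rfl⟩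
    rw [himg, finrank_span_eq_card hbbli, Fintype.card_fin]

/-! ### The fields of the second bundle -/

theorem FA_S18_I_scale {ℓ : ℕ} (hℓ : ℓ.Prime) (hA : A.LiesOverPrime ℓ) (hn : ¬ ℓ ∣ n)
    (hscale : FA_S18_Target_B_scale A n ℓ) (y : ↥(modularFunctionFieldBar n)) :
    ∃ π : ↥A, π ≠ 0 ∧ π • y ∈ FA_S18_I_O A n := by
  by_cases hy0 : y = 0
  · exact ⟨1, one_ne_zero, by rw [hy0, smul_zero]; exact (FA_S18_I_O A n).zero_mem⟩
  · have hyL : (y : LaurentSeries (AlgebraicClosure ℚ)) ≠ 0 := fun h0 => hy0 (Subtype.ext h0)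
    obtain ⟨c, hc0, hint, -⟩ := hscale hℓ hA hn _ y.2 hyL
    by_cases hcA : c ∈ A
    · refine ⟨⟨c, hcA⟩, fun h0 => hc0 (congrArg Subtype.val h0), ?_⟩
      refine (FA_S18_I_mem_O A n).mpr ?_
      rw [FA_S18_I_coe_smulA]
      exact hint
    · have hci : c⁻¹ ∈ A := (A.mem_or_inv_mem c).resolve_left hcA
      refine ⟨1, one_ne_zero, ?_⟩
      rw [one_smul]
      show FA_S18_B_IsInt A (FA_S18_pi A) (y : LaurentSeries (AlgebraicClosure ℚ))
      have h1 := FA_S18_B_isInt_const_mul (π := FA_S18_pi A) (⟨c⁻¹, hci⟩ : ↥A) hint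
      have h2 : algebraMap (AlgebraicClosure ℚ) (LaurentSeries (AlgebraicClosure ℚ))
          ((⟨c⁻¹, hci⟩ : ↥A) : AlgebraicClosure ℚ)
          * (algebraMap (AlgebraicClosure ℚ) (LaurentSeries (AlgebraicClosure ℚ)) c
            * (y : LaurentSeries (AlgebraicClosure ℚ)))
          = (y : LaurentSeries (AlgebraicClosure ℚ)) := by
        rw [← mul_assoc, ← map_mul]
        show algebraMap (AlgebraicClosure ℚ) (LaurentSeries (AlgebraicClosure ℚ)) (c⁻¹ * c) * _ = _
        rw [inv_mul_cancel₀ hc0, map_one, one_mul]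
      rw [h2] at h1
      exact h1

theorem FA_S18_I_O_K (c : AlgebraicClosure ℚ)
    (hc : algebraMap (AlgebraicClosure ℚ) ↥(modularFunctionFieldBar n) c ∈ FA_S18_I_O A n) :
    ∃ a : ↥A, algebraMap ↥A (AlgebraicClosure ℚ) a = c := by
  have h1 : FA_S18_B_IsInt A (FA_S18_pi A)
      (algebraMap (AlgebraicClosure ℚ) (LaurentSeries (AlgebraicClosure ℚ)) c) := hc
  have h2 := FA_S18_B_mem_of_isInt_const (π := FA_S18_pi A)
    (fun a ha => (IsLocalRing.residue_eq_zero_iff a).mpr ha) h1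
  exact ⟨⟨c, h2⟩, rfl⟩

theorem FA_S18_I_Kclosed {p : ℕ} (hp : 0 < p) (x : ↥(modularFunctionFieldBar n))
    (c : AlgebraicClosure ℚ)
    (hx : x ^ p = algebraMap (AlgebraicClosure ℚ) ↥(modularFunctionFieldBar n) c) :
    ∃ c' : AlgebraicClosure ℚ,
      x = algebraMap (AlgebraicClosure ℚ) ↥(modularFunctionFieldBar n) c' := by
  have hint : IsIntegral (AlgebraicClosure ℚ) x := by
    refine ⟨Polynomial.X ^ p - Polynomial.C c, Polynomial.monic_X_pow_sub_C c hp.ne', ?_⟩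
    simp [hx]
  have hdeg := IsAlgClosed.degree_eq_one_of_irreducible (AlgebraicClosure ℚ)
    (minpoly.irreducible hint)
  obtain ⟨c', hc'⟩ := minpoly.mem_range_of_degree_eq_one (AlgebraicClosure ℚ) x hdeg
  exact ⟨c', hc'.symm⟩

/-! ### Targets of leaf N in concrete form -/

/-- **N (normality of the reduced charts)**: `red (Bf ∩ O)` and `red (Bi ∩ O)` are closed under
`p`-th roots in `F̄` (e.g. because they are integrally closed). -/
def FA_S18_I_Target_N_icl (h : FA_S18_I_Range A n) (p : ℕ) : Prop :=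
  (∀ x : ↥(modularFunctionFieldFullC (IsLocalRing.ResidueField ↥A) n),
      x ^ p ∈ FA_S18_I_redAlg A n h (FA_S18_H2_Bf n) → x ∈ FA_S18_I_redAlg A n h (FA_S18_H2_Bf n)) ∧
  (∀ x : ↥(modularFunctionFieldFullC (IsLocalRing.ResidueField ↥A) n),
      x ^ p ∈ FA_S18_I_redAlg A n h (FA_S18_H2_Bi n) → x ∈ FA_S18_I_redAlg A n h (FA_S18_H2_Bi n))

/-- **N3 (`H¹ = 0` integrally)**: the field `h1` of the bundle. -/
def FA_S18_I_Target_N_h1 : Prop :=
  ∃ c : ℕ, ∀ w : ↥(FA_S18_I_O A n), (w : ↥(modularFunctionFieldBar n)) ∈ FA_S18_H2_Bm n →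
    ∃ w1 w2 : ↥(FA_S18_I_O A n), (w1 : ↥(modularFunctionFieldBar n)) ∈ FA_S18_H2_Bf n ∧
      (w2 : ↥(modularFunctionFieldBar n)) ∈ FA_S18_H2_Bi n ∧
      (w : ↥(modularFunctionFieldBar n))
        = w1 + ((FA_S18_I_j A n : ↥(FA_S18_I_O A n)) : ↥(modularFunctionFieldBar n)) ^ c * w2

/-! ### The bundles -/

/-- **The first bundle** for the concrete objects, from the targets of leaves B and N. -/
theorem FA_S18_I_hyp {ℓ : ℕ} (hℓ : ℓ.Prime) (hA : A.LiesOverPrime ℓ) (hn : ¬ ℓ ∣ n)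
    (h : FA_S18_I_Range A n) (hker : FA_S18_Target_B_ker A n ℓ)
    (hcart : FA_S18_Target_B_cart A n ℓ)
    (p : ℕ) (hp : 0 < p) (f : ↥(FA_S18_I_O A n)) (hf : FA_S18_I_red A n h f = 1)
    (hdiv : ∀ v : Place (AlgebraicClosure ℚ) ↥(modularFunctionFieldBar n),
      (p : ℤ) ∣ v.ord (f : ↥(modularFunctionFieldBar n)))
    (hicl : FA_S18_I_Target_N_icl A n h p) (hh1 : FA_S18_I_Target_N_h1 A n) :
    FA_S18_E_Hyp (FA_S18_I_O A n) (FA_S18_I_red A n h) (FA_S18_I_res A)
      (FA_S18_I_j A n) (FA_S18_I_jinv A n) (FA_S18_H2_Bf n) (FA_S18_H2_Bi n) (FA_S18_H2_Bm n)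
      (FA_S18_I_redAlg A n h (FA_S18_H2_Bf n)) (FA_S18_I_redAlg A n h (FA_S18_H2_Bi n))
      p f (FA_S18_H2_W n p (f : ↥(modularFunctionFieldBar n))) (dedekindPsi n)
      (genusFF (AlgebraicClosure ℚ) ↥(modularFunctionFieldBar n)) := by
  have hf0 : (f : ↥(modularFunctionFieldBar n)) ≠ 0 := by
    intro h0
    have : f = 0 := Subtype.ext h0
    rw [this, map_zero] at hf
    exact zero_ne_one hf
  exact
  { res_surj := FA_S18_I_res_surj A
    res_max := FA_S18_I_res_max A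
    compat := FA_S18_I_compat A n h
    ker := FA_S18_I_ker A n hℓ hA hn h hker
    j_ne := FA_S18_I_j_ne A n
    jinv_eq := FA_S18_I_jinv_eq A n
    j_fin := FA_S18_H2_j_mem_Bf n
    jinv_inf := FA_S18_H2_jinv_mem_Bi n
    fin_le := FA_S18_H2_Bf_le_Bm n
    inf_le := FA_S18_H2_Bi_le_Bm n
    jb_fin := FA_S18_I_jb_fin A n h
    jbinv_inf := FA_S18_I_jbinv_inf A n h
    icl_fin := hicl.1
    icl_inf := hicl.2
    into_fin := fun y hy => ⟨y, hy, rfl⟩
    into_inf := fun y hy => ⟨y, hy, rfl⟩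
    onto_fin := fun x hx => hx
    onto_inf := fun x hx => hx
    h1 := hh1
    p_pos := hp
    f_red := hf
    W_mem := fun k m y => FA_S18_H2_W_mem hp hf0 hdiv k m y
    cart := FA_S18_I_cart A n hℓ hA hn h hcart
    dim := FA_S18_H2_W_dim hp hf0 hdiv
    psi_pos := FA_S18_H2_psi_pos n }

/-- **The second bundle** for the concrete objects, from `FA_S18_Target_B_scale`. -/
theorem FA_S18_I_hyp2 {ℓ : ℕ} (hℓ : ℓ.Prime) (hA : A.LiesOverPrime ℓ) (hn : ¬ ℓ ∣ n)
    (hscale : FA_S18_Target_B_scale A n ℓ) (p : ℕ) (hp : p.Prime) (hpℓ : p ≠ ℓ) :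
    FA_S18_E_Hyp2 (FA_S18_I_O A n) (FA_S18_H2_Bf n) (FA_S18_H2_Bi n) p := by
  have hndvd : ¬ ℓ ∣ p := fun hd => hpℓ ((Nat.prime_dvd_prime_iff_eq hℓ hp).mp hd).symm
  obtain ⟨hV, hrank, ⟨hℓm, hℓ0⟩, -, hpinv⟩ := FA_S18_V_all A hℓ hA p hndvd
  exact
  { p_prime := hp
    p_unit := hpinv
    hV := hV
    hrank := hrank
    m_ne := ⟨_, hℓm, hℓ0⟩
    scale := FA_S18_I_scale A n hℓ hA hn hscale
    consts := fun y h1 h2 => FA_S18_H2_Bf_inter_Bi n h1 h2
    Kclosed := fun x c hx => FA_S18_I_Kclosed n hp.pos x c hx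
    O_K := FA_S18_I_O_K A n }

end Fermat.Agent.S18
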