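import Fermat.Agent.S18.FinAbs
import Fermat.Agent.S18.InstB
import Fermat.Agent.S18.H1Glue

/-!
# S18, leaf N / FIN (instance, file FinH1): finite generation of `O ∩ Bf` over `A[j]` and `h1`

Concrete objects: `O = FA_S18_I_O A n`, `red = FA_S18_I_red A n h`, `j = FA_S18_I_j A n`,
charts `Bf`, `Bi`, `Bm` of `F_n`.

* `FA_S18_FIN_Lam A n b = {y ∈ O | y ∈ Bf ∧ y j⁻ᵇ ∈ Bi}` (an `A`-submodule of `O`);
* `FA_S18_FIN_Lam_cart` : `Λ(b)` is finitely generated and `ker red ∩ Λ(b) = 𝔪 Λ(b)`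
  (from `FA_S18_Target_B_cart`);
* `FA_S18_FIN_Target_AB A n h` : the ambient bound (AB) (leaf FIN, step 1);
* `FA_S18_FIN_fg` : (AB) + cart ⟹ `O ∩ Bf` is generated over `A[j]` by finitely many elements;
* `FA_S18_FIN_h1` : (AB) + cart ⟹ `FA_S18_I_Target_N_h1 A n`.
-/

set_option autoImplicit false
set_option linter.unusedSectionVars false
set_option linter.style.haveILetI false

noncomputable section

namespace Fermat.Agent.S18

open ModularCurve IsLocalRing FA_S18 AlgebraicCurve Polynomial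

variable (A : ValuationSubring (AlgebraicClosure ℚ)) (n : ℕ) [NeZero n]

/-- `Λ(b) = O ∩ Bf ∩ j^b Bi`, as an `A`-submodule of `O`. -/
def FA_S18_FIN_Lam (b : ℕ) : Submodule ↥A ↥(FA_S18_I_O A n) where
  carrier := {y | (y : ↥(modularFunctionFieldBar n)) ∈ FA_S18_H2_Bf n ∧
    (y : ↥(modularFunctionFieldBar n)) * ((FA_S18_A_jbar n)⁻¹) ^ b ∈ FA_S18_H2_Bi n}
  add_mem' := by
    rintro y y' ⟨h1, h2⟩ ⟨h1', h2'⟩
    refine ⟨Subalgebra.add_mem _ h1 h1', ?_⟩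
    show ((y : ↥(modularFunctionFieldBar n)) + (y' : ↥(modularFunctionFieldBar n))) * _ ∈ _
    rw [add_mul]
    exact Subalgebra.add_mem _ h2 h2'
  zero_mem' := by
    refine ⟨Subalgebra.zero_mem _, ?_⟩
    show (0 : ↥(modularFunctionFieldBar n)) * _ ∈ _
    rw [zero_mul]
    exact Subalgebra.zero_mem _
  smul_mem' := by
    rintro a y ⟨h1, h2⟩
    have e : ((a • y : ↥(FA_S18_I_O A n)) : ↥(modularFunctionFieldBar n))
        = (a : AlgebraicClosure ℚ) • (y : ↥(modularFunctionFieldBar n)) := rfl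
    refine ⟨?_, ?_⟩
    · show ((a • y : ↥(FA_S18_I_O A n)) : ↥(modularFunctionFieldBar n)) ∈ _
      rw [e]
      exact Subalgebra.smul_mem _ h1 _
    · show ((a • y : ↥(FA_S18_I_O A n)) : ↥(modularFunctionFieldBar n)) * _ ∈ _
      rw [e, smul_mul_assoc]
      exact Subalgebra.smul_mem _ h2 _

theorem FA_S18_FIN_mem_Lam (b : ℕ) (y : ↥(FA_S18_I_O A n)) :
    y ∈ FA_S18_FIN_Lam A n b ↔ (y : ↥(modularFunctionFieldBar n)) ∈ FA_S18_H2_Bf n ∧
      (y : ↥(modularFunctionFieldBar n)) * ((FA_S18_A_jbar n)⁻¹) ^ b ∈ FA_S18_H2_Bi n := Iff.rfl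

theorem FA_S18_FIN_Lam_mono (b : ℕ) : FA_S18_FIN_Lam A n b ≤ FA_S18_FIN_Lam A n (b + 1) := by
  rintro y ⟨h1, h2⟩
  refine ⟨h1, ?_⟩
  rw [pow_succ, ← mul_assoc]
  exact Subalgebra.mul_mem _ h2 (FA_S18_H2_jinv_mem_Bi n)

theorem FA_S18_FIN_Lam_jmul (b : ℕ) (y : ↥(FA_S18_I_O A n)) (hy : y ∈ FA_S18_FIN_Lam A n b) :
    FA_S18_I_j A n * y ∈ FA_S18_FIN_Lam A n (b + 1) := by
  obtain ⟨h1, h2⟩ := hy
  have hj0 := FA_S18_H2_jbar_ne_zero n
  refine ⟨?_, ?_⟩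
  · show FA_S18_A_jbar n * (y : ↥(modularFunctionFieldBar n)) ∈ _
    exact Subalgebra.mul_mem _ (FA_S18_H2_j_mem_Bf n) h1
  · show FA_S18_A_jbar n * (y : ↥(modularFunctionFieldBar n)) * _ ∈ _
    have e : FA_S18_A_jbar n * (y : ↥(modularFunctionFieldBar n))
        * ((FA_S18_A_jbar n)⁻¹) ^ (b + 1)
        = (y : ↥(modularFunctionFieldBar n)) * ((FA_S18_A_jbar n)⁻¹) ^ b := by
      rw [pow_succ]
      field_simp
    rw [e]
    exact h2

/-- Every element of `O ∩ Bf` lies in some `Λ(b)`. -/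
theorem FA_S18_FIN_Lam_exhaust (y : ↥(FA_S18_I_O A n))
    (hy : (y : ↥(modularFunctionFieldBar n)) ∈ FA_S18_H2_Bf n) :
    ∃ b, y ∈ FA_S18_FIN_Lam A n b := by
  obtain ⟨m, -, hm⟩ := FA_S18_H2_Bm_bound n (FA_S18_H2_Bf_le_Bm n hy)
  exact ⟨m, hy, hm⟩

/-- The space `W(b) = Bf ∩ j^b Bi` is finite-dimensional; `Λ(b) = W(b) ∩ O`. -/
theorem FA_S18_FIN_W (b : ℕ) :
    ∃ V : Submodule (AlgebraicClosure ℚ) ↥(modularFunctionFieldBar n),
      FiniteDimensional (AlgebraicClosure ℚ) V ∧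
      ∀ y : ↥(modularFunctionFieldBar n), y ∈ V ↔
        y ∈ FA_S18_H2_Bf n ∧ y * ((FA_S18_A_jbar n)⁻¹) ^ b ∈ FA_S18_H2_Bi n := by
  have hdiv : ∀ v : Place (AlgebraicClosure ℚ) ↥(modularFunctionFieldBar n),
      ((1 : ℕ) : ℤ) ∣ v.ord (1 : ↥(modularFunctionFieldBar n)) := fun v => by simp
  refine ⟨FA_S18_H2_W n 1 1 0 b,
    (FA_S18_H2_W_spec (n := n) (p := 1) (f := 1) one_pos one_ne_zero hdiv 0 b).2.1, ?_⟩
  intro y
  rw [FA_S18_H2_W_mem (n := n) (p := 1) (f := 1) one_pos one_ne_zero hdiv 0 b y]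
  simp only [pow_one, pow_zero, mul_one, one_mul]

/-- **fg + ker** for `Λ(b)` from the cartesian-lattice target of leaf B. -/
theorem FA_S18_FIN_Lam_cart {ℓ : ℕ} (hℓ : ℓ.Prime) (hA : A.LiesOverPrime ℓ) (hn : ¬ ℓ ∣ n)
    (h : FA_S18_I_Range A n) (hcart : FA_S18_Target_B_cart A n ℓ) (b : ℕ) :
    (FA_S18_FIN_Lam A n b).FG ∧
      ∀ y ∈ FA_S18_FIN_Lam A n b, FA_S18_I_red A n h y = 0 →
        y ∈ IsLocalRing.maximalIdeal ↥A • FA_S18_FIN_Lam A n b := by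
  classical
  obtain ⟨V, hV, hVmem⟩ := FA_S18_FIN_W n b
  obtain ⟨bb, hbV, hli, hint, hredli, hcoef⟩ := hcart hℓ hA hn V hV
  have hspan : Submodule.span (AlgebraicClosure ℚ) (Set.range bb) = V := by
    apply Submodule.eq_of_le_of_finrank_eq
    · rw [Submodule.span_le]
      rintro _ ⟨i, rfl⟩
      exact hbV i
    · rw [finrank_span_eq_card hli, Fintype.card_fin]
  let bO : Fin (Module.finrank (AlgebraicClosure ℚ) V) → ↥(FA_S18_I_O A n) :=
    fun i => ⟨bb i, hint i⟩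
  have hbO : ∀ i, bO i ∈ FA_S18_FIN_Lam A n b := fun i => (hVmem (bb i)).mp (hbV i)
  -- every element of `Λ(b)` is an `A`-combination of the `bO i`
  have hcomb : ∀ y ∈ FA_S18_FIN_Lam A n b,
      ∃ a : Fin (Module.finrank (AlgebraicClosure ℚ) V) → ↥A, y = ∑ i, a i • bO i := by
    intro y hy
    have hyV : (y : ↥(modularFunctionFieldBar n)) ∈ V := (hVmem _).mpr hy
    rw [← hspan] at hyV
    obtain ⟨c, hc⟩ := (Submodule.mem_span_range_iff_exists_fun (AlgebraicClosure ℚ)).mp hyV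
    have hcA := hcoef c (by
      have h1 : FA_S18_B_IsInt A (FA_S18_pi A)
          ((∑ i, c i • bb i : ↥(modularFunctionFieldBar n)) :
            LaurentSeries (AlgebraicClosure ℚ)) := by
        rw [hc]
        exact y.2
      rw [FA_S18_I_coe_sum] at h1
      simp only [FA_S18_I_coe_smul] at h1
      exact h1)
    refine ⟨fun i => ⟨c i, hcA i⟩, ?_⟩
    apply Subtype.ext
    rw [← hc]
    symm
    exact map_sum (FA_S18_I_O A n).val (fun i => (⟨c i, hcA i⟩ : ↥A) • bO i) Finset.univ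
  constructor
  · have heq : FA_S18_FIN_Lam A n b = Submodule.span ↥A (Set.range bO) := by
      apply le_antisymm
      · intro y hy
        obtain ⟨a, rfl⟩ := hcomb y hy
        exact Submodule.sum_mem _ fun i _ =>
          Submodule.smul_mem _ _ (Submodule.subset_span ⟨i, rfl⟩)
      · rw [Submodule.span_le]
        rintro _ ⟨i, rfl⟩
        exact hbO i
    rw [heq]
    exact Submodule.fg_span (Set.finite_range bO)
  · intro y hy hred
    obtain ⟨a, rfl⟩ := hcomb y hy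
    have hzero : ∀ i, FA_S18_I_res A (a i) = 0 := by
      apply hredli
      have h1 : (∑ i, algebraMap (IsLocalRing.ResidueField ↥A)
            ↥(modularFunctionFieldFullC (IsLocalRing.ResidueField ↥A) n) (FA_S18_I_res A (a i))
            * FA_S18_I_red A n h (bO i)) = 0 := by
        rw [← hred, map_sum]
        refine Finset.sum_congr rfl fun i _ => ?_
        rw [FA_S18_E_red_smul (FA_S18_I_O A n) (FA_S18_I_red A n h) (FA_S18_I_res A)
          (FA_S18_I_compat A n h)]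
      have h2 := congrArg Subtype.val h1
      rw [FA_S18_I_coe_sum_bar] at h2
      exact h2
    refine Submodule.sum_mem _ fun i _ => ?_
    exact Submodule.smul_mem_smul ((IsLocalRing.residue_eq_zero_iff (a i)).mp (hzero i)) (hbO i)

/-- **(AB)**: the ambient bound (leaf FIN, step 1). -/
def FA_S18_FIN_Target_AB (h : FA_S18_I_Range A n) : Prop :=
  ∃ (r : ℕ) (eb : Fin r → ↥(modularFunctionFieldFullC (IsLocalRing.ResidueField ↥A) n))
    (τ : ℕ), ∀ (b : ℕ) (y : ↥(FA_S18_I_O A n)),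
      (y : ↥(modularFunctionFieldBar n)) ∈ FA_S18_H2_Bf n →
      (y : ↥(modularFunctionFieldBar n)) * ((FA_S18_A_jbar n)⁻¹) ^ b ∈ FA_S18_H2_Bi n →
      ∃ c : Fin r → (IsLocalRing.ResidueField ↥A)[X], (∀ i, (c i).natDegree ≤ b + τ) ∧
        FA_S18_I_red A n h y
          = ∑ i, aeval (FA_S18_I_red A n h (FA_S18_I_j A n)) (c i) * eb i

/-- **FIN**: `O ∩ Bf` is generated over `A[j]` by finitely many elements (the hypothesis `fg` of
`FA_S18_H1_glue`). -/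
theorem FA_S18_FIN_fg {ℓ : ℕ} (hℓ : ℓ.Prime) (hA : A.LiesOverPrime ℓ) (hn : ¬ ℓ ∣ n)
    (h : FA_S18_I_Range A n) (hcart : FA_S18_Target_B_cart A n ℓ)
    (hAB : FA_S18_FIN_Target_AB A n h) :
    ∃ (r : ℕ) (e : Fin r → ↥(modularFunctionFieldBar n)),
      (∀ i, e i ∈ FA_S18_I_O A n ∧ e i ∈ FA_S18_H2_Bf n) ∧
      ∀ y ∈ FA_S18_I_O A n, y ∈ FA_S18_H2_Bf n →
        ∃ a : Fin r → (↥A)[X],
          y = ∑ i, aeval ((FA_S18_I_j A n : ↥(FA_S18_I_O A n)) : ↥(modularFunctionFieldBar n))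
            (a i) * e i := by
  obtain ⟨m, e, b₁, he, hgen⟩ := FA_S18_FIN_main (FA_S18_I_O A n) (FA_S18_I_red A n h)
    (FA_S18_I_compat A n h) (FA_S18_I_j A n) (FA_S18_FIN_Lam A n)
    (FA_S18_FIN_Lam_mono A n) (FA_S18_FIN_Lam_jmul A n)
    (fun b => (FA_S18_FIN_Lam_cart A n hℓ hA hn h hcart b).1)
    (fun b => (FA_S18_FIN_Lam_cart A n hℓ hA hn h hcart b).2)
    (by
      obtain ⟨r, eb, τ, hb⟩ := hAB
      exact ⟨r, eb, τ, fun b y hy => hb b y hy.1 hy.2⟩)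
  refine ⟨m, fun i => (e i : ↥(modularFunctionFieldBar n)), fun i => ⟨(e i).2, (he i).1⟩, ?_⟩
  intro y hyO hyB
  obtain ⟨b, hb⟩ := FA_S18_FIN_Lam_exhaust A n ⟨y, hyO⟩ hyB
  obtain ⟨a, ha⟩ := hgen b ⟨y, hyO⟩ hb
  refine ⟨a, ?_⟩
  have h1 := congrArg (fun z : ↥(FA_S18_I_O A n) => (z : ↥(modularFunctionFieldBar n))) ha
  simp only at h1
  rw [h1]
  have h2 : ((∑ i, aeval (FA_S18_I_j A n) (a i) * e i : ↥(FA_S18_I_O A n)) :
      ↥(modularFunctionFieldBar n))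
      = ∑ i, ((aeval (FA_S18_I_j A n) (a i) * e i : ↥(FA_S18_I_O A n)) :
        ↥(modularFunctionFieldBar n)) :=
    map_sum (FA_S18_I_O A n).val _ Finset.univ
  rw [h2]
  refine Finset.sum_congr rfl fun i _ => ?_
  show ((aeval (FA_S18_I_j A n) (a i) : ↥(FA_S18_I_O A n)) : ↥(modularFunctionFieldBar n))
      * (e i : ↥(modularFunctionFieldBar n)) = _
  congr 1
  exact (aeval_algHom_apply (FA_S18_I_O A n).val (FA_S18_I_j A n) (a i)).symm

/-- **N3 = `h1`** from the ambient bound and the cartesian lattices. -/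
theorem FA_S18_FIN_h1 {ℓ : ℕ} (hℓ : ℓ.Prime) (hA : A.LiesOverPrime ℓ) (hn : ¬ ℓ ∣ n)
    (h : FA_S18_I_Range A n) (hcart : FA_S18_Target_B_cart A n ℓ)
    (hAB : FA_S18_FIN_Target_AB A n h) : FA_S18_I_Target_N_h1 A n := by
  have hfg := FA_S18_FIN_fg A n hℓ hA hn h hcart hAB
  exact FA_S18_H1_glue (K := AlgebraicClosure ℚ) (FA_S18_I_O A n) (FA_S18_I_j A n)
    (FA_S18_I_jinv A n) (FA_S18_I_j_ne A n) (FA_S18_I_jinv_eq A n)
    (FA_S18_H2_Bf n) (FA_S18_H2_Bi n) (FA_S18_H2_Bm n)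
    (FA_S18_H2_j_mem_Bf n) (FA_S18_H2_jinv_mem_Bi n)
    (fun w hw => (FA_S18_H2_Bm_bound n hw).imp fun m hm => hm.1)
    hfg
    (fun y hy => (FA_S18_H2_Bm_bound n (FA_S18_H2_Bf_le_Bm n hy)).imp fun m hm => hm.2)

end Fermat.Agent.S18

end
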