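import Mathlib
import Fermat.Agent.S28.IndFin
import Fermat.Agent.S28.Phi

/-!
# S18, leaf N / SEP: in characteristic `ℓ`, `F̄_n` is separable over `k(j̄)` for `ℓ ∤ n`

`k` an algebraically closed field of characteristic `ℓ`.  From the modular equation of prime level
`r ≠ ℓ` with its `r + 1` distinct roots (S28, leaf PHI): `j(q^{m r})` is separable over every
intermediate field containing `j(q^m)`.  Hence every `j(q^d)`, `ℓ ∤ d`, is separable over
`κ = k(j)`, and so is every element of `modularFunctionFieldFullC k n` for `ℓ ∤ n`.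

* `FA_S18_SEP_step`  : `j(q^{m r})` is separable over `L ∋ j(q^m)`;
* `FA_S18_SEP_jd`    : `j(q^d)` is separable over `κ`;
* `FA_S18_SEP_mem`   : every element of `F̄_n` is separable over `κ`;
* `FA_S18_SEP_tower` : `E₂ / E₁` is separable for `κ ≤ E₁ ≤ E₂ ≤ F̄_n` (inclusion algebra);
* `FA_S18_SEP_level` : `F̄_n / F̄_M` is separable for `M ∣ n`.
-/

set_option autoImplicit false
set_option linter.unusedSectionVars false
set_option linter.style.haveILetI false

noncomputable section

namespace Fermat.Agent.S18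

open ModularCurve Polynomial Fermat.Agent.S28 IntermediateField

variable {k : Type} [Field k]

/-- The `p + 1` roots of the modular equation of level `p`. -/
def FA_S18_SEP_roots (ζ : k) (hζ : ζ ≠ 0) (p : ℕ) [NeZero p] :
    Option (Fin p) → LaurentSeries k
  | none => jqNModC k (p * p)
  | some b => FA_S28_root ζ hζ p b

theorem FA_S18_SEP_roots_injective (ζ : k) (hζ : ζ ≠ 0) (p : ℕ) [NeZero p] (hp : 2 ≤ p)
    (h : IsPrimitiveRoot ζ p) : Function.Injective (FA_S18_SEP_roots ζ hζ p) := by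
  rintro (_ | b) (_ | b') hbb
  · rfl
  · exact absurd hbb.symm (FA_S28_root_ne ζ hζ p hp b')
  · exact absurd hbb (FA_S28_root_ne ζ hζ p hp b)
  · exact congrArg some (FA_S28_root_injective ζ p h hζ hbb)

theorem FA_S18_SEP_prod (ζ : k) (hζ : ζ ≠ 0) (p : ℕ) [NeZero p] :
    (X - C (jqNModC k (p * p))) * ∏ b : Fin p, (X - C (FA_S28_root ζ hζ p b))
      = ∏ o : Option (Fin p), (X - C (FA_S18_SEP_roots ζ hζ p o)) := by
  rw [Fintype.prod_option]
  rfl

/-- `qExpand` on the specialised modular polynomial. -/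
theorem FA_S18_SEP_map_qExpand (e : ℕ) [NeZero e] (Φ : Polynomial (Polynomial k))
    (x : LaurentSeries k) :
    (Φ.map (Polynomial.aeval x).toRingHom).map (qExpand k e)
      = Φ.map (Polynomial.aeval (qExpand k e x)).toRingHom := by
  rw [Polynomial.map_map]
  congr 1
  apply Polynomial.ringHom_ext
  · intro c
    simp only [RingHom.coe_comp, Function.comp_apply, AlgHom.toRingHom_eq_coe,
      RingHom.coe_coe, aeval_C]
    exact FA_S28_qExpand_algebraMap e c
  · simp only [RingHom.coe_comp, Function.comp_apply, AlgHom.toRingHom_eq_coe,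
      RingHom.coe_coe, aeval_X]

/-- **Step**: `j(q^{m r})` is separable over every intermediate field containing `j(q^m)`. -/
theorem FA_S18_SEP_step (r : ℕ) [NeZero r] (hr : 2 ≤ r) (hPHI : FA_S28_Target_PHI r) (ζ : k)
    (hζr : IsPrimitiveRoot ζ r) (m : ℕ) [NeZero m]
    (L : IntermediateField k (LaurentSeries k)) (hL : FA_S28_jd k m ∈ L) :
    IsSeparable ↥L (FA_S28_jd k (m * r)) := by
  have hζ : ζ ≠ 0 := hζr.ne_zero (NeZero.ne r)
  obtain ⟨Φ, hmonic, -, hfac⟩ := hPHI k ζ hζr
  -- separability at level `r`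
  have hsep_r : (Φ.map (Polynomial.aeval (jqNModC k r)).toRingHom).Separable := by
    rw [hfac _ (FA_S28_root_isTwist ζ hζ r), FA_S18_SEP_prod]
    exact separable_prod_X_sub_C_iff.mpr (FA_S18_SEP_roots_injective ζ hζ r hr hζr)
  -- separability at level `1`
  have hsep_1 : (Φ.map (Polynomial.aeval (jqModC k)).toRingHom).Separable := by
    have h1 := FA_S18_SEP_map_qExpand r Φ (jqModC k)
    have e1 : qExpand k r (jqModC k) = jqNModC k r := rfl
    rw [e1] at h1
    rw [← h1] at hsep_r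
    exact (separable_map (qExpand k r)).mp hsep_r
  -- separability at level `m`
  have hsep_m : (Φ.map (Polynomial.aeval (FA_S28_jd k m)).toRingHom).Separable := by
    have h1 := FA_S18_SEP_map_qExpand m Φ (jqModC k)
    rw [FA_S28_qExpand_jq] at h1
    rw [← h1]
    exact (separable_map (qExpand k m)).mpr hsep_1
  -- the root
  have hroot_r : (Φ.map (Polynomial.aeval (jqNModC k r)).toRingHom).eval (jqNModC k (r * r))
      = 0 := by
    rw [hfac _ (FA_S28_root_isTwist ζ hζ r)]
    simp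
  have hroot_1 : (Φ.map (Polynomial.aeval (jqModC k)).toRingHom).eval (jqNModC k r) = 0 := by
    apply qExpand_injective (R := k) r
    rw [FA_S28_indFin_push, map_zero]
    have e1 : qExpand k r (jqModC k) = jqNModC k r := rfl
    have e2 : qExpand k r (jqNModC k r) = jqNModC k (r * r) := by
      rw [jqNModC, jqNModC, qExpand_qExpand]
    rw [e1, e2]
    exact hroot_r
  have hroot_m : (Φ.map (Polynomial.aeval (FA_S28_jd k m)).toRingHom).eval
      (FA_S28_jd k (m * r)) = 0 := by
    have h3 := congrArg (qExpand k m) hroot_1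
    rw [FA_S28_indFin_push, map_zero, FA_S28_qExpand_jq, ← FA_S28_jd_eq r, FA_S28_qExpand_jd]
      at h3
    exact h3
  -- descend the polynomial to `L`
  have hcomp : (algebraMap ↥L (LaurentSeries k)).comp
      (Polynomial.aeval (⟨FA_S28_jd k m, hL⟩ : ↥L)).toRingHom
      = (Polynomial.aeval (R := k) (A := LaurentSeries k) (FA_S28_jd k m)).toRingHom := by
    apply Polynomial.ringHom_ext
    · intro c
      simp only [RingHom.coe_comp, Function.comp_apply, AlgHom.toRingHom_eq_coe,
        RingHom.coe_coe, aeval_C]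
      rfl
    · simp only [RingHom.coe_comp, Function.comp_apply, AlgHom.toRingHom_eq_coe,
        RingHom.coe_coe, aeval_X]
      rfl
  have hPL : (Φ.map (Polynomial.aeval (⟨FA_S28_jd k m, hL⟩ : ↥L)).toRingHom).map
      (algebraMap ↥L (LaurentSeries k))
      = Φ.map (Polynomial.aeval (FA_S28_jd k m)).toRingHom := by
    rw [Polynomial.map_map, hcomp]
  have hsepL : (Φ.map (Polynomial.aeval (⟨FA_S28_jd k m, hL⟩ : ↥L)).toRingHom).Separable := by
    rw [← hPL] at hsep_m
    exact (separable_map (algebraMap ↥L (LaurentSeries k))).mp hsep_m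
  have hrootL : Polynomial.aeval (FA_S28_jd k (m * r))
      (Φ.map (Polynomial.aeval (⟨FA_S28_jd k m, hL⟩ : ↥L)).toRingHom) = 0 := by
    rw [Polynomial.aeval_def, ← Polynomial.eval_map, hPL]
    exact hroot_m
  exact hsepL.of_dvd (minpoly.dvd ↥L _ hrootL)

/-- Transitivity in intermediate-field form: an element separable over an intermediate field
`L` all of whose elements are separable over `κ` is separable over `κ`. -/
theorem FA_S18_SEP_trans (κ L : IntermediateField k (LaurentSeries k))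
    (hL : ∀ x ∈ L, IsSeparable ↥κ x) (y : LaurentSeries k) (hy : IsSeparable ↥L y) :
    IsSeparable ↥κ y := by
  let SC := separableClosure ↥κ (LaurentSeries k)
  have hmem : ∀ x : ↥L, (x : LaurentSeries k) ∈ SC := fun x =>
    mem_separableClosure_iff.mpr (hL x x.2)
  let f : ↥L →+* ↥SC :=
    { toFun := fun x => ⟨x, hmem x⟩
      map_one' := rfl
      map_mul' := fun _ _ => rfl
      map_zero' := rfl
      map_add' := fun _ _ => rfl }
  letI : Algebra ↥L ↥SC := f.toAlgebra
  haveI : IsScalarTower ↥L ↥SC (LaurentSeries k) :=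
    IsScalarTower.of_algebraMap_eq fun _ => rfl
  have h1 : IsSeparable ↥SC y := IsSeparable.tower_top ↥SC hy
  exact IsSeparable.of_algebra_isSeparable_of_isSeparable ↥κ h1

/-- The field `κ(z)` as an intermediate field over `k`. -/
def FA_S18_SEP_L (κ : IntermediateField k (LaurentSeries k)) (z : LaurentSeries k) :
    IntermediateField k (LaurentSeries k) :=
  (IntermediateField.adjoin ↥κ {z}).restrictScalars k

theorem FA_S18_SEP_L_self (κ : IntermediateField k (LaurentSeries k)) (z : LaurentSeries k) :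
    z ∈ FA_S18_SEP_L κ z :=
  IntermediateField.mem_adjoin_simple_self ↥κ z

theorem FA_S18_SEP_L_sep (κ : IntermediateField k (LaurentSeries k)) (z : LaurentSeries k)
    (hz : IsSeparable ↥κ z) : ∀ x ∈ FA_S18_SEP_L κ z, IsSeparable ↥κ x := by
  intro x hx
  have hle : IntermediateField.adjoin ↥κ {z} ≤ separableClosure ↥κ (LaurentSeries k) := by
    rw [IntermediateField.adjoin_le_iff]
    rintro _ rfl
    exact mem_separableClosure_iff.mpr hz
  have hx' : x ∈ IntermediateField.adjoin ↥κ {z} := hx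
  exact mem_separableClosure_iff.mp (hle hx')

/-- **`j(q^d)` is separable over `κ = k(j)`** for `ℓ ∤ d`. -/
theorem FA_S18_SEP_jd (ℓ : ℕ) (hℓ : ℓ.Prime) [IsAlgClosed k] [CharP k ℓ] (d : ℕ) (hd0 : d ≠ 0)
    (hℓd : ¬ ℓ ∣ d) : IsSeparable ↥(FA_S28_kappa k) (FA_S28_jd k d) := by
  induction d using Nat.strong_induction_on with
  | _ d ih =>
    by_cases hd1 : d = 1
    · subst hd1
      rw [FA_S28_jd_one]
      exact isSeparable_algebraMap (F := ↥(FA_S28_kappa k))
        (⟨jqModC k, IntermediateField.mem_adjoin_simple_self k _⟩ : ↥(FA_S28_kappa k))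
    · have hr : (d.minFac).Prime := Nat.minFac_prime hd1
      obtain ⟨m, hm⟩ := Nat.minFac_dvd d
      have hm0 : m ≠ 0 := fun h => hd0 (by rw [hm, h, mul_zero])
      have hmd : m < d := by
        have h2 := hr.two_le
        have hmpos : 0 < m := Nat.pos_of_ne_zero hm0
        nlinarith
      have hℓm : ¬ ℓ ∣ m := fun h => hℓd (by rw [hm]; exact Dvd.dvd.mul_left h _)
      have hrℓ : d.minFac ≠ ℓ := fun h => hℓd (by rw [← h]; exact Nat.minFac_dvd d)
      haveI hrN : NeZero d.minFac := ⟨hr.ne_zero⟩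
      haveI hmN : NeZero m := ⟨hm0⟩
      haveI : Fact (d.minFac).Prime := ⟨hr⟩
      obtain ⟨ζ, hζr⟩ := FA_S28_exists_primitiveRoot k ℓ d.minFac hr hℓ hrℓ
      have h1 := ih m hmd hm0 hℓm
      have h3 := FA_S18_SEP_step d.minFac hr.two_le (FA_S28_phi d.minFac) ζ hζr m
        (FA_S18_SEP_L (FA_S28_kappa k) (FA_S28_jd k m))
        (FA_S18_SEP_L_self (FA_S28_kappa k) (FA_S28_jd k m))
      have e : m * d.minFac = d := by rw [mul_comm]; exact hm.symm
      rw [e] at h3
      exact FA_S18_SEP_trans (FA_S28_kappa k) _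
        (FA_S18_SEP_L_sep (FA_S28_kappa k) (FA_S28_jd k m) h1) _ h3

/-- **Every element of `F̄_n` is separable over `κ = k(j)`**, `ℓ ∤ n`. -/
theorem FA_S18_SEP_mem (ℓ : ℕ) (hℓ : ℓ.Prime) [IsAlgClosed k] [CharP k ℓ] (n : ℕ) [NeZero n]
    (hℓn : ¬ ℓ ∣ n) (x : LaurentSeries k) (hx : x ∈ modularFunctionFieldFullC k n) :
    IsSeparable ↥(FA_S28_kappa k) x := by
  let SC := (separableClosure ↥(FA_S28_kappa k) (LaurentSeries k)).restrictScalars k
  have hle : modularFunctionFieldFullC k n ≤ SC := by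
    rw [modularFunctionFieldFullC, IntermediateField.adjoin_le_iff]
    rintro _ ⟨d, hd, hdn, rfl⟩
    have hℓd : ¬ ℓ ∣ d := fun h => hℓn (h.trans hdn)
    have h1 := FA_S18_SEP_jd (k := k) ℓ hℓ d (NeZero.ne d) hℓd
    rw [← FA_S28_qExpand_jq] at h1
    exact mem_separableClosure_iff.mpr h1
  exact mem_separableClosure_iff.mp (hle hx)

theorem FA_S18_SEP_kappa_le (n : ℕ) [NeZero n] :
    FA_S28_kappa k ≤ modularFunctionFieldFullC k n := by
  rw [FA_S28_kappa, IntermediateField.adjoin_le_iff]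
  rintro _ rfl
  exact jqModC_mem_full k n

theorem FA_S18_SEP_fullC_le {M n : ℕ} [NeZero M] [NeZero n] (hMn : M ∣ n) :
    modularFunctionFieldFullC k M ≤ modularFunctionFieldFullC k n := by
  rw [modularFunctionFieldFullC, IntermediateField.adjoin_le_iff]
  rintro _ ⟨d, hd, hdM, rfl⟩
  exact jqModCd_mem_full k n (hdM.trans hMn)

/-- **Separability of `E₂ / E₁`** for `κ ≤ E₁ ≤ E₂ ≤ F̄_n`, with the inclusion algebra. -/
theorem FA_S18_SEP_tower (ℓ : ℕ) (hℓ : ℓ.Prime) [IsAlgClosed k] [CharP k ℓ] (n : ℕ) [NeZero n]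
    (hℓn : ¬ ℓ ∣ n) (E₁ E₂ : IntermediateField k (LaurentSeries k))
    (h1 : FA_S28_kappa k ≤ E₁) (h12 : E₁ ≤ E₂) (h2 : E₂ ≤ modularFunctionFieldFullC k n) :
    letI : Algebra ↥E₁ ↥E₂ := (IntermediateField.inclusion h12).toRingHom.toAlgebra
    Algebra.IsSeparable ↥E₁ ↥E₂ := by
  letI : Algebra ↥E₁ ↥E₂ := (IntermediateField.inclusion h12).toRingHom.toAlgebra
  haveI : IsScalarTower ↥E₁ ↥E₂ (LaurentSeries k) :=
    IsScalarTower.of_algebraMap_eq fun _ => rfl
  letI : Algebra ↥(FA_S28_kappa k) ↥E₁ := (IntermediateField.inclusion h1).toRingHom.toAlgebra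
  haveI : IsScalarTower ↥(FA_S28_kappa k) ↥E₁ (LaurentSeries k) :=
    IsScalarTower.of_algebraMap_eq fun _ => rfl
  refine ⟨fun x => ?_⟩
  have hx := FA_S18_SEP_mem (k := k) ℓ hℓ n hℓn (x : LaurentSeries k) (h2 x.2)
  have hx1 : IsSeparable ↥E₁ (x : LaurentSeries k) := IsSeparable.tower_top ↥E₁ hx
  have hmin : minpoly ↥E₁ (algebraMap ↥E₂ (LaurentSeries k) x) = minpoly ↥E₁ x :=
    minpoly.algebraMap_eq (algebraMap ↥E₂ (LaurentSeries k)).injective x
  unfold IsSeparable
  rw [← hmin]
  exact hx1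

/-- **Separability of `F̄_n / F̄_M`**, `M ∣ n`, `ℓ ∤ n`. -/
theorem FA_S18_SEP_level (ℓ : ℕ) (hℓ : ℓ.Prime) [IsAlgClosed k] [CharP k ℓ] (M n : ℕ) [NeZero M]
    [NeZero n] (hMn : M ∣ n) (hℓn : ¬ ℓ ∣ n) :
    letI : Algebra ↥(modularFunctionFieldFullC k M) ↥(modularFunctionFieldFullC k n) :=
      (IntermediateField.inclusion (FA_S18_SEP_fullC_le (k := k) hMn)).toRingHom.toAlgebra
    Algebra.IsSeparable ↥(modularFunctionFieldFullC k M) ↥(modularFunctionFieldFullC k n) :=
  FA_S18_SEP_tower ℓ hℓ n hℓn _ _ (FA_S18_SEP_kappa_le M) (FA_S18_SEP_fullC_le hMn) le_rfl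

/-- **Separability of `F̄_n / F̄_M`** in the form consumed by INST-fin (inclusion by the prelude's
`full_degeneracyC_le`). -/
theorem FA_S18_SEP_bar (ℓ : ℕ) (hℓ : ℓ.Prime) (k : Type) [Field k] [IsAlgClosed k] [CharP k ℓ]
    (M n : ℕ) [NeZero M] [NeZero n] (hMn : M ∣ n) (hℓn : ¬ ℓ ∣ n) :
    letI : Algebra ↥(modularFunctionFieldFullC k M) ↥(modularFunctionFieldFullC k n) :=
      (IntermediateField.inclusion (full_degeneracyC_le k hMn)).toRingHom.toAlgebra
    Algebra.IsSeparable ↥(modularFunctionFieldFullC k M) ↥(modularFunctionFieldFullC k n) :=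
  FA_S18_SEP_tower ℓ hℓ n hℓn _ _ (FA_S18_SEP_kappa_le M) (full_degeneracyC_le k hMn) le_rfl

end Fermat.Agent.S18
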