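import Fermat.Agent.S18.FinAmbInst
import Fermat.Agent.S18.SepBar
import Fermat.Agent.S18.FinH1

/-!
# S18, leaf N / FIN: separability of `F̄_n / k(j̄)` in subtype form, and `h1`

* `FA_S18_FINA_sep_of_coe` : for an intermediate field `E` of `L / k` and `x : E`: if every
  element of `E` is separable over `k(x) ⊂ L`, then `E` is separable over `k(x) ⊂ E`.
* `FA_S18_FINA_sep_inst` : `F̄_n` is separable over `k(j̄)` (subtype form), from `FA_S18_SEP_mem`.
* `FA_S18_FINA_AB` : `FA_S18_FIN_Target_AB A n h`.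
* `FA_S18_FINA_h1` : `FA_S18_I_Target_N_h1 A n` from the B targets `integral` and `cart`.
-/

set_option autoImplicit false
set_option linter.unusedSectionVars false
set_option linter.style.haveILetI false

noncomputable section

namespace Fermat.Agent.S18

open ModularCurve AlgebraicCurve FA_S18 IsLocalRing Polynomial IntermediateField
open Fermat.Agent.S28

section abstract

variable {k L : Type*} [Field k] [Field L] [Algebra k L]

/-- Separability over `k(x)` descends from the ambient field to an intermediate field. -/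
theorem FA_S18_FINA_sep_elem (E : IntermediateField k L) (x y : E)
    (h : IsSeparable ↥(k⟮(x : L)⟯) (y : L)) : IsSeparable ↥(k⟮x⟯) y := by
  -- the isomorphism `k(x) ⊂ E` with `k(x) ⊂ L`
  have hmap : (k⟮x⟯).map E.val = k⟮(x : L)⟯ := by
    rw [IntermediateField.adjoin_map, Set.image_singleton]
    rfl
  let e : ↥(k⟮x⟯) ≃ₐ[k] ↥(k⟮(x : L)⟯) :=
    (IntermediateField.equivMap (k⟮x⟯) E.val).trans (IntermediateField.equivOfEq hmap)
  have he : ∀ s : ↥(k⟮x⟯), ((e s : ↥(k⟮(x : L)⟯)) : L) = ((s : E) : L) := fun s => rfl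
  let ψ : ↥(k⟮(x : L)⟯) →+* ↥(k⟮x⟯) := (e.symm : ↥(k⟮(x : L)⟯) →+* ↥(k⟮x⟯))
  have hψ : ∀ t : ↥(k⟮(x : L)⟯), (((ψ t : ↥(k⟮x⟯)) : E) : L) = (t : L) := fun t => by
    rw [← he (ψ t)]
    show ((e (e.symm t) : ↥(k⟮(x : L)⟯)) : L) = t
    rw [AlgEquiv.apply_symm_apply]
  set p : Polynomial ↥(k⟮x⟯) := (minpoly ↥(k⟮(x : L)⟯) (y : L)).map ψ with hp
  have hsep : p.Separable := Polynomial.Separable.map h
  have hroot : aeval y p = 0 := by
    apply E.val.injective
    rw [map_zero, hp, aeval_def, eval₂_map, Polynomial.hom_eval₂]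
    have hcomp : (E.val.toRingHom).comp ((algebraMap ↥(k⟮x⟯) ↥E).comp ψ)
        = algebraMap ↥(k⟮(x : L)⟯) L := by
      apply RingHom.ext
      intro t
      exact hψ t
    rw [hcomp]
    exact minpoly.aeval ↥(k⟮(x : L)⟯) (y : L)
  exact hsep.of_dvd (minpoly.dvd _ _ hroot)

/-- Separability of `E / k(x)` from separability of the elements of `E` over `k(x) ⊂ L`. -/
theorem FA_S18_FINA_sep_of_coe (E : IntermediateField k L) (x : E)
    (h : ∀ y ∈ E, IsSeparable ↥(k⟮(x : L)⟯) y) : Algebra.IsSeparable ↥(k⟮x⟯) ↥E :=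
  ⟨fun y => FA_S18_FINA_sep_elem E x y (h y y.2)⟩

end abstract

variable (A : ValuationSubring (AlgebraicClosure ℚ)) (n : ℕ) [NeZero n]

set_option synthInstance.maxHeartbeats 400000 in
/-- shortcut instance (the search is slow with all the imports) -/
local instance (priority := 2000) FA_S18_FINA_alg' :
    Algebra (IsLocalRing.ResidueField ↥A)
      ↥(modularFunctionFieldFullC (IsLocalRing.ResidueField ↥A) n) := inferInstance

/-- `F̄_n` is separable over `k(j̄)`. -/
theorem FA_S18_FINA_sep_inst {ℓ : ℕ} (hℓ : ℓ.Prime) (hA : A.LiesOverPrime ℓ) (hn : ¬ ℓ ∣ n)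
    (h : FA_S18_I_Range A n) :
    Algebra.IsSeparable (IsLocalRing.ResidueField ↥A)⟮FA_S18_BASE_jb A n h⟯
      ↥(modularFunctionFieldFullC (IsLocalRing.ResidueField ↥A) n) := by
  haveI := FA_S18_B_resField_isAlgClosed A
  haveI := FA_S18_B_resField_charP A ℓ hℓ hA
  apply FA_S18_FINA_sep_of_coe
  intro y hy
  have h1 := FA_S18_SEP_mem (k := IsLocalRing.ResidueField ↥A) ℓ hℓ n hn y hy
  have e : ((FA_S18_BASE_jb A n h :
      ↥(modularFunctionFieldFullC (IsLocalRing.ResidueField ↥A) n)) :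
      LaurentSeries (IsLocalRing.ResidueField ↥A)) = jqModC (IsLocalRing.ResidueField ↥A) :=
    FA_S18_I_red_j_coe A n h
  rw [e]
  exact h1

/-- **(AB)** at level `n`. -/
theorem FA_S18_FINA_AB {ℓ : ℕ} (hℓ : ℓ.Prime) (hA : A.LiesOverPrime ℓ) (hn : ¬ ℓ ∣ n)
    (h : FA_S18_I_Range A n) (hint : FA_S18_Target_B_integral A n ℓ) :
    FA_S18_FIN_Target_AB A n h :=
  FA_S18_FINA_amb_inst A n hℓ hA hn h hint (FA_S18_FINA_sep_inst A n hℓ hA hn h)

/-- **N3 (`h1`)** at level `n`, from the B targets. -/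
theorem FA_S18_FINA_h1 {ℓ : ℕ} (hℓ : ℓ.Prime) (hA : A.LiesOverPrime ℓ) (hn : ¬ ℓ ∣ n)
    (h : FA_S18_I_Range A n) (hint : FA_S18_Target_B_integral A n ℓ)
    (hcart : FA_S18_Target_B_cart A n ℓ) : FA_S18_I_Target_N_h1 A n :=
  FA_S18_FIN_h1 A n hℓ hA hn h hcart (FA_S18_FINA_AB A n hℓ hA hn h hint)

end Fermat.Agent.S18
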