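import Fermat.Agent.S18.CuspInstDefs
import Fermat.Agent.S18.DatumDeg
import Fermat.Agent.S18.FinSep

/-!
# S18, leaf N / CUSP: the field `deg` (and finiteness, separability) in the types of the cusp
instance (`S18/CuspInstDefs.lean`)

For a datum `D : FA_S18_B_Datum A π F n`:
* `FA_S18_DEG_cusp_finite_K`, `FA_S18_DEG_cusp_finrank_K` : `[F : K(x)] = n`;
* `FA_S18_DEG_cusp_finite_k`, `FA_S18_DEG_cusp_finrank_k` : `[κ' : k(x̄)] = n`;
* `FA_S18_DEG_cusp` : the field `deg`;
* `FA_S18_DEG_cusp_sep` : `κ' / k(x̄)` is separable if every element of `κ'` is separable over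
  `k(x̄) ⊂ k((t))`.
-/

set_option autoImplicit false
set_option linter.unusedSectionVars false
set_option linter.style.haveILetI false

noncomputable section

namespace Fermat.Agent.S18

open ModularCurve Polynomial IntermediateField FA_S18

variable {K : Type*} [Field K] {A : ValuationSubring K} {k : Type*} [Field k] {π : A →+* k}
  {F : IntermediateField K (LaurentSeries K)} {n : ℕ}

theorem FA_S18_DEG_cusp_finite_K (D : FA_S18_B_Datum A π F n) :
    FiniteDimensional ↥(FA_S18_CUU_Kx D) ↥F :=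
  (FA_S18_DEG_char0 D (FA_S18_CUU_xF D) rfl).1

theorem FA_S18_DEG_cusp_finrank_K (D : FA_S18_B_Datum A π F n) :
    Module.finrank ↥(FA_S18_CUU_Kx D) ↥F = n :=
  (FA_S18_DEG_char0 D (FA_S18_CUU_xF D) rfl).2

theorem FA_S18_DEG_cusp_finite_k (D : FA_S18_B_Datum A π F n) (hπ : Function.Surjective π) :
    FiniteDimensional ↥(FA_S18_CUU_kx D hπ) ↥(FA_S18_B_redField (A := A) F hπ) :=
  (FA_S18_DEG_bar D hπ (FA_S18_CUU_xb D hπ) rfl).1

theorem FA_S18_DEG_cusp_finrank_k (D : FA_S18_B_Datum A π F n) (hπ : Function.Surjective π) :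
    Module.finrank ↥(FA_S18_CUU_kx D hπ) ↥(FA_S18_B_redField (A := A) F hπ) = n :=
  (FA_S18_DEG_bar D hπ (FA_S18_CUU_xb D hπ) rfl).2

/-- **The field `deg`** of `FA_S18_U_GlueHyp` in the types of the cusp instance. -/
theorem FA_S18_DEG_cusp (D : FA_S18_B_Datum A π F n) (hπ : Function.Surjective π) :
    Module.finrank ↥(FA_S18_CUU_kx D hπ) ↥(FA_S18_B_redField (A := A) F hπ)
      = Module.finrank ↥(FA_S18_CUU_Kx D) ↥F := by
  rw [FA_S18_DEG_cusp_finrank_k, FA_S18_DEG_cusp_finrank_K]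

/-- Separability of `κ' / k(x̄)` from elementwise separability over `k(x̄) ⊂ k((t))`. -/
theorem FA_S18_DEG_cusp_sep (D : FA_S18_B_Datum A π F n) (hπ : Function.Surjective π)
    (h : ∀ y ∈ FA_S18_B_redField (A := A) F hπ,
      IsSeparable ↥(IntermediateField.adjoin k {coeffMap π D.x}) y) :
    Algebra.IsSeparable ↥(FA_S18_CUU_kx D hπ) ↥(FA_S18_B_redField (A := A) F hπ) :=
  FA_S18_FINA_sep_of_coe (FA_S18_B_redField (A := A) F hπ) (FA_S18_CUU_xb D hπ) h

set_option synthInstance.maxHeartbeats 400000 in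
/-- Separability of `F / K(x)` in characteristic `0`. -/
theorem FA_S18_DEG_cusp_sep0 [CharZero K] (D : FA_S18_B_Datum A π F n) :
    Algebra.IsSeparable ↥(FA_S18_CUU_Kx D) ↥F := by
  haveI : CharZero ↥(FA_S18_CUU_Kx D) :=
    charZero_of_injective_algebraMap (algebraMap K ↥(FA_S18_CUU_Kx D)).injective
  haveI := FA_S18_DEG_cusp_finite_K D
  infer_instance

end Fermat.Agent.S18
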