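import Mathlib

/-!
# S18, leaf N / CUSP, sub-leaf CU-U (abstract part 1): the rational chart `RQ = K₀[x][1/d(x)]`

`Kq` a field, `K / Kq` a field, `x ∈ K`, `d ∈ Kq[X]`: the chart `RQ = Kq[x][1/d(x)] ⊂ K`.

* `FA_S18_CUU_RQ x d` : the subring `{P(x) / d(x)^m}` of `K`.
* `FA_S18_CUU_decomp` : `RQ = Kq + (x - β) RQ` when `d(β) ≠ 0`.
* `FA_S18_CUU_points_of` : (`Kq` algebraically closed) every nonzero element of `RQ` is a unit of
  `RQ` times a product of *good* elements `w = x - β` (`β ∈ A`, `d(β) ≠ 0`) or `w = 1 - β⁻¹ x`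
  (`β ∉ A`): `w ∈ RQ`, `w, w⁻¹ ∈ O`, `RQ = Kq + w RQ`.
* `FA_S18_CUU_frac_of`, `FA_S18_CUU_ic_of` : if `x` is transcendental and generates `K`, then
  `K` is the fraction field of `RQ` and `RQ` is integrally closed in `K`.
-/

set_option autoImplicit false
set_option linter.style.haveILetI false

noncomputable section

namespace FA_S18

open Polynomial

variable {Kq : Type*} [Field Kq] {K : Type*} [Field K] [Algebra Kq K]

/-- The chart `RQ = Kq[x][1/d(x)]`. -/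
def FA_S18_CUU_RQ (x : K) (d : Kq[X]) : Subring K where
  carrier := {r | ∃ (P : Kq[X]) (m : ℕ), r * (aeval x d) ^ m = aeval x P}
  one_mem' := ⟨1, 0, by simp⟩
  zero_mem' := ⟨0, 0, by simp⟩
  mul_mem' := by
    rintro a b ⟨P, m, hP⟩ ⟨Q, n, hQ⟩
    refine ⟨P * Q, m + n, ?_⟩
    rw [map_mul, ← hP, ← hQ, pow_add]
    ring
  add_mem' := by
    rintro a b ⟨P, m, hP⟩ ⟨Q, n, hQ⟩
    refine ⟨P * d ^ n + Q * d ^ m, m + n, ?_⟩
    rw [map_add, map_mul, map_mul, map_pow, map_pow, ← hP, ← hQ, pow_add]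
    ring
  neg_mem' := by
    rintro a ⟨P, m, hP⟩
    exact ⟨-P, m, by rw [map_neg, ← hP]; ring⟩

theorem FA_S18_CUU_mem_RQ {x : K} {d : Kq[X]} {r : K} :
    r ∈ FA_S18_CUU_RQ x d ↔ ∃ (P : Kq[X]) (m : ℕ), r * (aeval x d) ^ m = aeval x P := Iff.rfl

theorem FA_S18_CUU_aeval_mem (x : K) (d : Kq[X]) (P : Kq[X]) : aeval x P ∈ FA_S18_CUU_RQ x d :=
  ⟨P, 0, by simp⟩

theorem FA_S18_CUU_const_mem (x : K) (d : Kq[X]) (c : Kq) :
    algebraMap Kq K c ∈ FA_S18_CUU_RQ x d :=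
  ⟨C c, 0, by simp⟩

theorem FA_S18_CUU_x_mem (x : K) (d : Kq[X]) : x ∈ FA_S18_CUU_RQ x d :=
  ⟨X, 0, by simp⟩

theorem FA_S18_CUU_inv_d_mem (x : K) (d : Kq[X]) (hd : aeval x d ≠ 0) :
    (aeval x d)⁻¹ ∈ FA_S18_CUU_RQ x d :=
  ⟨1, 1, by rw [pow_one, inv_mul_cancel₀ hd, map_one]⟩

/-- evaluation at `β` with `d(β) ≠ 0`: `RQ = Kq + (x - β) RQ`. -/
theorem FA_S18_CUU_decomp (x : K) (d : Kq[X]) (hd : aeval x d ≠ 0) (β : Kq)
    (hβ : d.eval β ≠ 0) (r : K) (hr : r ∈ FA_S18_CUU_RQ x d) :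
    ∃ c : Kq, ∃ r' ∈ FA_S18_CUU_RQ x d, r = algebraMap Kq K c + (x - algebraMap Kq K β) * r' := by
  obtain ⟨P, m, hP⟩ := hr
  set c : Kq := P.eval β / (d.eval β) ^ m with hc
  have hroot : (P - C c * d ^ m).IsRoot β := by
    rw [IsRoot, eval_sub, eval_mul, eval_C, eval_pow, hc, div_mul_cancel₀ _ (pow_ne_zero m hβ),
      sub_self]
  obtain ⟨P₁, hP₁⟩ := (dvd_iff_isRoot).2 hroot
  refine ⟨c, aeval x P₁ * ((aeval x d) ^ m)⁻¹, ?_, ?_⟩
  · rw [← inv_pow]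
    exact Subring.mul_mem _ (FA_S18_CUU_aeval_mem x d P₁)
      (Subring.pow_mem _ (FA_S18_CUU_inv_d_mem x d hd) m)
  · have h1 : aeval x P - algebraMap Kq K c * (aeval x d) ^ m
        = (x - algebraMap Kq K β) * aeval x P₁ := by
      have := congrArg (aeval x) hP₁
      simpa using this
    have hdm : (aeval x d) ^ m ≠ 0 := pow_ne_zero m hd
    have h2 : r = aeval x P * ((aeval x d) ^ m)⁻¹ := by
      rw [← hP, mul_assoc, mul_inv_cancel₀ hdm, mul_one]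
    have h3 : aeval x P = algebraMap Kq K c * (aeval x d) ^ m
        + (x - algebraMap Kq K β) * aeval x P₁ := by rw [← h1]; ring
    rw [h2, h3, add_mul, mul_assoc, mul_inv_cancel₀ hdm, mul_one, mul_assoc]

/-- a root of `d` gives a unit of `RQ` -/
theorem FA_S18_CUU_unit_of_root (x : K) (d : Kq[X]) (hd : aeval x d ≠ 0) (β : Kq)
    (hβ : d.eval β = 0) : (x - algebraMap Kq K β)⁻¹ ∈ FA_S18_CUU_RQ x d := by
  obtain ⟨d₁, hd₁⟩ := (dvd_iff_isRoot).2 (show d.IsRoot β from hβ)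
  have h1 : aeval x d = (x - algebraMap Kq K β) * aeval x d₁ := by
    have := congrArg (aeval x) hd₁
    simpa using this
  have hne : x - algebraMap Kq K β ≠ 0 := by
    intro h0
    rw [h1, h0, zero_mul] at hd
    exact hd rfl
  refine ⟨d₁, 1, ?_⟩
  rw [pow_one, h1]
  field_simp

/-- The good generators of the chart. -/
def FA_S18_CUU_Good (O : ValuationSubring K) (x : K) (d : Kq[X]) (w : K) : Prop :=
  w ≠ 0 ∧ w ∈ FA_S18_CUU_RQ x d ∧ w ∈ O ∧ w⁻¹ ∈ O ∧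
    ∀ r ∈ FA_S18_CUU_RQ x d, ∃ c ∈ (algebraMap Kq K).fieldRange, ∃ r' ∈ FA_S18_CUU_RQ x d,
      r = c + w * r'

theorem FA_S18_CUU_good_one (O : ValuationSubring K) (x : K) (d : Kq[X]) :
    FA_S18_CUU_Good O x d 1 := by
  refine ⟨one_ne_zero, Subring.one_mem _, O.one_mem, by rw [inv_one]; exact O.one_mem, ?_⟩
  intro r hr
  exact ⟨0, Subfield.zero_mem _, r, hr, by rw [zero_add, one_mul]⟩

/-- a linear factor is a unit of `RQ` times a good generator -/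
theorem FA_S18_CUU_lin (A : ValuationSubring Kq) (O : ValuationSubring K) (x : K) (d : Kq[X])
    (hd : aeval x d ≠ 0) (hx : ∀ β : Kq, x ≠ algebraMap Kq K β)
    (h1 : ∀ β ∈ A, (x - algebraMap Kq K β) ∈ O ∧ (x - algebraMap Kq K β)⁻¹ ∈ O)
    (h2 : ∀ β : Kq, β ∉ A →
      (1 - algebraMap Kq K β⁻¹ * x) ∈ O ∧ (1 - algebraMap Kq K β⁻¹ * x)⁻¹ ∈ O)
    (β : Kq) :
    ∃ u w : K, x - algebraMap Kq K β = u * w ∧ u ∈ FA_S18_CUU_RQ x d ∧
      u⁻¹ ∈ FA_S18_CUU_RQ x d ∧ FA_S18_CUU_Good O x d w := by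
  have hne : x - algebraMap Kq K β ≠ 0 := sub_ne_zero.mpr (hx β)
  by_cases hβ : d.eval β = 0
  · exact ⟨x - algebraMap Kq K β, 1, (mul_one _).symm,
      Subring.sub_mem _ (FA_S18_CUU_x_mem x d) (FA_S18_CUU_const_mem x d β),
      FA_S18_CUU_unit_of_root x d hd β hβ, FA_S18_CUU_good_one O x d⟩
  by_cases hA : β ∈ A
  · refine ⟨1, x - algebraMap Kq K β, (one_mul _).symm, Subring.one_mem _,
      by rw [inv_one]; exact Subring.one_mem _, hne,
      Subring.sub_mem _ (FA_S18_CUU_x_mem x d) (FA_S18_CUU_const_mem x d β),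
      (h1 β hA).1, (h1 β hA).2, ?_⟩
    intro r hr
    obtain ⟨c, r', hr', e⟩ := FA_S18_CUU_decomp x d hd β hβ r hr
    exact ⟨algebraMap Kq K c, ⟨c, rfl⟩, r', hr', e⟩
  · have hβ0 : β ≠ 0 := fun h0 => hA (h0 ▸ A.zero_mem)
    have hβK : algebraMap Kq K β ≠ 0 := by rwa [Ne, map_eq_zero]
    have e0 : x - algebraMap Kq K β
        = (-algebraMap Kq K β) * (1 - algebraMap Kq K β⁻¹ * x) := by
      rw [map_inv₀]
      field_simp
      ring
    have hw0 : 1 - algebraMap Kq K β⁻¹ * x ≠ 0 := by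
      intro h0
      rw [h0, mul_zero] at e0
      exact hne e0
    refine ⟨-algebraMap Kq K β, 1 - algebraMap Kq K β⁻¹ * x, e0,
      Subring.neg_mem _ (FA_S18_CUU_const_mem x d β), ?_, hw0,
      Subring.sub_mem _ (Subring.one_mem _)
        (Subring.mul_mem _ (FA_S18_CUU_const_mem x d β⁻¹) (FA_S18_CUU_x_mem x d)),
      (h2 β hA).1, (h2 β hA).2, ?_⟩
    · have : (-algebraMap Kq K β)⁻¹ = algebraMap Kq K (-β⁻¹) := by
        rw [map_neg, map_inv₀, inv_neg]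
      rw [this]
      exact FA_S18_CUU_const_mem x d _
    · intro r hr
      obtain ⟨c, r', hr', e⟩ := FA_S18_CUU_decomp x d hd β hβ r hr
      refine ⟨algebraMap Kq K c, ⟨c, rfl⟩, (-algebraMap Kq K β) * r',
        Subring.mul_mem _ (Subring.neg_mem _ (FA_S18_CUU_const_mem x d β)) hr', ?_⟩
      rw [e, e0]
      ring

/-- every nonzero polynomial in `x` is a unit of `RQ` times a product of good generators -/
theorem FA_S18_CUU_points_poly [IsAlgClosed Kq] (A : ValuationSubring Kq)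
    (O : ValuationSubring K) (x : K) (d : Kq[X])
    (hd : aeval x d ≠ 0) (hx : ∀ β : Kq, x ≠ algebraMap Kq K β)
    (h1 : ∀ β ∈ A, (x - algebraMap Kq K β) ∈ O ∧ (x - algebraMap Kq K β)⁻¹ ∈ O)
    (h2 : ∀ β : Kq, β ∉ A →
      (1 - algebraMap Kq K β⁻¹ * x) ∈ O ∧ (1 - algebraMap Kq K β⁻¹ * x)⁻¹ ∈ O) :
    ∀ (n : ℕ) (P : Kq[X]), P ≠ 0 → P.natDegree = n →
      ∃ (u : K) (ws : List K), aeval x P = u * ws.prod ∧ u ∈ FA_S18_CUU_RQ x d ∧
        u⁻¹ ∈ FA_S18_CUU_RQ x d ∧ ∀ w ∈ ws, FA_S18_CUU_Good O x d w := by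
  intro n
  induction n with
  | zero =>
    intro P hP hdeg
    obtain ⟨a, rfl⟩ : ∃ a, P = C a := ⟨P.coeff 0, eq_C_of_natDegree_eq_zero hdeg⟩
    have ha : a ≠ 0 := fun h0 => hP (by rw [h0, map_zero])
    refine ⟨algebraMap Kq K a, [], by simp, FA_S18_CUU_const_mem x d a, ?_, by simp⟩
    rw [← map_inv₀]
    exact FA_S18_CUU_const_mem x d _
  | succ n ih =>
    intro P hP hdeg
    have hdeg' : P.degree ≠ 0 := by
      rw [degree_eq_natDegree hP, hdeg]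
      exact_mod_cast Nat.succ_ne_zero n
    obtain ⟨β, hβ⟩ := IsAlgClosed.exists_root P hdeg'
    obtain ⟨P₁, hP₁⟩ := (dvd_iff_isRoot).2 hβ
    have hP₁0 : P₁ ≠ 0 := fun h0 => hP (by rw [hP₁, h0, mul_zero])
    have hdeg₁ : P₁.natDegree = n := by
      have := congrArg natDegree hP₁
      rw [natDegree_mul (X_sub_C_ne_zero β) hP₁0, natDegree_X_sub_C, hdeg] at this
      omega
    obtain ⟨u₁, ws₁, e₁, hu₁, hu₁', hws₁⟩ := ih P₁ hP₁0 hdeg₁
    obtain ⟨u₂, w₂, e₂, hu₂, hu₂', hw₂⟩ := FA_S18_CUU_lin A O x d hd hx h1 h2 β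
    refine ⟨u₂ * u₁, w₂ :: ws₁, ?_, Subring.mul_mem _ hu₂ hu₁, ?_, ?_⟩
    · have := congrArg (aeval x) hP₁
      rw [map_mul, map_sub, aeval_X, aeval_C, e₁, e₂] at this
      rw [this, List.prod_cons]
      ring
    · rw [mul_inv]
      exact Subring.mul_mem _ hu₂' hu₁'
    · intro w hw
      rcases List.mem_cons.mp hw with rfl | hw
      · exact hw₂
      · exact hws₁ w hw

/-- **points**: every nonzero element of `RQ` is a unit of `RQ` times a product of good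
generators. -/
theorem FA_S18_CUU_points_of [IsAlgClosed Kq] (A : ValuationSubring Kq)
    (O : ValuationSubring K) (x : K) (d : Kq[X])
    (hd : aeval x d ≠ 0) (hx : ∀ β : Kq, x ≠ algebraMap Kq K β)
    (h1 : ∀ β ∈ A, (x - algebraMap Kq K β) ∈ O ∧ (x - algebraMap Kq K β)⁻¹ ∈ O)
    (h2 : ∀ β : Kq, β ∉ A →
      (1 - algebraMap Kq K β⁻¹ * x) ∈ O ∧ (1 - algebraMap Kq K β⁻¹ * x)⁻¹ ∈ O)
    (g : K) (hg : g ∈ FA_S18_CUU_RQ x d) (hg0 : g ≠ 0) :
    ∃ (u : K) (ws : List K), g = u * ws.prod ∧ u ∈ FA_S18_CUU_RQ x d ∧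
      u⁻¹ ∈ FA_S18_CUU_RQ x d ∧ ∀ w ∈ ws, FA_S18_CUU_Good O x d w := by
  obtain ⟨P, m, hP⟩ := hg
  have hdm : (aeval x d) ^ m ≠ 0 := pow_ne_zero m hd
  have hP0 : P ≠ 0 := by
    intro h0
    rw [h0, map_zero] at hP
    rcases mul_eq_zero.mp hP with h | h
    · exact hg0 h
    · exact hdm h
  obtain ⟨u, ws, e, hu, hu', hws⟩ :=
    FA_S18_CUU_points_poly A O x d hd hx h1 h2 P.natDegree P hP0 rfl
  refine ⟨u * ((aeval x d) ^ m)⁻¹, ws, ?_, ?_, ?_, hws⟩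
  · have : g = aeval x P * ((aeval x d) ^ m)⁻¹ := by
      rw [← hP, mul_assoc, mul_inv_cancel₀ hdm, mul_one]
    rw [this, e]
    ring
  · rw [← inv_pow]
    exact Subring.mul_mem _ hu (Subring.pow_mem _ (FA_S18_CUU_inv_d_mem x d hd) m)
  · rw [mul_inv, inv_inv]
    exact Subring.mul_mem _ hu' (Subring.pow_mem _ (FA_S18_CUU_aeval_mem x d d) m)

/-! ### Fraction field and normality -/

/-- **frac**: `K = Kq(x)` is the fraction field of `RQ`. -/
theorem FA_S18_CUU_frac_of (x : K) (d : Kq[X]) (htr : Transcendental Kq x)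
    (hgen : ∀ t : K, ∃ P Q : Kq[X], Q ≠ 0 ∧ t * aeval x Q = aeval x P) (t : K) :
    ∃ r s : K, r ∈ FA_S18_CUU_RQ x d ∧ s ∈ FA_S18_CUU_RQ x d ∧ s ≠ 0 ∧ t * s = r := by
  obtain ⟨P, Q, hQ, e⟩ := hgen t
  refine ⟨aeval x P, aeval x Q, FA_S18_CUU_aeval_mem x d P, FA_S18_CUU_aeval_mem x d Q, ?_, e⟩
  intro h0
  exact hQ ((transcendental_iff.mp htr) Q h0)

/-- **ic**: `RQ` is integrally closed in `K = Kq(x)`. -/
theorem FA_S18_CUU_ic_of (x : K) (d : Kq[X]) (htr : Transcendental Kq x)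
    (hgen : ∀ t : K, ∃ P Q : Kq[X], Q ≠ 0 ∧ t * aeval x Q = aeval x P) (hd : d ≠ 0) (t : K)
    (ht : IsIntegral (FA_S18_CUU_RQ x d) t) : t ∈ FA_S18_CUU_RQ x d := by
  have hinj : Function.Injective (aeval (R := Kq) x) := transcendental_iff_injective.mp htr
  have hdx : aeval x d ≠ 0 := fun h0 => hd (hinj (by rw [h0, map_zero]))
  letI algK : Algebra Kq[X] K := (aeval (R := Kq) x).toRingHom.toAlgebra
  letI algR : Algebra Kq[X] (FA_S18_CUU_RQ x d) :=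
    ((aeval (R := Kq) x).toRingHom.codRestrict (FA_S18_CUU_RQ x d)
      (fun P => FA_S18_CUU_aeval_mem x d P)).toAlgebra
  have hK : ∀ P : Kq[X], algebraMap Kq[X] K P = aeval x P := fun _ => rfl
  have hR : ∀ P : Kq[X], ((algebraMap Kq[X] (FA_S18_CUU_RQ x d) P : FA_S18_CUU_RQ x d) : K)
      = aeval x P := fun _ => rfl
  haveI : IsScalarTower Kq[X] (FA_S18_CUU_RQ x d) K :=
    IsScalarTower.of_algebraMap_eq (fun P => rfl)
  haveI : FaithfulSMul Kq[X] K := (faithfulSMul_iff_algebraMap_injective _ _).mpr hinj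
  haveI : IsFractionRing Kq[X] K := by
    apply IsFractionRing.of_field
    intro z
    obtain ⟨P, Q, hQ, e⟩ := hgen z
    refine ⟨P, Q, ?_⟩
    have hQx : aeval x Q ≠ 0 := fun h0 => hQ (hinj (by rw [h0, map_zero]))
    rw [hK, hK, ← e, mul_div_assoc, div_self hQx, mul_one]
  haveI : IsLocalization (Submonoid.powers d) (FA_S18_CUU_RQ x d) := by
    rw [isLocalization_iff]
    refine ⟨?_, ?_, ?_⟩
    · rintro ⟨y, m, rfl⟩
      rw [isUnit_iff_exists_inv]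
      refine ⟨⟨((aeval x d) ^ m)⁻¹, ?_⟩, ?_⟩
      · rw [← inv_pow]
        exact Subring.pow_mem _ (FA_S18_CUU_inv_d_mem x d hdx) m
      · apply Subtype.ext
        show aeval x (d ^ m) * ((aeval x d) ^ m)⁻¹ = 1
        rw [map_pow, mul_inv_cancel₀ (pow_ne_zero m hdx)]
    · rintro ⟨z, P, m, hP⟩
      refine ⟨(P, ⟨d ^ m, m, rfl⟩), ?_⟩
      apply Subtype.ext
      show z * aeval x (d ^ m) = aeval x P
      rw [map_pow, hP]
    · intro P Q h
      refine ⟨1, ?_⟩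
      have := congrArg Subtype.val h
      rw [hR, hR] at this
      rw [hinj this]
  obtain ⟨⟨y, hym⟩, hy⟩ :=
    IsIntegral.exists_multiple_integral_of_isLocalization (Submonoid.powers d)
      (Rₘ := FA_S18_CUU_RQ x d) t ht
  obtain ⟨m, hm⟩ := (Submonoid.mem_powers_iff y d).mp hym
  obtain ⟨Q, hQ⟩ := IsIntegrallyClosed.isIntegral_iff.mp hy
  refine ⟨Q, m, ?_⟩
  have h1 : aeval x Q = aeval x y * t := by
    rw [← hK Q, hQ, Submonoid.smul_def, Algebra.smul_def, hK]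
  rw [h1, ← hm, map_pow, mul_comm]

end FA_S18
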