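import Mathlib

/-!
# S18, leaf N, sub-leaf CUSP, part D (generic core): the trace-dual form away from a divisor

`A ⊆ B` Dedekind domains with fraction fields `F ⊆ F'` (finite, characteristic zero), `B` the
integral closure of `A` in `F'`, `s : A`.  If every nonzero maximal ideal `P` of `B` not
containing `s` contains the image of an element of `A` that is not in `P ^ 2` (i.e. `e(P) = 1`),
then a power of `s` lies in the different of `B / A`, and hence

  `(∀ b ∈ B, ∃ m, s ^ m * Tr_{F'/F}(y · b) ∈ A) → ∃ N, s ^ N * y ∈ B`.
-/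

set_option autoImplicit false
set_option linter.style.haveILetI false

open IsDedekindDomain

namespace Fermat.Agent.S18

section Core

attribute [local instance] FractionRing.liftAlgebra FractionRing.isScalarTower_liftAlgebra
  Ideal.Quotient.field

/-- Local form: a maximal ideal `P` of `B` that contains the image of an element of `A` not in
`P ^ 2` does not contain the different (characteristic zero). -/
theorem FA_S18_CUD_different_not_le
    (K A B F F' : Type*) [Field K] [CharZero K] [CommRing A] [CommRing B] [Field F] [Field F']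
    [Algebra K A]
    [Algebra A F] [Algebra B F'] [Algebra A B] [Algebra F F'] [Algebra A F']
    [IsScalarTower A F F'] [IsScalarTower A B F']
    [IsDedekindDomain A] [IsDedekindDomain B] [IsFractionRing A F] [IsFractionRing B F']
    [FiniteDimensional F F'] [CharZero F] [IsIntegralClosure B A F']
    [Module.IsTorsionFree A B]
    (P : Ideal B) (hPmax : P.IsMaximal) (hP0 : P ≠ ⊥)
    (a : A) (haP : algebraMap A B a ∈ P) (haP2 : algebraMap A B a ∉ P ^ 2) :
    ¬ differentIdeal A B ≤ P := by
  classical
  haveI : Module.Finite A B := IsIntegralClosure.finite A F F' B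
  haveI : Algebra.IsIntegral A B := IsIntegralClosure.isIntegral_algebra A F'
  haveI : CharZero A := by
    refine ⟨fun m n hmn => ?_⟩
    have := congrArg (algebraMap A F) hmn
    simpa using this
  haveI : CharZero (FractionRing A) :=
    charZero_of_injective_algebraMap (IsFractionRing.injective A (FractionRing A))
  haveI : Algebra.IsSeparable (FractionRing A) (FractionRing B) := inferInstance
  intro hle
  -- the prime below
  set p : Ideal A := P.under A with hp
  haveI : P.LiesOver p := ⟨rfl⟩
  haveI hpmax : p.IsMaximal := Ideal.IsMaximal.under A P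
  have hp0 : p ≠ ⊥ := mt Ideal.eq_bot_of_comap_eq_bot hP0
  have hp' : p.map (algebraMap A B) ≠ ⊥ :=
    (Ideal.map_eq_bot_iff_of_injective (FaithfulSMul.algebraMap_injective A B)).not.mpr hp0
  obtain ⟨Q, hQ1, hQ2⟩ := Ideal.eq_prime_pow_mul_coprime hp' P
  have hap : a ∈ p := haP
  have hmapP : p.map (algebraMap A B) ≤ P := Ideal.map_comap_le
  have hk : Multiset.count P (UniqueFactorizationMonoid.normalizedFactors
      (p.map (algebraMap A B))) = 1 := by
    set k := Multiset.count P (UniqueFactorizationMonoid.normalizedFactors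
      (p.map (algebraMap A B))) with hkdef
    rcases Nat.lt_or_ge k 1 with h0 | h1
    · exfalso
      have hk0 : k = 0 := by omega
      rw [hk0, pow_zero, one_mul] at hQ2
      have : Q ≤ P := hQ2 ▸ hmapP
      rw [sup_of_le_left this] at hQ1
      exact hPmax.ne_top hQ1
    rcases Nat.lt_or_ge 1 k with h2 | h2
    · exfalso
      apply haP2
      have h3 : p.map (algebraMap A B) ≤ P ^ 2 := by
        rw [hQ2]
        exact Ideal.mul_le_left.trans (Ideal.pow_le_pow_right h2)
      exact h3 (Ideal.mem_map_of_mem _ hap)
    · omega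
  rw [hk, pow_one] at hQ2
  haveI : Algebra.IsSeparable (A ⧸ p) (B ⧸ P) := by
    haveI : CharZero (A ⧸ p) := by
      exact charZero_of_injective_ringHom
        (f := (Ideal.Quotient.mk p).comp (algebraMap K A)) (RingHom.injective _)
    exact Algebra.IsAlgebraic.isSeparable_of_perfectField
  exact not_dvd_differentIdeal_of_isCoprime_of_isSeparable A P Q
    (Ideal.isCoprime_iff_sup_eq.mpr hQ1) hQ2.symm (Ideal.dvd_iff_le.mpr hle)

/-- If every nonzero maximal ideal of `B` not containing `s` is unramified (in the above sense),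
a power of `s` lies in the different. -/
theorem FA_S18_CUD_pow_mem_different
    (K A B F F' : Type*) [Field K] [CharZero K] [CommRing A] [CommRing B] [Field F] [Field F']
    [Algebra K A]
    [Algebra A F] [Algebra B F'] [Algebra A B] [Algebra F F'] [Algebra A F']
    [IsScalarTower A F F'] [IsScalarTower A B F']
    [IsDedekindDomain A] [IsDedekindDomain B] [IsFractionRing A F] [IsFractionRing B F']
    [FiniteDimensional F F'] [CharZero F] [IsIntegralClosure B A F']
    [Module.IsTorsionFree A B]
    (s : A)
    (h : ∀ P : Ideal B, P.IsMaximal → P ≠ ⊥ → algebraMap A B s ∉ P →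
      ∃ a : A, algebraMap A B a ∈ P ∧ algebraMap A B a ∉ P ^ 2) :
    ∃ N : ℕ, algebraMap A B s ^ N ∈ differentIdeal A B := by
  classical
  haveI : Module.Finite A B := IsIntegralClosure.finite A F F' B
  haveI : Algebra.IsIntegral A B := IsIntegralClosure.isIntegral_algebra A F'
  haveI : CharZero A := by
    refine ⟨fun m n hmn => ?_⟩
    have := congrArg (algebraMap A F) hmn
    simpa using this
  haveI : CharZero (FractionRing A) :=
    charZero_of_injective_algebraMap (IsFractionRing.injective A (FractionRing A))
  haveI : Algebra.IsSeparable (FractionRing A) (FractionRing B) := inferInstance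
  have hrad : algebraMap A B s ∈ (differentIdeal A B).radical := by
    rw [Ideal.radical_eq_sInf, Ideal.mem_sInf]
    rintro J ⟨hJ, hJp⟩
    have hJ0 : J ≠ ⊥ := by
      rintro rfl
      exact (differentIdeal_ne_bot (A := A) (B := B)) (le_bot_iff.mp hJ)
    have hJmax : J.IsMaximal := hJp.isMaximal hJ0
    by_contra hs
    obtain ⟨a, ha1, ha2⟩ := h J hJmax hJ0 hs
    exact FA_S18_CUD_different_not_le K A B F F' J hJmax hJ0 a ha1 ha2 hJ
  exact hrad

/-- Trace-dual form away from `s`. -/
theorem FA_S18_CUD_dual_core
    (K A B F F' : Type*) [Field K] [CharZero K] [CommRing A] [CommRing B] [Field F] [Field F']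
    [Algebra K A]
    [Algebra A F] [Algebra B F'] [Algebra A B] [Algebra F F'] [Algebra A F']
    [IsScalarTower A F F'] [IsScalarTower A B F']
    [IsDedekindDomain A] [IsDedekindDomain B] [IsFractionRing A F] [IsFractionRing B F']
    [FiniteDimensional F F'] [CharZero F] [IsIntegralClosure B A F']
    [Module.IsTorsionFree A B]
    (s : A)
    (h : ∀ P : Ideal B, P.IsMaximal → P ≠ ⊥ → algebraMap A B s ∉ P →
      ∃ a : A, algebraMap A B a ∈ P ∧ algebraMap A B a ∉ P ^ 2)
    (y : F')
    (hy : ∀ b : B, ∃ (m : ℕ) (a : A),
      algebraMap A F (s ^ m) * Algebra.trace F F' (y * algebraMap B F' b) = algebraMap A F a) :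
    ∃ (N : ℕ) (b : B), algebraMap B F' b = algebraMap A F' (s ^ N) * y := by
  classical
  haveI : Module.Finite A B := IsIntegralClosure.finite A F F' B
  obtain ⟨N, hN⟩ := FA_S18_CUD_pow_mem_different K A B F F' s h
  have htr : ∀ (c : F) (z : F'),
      Algebra.trace F F' (algebraMap F F' c * z) = c * Algebra.trace F F' z := by
    intro c z
    rw [← Algebra.smul_def, map_smul, smul_eq_mul]
  -- a uniform exponent
  obtain ⟨S, hS⟩ := (Module.finite_def (R := A) (M := B)).mp inferInstance
  choose mf af hmf using hy
  set m : ℕ := S.sup mf with hm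
  have huni : ∀ b : B, ∃ a : A,
      algebraMap A F (s ^ m) * Algebra.trace F F' (y * algebraMap B F' b) = algebraMap A F a := by
    intro b
    have hb : b ∈ Submodule.span A (S : Set B) := by rw [hS]; trivial
    induction hb using Submodule.span_induction with
    | mem g hg =>
      have hle : mf g ≤ m := Finset.le_sup hg
      refine ⟨s ^ (m - mf g) * af g, ?_⟩
      rw [map_mul (algebraMap A F), ← hmf g, ← mul_assoc, ← map_mul (algebraMap A F), ← pow_add,
        Nat.sub_add_cancel hle]
    | zero => exact ⟨0, by simp⟩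
    | add b₁ b₂ _ _ h₁ h₂ =>
      obtain ⟨a₁, ha₁⟩ := h₁
      obtain ⟨a₂, ha₂⟩ := h₂
      refine ⟨a₁ + a₂, ?_⟩
      rw [map_add, mul_add, map_add, mul_add, ha₁, ha₂, map_add]
    | smul c b _ h₁ =>
      obtain ⟨a₁, ha₁⟩ := h₁
      refine ⟨c * a₁, ?_⟩
      have e1 : y * algebraMap B F' (c • b) = algebraMap F F' (algebraMap A F c) *
          (y * algebraMap B F' b) := by
        rw [Algebra.smul_def, map_mul, ← IsScalarTower.algebraMap_apply A B F',
          IsScalarTower.algebraMap_apply A F F']
        ring
      rw [e1, htr, mul_left_comm, ha₁, map_mul]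
  -- `s ^ m * y` lies in the dual of `1`
  have h3 : algebraMap A F' (s ^ m) * y
      ∈ FractionalIdeal.dual A F (1 : FractionalIdeal (nonZeroDivisors B) F') := by
    rw [FractionalIdeal.mem_dual (one_ne_zero' (FractionalIdeal (nonZeroDivisors B) F'))]
    intro a ha
    obtain ⟨b, rfl⟩ := (FractionalIdeal.mem_one_iff _).mp ha
    obtain ⟨a', ha'⟩ := huni b
    refine ⟨a', ?_⟩
    rw [Algebra.traceForm_apply, ← ha', IsScalarTower.algebraMap_apply A F F', mul_assoc, htr]
  have h1 := coeIdeal_differentIdeal A F F' B
  have hD0 : FractionalIdeal.dual A F (1 : FractionalIdeal (nonZeroDivisors B) F') ≠ 0 :=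
    FractionalIdeal.dual_ne_zero A F (one_ne_zero' (FractionalIdeal (nonZeroDivisors B) F'))
  have h4 : (↑(differentIdeal A B) : FractionalIdeal (nonZeroDivisors B) F') *
      FractionalIdeal.dual A F (1 : FractionalIdeal (nonZeroDivisors B) F') = 1 := by
    rw [h1]; exact inv_mul_cancel₀ hD0
  have h5 : algebraMap B F' (algebraMap A B s ^ N) * (algebraMap A F' (s ^ m) * y) ∈
      (↑(differentIdeal A B) : FractionalIdeal (nonZeroDivisors B) F') *
      FractionalIdeal.dual A F (1 : FractionalIdeal (nonZeroDivisors B) F') :=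
    FractionalIdeal.mul_mem_mul
      ((FractionalIdeal.mem_coeIdeal _).mpr ⟨_, hN, rfl⟩) h3
  rw [h4] at h5
  obtain ⟨b, hb⟩ := (FractionalIdeal.mem_one_iff _).mp h5
  refine ⟨N + m, b, ?_⟩
  rw [hb, pow_add, map_mul (algebraMap A F'), map_pow (algebraMap B F'),
    ← IsScalarTower.algebraMap_apply A B F', map_pow (algebraMap A F'), mul_assoc,
    map_pow (algebraMap A F')]

end Core

end Fermat.Agent.S18
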