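import Mathlib
import Fermat.Agent.S18.CuspDualCore
import Fermat.Agent.Lib.RR.ChartSum

/-!
# S18, leaf N, sub-leaf CUSP, part D: the trace-dual form for the chart `K[x][1/s]`

`K` algebraically closed of characteristic zero, `F` a function field, `x : F` transcendental,
`F / K(x)` finite, `s ∈ K[X]`.  If for every `β` with `s(β) ≠ 0` all zeros of `x - β` are simple,
then for every `y : F`

  `(∀ b integral over K[x], ∃ m, s(x) ^ m * Tr_{F/K(x)}(y · b) ∈ K[x]) →`
  `∃ N, s(x) ^ N * y` is integral over `K[x]`.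
-/

set_option autoImplicit false
set_option linter.style.haveILetI false

noncomputable section

open AlgebraicCurve IsDedekindDomain IntermediateField WithZero Polynomial
open scoped IntermediateField.algebraAdjoinAdjoin

namespace Fermat.Agent.S18

variable {K F : Type*} [Field K] [Field F] [Algebra K F]

/-- The generator of `K[x]`. -/
abbrev FA_S18_CUD_x0 (K : Type*) [Field K] {F : Type*} [Field F] [Algebra K F] (x : F) :
    Algebra.adjoin K {x} :=
  ⟨x, Algebra.subset_adjoin (Set.mem_singleton x)⟩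

section
variable [IsAlgClosed K] [CharZero K] {x : F} (hx : Transcendental K x)
  [FiniteDimensional K⟮x⟯ F]
include hx

/-- A maximal ideal of the chart ring not containing `s(x)` is unramified over `K[x]`. -/
theorem FA_S18_CUD_chart_unram (s : K[X])
    (hsimple : ∀ β : K, s.eval β ≠ 0 → ∀ v : Place K F,
      0 < v.ord (x - algebraMap K F β) → v.ord (x - algebraMap K F β) = 1)
    (P : Ideal (FA_RR.chartRing K x)) (hPmax : P.IsMaximal) (hP0 : P ≠ ⊥)
    (hs : algebraMap (Algebra.adjoin K {x}) (FA_RR.chartRing K x)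
      (aeval (FA_S18_CUD_x0 K x) s) ∉ P) :
    ∃ a : Algebra.adjoin K {x}, algebraMap _ (FA_RR.chartRing K x) a ∈ P ∧
      algebraMap _ (FA_RR.chartRing K x) a ∉ P ^ 2 := by
  haveI := FA_RR.isDedekindDomain_chartRing hx
  haveI := FA_RR.isFractionRing_chartRing (K := K) x
  haveI := FA_RR.finiteType_chartRing hx
  let w : HeightOneSpectrum (FA_RR.chartRing K x) := ⟨P, hPmax.isPrime, hP0⟩
  obtain ⟨β, hβ⟩ := FA_RR.exists_const_sub_mem (K := K) w (FA_RR.xR K x)
  have hβP : FA_RR.xR K x - algebraMap K (FA_RR.chartRing K x) β ∈ P := hβ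
  refine ⟨FA_S18_CUD_x0 K x - algebraMap K _ β, ?_, ?_⟩
  · have : algebraMap (Algebra.adjoin K {x}) (FA_RR.chartRing K x)
        (FA_S18_CUD_x0 K x - algebraMap K _ β)
        = FA_RR.xR K x - algebraMap K (FA_RR.chartRing K x) β := by
      apply Subtype.ext
      rfl
    rw [this]; exact hβP
  · have hmapa : algebraMap (Algebra.adjoin K {x}) (FA_RR.chartRing K x)
        (FA_S18_CUD_x0 K x - algebraMap K _ β)
        = FA_RR.xR K x - algebraMap K (FA_RR.chartRing K x) β := by
      apply Subtype.ext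
      rfl
    rw [hmapa]
    -- `s(β) ≠ 0`
    have hsβ : s.eval β ≠ 0 := by
      intro h0
      apply hs
      have h1 : algebraMap (Algebra.adjoin K {x}) (FA_RR.chartRing K x)
          (aeval (FA_S18_CUD_x0 K x) s) = aeval (FA_RR.xR K x) s := by
        rw [← Polynomial.aeval_algebraMap_apply]
        rfl
      rw [h1]
      have hdvd := Polynomial.sub_dvd_eval_sub (FA_RR.xR K x)
        (algebraMap K (FA_RR.chartRing K x) β) (s.map (algebraMap K (FA_RR.chartRing K x)))
      rw [Polynomial.eval_map_algebraMap, Polynomial.eval_map_algebraMap,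
        Polynomial.aeval_algebraMap_apply_eq_algebraMap_eval, h0, map_zero, sub_zero] at hdvd
      exact Ideal.mem_of_dvd P hdvd hβP
    -- the place
    have hne : x - algebraMap K F β ≠ 0 := by
      intro h
      apply hx
      rw [sub_eq_zero.mp h]
      exact isAlgebraic_algebraMap β
    have hcoe : algebraMap (FA_RR.chartRing K x) F
        (FA_RR.xR K x - algebraMap K (FA_RR.chartRing K x) β) = x - algebraMap K F β := rfl
    have hval : (FA_RR.chartPlace hx w).adicValuation (x - algebraMap K F β) =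
        w.valuation F (x - algebraMap K F β) := FA_RR.chartPlace_adicValuation hx w _
    have hlt : (FA_RR.chartPlace hx w).adicValuation (x - algebraMap K F β) < 1 := by
      rw [hval, ← hcoe]
      exact (w.valuation_lt_one_iff_mem _).mpr hβP
    have hpos : 0 < (FA_RR.chartPlace hx w).ord (x - algebraMap K F β) := by
      rcases (FA_RR.adicValuation_lt_one_iff _).mp hlt with h | h
      · exact absurd h hne
      · exact h
    have hone := hsimple β hsβ _ hpos
    intro hP2
    have h2 : w.valuation F (algebraMap (FA_RR.chartRing K x) F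
        (FA_RR.xR K x - algebraMap K (FA_RR.chartRing K x) β)) ≤ exp (-((2 : ℕ) : ℤ)) := by
      rw [HeightOneSpectrum.valuation_of_algebraMap]
      exact (w.intValuation_le_pow_iff_mem _ 2).mpr hP2
    rw [hcoe, ← hval, (FA_RR.chartPlace hx w).adicValuation_eq_exp_neg_ord hne, hone,
      WithZero.exp_le_exp] at h2
    norm_num at h2

/-- Trace-dual form for the chart `K[x][1/s]`, in terms of `K[x]` and its integral closure. -/
theorem FA_S18_CUD_dual_chart (s : K[X])
    (hsimple : ∀ β : K, s.eval β ≠ 0 → ∀ v : Place K F,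
      0 < v.ord (x - algebraMap K F β) → v.ord (x - algebraMap K F β) = 1)
    (y : F)
    (hy : ∀ b : F, IsIntegral (Algebra.adjoin K {x}) b →
      ∃ (m : ℕ) (a : Algebra.adjoin K {x}),
        algebraMap (Algebra.adjoin K {x}) K⟮x⟯ (aeval (FA_S18_CUD_x0 K x) s ^ m) *
          Algebra.trace K⟮x⟯ F (y * b) = algebraMap (Algebra.adjoin K {x}) K⟮x⟯ a) :
    ∃ N : ℕ, IsIntegral (Algebra.adjoin K {x}) (aeval x s ^ N * y) := by
  haveI := FA_RR.isDedekindDomain_chartRing hx
  haveI := FA_RR.isFractionRing_chartRing (K := K) x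
  haveI : IsPrincipalIdealRing (Algebra.adjoin K {x}) := FA_RR.isPrincipalIdealRing_adjoin hx
  haveI : CharZero K⟮x⟯ := charZero_of_injective_algebraMap (algebraMap K K⟮x⟯).injective
  haveI : IsScalarTower (Algebra.adjoin K {x}) (FA_RR.chartRing K x) F :=
    IsScalarTower.of_algebraMap_eq (fun _ => rfl)
  obtain ⟨N, b, hb⟩ := FA_S18_CUD_dual_core K (Algebra.adjoin K {x}) (FA_RR.chartRing K x)
    (↥(K⟮x⟯)) F (aeval (FA_S18_CUD_x0 K x) s)
    (fun P hPmax hP0 hs => FA_S18_CUD_chart_unram hx s hsimple P hPmax hP0 hs)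
    y (fun b => hy (b : F) b.2)
  refine ⟨N, ?_⟩
  have h1 : algebraMap (Algebra.adjoin K {x}) F (aeval (FA_S18_CUD_x0 K x) s ^ N)
      = aeval x s ^ N := by
    rw [map_pow, ← Polynomial.aeval_algebraMap_apply]
    rfl
  rw [← h1, ← hb]
  exact b.2

end

section Wrapper

variable [IsAlgClosed K] [CharZero K]

/-- A field `L` with `K ⊆ L ⊆ F` whose image is `K(x)` is isomorphic to `K⟮x⟯`. -/
def FA_S18_CUD_equiv {L : Type*} [Field L] [Algebra K L] [Algebra L F] [IsScalarTower K L F]
    (x₀ : L) (hL : ∀ l : L, algebraMap L F l ∈ K⟮algebraMap L F x₀⟯) :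
    L ≃+* ↥(K⟮algebraMap L F x₀⟯) :=
  RingEquiv.ofBijective
    ((algebraMap L F).codRestrict (K⟮algebraMap L F x₀⟯).toSubring hL)
    ⟨fun a b h => (algebraMap L F).injective (congrArg Subtype.val h), by
      rintro ⟨z, hz⟩
      have hle : K⟮algebraMap L F x₀⟯ ≤ (IsScalarTower.toAlgHom K L F).fieldRange := by
        rw [IntermediateField.adjoin_le_iff]
        rintro t ht
        rw [Set.mem_singleton_iff] at ht
        subst ht
        exact ⟨x₀, rfl⟩
      obtain ⟨l, hl⟩ := hle hz
      exact ⟨l, Subtype.ext hl⟩⟩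

omit [IsAlgClosed K] [CharZero K] in
theorem FA_S18_CUD_equiv_coe {L : Type*} [Field L] [Algebra K L] [Algebra L F]
    [IsScalarTower K L F]
    (x₀ : L) (hL : ∀ l : L, algebraMap L F l ∈ K⟮algebraMap L F x₀⟯) (l : L) :
    ((FA_S18_CUD_equiv x₀ hL l : ↥(K⟮algebraMap L F x₀⟯)) : F) = algebraMap L F l := rfl

/-- **CU-D**: the trace-dual form for the chart `RQ = K[x][1/s(x)] ⊂ L = K(x)`,
`BQ =` its integral closure in `F`, in `Subring` form (any subrings with the two stated
properties). -/
theorem FA_S18_CUD_dual {L : Type*} [Field L] [Algebra K L] [Algebra L F] [IsScalarTower K L F]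
    [FiniteDimensional L F]
    (x₀ : L) (hx : Transcendental K (algebraMap L F x₀))
    (hL : ∀ l : L, algebraMap L F l ∈ K⟮algebraMap L F x₀⟯)
    (s : K[X])
    (hsimple : ∀ β : K, s.eval β ≠ 0 → ∀ v : Place K F,
      0 < v.ord (algebraMap L F x₀ - algebraMap K F β) →
        v.ord (algebraMap L F x₀ - algebraMap K F β) = 1)
    (RQ : Subring L) (BQ : Subring F)
    (hRQ : ∀ r ∈ RQ, ∃ (m : ℕ) (p : K[X]), aeval x₀ s ^ m * r = aeval x₀ p)
    (hBQ : ∀ (y : F) (N : ℕ), IsIntegral (Algebra.adjoin K {algebraMap L F x₀})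
      (aeval (algebraMap L F x₀) s ^ N * y) → y ∈ BQ)
    (y : F) (hy : ∀ b ∈ BQ, Algebra.trace L F (y * b) ∈ RQ) : y ∈ BQ := by
  let e := FA_S18_CUD_equiv (K := K) (F := F) x₀ hL
  have he : (algebraMap ↥(K⟮algebraMap L F x₀⟯) F).comp
      (e : L →+* ↥(K⟮algebraMap L F x₀⟯)) = algebraMap L F := by
    ext l
    rfl
  haveI : FiniteDimensional ↥(K⟮algebraMap L F x₀⟯) F :=
    Module.Finite.of_equiv_equiv (A₁ := L) (B₁ := F) e (RingEquiv.refl F) (by
      rw [he]
      ext l
      rfl)
  have h1 : ∀ q : K[X], algebraMap L F (aeval x₀ q) = aeval (algebraMap L F x₀) q := by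
    intro q
    rw [← Polynomial.aeval_algebraMap_apply]
  have hz : ∀ q : K[X], ((aeval (FA_S18_CUD_x0 K (algebraMap L F x₀)) q :
      Algebra.adjoin K {algebraMap L F x₀}) : F) = aeval (algebraMap L F x₀) q := by
    intro q
    have : ((aeval (FA_S18_CUD_x0 K (algebraMap L F x₀)) q :
      Algebra.adjoin K {algebraMap L F x₀}) : F) =
        algebraMap (Algebra.adjoin K {algebraMap L F x₀}) F
          (aeval (FA_S18_CUD_x0 K (algebraMap L F x₀)) q) := rfl
    rw [this, ← Polynomial.aeval_algebraMap_apply]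
    rfl
  obtain ⟨N, hN⟩ := FA_S18_CUD_dual_chart hx s hsimple y (by
    intro b hb
    have hbB : b ∈ BQ := hBQ b 0 (by simpa using hb)
    obtain ⟨m, p, hmp⟩ := hRQ _ (hy b hbB)
    refine ⟨m, aeval (FA_S18_CUD_x0 K (algebraMap L F x₀)) p, ?_⟩
    have htr : e (Algebra.trace L F (y * b)) =
        Algebra.trace ↥(K⟮algebraMap L F x₀⟯) F (y * b) :=
      Algebra.trace_eq_of_ringEquiv e he (y * b)
    rw [← htr]
    apply Subtype.ext
    have h3 := congrArg (algebraMap L F) hmp
    rw [map_mul, map_pow, h1, h1] at h3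
    calc _ = ((aeval (FA_S18_CUD_x0 K (algebraMap L F x₀)) s :
          Algebra.adjoin K {algebraMap L F x₀}) : F) ^ m *
          algebraMap L F (Algebra.trace L F (y * b)) := rfl
      _ = aeval (algebraMap L F x₀) s ^ m * algebraMap L F (Algebra.trace L F (y * b)) := by
          rw [hz]
      _ = aeval (algebraMap L F x₀) p := h3
      _ = _ := by rw [← hz p]; rfl)
  exact hBQ y N hN

end Wrapper

end Fermat.Agent.S18

end
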