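import Mathlib
import Fermat.Agent.S18.CuspDual
import Fermat.Agent.S18.CuspBase

/-!
# S18, leaf N, sub-leaf CUSP, part D (continued): the chart `BQ` of the cover

`BQ = {y ∈ F | ∃ N, s(x)^N · y integral over K[x]}` (the integral closure of
`RQ = K[x][1/s(x)]` in `F`), and the characteristic-zero fields `smul_mem`, `tr_mem`, `dual`, `fg`
of `FA_S18_U_GlueHyp` for the pair `(RQ, BQ)`.
-/

set_option autoImplicit false
set_option linter.style.haveILetI false
set_option linter.unusedSectionVars false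

noncomputable section

open AlgebraicCurve IsDedekindDomain IntermediateField WithZero Polynomial
open scoped IntermediateField.algebraAdjoinAdjoin

namespace Fermat.Agent.S18

variable {K F : Type*} [Field K] [Field F] [Algebra K F]

theorem FA_S18_CUDB_isIntegral_aeval (x : F) (p : K[X]) :
    IsIntegral (Algebra.adjoin K {x}) (aeval x p) := by
  have : aeval x p = algebraMap (Algebra.adjoin K {x}) F (aeval (FA_S18_CUD_x0 K x) p) := by
    rw [← Polynomial.aeval_algebraMap_apply]
    rfl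
  rw [this]
  exact isIntegral_algebraMap

/-- The chart of the cover: `BQ = {y | ∃ N, s(x)^N · y` integral over `K[x]}`. -/
def FA_S18_CUDB_BQ (K : Type*) [Field K] {F : Type*} [Field F] [Algebra K F] (x : F)
    (s : K[X]) : Subring F where
  carrier := {y | ∃ N : ℕ, IsIntegral (Algebra.adjoin K {x}) (aeval x s ^ N * y)}
  one_mem' := ⟨0, by simpa using isIntegral_one⟩
  zero_mem' := ⟨0, by simpa using isIntegral_zero⟩
  mul_mem' := by
    rintro a b ⟨N, ha⟩ ⟨M, hb⟩
    refine ⟨N + M, ?_⟩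
    have : aeval x s ^ (N + M) * (a * b) = (aeval x s ^ N * a) * (aeval x s ^ M * b) := by
      rw [pow_add]; ring
    rw [this]
    exact ha.mul hb
  add_mem' := by
    rintro a b ⟨N, ha⟩ ⟨M, hb⟩
    refine ⟨N + M, ?_⟩
    have : aeval x s ^ (N + M) * (a + b) = aeval x s ^ M * (aeval x s ^ N * a)
        + aeval x s ^ N * (aeval x s ^ M * b) := by
      rw [pow_add]; ring
    rw [this]
    exact (((FA_S18_CUDB_isIntegral_aeval x s).pow M).mul ha).add
      (((FA_S18_CUDB_isIntegral_aeval x s).pow N).mul hb)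
  neg_mem' := by
    rintro a ⟨N, ha⟩
    exact ⟨N, by rw [mul_neg]; exact ha.neg⟩

theorem FA_S18_CUDB_mem_BQ {x : F} {s : K[X]} {y : F} :
    y ∈ FA_S18_CUDB_BQ K x s ↔
      ∃ N : ℕ, IsIntegral (Algebra.adjoin K {x}) (aeval x s ^ N * y) := Iff.rfl

theorem FA_S18_CUDB_mem_of_isIntegral {x : F} {s : K[X]} {y : F}
    (hy : IsIntegral (Algebra.adjoin K {x}) y) : y ∈ FA_S18_CUDB_BQ K x s :=
  ⟨0, by simpa using hy⟩

section L

variable {L : Type*} [Field L] [Algebra K L] [Algebra L F] [IsScalarTower K L F]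

theorem FA_S18_CUDB_map_aeval (x₀ : L) (q : K[X]) :
    algebraMap L F (aeval x₀ q) = aeval (algebraMap L F x₀) q := by
  rw [← Polynomial.aeval_algebraMap_apply]

/-- `smul_mem`. -/
theorem FA_S18_CUDB_smul_mem (x₀ : L) (s : K[X]) :
    ∀ r ∈ FA_S18.FA_S18_CUU_RQ x₀ s, ∀ y ∈ FA_S18_CUDB_BQ K (algebraMap L F x₀) s,
      algebraMap L F r * y ∈ FA_S18_CUDB_BQ K (algebraMap L F x₀) s := by
  rintro r ⟨P, m, hP⟩ y ⟨N, hy⟩
  refine ⟨m + N, ?_⟩
  have h := congrArg (algebraMap L F) hP
  rw [map_mul, map_pow, FA_S18_CUDB_map_aeval, FA_S18_CUDB_map_aeval] at h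
  have : aeval (algebraMap L F x₀) s ^ (m + N) * (algebraMap L F r * y)
      = (algebraMap L F r * aeval (algebraMap L F x₀) s ^ m) *
        (aeval (algebraMap L F x₀) s ^ N * y) := by
    rw [pow_add]; ring
  rw [this, h]
  exact (FA_S18_CUDB_isIntegral_aeval _ P).mul hy

end L

end Fermat.Agent.S18

end
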