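import Mathlib

/-!
# S18, leaf N, sub-leaf BASE: integrality over `K[s]` inside an intermediate field

For an intermediate field `E` of `L / K`, a set `s ⊆ E` and `y ∈ E`:
`y` is integral over `K[s]` (computed in `E`) iff it is integral over `K[s]` (computed in `L`).
-/

set_option autoImplicit false

noncomputable section

namespace FA_S18

variable {K L : Type*} [Field K] [Field L] [Algebra K L] (E : IntermediateField K L)

theorem FA_S18_BASE_coe_mem_adjoin (s : Set E) (r : E) (hr : r ∈ Algebra.adjoin K s) :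
    (r : L) ∈ Algebra.adjoin K ((fun z : E => (z : L)) '' s) := by
  have h := AlgHom.map_adjoin E.val s
  have h2 : E.val r ∈ (Algebra.adjoin K s).map E.val := ⟨r, hr, rfl⟩
  rw [h] at h2
  exact h2

theorem FA_S18_BASE_mem_adjoin_of_coe (s : Set E) (t : L)
    (ht : t ∈ Algebra.adjoin K ((fun z : E => (z : L)) '' s)) :
    ∃ r : E, r ∈ Algebra.adjoin K s ∧ (r : L) = t := by
  have h := AlgHom.map_adjoin E.val s
  have h2 : t ∈ (Algebra.adjoin K s).map E.val := by
    rw [h]; exact ht
  obtain ⟨r, hr, hrt⟩ := h2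
  exact ⟨r, hr, hrt⟩

/-- the ring homomorphism `K[s] (in E) → K[s] (in L)` -/
def FA_S18_BASE_adjoinMap (s : Set E) :
    Algebra.adjoin K s →+* Algebra.adjoin K ((fun z : E => (z : L)) '' s) where
  toFun r := ⟨((r : E) : L), FA_S18_BASE_coe_mem_adjoin E s r r.2⟩
  map_one' := rfl
  map_mul' _ _ := rfl
  map_zero' := rfl
  map_add' _ _ := rfl

theorem FA_S18_BASE_adjoinMap_surjective (s : Set E) :
    Function.Surjective (FA_S18_BASE_adjoinMap E s) := by
  rintro ⟨t, ht⟩
  obtain ⟨r, hr, hrt⟩ := FA_S18_BASE_mem_adjoin_of_coe E s t ht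
  exact ⟨⟨r, hr⟩, Subtype.ext hrt⟩

theorem FA_S18_BASE_isIntegral_coe_iff (s : Set E) (y : E) :
    IsIntegral (Algebra.adjoin K s) y ↔
      IsIntegral (Algebra.adjoin K ((fun z : E => (z : L)) '' s)) (y : L) := by
  have hcomp : (algebraMap (Algebra.adjoin K ((fun z : E => (z : L)) '' s)) L).comp
      (FA_S18_BASE_adjoinMap E s)
      = (algebraMap E L).comp (algebraMap (Algebra.adjoin K s) E) := rfl
  constructor
  · rintro ⟨p, hp, hpy⟩
    refine ⟨p.map (FA_S18_BASE_adjoinMap E s), hp.map _, ?_⟩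
    rw [Polynomial.eval₂_map, hcomp]
    have := Polynomial.hom_eval₂ p (algebraMap (Algebra.adjoin K s) E) (algebraMap E L) y
    have e : (algebraMap E L) y = (y : L) := rfl
    rw [e] at this
    rw [← this, hpy, map_zero]
  · rintro ⟨q, hq, hqy⟩
    obtain ⟨p, hpq, -, hp⟩ := Polynomial.lifts_and_degree_eq_and_monic
      ((Polynomial.mem_lifts q).2 (Polynomial.map_surjective _
        (FA_S18_BASE_adjoinMap_surjective E s) q)) hq
    refine ⟨p, hp, ?_⟩
    rw [← hpq, Polynomial.eval₂_map, hcomp] at hqy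
    have := Polynomial.hom_eval₂ p (algebraMap (Algebra.adjoin K s) E) (algebraMap E L) y
    have e : (algebraMap E L) y = (y : L) := rfl
    rw [e] at this
    rw [← this] at hqy
    exact (algebraMap E L).injective (by rw [hqy, map_zero])

theorem FA_S18_BASE_isIntegral_coe_iff_singleton (x y : E) :
    IsIntegral (Algebra.adjoin K {x}) y ↔ IsIntegral (Algebra.adjoin K {(x : L)}) (y : L) := by
  have := FA_S18_BASE_isIntegral_coe_iff E {x} y
  rwa [Set.image_singleton] at this

theorem FA_S18_BASE_isIntegral_coe_iff_pair (x x' y : E) :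
    IsIntegral (Algebra.adjoin K {x, x'}) y ↔
      IsIntegral (Algebra.adjoin K {(x : L), (x' : L)}) (y : L) := by
  have := FA_S18_BASE_isIntegral_coe_iff E {x, x'} y
  rwa [Set.image_pair] at this

end FA_S18
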