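import Mathlib
import Fermat.Agent.S18.CuspDescent

/-!
# S18, leaf N / CUSP, part E (integrality): descent of integrality from `K[x]` to `K[u]`

`x = t · σ g` with `x ^ w = σ u`.  If `s'(x) · y'` is integral over `K[x]` (`s' ∈ A[X]`,
`s̄'(0) ≠ 0`), then `s(u) · dec y'` is integral over `K[u]` for some `s ∈ A[X]` with `s̄(0) ≠ 0`
(`FA_S18_CUE_descent_integral`).
-/

set_option autoImplicit false
set_option linter.unusedSectionVars false

noncomputable section

namespace Fermat.Agent.S18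

open ModularCurve Polynomial

section Ev

variable {K : Type*} [Field K]

/-- Evaluation of polynomials at a Laurent series, as a ring hom. -/
def FA_S18_CUE_ev (x : LaurentSeries K) : K[X] →+* LaurentSeries K :=
  (aeval x : K[X] →ₐ[K] LaurentSeries K).toRingHom

theorem FA_S18_CUE_ev_apply (x : LaurentSeries K) (p : K[X]) :
    FA_S18_CUE_ev x p = aeval x p := rfl

theorem FA_S18_CUE_ev_C (x : LaurentSeries K) (c : K) :
    FA_S18_CUE_ev x (C c) = HahnSeries.C c := by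
  rw [FA_S18_CUE_ev_apply, aeval_C, FA_S18_CUE_C_eq_algebraMap]

theorem FA_S18_CUE_ev_X (x : LaurentSeries K) : FA_S18_CUE_ev x X = x := by
  rw [FA_S18_CUE_ev_apply, aeval_X]

/-- Integrality over `K[x]` in ring-hom form. -/
theorem FA_S18_CUE_isIntegral_adjoin_iff (x z : LaurentSeries K) :
    IsIntegral (Algebra.adjoin K {x}) z ↔ (FA_S18_CUE_ev x).IsIntegralElem z := by
  let S := Algebra.adjoin K ({x} : Set (LaurentSeries K))
  let φ : K[X] →+* S :=
    ((aeval x : K[X] →ₐ[K] LaurentSeries K).codRestrict S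
      (fun p => aeval_mem_adjoin_singleton K x)).toRingHom
  have hφ : Function.Surjective φ := by
    rintro ⟨y, hy⟩
    have hy' : y ∈ (aeval x : K[X] →ₐ[K] LaurentSeries K).range := by
      rw [← Algebra.adjoin_singleton_eq_range_aeval]; exact hy
    obtain ⟨p, hp⟩ := hy'
    exact ⟨p, Subtype.ext hp⟩
  have hcomp : FA_S18_CUE_ev x = (algebraMap S (LaurentSeries K)).comp φ := by
    ext p <;> rfl
  constructor
  · rintro ⟨P, hP, hPz⟩
    have hl : P ∈ lifts φ := by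
      rw [lifts_iff_coeff_lifts]
      intro n
      exact hφ _
    obtain ⟨Q, hQ, -, hQm⟩ := lifts_and_natDegree_eq_and_monic hl hP
    refine ⟨Q, hQm, ?_⟩
    rw [hcomp, ← eval₂_map, hQ]
    exact hPz
  · intro h
    rw [hcomp] at h
    exact h.of_comp

/-- The scaling `X ↦ c X`. -/
def FA_S18_CUE_scale (c : K) : K[X] →+* K[X] :=
  (aeval (C c * X) : K[X] →ₐ[K] K[X]).toRingHom

theorem FA_S18_CUE_scale_apply (c : K) (p : K[X]) :
    FA_S18_CUE_scale c p = p.comp (C c * X) := by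
  show aeval (C c * X) p = _
  rw [aeval_def, comp, algebraMap_eq]

/-- The twist commutes with evaluation at an eigenvector. -/
theorem FA_S18_CUE_tw_comp_ev (ξ : Kˣ) (x : LaurentSeries K)
    (hx : FA_S18_CUE_tw ξ x = HahnSeries.C (ξ : K) * x) :
    (FA_S18_CUE_tw ξ).comp (FA_S18_CUE_ev x)
      = (FA_S18_CUE_ev x).comp (FA_S18_CUE_scale (ξ : K)) := by
  apply Polynomial.ringHom_ext
  · intro c
    rw [RingHom.comp_apply, RingHom.comp_apply, FA_S18_CUE_ev_C, FA_S18_CUE_tw_C,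
      FA_S18_CUE_scale_apply, C_comp, FA_S18_CUE_ev_C]
  · rw [RingHom.comp_apply, RingHom.comp_apply, FA_S18_CUE_ev_X, hx, FA_S18_CUE_scale_apply,
      X_comp, map_mul, FA_S18_CUE_ev_C, FA_S18_CUE_ev_X]

/-- I1: integrality over `K[x]` is stable under twists. -/
theorem FA_S18_CUE_integral_tw (ξ : Kˣ) (x : LaurentSeries K)
    (hx : FA_S18_CUE_tw ξ x = HahnSeries.C (ξ : K) * x) {z : LaurentSeries K}
    (hz : (FA_S18_CUE_ev x).IsIntegralElem z) :
    (FA_S18_CUE_ev x).IsIntegralElem (FA_S18_CUE_tw ξ z) := by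
  have h1 := hz.map (FA_S18_CUE_tw ξ)
  rw [FA_S18_CUE_tw_comp_ev ξ x hx] at h1
  exact h1.of_comp

/-- Elementwise transitivity of integrality. -/
theorem FA_S18_CUE_trans_elem {R S T : Type*} [CommRing R] [CommRing S] [CommRing T]
    (f : R →+* S) (g : S →+* T) (hf : f.IsIntegral) {z : T} (hz : g.IsIntegralElem z) :
    (g.comp f).IsIntegralElem z := by
  letI := f.toAlgebra
  letI := g.toAlgebra
  letI := (g.comp f).toAlgebra
  haveI : IsScalarTower R S T := IsScalarTower.of_algebraMap_eq fun _ => rfl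
  haveI : Algebra.IsIntegral R S := ⟨hf⟩
  exact isIntegral_trans (R := R) (A := S) z hz

/-- `K[X]` is integral over `K[X^w]`. -/
theorem FA_S18_CUE_expand_isIntegral (w : ℕ) (hw : 0 < w) :
    ((expand K w : K[X] →ₐ[K] K[X]).toRingHom).IsIntegral := by
  intro p
  induction p using Polynomial.induction_on with
  | C a =>
    have : (C a : K[X]) = (expand K w : K[X] →ₐ[K] K[X]).toRingHom (C a) := by
      show C a = expand K w (C a)
      rw [expand_C]
    rw [this]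
    exact RingHom.isIntegralElem_map _
  | add p q hp hq => exact RingHom.IsIntegralElem.add _ hp hq
  | monomial n a h =>
    have hX : ((expand K w : K[X] →ₐ[K] K[X]).toRingHom).IsIntegralElem (X : K[X]) := by
      refine ⟨X ^ w - C (X : K[X]), monic_X_pow_sub_C _ hw.ne', ?_⟩
      rw [eval₂_sub, eval₂_pow, eval₂_X, eval₂_C]
      show X ^ w - expand K w X = 0
      rw [expand_X, sub_self]
    have : (C a * X ^ (n + 1) : K[X]) = (C a * X ^ n) * X := by rw [pow_succ, mul_assoc]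
    rw [this]
    exact RingHom.IsIntegralElem.mul _ h hX

/-- I2: integrality over `K[x]` implies integrality over `K[x^w]`. -/
theorem FA_S18_CUE_integral_pow (w : ℕ) (hw : 0 < w) (x : LaurentSeries K)
    {z : LaurentSeries K} (hz : (FA_S18_CUE_ev x).IsIntegralElem z) :
    (FA_S18_CUE_ev (x ^ w)).IsIntegralElem z := by
  have hcomp : FA_S18_CUE_ev (x ^ w)
      = (FA_S18_CUE_ev x).comp ((expand K w : K[X] →ₐ[K] K[X]).toRingHom) := by
    apply Polynomial.ringHom_ext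
    · intro c
      rw [RingHom.comp_apply, FA_S18_CUE_ev_C]
      show _ = FA_S18_CUE_ev x (expand K w (C c))
      rw [expand_C, FA_S18_CUE_ev_C]
    · rw [RingHom.comp_apply, FA_S18_CUE_ev_X]
      show _ = FA_S18_CUE_ev x (expand K w X)
      rw [expand_X, map_pow, FA_S18_CUE_ev_X]
  rw [hcomp]
  exact FA_S18_CUE_trans_elem _ _ (FA_S18_CUE_expand_isIntegral w hw) hz

/-- I3: integrality descends along `σ = qExpand w`. -/
theorem FA_S18_CUE_integral_of_qExpand (w : ℕ) [NeZero w] (u v : LaurentSeries K)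
    (h : (FA_S18_CUE_ev (qExpand K w u)).IsIntegralElem (qExpand K w v)) :
    (FA_S18_CUE_ev u).IsIntegralElem v := by
  have hcomp : FA_S18_CUE_ev (qExpand K w u) = (qExpand K w).comp (FA_S18_CUE_ev u) := by
    apply Polynomial.ringHom_ext
    · intro c
      rw [RingHom.comp_apply, FA_S18_CUE_ev_C, FA_S18_CUE_ev_C, qExpand_C]
    · rw [RingHom.comp_apply, FA_S18_CUE_ev_X, FA_S18_CUE_ev_X]
  rw [hcomp] at h
  exact RingHom.IsIntegralElem.of_map (qExpand_injective w) h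

end Ev


section Norm

variable {K : Type*} [Field K] (A : ValuationSubring K) {k : Type*} [Field k] (π : A →+* k)

/-- The polynomial `s'(ζ^m X)`. -/
def FA_S18_CUE_sm (ζ : Aˣ) (s' : A[X]) (m : ℕ) : A[X] := s'.comp (C ((ζ ^ m : Aˣ) : A) * X)

/-- The norm polynomial `S = Π_{m<w} s'(ζ^m X)`. -/
def FA_S18_CUE_S (w : ℕ) (ζ : Aˣ) (s' : A[X]) : A[X] :=
  ∏ m ∈ Finset.range w, FA_S18_CUE_sm A ζ s' m

variable {A}

theorem FA_S18_CUE_sm_zero (ζ : Aˣ) (s' : A[X]) : FA_S18_CUE_sm A ζ s' 0 = s' := by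
  rw [FA_S18_CUE_sm, pow_zero, Units.val_one, C_1, one_mul, comp_X]

theorem FA_S18_CUE_sm_comp (ζ : Aˣ) (s' : A[X]) (m : ℕ) :
    (FA_S18_CUE_sm A ζ s' m).comp (C ((ζ : Aˣ) : A) * X) = FA_S18_CUE_sm A ζ s' (m + 1) := by
  rw [FA_S18_CUE_sm, FA_S18_CUE_sm, comp_assoc, mul_comp, C_comp, X_comp, ← mul_assoc, ← C_mul,
    pow_succ, Units.val_mul]

theorem FA_S18_CUE_sm_coeff_zero (ζ : Aˣ) (s' : A[X]) (m : ℕ) :
    (FA_S18_CUE_sm A ζ s' m).coeff 0 = s'.coeff 0 := by
  rw [FA_S18_CUE_sm, comp_C_mul_X_coeff, pow_zero, mul_one]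

theorem FA_S18_CUE_S_coeff_zero (w : ℕ) (ζ : Aˣ) (s' : A[X]) :
    (FA_S18_CUE_S A w ζ s').coeff 0 = (s'.coeff 0) ^ w := by
  rw [FA_S18_CUE_S, coeff_zero_eq_eval_zero, eval_prod]
  have : ∀ m ∈ Finset.range w, eval 0 (FA_S18_CUE_sm A ζ s' m) = s'.coeff 0 := by
    intro m _
    rw [← coeff_zero_eq_eval_zero, FA_S18_CUE_sm_coeff_zero]
  rw [Finset.prod_congr rfl this, Finset.prod_const, Finset.card_range]

/-- The norm polynomial is invariant under `X ↦ ζ X`. -/
theorem FA_S18_CUE_S_comp (w : ℕ) (ζ : Aˣ) (hζ : ζ ^ w = 1) (s' : A[X]) (hs' : s' ≠ 0) :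
    (FA_S18_CUE_S A w ζ s').comp (C ((ζ : Aˣ) : A) * X) = FA_S18_CUE_S A w ζ s' := by
  rw [FA_S18_CUE_S, prod_comp]
  have h1 : ∀ m ∈ Finset.range w, (FA_S18_CUE_sm A ζ s' m).comp (C ((ζ : Aˣ) : A) * X)
      = FA_S18_CUE_sm A ζ s' (m + 1) := fun m _ => FA_S18_CUE_sm_comp ζ s' m
  rw [Finset.prod_congr rfl h1]
  have h2 := Finset.prod_range_succ' (fun m => FA_S18_CUE_sm A ζ s' m) w
  have h3 := Finset.prod_range_succ (fun m => FA_S18_CUE_sm A ζ s' m) w
  have hw : FA_S18_CUE_sm A ζ s' w = FA_S18_CUE_sm A ζ s' 0 := by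
    rw [FA_S18_CUE_sm, FA_S18_CUE_sm, hζ, pow_zero]
  rw [h3, hw] at h2
  have h0 : FA_S18_CUE_sm A ζ s' 0 ≠ 0 := by rw [FA_S18_CUE_sm_zero]; exact hs'
  exact (mul_right_cancel₀ h0 h2).symm

/-- The coefficients of the norm polynomial vanish outside the multiples of `w`. -/
theorem FA_S18_CUE_S_coeff (w : ℕ) (ζ : Aˣ) (hζ : IsPrimitiveRoot ζ w) (s' : A[X])
    (hs' : s' ≠ 0) (n : ℕ) (hn : ¬ w ∣ n) : (FA_S18_CUE_S A w ζ s').coeff n = 0 := by
  have h := congrArg (fun p => p.coeff n) (FA_S18_CUE_S_comp w ζ hζ.pow_eq_one s' hs')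
  simp only [comp_C_mul_X_coeff] at h
  have hne : ((ζ : Aˣ) : A) ^ n ≠ 1 := by
    intro h1
    apply hn
    have : ζ ^ n = 1 := Units.ext (by rw [Units.val_pow_eq_pow_val, h1, Units.val_one])
    exact (hζ.pow_eq_one_iff_dvd n).mp this
  have h2 : (FA_S18_CUE_S A w ζ s').coeff n * (((ζ : Aˣ) : A) ^ n - 1) = 0 := by
    rw [mul_sub, mul_one, h, sub_self]
  exact (mul_eq_zero.mp h2).resolve_right (sub_ne_zero.mpr hne)

/-- The norm polynomial is a polynomial in `X ^ w`. -/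
theorem FA_S18_CUE_S_expand (w : ℕ) (hw : 0 < w) (ζ : Aˣ) (hζ : IsPrimitiveRoot ζ w) (s' : A[X])
    (hs' : s' ≠ 0) :
    expand A w (contract w (FA_S18_CUE_S A w ζ s')) = FA_S18_CUE_S A w ζ s' := by
  apply Polynomial.ext
  intro n
  rw [coeff_expand hw, coeff_contract hw.ne']
  split_ifs with h
  · rw [Nat.div_mul_cancel h]
  · exact (FA_S18_CUE_S_coeff w ζ hζ s' hs' n h).symm

end Norm

end Fermat.Agent.S18
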