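import Mathlib
import Fermat.Agent.S18.CuspDescentInt
import Fermat.Agent.S18.CuspKum

/-!
# S18, leaf N / CUSP, part E: the descent theorem `F' = σ(F)(x) ⟶ F`

`σ = qExpand w`, `x = t · σ(g)`, `x ^ w = σ(c)` (`c = u = 1/j` in the application), `dec` the
`x⁰`-component (decimation).

* `FA_S18_CUE_descent_integral` : if `σ(s(c)) · y'` is integral over `K[x]` then
  `s(c) · dec y'` is integral over `K[c]`.
* `FA_S18_CUE_main` : the packaged descent: for `y' ∈ F'` Gauss-integral with `red y' = σ̄ z`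
  and `σ(s(c)) · y'` integral over `K[x]`, the element `y = dec y'` lies in `F`, is
  Gauss-integral, `red y = z` and `s(c) · y` is integral over `K[c]`.
-/

set_option autoImplicit false
set_option linter.unusedSectionVars false

noncomputable section

namespace Fermat.Agent.S18

open ModularCurve Polynomial

section Main

variable {K : Type*} [Field K]

/-- The twist of a Kummer element `x = t · σ(g)` is `ξ · x`. -/
theorem FA_S18_CUE_tw_kummer (w : ℕ) [NeZero w] (ξ : Kˣ) (hξ : ξ ^ w = 1) (g : LaurentSeries K) :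
    FA_S18_CUE_tw ξ (HahnSeries.single (1 : ℤ) (1 : K) * qExpand K w g)
      = HahnSeries.C (ξ : K) * (HahnSeries.single (1 : ℤ) (1 : K) * qExpand K w g) := by
  rw [map_mul, FA_S18_CUE_tw_single, FA_S18_CUE_tw_qExpand ξ w hξ, zpow_one, mul_one, ← mul_assoc]
  congr 1
  rw [HahnSeries.C_apply, HahnSeries.single_mul_single, zero_add, mul_one]

/-- Sums of integral elements are integral. -/
theorem FA_S18_CUE_isIntegralElem_sum {R S : Type*} [CommRing R] [CommRing S] (f : R →+* S)
    {ι : Type*} (s : Finset ι) (a : ι → S) (h : ∀ i ∈ s, f.IsIntegralElem (a i)) :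
    f.IsIntegralElem (∑ i ∈ s, a i) := by
  classical
  induction s using Finset.induction_on with
  | empty =>
    rw [Finset.sum_empty]
    have : (0 : S) = f 0 := (map_zero f).symm
    rw [this]
    exact RingHom.isIntegralElem_map _
  | insert i s hi ih =>
    rw [Finset.sum_insert hi]
    exact RingHom.IsIntegralElem.add _ (h i (Finset.mem_insert_self i s))
      (ih fun j hj => h j (Finset.mem_insert_of_mem hj))

/-- **Descent of integrality**: if `σ(s(c)) · y'` is integral over `K[x]`, then `s(c) · dec y'`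
is integral over `K[c]` (`x ^ w = σ c`). -/
theorem FA_S18_CUE_descent_integral (w : ℕ) [NeZero w] (ζ : Kˣ) (hζ : IsPrimitiveRoot ζ w)
    (hw : (w : K) ≠ 0) (g c : LaurentSeries K)
    (hx : (HahnSeries.single (1 : ℤ) (1 : K) * qExpand K w g) ^ w = qExpand K w c)
    (s : K[X]) {y' : LaurentSeries K}
    (hz : (FA_S18_CUE_ev (HahnSeries.single (1 : ℤ) (1 : K) * qExpand K w g)).IsIntegralElem
      (qExpand K w (aeval c s) * y')) :
    (FA_S18_CUE_ev c).IsIntegralElem (aeval c s * FA_S18_CUE_dec w y') := by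
  set x := HahnSeries.single (1 : ℤ) (1 : K) * qExpand K w g with hxdef
  have h1 : ∀ m ∈ Finset.range w, (FA_S18_CUE_ev x).IsIntegralElem
      (qExpand K w (aeval c s) * FA_S18_CUE_tw (ζ ^ m) y') := by
    intro m _
    have hξ : (ζ ^ m) ^ w = 1 := by
      rw [← pow_mul, mul_comm, pow_mul, hζ.pow_eq_one, one_pow]
    have h := FA_S18_CUE_integral_tw (ζ ^ m) x (FA_S18_CUE_tw_kummer w (ζ ^ m) hξ g) hz
    rwa [map_mul, FA_S18_CUE_tw_qExpand (ζ ^ m) w hξ] at h
  have h2 := FA_S18_CUE_isIntegralElem_sum (FA_S18_CUE_ev x) (Finset.range w) _ h1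
  have h3 : (FA_S18_CUE_ev x).IsIntegralElem (HahnSeries.C ((w : K)⁻¹)) := by
    rw [← FA_S18_CUE_ev_C x]
    exact RingHom.isIntegralElem_map _
  have h4 := RingHom.IsIntegralElem.mul _ h3 h2
  have h5 : HahnSeries.C ((w : K)⁻¹)
      * ∑ m ∈ Finset.range w, qExpand K w (aeval c s) * FA_S18_CUE_tw (ζ ^ m) y'
      = qExpand K w (aeval c s * FA_S18_CUE_dec w y') := by
    rw [map_mul, FA_S18_CUE_sigma_dec w ζ hζ hw y', ← Finset.mul_sum]
    ring
  rw [h5] at h4
  have h6 := FA_S18_CUE_integral_pow w (NeZero.pos w) x h4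
  rw [hx] at h6
  exact FA_S18_CUE_integral_of_qExpand w c _ h6

end Main

section Packaged

variable {K : Type*} [Field K] (A : ValuationSubring K) {k : Type*} [Field k] (π : A →+* k)

/-- **CU-E, packaged.**  `y' ∈ F' = σ(F)(x)` Gauss-integral, `red y' = σ̄ z`,
`σ(s(c)) · y'` integral over `K[x]`  ⟹  `y = dec y' ∈ F` is Gauss-integral, `red y = z`,
`s(c) · y` integral over `K[c]`. -/
theorem FA_S18_CUE_main (w : ℕ) [NeZero w] (ζ : Aˣ)
    (hζ : IsPrimitiveRoot (FA_S18_CUE_uK A ζ) w) (winv : A) (hwinv : winv * (w : A) = 1)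
    (F : IntermediateField K (LaurentSeries K)) (g c : LaurentSeries K) (hc : c ∈ F)
    (hx : (HahnSeries.single (1 : ℤ) (1 : K) * qExpand K w g) ^ w = qExpand K w c)
    (s : K[X]) {y' : LaurentSeries K}
    (hy' : y' ∈ FA_S18_CUF_Kum w F (HahnSeries.single (1 : ℤ) (1 : K) * qExpand K w g))
    (hint : FA_S18_B_IsInt A π y') (z : LaurentSeries k)
    (hred : FA_S18_B_red A π y' = qExpand k w z)
    (hz : (FA_S18_CUE_ev (HahnSeries.single (1 : ℤ) (1 : K) * qExpand K w g)).IsIntegralElem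
      (qExpand K w (aeval c s) * y')) :
    FA_S18_CUE_dec w y' ∈ F ∧ FA_S18_B_IsInt A π (FA_S18_CUE_dec w y') ∧
      FA_S18_B_red A π (FA_S18_CUE_dec w y') = z ∧
      (FA_S18_CUE_ev c).IsIntegralElem (aeval c s * FA_S18_CUE_dec w y') := by
  have hcast : ((winv : A) : K) * (w : K) = 1 := by
    have h1 := congrArg (A.subtype) hwinv
    rw [map_mul, map_natCast, map_one] at h1
    exact h1
  have hwK : (w : K) ≠ 0 := right_ne_zero_of_mul_eq_one hcast
  refine ⟨FA_S18_CUK_dec_mem w F g c hc hx hy',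
    (FA_S18_CUE_descent_isInt (π := π) w ζ hζ winv hwinv hint).1,
    FA_S18_CUE_descent_red (π := π) w ζ hζ winv hwinv hint z hred,
    FA_S18_CUE_descent_integral w (FA_S18_CUE_uK A ζ) hζ hwK g c hx s hz⟩

end Packaged

end Fermat.Agent.S18
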