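import Mathlib
import Fermat.Agent.S18.CuspDescentMain

/-!
# S18, leaf N / CUSP, final assembly, part A: polynomials in `u = 1 / j`

Naturality of `aeval u` in the coefficient ring, Gauss-integrality of `S(u)` for `S ∈ A[X]`, and
its reduction.
-/

set_option autoImplicit false
set_option linter.unusedSectionVars false

noncomputable section

namespace Fermat.Agent.S18

open ModularCurve Polynomial

section Nat

variable {R S : Type*} [CommRing R] [CommRing S]

theorem FA_S18_CUSP_algebraMap_eq_single (c : R) :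
    algebraMap R (LaurentSeries R) c = HahnSeries.single 0 c := by
  have h1 : algebraMap R (PowerSeries R) c = PowerSeries.C c := by simp
  rw [HahnSeries.algebraMap_apply', h1, HahnSeries.ofPowerSeries_C]
  rfl

theorem FA_S18_CUSP_coeffMap_algebraMap (φ : R →+* S) (c : R) :
    coeffMap φ (algebraMap R (LaurentSeries R) c) = algebraMap S (LaurentSeries S) (φ c) := by
  rw [FA_S18_CUSP_algebraMap_eq_single, FA_S18_CUSP_algebraMap_eq_single, coeffMap_single]

/-- Naturality of `P ↦ P(v)`. -/
theorem FA_S18_CUSP_coeffMap_aeval (φ : R →+* S) (v : LaurentSeries R) (P : R[X]) :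
    coeffMap φ (aeval v P) = aeval (coeffMap φ v) (P.map φ) := by
  induction P using Polynomial.induction_on' with
  | add p q hp hq => rw [map_add, map_add, hp, hq, Polynomial.map_add, map_add]
  | monomial n a =>
    rw [Polynomial.map_monomial, aeval_monomial, aeval_monomial, map_mul, map_pow,
      FA_S18_CUSP_coeffMap_algebraMap]

end Nat

section Gauss

variable {K : Type*} [Field K] (A : ValuationSubring K) {k : Type*} [Field k] (π : A →+* k)

/-- `S(u)` for `S ∈ A[X]` is the image of `S(u_A)`. -/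
theorem FA_S18_CUSP_aeval_u_eq (S : A[X]) :
    aeval (FA_S18_CU_u K) (S.map A.subtype) = coeffMap A.subtype (aeval (FA_S18_CU_u A) S) := by
  rw [FA_S18_CUSP_coeffMap_aeval, FA_S18_CUK_coeffMap_u]

theorem FA_S18_CUSP_aeval_u_isInt (S : A[X]) :
    FA_S18_B_IsInt A π (aeval (FA_S18_CU_u K) (S.map A.subtype)) := by
  rw [FA_S18_CUSP_aeval_u_eq]
  exact FA_S18_B_isInt_iota _

theorem FA_S18_CUSP_aeval_u_red (S : A[X]) :
    FA_S18_B_red A π (aeval (FA_S18_CU_u K) (S.map A.subtype))
      = aeval (FA_S18_CU_u k) (S.map π) := by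
  rw [FA_S18_CUSP_aeval_u_eq, FA_S18_B_red_iota, FA_S18_CUSP_coeffMap_aeval, FA_S18_CUK_coeffMap_u]

/-- `u = j⁻¹`. -/
theorem FA_S18_CUSP_u_eq_inv (F : Type*) [Field F] : FA_S18_CU_u F = (jqModC F)⁻¹ :=
  eq_inv_of_mul_eq_one_right (FA_S18_CU_j_mul_u F)

end Gauss

end Fermat.Agent.S18
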