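import Mathlib
import Fermat.Agent.S18.CuspFinalA
import Fermat.Agent.S18.InstB
import Fermat.Agent.S18.BaseCoe
import Fermat.Agent.S18.Charts0Inst

/-!
# S18, leaf N / CUSP, final assembly, part B: the local statement at the cusps

`FA_S18_CUSP_Target A n h p w hw` is the output of the Kummer chart (leaf U for `ℚ̄(x) ⊂ F'`);
`FA_S18_CUSP_loc` : from it, every `t ∈ F̄_n` with `t ^ p ∈ red (Bi ∩ O)` has a denominator
`S̄(ū)`, `S̄(0) ≠ 0`, with `S̄(ū) · t ∈ red (Bi ∩ O)`.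
-/

set_option autoImplicit false
set_option linter.unusedSectionVars false

noncomputable section

namespace Fermat.Agent.S18

open ModularCurve Polynomial FA_S18

variable (A : ValuationSubring (AlgebraicClosure ℚ)) (n : ℕ) [NeZero n]

/-- **The target of the Kummer chart.** -/
def FA_S18_CUSP_Target (h : FA_S18_I_Range A n) (p w : ℕ) [NeZero w]
    (hw : IsUnit ((w : ℕ) : A)) : Prop :=
  ∀ t : ↥(modularFunctionFieldFullC (IsLocalRing.ResidueField ↥A) n),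
    t ^ p ∈ FA_S18_I_redAlg A n h (FA_S18_H2_Bi n) →
    ∃ (y' : LaurentSeries (AlgebraicClosure ℚ)) (S : (↥A)[X]),
      FA_S18_pi A (S.coeff 0) ≠ 0 ∧
      y' ∈ FA_S18_CUF_field (AlgebraicClosure ℚ) w (modularFunctionFieldBar n)
        (FA_S18_CUK_x A w hw) ∧
      FA_S18_B_IsInt A (FA_S18_pi A) y' ∧
      FA_S18_B_red A (FA_S18_pi A) y'
        = qExpand (IsLocalRing.ResidueField ↥A) w
            (t : LaurentSeries (IsLocalRing.ResidueField ↥A)) ∧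
      (FA_S18_CUE_ev (FA_S18_CUK_x A w hw)).IsIntegralElem
        (qExpand (AlgebraicClosure ℚ) w
          (aeval (FA_S18_CU_u (AlgebraicClosure ℚ)) (S.map A.subtype)) * y')

/-- `u = j⁻¹` as a series is the coercion of `j⁻¹ ∈ F_n`. -/
theorem FA_S18_CUSP_jinv_coe :
    (((FA_S18_A_jbar n)⁻¹ : ↥(modularFunctionFieldBar n)) :
      LaurentSeries (AlgebraicClosure ℚ)) = FA_S18_CU_u (AlgebraicClosure ℚ) := by
  rw [FA_S18_CUSP_u_eq_inv, ← FA_S18_I_jbar_coe n]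
  rfl

theorem FA_S18_CUSP_u_mem :
    FA_S18_CU_u (AlgebraicClosure ℚ) ∈ modularFunctionFieldBar n := by
  rw [← FA_S18_CUSP_jinv_coe n]
  exact ((FA_S18_A_jbar n)⁻¹ : ↥(modularFunctionFieldBar n)).2

/-- `ū = red (j⁻¹)` as a series. -/
theorem FA_S18_CUSP_red_jinv_coe (h : FA_S18_I_Range A n) :
    ((FA_S18_I_red A n h (FA_S18_I_jinv A n) :
        ↥(modularFunctionFieldFullC (IsLocalRing.ResidueField ↥A) n)) :
        LaurentSeries (IsLocalRing.ResidueField ↥A))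
      = FA_S18_CU_u (IsLocalRing.ResidueField ↥A) := by
  rw [FA_S18_I_red_jinv, FA_S18_CUSP_u_eq_inv, ← FA_S18_I_red_j_coe A n h]
  rfl

section Zeta

variable {K : Type*} [Field K]

/-- A valuation subring of an algebraically closed field contains the roots of unity. -/
theorem FA_S18_CUSP_exists_zeta [IsAlgClosed K] (B : ValuationSubring K) (w : ℕ) [NeZero w]
    (hw : (w : K) ≠ 0) : ∃ ζ : (↥B)ˣ, IsPrimitiveRoot (FA_S18_CUE_uK B ζ) w := by
  haveI : NeZero (w : K) := ⟨hw⟩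
  obtain ⟨ζ0, hζ0⟩ := HasEnoughRootsOfUnity.exists_primitiveRoot K w
  have hpow : ζ0 ^ w = 1 := hζ0.pow_eq_one
  have hwpos : 0 < w := NeZero.pos w
  have hne : ζ0 ≠ 0 := by
    intro h0
    rw [h0, zero_pow hwpos.ne'] at hpow
    exact zero_ne_one hpow
  have hinv : ζ0⁻¹ = ζ0 ^ (w - 1) := by
    apply inv_eq_of_mul_eq_one_right
    rw [← pow_succ', Nat.sub_add_cancel hwpos, hpow]
  have hinv' : ζ0 = ζ0⁻¹ ^ (w - 1) := by
    have h1 : ζ0⁻¹ ^ w = 1 := by rw [inv_pow, hpow, inv_one]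
    have h2 : ζ0⁻¹ * ζ0⁻¹ ^ (w - 1) = 1 := by
      rw [← pow_succ', Nat.sub_add_cancel hwpos, h1]
    calc ζ0 = ζ0 * (ζ0⁻¹ * ζ0⁻¹ ^ (w - 1)) := by rw [h2, mul_one]
      _ = (ζ0 * ζ0⁻¹) * ζ0⁻¹ ^ (w - 1) := by ring
      _ = ζ0⁻¹ ^ (w - 1) := by rw [mul_inv_cancel₀ hne, one_mul]
  have hmem : ζ0 ∈ B := by
    rcases B.mem_or_inv_mem ζ0 with h | h
    · exact h
    · rw [hinv']
      exact B.pow_mem h _
  have hmem' : ζ0⁻¹ ∈ B := by
    rw [hinv]
    exact B.pow_mem hmem _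
  let ζ : (↥B)ˣ := ⟨⟨ζ0, hmem⟩, ⟨ζ0⁻¹, hmem'⟩, Subtype.ext (mul_inv_cancel₀ hne),
    Subtype.ext (inv_mul_cancel₀ hne)⟩
  refine ⟨ζ, ?_⟩
  rw [← IsPrimitiveRoot.coe_units_iff]
  exact hζ0

/-- The inverse of `w` in `A`. -/
theorem FA_S18_CUSP_exists_winv (B : ValuationSubring K) (w : ℕ)
    (hw : IsUnit ((w : ℕ) : B)) : ∃ winv : B, winv * (w : B) = 1 := by
  obtain ⟨v, hv⟩ := hw
  exact ⟨((v⁻¹ : (↥B)ˣ) : B), by rw [← hv]; exact v.inv_mul⟩

end Zeta

section Loc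

variable (A : ValuationSubring (AlgebraicClosure ℚ)) (n : ℕ) [NeZero n]

set_option synthInstance.maxHeartbeats 400000 in
set_option maxHeartbeats 1000000 in
/-- **The local statement at the cusps**: from the target of the Kummer chart, every `t` with
`t ^ p ∈ red (Bi ∩ O)` has a denominator `S̄(ū)` with `S̄(0) ≠ 0`. -/
theorem FA_S18_CUSP_loc (h : FA_S18_I_Range A n) (p w : ℕ) [NeZero w]
    (hw : IsUnit ((w : ℕ) : A)) (hT : FA_S18_CUSP_Target A n h p w hw)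
    (t : ↥(modularFunctionFieldFullC (IsLocalRing.ResidueField ↥A) n))
    (ht : t ^ p ∈ FA_S18_I_redAlg A n h (FA_S18_H2_Bi n)) :
    ∃ S : (↥A)[X], FA_S18_pi A (S.coeff 0) ≠ 0 ∧
      aeval (FA_S18_I_red A n h (FA_S18_I_jinv A n)) (S.map (FA_S18_pi A)) * t
        ∈ FA_S18_I_redAlg A n h (FA_S18_H2_Bi n) := by
  obtain ⟨y', S, hS0, hy'F, hint, hred, hz⟩ := hT t ht
  obtain ⟨winv, hwinv⟩ := FA_S18_CUSP_exists_winv A w hw
  have hwK : ((w : ℕ) : AlgebraicClosure ℚ) ≠ 0 := Nat.cast_ne_zero.mpr (NeZero.ne w)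
  obtain ⟨ζ, hζ⟩ := FA_S18_CUSP_exists_zeta A w hwK
  have hx : (HahnSeries.single (1 : ℤ) (1 : AlgebraicClosure ℚ)
      * qExpand (AlgebraicClosure ℚ) w (FA_S18_CUK_g A w hw)) ^ w
      = qExpand (AlgebraicClosure ℚ) w (FA_S18_CU_u (AlgebraicClosure ℚ)) :=
    FA_S18_CUK_x_pow A w hw
  have hy'K : y' ∈ FA_S18_CUF_Kum w (modularFunctionFieldBar n)
      (HahnSeries.single (1 : ℤ) (1 : AlgebraicClosure ℚ)
        * qExpand (AlgebraicClosure ℚ) w (FA_S18_CUK_g A w hw)) := by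
    rw [FA_S18_CUK_Kum_eq_field]
    exact hy'F
  obtain ⟨hyF, hyInt, hyred, hyI⟩ := FA_S18_CUE_main A (FA_S18_pi A) w ζ hζ winv hwinv
    (modularFunctionFieldBar n) (FA_S18_CUK_g A w hw) (FA_S18_CU_u (AlgebraicClosure ℚ))
    (FA_S18_CUSP_u_mem n) hx (S.map A.subtype) hy'K hint
    (t : LaurentSeries (IsLocalRing.ResidueField ↥A)) hred hz
  have hsuF : aeval (FA_S18_CU_u (AlgebraicClosure ℚ)) (S.map A.subtype)
      ∈ modularFunctionFieldBar n := by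
    have e := Polynomial.aeval_algHom_apply (modularFunctionFieldBar n).val
      (⟨FA_S18_CU_u (AlgebraicClosure ℚ), FA_S18_CUSP_u_mem n⟩ : ↥(modularFunctionFieldBar n))
      (S.map A.subtype)
    have e' : aeval (FA_S18_CU_u (AlgebraicClosure ℚ)) (S.map A.subtype)
        = (modularFunctionFieldBar n).val (aeval
          (⟨FA_S18_CU_u (AlgebraicClosure ℚ), FA_S18_CUSP_u_mem n⟩ :
            ↥(modularFunctionFieldBar n)) (S.map A.subtype)) := e
    rw [e']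
    exact Subtype.property _
  have hsuInt := FA_S18_CUSP_aeval_u_isInt A (FA_S18_pi A) S
  have hYF : aeval (FA_S18_CU_u (AlgebraicClosure ℚ)) (S.map A.subtype) * FA_S18_CUE_dec w y'
      ∈ modularFunctionFieldBar n := mul_mem hsuF hyF
  have hYInt : FA_S18_B_IsInt A (FA_S18_pi A)
      (aeval (FA_S18_CU_u (AlgebraicClosure ℚ)) (S.map A.subtype) * FA_S18_CUE_dec w y') :=
    FA_S18_B_isInt_mul hsuInt hyInt
  refine ⟨S, hS0, ⟨⟨_, hYF⟩, hYInt⟩, ?_, ?_⟩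
  · show IsIntegral (Algebra.adjoin (AlgebraicClosure ℚ) {(FA_S18_A_jbar n)⁻¹})
      (⟨_, hYF⟩ : ↥(modularFunctionFieldBar n))
    rw [FA_S18_BASE_isIntegral_coe_iff_singleton, FA_S18_CUSP_jinv_coe,
      FA_S18_CUE_isIntegral_adjoin_iff]
    exact hyI
  · apply Subtype.ext
    rw [FA_S18_I_red_coe]
    show FA_S18_B_red A (FA_S18_pi A)
      (aeval (FA_S18_CU_u (AlgebraicClosure ℚ)) (S.map A.subtype) * FA_S18_CUE_dec w y') = _
    rw [FA_S18_B_red_mul hsuInt hyInt, hyred, FA_S18_CUSP_aeval_u_red]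
    rw [MulMemClass.coe_mul]
    congr 1
    rw [← FA_S18_CUSP_red_jinv_coe A n h]
    exact Polynomial.aeval_algHom_apply
      (modularFunctionFieldFullC (IsLocalRing.ResidueField ↥A) n).val
      (FA_S18_I_red A n h (FA_S18_I_jinv A n)) (S.map (FA_S18_pi A))

end Loc

end Fermat.Agent.S18
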