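import Mathlib

/-!
# S18, leaf N (gluing): from local lifting statements to root-closedness of the reduced charts

Abstract local-to-global step.  `Fb` is the residue function field, `Rb ≤ Bb` subrings of `Fb`
(`Rb` the reduced base chart, `Bb` the reduced chart).  If for every maximal ideal `𝔫` of `Rb` every
`t` with `t ^ p ∈ Bb` has a denominator `s ∈ Rb \ 𝔫` (`s * t ∈ Bb`), then `Bb` is closed under
`p`-th roots (`FA_S18_NG_glue`).  The version for the chart at infinity (`FA_S18_NG_glue_inf`) takes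
the local statement at the cusps (maximal ideals containing `u = j⁻¹`) and the local statement of
the finite chart.
-/

set_option autoImplicit false

namespace FA_S18

variable {Fb : Type*} [Field Fb]

/-- The ideal of denominators of `t` with respect to `Bb`, as an ideal of `Rb`. -/
def FA_S18_NG_den (Rb Bb : Subring Fb) (h : Rb ≤ Bb) (t : Fb) : Ideal Rb where
  carrier := {s | (s : Fb) * t ∈ Bb}
  add_mem' := by
    intro a b ha hb
    show ((a + b : Rb) : Fb) * t ∈ Bb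
    rw [Subring.coe_add, add_mul]
    exact Bb.add_mem ha hb
  zero_mem' := by
    show ((0 : Rb) : Fb) * t ∈ Bb
    rw [Subring.coe_zero, zero_mul]
    exact Bb.zero_mem
  smul_mem' := by
    intro c s hs
    show ((c * s : Rb) : Fb) * t ∈ Bb
    rw [Subring.coe_mul, mul_assoc]
    exact Bb.mul_mem (h c.2) hs

theorem FA_S18_NG_mem_den {Rb Bb : Subring Fb} (h : Rb ≤ Bb) (t : Fb) (s : Rb) :
    s ∈ FA_S18_NG_den Rb Bb h t ↔ (s : Fb) * t ∈ Bb := Iff.rfl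

/-- **Gluing**: an element with a denominator outside every maximal ideal of `Rb` lies in `Bb`. -/
theorem FA_S18_NG_glue_elt (Rb Bb : Subring Fb) (h : Rb ≤ Bb) (t : Fb)
    (hloc : ∀ 𝔫 : Ideal Rb, 𝔫.IsMaximal → ∃ s : Rb, s ∉ 𝔫 ∧ (s : Fb) * t ∈ Bb) : t ∈ Bb := by
  by_contra ht
  have hne : FA_S18_NG_den Rb Bb h t ≠ ⊤ := by
    intro htop
    have h1 : (1 : Rb) ∈ FA_S18_NG_den Rb Bb h t := by rw [htop]; trivial
    rw [FA_S18_NG_mem_den, Subring.coe_one, one_mul] at h1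
    exact ht h1
  obtain ⟨𝔫, h𝔫, hle⟩ := Ideal.exists_le_maximal _ hne
  obtain ⟨s, hs, hst⟩ := hloc 𝔫 h𝔫
  exact hs (hle hst)

/-- **Gluing, root-closedness form.** -/
theorem FA_S18_NG_glue (Rb Bb : Subring Fb) (h : Rb ≤ Bb) (p : ℕ)
    (hloc : ∀ t : Fb, t ^ p ∈ Bb → ∀ 𝔫 : Ideal Rb, 𝔫.IsMaximal →
      ∃ s : Rb, s ∉ 𝔫 ∧ (s : Fb) * t ∈ Bb) :
    ∀ t : Fb, t ^ p ∈ Bb → t ∈ Bb :=
  fun t ht => FA_S18_NG_glue_elt Rb Bb h t (hloc t ht)

/-- **Gluing for the chart at infinity.**  `Rf ≤ Bf` the reduced finite charts, `Ri ≤ Bi` the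
reduced charts at infinity, `u = j⁻¹`.  Local statements: at the maximal ideals of `Rf` (finite
points) and at the maximal ideals of `Ri` containing `u` (cusps). -/
theorem FA_S18_NG_glue_inf (Rf Bf Ri Bi : Subring Fb) (hf : Rf ≤ Bf) (hi : Ri ≤ Bi) (p : ℕ)
    (hp : 0 < p) (j u : Fb) (hju : j * u = 1) (hj : j ∈ Rf) (hu : u ∈ Ri)
    (hRfi : ∀ s ∈ Rf, ∃ m : ℕ, s * u ^ m ∈ Ri)
    (hBfi : ∀ y ∈ Bf, ∃ m : ℕ, y * u ^ m ∈ Bi)
    (hBif : ∀ y ∈ Bi, ∃ m : ℕ, y * j ^ m ∈ Bf)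
    (hlocf : ∀ t : Fb, t ^ p ∈ Bf → ∀ 𝔫 : Ideal Rf, 𝔫.IsMaximal →
      ∃ s : Rf, s ∉ 𝔫 ∧ (s : Fb) * t ∈ Bf)
    (hlocc : ∀ t : Fb, t ^ p ∈ Bi → ∀ 𝔫 : Ideal Ri, 𝔫.IsMaximal → (⟨u, hu⟩ : Ri) ∈ 𝔫 →
      ∃ s : Ri, s ∉ 𝔫 ∧ (s : Fb) * t ∈ Bi) :
    ∀ t : Fb, t ^ p ∈ Bi → t ∈ Bi := by
  intro t ht
  have hupow : ∀ m : ℕ, u ^ m ∈ Ri := fun m => Ri.pow_mem hu m
  have hjum : ∀ m : ℕ, j ^ m * u ^ m = 1 := fun m => by rw [← mul_pow, hju, one_pow]
  apply FA_S18_NG_glue_elt Ri Bi hi t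
  intro 𝔫 h𝔫
  by_cases hun : (⟨u, hu⟩ : Ri) ∈ 𝔫
  · exact hlocc t ht 𝔫 h𝔫 hun
  · -- the finite point below `𝔫`
    have hprime : 𝔫.IsPrime := h𝔫.isPrime
    have hupn : ∀ m : ℕ, (⟨u ^ m, hupow m⟩ : Ri) ∉ 𝔫 := by
      intro m hm
      have : (⟨u ^ m, hupow m⟩ : Ri) = (⟨u, hu⟩ : Ri) ^ m := Subtype.ext rfl
      rw [this] at hm
      exact hun (hprime.mem_of_pow_mem m hm)
    -- the contracted ideal of `Rf`
    let 𝔫' : Ideal Rf :=
      { carrier := {r | ∃ (m : ℕ) (hm : (r : Fb) * u ^ m ∈ Ri), (⟨_, hm⟩ : Ri) ∈ 𝔫}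
        add_mem' := by
          rintro a b ⟨m, hm, ha⟩ ⟨m', hm', hb⟩
          have e : ((a + b : Rf) : Fb) * u ^ (m + m')
              = (a : Fb) * u ^ m * u ^ m' + (b : Fb) * u ^ m' * u ^ m := by
            rw [Subring.coe_add, pow_add]; ring
          have hmem : ((a + b : Rf) : Fb) * u ^ (m + m') ∈ Ri := by
            rw [e]
            exact Ri.add_mem (Ri.mul_mem hm (hupow m')) (Ri.mul_mem hm' (hupow m))
          refine ⟨m + m', hmem, ?_⟩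
          have e2 : (⟨_, hmem⟩ : Ri)
              = (⟨_, hm⟩ : Ri) * ⟨u ^ m', hupow m'⟩ + (⟨_, hm'⟩ : Ri) * ⟨u ^ m, hupow m⟩ :=
            Subtype.ext e
          rw [e2]
          exact 𝔫.add_mem (𝔫.mul_mem_right _ ha) (𝔫.mul_mem_right _ hb)
        zero_mem' := by
          have h0 : ((0 : Rf) : Fb) * u ^ 0 ∈ Ri := by
            rw [Subring.coe_zero, zero_mul]; exact Ri.zero_mem
          refine ⟨0, h0, ?_⟩
          have : (⟨((0 : Rf) : Fb) * u ^ 0, h0⟩ : Ri) = 0 :=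
            Subtype.ext (by
              show ((0 : Rf) : Fb) * u ^ 0 = ((0 : Ri) : Fb)
              rw [Subring.coe_zero, zero_mul, Subring.coe_zero])
          rw [this]
          exact 𝔫.zero_mem
        smul_mem' := by
          rintro c r ⟨m, hm, hr⟩
          obtain ⟨m', hm'⟩ := hRfi c c.2
          have e : ((c • r : Rf) : Fb) * u ^ (m' + m)
              = ((c : Fb) * u ^ m') * ((r : Fb) * u ^ m) := by
            rw [smul_eq_mul, Subring.coe_mul, pow_add]; ring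
          have hmem : ((c • r : Rf) : Fb) * u ^ (m' + m) ∈ Ri := by
            rw [e]; exact Ri.mul_mem hm' hm
          refine ⟨m' + m, hmem, ?_⟩
          have e2 : (⟨_, hmem⟩ : Ri) = (⟨_, hm'⟩ : Ri) * ⟨_, hm⟩ := Subtype.ext e
          rw [e2]
          exact 𝔫.mul_mem_left _ hr }
    have h𝔫'ne : 𝔫' ≠ ⊤ := by
      intro htop
      have h1 : (1 : Rf) ∈ 𝔫' := by rw [htop]; trivial
      obtain ⟨m, hm, h1m⟩ := h1
      apply hupn m
      have : (⟨u ^ m, hupow m⟩ : Ri) = ⟨((1 : Rf) : Fb) * u ^ m, hm⟩ :=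
        Subtype.ext (by
          show u ^ m = ((1 : Rf) : Fb) * u ^ m
          rw [Subring.coe_one, one_mul])
      rw [this]
      exact h1m
    obtain ⟨𝔫'', h𝔫'', hle⟩ := Ideal.exists_le_maximal _ h𝔫'ne
    -- `t * j ^ m₀` has its `p`-th power in `Bf`
    obtain ⟨m₀, hm₀⟩ := hBif _ ht
    have htj : (t * j ^ m₀) ^ p ∈ Bf := by
      have e : (t * j ^ m₀) ^ p = (t ^ p * j ^ m₀) * (j ^ m₀) ^ (p - 1) := by
        have h1 : (j ^ m₀) ^ p = j ^ m₀ * (j ^ m₀) ^ (p - 1) := by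
          rw [← pow_succ', Nat.sub_add_cancel hp]
        rw [mul_pow, h1]; ring
      rw [e]
      exact Bf.mul_mem hm₀ (Bf.pow_mem (Bf.pow_mem (hf hj) _) _)
    obtain ⟨s, hs, hst⟩ := hlocf _ htj 𝔫'' h𝔫''
    obtain ⟨m₁, hm₁⟩ := hBfi _ hst
    obtain ⟨m₂, hm₂⟩ := hRfi s s.2
    have hs' : (s : Fb) * u ^ (m₂ + m₁) ∈ Ri := by
      rw [pow_add, ← mul_assoc]
      exact Ri.mul_mem hm₂ (hupow m₁)
    refine ⟨⟨_, hs'⟩, ?_, ?_⟩
    · intro hmem
      exact hs (hle ⟨m₂ + m₁, hs', hmem⟩)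
    · show (s : Fb) * u ^ (m₂ + m₁) * t ∈ Bi
      have e : (s : Fb) * u ^ (m₂ + m₁) * t
          = ((s : Fb) * (t * j ^ m₀) * u ^ m₁) * (u ^ m₀ * u ^ m₂) := by
        have h1 := hjum m₀
        calc (s : Fb) * u ^ (m₂ + m₁) * t
            = (s : Fb) * u ^ (m₂ + m₁) * t * (j ^ m₀ * u ^ m₀) := by rw [h1, mul_one]
          _ = _ := by rw [pow_add]; ring
      rw [e]
      exact Bi.mul_mem hm₁ (Bi.mul_mem (hi (hupow m₀)) (hi (hupow m₂)))

end FA_S18
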