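import Mathlib
import Fermat.Agent.S18.NGlue

/-!
# S18, leaf N / CUSP, final assembly, part C: the abstract glueing at infinity

`Fb` a field, a `k`-algebra; `Bf`, `Bi` subalgebras (the reduced charts), `j * u = 1`, `j ∈ Bf`,
`u ∈ Bi`.  If `Bf` is closed under `p`-th roots and every `t` with `t ^ p ∈ Bi` has a denominator
`S(u)`, `S(0) ≠ 0`, then `Bi` is closed under `p`-th roots.
-/

set_option autoImplicit false
set_option linter.unusedSectionVars false

noncomputable section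

namespace Fermat.Agent.S18

open Polynomial FA_S18

section Abs

variable {k Fb : Type*} [Field k] [Field Fb] [Algebra k Fb]

/-- `P(j) · u ^ deg P ∈ k[u]` if `j u = 1`. -/
theorem FA_S18_CUSP_rev (j u : Fb) (hju : j * u = 1) (P : k[X]) :
    aeval j P * u ^ P.natDegree ∈ Algebra.adjoin k ({u} : Set Fb) := by
  rw [aeval_eq_sum_range, Finset.sum_mul]
  refine Subalgebra.sum_mem _ fun i hi => ?_
  have hi' : i ≤ P.natDegree := Nat.lt_succ_iff.mp (Finset.mem_range.mp hi)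
  have e : (P.coeff i • j ^ i) * u ^ P.natDegree = P.coeff i • u ^ (P.natDegree - i) := by
    have h1 : u ^ P.natDegree = u ^ i * u ^ (P.natDegree - i) := by
      rw [← pow_add, Nat.add_sub_cancel' hi']
    rw [h1, smul_mul_assoc, ← mul_assoc, ← mul_pow, hju, one_pow, one_mul]
  rw [e]
  exact Subalgebra.smul_mem _ (Subalgebra.pow_mem _ (Algebra.self_mem_adjoin_singleton k u) _) _

/-- A polynomial in `u` with nonzero constant term lies in no maximal ideal of `k[u]` containing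
`u`. -/
theorem FA_S18_CUSP_not_mem (u : Fb) (S : k[X]) (hS : S.coeff 0 ≠ 0)
    (𝔫 : Ideal (Algebra.adjoin k ({u} : Set Fb)).toSubring) (h𝔫 : 𝔫.IsMaximal)
    (hu : (⟨u, Algebra.self_mem_adjoin_singleton k u⟩ :
      (Algebra.adjoin k ({u} : Set Fb)).toSubring) ∈ 𝔫) :
    (⟨aeval u S, aeval_mem_adjoin_singleton k u⟩ :
      (Algebra.adjoin k ({u} : Set Fb)).toSubring) ∉ 𝔫 := by
  intro hs
  have hdec : aeval u S = aeval u S.divX * u + algebraMap k Fb (S.coeff 0) := by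
    conv_lhs => rw [← divX_mul_X_add S]
    rw [map_add, map_mul, aeval_X, aeval_C]
  have hc : (⟨algebraMap k Fb (S.coeff 0), Subalgebra.algebraMap_mem _ _⟩ :
      (Algebra.adjoin k ({u} : Set Fb)).toSubring) ∈ 𝔫 := by
    have h1 : (⟨algebraMap k Fb (S.coeff 0), Subalgebra.algebraMap_mem _ _⟩ :
        (Algebra.adjoin k ({u} : Set Fb)).toSubring)
        = ⟨aeval u S, aeval_mem_adjoin_singleton k u⟩
          - (⟨aeval u S.divX, aeval_mem_adjoin_singleton k u⟩ :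
              (Algebra.adjoin k ({u} : Set Fb)).toSubring)
            * ⟨u, Algebra.self_mem_adjoin_singleton k u⟩ := by
      apply Subtype.ext
      show algebraMap k Fb (S.coeff 0) = aeval u S - aeval u S.divX * u
      rw [hdec]; ring
    rw [h1]
    exact 𝔫.sub_mem hs (𝔫.mul_mem_left _ hu)
  have h1 : (1 : (Algebra.adjoin k ({u} : Set Fb)).toSubring) ∈ 𝔫 := by
    have h2 : (1 : (Algebra.adjoin k ({u} : Set Fb)).toSubring)
        = (⟨algebraMap k Fb (S.coeff 0)⁻¹, Subalgebra.algebraMap_mem _ _⟩ :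
            (Algebra.adjoin k ({u} : Set Fb)).toSubring)
          * ⟨algebraMap k Fb (S.coeff 0), Subalgebra.algebraMap_mem _ _⟩ := by
      apply Subtype.ext
      show (1 : Fb) = algebraMap k Fb (S.coeff 0)⁻¹ * algebraMap k Fb (S.coeff 0)
      rw [← map_mul, inv_mul_cancel₀ hS, map_one]
    rw [h2]
    exact 𝔫.mul_mem_left _ hc
  exact h𝔫.ne_top ((Ideal.eq_top_iff_one 𝔫).mpr h1)

/-- **Abstract glueing at infinity.** -/
theorem FA_S18_CUSP_glue_abs (Bf Bi : Subalgebra k Fb) (p : ℕ) (hp : 0 < p) (j u : Fb)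
    (hju : j * u = 1) (hj : j ∈ Bf) (hu : u ∈ Bi)
    (hBfi : ∀ y ∈ Bf, ∃ m : ℕ, y * u ^ m ∈ Bi)
    (hBif : ∀ y ∈ Bi, ∃ m : ℕ, y * j ^ m ∈ Bf)
    (hfin : ∀ t : Fb, t ^ p ∈ Bf → t ∈ Bf)
    (hloc : ∀ t : Fb, t ^ p ∈ Bi → ∃ S : k[X], S.coeff 0 ≠ 0 ∧ aeval u S * t ∈ Bi) :
    ∀ t : Fb, t ^ p ∈ Bi → t ∈ Bi := by
  have hf : (Algebra.adjoin k ({j} : Set Fb)).toSubring ≤ Bf.toSubring := fun x hx =>
    (Algebra.adjoin_le (Set.singleton_subset_iff.mpr hj) : Algebra.adjoin k ({j} : Set Fb) ≤ Bf) hx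
  have hi : (Algebra.adjoin k ({u} : Set Fb)).toSubring ≤ Bi.toSubring := fun x hx =>
    (Algebra.adjoin_le (Set.singleton_subset_iff.mpr hu) : Algebra.adjoin k ({u} : Set Fb) ≤ Bi) hx
  refine FA_S18_NG_glue_inf (Algebra.adjoin k ({j} : Set Fb)).toSubring Bf.toSubring
    (Algebra.adjoin k ({u} : Set Fb)).toSubring Bi.toSubring hf hi p hp j u hju
    (Algebra.self_mem_adjoin_singleton k j) (Algebra.self_mem_adjoin_singleton k u)
    ?_ hBfi hBif ?_ ?_
  · intro s hs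
    have hs' : s ∈ Algebra.adjoin k ({j} : Set Fb) := hs
    rw [Algebra.adjoin_singleton_eq_range_aeval] at hs'
    obtain ⟨P, rfl⟩ := hs'
    exact ⟨P.natDegree, FA_S18_CUSP_rev j u hju P⟩
  · intro t ht 𝔫 h𝔫
    refine ⟨1, fun h1 => h𝔫.ne_top ((Ideal.eq_top_iff_one 𝔫).mpr h1), ?_⟩
    rw [Subring.coe_one, one_mul]
    exact hfin t ht
  · intro t ht 𝔫 h𝔫 hu𝔫
    obtain ⟨S, hS0, hmem⟩ := hloc t ht
    exact ⟨⟨aeval u S, aeval_mem_adjoin_singleton k u⟩,
      FA_S18_CUSP_not_mem u S hS0 𝔫 h𝔫 hu𝔫, hmem⟩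

end Abs

end Fermat.Agent.S18
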