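import Mathlib
import Fermat.Agent.S18.CuspFinalB
import Fermat.Agent.S18.CuspFinalC

/-!
# S18, leaf N / CUSP, final assembly

`FA_S18_CUSP_icl_inf` : root-closedness of the reduced finite chart + the target of the Kummer
chart (`FA_S18_CUSP_Target`) ⟹ root-closedness of the reduced chart at infinity.
`FA_S18_CUSP_icl` : the same, packaged as `FA_S18_I_Target_N_icl`.
-/

set_option autoImplicit false
set_option linter.unusedSectionVars false

noncomputable section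

namespace Fermat.Agent.S18

open ModularCurve Polynomial FA_S18

variable (A : ValuationSubring (AlgebraicClosure ℚ)) (n : ℕ) [NeZero n]

set_option synthInstance.maxHeartbeats 400000 in
set_option maxHeartbeats 1000000 in
/-- **Normality at infinity** from normality of the finite chart and the Kummer chart. -/
theorem FA_S18_CUSP_icl_inf (h : FA_S18_I_Range A n) (p : ℕ) (hp : 0 < p) (w : ℕ) [NeZero w]
    (hw : IsUnit ((w : ℕ) : A))
    (hfin : ∀ x : ↥(modularFunctionFieldFullC (IsLocalRing.ResidueField ↥A) n),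
      x ^ p ∈ FA_S18_I_redAlg A n h (FA_S18_H2_Bf n) → x ∈ FA_S18_I_redAlg A n h (FA_S18_H2_Bf n))
    (hT : FA_S18_CUSP_Target A n h p w hw) :
    ∀ x : ↥(modularFunctionFieldFullC (IsLocalRing.ResidueField ↥A) n),
      x ^ p ∈ FA_S18_I_redAlg A n h (FA_S18_H2_Bi n) →
        x ∈ FA_S18_I_redAlg A n h (FA_S18_H2_Bi n) := by
  refine FA_S18_CUSP_glue_abs (FA_S18_I_redAlg A n h (FA_S18_H2_Bf n))
    (FA_S18_I_redAlg A n h (FA_S18_H2_Bi n)) p hp
    (FA_S18_I_red A n h (FA_S18_I_j A n)) (FA_S18_I_red A n h (FA_S18_I_jinv A n))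
    ?_ (FA_S18_I_jb_fin A n h) ⟨FA_S18_I_jinv A n, FA_S18_H2_jinv_mem_Bi n, rfl⟩ ?_ ?_ hfin ?_
  · rw [← map_mul, FA_S18_I_j_mul_jinv, map_one]
  · rintro y ⟨Y, hY, rfl⟩
    obtain ⟨m, -, hm⟩ := FA_S18_H2_Bm_bound n (FA_S18_H2_Bf_le_Bm n hY)
    refine ⟨m, Y * FA_S18_I_jinv A n ^ m, hm, ?_⟩
    rw [map_mul, map_pow]
  · rintro y ⟨Y, hY, rfl⟩
    obtain ⟨m, hm, -⟩ := FA_S18_H2_Bm_bound n (FA_S18_H2_Bi_le_Bm n hY)
    refine ⟨m, Y * FA_S18_I_j A n ^ m, hm, ?_⟩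
    rw [map_mul, map_pow]
  · intro t ht
    obtain ⟨S, hS0, hmem⟩ := FA_S18_CUSP_loc A n h p w hw hT t ht
    refine ⟨S.map (FA_S18_pi A), ?_, hmem⟩
    rw [coeff_map]
    exact hS0

/-- **`icl` from the finite chart and the Kummer chart.** -/
theorem FA_S18_CUSP_icl (h : FA_S18_I_Range A n) (p : ℕ) (hp : 0 < p) (w : ℕ) [NeZero w]
    (hw : IsUnit ((w : ℕ) : A))
    (hfin : ∀ x : ↥(modularFunctionFieldFullC (IsLocalRing.ResidueField ↥A) n),
      x ^ p ∈ FA_S18_I_redAlg A n h (FA_S18_H2_Bf n) → x ∈ FA_S18_I_redAlg A n h (FA_S18_H2_Bf n))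
    (hT : FA_S18_CUSP_Target A n h p w hw) : FA_S18_I_Target_N_icl A n h p :=
  ⟨hfin, FA_S18_CUSP_icl_inf A n h p hp w hw hfin hT⟩

end Fermat.Agent.S18
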