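import Mathlib
import Fermat.Agent.S18.CuspFinal
import Fermat.Agent.S18.CuspDualB

/-!
# S18, leaf N / CUSP, final assembly, part D: the target in `BQ` form

`FA_S18_CUSP_TargetBQ` : the output of the glueing theorem for the Kummer chart, with the chart
`BQ = FA_S18_CUDB_BQ ℚ̄ x' (1 - 1728 X ^ w)` of `F'`.  `FA_S18_CUSP_Target_of_BQ` : it implies
`FA_S18_CUSP_Target`; `FA_S18_CUSP_icl_of_BQ` : hence `icl`.
-/

set_option autoImplicit false
set_option linter.unusedSectionVars false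

noncomputable section

namespace Fermat.Agent.S18

open ModularCurve Polynomial FA_S18

variable (A : ValuationSubring (AlgebraicClosure ℚ)) (n : ℕ) [NeZero n]

/-- **The target of the Kummer chart, `BQ` form.** -/
def FA_S18_CUSP_TargetBQ (h : FA_S18_I_Range A n) (p w : ℕ) [NeZero w]
    (hw : IsUnit ((w : ℕ) : A)) : Prop :=
  ∀ t : ↥(modularFunctionFieldFullC (IsLocalRing.ResidueField ↥A) n),
    t ^ p ∈ FA_S18_I_redAlg A n h (FA_S18_H2_Bi n) →
    ∃ y' : ↥(FA_S18_CUF_field (AlgebraicClosure ℚ) w (modularFunctionFieldBar n)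
        (FA_S18_CUK_x A w hw)),
      y' ∈ FA_S18_CUDB_BQ (AlgebraicClosure ℚ)
        (FA_S18_CUF_x w (modularFunctionFieldBar n) (FA_S18_CUK_x A w hw))
        ((1 : (AlgebraicClosure ℚ)[X]) - C 1728 * X ^ w) ∧
      FA_S18_B_IsInt A (FA_S18_pi A) (y' : LaurentSeries (AlgebraicClosure ℚ)) ∧
      FA_S18_B_red A (FA_S18_pi A) (y' : LaurentSeries (AlgebraicClosure ℚ))
        = qExpand (IsLocalRing.ResidueField ↥A) w
            (t : LaurentSeries (IsLocalRing.ResidueField ↥A))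

section Poly

variable {K : Type*} [Field K] (B : ValuationSubring K)

/-- The polynomial `(1 - 1728 X) ^ N` over `A`. -/
def FA_S18_CUSP_SN (N : ℕ) : (↥B)[X] := ((1 : (↥B)[X]) - C 1728 * X) ^ N

theorem FA_S18_CUSP_SN_coeff_zero (N : ℕ) : (FA_S18_CUSP_SN B N).coeff 0 = 1 := by
  rw [FA_S18_CUSP_SN, coeff_zero_eq_eval_zero, eval_pow, eval_sub, eval_one, eval_mul, eval_C,
    eval_X, mul_zero, sub_zero, one_pow]

theorem FA_S18_CUSP_SN_map (N : ℕ) :
    (FA_S18_CUSP_SN B N).map B.subtype = ((1 : K[X]) - C 1728 * X) ^ N := by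
  rw [FA_S18_CUSP_SN, Polynomial.map_pow, Polynomial.map_sub, Polynomial.map_one,
    Polynomial.map_mul, Polynomial.map_C, Polynomial.map_X, map_ofNat]

/-- `σ (S_N(u)) = (1 - 1728 x ^ w) ^ N` if `x ^ w = σ u`. -/
theorem FA_S18_CUSP_SN_sigma (w : ℕ) [NeZero w] (N : ℕ) (x u : LaurentSeries K)
    (hx : x ^ w = qExpand K w u) :
    qExpand K w (aeval u ((FA_S18_CUSP_SN B N).map B.subtype))
      = aeval x ((1 : K[X]) - C 1728 * X ^ w) ^ N := by
  have h1 : aeval u (((1 : K[X]) - C 1728 * X) ^ N)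
      = (1 - algebraMap K (LaurentSeries K) 1728 * u) ^ N := by
    rw [map_pow, map_sub, map_one, map_mul, aeval_C, aeval_X]
  have h2 : aeval x ((1 : K[X]) - C 1728 * X ^ w)
      = 1 - algebraMap K (LaurentSeries K) 1728 * x ^ w := by
    rw [map_sub, map_one, map_mul, aeval_C, map_pow, aeval_X]
  rw [FA_S18_CUSP_SN_map, h1, h2, map_pow, map_sub, map_one, map_mul, ← hx,
    ← FA_S18_CUE_C_eq_algebraMap, qExpand_C]

end Poly

section Bridge

variable (A : ValuationSubring (AlgebraicClosure ℚ)) (n : ℕ) [NeZero n]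

set_option synthInstance.maxHeartbeats 400000 in
set_option maxHeartbeats 1000000 in
/-- The `BQ` form of the target implies the target. -/
theorem FA_S18_CUSP_Target_of_BQ (h : FA_S18_I_Range A n) (p w : ℕ) [NeZero w]
    (hw : IsUnit ((w : ℕ) : A)) (hT : FA_S18_CUSP_TargetBQ A n h p w hw) :
    FA_S18_CUSP_Target A n h p w hw := by
  intro t ht
  obtain ⟨y', ⟨N, hN⟩, hint, hred⟩ := hT t ht
  refine ⟨(y' : LaurentSeries (AlgebraicClosure ℚ)), FA_S18_CUSP_SN A N, ?_, y'.2, hint, hred, ?_⟩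
  · rw [FA_S18_CUSP_SN_coeff_zero, map_one]
    exact one_ne_zero
  · rw [FA_S18_CUSP_SN_sigma A w N (FA_S18_CUK_x A w hw) (FA_S18_CU_u (AlgebraicClosure ℚ))
      (FA_S18_CUK_x_pow A w hw), ← FA_S18_CUE_isIntegral_adjoin_iff]
    rw [FA_S18_BASE_isIntegral_coe_iff_singleton] at hN
    have e : (((aeval (FA_S18_CUF_x w (modularFunctionFieldBar n) (FA_S18_CUK_x A w hw))
        ((1 : (AlgebraicClosure ℚ)[X]) - C 1728 * X ^ w) ^ N * y' :
          ↥(FA_S18_CUF_field (AlgebraicClosure ℚ) w (modularFunctionFieldBar n)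
            (FA_S18_CUK_x A w hw))) : LaurentSeries (AlgebraicClosure ℚ)))
        = aeval (FA_S18_CUK_x A w hw) ((1 : (AlgebraicClosure ℚ)[X]) - C 1728 * X ^ w) ^ N
          * (y' : LaurentSeries (AlgebraicClosure ℚ)) := by
      rw [MulMemClass.coe_mul, SubmonoidClass.coe_pow]
      congr 2
      exact (Polynomial.aeval_algHom_apply
        (FA_S18_CUF_field (AlgebraicClosure ℚ) w (modularFunctionFieldBar n)
          (FA_S18_CUK_x A w hw)).val
        (FA_S18_CUF_x w (modularFunctionFieldBar n) (FA_S18_CUK_x A w hw)) _).symm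
    rw [e] at hN
    exact hN

/-- **`icl` from the finite chart and the Kummer chart (`BQ` form).** -/
theorem FA_S18_CUSP_icl_of_BQ (h : FA_S18_I_Range A n) (p : ℕ) (hp : 0 < p) (w : ℕ) [NeZero w]
    (hw : IsUnit ((w : ℕ) : A))
    (hfin : ∀ x : ↥(modularFunctionFieldFullC (IsLocalRing.ResidueField ↥A) n),
      x ^ p ∈ FA_S18_I_redAlg A n h (FA_S18_H2_Bf n) → x ∈ FA_S18_I_redAlg A n h (FA_S18_H2_Bf n))
    (hT : FA_S18_CUSP_TargetBQ A n h p w hw) : FA_S18_I_Target_N_icl A n h p :=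
  FA_S18_CUSP_icl A n h p hp w hw hfin (FA_S18_CUSP_Target_of_BQ A n h p w hw hT)

end Bridge

end Fermat.Agent.S18
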