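import Mathlib
import Fermat.Agent.S18.GaussDefs

/-!
# S18, leaf B, part 2: normal forms with respect to a basis with independent reductions

Abstract setting (`FA_S18_B_Datum`): `F ⊂ K((q))` a field containing `ι x` and `ι e_i`, spanned
by the `ι e_i` over `K(ι x)`, such that the reductions `ρ e_i` are linearly independent over
`k[ρ x]`.  Then every `y ∈ F`, `y ≠ 0`, is `c · ι w / ι u` with `c ∈ Kˣ` and `ρ w ≠ 0`, `ρ u ≠ 0`
(`FA_S18_B_normal`), so `F ∩ O` is a valuation ring with the value group of `A`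
(`FA_S18_B_scale`, `FA_S18_B_ker`).
-/

set_option autoImplicit false
set_option linter.unusedSectionVars false

noncomputable section

namespace Fermat.Agent.S18

open ModularCurve Polynomial

/-! ### Evaluation of polynomials at Laurent series, compatibility with `coeffMap` -/

section Ev

variable {R S : Type*} [CommRing R] [CommRing S]

/-- Evaluation of a polynomial at a Laurent series (constants via `HahnSeries.C`). -/
def FA_S18_B_ev (x : LaurentSeries R) (P : R[X]) : LaurentSeries R :=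
  P.eval₂ (HahnSeries.C : R →+* LaurentSeries R) x

theorem FA_S18_B_coeffMap_C (φ : R →+* S) (r : R) :
    coeffMap φ (HahnSeries.C r : LaurentSeries R) = HahnSeries.C (φ r) :=
  coeffMap_single φ 0 r

theorem FA_S18_B_coeffMap_ev (φ : R →+* S) (x : LaurentSeries R) (P : R[X]) :
    coeffMap φ (FA_S18_B_ev x P) = FA_S18_B_ev (coeffMap φ x) (P.map φ) := by
  rw [FA_S18_B_ev, FA_S18_B_ev, Polynomial.hom_eval₂, Polynomial.eval₂_map]
  congr 1
  ext r : 1
  exact FA_S18_B_coeffMap_C φ r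

theorem FA_S18_B_ev_add (x : LaurentSeries R) (P Q : R[X]) :
    FA_S18_B_ev x (P + Q) = FA_S18_B_ev x P + FA_S18_B_ev x Q := Polynomial.eval₂_add _ _

theorem FA_S18_B_ev_mul (x : LaurentSeries R) (P Q : R[X]) :
    FA_S18_B_ev x (P * Q) = FA_S18_B_ev x P * FA_S18_B_ev x Q := Polynomial.eval₂_mul _ _

theorem FA_S18_B_ev_C (x : LaurentSeries R) (r : R) :
    FA_S18_B_ev x (C r) = HahnSeries.C r := Polynomial.eval₂_C _ _

theorem FA_S18_B_ev_X (x : LaurentSeries R) : FA_S18_B_ev x X = x := Polynomial.eval₂_X _ _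

theorem FA_S18_B_ev_zero (x : LaurentSeries R) : FA_S18_B_ev x 0 = 0 := Polynomial.eval₂_zero _ _

theorem FA_S18_B_ev_one (x : LaurentSeries R) : FA_S18_B_ev x 1 = 1 := Polynomial.eval₂_one _ _

end Ev

section EvField

variable {L : Type*} [Field L]

theorem FA_S18_B_algebraMap_eq_C : (algebraMap L (LaurentSeries L)) = HahnSeries.C := by
  ext c : 1
  rw [algebraMap_laurentSeries_eq_single]
  rfl

theorem FA_S18_B_aeval_eq_ev (x : LaurentSeries L) (P : L[X]) :
    aeval x P = FA_S18_B_ev x P := by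
  rw [aeval_def, FA_S18_B_ev, FA_S18_B_algebraMap_eq_C]

end EvField

variable {K : Type*} [Field K] (A : ValuationSubring K) {k : Type*} [Field k] (π : A →+* k)

/-! ### Content -/

/-- Content: finitely many elements of `K`, not all zero, can be divided by one of them so that
all quotients lie in `A`. -/
theorem FA_S18_B_content_fin {ι : Type*} (s : Finset ι) (f : ι → K) (h : ∃ i ∈ s, f i ≠ 0) :
    ∃ i₀ ∈ s, f i₀ ≠ 0 ∧ ∀ i ∈ s, f i / f i₀ ∈ A := by
  obtain ⟨i₁, hi₁, hne⟩ := h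
  obtain ⟨i₀, hi₀, hmax⟩ := Finset.exists_max_image s (fun i => A.valuation (f i)) ⟨i₁, hi₁⟩
  have h0 : f i₀ ≠ 0 := by
    intro h0
    have := hmax i₁ hi₁
    rw [h0, map_zero] at this
    exact hne ((Valuation.zero_iff _).mp (le_antisymm this zero_le))
  refine ⟨i₀, hi₀, h0, fun i hi => ?_⟩
  rw [← A.valuation_le_one_iff, map_div₀]
  exact div_le_one_of_le₀ (hmax i hi) zero_le

/-- Content for a finite family of polynomials, not all zero: `P i = c · P' i` with
`P' i ∈ A[X]` and some `P' i` with nonzero reduction. -/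
theorem FA_S18_B_content_poly {ι : Type*} [Fintype ι] (P : ι → K[X]) (h : ∃ i, P i ≠ 0) :
    ∃ c : K, c ≠ 0 ∧ ∃ P' : ι → A[X],
      (∀ i, (P' i).map A.subtype = C c⁻¹ * P i) ∧ ∃ i, (P' i).map π ≠ 0 := by
  classical
  obtain ⟨i₁, hi₁⟩ := h
  obtain ⟨m₁, hm₁⟩ : ∃ m, (P i₁).coeff m ≠ 0 := by
    by_contra hall
    push Not at hall
    exact hi₁ (Polynomial.ext fun m => by rw [hall m, coeff_zero])
  let s : Finset (Σ _ : ι, ℕ) := Finset.univ.sigma (fun i => (P i).support)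
  let f : (Σ _ : ι, ℕ) → K := fun x => (P x.1).coeff x.2
  have hs : ∃ x ∈ s, f x ≠ 0 :=
    ⟨⟨i₁, m₁⟩, Finset.mem_sigma.mpr ⟨Finset.mem_univ _, mem_support_iff.mpr hm₁⟩, hm₁⟩
  obtain ⟨x₀, -, hx₀, hall⟩ := FA_S18_B_content_fin A s f hs
  have hall' : ∀ i m, (P i).coeff m / f x₀ ∈ A := by
    intro i m
    by_cases hm : (P i).coeff m = 0
    · rw [hm, zero_div]
      exact A.zero_mem
    · exact hall ⟨i, m⟩ (Finset.mem_sigma.mpr ⟨Finset.mem_univ _, mem_support_iff.mpr hm⟩)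
  have hlift : ∀ i, C (f x₀)⁻¹ * P i ∈ Polynomial.lifts A.subtype := by
    intro i
    rw [Polynomial.lifts_iff_coeff_lifts]
    intro m
    rw [coeff_C_mul, mul_comm, ← div_eq_mul_inv]
    exact ⟨⟨_, hall' i m⟩, rfl⟩
  choose P' hP' using fun i => (Polynomial.mem_lifts _).mp (hlift i)
  refine ⟨f x₀, hx₀, P', hP', x₀.1, ?_⟩
  intro h0
  have h1 : ((P' x₀.1).coeff x₀.2 : K) = 1 := by
    have h2 := congrArg (fun p => p.coeff x₀.2) (hP' x₀.1)
    simp only [coeff_map, coeff_C_mul] at h2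
    rw [show A.subtype ((P' x₀.1).coeff x₀.2) = ((P' x₀.1).coeff x₀.2 : K) from rfl] at h2
    rw [h2]
    exact inv_mul_cancel₀ hx₀
  have h3 : (P' x₀.1).coeff x₀.2 = 1 := Subtype.ext h1
  have h4 := congrArg (fun p => p.coeff x₀.2) h0
  simp only [coeff_map, coeff_zero, h3, map_one] at h4
  exact one_ne_zero h4

/-! ### The datum -/

/-- The data of leaf B: a field `F ⊂ K((q))` with an `A`-integral generator `x` and `A`-integral
elements `e i` spanning `F` over `K(x)`, whose reductions are linearly independent over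
`k[x̄]`. -/
structure FA_S18_B_Datum (A : ValuationSubring K) (π : A →+* k)
    (F : IntermediateField K (LaurentSeries K)) (n : ℕ) where
  /-- the generator (`j` or `j⁻¹`) -/
  x : LaurentSeries A
  /-- the basis -/
  e : Fin n → LaurentSeries A
  pos : 0 < n
  ker : ∀ a : A, a ∈ IsLocalRing.maximalIdeal A → π a = 0
  x_mem : coeffMap A.subtype x ∈ F
  e_mem : ∀ i, coeffMap A.subtype (e i) ∈ F
  indep : ∀ c : Fin n → k[X],
    (∑ i, FA_S18_B_ev (coeffMap π x) (c i) * coeffMap π (e i)) = 0 → ∀ i, c i = 0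
  span : ∀ y ∈ F, ∃ (Q : K[X]) (P : Fin n → K[X]), Q ≠ 0 ∧
    FA_S18_B_ev (coeffMap A.subtype x) Q * y
      = ∑ i, FA_S18_B_ev (coeffMap A.subtype x) (P i) * coeffMap A.subtype (e i)

variable {A π}
variable {F : IntermediateField K (LaurentSeries K)} {n : ℕ} (D : FA_S18_B_Datum A π F n)

/-- `x̄` is transcendental over `k`. -/
theorem FA_S18_B_Datum.xbar_transc (Q : k[X]) (h : FA_S18_B_ev (coeffMap π D.x) Q = 0) :
    Q = 0 := by
  classical
  have h1 := D.indep (fun i => if i = ⟨0, D.pos⟩ then Q else 0) (by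
    apply Finset.sum_eq_zero
    intro i _
    by_cases hi : i = ⟨0, D.pos⟩
    · rw [if_pos hi, h, zero_mul]
    · rw [if_neg hi, FA_S18_B_ev_zero, zero_mul]) ⟨0, D.pos⟩
  simpa using h1

/-- The integral series `Q(x)`, `Q ∈ A[X]`. -/
theorem FA_S18_B_Datum.rho_ev_ne_zero {Q : A[X]} (hQ : Q.map π ≠ 0) :
    coeffMap π (FA_S18_B_ev D.x Q) ≠ 0 := by
  rw [FA_S18_B_coeffMap_ev]
  exact fun h => hQ (D.xbar_transc _ h)

/-- The integral series `∑ P_i(x) e_i`, `P_i ∈ A[X]`. -/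
def FA_S18_B_Datum.comb (P : Fin n → A[X]) : LaurentSeries A :=
  ∑ i, FA_S18_B_ev D.x (P i) * D.e i

theorem FA_S18_B_Datum.rho_comb (P : Fin n → A[X]) :
    coeffMap π (D.comb P)
      = ∑ i, FA_S18_B_ev (coeffMap π D.x) ((P i).map π) * coeffMap π (D.e i) := by
  rw [FA_S18_B_Datum.comb, map_sum]
  apply Finset.sum_congr rfl
  intro i _
  rw [map_mul, FA_S18_B_coeffMap_ev]

theorem FA_S18_B_Datum.iota_comb (P : Fin n → A[X]) :
    coeffMap A.subtype (D.comb P)
      = ∑ i, FA_S18_B_ev (coeffMap A.subtype D.x) ((P i).map A.subtype)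
          * coeffMap A.subtype (D.e i) := by
  rw [FA_S18_B_Datum.comb, map_sum]
  apply Finset.sum_congr rfl
  intro i _
  rw [map_mul, FA_S18_B_coeffMap_ev]

theorem FA_S18_B_Datum.rho_comb_ne_zero {P : Fin n → A[X]} (hP : ∃ i, (P i).map π ≠ 0) :
    coeffMap π (D.comb P) ≠ 0 := by
  rw [D.rho_comb]
  intro h
  obtain ⟨i, hi⟩ := hP
  exact hi (D.indep (fun i => (P i).map π) h i)

/-- `ι x` is transcendental over `K`. -/
theorem FA_S18_B_Datum.x_transc (Q : K[X]) (h : FA_S18_B_ev (coeffMap A.subtype D.x) Q = 0) :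
    Q = 0 := by
  by_contra hQ
  obtain ⟨c, hc, Q', hQ', i, hi⟩ := FA_S18_B_content_poly A π (fun _ : Unit => Q) ⟨(), hQ⟩
  have h1 : coeffMap A.subtype (FA_S18_B_ev D.x (Q' ())) = 0 := by
    rw [FA_S18_B_coeffMap_ev, hQ' (), FA_S18_B_ev_mul, h, mul_zero]
  have h2 : FA_S18_B_ev D.x (Q' ()) = 0 := FA_S18_B_iota_injective A (by rw [h1, map_zero])
  exact D.rho_ev_ne_zero hi (by rw [h2, map_zero])

/-- **Normal form**: every nonzero `y ∈ F` satisfies `ι(Q(x)) · y = c · ι(∑ P_i(x) e_i)` with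
`c ∈ Kˣ`, `Q, P_i ∈ A[X]`, `Q̄ ≠ 0` and some `P̄_i ≠ 0`. -/
theorem FA_S18_B_normal (D : FA_S18_B_Datum A π F n) {y : LaurentSeries K} (hy : y ∈ F)
    (hy0 : y ≠ 0) :
    ∃ (c : K) (Q : A[X]) (P : Fin n → A[X]), c ≠ 0 ∧ Q.map π ≠ 0 ∧ (∃ i, (P i).map π ≠ 0) ∧
      coeffMap A.subtype (FA_S18_B_ev D.x Q) * y
        = HahnSeries.C c * coeffMap A.subtype (D.comb P) := by
  obtain ⟨Q, P, hQ, e⟩ := D.span y hy
  have hQx : FA_S18_B_ev (coeffMap A.subtype D.x) Q ≠ 0 := fun h => hQ (D.x_transc Q h)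
  have hP : ∃ i, P i ≠ 0 := by
    by_contra hall
    push Not at hall
    have : (∑ i, FA_S18_B_ev (coeffMap A.subtype D.x) (P i) * coeffMap A.subtype (D.e i)) = 0 := by
      apply Finset.sum_eq_zero
      intro i _
      rw [hall i, FA_S18_B_ev_zero, zero_mul]
    rw [this] at e
    rcases mul_eq_zero.mp e with h | h
    · exact hQx h
    · exact hy0 h
  obtain ⟨q, hq, Q', hQ', ⟨_, hQ'r⟩⟩ := FA_S18_B_content_poly A π (fun _ : Unit => Q) ⟨(), hQ⟩
  obtain ⟨p, hp, P', hP', hP'r⟩ := FA_S18_B_content_poly A π P hP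
  refine ⟨p / q, Q' (), P', div_ne_zero hp hq, hQ'r, hP'r, ?_⟩
  rw [FA_S18_B_coeffMap_ev, hQ' (), FA_S18_B_ev_mul, FA_S18_B_ev_C, mul_assoc, e, D.iota_comb,
    Finset.mul_sum, Finset.mul_sum]
  apply Finset.sum_congr rfl
  intro i _
  rw [hP' i, FA_S18_B_ev_mul, FA_S18_B_ev_C, ← mul_assoc, ← mul_assoc, ← mul_assoc, ← map_mul]
  congr 2
  rw [div_mul_eq_mul_div, mul_inv_cancel₀ hp, one_div]

/-- **Scaling**: every nonzero `y ∈ F` is a constant times a unit of `O`. -/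
theorem FA_S18_B_scale (D : FA_S18_B_Datum A π F n) {y : LaurentSeries K} (hy : y ∈ F)
    (hy0 : y ≠ 0) :
    ∃ c : K, c ≠ 0 ∧ FA_S18_B_IsInt A π (algebraMap K (LaurentSeries K) c * y) ∧
      FA_S18_B_red A π (algebraMap K (LaurentSeries K) c * y) ≠ 0 := by
  obtain ⟨c, Q, P, hc, hQ, hP, e⟩ := FA_S18_B_normal D hy hy0
  have hu := D.rho_ev_ne_zero hQ
  have hw := D.rho_comb_ne_zero hP
  have e2 : coeffMap A.subtype (FA_S18_B_ev D.x Q) * (algebraMap K (LaurentSeries K) c⁻¹ * y)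
      = coeffMap A.subtype (D.comb P) := by
    rw [mul_left_comm, e, FA_S18_B_algebraMap_eq_C, ← mul_assoc, ← map_mul, inv_mul_cancel₀ hc,
      map_one, one_mul]
  refine ⟨c⁻¹, inv_ne_zero hc, ⟨_, _, hu, e2⟩, ?_⟩
  rw [FA_S18_B_red_eq hu e2]
  exact div_ne_zero hw hu

/-- `F ∩ O` is a valuation ring of `F`. -/
theorem FA_S18_B_isInt_or_inv (D : FA_S18_B_Datum A π F n) {y : LaurentSeries K} (hy : y ∈ F) :
    FA_S18_B_IsInt A π y ∨ FA_S18_B_IsInt A π y⁻¹ := by
  by_cases hy0 : y = 0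
  · left
    rw [hy0]
    exact FA_S18_B_isInt_zero
  obtain ⟨c, hc, hint, hred⟩ := FA_S18_B_scale D hy hy0
  rcases A.mem_or_inv_mem c with h | h
  · right
    have h1 := FA_S18_B_isInt_mul (FA_S18_B_isInt_const (π := π) ⟨c, h⟩)
      (FA_S18_B_isInt_inv hint hred).1
    have h2 : algebraMap K (LaurentSeries K) c * (algebraMap K (LaurentSeries K) c * y)⁻¹ = y⁻¹ := by
      have hc' : algebraMap K (LaurentSeries K) c ≠ 0 := by
        rw [Ne, map_eq_zero]
        exact hc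
      field_simp
    rw [← h2]
    exact h1
  · left
    have h1 := FA_S18_B_isInt_mul (FA_S18_B_isInt_const (π := π) ⟨c⁻¹, h⟩) hint
    have h2 : algebraMap K (LaurentSeries K) c⁻¹ * (algebraMap K (LaurentSeries K) c * y) = y := by
      rw [← mul_assoc, ← map_mul, inv_mul_cancel₀ hc, map_one, one_mul]
    rw [← h2]
    exact h1

/-- **Kernel of the reduction**: a nonzero `y ∈ F ∩ O` with `red y = 0` is `m · (unit of O)` with
`m ∈ 𝔪`. -/
theorem FA_S18_B_ker (D : FA_S18_B_Datum A π F n) {y : LaurentSeries K} (hy : y ∈ F)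
    (hy0 : y ≠ 0)
    (hint : FA_S18_B_IsInt A π y) (hred : FA_S18_B_red A π y = 0) :
    ∃ m : A, m ∈ IsLocalRing.maximalIdeal A ∧ m ≠ 0 ∧
      FA_S18_B_IsInt A π (algebraMap K (LaurentSeries K) (m : K)⁻¹ * y) ∧
      FA_S18_B_red A π (algebraMap K (LaurentSeries K) (m : K)⁻¹ * y) ≠ 0 := by
  obtain ⟨c, hc, hint', hred'⟩ := FA_S18_B_scale D hy hy0
  -- `c⁻¹ ∈ A`: otherwise `c ∈ 𝔪`-inverse ... ; in fact `c⁻¹ ∈ 𝔪`
  have hy_eq : y = algebraMap K (LaurentSeries K) c⁻¹ * (algebraMap K (LaurentSeries K) c * y) := by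
    rw [← mul_assoc, ← map_mul, inv_mul_cancel₀ hc, map_one, one_mul]
  have hci : c⁻¹ ∈ A := by
    by_contra hci
    have hcA : c ∈ A := by
      have := (A.mem_or_inv_mem c⁻¹).resolve_left hci
      rwa [inv_inv] at this
    -- then `c · y` has reduction `π c · red y = 0`
    have := FA_S18_B_red_const_mul (π := π) ⟨c, hcA⟩ hint
    rw [hred, mul_zero] at this
    exact hred' this
  refine ⟨⟨c⁻¹, hci⟩, ?_, ?_, ?_, ?_⟩
  · rw [IsLocalRing.mem_maximalIdeal, mem_nonunits_iff]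
    intro hunit
    -- then `π c⁻¹ ≠ 0` and `red y = π c⁻¹ · red (c y) ≠ 0`
    have h1 := FA_S18_B_red_const_mul (π := π) ⟨c⁻¹, hci⟩ hint'
    rw [← hy_eq, hred] at h1
    have h2 : π ⟨c⁻¹, hci⟩ ≠ 0 := (hunit.map π).ne_zero
    rcases mul_eq_zero.mp h1.symm with h3 | h3
    · rw [map_eq_zero] at h3
      exact h2 h3
    · exact hred' h3
  · intro h0
    have := congrArg Subtype.val h0
    simp only [ZeroMemClass.coe_zero, inv_eq_zero] at this
    exact hc this
  · simpa using hint'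
  · simpa using hred'

/-- **Integral normal form**: `y ∈ F ∩ O` satisfies `ι(Q(x)) · y = ι(∑ P_i(x) e_i)` with
`Q, P_i ∈ A[X]`, `Q̄ ≠ 0`. -/
theorem FA_S18_B_int_normal (D : FA_S18_B_Datum A π F n) {y : LaurentSeries K} (hy : y ∈ F)
    (hint : FA_S18_B_IsInt A π y) :
    ∃ (Q : A[X]) (P : Fin n → A[X]), Q.map π ≠ 0 ∧
      coeffMap A.subtype (FA_S18_B_ev D.x Q) * y = coeffMap A.subtype (D.comb P) := by
  by_cases hy0 : y = 0
  · refine ⟨1, fun _ => 0, ?_, ?_⟩
    · rw [Polynomial.map_one]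
      exact one_ne_zero
    · rw [hy0, mul_zero, FA_S18_B_Datum.comb]
      simp [FA_S18_B_ev_zero]
  obtain ⟨c, Q, P, hc, hQ, hP, e⟩ := FA_S18_B_normal D hy hy0
  have hu := D.rho_ev_ne_zero hQ
  have hw := D.rho_comb_ne_zero hP
  have hcA : c ∈ A := by
    by_contra hcA
    have hci : c⁻¹ ∈ A := (A.mem_or_inv_mem c).resolve_left hcA
    have hm : (⟨c⁻¹, hci⟩ : A) ∈ IsLocalRing.maximalIdeal A := by
      rw [IsLocalRing.mem_maximalIdeal, mem_nonunits_iff]
      intro hunit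
      apply hcA
      obtain ⟨b, hb⟩ := isUnit_iff_exists_inv.mp hunit
      have h1 : c⁻¹ * (b : K) = 1 := by
        have := congrArg Subtype.val hb
        simpa using this
      have h2 : (b : K) = c := by
        have h3 := congrArg (fun t => c * t) h1
        simp only [← mul_assoc, mul_inv_cancel₀ hc, one_mul, mul_one] at h3
        exact h3
      rw [← h2]
      exact b.2
    -- `ι (comb P) = c⁻¹ · ι(Q(x)) · y`
    have e2 : coeffMap A.subtype (D.comb P)
        = algebraMap K (LaurentSeries K) ((⟨c⁻¹, hci⟩ : A) : K)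
            * (coeffMap A.subtype (FA_S18_B_ev D.x Q) * y) := by
      rw [e, FA_S18_B_algebraMap_eq_C, ← mul_assoc, ← map_mul]
      show _ = HahnSeries.C (c⁻¹ * c) * _
      rw [inv_mul_cancel₀ hc, map_one, one_mul]
    have h3 := congrArg (FA_S18_B_red A π) e2
    rw [FA_S18_B_red_iota, FA_S18_B_red_const_mul ⟨c⁻¹, hci⟩
      (FA_S18_B_isInt_mul (FA_S18_B_isInt_iota _) hint), D.ker _ hm, map_zero, zero_mul] at h3
    exact hw h3
  refine ⟨Q, fun i => C (⟨c, hcA⟩ : A) * P i, hQ, ?_⟩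
  rw [e, FA_S18_B_Datum.comb, FA_S18_B_Datum.comb, map_sum, map_sum, Finset.mul_sum]
  apply Finset.sum_congr rfl
  intro i _
  rw [FA_S18_B_ev_mul, FA_S18_B_ev_C, map_mul, map_mul, map_mul, FA_S18_B_coeffMap_C]
  rw [mul_assoc]
  rfl

/-- The reduction in terms of an integral normal form. -/
theorem FA_S18_B_red_of_normal (D : FA_S18_B_Datum A π F n) {y : LaurentSeries K}
    {Q : A[X]} {P : Fin n → A[X]} (hQ : Q.map π ≠ 0)
    (e : coeffMap A.subtype (FA_S18_B_ev D.x Q) * y = coeffMap A.subtype (D.comb P)) :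
    FA_S18_B_ev (coeffMap π D.x) (Q.map π) * FA_S18_B_red A π y
      = ∑ i, FA_S18_B_ev (coeffMap π D.x) ((P i).map π) * coeffMap π (D.e i) := by
  have hu := D.rho_ev_ne_zero hQ
  rw [FA_S18_B_red_eq hu e, ← D.rho_comb, ← FA_S18_B_coeffMap_ev, mul_div_cancel₀ _ hu]

theorem FA_S18_B_ev_mem (Fb : IntermediateField k (LaurentSeries k)) {x : LaurentSeries k}
    (hx : x ∈ Fb) (Q : k[X]) : FA_S18_B_ev x Q ∈ Fb := by
  rw [← FA_S18_B_aeval_eq_ev]
  have h1 : aeval x Q ∈ Algebra.adjoin k {x} := Polynomial.aeval_mem_adjoin_singleton k x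
  have h2 : Algebra.adjoin k {x} ≤ Fb.toSubalgebra :=
    Algebra.adjoin_le (Set.singleton_subset_iff.mpr hx)
  exact h2 h1

/-- The reduction of `F ∩ O` lies in any intermediate field containing `x̄` and the `ē_i`. -/
theorem FA_S18_B_red_mem (D : FA_S18_B_Datum A π F n)
    (Fb : IntermediateField k (LaurentSeries k)) (hx : coeffMap π D.x ∈ Fb)
    (he : ∀ i, coeffMap π (D.e i) ∈ Fb) {y : LaurentSeries K} (hy : y ∈ F)
    (hint : FA_S18_B_IsInt A π y) : FA_S18_B_red A π y ∈ Fb := by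
  obtain ⟨Q, P, hQ, e⟩ := FA_S18_B_int_normal D hy hint
  have hu := D.rho_ev_ne_zero hQ
  rw [FA_S18_B_red_eq hu e]
  refine div_mem ?_ ?_
  · rw [D.rho_comb]
    exact sum_mem fun i _ => mul_mem (FA_S18_B_ev_mem Fb hx _) (he i)
  · rw [FA_S18_B_coeffMap_ev]
    exact FA_S18_B_ev_mem Fb hx _

/-- The image of `F ∩ O` under the reduction is a subfield of `k((q))` containing `k`. -/
def FA_S18_B_redField (F : IntermediateField K (LaurentSeries K)) (hπ : Function.Surjective π) :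
    IntermediateField k (LaurentSeries k) where
  carrier := {z | ∃ y ∈ F, FA_S18_B_IsInt A π y ∧ FA_S18_B_red A π y = z}
  mul_mem' := by
    rintro _ _ ⟨y, hy, hi, rfl⟩ ⟨y', hy', hi', rfl⟩
    exact ⟨y * y', mul_mem hy hy', FA_S18_B_isInt_mul hi hi', FA_S18_B_red_mul hi hi'⟩
  add_mem' := by
    rintro _ _ ⟨y, hy, hi, rfl⟩ ⟨y', hy', hi', rfl⟩
    exact ⟨y + y', add_mem hy hy', FA_S18_B_isInt_add hi hi', FA_S18_B_red_add hi hi'⟩
  algebraMap_mem' := by
    intro c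
    obtain ⟨a, rfl⟩ := hπ c
    exact ⟨algebraMap K (LaurentSeries K) (a : K), F.algebraMap_mem _, FA_S18_B_isInt_const a,
      FA_S18_B_red_const a⟩
  inv_mem' := by
    rintro _ ⟨y, hy, hi, rfl⟩
    by_cases h0 : FA_S18_B_red A π y = 0
    · rw [h0, inv_zero]
      exact ⟨0, zero_mem _, FA_S18_B_isInt_zero, FA_S18_B_red_zero⟩
    · exact ⟨y⁻¹, inv_mem hy, (FA_S18_B_isInt_inv hi h0).1, (FA_S18_B_isInt_inv hi h0).2⟩

theorem FA_S18_B_mem_redField {F : IntermediateField K (LaurentSeries K)}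
    {hπ : Function.Surjective π} {z : LaurentSeries k} :
    z ∈ FA_S18_B_redField (A := A) F hπ ↔
      ∃ y ∈ F, FA_S18_B_IsInt A π y ∧ FA_S18_B_red A π y = z := Iff.rfl

end Fermat.Agent.S18
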