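import Mathlib
import Fermat.Agent.S18.GaussBasis

/-!
# S18, leaf N / CUSP, part B: the Gauss datum of the Kummer cover `F' = σ(F)(x)`

`σ = qExpand w` (`q ↦ q^w`).  Let `D` be a datum of `F ⊂ K((q))` with generator `u` and basis
`e i`, and let `x = t · σ(g)` with `x ^ w = σ(u)`.  If `F' ⊂ K((t))` contains `σ(F)` and `x` and
every element of `F'` is `∑_{r < w} σ(f_r) x^r` with `f_r ∈ F`, then `F'` has the datum with
generator `x` and basis `σ(e i)`.
-/

set_option autoImplicit false
set_option linter.unusedSectionVars false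
set_option linter.style.haveILetI false

noncomputable section

namespace Fermat.Agent.S18

open ModularCurve Polynomial

section Residues

variable {R : Type*} [CommRing R] (w : ℕ) [NeZero w]

/-- Series supported on distinct residue classes mod `w` are independent. -/
theorem FA_S18_CUB_residues (a : Fin w → LaurentSeries R)
    (h : (∑ r : Fin w, HahnSeries.single ((r : ℕ) : ℤ) (1 : R) * qExpand R w (a r)) = 0) :
    ∀ r, a r = 0 := by
  intro r₀
  ext s
  have h1 := congrArg (fun z : LaurentSeries R => z.coeff ((w : ℤ) * s + ((r₀ : ℕ) : ℤ))) h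
  simp only [HahnSeries.coeff_sum, HahnSeries.coeff_zero] at h1
  rw [Finset.sum_eq_single r₀] at h1
  · rw [HahnSeries.coeff_single_mul_add, one_mul, qExpand_coeff_mul] at h1
    rw [h1, HahnSeries.coeff_zero]
  · intro r _ hr
    rw [HahnSeries.coeff_single_mul, one_mul]
    apply qExpand_coeff_of_not_dvd
    intro hdvd
    apply hr
    have h2 : (w : ℤ) ∣ ((r₀ : ℕ) : ℤ) - ((r : ℕ) : ℤ) := by
      have : (w : ℤ) * s + ((r₀ : ℕ) : ℤ) - ((r : ℕ) : ℤ)
          = (w : ℤ) * s + (((r₀ : ℕ) : ℤ) - ((r : ℕ) : ℤ)) := by ring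
      rw [this] at hdvd
      exact (Int.dvd_add_right (Dvd.intro _ rfl)).mp hdvd
    have h3 : |((r₀ : ℕ) : ℤ) - ((r : ℕ) : ℤ)| < (w : ℤ) := by
      have hr0 := r₀.2
      have hr1 := r.2
      rw [abs_lt]
      constructor <;> omega
    have h4 := Int.eq_zero_of_abs_lt_dvd h2 h3
    apply Fin.ext
    omega
  · intro hn
    exact absurd (Finset.mem_univ _) hn

/-- Splitting a polynomial by exponents mod `w`. -/
theorem FA_S18_CUB_split (c : R[X]) :
    ∃ d : Fin w → R[X], c = ∑ r : Fin w, X ^ (r : ℕ) * expand R w (d r) := by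
  classical
  have hw : 0 < w := Nat.pos_of_ne_zero (NeZero.ne w)
  induction c using Polynomial.induction_on' with
  | add p q hp hq =>
    obtain ⟨d, hd⟩ := hp
    obtain ⟨d', hd'⟩ := hq
    refine ⟨fun r => d r + d' r, ?_⟩
    rw [hd, hd', ← Finset.sum_add_distrib]
    apply Finset.sum_congr rfl
    intro r _
    rw [map_add, mul_add]
  | monomial m a =>
    refine ⟨fun r => if r = ⟨m % w, Nat.mod_lt _ hw⟩ then monomial (m / w) a else 0, ?_⟩
    rw [Finset.sum_eq_single ⟨m % w, Nat.mod_lt _ hw⟩]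
    · simp only
      rw [if_pos trivial, expand_monomial, ← C_mul_X_pow_eq_monomial, ← C_mul_X_pow_eq_monomial,
        mul_left_comm, ← pow_add]
      congr 2
      show m = m % w + m / w * w
      rw [mul_comm]
      exact (Nat.mod_add_div m w).symm
    · intro r _ hr
      simp only
      rw [if_neg hr, map_zero, mul_zero]
    · intro hn
      exact absurd (Finset.mem_univ _) hn

theorem FA_S18_CUB_ev_qExpand (u : LaurentSeries R) (c : R[X]) :
    FA_S18_B_ev (qExpand R w u) c = qExpand R w (FA_S18_B_ev u c) := by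
  rw [FA_S18_B_ev, FA_S18_B_ev, Polynomial.hom_eval₂]
  congr 1
  ext r : 1
  exact (qExpand_C w r).symm

theorem FA_S18_CUB_ev_X_pow (x : LaurentSeries R) (r : ℕ) :
    FA_S18_B_ev x (X ^ r) = x ^ r := by
  rw [FA_S18_B_ev, eval₂_pow, eval₂_X]

theorem FA_S18_CUB_ev_sum {ι : Type*} (s : Finset ι) (x : LaurentSeries R) (c : ι → R[X]) :
    FA_S18_B_ev x (∑ i ∈ s, c i) = ∑ i ∈ s, FA_S18_B_ev x (c i) := by
  rw [FA_S18_B_ev, Polynomial.eval₂_finsetSum]
  rfl

theorem FA_S18_CUB_ev_expand (x : LaurentSeries R) (c : R[X]) :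
    FA_S18_B_ev x (expand R w c) = FA_S18_B_ev (x ^ w) c := by
  rw [FA_S18_B_ev, FA_S18_B_ev, expand_eq_comp_X_pow, Polynomial.eval₂_comp, eval₂_pow, eval₂_X]

/-- `c(x) = ∑_r x^r σ(d_r(u))` if `x^w = σ(u)`. -/
theorem FA_S18_CUB_ev_split (x u : LaurentSeries R) (hx : x ^ w = qExpand R w u)
    (d : Fin w → R[X]) :
    FA_S18_B_ev x (∑ r : Fin w, X ^ (r : ℕ) * expand R w (d r))
      = ∑ r : Fin w, x ^ (r : ℕ) * qExpand R w (FA_S18_B_ev u (d r)) := by
  rw [FA_S18_B_ev, Polynomial.eval₂_finsetSum]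
  apply Finset.sum_congr rfl
  intro r _
  rw [eval₂_mul, eval₂_pow, eval₂_X]
  congr 1
  show FA_S18_B_ev x (expand R w (d r)) = _
  rw [FA_S18_CUB_ev_expand, hx, FA_S18_CUB_ev_qExpand]

theorem FA_S18_CUB_qExpand_injective : Function.Injective (qExpand R w) := by
  intro a b hab
  ext s
  have := congrArg (fun z : LaurentSeries R => z.coeff ((w : ℤ) * s)) hab
  simpa only [qExpand_coeff_mul] using this

theorem FA_S18_CUB_x_pow (g : LaurentSeries R) (r : ℕ) :
    (HahnSeries.single (1 : ℤ) (1 : R) * qExpand R w g) ^ r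
      = HahnSeries.single ((r : ℕ) : ℤ) (1 : R) * qExpand R w (g ^ r) := by
  rw [mul_pow, HahnSeries.single_pow, one_pow, map_pow]
  congr 2
  simp

theorem FA_S18_CUB_coeffMap_x {S : Type*} [CommRing S] (φ : R →+* S) (g : LaurentSeries R) :
    coeffMap φ (HahnSeries.single (1 : ℤ) (1 : R) * qExpand R w g)
      = HahnSeries.single (1 : ℤ) (1 : S) * qExpand S w (coeffMap φ g) := by
  rw [map_mul, coeffMap_single, map_one, coeffMap_qExpand]

end Residues

variable {K : Type*} [Field K] {A : ValuationSubring K} {k : Type*} [Field k] {π : A →+* k}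
variable {F : IntermediateField K (LaurentSeries K)} {n : ℕ}

/-- Independence of the `σ(ē_i)` over `k[x̄]`. -/
theorem FA_S18_CUB_indep (D : FA_S18_B_Datum A π F n) (w : ℕ) [NeZero w] (g : LaurentSeries A)
    (hx : (HahnSeries.single (1 : ℤ) (1 : A) * qExpand A w g) ^ w = qExpand A w D.x)
    (c : Fin n → k[X])
    (hc : (∑ i, FA_S18_B_ev (coeffMap π (HahnSeries.single (1 : ℤ) (1 : A) * qExpand A w g)) (c i)
      * coeffMap π (qExpand A w (D.e i))) = 0) : ∀ i, c i = 0 := by
  classical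
  have hxb : (coeffMap π (HahnSeries.single (1 : ℤ) (1 : A) * qExpand A w g)) ^ w
      = qExpand k w (coeffMap π D.x) := by
    rw [← map_pow, hx, coeffMap_qExpand]
  have hub : coeffMap π D.x ≠ 0 := by
    intro h0
    have := D.xbar_transc X (by rw [FA_S18_B_ev_X]; exact h0)
    exact X_ne_zero this
  have hgb : coeffMap π g ≠ 0 := by
    intro h0
    rw [FA_S18_CUB_coeffMap_x, h0, map_zero, mul_zero, zero_pow (NeZero.ne w)] at hxb
    exact hub (FA_S18_CUB_qExpand_injective w (by rw [← hxb, map_zero]))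
  choose d hd using fun i => FA_S18_CUB_split (R := k) w (c i)
  have h1 : ∀ i, FA_S18_B_ev (coeffMap π (HahnSeries.single (1 : ℤ) (1 : A) * qExpand A w g)) (c i)
      * coeffMap π (qExpand A w (D.e i))
      = ∑ r : Fin w, HahnSeries.single ((r : ℕ) : ℤ) (1 : k)
          * qExpand k w (coeffMap π g ^ (r : ℕ)
              * (FA_S18_B_ev (coeffMap π D.x) (d i r) * coeffMap π (D.e i))) := by
    intro i
    conv_lhs => rw [hd i]
    rw [FA_S18_CUB_ev_split w _ _ hxb, Finset.sum_mul]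
    apply Finset.sum_congr rfl
    intro r _
    rw [FA_S18_CUB_coeffMap_x, FA_S18_CUB_x_pow, coeffMap_qExpand, map_mul, map_mul]
    ring
  simp only [h1] at hc
  rw [Finset.sum_comm] at hc
  have h2 : ∀ r : Fin w, (∑ i, HahnSeries.single ((r : ℕ) : ℤ) (1 : k)
          * qExpand k w (coeffMap π g ^ (r : ℕ)
              * (FA_S18_B_ev (coeffMap π D.x) (d i r) * coeffMap π (D.e i))))
      = HahnSeries.single ((r : ℕ) : ℤ) (1 : k) * qExpand k w (coeffMap π g ^ (r : ℕ)
          * ∑ i, FA_S18_B_ev (coeffMap π D.x) (d i r) * coeffMap π (D.e i)) := by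
    intro r
    rw [Finset.mul_sum, map_sum, Finset.mul_sum]
  simp only [h2] at hc
  have h3 := FA_S18_CUB_residues w _ hc
  have h4 : ∀ r i, d i r = 0 := by
    intro r i
    have h5 := h3 r
    rcases mul_eq_zero.mp h5 with h6 | h6
    · exact absurd h6 (pow_ne_zero _ hgb)
    · exact D.indep (fun i => d i r) h6 i
  intro i
  rw [hd i]
  apply Finset.sum_eq_zero
  intro r _
  rw [h4 r i, map_zero, mul_zero]

/-- Spanning: every `y = ∑_r σ(f_r) x^r` is a `K(x)`-combination of the `σ(e_i)`. -/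
theorem FA_S18_CUB_span (D : FA_S18_B_Datum A π F n) (w : ℕ) [NeZero w] (g : LaurentSeries A)
    (hx : (HahnSeries.single (1 : ℤ) (1 : A) * qExpand A w g) ^ w = qExpand A w D.x)
    (f : Fin w → LaurentSeries K) (hf : ∀ r, f r ∈ F) :
    ∃ (Q : K[X]) (P : Fin n → K[X]), Q ≠ 0 ∧
      FA_S18_B_ev (coeffMap A.subtype (HahnSeries.single (1 : ℤ) (1 : A) * qExpand A w g)) Q
        * (∑ r : Fin w, qExpand K w (f r)
            * (coeffMap A.subtype (HahnSeries.single (1 : ℤ) (1 : A) * qExpand A w g)) ^ (r : ℕ))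
      = ∑ i, FA_S18_B_ev
            (coeffMap A.subtype (HahnSeries.single (1 : ℤ) (1 : A) * qExpand A w g)) (P i)
          * coeffMap A.subtype (qExpand A w (D.e i)) := by
  classical
  have hw : 0 < w := Nat.pos_of_ne_zero (NeZero.ne w)
  set xK := coeffMap A.subtype (HahnSeries.single (1 : ℤ) (1 : A) * qExpand A w g) with hxK
  have hxw : xK ^ w = qExpand K w (coeffMap A.subtype D.x) := by
    rw [hxK, ← map_pow, hx, coeffMap_qExpand]
  choose Q P hQ hP using fun r => D.span (f r) (hf r)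
  -- the relation for `f r`, transported by `σ`
  have h1 : ∀ r, FA_S18_B_ev xK (expand K w (Q r)) * qExpand K w (f r)
      = ∑ i, FA_S18_B_ev xK (expand K w (P r i)) * coeffMap A.subtype (qExpand A w (D.e i)) := by
    intro r
    have h2 := congrArg (qExpand K w) (hP r)
    rw [map_mul, map_sum, ← FA_S18_CUB_ev_qExpand, ← hxw, ← FA_S18_CUB_ev_expand] at h2
    rw [h2]
    apply Finset.sum_congr rfl
    intro i _
    rw [map_mul, ← FA_S18_CUB_ev_qExpand, ← hxw, ← FA_S18_CUB_ev_expand, coeffMap_qExpand]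
  refine ⟨∏ r, expand K w (Q r),
    fun i => ∑ r : Fin w, X ^ (r : ℕ) * (expand K w (P r i)
      * ∏ r' ∈ Finset.univ.erase r, expand K w (Q r')),
    Finset.prod_ne_zero_iff.mpr fun r _ => fun h0 => hQ r ((expand_eq_zero hw).mp h0), ?_⟩
  have h3 : ∀ r, FA_S18_B_ev xK (∏ r, expand K w (Q r)) * (qExpand K w (f r) * xK ^ (r : ℕ))
      = ∑ i, FA_S18_B_ev xK (X ^ (r : ℕ) * (expand K w (P r i)
          * ∏ r' ∈ Finset.univ.erase r, expand K w (Q r')))
          * coeffMap A.subtype (qExpand A w (D.e i)) := by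
    intro r
    rw [← Finset.mul_prod_erase Finset.univ (fun r => expand K w (Q r)) (Finset.mem_univ r),
      FA_S18_B_ev_mul]
    have h4 : FA_S18_B_ev xK (expand K w (Q r))
          * FA_S18_B_ev xK (∏ r' ∈ Finset.univ.erase r, expand K w (Q r'))
          * (qExpand K w (f r) * xK ^ (r : ℕ))
        = xK ^ (r : ℕ) * FA_S18_B_ev xK (∏ r' ∈ Finset.univ.erase r, expand K w (Q r'))
          * (FA_S18_B_ev xK (expand K w (Q r)) * qExpand K w (f r)) := by ring
    rw [h4, h1 r, Finset.mul_sum]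
    apply Finset.sum_congr rfl
    intro i _
    rw [FA_S18_B_ev_mul, FA_S18_B_ev_mul, FA_S18_CUB_ev_X_pow]
    ring
  rw [Finset.mul_sum]
  simp only [h3]
  rw [Finset.sum_comm]
  apply Finset.sum_congr rfl
  intro i _
  rw [← Finset.sum_mul, FA_S18_CUB_ev_sum]

/-- **CU-B**: the Gauss datum of `F' = σ(F)(x)`, generator `x = t · σ(g)`, basis `σ(e i)`. -/
def FA_S18_CUB_datum (D : FA_S18_B_Datum A π F n) (w : ℕ) [NeZero w] (g : LaurentSeries A)
    (hx : (HahnSeries.single (1 : ℤ) (1 : A) * qExpand A w g) ^ w = qExpand A w D.x)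
    (F' : IntermediateField K (LaurentSeries K))
    (h1 : ∀ f ∈ F, qExpand K w f ∈ F')
    (h2 : coeffMap A.subtype (HahnSeries.single (1 : ℤ) (1 : A) * qExpand A w g) ∈ F')
    (h3 : ∀ y ∈ F', ∃ f : Fin w → LaurentSeries K, (∀ r, f r ∈ F) ∧
      y = ∑ r : Fin w, qExpand K w (f r)
        * (coeffMap A.subtype (HahnSeries.single (1 : ℤ) (1 : A) * qExpand A w g)) ^ (r : ℕ)) :
    FA_S18_B_Datum A π F' n where
  x := HahnSeries.single (1 : ℤ) (1 : A) * qExpand A w g
  e := fun i => qExpand A w (D.e i)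
  pos := D.pos
  ker := D.ker
  x_mem := h2
  e_mem := fun i => by
    rw [coeffMap_qExpand]
    exact h1 _ (D.e_mem i)
  indep := FA_S18_CUB_indep D w g hx
  span := by
    intro y hy
    obtain ⟨f, hf, rfl⟩ := h3 y hy
    exact FA_S18_CUB_span D w g hx f hf

end Fermat.Agent.S18
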