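import Mathlib
import Fermat.Agent.S18.CuspField
import Fermat.Agent.S18.CuspDatum

/-!
# S18, leaf N / CUSP, part B: decomposition of the Kummer field and its Gauss datum

* `FA_S18_CUB_decomp` : if `x ^ w = σ u`, `u ∈ F`, every element of `F' = σ(F)(x)` is
  `∑_{r < w} σ(f_r) x^r` with `f_r ∈ F`.
* `FA_S18_CUB_datum'` : the Gauss datum of `F' = FA_S18_CUF_field K w F (ι x)` with generator
  `x = t · σ(g)` and basis `σ(e i)`.
-/

set_option autoImplicit false
set_option linter.unusedSectionVars false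
set_option linter.style.haveILetI false

noncomputable section

namespace Fermat.Agent.S18

open ModularCurve Polynomial

/-- **Decomposition** `F' = ⊕_{r < w} σ(F) x^r` (existence). -/
theorem FA_S18_CUB_decomp (K : Type) [Field K] (w : ℕ) [NeZero w]
    (F : IntermediateField K (LaurentSeries K)) (x u : LaurentSeries K) (hu : u ∈ F)
    (hx : x ^ w = qExpand K w u) {y : LaurentSeries K} (hy : y ∈ FA_S18_CUF_field K w F x) :
    ∃ f : Fin w → LaurentSeries K, (∀ r, f r ∈ F) ∧
      y = ∑ r : Fin w, qExpand K w (f r) * x ^ (r : ℕ) := by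
  classical
  have hσ : ∀ f ∈ F, qExpand K w f ∈ F.map (qExpandAlgHomC K w) := fun f hf =>
    (IntermediateField.mem_map _).mpr ⟨f, hf, rfl⟩
  have hm : (X ^ w - C (⟨qExpand K w u, hσ u hu⟩ : ↥(F.map (qExpandAlgHomC K w)))).Monic :=
    monic_X_pow_sub_C _ (NeZero.ne w)
  have hmx : aeval x (X ^ w - C (⟨qExpand K w u, hσ u hu⟩ : ↥(F.map (qExpandAlgHomC K w))))
      = 0 := by
    rw [map_sub, map_pow, aeval_X, aeval_C, hx]
    exact sub_self _
  have halg : IsAlgebraic ↥(F.map (qExpandAlgHomC K w)) x := ⟨_, hm.ne_zero, hmx⟩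
  have hle : FA_S18_CUF_field K w F x
      ≤ (IntermediateField.adjoin ↥(F.map (qExpandAlgHomC K w)) {x}).restrictScalars K := by
    apply FA_S18_CUF_le
    · intro f hf
      exact (IntermediateField.adjoin ↥(F.map (qExpandAlgHomC K w)) {x}).algebraMap_mem
        ⟨qExpand K w f, hσ f hf⟩
    · exact IntermediateField.mem_adjoin_simple_self _ _
  have hy1 : y ∈ IntermediateField.adjoin ↥(F.map (qExpandAlgHomC K w)) {x} := hle hy
  have hy2 : y ∈ Algebra.adjoin ↥(F.map (qExpandAlgHomC K w)) {x} := by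
    rw [← IntermediateField.adjoin_simple_toSubalgebra_of_isAlgebraic halg]
    exact hy1
  rw [Algebra.adjoin_singleton_eq_range_aeval] at hy2
  obtain ⟨p, rfl⟩ := hy2
  show ∃ f : Fin w → LaurentSeries K, (∀ r, f r ∈ F) ∧
    aeval x p = ∑ r : Fin w, qExpand K w (f r) * x ^ (r : ℕ)
  have h1 : aeval x p
      = aeval x (p %ₘ (X ^ w - C (⟨qExpand K w u, hσ u hu⟩ : ↥(F.map (qExpandAlgHomC K w))))) := by
    conv_lhs => rw [← Polynomial.modByMonic_add_div p
      (X ^ w - C (⟨qExpand K w u, hσ u hu⟩ : ↥(F.map (qExpandAlgHomC K w))))]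
    rw [map_add, map_mul, hmx, zero_mul, add_zero]
  have hdeg : (p %ₘ (X ^ w
      - C (⟨qExpand K w u, hσ u hu⟩ : ↥(F.map (qExpandAlgHomC K w))))).natDegree < w := by
    have hw : 0 < w := Nat.pos_of_ne_zero (NeZero.ne w)
    have h2 := Polynomial.natDegree_modByMonic_lt p hm (by
      intro h1'
      have h3 := congrArg natDegree h1'
      rw [natDegree_X_pow_sub_C, natDegree_one] at h3
      omega)
    rwa [natDegree_X_pow_sub_C] at h2
  rw [h1, Polynomial.aeval_eq_sum_range' hdeg]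
  have hc : ∀ i : ℕ, ∃ f ∈ F, qExpand K w f
      = (((p %ₘ (X ^ w - C (⟨qExpand K w u, hσ u hu⟩ :
          ↥(F.map (qExpandAlgHomC K w))))).coeff i : ↥(F.map (qExpandAlgHomC K w))) :
            LaurentSeries K) := fun i => by
    obtain ⟨f, hf, h⟩ := (IntermediateField.mem_map _).mp
      ((p %ₘ (X ^ w - C (⟨qExpand K w u, hσ u hu⟩ :
          ↥(F.map (qExpandAlgHomC K w))))).coeff i).2
    exact ⟨f, hf, h⟩
  choose f hf hfc using hc
  refine ⟨fun r => f r, fun r => hf r, ?_⟩
  rw [Finset.sum_range]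
  apply Finset.sum_congr rfl
  intro r _
  rw [hfc, Algebra.smul_def]
  rfl

variable {K : Type} [Field K] {A : ValuationSubring K} {k : Type*} [Field k] {π : A →+* k}
variable {F : IntermediateField K (LaurentSeries K)} {n : ℕ}

/-- **CU-B**: the Gauss datum of the Kummer field `F' = σ(F)(x)`, `x = t · σ(g)`,
`x ^ w = σ(u)`, `u` the generator of the datum `D` of `F`. -/
def FA_S18_CUB_datum' (D : FA_S18_B_Datum A π F n) (w : ℕ) [NeZero w] (g : LaurentSeries A)
    (hx : (HahnSeries.single (1 : ℤ) (1 : A) * qExpand A w g) ^ w = qExpand A w D.x) :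
    FA_S18_B_Datum A π (FA_S18_CUF_field K w F
      (coeffMap A.subtype (HahnSeries.single (1 : ℤ) (1 : A) * qExpand A w g))) n :=
  FA_S18_CUB_datum D w g hx _ (fun _ hf => FA_S18_CUF_sigma_mem F _ hf) (FA_S18_CUF_x_mem F _)
    (fun _ hy => FA_S18_CUB_decomp K w F _ (coeffMap A.subtype D.x) D.x_mem
      (by rw [← map_pow, hx, coeffMap_qExpand]) hy)

@[simp]
theorem FA_S18_CUB_datum'_x (D : FA_S18_B_Datum A π F n) (w : ℕ) [NeZero w]
    (g : LaurentSeries A)
    (hx : (HahnSeries.single (1 : ℤ) (1 : A) * qExpand A w g) ^ w = qExpand A w D.x) :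
    (FA_S18_CUB_datum' D w g hx).x = HahnSeries.single (1 : ℤ) (1 : A) * qExpand A w g := rfl

@[simp]
theorem FA_S18_CUB_datum'_e (D : FA_S18_B_Datum A π F n) (w : ℕ) [NeZero w]
    (g : LaurentSeries A)
    (hx : (HahnSeries.single (1 : ℤ) (1 : A) * qExpand A w g) ^ w = qExpand A w D.x)
    (i : Fin n) :
    (FA_S18_CUB_datum' D w g hx).e i = qExpand A w (D.e i) := rfl

end Fermat.Agent.S18
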