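import Mathlib
import Fermat.Agent.S18.GaussBasis
import Fermat.Agent.S18.DescentDeg
import Fermat.Agent.S28.Final
import Fermat.Agent.S28.UnitFinal

/-!
# S18, leaf B (Gauss valuation), part 3: the instance at level `n`

For `A ⊂ ℚ̄` a valuation ring over `ℓ ∤ n`, `k` its residue field: the datum
`x = j`, `e_i` = `ψ(n)` monomials in the `j(q^d)`, `d ∣ n`, whose reductions are independent over
`k(j̄)` (Igusa, S28) and which span `F_n` over `ℚ̄(j)` (degree `ψ(n)`, S24).

Consequences: `FA_S18_B_scale_inst`, `FA_S18_B_ker_inst`, `FA_S18_B_range_inst`.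
-/

set_option autoImplicit false
set_option linter.unusedSectionVars false
set_option linter.style.haveILetI false

noncomputable section

namespace Fermat.Agent.S18

open ModularCurve Polynomial Fermat.Agent.S28

/-! ### The residue field -/

/-- The residue field of a valuation ring of an algebraically closed field is algebraically
closed. -/
theorem FA_S18_B_resField_isAlgClosed {K : Type*} [Field K] [IsAlgClosed K]
    (A : ValuationSubring K) : IsAlgClosed (IsLocalRing.ResidueField A) := by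
  apply IsAlgClosed.of_exists_root
  intro p hp hirr
  obtain ⟨P0, hP0⟩ := Polynomial.map_surjective (IsLocalRing.residue A)
    IsLocalRing.residue_surjective p
  have hlift : p ∈ Polynomial.lifts (IsLocalRing.residue A) := by
    rw [Polynomial.mem_lifts]
    exact ⟨P0, hP0⟩
  obtain ⟨P, hP, hdeg, hmonic⟩ := Polynomial.lifts_and_degree_eq_and_monic hlift hp
  have hdeg0 : (P.map (algebraMap A K)).degree ≠ 0 := by
    rw [Polynomial.degree_map_eq_of_injective (IsFractionRing.injective A K), hdeg]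
    exact (Polynomial.degree_pos_of_irreducible hirr).ne'
  obtain ⟨r, hr⟩ := IsAlgClosed.exists_root _ hdeg0
  have hint : IsIntegral A r := ⟨P, hmonic, by rwa [Polynomial.eval₂_eq_eval_map]⟩
  obtain ⟨a, ha⟩ := IsIntegrallyClosed.algebraMap_eq_of_integral hint
  refine ⟨IsLocalRing.residue A a, ?_⟩
  have h1 : P.eval a = 0 := by
    apply IsFractionRing.injective A K
    rw [map_zero, ← Polynomial.eval₂_at_apply, Polynomial.eval₂_eq_eval_map, ha]
    exact hr
  rw [← hP, Polynomial.eval_map, Polynomial.eval₂_at_apply, h1, map_zero]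

/-- The residue field of a valuation ring lying over `ℓ` has characteristic `ℓ`. -/
theorem FA_S18_B_resField_charP {K : Type*} [Field K] (A : ValuationSubring K) (ℓ : ℕ)
    (hℓ : ℓ.Prime) (hA : A.LiesOverPrime ℓ) : CharP (IsLocalRing.ResidueField A) ℓ := by
  rw [CharP.charP_iff_prime_eq_zero hℓ]
  obtain ⟨ha, hm⟩ := (ValuationSubring.mem_nonunits_iff_exists_mem_maximalIdeal).mp hA
  have h1 : (⟨(ℓ : K), ha⟩ : A) = (ℓ : A) := Subtype.ext (by simp)
  rw [h1] at hm
  have h2 := (IsLocalRing.residue_eq_zero_iff _).mpr hm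
  rw [map_natCast] at h2
  exact h2

theorem FA_S18_B_pi_ker {K : Type*} [Field K] (A : ValuationSubring K) :
    ∀ a : A, a ∈ IsLocalRing.maximalIdeal A → IsLocalRing.residue A a = 0 :=
  fun a ha => (IsLocalRing.residue_eq_zero_iff a).mpr ha

/-! ### Igusa's degree bound, unconditionally -/

theorem FA_S18_B_indDeg (ℓ : ℕ) [Fact ℓ.Prime] : FA_S28_Target_IndDeg ℓ := by
  have hPHI := FA_S28_phiAll ℓ
  have hFin := FA_S28_indFin ℓ
  have hIG : ∀ (p : ℕ) [NeZero p], p.Prime → p ≠ ℓ → FA_S28_Target_IG p ℓ :=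
    fun p _ hp hpl => FA_S28_ig_alg p ℓ hp hpl FA_S28_theta_main (FA_S28_unit p ℓ hp hpl)
  have hIGall : ∀ (k : Type) [Field k] [CharP k ℓ], FA_S28_IGall k ℓ := FA_S28_igk ℓ hIG
  exact FA_S28_indInduct ℓ hPHI hIGall hFin (FA_S28_indIrr ℓ) (FA_S28_indA ℓ)
    (FA_S28_indB ℓ hFin)

/-- `ψ(N)` monomials over `ℤ` in the `j(q^d)`, `d ∣ N`, whose images over `k` (algebraically
closed of characteristic `ℓ ∤ N`) are linearly independent over `k(j)`. -/
theorem FA_S18_B_monomials (ℓ : ℕ) [Fact ℓ.Prime] (k : Type) [Field k] [IsAlgClosed k]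
    [CharP k ℓ] (N : ℕ) [NeZero N] (hN : ¬ ℓ ∣ N) :
    ∃ e : Fin (dedekindPsi N) → LaurentSeries ℤ,
      (∀ i, e i ∈ Submonoid.closure (FA_S28_indMain_jdZ '' {d | d ∣ N})) ∧
      LinearIndependent ↥(FA_S28_kappa k) (fun i => coeffMap (Int.castRingHom k) (e i)) := by
  have hdeg := FA_S18_B_indDeg ℓ k N (NeZero.ne N) hN
  have hint : ∀ d ∈ {d : ℕ | d ∣ N}, IsIntegral ↥(FA_S28_kappa k) (FA_S28_jd k d) := by
    intro d hd
    have hd' : d ∣ N := hd
    refine FA_S28_indFin ℓ (FA_S28_phiAll ℓ) k d ?_ ?_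
    · rintro rfl
      exact NeZero.ne N (zero_dvd_iff.mp hd')
    · exact fun h => hN (h.trans hd')
  obtain ⟨f, hf, hli⟩ := FA_S28_indMain_abs k {d | d ∣ N} hint (dedekindPsi N) hdeg
  choose e he hef using fun i => FA_S28_indMain_lift k _ (f i) (hf i)
  refine ⟨e, he, ?_⟩
  have : (fun i => coeffMap (Int.castRingHom k) (e i)) = f := funext hef
  rw [this]
  exact hli

/-! ### From linear independence over `κ` to independence over `k[X]` and back -/

theorem FA_S18_B_ev_mem_kappa (k : Type) [Field k] (P : k[X]) :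
    FA_S18_B_ev (jqModC k) P ∈ FA_S28_kappa k := by
  rw [← FA_S18_B_aeval_eq_ev]
  exact FA_S28_indMain_aeval_mem k P

theorem FA_S18_B_ev_j_eq_zero (k : Type) [Field k] (P : k[X])
    (h : FA_S18_B_ev (jqModC k) P = 0) : P = 0 :=
  FA_S28_alg_htr k P (by rw [FA_S18_B_aeval_eq_ev]; exact h)

theorem FA_S18_B_indep_of_li (k : Type) [Field k] {m : ℕ} (f : Fin m → LaurentSeries k)
    (hli : LinearIndependent ↥(FA_S28_kappa k) f) (c : Fin m → k[X])
    (h : (∑ i, FA_S18_B_ev (jqModC k) (c i) * f i) = 0) : ∀ i, c i = 0 := by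
  intro i
  have h1 : (∑ i, (⟨FA_S18_B_ev (jqModC k) (c i), FA_S18_B_ev_mem_kappa k (c i)⟩ :
      ↥(FA_S28_kappa k)) • f i) = 0 := by
    rw [← h]
    apply Finset.sum_congr rfl
    intro i _
    rw [Algebra.smul_def]
    rfl
  have h2 := Fintype.linearIndependent_iff.mp hli _ h1 i
  exact FA_S18_B_ev_j_eq_zero k (c i) (congrArg Subtype.val h2)

/-- Elements of `κ = k(j)` are fractions of polynomials in `j`. -/
theorem FA_S18_B_kappa_frac (k : Type) [Field k] (c : LaurentSeries k)
    (hc : c ∈ FA_S28_kappa k) :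
    ∃ Q P : k[X], Q ≠ 0 ∧ FA_S18_B_ev (jqModC k) Q * c = FA_S18_B_ev (jqModC k) P := by
  rw [FA_S28_kappa, IntermediateField.mem_adjoin_simple_iff] at hc
  obtain ⟨r, s, hrs⟩ := hc
  by_cases hs : aeval (jqModC k) s = 0
  · refine ⟨1, 0, one_ne_zero, ?_⟩
    rw [hrs, hs, div_zero, mul_zero, FA_S18_B_ev_zero]
  · refine ⟨s, r, fun h => hs (by rw [h, map_zero]), ?_⟩
    rw [hrs, ← FA_S18_B_aeval_eq_ev, ← FA_S18_B_aeval_eq_ev, mul_div_cancel₀ _ hs]

/-- Common denominator. -/
theorem FA_S18_B_kappa_frac_fin (k : Type) [Field k] {m : ℕ} (c : Fin m → LaurentSeries k)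
    (hc : ∀ i, c i ∈ FA_S28_kappa k) :
    ∃ (Q : k[X]) (P : Fin m → k[X]), Q ≠ 0 ∧
      ∀ i, FA_S18_B_ev (jqModC k) Q * c i = FA_S18_B_ev (jqModC k) (P i) := by
  classical
  choose Q P hQ hP using fun i => FA_S18_B_kappa_frac k (c i) (hc i)
  refine ⟨∏ i, Q i, fun i => P i * ∏ j ∈ Finset.univ.erase i, Q j,
    Finset.prod_ne_zero_iff.mpr fun i _ => hQ i, fun i => ?_⟩
  rw [← Finset.mul_prod_erase Finset.univ Q (Finset.mem_univ i), FA_S18_B_ev_mul,
    FA_S18_B_ev_mul, mul_right_comm, hP i]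

theorem FA_S18_B_li_of_indep (k : Type) [Field k] {m : ℕ} (f : Fin m → LaurentSeries k)
    (h : ∀ P : Fin m → k[X], (∑ i, FA_S18_B_ev (jqModC k) (P i) * f i) = 0 → ∀ i, P i = 0) :
    LinearIndependent ↥(FA_S28_kappa k) f := by
  rw [Fintype.linearIndependent_iff]
  intro c hc i
  obtain ⟨Q, P, hQ, hP⟩ := FA_S18_B_kappa_frac_fin k (fun i => ((c i : ↥(FA_S28_kappa k)) :
    LaurentSeries k)) (fun i => (c i).2)
  have hQ0 : FA_S18_B_ev (jqModC k) Q ≠ 0 := fun h0 => hQ (FA_S18_B_ev_j_eq_zero k Q h0)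
  have h1 : (∑ i, FA_S18_B_ev (jqModC k) (P i) * f i) = 0 := by
    have h2 : (∑ i, FA_S18_B_ev (jqModC k) (P i) * f i)
        = FA_S18_B_ev (jqModC k) Q * ∑ i, c i • f i := by
      rw [Finset.mul_sum]
      apply Finset.sum_congr rfl
      intro i _
      rw [← hP i, Algebra.smul_def, mul_assoc]
      rfl
    rw [h2, hc, mul_zero]
  have h3 := h P h1 i
  have h4 := hP i
  rw [h3, FA_S18_B_ev_zero] at h4
  rcases mul_eq_zero.mp h4 with h5 | h5
  · exact absurd h5 hQ0
  · exact Subtype.ext h5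

/-- Independence over `K[X]` from independence over `k[X]` of the reductions. -/
theorem FA_S18_B_indepK {K : Type*} [Field K] (A : ValuationSubring K) {k : Type*} [Field k]
    (π : A →+* k) {n : ℕ} (x : LaurentSeries A) (e : Fin n → LaurentSeries A)
    (indep : ∀ c : Fin n → k[X],
      (∑ i, FA_S18_B_ev (coeffMap π x) (c i) * coeffMap π (e i)) = 0 → ∀ i, c i = 0)
    (P : Fin n → K[X])
    (h : (∑ i, FA_S18_B_ev (coeffMap A.subtype x) (P i) * coeffMap A.subtype (e i)) = 0) :
    ∀ i, P i = 0 := by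
  by_contra hall
  push Not at hall
  obtain ⟨c, hc, P', hP', i, hi⟩ := FA_S18_B_content_poly A π P hall
  have h1 : coeffMap A.subtype (∑ i, FA_S18_B_ev x (P' i) * e i) = 0 := by
    rw [map_sum]
    have : ∀ i, coeffMap A.subtype (FA_S18_B_ev x (P' i) * e i)
        = HahnSeries.C c⁻¹
          * (FA_S18_B_ev (coeffMap A.subtype x) (P i) * coeffMap A.subtype (e i)) := by
      intro i
      rw [map_mul, FA_S18_B_coeffMap_ev, hP' i, FA_S18_B_ev_mul, FA_S18_B_ev_C, mul_assoc]
    simp only [this]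
    rw [← Finset.mul_sum, h, mul_zero]
  have h2 := FA_S18_B_iota_injective A (h1.trans (map_zero _).symm)
  have h3 := congrArg (coeffMap π) h2
  rw [map_sum, map_zero] at h3
  have h4 : ∀ i, coeffMap π (FA_S18_B_ev x (P' i) * e i)
      = FA_S18_B_ev (coeffMap π x) ((P' i).map π) * coeffMap π (e i) := by
    intro i
    rw [map_mul, FA_S18_B_coeffMap_ev]
  simp only [h4] at h3
  exact hi (indep _ h3 i)

/-- `ψ` independent elements of a field of degree `ψ` over `κ` span it, with a common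
polynomial denominator. -/
theorem FA_S18_B_span_of_li (K : Type) [Field K] (F : IntermediateField K (LaurentSeries K))
    {n : ℕ} (hn : 0 < n) (hle : FA_S28_kappa K ≤ F)
    (hrank : IntermediateField.relfinrank (FA_S28_kappa K) F = n)
    (f : Fin n → LaurentSeries K) (hf : ∀ i, f i ∈ F)
    (hli : LinearIndependent ↥(FA_S28_kappa K) f) (y : LaurentSeries K) (hy : y ∈ F) :
    ∃ (Q : K[X]) (P : Fin n → K[X]), Q ≠ 0 ∧
      FA_S18_B_ev (jqModC K) Q * y = ∑ i, FA_S18_B_ev (jqModC K) (P i) * f i := by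
  have hfr : Module.finrank ↥(FA_S28_kappa K) ↥(IntermediateField.extendScalars hle) = n := by
    rw [← IntermediateField.relfinrank_eq_finrank_of_le hle]
    exact hrank
  haveI : Module.Finite ↥(FA_S28_kappa K) ↥(IntermediateField.extendScalars hle) :=
    Module.finite_of_finrank_pos (by rw [hfr]; exact hn)
  let f' : Fin n → ↥(IntermediateField.extendScalars hle) := fun i => ⟨f i, hf i⟩
  have hli' : LinearIndependent ↥(FA_S28_kappa K) f' :=
    LinearIndependent.of_comp (IntermediateField.extendScalars hle).val.toLinearMap hli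
  have hspan : Submodule.span ↥(FA_S28_kappa K) (Set.range f') = ⊤ :=
    hli'.span_eq_top_of_card_eq_finrank' (by rw [Fintype.card_fin, hfr])
  have hy' : (⟨y, hy⟩ : ↥(IntermediateField.extendScalars hle))
      ∈ Submodule.span ↥(FA_S28_kappa K) (Set.range f') := by
    rw [hspan]
    trivial
  obtain ⟨c, hc⟩ := (Submodule.mem_span_range_iff_exists_fun _).mp hy'
  obtain ⟨Q, P, hQ, hP⟩ := FA_S18_B_kappa_frac_fin K
    (fun i => ((c i : ↥(FA_S28_kappa K)) : LaurentSeries K)) (fun i => (c i).2)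
  refine ⟨Q, P, hQ, ?_⟩
  have hy2 : y = ∑ i, ((c i : ↥(FA_S28_kappa K)) : LaurentSeries K) * f i := by
    have h1 := congrArg (IntermediateField.extendScalars hle).val.toLinearMap hc
    rw [map_sum] at h1
    rw [show y = (IntermediateField.extendScalars hle).val.toLinearMap
      (⟨y, hy⟩ : ↥(IntermediateField.extendScalars hle)) from rfl, ← h1]
    apply Finset.sum_congr rfl
    intro i _
    rw [map_smul, Algebra.smul_def]
    rfl
  rw [hy2, Finset.mul_sum]
  apply Finset.sum_congr rfl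
  intro i _
  rw [← mul_assoc, hP i]

/-! ### The datum at level `n` -/

section Datum

variable (A : ValuationSubring (AlgebraicClosure ℚ)) (n : ℕ) [NeZero n]

theorem FA_S18_B_kappa_le_bar :
    FA_S28_kappa (AlgebraicClosure ℚ) ≤ modularFunctionFieldBar n := by
  rw [FA_S18_G_bar_eq_fullC, FA_S18_G_fullC_eq_fld]
  exact FA_S28_indMain_kappa_le _ _

theorem FA_S18_B_iota_int {K : Type*} [Field K] (A : ValuationSubring K) (e : LaurentSeries ℤ) :
    coeffMap A.subtype (coeffMap (Int.castRingHom A) e)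
      = coeffMap (Int.castRingHom K) e := by
  rw [coeffMap_coeffMap]
  exact coeffMap_congr (RingHom.ext_int _ _) e

theorem FA_S18_B_rho_int {K : Type*} [Field K] (A : ValuationSubring K) {k : Type*} [Field k]
    (π : A →+* k) (e : LaurentSeries ℤ) :
    coeffMap π (coeffMap (Int.castRingHom A) e) = coeffMap (Int.castRingHom k) e := by
  rw [coeffMap_coeffMap]
  exact coeffMap_congr (RingHom.ext_int _ _) e

/-- Monomials in the `j(q^d)`, `d ∣ n`, lie in `F_n` (over any field). -/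
theorem FA_S18_B_monomial_mem_fullC (k : Type) [Field k] (e : LaurentSeries ℤ)
    (he : e ∈ Submonoid.closure (FA_S28_indMain_jdZ '' {d | d ∣ n})) :
    coeffMap (Int.castRingHom k) e ∈ modularFunctionFieldFullC k n := by
  rw [FA_S18_G_fullC_eq_fld]
  induction he using Submonoid.closure_induction with
  | mem x hx =>
    obtain ⟨d, hd, rfl⟩ := hx
    rw [FA_S28_indMain_coeffMap_jdZ, FA_S28_fld]
    exact IntermediateField.subset_adjoin k _ (Set.mem_insert_of_mem _ ⟨d, hd, rfl⟩)
  | one => rw [map_one]; exact one_mem _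
  | mul x y _ _ hx hy => rw [map_mul]; exact mul_mem hx hy

theorem FA_S18_B_monomial_mem_bar (e : LaurentSeries ℤ)
    (he : e ∈ Submonoid.closure (FA_S28_indMain_jdZ '' {d | d ∣ n})) :
    coeffMap (Int.castRingHom (AlgebraicClosure ℚ)) e ∈ modularFunctionFieldBar n := by
  rw [FA_S18_G_bar_eq_fullC]
  exact FA_S18_B_monomial_mem_fullC n _ e he

theorem FA_S18_B_psi_pos : 0 < dedekindPsi n := by
  show 0 < ∑ d ∈ n.divisors with Squarefree d, n / d
  apply Finset.sum_pos'
  · intro d _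
    exact Nat.zero_le _
  · refine ⟨1, ?_, ?_⟩
    · rw [Finset.mem_filter, Nat.mem_divisors]
      exact ⟨⟨one_dvd n, NeZero.ne n⟩, squarefree_one⟩
    · rw [Nat.div_one]
      exact Nat.pos_of_ne_zero (NeZero.ne n)

/-- **The datum at level `n`**: `x = j`, `e` = `ψ(n)` monomials in the `j(q^d)`. -/
theorem FA_S18_B_datum_inst (ℓ : ℕ) (hℓ : ℓ.Prime) (hA : A.LiesOverPrime ℓ) (hn : ¬ ℓ ∣ n) :
    ∃ D : FA_S18_B_Datum A (FA_S18_pi A) (modularFunctionFieldBar n) (dedekindPsi n),
      D.x = jqModC ↥A ∧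
      ∀ i, ∃ eZ ∈ Submonoid.closure (FA_S28_indMain_jdZ '' {d | d ∣ n}),
        D.e i = coeffMap (Int.castRingHom ↥A) eZ := by
  haveI : Fact ℓ.Prime := ⟨hℓ⟩
  haveI := FA_S18_B_resField_isAlgClosed A
  haveI := FA_S18_B_resField_charP A ℓ hℓ hA
  obtain ⟨eZ, heZ, hli⟩ := FA_S18_B_monomials ℓ (IsLocalRing.ResidueField A) n hn
  have hindep : ∀ c : Fin (dedekindPsi n) → (IsLocalRing.ResidueField A)[X],
      (∑ i, FA_S18_B_ev (coeffMap (FA_S18_pi A) (jqModC ↥A)) (c i)
        * coeffMap (FA_S18_pi A) (coeffMap (Int.castRingHom ↥A) (eZ i))) = 0 → ∀ i, c i = 0 := by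
    intro c hc
    rw [coeffMap_jqModC] at hc
    simp only [FA_S18_B_rho_int] at hc
    exact FA_S18_B_indep_of_li _ _ hli c hc
  have hindepK := FA_S18_B_indepK A (FA_S18_pi A) (jqModC ↥A)
    (fun i => coeffMap (Int.castRingHom ↥A) (eZ i)) hindep
  have hliK : LinearIndependent ↥(FA_S28_kappa (AlgebraicClosure ℚ))
      (fun i => coeffMap (Int.castRingHom (AlgebraicClosure ℚ)) (eZ i)) := by
    apply FA_S18_B_li_of_indep
    intro P hP
    apply hindepK P
    rw [coeffMap_jqModC]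
    simp only [FA_S18_B_iota_int]
    exact hP
  refine ⟨{ x := jqModC ↥A
            e := fun i => coeffMap (Int.castRingHom ↥A) (eZ i)
            pos := FA_S18_B_psi_pos n
            ker := FA_S18_B_pi_ker A
            x_mem := ?_
            e_mem := ?_
            indep := hindep
            span := ?_ }, rfl, fun i => ⟨eZ i, heZ i, rfl⟩⟩
  · rw [coeffMap_jqModC]
    exact FA_S18_B_kappa_le_bar n (IntermediateField.mem_adjoin_simple_self _ _)
  · intro i
    rw [FA_S18_B_iota_int]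
    exact FA_S18_B_monomial_mem_bar n _ (heZ i)
  · intro y hy
    rw [coeffMap_jqModC]
    simp only [FA_S18_B_iota_int]
    exact FA_S18_B_span_of_li (AlgebraicClosure ℚ) (modularFunctionFieldBar n)
      (FA_S18_B_psi_pos n) (FA_S18_B_kappa_le_bar n) (FA_S18_G_relfinrank n) _
      (fun i => FA_S18_B_monomial_mem_bar n _ (heZ i)) hliK y hy

/-- **B1 (scaling)** at level `n`. -/
theorem FA_S18_B_scale_inst (ℓ : ℕ) : FA_S18_Target_B_scale A n ℓ := by
  intro hℓ hA hn y hy hy0
  obtain ⟨D, -, -⟩ := FA_S18_B_datum_inst A n ℓ hℓ hA hn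
  exact FA_S18_B_scale D hy hy0

/-- **B1 (kernel)** at level `n`. -/
theorem FA_S18_B_ker_inst (ℓ : ℕ) : FA_S18_Target_B_ker A n ℓ := by
  intro hℓ hA hn y hy hy0 hint hred
  obtain ⟨D, -, -⟩ := FA_S18_B_datum_inst A n ℓ hℓ hA hn
  exact FA_S18_B_ker D hy hy0 hint hred

/-- **B1 (residue field)** at level `n`. -/
theorem FA_S18_B_range_inst (ℓ : ℕ) : FA_S18_Target_B_range A n ℓ := by
  intro hℓ hA hn
  obtain ⟨D, hDx, hDe⟩ := FA_S18_B_datum_inst A n ℓ hℓ hA hn
  constructor
  · intro y hy hint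
    refine FA_S18_B_red_mem D _ ?_ ?_ hy hint
    · rw [hDx, coeffMap_jqModC, FA_S18_G_fullC_eq_fld, FA_S28_fld]
      exact IntermediateField.subset_adjoin _ _ (Set.mem_insert _ _)
    · intro i
      obtain ⟨eZ, heZ, h⟩ := hDe i
      rw [h, FA_S18_B_rho_int]
      exact FA_S18_B_monomial_mem_fullC n _ eZ heZ
  · intro z hz
    have hle : modularFunctionFieldFullC (IsLocalRing.ResidueField A) n
        ≤ FA_S18_B_redField (A := A) (π := FA_S18_pi A) (modularFunctionFieldBar n)
          IsLocalRing.residue_surjective := by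
      rw [FA_S18_G_fullC_eq_fld, FA_S28_fld, IntermediateField.adjoin_le_iff]
      rintro x (hx | ⟨d, hd, rfl⟩)
      · rw [hx]
        refine ⟨coeffMap A.subtype (jqModC ↥A), ?_, FA_S18_B_isInt_iota _, ?_⟩
        · rw [← hDx]
          exact D.x_mem
        · rw [FA_S18_B_red_iota, coeffMap_jqModC]
      · refine ⟨coeffMap A.subtype (coeffMap (Int.castRingHom ↥A) (FA_S28_indMain_jdZ d)), ?_,
          FA_S18_B_isInt_iota _, ?_⟩
        · rw [FA_S18_B_iota_int]
          exact FA_S18_B_monomial_mem_bar n _ (Submonoid.subset_closure ⟨d, hd, rfl⟩)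
        · rw [FA_S18_B_red_iota, FA_S18_B_rho_int, FA_S28_indMain_coeffMap_jdZ]
    exact hle hz

end Datum

end Fermat.Agent.S18
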