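import Mathlib
import Fermat.Agent.S18.GaussBasis

/-!
# S18, leaf B (Gauss valuation), part 7: the datum with generator `1/x`

If `D` is a datum with generator `x` and `x' ∈ A((q))` satisfies `x · x' = 1`, then
`D.inv x' h` is a datum with generator `x'` and the same basis.
-/

set_option autoImplicit false
set_option linter.unusedSectionVars false
set_option linter.style.haveILetI false

noncomputable section

namespace Fermat.Agent.S18

open ModularCurve Polynomial

theorem FA_S18_B_reflect_reflect {R : Type*} [CommRing R] (N : ℕ) (c : R[X]) :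
    (c.reflect N).reflect N = c := by
  ext i
  rw [coeff_reflect, coeff_reflect]
  by_cases hi : i ≤ N
  · rw [revAt_invol]
  · rw [revAt_eq_self_of_lt (not_le.mp hi), revAt_eq_self_of_lt (not_le.mp hi)]

/-- `c(x') · x^N = (reflect N c)(x)` if `x x' = 1` and `deg c ≤ N`. -/
theorem FA_S18_B_ev_reflect {R : Type*} [CommRing R] (x x' : LaurentSeries R) (h : x * x' = 1)
    (N : ℕ) (c : R[X]) (hc : c.natDegree ≤ N) :
    FA_S18_B_ev x' c * x ^ N = FA_S18_B_ev x (c.reflect N) := by
  letI : Invertible x := ⟨x', by rw [mul_comm]; exact h, h⟩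
  have h1 := eval₂_reflect_mul_pow (HahnSeries.C : R →+* LaurentSeries R) x N (c.reflect N)
    (le_trans natDegree_reflect_le (by rw [max_eq_left hc]))
  rw [FA_S18_B_reflect_reflect N c] at h1
  exact h1

variable {K : Type*} [Field K] {A : ValuationSubring K} {k : Type*} [Field k] {π : A →+* k}
variable {F : IntermediateField K (LaurentSeries K)} {n : ℕ}

/-- The datum with generator `x' = 1/x` and the same basis. -/
def FA_S18_B_Datum.inv (D : FA_S18_B_Datum A π F n) (x' : LaurentSeries A) (h : D.x * x' = 1) :
    FA_S18_B_Datum A π F n where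
  x := x'
  e := D.e
  pos := D.pos
  ker := D.ker
  x_mem := by
    have h1 : coeffMap A.subtype x' = (coeffMap A.subtype D.x)⁻¹ :=
      eq_inv_of_mul_eq_one_right (by rw [← map_mul, h, map_one])
    rw [h1]
    exact inv_mem D.x_mem
  e_mem := D.e_mem
  indep := by
    intro c hc i
    have hx : coeffMap π D.x * coeffMap π x' = 1 := by rw [← map_mul, h, map_one]
    have h1 : (∑ i, FA_S18_B_ev (coeffMap π D.x)
        ((c i).reflect (Finset.univ.sup fun i => (c i).natDegree)) * coeffMap π (D.e i)) = 0 := by
      have h2 : ∀ i, FA_S18_B_ev (coeffMap π D.x)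
          ((c i).reflect (Finset.univ.sup fun i => (c i).natDegree)) * coeffMap π (D.e i)
          = (FA_S18_B_ev (coeffMap π x') (c i) * coeffMap π (D.e i))
            * coeffMap π D.x ^ (Finset.univ.sup fun i => (c i).natDegree) := by
        intro i
        rw [← FA_S18_B_ev_reflect _ _ hx _ (c i)
          (Finset.le_sup (f := fun i => (c i).natDegree) (Finset.mem_univ i))]
        ring
      simp only [h2]
      rw [← Finset.sum_mul, hc, zero_mul]
    exact reflect_eq_zero_iff.mp (D.indep _ h1 i)
  span := by
    intro y hy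
    obtain ⟨Q, P, hQ, e⟩ := D.span y hy
    have hx : coeffMap A.subtype x' * coeffMap A.subtype D.x = 1 := by
      rw [← map_mul, mul_comm, h, map_one]
    refine ⟨Q.reflect (max Q.natDegree (Finset.univ.sup fun i => (P i).natDegree)),
      fun i => (P i).reflect (max Q.natDegree (Finset.univ.sup fun i => (P i).natDegree)),
      fun h0 => hQ (reflect_eq_zero_iff.mp h0), ?_⟩
    rw [← FA_S18_B_ev_reflect _ _ hx _ Q (le_max_left _ _), mul_right_comm, e, Finset.sum_mul]
    apply Finset.sum_congr rfl
    intro i _
    rw [← FA_S18_B_ev_reflect _ _ hx _ (P i) (le_trans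
      (Finset.le_sup (f := fun i => (P i).natDegree) (Finset.mem_univ i)) (le_max_right _ _))]
    ring

@[simp]
theorem FA_S18_B_Datum.inv_x (D : FA_S18_B_Datum A π F n) (x' : LaurentSeries A)
    (h : D.x * x' = 1) : (D.inv x' h).x = x' := rfl

@[simp]
theorem FA_S18_B_Datum.inv_e (D : FA_S18_B_Datum A π F n) (x' : LaurentSeries A)
    (h : D.x * x' = 1) : (D.inv x' h).e = D.e := rfl

end Fermat.Agent.S18
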