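import Mathlib
import Fermat.Agent.S18.CuspDecomp
import Fermat.Agent.S18.GaussInst
import Fermat.Agent.S18.GaussInv
import Fermat.Agent.S18.CuspKummer

/-!
# S18, leaf N / CUSP, part B: instances of the Gauss datum

* `FA_S18_CUB_trivial` : the datum of the rational function field `K(x)` (generator `x`,
  basis `{1}`), for `x ∈ A((q))` with `x̄` transcendental over `k`.
* `FA_S18_CUB_inv_inst` : the datum of `F_n` with generator `u = 1/j`.
* `FA_S18_CUB_kummer_inst` : the datum of the Kummer field `F' = σ_w(F_n)(x)`, `x = t · σ_w(g)`,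
  `x ^ w = σ_w(1/j)`: generator `x`, basis `σ_w(e_i)`, `e_i` monomials in the `j(q^d)`.
-/

set_option autoImplicit false
set_option linter.unusedSectionVars false
set_option linter.style.haveILetI false

noncomputable section

namespace Fermat.Agent.S18

open ModularCurve Polynomial Fermat.Agent.S28

/-- The datum of the rational function field `K(x)`: generator `x`, basis `{1}`. -/
def FA_S18_CUB_trivial {K : Type*} [Field K] {A : ValuationSubring K} {k : Type*} [Field k]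
    {π : A →+* k} (hker : ∀ a : A, a ∈ IsLocalRing.maximalIdeal A → π a = 0)
    (x : LaurentSeries A)
    (hx : ∀ c : k[X], FA_S18_B_ev (coeffMap π x) c = 0 → c = 0) :
    FA_S18_B_Datum A π (IntermediateField.adjoin K {coeffMap A.subtype x}) 1 where
  x := x
  e := fun _ => 1
  pos := one_pos
  ker := hker
  x_mem := IntermediateField.mem_adjoin_simple_self _ _
  e_mem := fun _ => by
    rw [map_one]
    exact one_mem _
  indep := by
    intro c hc i
    rw [Fin.sum_univ_one, map_one, mul_one] at hc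
    have := hx _ hc
    rwa [Subsingleton.elim i 0]
  span := by
    intro y hy
    rw [IntermediateField.mem_adjoin_simple_iff] at hy
    obtain ⟨r, s, hrs⟩ := hy
    by_cases hs : aeval (coeffMap A.subtype x) s = 0
    · refine ⟨1, fun _ => 0, one_ne_zero, ?_⟩
      rw [hrs, hs, div_zero, mul_zero, Fin.sum_univ_one, FA_S18_B_ev_zero, zero_mul]
    · refine ⟨s, fun _ => r, fun h => hs (by rw [h, map_zero]), ?_⟩
      rw [hrs, Fin.sum_univ_one, map_one, mul_one, ← FA_S18_B_aeval_eq_ev,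
        ← FA_S18_B_aeval_eq_ev, mul_div_cancel₀ _ hs]

variable (A : ValuationSubring (AlgebraicClosure ℚ)) (n : ℕ) [NeZero n]

/-- The datum at level `n` with generator `u = 1/j`. -/
theorem FA_S18_CUB_inv_inst (ℓ : ℕ) (hℓ : ℓ.Prime) (hA : A.LiesOverPrime ℓ) (hn : ¬ ℓ ∣ n) :
    ∃ D : FA_S18_B_Datum A (FA_S18_pi A) (modularFunctionFieldBar n) (dedekindPsi n),
      D.x = FA_S18_CU_u ↥A ∧
      ∀ i, ∃ eZ ∈ Submonoid.closure (FA_S28_indMain_jdZ '' {d | d ∣ n}),
        D.e i = coeffMap (Int.castRingHom ↥A) eZ := by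
  obtain ⟨D, hDx, hDe⟩ := FA_S18_B_datum_inst A n ℓ hℓ hA hn
  exact ⟨D.inv (FA_S18_CU_u ↥A) (by rw [hDx]; exact FA_S18_CU_j_mul_u _), rfl, hDe⟩

/-- **CU-B at level `n`**: the datum of the Kummer field `F' = σ_w(F_n)(x)`. -/
theorem FA_S18_CUB_kummer_inst (ℓ : ℕ) (hℓ : ℓ.Prime) (hA : A.LiesOverPrime ℓ) (hn : ¬ ℓ ∣ n)
    (w : ℕ) [NeZero w] (g : LaurentSeries ↥A)
    (hx : (HahnSeries.single (1 : ℤ) (1 : ↥A) * qExpand ↥A w g) ^ w
      = qExpand ↥A w (FA_S18_CU_u ↥A)) :
    ∃ D' : FA_S18_B_Datum A (FA_S18_pi A)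
        (FA_S18_CUF_field (AlgebraicClosure ℚ) w (modularFunctionFieldBar n)
          (coeffMap A.subtype (HahnSeries.single (1 : ℤ) (1 : ↥A) * qExpand ↥A w g)))
        (dedekindPsi n),
      D'.x = HahnSeries.single (1 : ℤ) (1 : ↥A) * qExpand ↥A w g ∧
      ∀ i, ∃ eZ ∈ Submonoid.closure (FA_S28_indMain_jdZ '' {d | d ∣ n}),
        D'.e i = qExpand ↥A w (coeffMap (Int.castRingHom ↥A) eZ) := by
  obtain ⟨D, hDx, hDe⟩ := FA_S18_CUB_inv_inst A n ℓ hℓ hA hn
  refine ⟨FA_S18_CUB_datum' D w g (by rw [hDx]; exact hx), rfl, fun i => ?_⟩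
  obtain ⟨eZ, heZ, h⟩ := hDe i
  exact ⟨eZ, heZ, by rw [FA_S18_CUB_datum'_e, h]⟩

end Fermat.Agent.S18
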