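import Fermat.Agent.S18.SepKummerInst
import Fermat.Agent.S18.CuspDatumInst
import Fermat.Agent.S18.FinSep

/-!
# S18, leaf N / CUSP: separability of the residue field of the Kummer field over `k(x̄)`

For a Gauss datum `D` of a field `F ⊂ Q̄((t))` whose basis consists of `σ_w`-images of integral
monomials in the `j(q^d)`, `d ∣ n`, and whose generator `x` satisfies `x̄ ^ w = σ_w(ū)`:

* `FA_S18_SEPC_le` : `redField F ≤ σ_w(F̄_n)(x̄)` (the Kummer field over the residue field);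
* `FA_S18_SEPC_mem` : every element of `redField F` is separable over `k(x̄)`;
* `FA_S18_SEPC_sep` : `Algebra.IsSeparable ↥(k⟮xb⟯) ↥(redField F)` (subtype form, the types of
  the CUSP instance of the glue bundle);
* `FA_S18_SEPC_kummer`, `FA_S18_SEPC_kummer'` : the instance for the Kummer field at level `n`.
-/

set_option autoImplicit false
set_option linter.unusedSectionVars false
set_option linter.style.haveILetI false

noncomputable section

namespace Fermat.Agent.S18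

open ModularCurve Polynomial Fermat.Agent.S28 IntermediateField

variable (A : ValuationSubring (AlgebraicClosure ℚ)) (n : ℕ) [NeZero n]

/-- The reduction of `σ_w` of an integral monomial lies in the Kummer field over the residue
field. -/
theorem FA_S18_SEPC_e_mem (w : ℕ) [NeZero w] (xb : LaurentSeries (IsLocalRing.ResidueField ↥A))
    (eZ : LaurentSeries ℤ)
    (heZ : eZ ∈ Submonoid.closure (FA_S28_indMain_jdZ '' {d | d ∣ n})) :
    coeffMap (FA_S18_pi A) (qExpand ↥A w (coeffMap (Int.castRingHom ↥A) eZ))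
      ∈ FA_S18_CUF_Kum w (modularFunctionFieldFullC (IsLocalRing.ResidueField ↥A) n) xb := by
  rw [coeffMap_qExpand, FA_S18_B_rho_int]
  exact FA_S18_CUK_sigma_mem w _ xb (FA_S18_B_monomial_mem_fullC n _ eZ heZ)

/-- `x̄ ^ w = σ_w(ū)` from `x ^ w = σ_w(u)` over `A`. -/
theorem FA_S18_SEPC_pow (w : ℕ) [NeZero w] (x : LaurentSeries ↥A)
    (hx : x ^ w = qExpand ↥A w (FA_S18_CU_u ↥A)) :
    (coeffMap (FA_S18_pi A) x) ^ w
      = qExpand (IsLocalRing.ResidueField ↥A) w (FA_S18_CU_u (IsLocalRing.ResidueField ↥A)) := by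
  rw [← map_pow, hx, coeffMap_qExpand, FA_S18_CUK_coeffMap_u]

variable {F : IntermediateField (AlgebraicClosure ℚ) (LaurentSeries (AlgebraicClosure ℚ))}
  {m : ℕ}

/-- **The residue field of `F` lies in the Kummer field `σ_w(F̄_n)(x̄)`.** -/
theorem FA_S18_SEPC_le (w : ℕ) [NeZero w] (D : FA_S18_B_Datum A (FA_S18_pi A) F m)
    (hDe : ∀ i, ∃ eZ ∈ Submonoid.closure (FA_S28_indMain_jdZ '' {d | d ∣ n}),
      D.e i = qExpand ↥A w (coeffMap (Int.castRingHom ↥A) eZ)) :
    FA_S18_B_redField (A := A) (π := FA_S18_pi A) F IsLocalRing.residue_surjective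
      ≤ FA_S18_CUF_Kum w (modularFunctionFieldFullC (IsLocalRing.ResidueField ↥A) n)
          (coeffMap (FA_S18_pi A) D.x) := by
  rintro z ⟨y, hy, hint, rfl⟩
  refine FA_S18_B_red_mem D _ (FA_S18_CUK_x_mem w _ _) (fun i => ?_) hy hint
  obtain ⟨eZ, heZ, h⟩ := hDe i
  rw [h]
  exact FA_S18_SEPC_e_mem A n w _ eZ heZ

/-- **Every element of the residue field of `F` is separable over `k(x̄)`.** -/
theorem FA_S18_SEPC_mem {ℓ : ℕ} (hℓ : ℓ.Prime) (hA : A.LiesOverPrime ℓ) (hn : ¬ ℓ ∣ n)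
    (w : ℕ) [NeZero w] (D : FA_S18_B_Datum A (FA_S18_pi A) F m)
    (hDe : ∀ i, ∃ eZ ∈ Submonoid.closure (FA_S28_indMain_jdZ '' {d | d ∣ n}),
      D.e i = qExpand ↥A w (coeffMap (Int.castRingHom ↥A) eZ))
    (hx : D.x ^ w = qExpand ↥A w (FA_S18_CU_u ↥A))
    (z : LaurentSeries (IsLocalRing.ResidueField ↥A))
    (hz : z ∈ FA_S18_B_redField (A := A) (π := FA_S18_pi A) F IsLocalRing.residue_surjective) :
    IsSeparable ↥((IsLocalRing.ResidueField ↥A)⟮coeffMap (FA_S18_pi A) D.x⟯) z := by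
  haveI := FA_S18_B_resField_isAlgClosed A
  haveI := FA_S18_B_resField_charP A ℓ hℓ hA
  exact FA_S18_SEPK_Kum_mem ℓ hℓ n hn w _ (FA_S18_SEPC_pow A w D.x hx) _
    (IntermediateField.mem_adjoin_simple_self _ _) z (FA_S18_SEPC_le A n w D hDe hz)

/-- **SEP for a datum** (subtype form): the residue field of `F` is separable over `k(x̄)`. -/
theorem FA_S18_SEPC_sep {ℓ : ℕ} (hℓ : ℓ.Prime) (hA : A.LiesOverPrime ℓ) (hn : ¬ ℓ ∣ n)
    (w : ℕ) [NeZero w] (D : FA_S18_B_Datum A (FA_S18_pi A) F m)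
    (hDe : ∀ i, ∃ eZ ∈ Submonoid.closure (FA_S28_indMain_jdZ '' {d | d ∣ n}),
      D.e i = qExpand ↥A w (coeffMap (Int.castRingHom ↥A) eZ))
    (hx : D.x ^ w = qExpand ↥A w (FA_S18_CU_u ↥A))
    (xb : ↥(FA_S18_B_redField (A := A) (π := FA_S18_pi A) F IsLocalRing.residue_surjective))
    (hxb : (xb : LaurentSeries (IsLocalRing.ResidueField ↥A)) = coeffMap (FA_S18_pi A) D.x) :
    Algebra.IsSeparable ↥((IsLocalRing.ResidueField ↥A)⟮xb⟯)
      ↥(FA_S18_B_redField (A := A) (π := FA_S18_pi A) F IsLocalRing.residue_surjective) := by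
  apply FA_S18_FINA_sep_of_coe
  intro y hy
  rw [hxb]
  exact FA_S18_SEPC_mem A n hℓ hA hn w D hDe hx y hy

/-- **SEP for the Kummer field at level `n`** (any field presentation `x = ι(x_A)`). -/
theorem FA_S18_SEPC_kummer {ℓ : ℕ} (hℓ : ℓ.Prime) (hA : A.LiesOverPrime ℓ) (hn : ¬ ℓ ∣ n)
    (w : ℕ) [NeZero w] (g : LaurentSeries ↥A)
    (hx : (HahnSeries.single (1 : ℤ) (1 : ↥A) * qExpand ↥A w g) ^ w
      = qExpand ↥A w (FA_S18_CU_u ↥A))
    (x : LaurentSeries (AlgebraicClosure ℚ))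
    (hxeq : x = coeffMap A.subtype (HahnSeries.single (1 : ℤ) (1 : ↥A) * qExpand ↥A w g))
    (xb : ↥(FA_S18_B_redField (A := A) (π := FA_S18_pi A)
      (FA_S18_CUF_field (AlgebraicClosure ℚ) w (modularFunctionFieldBar n) x)
      IsLocalRing.residue_surjective))
    (hxb : (xb : LaurentSeries (IsLocalRing.ResidueField ↥A))
      = coeffMap (FA_S18_pi A) (HahnSeries.single (1 : ℤ) (1 : ↥A) * qExpand ↥A w g)) :
    Algebra.IsSeparable ↥((IsLocalRing.ResidueField ↥A)⟮xb⟯)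
      ↥(FA_S18_B_redField (A := A) (π := FA_S18_pi A)
        (FA_S18_CUF_field (AlgebraicClosure ℚ) w (modularFunctionFieldBar n) x)
        IsLocalRing.residue_surjective) := by
  subst hxeq
  obtain ⟨D, hDx, hDe⟩ := FA_S18_CUB_kummer_inst A n ℓ hℓ hA hn w g hx
  exact FA_S18_SEPC_sep A n hℓ hA hn w D hDe (by rw [hDx]; exact hx) xb (by rw [hxb, hDx])

/-- **SEP for the Kummer field at level `n`**, for the Kummer element `FA_S18_CUK_x`. -/
theorem FA_S18_SEPC_kummer' {ℓ : ℕ} (hℓ : ℓ.Prime) (hA : A.LiesOverPrime ℓ) (hn : ¬ ℓ ∣ n)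
    (w : ℕ) [NeZero w] (hw : IsUnit ((w : ℕ) : ↥A))
    (xb : ↥(FA_S18_B_redField (A := A) (π := FA_S18_pi A)
      (FA_S18_CUF_field (AlgebraicClosure ℚ) w (modularFunctionFieldBar n) (FA_S18_CUK_x A w hw))
      IsLocalRing.residue_surjective))
    (hxb : (xb : LaurentSeries (IsLocalRing.ResidueField ↥A))
      = FA_S18_CUK_xbar A (FA_S18_pi A) w hw) :
    Algebra.IsSeparable ↥((IsLocalRing.ResidueField ↥A)⟮xb⟯)
      ↥(FA_S18_B_redField (A := A) (π := FA_S18_pi A)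
        (FA_S18_CUF_field (AlgebraicClosure ℚ) w (modularFunctionFieldBar n)
          (FA_S18_CUK_x A w hw))
        IsLocalRing.residue_surjective) :=
  FA_S18_SEPC_kummer A n hℓ hA hn w (FA_S18_CUK_gA A w hw) (FA_S18_CUK_xA_pow A w hw)
    (FA_S18_CUK_x A w hw) (FA_S18_CUK_x_eq A w hw) xb
    (by rw [hxb, FA_S18_CUK_xbar_eq]; rfl)

end Fermat.Agent.S18
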