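import Fermat.Agent.S18.CuspInst
import Fermat.Agent.S18.CuspFinalD
import Fermat.Agent.S18.SepCusp
import Fermat.Agent.S18.CuspDegInst
import Fermat.Agent.S18.CuspAbhInst

/-!
# S18, leaf N / CUSP: the bridge from the glueing theorem to the target of the Kummer chart

* `FA_S18_CUBR_integral_sigma` : if `v` is integral over `K[u]` and `x ^ w = σ u`, then `σ v` is
  integral over `K[x]`.
* `FA_S18_CUBR_root` : for a glueing bundle `H`, a `p`-th root in `κ'` of the reduction of an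
  element of `BQ ∩ O'` is the reduction of an element of `BQ ∩ O'`.
* `FA_S18_CUBR_datum` : the Gauss datum of the Kummer field `σ_w(F_n)(x)`, `x = FA_S18_CUK_x`.
* `FA_S18_CUBR_targetBQ` : **the target of the Kummer chart** `FA_S18_CUSP_TargetBQ A n h p n hw`.
* `FA_S18_CUBR_icl` : `icl` at level `n` from the finite chart.
-/

set_option autoImplicit false
set_option linter.style.haveILetI false
set_option linter.unusedSectionVars false
set_option synthInstance.maxHeartbeats 400000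
set_option maxHeartbeats 1000000

noncomputable section

namespace Fermat.Agent.S18

open ModularCurve Polynomial FA_S18 AlgebraicCurve

section LS

variable {K : Type*} [Field K]

/-- `ev (x ^ w) = ev x ∘ expand w`. -/
theorem FA_S18_CUBR_ev_pow (w : ℕ) (x : LaurentSeries K) :
    FA_S18_CUE_ev (x ^ w)
      = (FA_S18_CUE_ev x).comp ((expand K w : K[X] →ₐ[K] K[X]).toRingHom) := by
  apply Polynomial.ringHom_ext
  · intro c
    rw [RingHom.comp_apply, FA_S18_CUE_ev_C]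
    show _ = FA_S18_CUE_ev x (expand K w (C c))
    rw [expand_C, FA_S18_CUE_ev_C]
  · rw [RingHom.comp_apply, FA_S18_CUE_ev_X]
    show _ = FA_S18_CUE_ev x (expand K w X)
    rw [expand_X, map_pow, FA_S18_CUE_ev_X]

/-- `ev (σ u) = σ ∘ ev u`. -/
theorem FA_S18_CUBR_ev_sigma (w : ℕ) [NeZero w] (u : LaurentSeries K) :
    FA_S18_CUE_ev (qExpand K w u) = (qExpand K w).comp (FA_S18_CUE_ev u) := by
  apply Polynomial.ringHom_ext
  · intro c
    rw [RingHom.comp_apply, FA_S18_CUE_ev_C, FA_S18_CUE_ev_C, qExpand_C]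
  · rw [RingHom.comp_apply, FA_S18_CUE_ev_X, FA_S18_CUE_ev_X]

/-- If `v` is integral over `K[u]` and `x ^ w = σ u`, then `σ v` is integral over `K[x]`. -/
theorem FA_S18_CUBR_integral_sigma (w : ℕ) [NeZero w] (x u v : LaurentSeries K)
    (hx : x ^ w = qExpand K w u) (h : (FA_S18_CUE_ev u).IsIntegralElem v) :
    (FA_S18_CUE_ev x).IsIntegralElem (qExpand K w v) := by
  have h1 := h.map (qExpand K w)
  rw [← FA_S18_CUBR_ev_sigma, ← hx, FA_S18_CUBR_ev_pow] at h1
  exact h1.of_comp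

end LS

section Root

variable {K K' κ κ' : Type*} [Field K] [Field K'] [Algebra K K']
  [Field κ] [Field κ'] [Algebra κ κ']

/-- For a glueing bundle, a `p`-th root in `κ'` of the reduction of an element of `BQ ∩ O'` is the
reduction of an element of `BQ ∩ O'`. -/
theorem FA_S18_CUBR_root [FiniteDimensional K K'] {O : ValuationSubring K} {O' : Subring K'}
    {red : O →+* κ} {red' : O' →+* κ'} {RQ : Subring K} {K0 : Subfield K} {BQ : Subring K'}
    (H : FA_S18_U_GlueHyp O O' red red' RQ K0 BQ)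
    [Algebra.IsSeparable K K'] [FiniteDimensional κ κ'] [Algebra.IsSeparable κ κ']
    (p : ℕ) (hp : 0 < p) (z : κ') (Y : O') (hY : (Y : K') ∈ BQ) (hz : red' Y = z ^ p) :
    ∃ y : O', (y : K') ∈ BQ ∧ red' y = z := by
  apply H.FA_S18_U_glue z
  apply IsIntegral.of_pow hp
  rw [← hz]
  exact H.int Y hY

end Root

section Main

variable (A : ValuationSubring (AlgebraicClosure ℚ)) (n : ℕ) [NeZero n]

/-- The Gauss datum of the Kummer field, for the Kummer element `FA_S18_CUK_x`. -/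
theorem FA_S18_CUBR_datum (ℓ : ℕ) (hℓ : ℓ.Prime) (hA : A.LiesOverPrime ℓ) (hn : ¬ ℓ ∣ n)
    (w : ℕ) [NeZero w] (hw : IsUnit ((w : ℕ) : A)) :
    ∃ D : FA_S18_B_Datum A (FA_S18_pi A)
        (FA_S18_CUF_field (AlgebraicClosure ℚ) w (modularFunctionFieldBar n)
          (FA_S18_CUK_x A w hw))
        (dedekindPsi n),
      D.x = FA_S18_CUK_xA A w hw ∧
      ∀ i, ∃ eZ ∈ Submonoid.closure (Fermat.Agent.S28.FA_S28_indMain_jdZ '' {d | d ∣ n}),
        D.e i = qExpand ↥A w (coeffMap (Int.castRingHom ↥A) eZ) := by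
  rw [FA_S18_CUK_x_eq]
  exact FA_S18_CUB_kummer_inst A n ℓ hℓ hA hn w (FA_S18_CUK_gA A w hw)
    (FA_S18_CUK_xA_pow A w hw)

/-- The polynomial `1 - 1728 X ^ w` over `A`. -/
def FA_S18_CUBR_d (w : ℕ) : (↥A)[X] := (1 : (↥A)[X]) - C 1728 * X ^ w

theorem FA_S18_CUBR_d_map (w : ℕ) :
    (FA_S18_CUBR_d A w).map A.subtype
      = (1 : (AlgebraicClosure ℚ)[X]) - C 1728 * X ^ w := by
  rw [FA_S18_CUBR_d, Polynomial.map_sub, Polynomial.map_one, Polynomial.map_mul,
    Polynomial.map_C, Polynomial.map_pow, Polynomial.map_X, map_ofNat]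

theorem FA_S18_CUBR_d_bar_ne (w : ℕ) (hw : 0 < w) :
    (FA_S18_CUBR_d A w).map (FA_S18_pi A) ≠ 0 := by
  intro h0
  have h1 : ((FA_S18_CUBR_d A w).map (FA_S18_pi A)).coeff 0 = 1 := by
    rw [FA_S18_CUBR_d, coeff_zero_eq_eval_zero, Polynomial.map_sub, Polynomial.map_one,
      Polynomial.map_mul, Polynomial.map_C, Polynomial.map_pow, Polynomial.map_X,
      eval_sub, eval_one, eval_mul, eval_C, eval_pow, eval_X, zero_pow hw.ne', mul_zero,
      sub_zero]
  rw [h0, coeff_zero] at h1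
  exact zero_ne_one h1

/-- **The target of the Kummer chart** (`w = n`). -/
theorem FA_S18_CUBR_targetBQ (ℓ : ℕ) (hℓ : ℓ.Prime) (hA : A.LiesOverPrime ℓ) (hn : ¬ ℓ ∣ n)
    (hn2 : 2 ≤ n) (h : FA_S18_I_Range A n) (p : ℕ) (hp : 0 < p)
    (hw : IsUnit ((n : ℕ) : A)) :
    FA_S18_CUSP_TargetBQ A n h p n hw := by
  obtain ⟨D, hDx, hDe⟩ := FA_S18_CUBR_datum A n ℓ hℓ hA hn n hw
  have hπ : Function.Surjective (FA_S18_pi A) := IsLocalRing.residue_surjective
  -- the generator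
  have hxL : coeffMap A.subtype D.x = FA_S18_CUK_x A n hw := by
    rw [hDx, FA_S18_CUK_x_eq]
  have hxF : FA_S18_CUU_xF D
      = FA_S18_CUF_x n (modularFunctionFieldBar n) (FA_S18_CUK_x A n hw) :=
    Subtype.ext hxL
  -- simple zeros
  have hsimple : ∀ β : AlgebraicClosure ℚ, ((FA_S18_CUBR_d A n).map A.subtype).eval β ≠ 0 →
      ∀ v : Place (AlgebraicClosure ℚ) ↥(FA_S18_CUF_field (AlgebraicClosure ℚ) n
          (modularFunctionFieldBar n) (FA_S18_CUK_x A n hw)),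
        0 < v.ord (FA_S18_CUU_xF D - algebraMap (AlgebraicClosure ℚ) _ β) →
          v.ord (FA_S18_CUU_xF D - algebraMap (AlgebraicClosure ℚ) _ β) = 1 := by
    rw [hxF, FA_S18_CUBR_d_map]
    exact FA_S18_CUCI_hsimple n hn2 (FA_S18_CUK_g A n hw) (FA_S18_CUK_x A n hw) rfl
      (FA_S18_CUK_x_pow A n hw) _ (fun β hβ => by
        rw [eval_sub, eval_one, eval_mul, eval_C, eval_pow, eval_X, hβ, sub_self])
  have H := FA_S18_CUU_glueHyp D hπ (FA_S18_CUBR_d A n)
    (FA_S18_CUBR_d_bar_ne A n (NeZero.pos n)) hsimple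
  haveI := FA_S18_CUU_fd D
  haveI := FA_S18_DEG_cusp_sep0 D
  haveI := FA_S18_CUU_fd_bar D hπ
  haveI : Algebra.IsSeparable ↥(FA_S18_CUU_kx D hπ)
      ↥(FA_S18_B_redField (A := A) (FA_S18_CUF_field (AlgebraicClosure ℚ) n
        (modularFunctionFieldBar n) (FA_S18_CUK_x A n hw)) hπ) :=
    FA_S18_DEG_cusp_sep D hπ (fun y hy =>
      FA_S18_SEPC_mem A n hℓ hA hn n D hDe (by rw [hDx]; exact FA_S18_CUK_xA_pow A n hw) y hy)
  intro t ht
  obtain ⟨yo, hyoB, hyored⟩ := ht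
  obtain ⟨Y0, hY0F, hY0int, hY0red⟩ := (FA_S18_B_range_inst A n ℓ hℓ hA hn).2
    (t : LaurentSeries (IsLocalRing.ResidueField ↥A)) t.2
  have hyoInt : FA_S18_B_IsInt A (FA_S18_pi A)
      (((yo : ↥(FA_S18_I_O A n)) : ↥(modularFunctionFieldBar n)) :
        LaurentSeries (AlgebraicClosure ℚ)) := yo.2
  -- the element `z = σ̄ t` of `κ'`
  let z : ↥(FA_S18_B_redField (A := A) (FA_S18_CUF_field (AlgebraicClosure ℚ) n
        (modularFunctionFieldBar n) (FA_S18_CUK_x A n hw)) hπ) :=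
    ⟨qExpand (IsLocalRing.ResidueField ↥A) n (t : LaurentSeries (IsLocalRing.ResidueField ↥A)),
      ⟨qExpand (AlgebraicClosure ℚ) n Y0, FA_S18_CUF_sigma_mem _ _ hY0F,
        FA_S18_CUE_isInt_qExpand n hY0int, by rw [FA_S18_CUE_red_qExpand n hY0int, hY0red]⟩⟩
  -- the element `Y = σ yo` of `BQ ∩ O'`
  let Y : ↥(FA_S18_CUU_OF D).toSubring :=
    ⟨⟨qExpand (AlgebraicClosure ℚ) n (((yo : ↥(FA_S18_I_O A n)) :
        ↥(modularFunctionFieldBar n)) : LaurentSeries (AlgebraicClosure ℚ)),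
      FA_S18_CUF_sigma_mem _ _ ((yo : ↥(FA_S18_I_O A n)) : ↥(modularFunctionFieldBar n)).2⟩,
      FA_S18_CUE_isInt_qExpand n hyoInt⟩
  have hYBQ : (Y : ↥(FA_S18_CUF_field (AlgebraicClosure ℚ) n
        (modularFunctionFieldBar n) (FA_S18_CUK_x A n hw)))
      ∈ FA_S18_CUDB_BQ (AlgebraicClosure ℚ) (FA_S18_CUU_xF D)
        ((FA_S18_CUBR_d A n).map A.subtype) := by
    apply FA_S18_CUDB_mem_of_isIntegral
    rw [FA_S18_BASE_isIntegral_coe_iff_singleton, FA_S18_CUE_isIntegral_adjoin_iff]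
    show (FA_S18_CUE_ev (coeffMap A.subtype D.x)).IsIntegralElem
      (qExpand (AlgebraicClosure ℚ) n (((yo : ↥(FA_S18_I_O A n)) :
        ↥(modularFunctionFieldBar n)) : LaurentSeries (AlgebraicClosure ℚ)))
    rw [hxL]
    apply FA_S18_CUBR_integral_sigma n _ (FA_S18_CU_u (AlgebraicClosure ℚ)) _
      (FA_S18_CUK_x_pow A n hw)
    have h1 : IsIntegral (Algebra.adjoin (AlgebraicClosure ℚ) {(FA_S18_A_jbar n)⁻¹})
        ((yo : ↥(FA_S18_I_O A n)) : ↥(modularFunctionFieldBar n)) := hyoB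
    rw [FA_S18_BASE_isIntegral_coe_iff_singleton, FA_S18_CUSP_jinv_coe,
      FA_S18_CUE_isIntegral_adjoin_iff] at h1
    exact h1
  have hYz : FA_S18_CUU_redF D hπ Y = z ^ p := by
    apply Subtype.ext
    rw [SubmonoidClass.coe_pow]
    show FA_S18_B_red A (FA_S18_pi A) (qExpand (AlgebraicClosure ℚ) n
      (((yo : ↥(FA_S18_I_O A n)) : ↥(modularFunctionFieldBar n)) :
        LaurentSeries (AlgebraicClosure ℚ)))
      = (qExpand (IsLocalRing.ResidueField ↥A) n
          (t : LaurentSeries (IsLocalRing.ResidueField ↥A))) ^ p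
    rw [FA_S18_CUE_red_qExpand n hyoInt, ← map_pow]
    congr 1
    have h2 := congrArg Subtype.val hyored
    rw [FA_S18_I_red_coe] at h2
    rw [h2]
    exact SubmonoidClass.coe_pow t p
  obtain ⟨y, hyBQ, hyz⟩ := FA_S18_CUBR_root H p hp z Y hYBQ hYz
  refine ⟨(y : ↥(FA_S18_CUF_field (AlgebraicClosure ℚ) n
        (modularFunctionFieldBar n) (FA_S18_CUK_x A n hw))), ?_, y.2, ?_⟩
  · rw [← hxF, ← FA_S18_CUBR_d_map]
    exact hyBQ
  · exact congrArg Subtype.val hyz

end Main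

end Fermat.Agent.S18
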