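import Fermat.Agent.S18.AssembleB

/-!
# S18, leaf H3 (assembly), part 4: S18 from `icl` at the level `n = N·M`, `M ∈ {4, 9}`

`FA_S18_H3_final_M` : the statement of S18 from `FA_S18_I_Target_N_icl A n h p` at `n = N·4`
(asked only for `ℓ ≠ 2`) and `n = N·9` (asked only for `ℓ = 2`).
-/

set_option autoImplicit false
set_option linter.unusedSectionVars false
set_option linter.style.haveILetI false

noncomputable section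

namespace Fermat.Agent.S18

open ModularCurve AlgebraicCurve FA_S18

/-- **S18 from the normality target** at `n = N·M`, `M = 4` (`ℓ` odd) or `M = 9` (`ℓ = 2`). -/
theorem FA_S18_H3_final_M (N : ℕ) [NeZero N] {ℓ : ℕ} [hℓ : Fact ℓ.Prime] (hℓN : ¬ ℓ ∣ N)
    (A : ValuationSubring (AlgebraicClosure ℚ)) (hA : A.LiesOverPrime ℓ)
    (hN : ∀ M : ℕ, (M = 4 ∧ ℓ ≠ 2) ∨ (M = 9 ∧ ℓ = 2) → ¬ ℓ ∣ M →
      ∀ (n : ℕ) [NeZero n], n = N * M → ¬ ℓ ∣ n →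
        ∀ h : FA_S18_I_Range A n, ∀ p : ℕ, p.Prime → p ≠ ℓ → FA_S18_I_Target_N_icl A n h p)
    (h : ReductionInputsModL A N) (m : ℕ) (hm : ¬ ℓ ∣ m) (z : JZero N)
    (hmz : m • z = 0) (hz : reductionModL A N z = 0) : z = 0 := by
  obtain ⟨r, hr, hℓr, hrM⟩ : ∃ r : ℕ, r.Prime ∧ ¬ ℓ ∣ r * r ∧
      ((r * r = 4 ∧ ℓ ≠ 2) ∨ (r * r = 9 ∧ ℓ = 2)) := by
    by_cases h2 : ℓ = 2
    · refine ⟨3, Nat.prime_three, ?_, Or.inr ⟨rfl, h2⟩⟩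
      rw [h2]
      decide
    · refine ⟨2, Nat.prime_two, fun hd => h2 ?_, Or.inl ⟨rfl, h2⟩⟩
      have h1 : ℓ ∣ 2 := (hℓ.out.dvd_mul.mp hd).elim id id
      exact (Nat.prime_dvd_prime_iff_eq hℓ.out Nat.prime_two).mp h1
  haveI hn0 : NeZero (N * (r * r)) :=
    ⟨Nat.mul_ne_zero (NeZero.ne N) (Nat.mul_ne_zero hr.ne_zero hr.ne_zero)⟩
  have hℓn : ¬ ℓ ∣ N * (r * r) := FA_S18_H3_not_dvd hℓ.out hℓN hℓr
  have hM : (r * r = 4 ∧ ℓ ≠ 2) ∨ (r * r = 9 ∧ ℓ = 2) := hrM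
  exact FA_S18_H3_main N hℓ.out A hA r hr (N * (r * r)) rfl hℓn
    (FA_S18_B_scale_inst A _ ℓ) (FA_S18_B_ker_inst A _ ℓ) (FA_S18_B_range_inst A _ ℓ)
    (FA_S18_B4_cart_inst A _ ℓ)
    (fun hR p hp hpℓ => hN (r * r) hM hℓr (N * (r * r)) rfl hℓn hR p hp hpℓ)
    (FA_S18_H3_h1_inst A _ hℓ.out hA hℓn) h m hm z hmz hz

end Fermat.Agent.S18
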