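import Mathlib
import Fermat.Agent.S18.AssembleC
import Fermat.Agent.S18.CuspFinalD

/-!
# S18: the final wiring

`FA_S18_WIRE_isUnit` : `n` prime to `ℓ` is a unit of `A`.
`FA_S18_WIRE_final` : S18 from the normality of the reduced finite chart (`icl_fin`) and the target
of the Kummer chart (`FA_S18_CUSP_TargetBQ`, `w = n`) at the levels `n = 4N` (`ℓ` odd) / `9N`
(`ℓ = 2`).
-/

set_option autoImplicit false
set_option linter.unusedSectionVars false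

noncomputable section

namespace Fermat.Agent.S18

open ModularCurve FA_S18

/-- `n` prime to `ℓ` is a unit of `A`. -/
theorem FA_S18_WIRE_isUnit {K : Type*} [Field K] (A : ValuationSubring K) (ℓ : ℕ)
    (hℓ : ℓ.Prime) (hA : A.LiesOverPrime ℓ) (n : ℕ) (hn : ¬ ℓ ∣ n) : IsUnit ((n : ℕ) : A) := by
  haveI := FA_S18_B_resField_charP A ℓ hℓ hA
  have h1 : IsLocalRing.residue ↥A ((n : ℕ) : A) ≠ 0 := by
    rw [map_natCast]
    intro h0
    exact hn ((CharP.cast_eq_zero_iff (IsLocalRing.ResidueField ↥A) ℓ n).mp h0)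
  by_contra hu
  exact h1 ((IsLocalRing.residue_eq_zero_iff _).mpr ((IsLocalRing.mem_maximalIdeal _).mpr hu))

/-- **S18 from `icl_fin` and the Kummer-chart target** at the levels `n = N·M`. -/
theorem FA_S18_WIRE_final (N : ℕ) [NeZero N] {ℓ : ℕ} [hℓ : Fact ℓ.Prime] (hℓN : ¬ ℓ ∣ N)
    (A : ValuationSubring (AlgebraicClosure ℚ)) (hA : A.LiesOverPrime ℓ)
    (hfin : ∀ M : ℕ, (M = 4 ∧ ℓ ≠ 2) ∨ (M = 9 ∧ ℓ = 2) → ¬ ℓ ∣ M →
      ∀ (n : ℕ) [NeZero n], n = N * M → ¬ ℓ ∣ n →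
        ∀ h : FA_S18_I_Range A n, ∀ p : ℕ, p.Prime → p ≠ ℓ →
          ∀ x : ↥(modularFunctionFieldFullC (IsLocalRing.ResidueField ↥A) n),
            x ^ p ∈ FA_S18_I_redAlg A n h (FA_S18_H2_Bf n) →
              x ∈ FA_S18_I_redAlg A n h (FA_S18_H2_Bf n))
    (hcusp : ∀ M : ℕ, (M = 4 ∧ ℓ ≠ 2) ∨ (M = 9 ∧ ℓ = 2) → ¬ ℓ ∣ M →
      ∀ (n : ℕ) [NeZero n], n = N * M → ∀ hn : ¬ ℓ ∣ n,
        ∀ h : FA_S18_I_Range A n, ∀ p : ℕ, p.Prime → p ≠ ℓ →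
          FA_S18_CUSP_TargetBQ A n h p n (FA_S18_WIRE_isUnit A ℓ hℓ.out hA n hn))
    (h : ReductionInputsModL A N) (m : ℕ) (hm : ¬ ℓ ∣ m) (z : JZero N)
    (hmz : m • z = 0) (hz : reductionModL A N z = 0) : z = 0 :=
  FA_S18_H3_final_M N hℓN A hA
    (fun M hM hℓM n _ hnM hℓn hR p hp hpℓ =>
      FA_S18_CUSP_icl_of_BQ A n hR p hp.pos n (FA_S18_WIRE_isUnit A ℓ hℓ.out hA n hℓn)
        (hfin M hM hℓM n hnM hℓn hR p hp hpℓ) (hcusp M hM hℓM n hnM hℓn hR p hp hpℓ))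
    h m hm z hmz hz

end Fermat.Agent.S18
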