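import Mathlib
import Fermat.Agent.S18.GaussBasis

/-!
# S18, leaf B4: cartesian lattices

Abstract setting of `FA_S18_B_Datum` (`S18/GaussBasis.lean`).  Every finite-dimensional
`K`-subspace `W ⊂ F` has a basis `b` of Gauss-integral elements whose reductions are linearly
independent over `k`, and `∑ c_i b_i` Gauss-integral forces `c_i ∈ A`
(`FA_S18_B4_cart`, the body of `FA_S18_Target_B_cart`).

Steps: `FA_S18_B4_ge` (Gaussian elimination over a valuation ring: echelon basis with pivots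
`1` and entries in `A`), `FA_S18_B4_orth` (a family with `k`-independent reductions is
orthonormal), `FA_S18_B4_envelope` (a finite-dimensional subspace of `F` lies in the span of a
finite orthonormal family `x^a e_i / Q(x)`).
-/

set_option autoImplicit false
set_option linter.unusedSectionVars false

noncomputable section

namespace Fermat.Agent.S18

open ModularCurve Polynomial

/-! ### Gaussian elimination over a valuation ring -/

/-- **Gaussian elimination**: a subspace `R ⊂ K^ι` has an echelon basis `(b p)_{p ∈ P}` with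
entries in the valuation ring `A` and pivots `b p p' = δ_{p p'}`. -/
theorem FA_S18_B4_ge {K : Type*} [Field K] (A : ValuationSubring K) {ι : Type*} [Fintype ι]
    [DecidableEq ι] (R : Submodule K (ι → K)) :
    ∃ (P : Finset ι) (b : ι → ι → K), (∀ p ∈ P, b p ∈ R) ∧ (∀ p α, b p α ∈ A) ∧
      (∀ p ∈ P, ∀ p' ∈ P, b p p' = if p = p' then 1 else 0) ∧
      (∀ w ∈ R, w = ∑ p ∈ P, w p • b p) := by
  classical
  suffices hmain : ∃ (P : Finset ι) (b : ι → ι → K), (∀ p ∈ P, b p ∈ R) ∧
      (∀ p ∈ P, ∀ α, b p α ∈ A) ∧ (∀ p ∈ P, ∀ p' ∈ P, b p p' = if p = p' then 1 else 0) ∧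
      (∀ w ∈ R, w = ∑ p ∈ P, w p • b p) by
    obtain ⟨P, b, h1, h2, h3, h4⟩ := hmain
    refine ⟨P, fun p => if p ∈ P then b p else 0, fun p hp => ?_, fun p α => ?_,
      fun p hp p' hp' => ?_, fun w hw => ?_⟩
    · simp only [if_pos hp]
      exact h1 p hp
    · by_cases hp : p ∈ P
      · simp only [if_pos hp]
        exact h2 p hp α
      · simp only [if_neg hp, Pi.zero_apply]
        exact A.zero_mem
    · simp only [if_pos hp]
      exact h3 p hp p' hp'
    · rw [h4 w hw]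
      refine Finset.sum_congr rfl fun p hp => ?_
      simp only [if_pos hp]
      rw [← h4 w hw]
  let Good : Finset ι → Prop := fun P => ∃ b : ι → ι → K, (∀ p ∈ P, b p ∈ R) ∧
    (∀ p ∈ P, ∀ α, b p α ∈ A) ∧ (∀ p ∈ P, ∀ p' ∈ P, b p p' = if p = p' then 1 else 0)
  have h0 : Good ∅ := ⟨fun _ _ => 0, by simp, by simp, by simp⟩
  obtain ⟨P, hP, hmax⟩ := Finset.exists_max_image (Finset.univ.filter Good) Finset.card
    ⟨∅, Finset.mem_filter.mpr ⟨Finset.mem_univ _, h0⟩⟩
  obtain ⟨b, hbR, hbA, hbp⟩ := (Finset.mem_filter.mp hP).2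
  refine ⟨P, b, hbR, hbA, hbp, fun w hw => ?_⟩
  by_contra hne
  set w' : ι → K := w - ∑ p ∈ P, w p • b p with hw'
  have hw'R : w' ∈ R := sub_mem hw (sum_mem fun p hp => R.smul_mem _ (hbR p hp))
  have hw'0 : w' ≠ 0 := fun h => hne (sub_eq_zero.mp h)
  have hw'P : ∀ p' ∈ P, w' p' = 0 := by
    intro p' hp'
    rw [hw', Pi.sub_apply, Finset.sum_apply, Finset.sum_eq_single p']
    · rw [Pi.smul_apply, smul_eq_mul, hbp p' hp' p' hp', if_pos rfl, mul_one, sub_self]
    · intro p hp hpp'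
      rw [Pi.smul_apply, smul_eq_mul, hbp p hp p' hp', if_neg hpp', mul_zero]
    · intro h
      exact absurd hp' h
  obtain ⟨α₀, -, hα₀, hall⟩ := FA_S18_B_content_fin A Finset.univ w' (by
    by_contra h
    push Not at h
    exact hw'0 (funext fun i => h i (Finset.mem_univ i)))
  have hα₀P : α₀ ∉ P := fun h => hα₀ (hw'P α₀ h)
  set b₀ : ι → K := (w' α₀)⁻¹ • w' with hb₀
  have hb₀R : b₀ ∈ R := R.smul_mem _ hw'R
  have hb₀A : ∀ α, b₀ α ∈ A := fun α => by
    rw [hb₀, Pi.smul_apply, smul_eq_mul, mul_comm, ← div_eq_mul_inv]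
    exact hall α (Finset.mem_univ α)
  have hb₀α₀ : b₀ α₀ = 1 := by
    rw [hb₀, Pi.smul_apply, smul_eq_mul, inv_mul_cancel₀ hα₀]
  have hb₀P : ∀ p' ∈ P, b₀ p' = 0 := fun p' hp' => by
    rw [hb₀, Pi.smul_apply, smul_eq_mul, hw'P p' hp', mul_zero]
  have hgood : Good (insert α₀ P) := by
    refine ⟨fun x => if x = α₀ then b₀ else b x - b x α₀ • b₀, ?_, ?_, ?_⟩
    · intro p hp
      rcases Finset.mem_insert.mp hp with rfl | hp
      · simp only [if_true]
        exact hb₀R
      · have hpα : p ≠ α₀ := fun h => hα₀P (h ▸ hp)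
        simp only [if_neg hpα]
        exact sub_mem (hbR p hp) (R.smul_mem _ hb₀R)
    · intro p hp α
      rcases Finset.mem_insert.mp hp with rfl | hp
      · simp only [if_true]
        exact hb₀A α
      · have hpα : p ≠ α₀ := fun h => hα₀P (h ▸ hp)
        simp only [if_neg hpα, Pi.sub_apply, Pi.smul_apply, smul_eq_mul]
        exact sub_mem (hbA p hp α) (mul_mem (hbA p hp α₀) (hb₀A α))
    · intro p hp p' hp'
      rcases Finset.mem_insert.mp hp with rfl | hp
      · simp only [if_true]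
        rcases Finset.mem_insert.mp hp' with rfl | hp'
        · rw [if_pos rfl, hb₀α₀]
        · have hpα : p' ≠ p := fun h => hα₀P (h ▸ hp')
          rw [if_neg (Ne.symm hpα), hb₀P p' hp']
      · have hpα : p ≠ α₀ := fun h => hα₀P (h ▸ hp)
        simp only [if_neg hpα, Pi.sub_apply, Pi.smul_apply, smul_eq_mul]
        rcases Finset.mem_insert.mp hp' with rfl | hp'
        · rw [if_neg hpα, hb₀α₀, mul_one, sub_self]
        · rw [hb₀P p' hp', mul_zero, sub_zero, hbp p hp p' hp']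
  have hcard := hmax (insert α₀ P) (Finset.mem_filter.mpr ⟨Finset.mem_univ _, hgood⟩)
  rw [Finset.card_insert_of_notMem hα₀P] at hcard
  omega

/-! ### Orthonormal families -/

section Orth

variable {K : Type*} [Field K] {A : ValuationSubring K} {k : Type*} [Field k] {π : A →+* k}
variable {ι : Type*} [Fintype ι]

/-- scalar multiplication of Laurent series by constants -/
theorem FA_S18_B4_smul_eq {L : Type*} [Field L] (c : L) (x : LaurentSeries L) :
    c • x = algebraMap L (LaurentSeries L) c * x := by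
  rw [FA_S18_B_algebraMap_eq_C, HahnSeries.C_mul_eq_smul]

/-- The inverse of an element outside `A` lies in the maximal ideal. -/
theorem FA_S18_B4_inv_mem {c : K} (hc : c ∉ A) :
    ∃ hci : c⁻¹ ∈ A, (⟨c⁻¹, hci⟩ : A) ∈ IsLocalRing.maximalIdeal A := by
  have hci : c⁻¹ ∈ A := (A.mem_or_inv_mem c).resolve_left hc
  refine ⟨hci, ?_⟩
  rw [A.valuation_lt_one_iff]
  show A.valuation c⁻¹ < 1
  rw [map_inv₀]
  have h1 : 1 < A.valuation c := by
    rw [← not_le, A.valuation_le_one_iff]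
    exact hc
  exact inv_lt_one_of_one_lt₀ h1

/-- Integral combinations of Gauss-integral series, and their reductions. -/
theorem FA_S18_B4_comb (v : ι → LaurentSeries K) (hv : ∀ α, FA_S18_B_IsInt A π (v α))
    (s : Finset ι) (γ : ι → A) :
    FA_S18_B_IsInt A π (∑ α ∈ s, algebraMap K (LaurentSeries K) (γ α : K) * v α) ∧
    FA_S18_B_red A π (∑ α ∈ s, algebraMap K (LaurentSeries K) (γ α : K) * v α)
      = ∑ α ∈ s, algebraMap k (LaurentSeries k) (π (γ α)) * FA_S18_B_red A π (v α) := by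
  have h1 : ∀ α ∈ s, FA_S18_B_IsInt A π (algebraMap K (LaurentSeries K) (γ α : K) * v α) :=
    fun α _ => FA_S18_B_isInt_const_mul (γ α) (hv α)
  refine ⟨FA_S18_B_isInt_sum s _ h1, ?_⟩
  rw [FA_S18_B_red_sum s _ h1]
  exact Finset.sum_congr rfl fun α _ => FA_S18_B_red_const_mul (γ α) (hv α)

/-- A family of Gauss-integral series with `k`-independent reductions is linearly independent
over `K`. -/
theorem FA_S18_B4_indep (v : ι → LaurentSeries K) (hv : ∀ α, FA_S18_B_IsInt A π (v α))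
    (s : Finset ι)
    (hind : ∀ γ : ι → k,
      ∑ α ∈ s, algebraMap k (LaurentSeries k) (γ α) * FA_S18_B_red A π (v α) = 0 →
      ∀ α ∈ s, γ α = 0)
    (γ : ι → K) (h0 : ∑ α ∈ s, algebraMap K (LaurentSeries K) (γ α) * v α = 0) :
    ∀ α ∈ s, γ α = 0 := by
  classical
  by_contra hne
  push Not at hne
  obtain ⟨α₁, hα₁, hne⟩ := hne
  obtain ⟨α₀, hα₀s, hα₀, hall⟩ := FA_S18_B_content_fin A s γ ⟨α₁, hα₁, hne⟩
  set γ' : ι → A := fun α => if h : α ∈ s then ⟨γ α / γ α₀, hall α h⟩ else 0 with hγ'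
  have hγ'v : ∀ α ∈ s, ((γ' α : A) : K) = (γ α₀)⁻¹ * γ α := fun α hα => by
    rw [hγ']
    simp only [dif_pos hα]
    rw [div_eq_mul_inv, mul_comm]
  have hsum : ∑ α ∈ s, algebraMap K (LaurentSeries K) (γ' α : K) * v α = 0 := by
    have : ∑ α ∈ s, algebraMap K (LaurentSeries K) (γ' α : K) * v α
        = algebraMap K (LaurentSeries K) (γ α₀)⁻¹
          * ∑ α ∈ s, algebraMap K (LaurentSeries K) (γ α) * v α := by
      rw [Finset.mul_sum]
      refine Finset.sum_congr rfl fun α hα => ?_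
      rw [hγ'v α hα, map_mul, mul_assoc]
    rw [this, h0, mul_zero]
  have hred := (FA_S18_B4_comb (π := π) v hv s γ').2
  rw [hsum, FA_S18_B_red_zero] at hred
  have h1 := hind (fun α => π (γ' α)) hred.symm α₀ hα₀s
  have h2 : γ' α₀ = 1 := by
    apply Subtype.ext
    rw [hγ'v α₀ hα₀s, inv_mul_cancel₀ hα₀]
    rfl
  rw [h2, map_one] at h1
  exact one_ne_zero h1

/-- **Orthonormality**: if `∑ γ_α v_α` is Gauss-integral, all `γ_α` lie in `A`. -/
theorem FA_S18_B4_orth (hker : ∀ a : A, a ∈ IsLocalRing.maximalIdeal A → π a = 0)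
    (v : ι → LaurentSeries K) (hv : ∀ α, FA_S18_B_IsInt A π (v α)) (s : Finset ι)
    (hind : ∀ γ : ι → k,
      ∑ α ∈ s, algebraMap k (LaurentSeries k) (γ α) * FA_S18_B_red A π (v α) = 0 →
      ∀ α ∈ s, γ α = 0)
    (γ : ι → K)
    (hint : FA_S18_B_IsInt A π (∑ α ∈ s, algebraMap K (LaurentSeries K) (γ α) * v α)) :
    ∀ α ∈ s, γ α ∈ A := by
  classical
  by_contra hne
  push Not at hne
  obtain ⟨α₁, hα₁, hne⟩ := hne
  have hne0 : γ α₁ ≠ 0 := fun h => hne (h ▸ A.zero_mem)
  obtain ⟨α₀, hα₀s, hα₀, hall⟩ := FA_S18_B_content_fin A s γ ⟨α₁, hα₁, hne0⟩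
  have hα₀A : γ α₀ ∉ A := by
    intro h
    apply hne
    have : γ α₁ = γ α₁ / γ α₀ * γ α₀ := by field_simp
    rw [this]
    exact mul_mem (hall α₁ hα₁) h
  obtain ⟨hci, hm⟩ := FA_S18_B4_inv_mem hα₀A
  set γ' : ι → A := fun α => if h : α ∈ s then ⟨γ α / γ α₀, hall α h⟩ else 0 with hγ'
  have hγ'v : ∀ α ∈ s, ((γ' α : A) : K) = (γ α₀)⁻¹ * γ α := fun α hα => by
    rw [hγ']
    simp only [dif_pos hα]
    rw [div_eq_mul_inv, mul_comm]
  have hsum : ∑ α ∈ s, algebraMap K (LaurentSeries K) (γ' α : K) * v α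
      = algebraMap K (LaurentSeries K) ((⟨(γ α₀)⁻¹, hci⟩ : A) : K)
        * ∑ α ∈ s, algebraMap K (LaurentSeries K) (γ α) * v α := by
    rw [Finset.mul_sum]
    refine Finset.sum_congr rfl fun α hα => ?_
    rw [hγ'v α hα, map_mul, mul_assoc]
  have hred := (FA_S18_B4_comb (π := π) v hv s γ').2
  rw [hsum, FA_S18_B_red_const_mul _ hint, hker _ hm, map_zero, zero_mul] at hred
  have h1 := hind (fun α => π (γ' α)) hred.symm α₀ hα₀s
  have h2 : γ' α₀ = 1 := by
    apply Subtype.ext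
    rw [hγ'v α₀ hα₀s, inv_mul_cancel₀ hα₀]
    rfl
  rw [h2, map_one] at h1
  exact one_ne_zero h1

/-- **Cartesian basis inside an orthonormal envelope**: a subspace `W` of the span of a finite
family `v` of Gauss-integral series with `k`-independent reductions has an orthonormal basis
`(B p)_{p ∈ P}`. -/
theorem FA_S18_B4_cart_orth (hker : ∀ a : A, a ∈ IsLocalRing.maximalIdeal A → π a = 0)
    (v : ι → LaurentSeries K) (hv : ∀ α, FA_S18_B_IsInt A π (v α))
    (hind : ∀ γ : ι → k,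
      ∑ α, algebraMap k (LaurentSeries k) (γ α) * FA_S18_B_red A π (v α) = 0 → ∀ α, γ α = 0)
    (W : Submodule K (LaurentSeries K))
    (hW : ∀ w ∈ W, ∃ γ : ι → K, w = ∑ α, algebraMap K (LaurentSeries K) (γ α) * v α) :
    ∃ (P : Finset ι) (B : ι → LaurentSeries K),
      (∀ p ∈ P, B p ∈ W) ∧
      (∀ w ∈ W, ∃ c : ι → K, w = ∑ p ∈ P, algebraMap K (LaurentSeries K) (c p) * B p) ∧
      (∀ p ∈ P, FA_S18_B_IsInt A π (B p)) ∧
      (∀ c : ι → K, ∑ p ∈ P, algebraMap K (LaurentSeries K) (c p) * B p = 0 →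
        ∀ p ∈ P, c p = 0) ∧
      (∀ c : ι → k, ∑ p ∈ P, algebraMap k (LaurentSeries k) (c p) * FA_S18_B_red A π (B p) = 0 →
        ∀ p ∈ P, c p = 0) ∧
      (∀ c : ι → K, FA_S18_B_IsInt A π (∑ p ∈ P, algebraMap K (LaurentSeries K) (c p) * B p) →
        ∀ p ∈ P, c p ∈ A) := by
  classical
  have hind' : ∀ γ : ι → k,
      ∑ α ∈ Finset.univ, algebraMap k (LaurentSeries k) (γ α) * FA_S18_B_red A π (v α) = 0 →
      ∀ α ∈ Finset.univ, γ α = 0 := fun γ h α _ => hind γ h α
  -- the coordinate map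
  let Φ : (ι → K) →ₗ[K] LaurentSeries K := Fintype.linearCombination K v
  have hΦ : ∀ γ : ι → K, Φ γ = ∑ α, algebraMap K (LaurentSeries K) (γ α) * v α := fun γ => by
    show Fintype.linearCombination K v γ = _
    rw [Fintype.linearCombination_apply]
    exact Finset.sum_congr rfl fun α _ => FA_S18_B4_smul_eq _ _
  obtain ⟨P, b, hbR, hbA, hbp, hbw⟩ := FA_S18_B4_ge A (W.comap Φ)
  let bA : ι → ι → A := fun p α => ⟨b p α, hbA p α⟩
  set B : ι → LaurentSeries K := fun p => Φ (b p) with hB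
  have hBeq : ∀ p, B p = ∑ α, algebraMap K (LaurentSeries K) ((bA p α : A) : K) * v α :=
    fun p => hΦ (b p)
  -- combinations of the `B p`
  have hcomb : ∀ c : ι → K, ∑ p ∈ P, algebraMap K (LaurentSeries K) (c p) * B p
      = ∑ α, algebraMap K (LaurentSeries K) (∑ p ∈ P, c p * b p α) * v α := by
    intro c
    have h1 : ∀ p ∈ P, algebraMap K (LaurentSeries K) (c p) * B p
        = ∑ α, algebraMap K (LaurentSeries K) (c p * b p α) * v α := fun p _ => by
      rw [hB]
      show _ * Φ (b p) = _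
      rw [hΦ, Finset.mul_sum]
      exact Finset.sum_congr rfl fun α _ => by rw [map_mul, mul_assoc]
    rw [Finset.sum_congr rfl h1, Finset.sum_comm]
    refine Finset.sum_congr rfl fun α _ => ?_
    rw [map_sum, Finset.sum_mul]
  have hpiv : ∀ (c : ι → K), ∀ p' ∈ P, ∑ p ∈ P, c p * b p p' = c p' := by
    intro c p' hp'
    rw [Finset.sum_eq_single p']
    · rw [hbp p' hp' p' hp', if_pos rfl, mul_one]
    · intro p hp hpp'
      rw [hbp p hp p' hp', if_neg hpp', mul_zero]
    · intro h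
      exact absurd hp' h
  have hBint : ∀ p, FA_S18_B_IsInt A π (B p) := fun p => by
    rw [hBeq]
    exact (FA_S18_B4_comb (π := π) v hv Finset.univ (bA p)).1
  have hBred : ∀ p, FA_S18_B_red A π (B p)
      = ∑ α, algebraMap k (LaurentSeries k) (π (bA p α)) * FA_S18_B_red A π (v α) := fun p => by
    rw [hBeq]
    exact (FA_S18_B4_comb (π := π) v hv Finset.univ (bA p)).2
  refine ⟨P, B, fun p hp => hbR p hp, fun w hw => ?_, fun p _ => hBint p, fun c hc p' hp' => ?_,
    fun c hc p' hp' => ?_, fun c hc p' hp' => ?_⟩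
  · obtain ⟨γ, hγ⟩ := hW w hw
    have hγR : γ ∈ W.comap Φ := by
      show Φ γ ∈ W
      rw [hΦ, ← hγ]
      exact hw
    refine ⟨γ, ?_⟩
    have h1 := congrArg Φ (hbw γ hγR)
    rw [map_sum] at h1
    rw [hγ, ← hΦ, h1]
    refine Finset.sum_congr rfl fun p _ => ?_
    rw [map_smul, FA_S18_B4_smul_eq]
  · rw [hcomb] at hc
    have h1 := FA_S18_B4_indep (π := π) v hv Finset.univ hind' _ hc p' (Finset.mem_univ _)
    rw [hpiv c p' hp'] at h1
    exact h1
  · have h1 : ∑ p ∈ P, algebraMap k (LaurentSeries k) (c p) * FA_S18_B_red A π (B p)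
        = ∑ α, algebraMap k (LaurentSeries k) (∑ p ∈ P, c p * π (bA p α))
          * FA_S18_B_red A π (v α) := by
      have h2 : ∀ p ∈ P, algebraMap k (LaurentSeries k) (c p) * FA_S18_B_red A π (B p)
          = ∑ α, algebraMap k (LaurentSeries k) (c p * π (bA p α))
            * FA_S18_B_red A π (v α) := fun p _ => by
        rw [hBred, Finset.mul_sum]
        exact Finset.sum_congr rfl fun α _ => by rw [map_mul, mul_assoc]
      rw [Finset.sum_congr rfl h2, Finset.sum_comm]
      refine Finset.sum_congr rfl fun α _ => ?_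
      rw [map_sum, Finset.sum_mul]
    rw [h1] at hc
    have h3 := hind _ hc p'
    rw [Finset.sum_eq_single p'] at h3
    · have h4 : bA p' p' = 1 := by
        apply Subtype.ext
        show b p' p' = 1
        rw [hbp p' hp' p' hp', if_pos rfl]
      rw [h4, map_one, mul_one] at h3
      exact h3
    · intro p hp hpp'
      have h4 : bA p p' = 0 := by
        apply Subtype.ext
        show b p p' = 0
        rw [hbp p hp p' hp', if_neg hpp']
      rw [h4, map_zero, mul_zero]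
    · intro h
      exact absurd hp' h
  · rw [hcomb] at hc
    have h1 := FA_S18_B4_orth hker v hv Finset.univ hind' _ hc p' (Finset.mem_univ _)
    rw [hpiv c p' hp'] at h1
    exact h1

end Orth

/-! ### The orthonormal envelope of a finite-dimensional subspace -/

section Envelope

variable {K : Type*} [Field K] {A : ValuationSubring K} {k : Type*} [Field k] {π : A →+* k}
variable {F : IntermediateField K (LaurentSeries K)} {n : ℕ}

/-- The family `v_{(i,a)} = ι(x^a e_i) / ι(Q(x))`, `i < n`, `a < d`. -/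
def FA_S18_B4_v (D : FA_S18_B_Datum A π F n) (Q : A[X]) (d : ℕ) :
    Fin n × Fin d → LaurentSeries K :=
  fun α => (coeffMap A.subtype (FA_S18_B_ev D.x Q))⁻¹
    * coeffMap A.subtype (D.x ^ (α.2 : ℕ) * D.e α.1)

variable (D : FA_S18_B_Datum A π F n)

theorem FA_S18_B4_v_spec {Q : A[X]} (hQ : Q.map π ≠ 0) (d : ℕ) (α : Fin n × Fin d) :
    FA_S18_B_IsInt A π (FA_S18_B4_v D Q d α) ∧
    FA_S18_B_red A π (FA_S18_B4_v D Q d α)
      = coeffMap π (D.x ^ (α.2 : ℕ) * D.e α.1) / coeffMap π (FA_S18_B_ev D.x Q) := by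
  have hu := D.rho_ev_ne_zero hQ
  have hu' : coeffMap A.subtype (FA_S18_B_ev D.x Q) ≠ 0 := FA_S18_B_iota_ne_zero hu
  have e : coeffMap A.subtype (FA_S18_B_ev D.x Q) * FA_S18_B4_v D Q d α
      = coeffMap A.subtype (D.x ^ (α.2 : ℕ) * D.e α.1) := by
    rw [FA_S18_B4_v, ← mul_assoc, mul_inv_cancel₀ hu', one_mul]
  exact ⟨⟨_, _, hu, e⟩, FA_S18_B_red_eq hu e⟩

theorem FA_S18_B4_v_mem (Q : A[X]) (d : ℕ) (α : Fin n × Fin d) :
    FA_S18_B4_v D Q d α ∈ F := by
  rw [FA_S18_B4_v, map_mul, map_pow, FA_S18_B_coeffMap_ev]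
  exact mul_mem (inv_mem (FA_S18_B_ev_mem F D.x_mem _))
    (mul_mem (pow_mem D.x_mem _) (D.e_mem _))

/-- evaluation of a polynomial of degree `< d` as a sum over `Fin d` -/
theorem FA_S18_B4_ev_sum {R : Type*} [CommRing R] (x : LaurentSeries R) (P : R[X]) (d : ℕ)
    (hd : P.natDegree < d) :
    FA_S18_B_ev x P = ∑ a : Fin d, HahnSeries.C (P.coeff a) * x ^ (a : ℕ) := by
  rw [FA_S18_B_ev, Polynomial.eval₂_eq_sum_range' _ hd, Finset.sum_range]

/-- The reductions of the `v_{(i,a)}` are linearly independent over `k`. -/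
theorem FA_S18_B4_v_indep {Q : A[X]} (hQ : Q.map π ≠ 0) (d : ℕ) (γ : Fin n × Fin d → k)
    (h0 : ∑ α, algebraMap k (LaurentSeries k) (γ α) * FA_S18_B_red A π (FA_S18_B4_v D Q d α)
      = 0) : ∀ α, γ α = 0 := by
  classical
  have hu := D.rho_ev_ne_zero hQ
  set c : Fin n → k[X] := fun i => ∑ a : Fin d, Polynomial.C (γ (i, a)) * Polynomial.X ^ (a : ℕ)
    with hc
  have hcoeff : ∀ i (a : Fin d), (c i).coeff a = γ (i, a) := by
    intro i a
    rw [hc]
    simp only [Polynomial.finset_sum_coeff, Polynomial.coeff_C_mul_X_pow]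
    rw [Finset.sum_eq_single a]
    · rw [if_pos rfl]
    · intro b _ hba
      rw [if_neg]
      intro h
      exact hba (Fin.ext h.symm)
    · intro h
      exact absurd (Finset.mem_univ a) h
  have hev : ∀ i, FA_S18_B_ev (coeffMap π D.x) (c i)
      = ∑ a : Fin d, algebraMap k (LaurentSeries k) (γ (i, a)) * coeffMap π D.x ^ (a : ℕ) := by
    intro i
    rw [hc, FA_S18_B_ev, Polynomial.eval₂_finset_sum]
    refine Finset.sum_congr rfl fun a _ => ?_
    rw [Polynomial.eval₂_mul, Polynomial.eval₂_C, Polynomial.eval₂_pow, Polynomial.eval₂_X,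
      FA_S18_B_algebraMap_eq_C]
  have h1 : ∑ i, FA_S18_B_ev (coeffMap π D.x) (c i) * coeffMap π (D.e i) = 0 := by
    have h2 : (∑ α, algebraMap k (LaurentSeries k) (γ α)
        * FA_S18_B_red A π (FA_S18_B4_v D Q d α)) * coeffMap π (FA_S18_B_ev D.x Q) = 0 := by
      rw [h0, zero_mul]
    rw [Finset.sum_mul, Fintype.sum_prod_type] at h2
    rw [← h2]
    refine Finset.sum_congr rfl fun i _ => ?_
    rw [hev, Finset.sum_mul]
    refine Finset.sum_congr rfl fun a _ => ?_
    rw [(FA_S18_B4_v_spec D hQ d (i, a)).2, map_mul, map_pow]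
    field_simp
  intro α
  have h3 := D.indep c h1 α.1
  rw [← hcoeff α.1 α.2, h3, Polynomial.coeff_zero]

/-- polynomial form of membership in the envelope -/
def FA_S18_B4_Env (Q : A[X]) (d : ℕ) (w : LaurentSeries K) : Prop :=
  ∃ P : Fin n → K[X], (∀ i, (P i).natDegree < d) ∧
    coeffMap A.subtype (FA_S18_B_ev D.x Q) * w
      = ∑ i, FA_S18_B_ev (coeffMap A.subtype D.x) (P i) * coeffMap A.subtype (D.e i)

/-- Every element of `F` lies in some envelope. -/
theorem FA_S18_B4_env_exists {w : LaurentSeries K} (hw : w ∈ F) :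
    ∃ (Q : A[X]) (d : ℕ), Q.map π ≠ 0 ∧ FA_S18_B4_Env D Q d w := by
  classical
  obtain ⟨Q₀, P, hQ₀, e⟩ := D.span w hw
  obtain ⟨c, hc, Q', hQ', ⟨_, hQ'r⟩⟩ :=
    FA_S18_B_content_poly A π (fun _ : Unit => Q₀) ⟨(), hQ₀⟩
  refine ⟨Q' (), (Finset.univ.sup fun i => (Polynomial.C c⁻¹ * P i).natDegree) + 1, hQ'r,
    fun i => Polynomial.C c⁻¹ * P i, fun i => ?_, ?_⟩
  · exact Nat.lt_succ_of_le
      (Finset.le_sup (f := fun i => (Polynomial.C c⁻¹ * P i).natDegree) (Finset.mem_univ i))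
  · rw [FA_S18_B_coeffMap_ev, hQ' (), FA_S18_B_ev_mul, mul_assoc, e, Finset.mul_sum]
    refine Finset.sum_congr rfl fun i _ => ?_
    rw [FA_S18_B_ev_mul, mul_assoc]

/-- Enlarging the envelope. -/
theorem FA_S18_B4_env_mono {Q : A[X]} {d : ℕ} {w : LaurentSeries K}
    (h : FA_S18_B4_Env D Q d w) (T : A[X]) (d' : ℕ) (hd' : d + T.natDegree ≤ d') :
    FA_S18_B4_Env D (Q * T) d' w := by
  obtain ⟨P, hP, e⟩ := h
  refine ⟨fun i => T.map A.subtype * P i, fun i => ?_, ?_⟩
  · calc (T.map A.subtype * P i).natDegree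
        ≤ (T.map A.subtype).natDegree + (P i).natDegree := Polynomial.natDegree_mul_le
      _ ≤ T.natDegree + (P i).natDegree := Nat.add_le_add_right Polynomial.natDegree_map_le _
      _ < d' := by have := hP i; omega
  · rw [FA_S18_B_ev_mul, map_mul, mul_comm (coeffMap A.subtype (FA_S18_B_ev D.x Q)), mul_assoc, e,
      Finset.mul_sum, FA_S18_B_coeffMap_ev]
    refine Finset.sum_congr rfl fun i _ => ?_
    rw [FA_S18_B_ev_mul, mul_assoc]

/-- A finite subset of `F` lies in a common envelope. -/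
theorem FA_S18_B4_env_finset (s : Finset (LaurentSeries K)) (hs : ∀ w ∈ s, w ∈ F) :
    ∃ (Q : A[X]) (d : ℕ), Q.map π ≠ 0 ∧ ∀ w ∈ s, FA_S18_B4_Env D Q d w := by
  classical
  induction s using Finset.induction_on with
  | empty =>
    refine ⟨1, 0, ?_, fun w hw => absurd hw (Finset.notMem_empty w)⟩
    rw [Polynomial.map_one]
    exact one_ne_zero
  | insert w₀ s hw₀ ih =>
    obtain ⟨Q, d, hQ, hall⟩ := ih fun w hw => hs w (Finset.mem_insert_of_mem hw)
    obtain ⟨Q₀, d₀, hQ₀, h₀⟩ := FA_S18_B4_env_exists D (hs w₀ (Finset.mem_insert_self w₀ s))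
    refine ⟨Q * Q₀, d + d₀ + Q.natDegree + Q₀.natDegree, ?_, fun w hw => ?_⟩
    · rw [Polynomial.map_mul]
      exact mul_ne_zero hQ hQ₀
    · rcases Finset.mem_insert.mp hw with rfl | hw
      · have := FA_S18_B4_env_mono D h₀ Q (d + d₀ + Q.natDegree + Q₀.natDegree) (by omega)
        rwa [mul_comm] at this
      · exact FA_S18_B4_env_mono D (hall w hw) Q₀ _ (by omega)

/-- From the polynomial form to coordinates with respect to `v`. -/
theorem FA_S18_B4_env_coord {Q : A[X]} (hQ : Q.map π ≠ 0) {d : ℕ} {w : LaurentSeries K}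
    (h : FA_S18_B4_Env D Q d w) :
    ∃ γ : Fin n × Fin d → K,
      w = ∑ α, algebraMap K (LaurentSeries K) (γ α) * FA_S18_B4_v D Q d α := by
  obtain ⟨P, hP, e⟩ := h
  have hu := D.rho_ev_ne_zero hQ
  have hu' : coeffMap A.subtype (FA_S18_B_ev D.x Q) ≠ 0 := FA_S18_B_iota_ne_zero hu
  refine ⟨fun α => (P α.1).coeff α.2, ?_⟩
  have hw : w = (coeffMap A.subtype (FA_S18_B_ev D.x Q))⁻¹
      * ∑ i, FA_S18_B_ev (coeffMap A.subtype D.x) (P i) * coeffMap A.subtype (D.e i) := by
    rw [← e, ← mul_assoc, inv_mul_cancel₀ hu', one_mul]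
  rw [hw, Fintype.sum_prod_type, Finset.mul_sum]
  refine Finset.sum_congr rfl fun i _ => ?_
  rw [FA_S18_B4_ev_sum _ _ d (hP i), Finset.sum_mul, Finset.mul_sum]
  refine Finset.sum_congr rfl fun a _ => ?_
  rw [FA_S18_B4_v, map_mul, map_pow, FA_S18_B_algebraMap_eq_C]
  ring

/-- reindexing a sum over a finset along an equivalence with `Fin m` -/
theorem FA_S18_B4_reindex {ι M X : Type*} [DecidableEq ι] [AddCommMonoid M] [Zero X]
    (P : Finset ι) {m : ℕ}
    (e : Fin m ≃ ↥P) (c : Fin m → X) (f : X → ι → M) :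
    ∑ p ∈ P, f (if h : p ∈ P then c (e.symm ⟨p, h⟩) else 0) p = ∑ i, f (c i) (e i : ι) := by
  rw [← Finset.sum_coe_sort P, ← Equiv.sum_comp e]
  refine Finset.sum_congr rfl fun i _ => ?_
  rw [dif_pos (e i).2]
  simp

/-- **B4 (cartesian lattices), abstract form**: every finite-dimensional `K`-subspace `W ⊂ F`
has a basis of Gauss-integral elements whose reductions are linearly independent over `k`, and
a combination of the basis is Gauss-integral only if its coefficients lie in `A`. -/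
theorem FA_S18_B4_cart (D : FA_S18_B_Datum A π F n) (W : Submodule K ↥F)
    [FiniteDimensional K W] :
    ∃ b : Fin (Module.finrank K W) → ↥F,
      (∀ i, b i ∈ W) ∧ LinearIndependent K b ∧
      (∀ i, FA_S18_B_IsInt A π (b i : LaurentSeries K)) ∧
      (∀ c : Fin (Module.finrank K W) → k,
        (∑ i, algebraMap k (LaurentSeries k) (c i)
          * FA_S18_B_red A π (b i : LaurentSeries K)) = 0 → ∀ i, c i = 0) ∧
      (∀ c : Fin (Module.finrank K W) → K,
        FA_S18_B_IsInt A π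
          (∑ i, algebraMap K (LaurentSeries K) (c i) * (b i : LaurentSeries K)) →
        ∀ i, c i ∈ A) := by
  classical
  -- a finite spanning set
  obtain ⟨s, hs⟩ : ∃ s : Finset ↥F, Submodule.span K (s : Set ↥F) = W :=
    (Submodule.fg_iff_finiteDimensional W).mpr inferInstance
  obtain ⟨Q, d, hQ, henv⟩ := FA_S18_B4_env_finset D (s.image (fun w : ↥F => (w : LaurentSeries K)))
    (fun w hw => by
      obtain ⟨w', -, rfl⟩ := Finset.mem_image.mp hw
      exact w'.2)
  -- the image of `W` in `K((q))`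
  have hcoe_smul : ∀ (c : K) (w : ↥F), ((c • w : ↥F) : LaurentSeries K)
      = algebraMap K (LaurentSeries K) c * (w : LaurentSeries K) := fun c w => by
    rw [Algebra.smul_def]
    rfl
  let W' : Submodule K (LaurentSeries K) :=
    { carrier := {y | ∃ w ∈ W, (w : LaurentSeries K) = y}
      add_mem' := by
        rintro _ _ ⟨w₁, hw₁, rfl⟩ ⟨w₂, hw₂, rfl⟩
        exact ⟨w₁ + w₂, W.add_mem hw₁ hw₂, rfl⟩
      zero_mem' := ⟨0, W.zero_mem, rfl⟩
      smul_mem' := by
        rintro c _ ⟨w, hw, rfl⟩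
        exact ⟨c • w, W.smul_mem c hw, by rw [hcoe_smul, FA_S18_B4_smul_eq]⟩ }
  have hW'mem : ∀ y, y ∈ W' ↔ ∃ w ∈ W, (w : LaurentSeries K) = y := fun y => Iff.rfl
  have hW' : ∀ y ∈ W', ∃ γ : Fin n × Fin d → K,
      y = ∑ α, algebraMap K (LaurentSeries K) (γ α) * FA_S18_B4_v D Q d α := by
    rintro _ ⟨w, hw, rfl⟩
    rw [← hs] at hw
    induction hw using Submodule.span_induction with
    | mem w hw =>
      exact FA_S18_B4_env_coord D hQ (henv _ (Finset.mem_image_of_mem _ hw))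
    | zero => exact ⟨0, by simp⟩
    | add w₁ w₂ _ _ h₁ h₂ =>
      obtain ⟨γ₁, e₁⟩ := h₁
      obtain ⟨γ₂, e₂⟩ := h₂
      refine ⟨γ₁ + γ₂, ?_⟩
      show (w₁ : LaurentSeries K) + (w₂ : LaurentSeries K) = _
      rw [e₁, e₂, ← Finset.sum_add_distrib]
      exact Finset.sum_congr rfl fun α _ => by rw [Pi.add_apply, map_add, add_mul]
    | smul c w _ h =>
      obtain ⟨γ, e⟩ := h
      refine ⟨c • γ, ?_⟩
      rw [hcoe_smul, e, Finset.mul_sum]
      exact Finset.sum_congr rfl fun α _ => by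
        rw [Pi.smul_apply, smul_eq_mul, map_mul, mul_assoc]
  obtain ⟨P, B, hBW, hBspan, hBint, hBindK, hBindk, hBorth⟩ :=
    FA_S18_B4_cart_orth D.ker (FA_S18_B4_v D Q d) (fun α => (FA_S18_B4_v_spec D hQ d α).1)
      (FA_S18_B4_v_indep D hQ d) W' hW'
  -- the basis of `W` indexed by `P`
  have hBW' : ∀ p : ↥P, ∃ w : ↥W, ((w : ↥F) : LaurentSeries K) = B p := fun p => by
    obtain ⟨w, hw, e⟩ := hBW p p.2
    exact ⟨⟨w, hw⟩, e⟩
  choose bW hbW using hBW'
  have hsumcoe : ∀ g : ↥P → K, (((∑ q, g q • bW q : ↥W) : ↥F) : LaurentSeries K)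
      = ∑ p ∈ P, algebraMap K (LaurentSeries K) (if h : p ∈ P then g ⟨p, h⟩ else 0) * B p := by
    intro g
    rw [← Finset.sum_coe_sort P]
    have h1 : (((∑ q, g q • bW q : ↥W) : ↥F) : LaurentSeries K)
        = ∑ q, algebraMap K (LaurentSeries K) (g q) * B q := by
      rw [Submodule.coe_sum, IntermediateField.coe_sum]
      refine Finset.sum_congr rfl fun q _ => ?_
      rw [Submodule.coe_smul, hcoe_smul, hbW]
    rw [h1]
    refine Finset.sum_congr rfl fun q _ => ?_
    rw [dif_pos q.2]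
  have hli : LinearIndependent K bW := by
    rw [Fintype.linearIndependent_iff]
    intro g hg q
    have h1 := hsumcoe g
    rw [hg] at h1
    have h2 := hBindK _ h1.symm q q.2
    rw [dif_pos q.2] at h2
    exact h2
  have hsp : ⊤ ≤ Submodule.span K (Set.range bW) := by
    rintro ⟨w, hw⟩ -
    obtain ⟨c, hc⟩ := hBspan (w : LaurentSeries K) ⟨w, hw, rfl⟩
    have h1 : (⟨w, hw⟩ : ↥W) = ∑ q : ↥P, c q • bW q := by
      apply Subtype.ext
      apply Subtype.ext
      show (w : LaurentSeries K) = _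
      rw [hsumcoe (fun q => c q), hc]
      refine Finset.sum_congr rfl fun p hp => ?_
      rw [dif_pos hp]
    rw [h1]
    exact Submodule.sum_mem _ fun q _ =>
      Submodule.smul_mem _ _ (Submodule.subset_span ⟨q, rfl⟩)
  have hcard : Module.finrank K W = Fintype.card ↥P :=
    Module.finrank_eq_card_basis (Module.Basis.mk hli hsp)
  let e : Fin (Module.finrank K W) ≃ ↥P :=
    Fintype.equivOfCardEq (by rw [Fintype.card_fin, hcard])
  refine ⟨fun i => (bW (e i) : ↥F), fun i => (bW (e i)).2, ?_, fun i => ?_, fun c hc i => ?_,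
    fun c hc i => ?_⟩
  · have h1 : LinearIndependent K (bW ∘ e) := hli.comp e e.injective
    exact h1.map' W.subtype (Submodule.ker_subtype W)
  · rw [hbW]
    exact hBint _ (e i).2
  · have h1 := FA_S18_B4_reindex P e c
      (fun x p => algebraMap k (LaurentSeries k) x * FA_S18_B_red A π (B p))
    have h2 : ∑ i, algebraMap k (LaurentSeries k) (c i) * FA_S18_B_red A π (B (e i)) = 0 := by
      rw [← hc]
      exact Finset.sum_congr rfl fun i _ => by rw [hbW]
    rw [h2] at h1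
    have h3 := hBindk _ h1 (e i) (e i).2
    rw [dif_pos (e i).2] at h3
    simpa using h3
  · have h1 := FA_S18_B4_reindex P e c
      (fun x p => algebraMap K (LaurentSeries K) x * B p)
    have h2 : ∑ i, algebraMap K (LaurentSeries K) (c i) * B (e i)
        = ∑ i, algebraMap K (LaurentSeries K) (c i)
          * (((bW (e i) : ↥W) : ↥F) : LaurentSeries K) :=
      Finset.sum_congr rfl fun i _ => by rw [hbW]
    rw [h2] at h1
    rw [← h1] at hc
    have h3 := hBorth _ hc (e i) (e i).2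
    rw [dif_pos (e i).2] at h3
    simpa using h3

end Envelope

/-! ### The target `FA_S18_Target_B_cart` from a datum -/

/-- `FA_S18_Target_B_cart` follows from the existence of a datum for `F_n`. -/
theorem FA_S18_B4_target (A : ValuationSubring (AlgebraicClosure ℚ)) (n : ℕ) [NeZero n] (ℓ : ℕ)
    (hD : ℓ.Prime → A.LiesOverPrime ℓ → ¬ ℓ ∣ n →
      ∃ m : ℕ, Nonempty (FA_S18_B_Datum A (FA_S18_pi A) (modularFunctionFieldBar n) m)) :
    FA_S18_Target_B_cart A n ℓ := by
  intro hℓ hA hn W hW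
  obtain ⟨m, ⟨D⟩⟩ := hD hℓ hA hn
  exact FA_S18_B4_cart D W

end Fermat.Agent.S18
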