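import Fermat.Agent.S18.GaussInst
import Fermat.Agent.S18.GaussCart

/-!
# S18, leaf B4: the cartesian-lattice target at level `n`

`FA_S18_B4_cart_inst : FA_S18_Target_B_cart A n ℓ`, from the modular datum
`FA_S18_B_datum_inst` (`S18/GaussInst.lean`) and `FA_S18_B4_cart` (`S18/GaussCart.lean`).
-/

set_option autoImplicit false
set_option linter.unusedSectionVars false

noncomputable section

namespace Fermat.Agent.S18

open ModularCurve

/-- **B4 (cartesian lattices)** at level `n`. -/
theorem FA_S18_B4_cart_inst (A : ValuationSubring (AlgebraicClosure ℚ)) (n : ℕ) [NeZero n]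
    (ℓ : ℕ) : FA_S18_Target_B_cart A n ℓ := by
  intro hℓ hA hn W hW
  obtain ⟨D, -, -⟩ := FA_S18_B_datum_inst A n ℓ hℓ hA hn
  exact FA_S18_B4_cart D W

end Fermat.Agent.S18
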