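import Mathlib
import Fermat.Agent.S18.GaussInst

/-!
# S18, leaf B (Gauss valuation), part 5: `[F̄_n : k(j̄)] ≤ ψ(n)`

The reductions `ē_i` of the datum span `F̄_n = red (F_n ∩ O)` over `k(j̄)`; hence any `ψ(n) + 1`
elements of `F̄_n` satisfy a nontrivial linear relation with coefficients in `k[j̄]`.
-/

set_option autoImplicit false
set_option linter.unusedSectionVars false
set_option linter.style.haveILetI false

noncomputable section

namespace Fermat.Agent.S18

open ModularCurve Polynomial Fermat.Agent.S28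

/-- The reductions of the basis span the reduction of `F ∩ O` (with polynomial denominators). -/
theorem FA_S18_B_redspan {K : Type*} [Field K] {A : ValuationSubring K} {k : Type*} [Field k]
    {π : A →+* k} {F : IntermediateField K (LaurentSeries K)} {n : ℕ}
    (D : FA_S18_B_Datum A π F n) {y : LaurentSeries K} (hy : y ∈ F)
    (hint : FA_S18_B_IsInt A π y) :
    ∃ (Q : k[X]) (P : Fin n → k[X]), Q ≠ 0 ∧
      FA_S18_B_ev (coeffMap π D.x) Q * FA_S18_B_red A π y
        = ∑ i, FA_S18_B_ev (coeffMap π D.x) (P i) * coeffMap π (D.e i) := by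
  obtain ⟨Q, P, hQ, e⟩ := FA_S18_B_int_normal D hy hint
  exact ⟨Q.map π, fun i => (P i).map π, hQ, FA_S18_B_red_of_normal D hQ e⟩

/-- More than `n` elements of the `k(j)`-span of `n` elements are linearly dependent over
`k[j]`. -/
theorem FA_S18_B_dep_of_span (k : Type) [Field k] {n : ℕ} (f : Fin n → LaurentSeries k)
    {m : ℕ} (hm : n < m) (z : Fin m → LaurentSeries k)
    (hz : ∀ l, ∃ (Q : k[X]) (P : Fin n → k[X]), Q ≠ 0 ∧
        FA_S18_B_ev (jqModC k) Q * z l = ∑ i, FA_S18_B_ev (jqModC k) (P i) * f i) :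
    ∃ P : Fin m → k[X], (∃ l, P l ≠ 0) ∧ (∑ l, FA_S18_B_ev (jqModC k) (P l) * z l) = 0 := by
  classical
  -- the `κ`-span of the `f i`
  have hmem : ∀ l, z l ∈ Submodule.span ↥(FA_S28_kappa k) (Set.range f) := by
    intro l
    obtain ⟨Q, P, hQ, e⟩ := hz l
    have hQ0 : FA_S18_B_ev (jqModC k) Q ≠ 0 := fun h0 => hQ (FA_S18_B_ev_j_eq_zero k Q h0)
    have h1 : z l = ∑ i, ((⟨FA_S18_B_ev (jqModC k) Q, FA_S18_B_ev_mem_kappa k Q⟩ :
        ↥(FA_S28_kappa k))⁻¹ * ⟨FA_S18_B_ev (jqModC k) (P i), FA_S18_B_ev_mem_kappa k (P i)⟩)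
          • f i := by
      have h2 : ∀ i, ((⟨FA_S18_B_ev (jqModC k) Q, FA_S18_B_ev_mem_kappa k Q⟩ :
          ↥(FA_S28_kappa k))⁻¹
            * ⟨FA_S18_B_ev (jqModC k) (P i), FA_S18_B_ev_mem_kappa k (P i)⟩) • f i
          = (FA_S18_B_ev (jqModC k) Q)⁻¹ * (FA_S18_B_ev (jqModC k) (P i) * f i) := by
        intro i
        rw [Algebra.smul_def, ← mul_assoc]
        rfl
      simp only [h2]
      rw [← Finset.mul_sum, ← e, ← mul_assoc, inv_mul_cancel₀ hQ0, one_mul]
    rw [h1]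
    exact Submodule.sum_mem _ fun i _ =>
      Submodule.smul_mem _ _ (Submodule.subset_span (Set.mem_range_self i))
  have hnli : ¬ LinearIndependent ↥(FA_S28_kappa k) z := by
    intro hli
    have hli' : LinearIndependent ↥(FA_S28_kappa k)
        (fun l => (⟨z l, hmem l⟩ : ↥(Submodule.span ↥(FA_S28_kappa k) (Set.range f)))) :=
      LinearIndependent.of_comp (Submodule.subtype _) hli
    haveI : Module.Finite ↥(FA_S28_kappa k)
        ↥(Submodule.span ↥(FA_S28_kappa k) (Set.range f)) :=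
      Module.Finite.span_of_finite _ (Set.finite_range f)
    have h1 := hli'.fintype_card_le_finrank
    have h2 : Module.finrank ↥(FA_S28_kappa k)
        ↥(Submodule.span ↥(FA_S28_kappa k) (Set.range f)) ≤ n := by
      have := finrank_range_le_card (R := ↥(FA_S28_kappa k)) f
      rwa [Fintype.card_fin] at this
    rw [Fintype.card_fin] at h1
    omega
  obtain ⟨g, hg, l₀, hl₀⟩ := Fintype.not_linearIndependent_iff.mp hnli
  obtain ⟨Q, P, hQ, hP⟩ := FA_S18_B_kappa_frac_fin k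
    (fun l => ((g l : ↥(FA_S28_kappa k)) : LaurentSeries k)) (fun l => (g l).2)
  have hQ0 : FA_S18_B_ev (jqModC k) Q ≠ 0 := fun h0 => hQ (FA_S18_B_ev_j_eq_zero k Q h0)
  refine ⟨P, ⟨l₀, ?_⟩, ?_⟩
  · intro h0
    have h1 := hP l₀
    rw [h0, FA_S18_B_ev_zero] at h1
    rcases mul_eq_zero.mp h1 with h | h
    · exact hQ0 h
    · exact hl₀ (Subtype.ext h)
  · have h2 : (∑ l, FA_S18_B_ev (jqModC k) (P l) * z l)
        = FA_S18_B_ev (jqModC k) Q * ∑ l, g l • z l := by
      rw [Finset.mul_sum]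
      apply Finset.sum_congr rfl
      intro l _
      rw [← hP l, Algebra.smul_def, mul_assoc]
      rfl
    rw [h2, hg, mul_zero]

/-- **`[F̄_n : k(j̄)] ≤ ψ(n)`**: any `ψ(n) + 1` elements of `F̄_n` are linearly dependent over
`k[j̄]`. -/
theorem FA_S18_B_deg_le (A : ValuationSubring (AlgebraicClosure ℚ)) (n : ℕ) [NeZero n] (ℓ : ℕ)
    (hℓ : ℓ.Prime) (hA : A.LiesOverPrime ℓ) (hn : ¬ ℓ ∣ n)
    (z : Fin (dedekindPsi n + 1) → LaurentSeries (IsLocalRing.ResidueField A))
    (hz : ∀ l, z l ∈ modularFunctionFieldFullC (IsLocalRing.ResidueField A) n) :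
    ∃ P : Fin (dedekindPsi n + 1) → (IsLocalRing.ResidueField A)[X], (∃ l, P l ≠ 0) ∧
      (∑ l, FA_S18_B_ev (jqModC (IsLocalRing.ResidueField A)) (P l) * z l) = 0 := by
  obtain ⟨D, hDx, -⟩ := FA_S18_B_datum_inst A n ℓ hℓ hA hn
  have hrange := (FA_S18_B_range_inst A n ℓ hℓ hA hn).2
  refine FA_S18_B_dep_of_span _ (fun i => coeffMap (FA_S18_pi A) (D.e i))
    (Nat.lt_succ_self _) z ?_
  intro l
  obtain ⟨y, hy, hint, hred⟩ := hrange (z l) (hz l)
  obtain ⟨Q, P, hQ, e⟩ := FA_S18_B_redspan D hy hint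
  rw [hDx, coeffMap_jqModC, hred] at e
  exact ⟨Q, P, hQ, e⟩

end Fermat.Agent.S18
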