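import Fermat.Agent.S18.StageA0
import Fermat.Agent.S18.GaussDefs
import Fermat.Agent.S18.LiftAbs

/-!
# S18, leaf I (instance skeleton): the concrete objects for the bundle `FA_S18.FA_S18_E_Hyp`

Concrete types: `A : ValuationSubring ℚ̄`, `K = ℚ̄`, `F = ↥(modularFunctionFieldBar n)`,
`kk = IsLocalRing.ResidueField ↥A`, `Fb = ↥(modularFunctionFieldFullC kk n)`.
All instances needed to state the bundle (`Algebra ↥A K`, `IsFractionRing ↥A K`, `Algebra ↥A F`,
`IsScalarTower ↥A K F`, `Algebra kk Fb`) are found by Mathlib; nothing is added here.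

* `FA_S18_I_O A n : Subalgebra ↥A F` : the Gauss valuation ring (carrier `FA_S18_B_O A n`).
* `FA_S18_I_Range A n : Prop` : `red` maps `O` into `Fb` (first half of `FA_S18_Target_B_range`).
* `FA_S18_I_red A n h : ↥O →+* Fb` : the reduction.
* `FA_S18_I_res A = IsLocalRing.residue ↥A`.
* `FA_S18_I_j A n`, `FA_S18_I_jinv A n : ↥O` : `j` and `j⁻¹`.
* `FA_S18_I_redAlg A n h B : Subalgebra kk Fb` : the image under `red` of `B ∩ O`, for a
  `K`-subalgebra `B` of `F` (`Bbf = redAlg BfQ`, `Bbi = redAlg BiQ`).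
-/

set_option autoImplicit false
set_option linter.unusedSectionVars false

noncomputable section

namespace Fermat.Agent.S18

open ModularCurve

variable (A : ValuationSubring (AlgebraicClosure ℚ)) (n : ℕ) [NeZero n]

/-- The residue map of `A` (the `res` of the bundle). -/
abbrev FA_S18_I_res : ↥A →+* IsLocalRing.ResidueField ↥A := IsLocalRing.residue ↥A

/-- The coercion of `algebraMap ↥A F a` to Laurent series is the constant series `a`. -/
theorem FA_S18_I_algebraMap_coe (a : ↥A) :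
    ((algebraMap ↥A ↥(modularFunctionFieldBar n) a : ↥(modularFunctionFieldBar n)) :
        LaurentSeries (AlgebraicClosure ℚ))
      = algebraMap (AlgebraicClosure ℚ) (LaurentSeries (AlgebraicClosure ℚ))
          (a : AlgebraicClosure ℚ) := rfl

/-- The Gauss valuation ring `O ⊂ F` as an `A`-subalgebra of `F`. -/
def FA_S18_I_O : Subalgebra ↥A ↥(modularFunctionFieldBar n) where
  toSubsemiring := (FA_S18_B_O A n).toSubsemiring
  algebraMap_mem' a := by
    show FA_S18_B_IsInt A (FA_S18_pi A)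
      (algebraMap (AlgebraicClosure ℚ) (LaurentSeries (AlgebraicClosure ℚ))
        (a : AlgebraicClosure ℚ))
    exact FA_S18_B_isInt_const a

theorem FA_S18_I_mem_O {y : ↥(modularFunctionFieldBar n)} :
    y ∈ FA_S18_I_O A n ↔
      FA_S18_B_IsInt A (FA_S18_pi A) (y : LaurentSeries (AlgebraicClosure ℚ)) := Iff.rfl

theorem FA_S18_I_mem_O_iff_B {y : ↥(modularFunctionFieldBar n)} :
    y ∈ FA_S18_I_O A n ↔ y ∈ FA_S18_B_O A n := Iff.rfl

/-- `red` maps `O` into `F̄` (this is the first half of `FA_S18_Target_B_range`). -/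
def FA_S18_I_Range : Prop :=
  ∀ y ∈ modularFunctionFieldBar n, FA_S18_B_IsInt A (FA_S18_pi A) y →
    FA_S18_B_red A (FA_S18_pi A) y ∈ modularFunctionFieldFullC (IsLocalRing.ResidueField ↥A) n

/-- The reduction `red : O →+* F̄`. -/
def FA_S18_I_red (h : FA_S18_I_Range A n) :
    ↥(FA_S18_I_O A n) →+* ↥(modularFunctionFieldFullC (IsLocalRing.ResidueField ↥A) n) where
  toFun y := ⟨FA_S18_B_red A (FA_S18_pi A) ((y : ↥(modularFunctionFieldBar n)) :
    LaurentSeries (AlgebraicClosure ℚ)), h _ (y : ↥(modularFunctionFieldBar n)).2 y.2⟩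
  map_one' := Subtype.ext FA_S18_B_red_one
  map_mul' y y' := Subtype.ext (FA_S18_B_red_mul y.2 y'.2)
  map_zero' := Subtype.ext FA_S18_B_red_zero
  map_add' y y' := Subtype.ext (FA_S18_B_red_add y.2 y'.2)

theorem FA_S18_I_red_coe (h : FA_S18_I_Range A n) (y : ↥(FA_S18_I_O A n)) :
    ((FA_S18_I_red A n h y : ↥(modularFunctionFieldFullC (IsLocalRing.ResidueField ↥A) n)) :
        LaurentSeries (IsLocalRing.ResidueField ↥A))
      = FA_S18_B_red A (FA_S18_pi A) ((y : ↥(modularFunctionFieldBar n)) :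
          LaurentSeries (AlgebraicClosure ℚ)) := rfl

/-- `j ∈ F` is the series `jqModC ℚ̄`. -/
theorem FA_S18_I_jbar_coe :
    ((FA_S18_A_jbar n : ↥(modularFunctionFieldBar n)) : LaurentSeries (AlgebraicClosure ℚ))
      = jqModC (AlgebraicClosure ℚ) := by
  show coeffEmb (AlgebraicClosure ℚ) jq = _
  rw [← jqModC_rat]
  exact coeffMap_jqModC _

theorem FA_S18_I_jbar_isInt :
    FA_S18_B_IsInt A (FA_S18_pi A)
      ((FA_S18_A_jbar n : ↥(modularFunctionFieldBar n)) : LaurentSeries (AlgebraicClosure ℚ)) := by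
  rw [FA_S18_I_jbar_coe, ← coeffMap_jqModC A.subtype]
  exact FA_S18_B_isInt_iota _

theorem FA_S18_I_jbar_red :
    FA_S18_B_red A (FA_S18_pi A)
      ((FA_S18_A_jbar n : ↥(modularFunctionFieldBar n)) : LaurentSeries (AlgebraicClosure ℚ))
      = jqModC (IsLocalRing.ResidueField ↥A) := by
  rw [FA_S18_I_jbar_coe, ← coeffMap_jqModC A.subtype, FA_S18_B_red_iota, coeffMap_jqModC]

theorem FA_S18_I_jbar_red_ne :
    FA_S18_B_red A (FA_S18_pi A)
      ((FA_S18_A_jbar n : ↥(modularFunctionFieldBar n)) : LaurentSeries (AlgebraicClosure ℚ))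
      ≠ 0 := by
  rw [FA_S18_I_jbar_red]
  exact jqModC_ne_zero_of_nontrivial _

/-- `j` as an element of `O`. -/
def FA_S18_I_j : ↥(FA_S18_I_O A n) := ⟨FA_S18_A_jbar n, FA_S18_I_jbar_isInt A n⟩

/-- `j⁻¹` as an element of `O`. -/
def FA_S18_I_jinv : ↥(FA_S18_I_O A n) :=
  ⟨(FA_S18_A_jbar n)⁻¹, (FA_S18_B_isInt_inv (FA_S18_I_jbar_isInt A n)
    (FA_S18_I_jbar_red_ne A n)).1⟩

theorem FA_S18_I_j_coe : ((FA_S18_I_j A n : ↥(FA_S18_I_O A n)) : ↥(modularFunctionFieldBar n))
    = FA_S18_A_jbar n := rfl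

theorem FA_S18_I_jinv_coe :
    ((FA_S18_I_jinv A n : ↥(FA_S18_I_O A n)) : ↥(modularFunctionFieldBar n))
      = (FA_S18_A_jbar n)⁻¹ := rfl

/-- `red (algebraMap a) = algebraMap (res a)` (the field `compat` of the bundle). -/
theorem FA_S18_I_compat (h : FA_S18_I_Range A n) (a : ↥A) :
    FA_S18_I_red A n h (algebraMap ↥A ↥(FA_S18_I_O A n) a)
      = algebraMap (IsLocalRing.ResidueField ↥A)
          ↥(modularFunctionFieldFullC (IsLocalRing.ResidueField ↥A) n) (FA_S18_I_res A a) := by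
  apply Subtype.ext
  rw [FA_S18_I_red_coe]
  exact FA_S18_B_red_const a

/-- The image under `red` of `B ∩ O`, for a `K`-subalgebra `B` of `F`, as a `kk`-subalgebra
of `F̄`.  Membership is `∃ y : O, (y : F) ∈ B ∧ red y = x` by `Iff.rfl`. -/
def FA_S18_I_redAlg (h : FA_S18_I_Range A n)
    (B : Subalgebra (AlgebraicClosure ℚ) ↥(modularFunctionFieldBar n)) :
    Subalgebra (IsLocalRing.ResidueField ↥A)
      ↥(modularFunctionFieldFullC (IsLocalRing.ResidueField ↥A) n) where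
  carrier := {x | ∃ y : ↥(FA_S18_I_O A n), (y : ↥(modularFunctionFieldBar n)) ∈ B ∧
    FA_S18_I_red A n h y = x}
  mul_mem' := by
    rintro _ _ ⟨y, hy, rfl⟩ ⟨y', hy', rfl⟩
    exact ⟨y * y', B.mul_mem hy hy', map_mul _ _ _⟩
  one_mem' := ⟨1, B.one_mem, map_one _⟩
  add_mem' := by
    rintro _ _ ⟨y, hy, rfl⟩ ⟨y', hy', rfl⟩
    exact ⟨y + y', B.add_mem hy hy', map_add _ _ _⟩
  zero_mem' := ⟨0, B.zero_mem, map_zero _⟩
  algebraMap_mem' c := by
    obtain ⟨a, rfl⟩ := IsLocalRing.residue_surjective c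
    exact ⟨algebraMap ↥A ↥(FA_S18_I_O A n) a, B.algebraMap_mem (a : AlgebraicClosure ℚ),
      FA_S18_I_compat A n h a⟩

theorem FA_S18_I_mem_redAlg (h : FA_S18_I_Range A n)
    (B : Subalgebra (AlgebraicClosure ℚ) ↥(modularFunctionFieldBar n))
    {x : ↥(modularFunctionFieldFullC (IsLocalRing.ResidueField ↥A) n)} :
    x ∈ FA_S18_I_redAlg A n h B ↔
      ∃ y : ↥(FA_S18_I_O A n), (y : ↥(modularFunctionFieldBar n)) ∈ B ∧
        FA_S18_I_red A n h y = x := Iff.rfl

end Fermat.Agent.S18
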