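import Fermat.Agent.S18.NCh0Count

/-!
# S18, leaf N, sub-leaf N-CH0 (char 0): `F_n / F_M` is unramified at the finite places

For `L ≥ 2` with `ν₂(L) = ν₃(L) = 0` every place of `F_L = ℚ̄(X₀(L))` over `j = c` has
`ord (j - c) = e_c` (`e_0 = 3`, `e_1728 = 2`, `e_c = 1` otherwise).  Hence for `M ∣ n`, both
without elliptic points, every place of `F_n` at which `j` is finite is unramified over `F_M`.
-/

set_option autoImplicit false
set_option linter.style.haveILetI false

noncomputable section

namespace Fermat.Agent.S24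

open AlgebraicCurve MatrixGroups IntermediateField ModularCurve

/-! ### Numerics -/

theorem FA_S18_NC_nuTwo_of_four_dvd {N : ℕ} (h : 4 ∣ N) : nuTwo N = 0 := by
  unfold nuTwo
  rw [Nat.card_eq_zero]
  left
  constructor
  rintro ⟨x, hx⟩
  have h1 := congrArg (ZMod.castHom h (ZMod 4)) hx
  simp only [map_add, map_pow, map_one, map_zero] at h1
  generalize (ZMod.castHom h (ZMod 4)) x = y at h1
  revert y
  decide

theorem FA_S18_NC_nuTwo_of_three_dvd {N : ℕ} (h : 3 ∣ N) : nuTwo N = 0 := by
  unfold nuTwo
  rw [Nat.card_eq_zero]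
  left
  constructor
  rintro ⟨x, hx⟩
  have h1 := congrArg (ZMod.castHom h (ZMod 3)) hx
  simp only [map_add, map_pow, map_one, map_zero] at h1
  generalize (ZMod.castHom h (ZMod 3)) x = y at h1
  revert y
  decide

theorem FA_S18_NC_nuThree_of_two_dvd {N : ℕ} (h : 2 ∣ N) : nuThree N = 0 := by
  unfold nuThree
  rw [Nat.card_eq_zero]
  left
  constructor
  rintro ⟨x, hx⟩
  have h1 := congrArg (ZMod.castHom h (ZMod 2)) hx
  simp only [map_add, map_pow, map_one, map_zero] at h1
  generalize (ZMod.castHom h (ZMod 2)) x = y at h1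
  revert y
  decide

theorem FA_S18_NC_nuThree_of_nine_dvd {N : ℕ} (h : 9 ∣ N) : nuThree N = 0 := by
  unfold nuThree
  rw [Nat.card_eq_zero]
  left
  constructor
  rintro ⟨x, hx⟩
  have h1 := congrArg (ZMod.castHom h (ZMod 9)) hx
  simp only [map_add, map_pow, map_one, map_zero] at h1
  generalize (ZMod.castHom h (ZMod 9)) x = y at h1
  revert y
  decide

/-- `#orbits(I_c) · e_c = [SL₂(ℤ) : Γ₀(N)]` when there are no elliptic points. -/
theorem FA_S18_NC_orbits_mul {K : Type} [Field K] [CharZero K] (N : ℕ) [NeZero N]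
    (h2 : nuTwo N = 0) (h3 : nuThree N = 0) (c : K) :
    (FA_S24_orbits (FA_S24_IK c) (CongruenceSubgroup.Gamma0 N) : ℤ) * FA_S24_eBound c
      = ((CongruenceSubgroup.Gamma0 N).index : ℤ) := by
  classical
  unfold FA_S24_IK FA_S24_eBound
  by_cases hc0 : c = 0
  · rw [if_pos hc0, if_pos hc0]
    have := FA_S24_B_ST N
    rw [h3] at this
    have h' : (3 * FA_S24_orbits (Subgroup.zpowers (ModularGroup.S * ModularGroup.T))
        (CongruenceSubgroup.Gamma0 N) : ℤ) = ((CongruenceSubgroup.Gamma0 N).index : ℤ) := by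
      exact_mod_cast this
    linarith
  · rw [if_neg hc0, if_neg hc0]
    by_cases hc1 : c = 1728
    · rw [if_pos hc1, if_pos hc1]
      have := FA_S24_B_S N
      rw [h2] at this
      have h' : (2 * FA_S24_orbits (Subgroup.zpowers ModularGroup.S)
          (CongruenceSubgroup.Gamma0 N) : ℤ) = ((CongruenceSubgroup.Gamma0 N).index : ℤ) := by
        exact_mod_cast this
      linarith
    · rw [if_neg hc1, if_neg hc1, FA_S24_orbits_bot, mul_one]

theorem FA_S18_NC_eBound_pos {K : Type} [Field K] (c : K) : 0 < FA_S24_eBound c := by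
  classical
  unfold FA_S24_eBound
  split_ifs <;> norm_num

/-! ### The ramification over `j = c` at a level without elliptic points -/

local notation "Qb" => AlgebraicClosure ℚ

/-- At a level `L ≥ 2` without elliptic points, every place over `j = c` has
`ord (j - c) = e_c`. -/
theorem FA_S18_NC_ord_eq (L : ℕ) [NeZero L] (hL : 2 ≤ L) (h2 : nuTwo L = 0) (h3 : nuThree L = 0)
    (c : Qb) (v : Place Qb (modularFunctionFieldBar L))
    (hv : 0 < v.ord (FA_S18_NC_jBar L - algebraMap Qb (modularFunctionFieldBar L) c)) :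
    v.ord (FA_S18_NC_jBar L - algebraMap Qb (modularFunctionFieldBar L) c) = FA_S24_eBound c :=
  FA_S18_NC_ord_eq_of_model (FA_S18_NC_model L hL) c (FA_S18_NC_orbits_mul L h2 h3 c) v hv

theorem FA_S18_NC_isFF (L : ℕ) [NeZero L] (hL : 2 ≤ L) :
    FA_RR_IsFF Qb (modularFunctionFieldBar L) :=
  (FA_S18_NC_finrank_of_model (FA_S18_NC_model L hL)).1

theorem FA_S18_NC_finrank (L : ℕ) [NeZero L] (hL : 2 ≤ L) :
    Module.finrank (IntermediateField.adjoin Qb {FA_S18_NC_jBar L}) (modularFunctionFieldBar L)
      = dedekindPsi L := by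
  rw [(FA_S18_NC_finrank_of_model (FA_S18_NC_model L hL)).2, FA_S24_B_index L]

theorem FA_S18_NC_transcendental (L : ℕ) [NeZero L] (hL : 2 ≤ L) :
    Transcendental Qb (FA_S18_NC_jBar L) := by
  obtain ⟨E, _, _, _, _, φ, hfin, hx, -⟩ := FA_S18_NC_model L hL
  exact hx

/-! ### Two levels -/

/-- Generic: `E ≤ F` intermediate fields of `Ω/K`, `x ∈ E`, `F` finite over `K(x)`:
then `F` is finite over `E`. -/
theorem FA_S18_NC_finite_of_le {K Ω : Type*} [Field K] [Field Ω] [Algebra K Ω]
    {E F : IntermediateField K Ω} (h : E ≤ F) (x : E)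
    [FiniteDimensional (IntermediateField.adjoin K {IntermediateField.inclusion h x}) F] :
    letI : Algebra E F := (IntermediateField.inclusion h).toRingHom.toAlgebra
    Module.Finite E F := by
  letI : Algebra E F := (IntermediateField.inclusion h).toRingHom.toAlgebra
  have hmem : ∀ z : IntermediateField.adjoin K {IntermediateField.inclusion h x},
      ((z : F) : Ω) ∈ E := by
    intro z
    have h1 : ((z : F) : Ω) ∈ (IntermediateField.adjoin K
        {IntermediateField.inclusion h x}).map F.val := ⟨z.1, z.2, rfl⟩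
    rw [IntermediateField.adjoin_map] at h1
    have h2 : IntermediateField.adjoin K (F.val '' {IntermediateField.inclusion h x}) ≤ E := by
      rw [IntermediateField.adjoin_le_iff]
      rintro _ ⟨_, rfl, rfl⟩
      exact x.2
    exact h2 h1
  let φ : IntermediateField.adjoin K {IntermediateField.inclusion h x} →+* E :=
    RingHom.codRestrict ((F.val.toRingHom).comp
      (IntermediateField.adjoin K {IntermediateField.inclusion h x}).val.toRingHom) E hmem
  letI : Algebra (IntermediateField.adjoin K {IntermediateField.inclusion h x}) E := φ.toAlgebra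
  haveI : IsScalarTower (IntermediateField.adjoin K {IntermediateField.inclusion h x}) E F :=
    IsScalarTower.of_algebraMap_eq fun z => rfl
  exact Module.Finite.of_restrictScalars_finite
    (IntermediateField.adjoin K {IntermediateField.inclusion h x}) E F

theorem FA_S18_NC_bar_le {M n : ℕ} [NeZero M] [NeZero n] (h : M ∣ n) :
    modularFunctionFieldBar M ≤ modularFunctionFieldBar n := by
  rw [FA_S24_BC M, FA_S24_BC n]
  apply IntermediateField.adjoin.mono
  rintro x ⟨d, hd, hdM, rfl⟩
  exact ⟨d, hd, hdM.trans h, rfl⟩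

/-- `F_n` is finite over `F_M` for `M ∣ n`, `M ≥ 2`. -/
theorem FA_S18_NC_finite_bar {M n : ℕ} [NeZero M] [NeZero n] (hMn : M ∣ n) (hM : 2 ≤ M) :
    letI : Algebra (modularFunctionFieldBar M) (modularFunctionFieldBar n) :=
      (IntermediateField.inclusion (FA_S18_NC_bar_le hMn)).toRingHom.toAlgebra
    Module.Finite (modularFunctionFieldBar M) (modularFunctionFieldBar n) := by
  have hn : 2 ≤ n := le_trans hM (Nat.le_of_dvd (Nat.pos_of_ne_zero (NeZero.ne n)) hMn)
  haveI : FiniteDimensional (IntermediateField.adjoin Qb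
      {IntermediateField.inclusion (FA_S18_NC_bar_le hMn) (FA_S18_NC_jBar M)})
      (modularFunctionFieldBar n) :=
    FA_RR.finiteDimensional_adjoin (FA_S18_NC_isFF n hn) (FA_S18_NC_transcendental n hn)
  exact FA_S18_NC_finite_of_le (FA_S18_NC_bar_le hMn) (FA_S18_NC_jBar M)

/-- **N-CH0, place form.**  `M ∣ n`, both levels `≥ 2` and without elliptic points: every place
of `F_n` at which `j` is finite is unramified over `F_M`. -/
theorem FA_S18_NC_unram (M n : ℕ) [NeZero M] [NeZero n] (hMn : M ∣ n) (hM : 2 ≤ M)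
    (h2M : nuTwo M = 0) (h3M : nuThree M = 0) (h2n : nuTwo n = 0) (h3n : nuThree n = 0) :
    letI : Algebra (modularFunctionFieldBar M) (modularFunctionFieldBar n) :=
      (IntermediateField.inclusion (FA_S18_NC_bar_le hMn)).toRingHom.toAlgebra
    ∀ w : Place Qb (modularFunctionFieldBar n), 0 ≤ w.ord (FA_S18_NC_jBar n) →
      w.ramificationIndex (modularFunctionFieldBar M) = 1 := by
  letI : Algebra (modularFunctionFieldBar M) (modularFunctionFieldBar n) :=
    (IntermediateField.inclusion (FA_S18_NC_bar_le hMn)).toRingHom.toAlgebra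
  haveI : IsScalarTower Qb (modularFunctionFieldBar M) (modularFunctionFieldBar n) :=
    IsScalarTower.of_algebraMap_eq fun c => rfl
  intro w hw
  have hn : 2 ≤ n := le_trans hM (Nat.le_of_dvd (Nat.pos_of_ne_zero (NeZero.ne n)) hMn)
  have hFn := FA_S18_NC_isFF n hn
  have hFM := FA_S18_NC_isFF M hM
  have hjn := FA_S18_NC_transcendental n hn
  have hjM := FA_S18_NC_transcendental M hM
  -- the value of `j` at `w`
  have hmem : w.adicValuation (FA_S18_NC_jBar n) ≤ 1 := by
    rw [← FA_RR.mem_iff_adicValuation_le_one, FA_RR.mem_iff_ord]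
    exact Or.inr hw
  obtain ⟨c, hc⟩ := FA_RR.residue hFn w (FA_S18_NC_jBar n) hmem
  have hne : FA_S18_NC_jBar n - algebraMap Qb (modularFunctionFieldBar n) c ≠ 0 := by
    intro h
    apply hjn
    rw [sub_eq_zero.mp h]
    exact isAlgebraic_algebraMap c
  have hpos : 0 < w.ord (FA_S18_NC_jBar n - algebraMap Qb (modularFunctionFieldBar n) c) := by
    rcases (FA_RR.adicValuation_lt_one_iff w).mp hc with h | h
    · exact absurd h hne
    · exact h
  have hordn := FA_S18_NC_ord_eq n hn h2n h3n c w hpos
  -- compare with level `M`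
  have hmap : algebraMap (modularFunctionFieldBar M) (modularFunctionFieldBar n)
      (FA_S18_NC_jBar M - algebraMap Qb (modularFunctionFieldBar M) c)
      = FA_S18_NC_jBar n - algebraMap Qb (modularFunctionFieldBar n) c := by
    apply Subtype.ext
    rfl
  haveI : FiniteDimensional (modularFunctionFieldBar M) (modularFunctionFieldBar n) :=
    FA_S18_NC_finite_bar hMn hM
  have hres := w.ord_restrict (F := modularFunctionFieldBar M)
    (FA_S18_NC_jBar M - algebraMap Qb (modularFunctionFieldBar M) c)
  rw [hmap, hordn] at hres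
  have hepos := w.ramificationIndex_pos (F := modularFunctionFieldBar M)
  have hvpos : 0 < (w.restrict (modularFunctionFieldBar M)).ord
      (FA_S18_NC_jBar M - algebraMap Qb (modularFunctionFieldBar M) c) := by
    by_contra hneg
    push Not at hneg
    have hb := FA_S18_NC_eBound_pos c
    have : (w.ramificationIndex (modularFunctionFieldBar M) : ℤ) *
        (w.restrict (modularFunctionFieldBar M)).ord
          (FA_S18_NC_jBar M - algebraMap Qb (modularFunctionFieldBar M) c) ≤ 0 :=
      mul_nonpos_of_nonneg_of_nonpos (by positivity) hneg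
    omega
  have hordM := FA_S18_NC_ord_eq M hM h2M h3M c (w.restrict (modularFunctionFieldBar M)) hvpos
  rw [hordM] at hres
  have hb := FA_S18_NC_eBound_pos c
  have h1 : (w.ramificationIndex (modularFunctionFieldBar M) : ℤ) = 1 := by
    have : ((w.ramificationIndex (modularFunctionFieldBar M) : ℤ) - 1) * FA_S24_eBound c = 0 := by
      linarith
    rcases mul_eq_zero.mp this with h | h
    · linarith
    · omega
  exact_mod_cast h1

end Fermat.Agent.S24

end
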