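import Fermat.Agent.S18.Points
import Fermat.Agent.S18.Charts0Inst
import Fermat.Agent.S18.InstDefs
import Fermat.Agent.S18.NCh0Unram
import Fermat.Agent.S24

/-!
# S18, leaf N, sub-leaf BASE(2) = NB2 POINTS (instance at level `M ∈ {4, 9}`)

* `FA_S18_NB_genus_zero` : `genusFF ℚ̄ F_M = 0` for `M = 4, 9` (from S24);
* `FA_S18_Target_NB2 A M` : the statement NB2;
* `FA_S18_NB_points` : NB2 from the scaling property of the Gauss valuation ring;
* `FA_S18_NB_points_of_scale` : NB2 from `FA_S18_Target_B_scale A M ℓ`.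
-/

set_option autoImplicit false
set_option linter.unusedSectionVars false
set_option linter.style.haveILetI false

noncomputable section

namespace Fermat.Agent.S18

open AlgebraicCurve IntermediateField ModularCurve FA_RR

theorem FA_S18_NB_sqf_four : ¬ Squarefree (4 : ℕ) := by
  intro h
  have := h 2 ⟨1, by norm_num⟩
  exact absurd (Nat.isUnit_iff.mp this) (by norm_num)

theorem FA_S18_NB_sqf_nine : ¬ Squarefree (9 : ℕ) := by
  intro h
  have := h 3 ⟨1, by norm_num⟩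
  exact absurd (Nat.isUnit_iff.mp this) (by norm_num)

theorem FA_S18_NB_psi_four : dedekindPsi 4 = 6 := by
  have h : (4 : ℕ).divisors = {1, 2, 4} := by decide
  rw [dedekindPsi, h, Finset.sum_filter]
  rw [Finset.sum_insert (by decide), Finset.sum_insert (by decide), Finset.sum_singleton]
  rw [if_pos squarefree_one, if_pos Nat.prime_two.squarefree, if_neg FA_S18_NB_sqf_four]
  norm_num

theorem FA_S18_NB_psi_nine : dedekindPsi 9 = 12 := by
  have h : (9 : ℕ).divisors = {1, 3, 9} := by decide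
  rw [dedekindPsi, h, Finset.sum_filter]
  rw [Finset.sum_insert (by decide), Finset.sum_insert (by decide), Finset.sum_singleton]
  rw [if_pos squarefree_one, if_pos Nat.prime_three.squarefree, if_neg FA_S18_NB_sqf_nine]
  norm_num

theorem FA_S18_NB_cusp_four : cuspCount 4 = 3 := by decide

theorem FA_S18_NB_cusp_nine : cuspCount 9 = 4 := by decide

theorem FA_S18_NB_genusFormula_four : genusFormula 4 = 0 := by
  unfold genusFormula
  rw [FA_S18_NB_psi_four, FA_S18_NB_cusp_four,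
    Fermat.Agent.S24.FA_S18_NC_nuTwo_of_four_dvd (dvd_refl 4),
    Fermat.Agent.S24.FA_S18_NC_nuThree_of_two_dvd (⟨2, rfl⟩ : 2 ∣ 4)]
  norm_num

theorem FA_S18_NB_genusFormula_nine : genusFormula 9 = 0 := by
  unfold genusFormula
  rw [FA_S18_NB_psi_nine, FA_S18_NB_cusp_nine,
    Fermat.Agent.S24.FA_S18_NC_nuTwo_of_three_dvd (⟨3, rfl⟩ : 3 ∣ 9),
    Fermat.Agent.S24.FA_S18_NC_nuThree_of_nine_dvd (dvd_refl 9)]
  norm_num

/-- `X₀(4)` and `X₀(9)` have genus `0`. -/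
theorem FA_S18_NB_genus_zero (M : ℕ) [NeZero M] (hM : M = 4 ∨ M = 9) :
    genusFF (AlgebraicClosure ℚ) ↥(modularFunctionFieldBar M) = 0 := by
  haveI := FA_RR.Main.hasCanonicalDivisor (FA_S18_A_isFF M)
  have h1 := Fermat.Agent.S24.result M
  rw [FA_RR.Main.genus_eq_genusFF (FA_S18_A_isFF M)] at h1
  rcases hM with rfl | rfl
  · rw [FA_S18_NB_genusFormula_four] at h1
    exact_mod_cast h1
  · rw [FA_S18_NB_genusFormula_nine] at h1
    exact_mod_cast h1

/-- **NB2 (POINTS)**: every nonzero `g` in the finite chart `B_M` is `u * ∏ w` with `u ∈ B_M^×`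
and every `w` a good generator: `w ∈ B_M`, `w ∈ O_M^×`, `B_M = ℚ̄ + w B_M`. -/
def FA_S18_Target_NB2 (A : ValuationSubring (AlgebraicClosure ℚ)) (M : ℕ) [NeZero M] : Prop :=
  ∀ g ∈ FA_S18_H2_Bf M, g ≠ 0 →
    ∃ (u : ↥(modularFunctionFieldBar M)) (ws : List ↥(modularFunctionFieldBar M)),
      g = u * ws.prod ∧ u ∈ FA_S18_H2_Bf M ∧ u⁻¹ ∈ FA_S18_H2_Bf M ∧
      ∀ w ∈ ws, w ≠ 0 ∧ w ∈ FA_S18_H2_Bf M ∧ w ∈ FA_S18_I_O A M ∧ w⁻¹ ∈ FA_S18_I_O A M ∧
        ∀ r ∈ FA_S18_H2_Bf M, ∃ c : AlgebraicClosure ℚ, ∃ r' ∈ FA_S18_H2_Bf M,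
          r = algebraMap (AlgebraicClosure ℚ) ↥(modularFunctionFieldBar M) c + w * r'

/-- NB2 from the scaling property (in `F_M`-form). -/
theorem FA_S18_NB_points (A : ValuationSubring (AlgebraicClosure ℚ)) (M : ℕ) [NeZero M]
    (hM : M = 4 ∨ M = 9)
    (hsc : ∀ y : ↥(modularFunctionFieldBar M), y ≠ 0 → ∃ c : AlgebraicClosure ℚ, c ≠ 0 ∧
      algebraMap (AlgebraicClosure ℚ) ↥(modularFunctionFieldBar M) c * y ∈ FA_S18_I_O A M ∧
      (algebraMap (AlgebraicClosure ℚ) ↥(modularFunctionFieldBar M) c * y)⁻¹ ∈ FA_S18_I_O A M) :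
    FA_S18_Target_NB2 A M := by
  intro g hgB hg0
  exact FA_S18_NB_points_gen (FA_S18_A_isFF M) (FA_S18_NB_genus_zero M hM)
    (FA_S18_A_jbar_spec M).1 (FA_S18_I_O A M : Set ↥(modularFunctionFieldBar M)) hsc hgB hg0

/-- The scaling property in `F_M`-form from `FA_S18_Target_B_scale`. -/
theorem FA_S18_NB_scale_of_target (A : ValuationSubring (AlgebraicClosure ℚ)) (M : ℕ) [NeZero M]
    (ℓ : ℕ) (hℓ : ℓ.Prime) (hA : A.LiesOverPrime ℓ) (hM : ¬ ℓ ∣ M)
    (hB : FA_S18_Target_B_scale A M ℓ) (y : ↥(modularFunctionFieldBar M)) (hy : y ≠ 0) :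
    ∃ c : AlgebraicClosure ℚ, c ≠ 0 ∧
      algebraMap (AlgebraicClosure ℚ) ↥(modularFunctionFieldBar M) c * y ∈ FA_S18_I_O A M ∧
      (algebraMap (AlgebraicClosure ℚ) ↥(modularFunctionFieldBar M) c * y)⁻¹ ∈ FA_S18_I_O A M := by
  obtain ⟨c, hc, hint, hred⟩ := hB hℓ hA hM (y : LaurentSeries (AlgebraicClosure ℚ)) y.2
    (fun h => hy (Subtype.ext h))
  refine ⟨c, hc, ?_, ?_⟩
  · rw [FA_S18_I_mem_O]
    exact hint
  · rw [FA_S18_I_mem_O]
    exact (FA_S18_B_isInt_inv hint hred).1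

/-- **NB2** from `FA_S18_Target_B_scale`. -/
theorem FA_S18_NB_points_of_scale (A : ValuationSubring (AlgebraicClosure ℚ)) (M : ℕ) [NeZero M]
    (hM4 : M = 4 ∨ M = 9) (ℓ : ℕ) (hℓ : ℓ.Prime) (hA : A.LiesOverPrime ℓ) (hM : ¬ ℓ ∣ M)
    (hB : FA_S18_Target_B_scale A M ℓ) : FA_S18_Target_NB2 A M :=
  FA_S18_NB_points A M hM4 (FA_S18_NB_scale_of_target A M ℓ hℓ hA hM hB)

end Fermat.Agent.S18

end
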