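import Fermat.Agent.S18.BaseAbs
import Fermat.Agent.S18.BaseCoe
import Fermat.Agent.S18.InstB
import Fermat.Agent.S18.Charts0Dim
import Fermat.Agent.S18.GaussInst
import Fermat.Agent.S18.GaussDeg
import Fermat.Agent.S18.GaussCartInst
import Fermat.Agent.S18.PointsInst

/-!
# S18, leaf N, sub-leaf BASE, (NB1): normality of the reduction at a level of genus `0`

`M` a level with `genusFF ℚ̄ F_M = 0` (`M = 4, 9`), `ℓ ∤ M`.  Then every element of `F̄_M` which is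
integral over `k[j̄]` is the reduction of an element of `O` which is integral over `ℚ̄[j]`
(and the same for `1/j`).

Proof: `W_b = {y | y ∈ Bf, y j⁻ᵇ ∈ Bi}` has dimension `b ψ + 1` (Riemann–Roch, genus `0`), its unit
ball reduces onto a `k`-space of the same dimension (B4) inside
`V_b = {x | x ∈ B̄f, x j̄⁻ᵇ ∈ B̄i}` (B3), which has dimension `≤ b ψ + 1` (elementary bound).
-/

set_option autoImplicit false
set_option linter.unusedSectionVars false
set_option linter.style.haveILetI false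

noncomputable section

namespace Fermat.Agent.S18

open ModularCurve AlgebraicCurve FA_S18 IsLocalRing Polynomial

variable (A : ValuationSubring (AlgebraicClosure ℚ)) (M : ℕ) [NeZero M]

set_option synthInstance.maxHeartbeats 400000 in
/-- shortcut instance (the search is slow with all the imports) -/
local instance (priority := 2000) FA_S18_BASE_alg :
    Algebra (IsLocalRing.ResidueField ↥A)
      ↥(modularFunctionFieldFullC (IsLocalRing.ResidueField ↥A) M) := inferInstance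

/-- `[F̄_M : k(x̄)] ≤ ψ(M)` in polynomial form, for `x̄ = j̄` or `j̄⁻¹`. -/
def FA_S18_Target_BASE_rank
    (x : ↥(modularFunctionFieldFullC (IsLocalRing.ResidueField ↥A) M)) : Prop :=
  ∀ y : Fin (dedekindPsi M + 1) → ↥(modularFunctionFieldFullC (IsLocalRing.ResidueField ↥A) M),
    ∃ P : Fin (dedekindPsi M + 1) → (IsLocalRing.ResidueField ↥A)[X], (∃ i, P i ≠ 0) ∧
      ∑ i, aeval x (P i) * y i = 0

/-- `j̄ = red j` -/
abbrev FA_S18_BASE_jb (h : FA_S18_I_Range A M) :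
    ↥(modularFunctionFieldFullC (IsLocalRing.ResidueField ↥A) M) :=
  FA_S18_I_red A M h (FA_S18_I_j A M)

theorem FA_S18_BASE_jb_ne (h : FA_S18_I_Range A M) : FA_S18_BASE_jb A M h ≠ 0 := by
  intro h0
  have := congrArg Subtype.val h0
  rw [FA_S18_I_red_j_coe] at this
  exact jqModC_ne_zero_of_nontrivial _ this

/-- B3 in subtype form, finite chart. -/
theorem FA_S18_BASE_into_fin {ℓ : ℕ} (hℓ : ℓ.Prime) (hA : A.LiesOverPrime ℓ) (hM : ¬ ℓ ∣ M)
    (h : FA_S18_I_Range A M) (hint : FA_S18_Target_B_integral A M ℓ)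
    (y : ↥(FA_S18_I_O A M)) (hy : (y : ↥(modularFunctionFieldBar M)) ∈ FA_S18_H2_Bf M) :
    FA_S18_I_red A M h y ∈ FA_S18_H2_icl (IsLocalRing.ResidueField ↥A) (FA_S18_BASE_jb A M h) := by
  rw [FA_S18_H2_mem_icl, FA_S18_BASE_isIntegral_coe_iff_singleton, FA_S18_I_red_j_coe,
    FA_S18_I_red_coe]
  have hy' : IsIntegral (Algebra.adjoin (AlgebraicClosure ℚ) {FA_S18_A_jbar M})
      (y : ↥(modularFunctionFieldBar M)) := hy
  rw [FA_S18_BASE_isIntegral_coe_iff_singleton, FA_S18_I_jbar_coe] at hy'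
  exact (hint hℓ hA hM _ (y : ↥(modularFunctionFieldBar M)).2 y.2).1 hy'

/-- B3 in subtype form, chart at infinity. -/
theorem FA_S18_BASE_into_inf {ℓ : ℕ} (hℓ : ℓ.Prime) (hA : A.LiesOverPrime ℓ) (hM : ¬ ℓ ∣ M)
    (h : FA_S18_I_Range A M) (hint : FA_S18_Target_B_integral A M ℓ)
    (y : ↥(FA_S18_I_O A M)) (hy : (y : ↥(modularFunctionFieldBar M)) ∈ FA_S18_H2_Bi M) :
    FA_S18_I_red A M h y
      ∈ FA_S18_H2_icl (IsLocalRing.ResidueField ↥A) (FA_S18_BASE_jb A M h)⁻¹ := by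
  rw [FA_S18_H2_mem_icl, FA_S18_BASE_isIntegral_coe_iff_singleton]
  have e1 : (((FA_S18_BASE_jb A M h)⁻¹ :
      ↥(modularFunctionFieldFullC (IsLocalRing.ResidueField ↥A) M)) :
      LaurentSeries (IsLocalRing.ResidueField ↥A))
      = (jqModC (IsLocalRing.ResidueField ↥A))⁻¹ := by
    rw [← FA_S18_I_red_j_coe A M h]
    rfl
  rw [e1, FA_S18_I_red_coe]
  have hy' : IsIntegral (Algebra.adjoin (AlgebraicClosure ℚ) {(FA_S18_A_jbar M)⁻¹})
      (y : ↥(modularFunctionFieldBar M)) := hy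
  rw [FA_S18_BASE_isIntegral_coe_iff_singleton] at hy'
  have e2 : (((FA_S18_A_jbar M)⁻¹ : ↥(modularFunctionFieldBar M)) :
      LaurentSeries (AlgebraicClosure ℚ)) = (jqModC (AlgebraicClosure ℚ))⁻¹ := by
    rw [← FA_S18_I_jbar_coe M]
    rfl
  rw [e2] at hy'
  exact (hint hℓ hA hM _ (y : ↥(modularFunctionFieldBar M)).2 y.2).2.1 hy'


theorem FA_S18_BASE_jb_transc (h : FA_S18_I_Range A M) :
    Transcendental (IsLocalRing.ResidueField ↥A) (FA_S18_BASE_jb A M h) := by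
  intro halg
  have h2 := halg.algHom (modularFunctionFieldFullC (IsLocalRing.ResidueField ↥A) M).val
  have e : (modularFunctionFieldFullC (IsLocalRing.ResidueField ↥A) M).val (FA_S18_BASE_jb A M h)
      = jqModC (IsLocalRing.ResidueField ↥A) := FA_S18_I_red_j_coe A M h
  rw [e] at h2
  exact P2MW.S_ModularCurve_coeff_jqModC_pow_of_lt.ModularCurve.CharLRows.transcendental_jqModC
    (IsLocalRing.ResidueField ↥A) h2

/-- `B̄f ∩ B̄i = k`. -/
theorem FA_S18_BASE_const (h : FA_S18_I_Range A M)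
    (x : ↥(modularFunctionFieldFullC (IsLocalRing.ResidueField ↥A) M))
    (h1 : x ∈ FA_S18_H2_icl (IsLocalRing.ResidueField ↥A) (FA_S18_BASE_jb A M h))
    (h2 : x ∈ FA_S18_H2_icl (IsLocalRing.ResidueField ↥A) (FA_S18_BASE_jb A M h)⁻¹) :
    ∃ c : IsLocalRing.ResidueField ↥A, x = algebraMap _ _ c := by
  haveI := FA_S18_B_resField_isAlgClosed A
  obtain ⟨c, hc⟩ := FA_S18_C.sep_const_of_integral (FA_S18_BASE_jb_transc A M h) h1 h2
  exact ⟨c, hc.symm⟩


/-- `[F̄_M : k(j̄)] ≤ ψ(M)` (from leaf B, `FA_S18_B_deg_le`). -/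
theorem FA_S18_BASE_rank_j {ℓ : ℕ} (hℓ : ℓ.Prime) (hA : A.LiesOverPrime ℓ) (hM : ¬ ℓ ∣ M)
    (h : FA_S18_I_Range A M) : FA_S18_Target_BASE_rank A M (FA_S18_BASE_jb A M h) := by
  intro y
  obtain ⟨P, hP, hsum⟩ := FA_S18_B_deg_le A M ℓ hℓ hA hM
    (fun l => ((y l : ↥(modularFunctionFieldFullC (IsLocalRing.ResidueField ↥A) M)) :
      LaurentSeries (IsLocalRing.ResidueField ↥A))) (fun l => (y l).2)
  refine ⟨P, hP, ?_⟩
  apply Subtype.ext
  rw [FA_S18_I_coe_sum_bar]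
  simp only [ZeroMemClass.coe_zero]
  rw [← hsum]
  refine Finset.sum_congr rfl fun l _ => ?_
  have e : ((aeval (FA_S18_BASE_jb A M h) (P l) :
      ↥(modularFunctionFieldFullC (IsLocalRing.ResidueField ↥A) M)) :
      LaurentSeries (IsLocalRing.ResidueField ↥A))
      = FA_S18_B_ev (jqModC (IsLocalRing.ResidueField ↥A)) (P l) := by
    rw [← FA_S18_B_aeval_eq_ev, ← FA_S18_I_red_j_coe A M h]
    exact (Polynomial.aeval_algHom_apply
      (modularFunctionFieldFullC (IsLocalRing.ResidueField ↥A) M).val _ _).symm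
  rw [← e]
  rfl

/-- `[F̄_M : k(j̄⁻¹)] ≤ ψ(M)`. -/
theorem FA_S18_BASE_rank_jinv {ℓ : ℕ} (hℓ : ℓ.Prime) (hA : A.LiesOverPrime ℓ) (hM : ¬ ℓ ∣ M)
    (h : FA_S18_I_Range A M) : FA_S18_Target_BASE_rank A M (FA_S18_BASE_jb A M h)⁻¹ := by
  intro y
  obtain ⟨P, hP, hsum⟩ := FA_S18_BASE_rank_j A M hℓ hA hM h y
  exact FA_S18_BASE_rank_reflect _ (FA_S18_BASE_jb_ne A M h) y P hP hsum


set_option synthInstance.maxHeartbeats 400000 in
set_option maxHeartbeats 1000000 in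
/-- **(NB1), finite chart.**  At a level `M` of genus `0` with `ℓ ∤ M`: every element of `F̄_M`
integral over `k[j̄]` is the reduction of an element of `O` integral over `ℚ̄[j]`. -/
theorem FA_S18_BASE_lift_fin {ℓ : ℕ} (hℓ : ℓ.Prime) (hA : A.LiesOverPrime ℓ) (hM : ¬ ℓ ∣ M)
    (h : FA_S18_I_Range A M) (hint : FA_S18_Target_B_integral A M ℓ)
    (hg : genusFF (AlgebraicClosure ℚ) ↥(modularFunctionFieldBar M) = 0)
    (x : ↥(modularFunctionFieldFullC (IsLocalRing.ResidueField ↥A) M))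
    (hx : x ∈ FA_S18_H2_icl (IsLocalRing.ResidueField ↥A) (FA_S18_BASE_jb A M h)) :
    x ∈ FA_S18_I_redAlg A M h (FA_S18_H2_Bf M) := by
  have hcart : FA_S18_Target_B_cart A M ℓ := FA_S18_B4_cart_inst A M ℓ
  have hjb := FA_S18_BASE_jb_ne A M h
  -- (1) the pole order of `x`
  obtain ⟨b, -, hb⟩ := FA_S18_H2_mid_bound (K := IsLocalRing.ResidueField ↥A) hjb
    (FA_S18_H2_icl_le_mid (K := IsLocalRing.ResidueField ↥A) (FA_S18_BASE_jb A M h) hx)
  have hxV : x ∈ FA_S18_BASE_V (FA_S18_H2_icl (IsLocalRing.ResidueField ↥A) (FA_S18_BASE_jb A M h))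
      (FA_S18_H2_icl (IsLocalRing.ResidueField ↥A) (FA_S18_BASE_jb A M h)⁻¹)
      (FA_S18_BASE_jb A M h)⁻¹ b := ⟨hx, hb⟩
  -- (2) the Riemann–Roch space in characteristic zero
  have hp1 : 0 < 1 := Nat.one_pos
  have hf1 : (1 : ↥(modularFunctionFieldBar M)) ≠ 0 := one_ne_zero
  have hdiv : ∀ v : Place (AlgebraicClosure ℚ) ↥(modularFunctionFieldBar M),
      ((1 : ℕ) : ℤ) ∣ v.ord (1 : ↥(modularFunctionFieldBar M)) := fun v => by
    rw [Nat.cast_one]; exact one_dvd _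
  obtain ⟨-, hfin, hdim⟩ := FA_S18_H2_W_spec (n := M) hp1 hf1 hdiv 0 b
  have hψ := FA_S18_H2_psi_pos M
  have hdim' : Module.finrank (AlgebraicClosure ℚ) (FA_S18_H2_W M 1 1 0 b)
      = b * dedekindPsi M + 1 := by
    have h1 := hdim (by
      rw [hg]
      have h3 : (0 : ℤ) ≤ (((0 : ℕ) : ℤ) + (b : ℤ)) * dedekindPsi M := by positivity
      have h0 : ((0 : ℕ) : ℤ) = 0 := Nat.cast_zero
      linarith)
    rw [hg] at h1
    simp only [Nat.cast_zero, zero_add, sub_zero] at h1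
    exact_mod_cast h1
  have hWmem := fun y => FA_S18_H2_W_mem (n := M) hp1 hf1 hdiv 0 b y
  -- (3) the reduction of its unit ball
  have hc := (FA_S18_I_cart A M hℓ hA hM h hcart (FA_S18_H2_W M 1 1 0 b) hfin).2
  rw [hdim'] at hc
  -- (4) it lies in `V b`
  have hle : FA_S18_E_redImage (kk := IsLocalRing.ResidueField ↥A) (FA_S18_I_O A M)
      (FA_S18_I_red A M h) (FA_S18_E_ball (FA_S18_I_O A M) (FA_S18_H2_W M 1 1 0 b))
      ≤ FA_S18_BASE_V (FA_S18_H2_icl (IsLocalRing.ResidueField ↥A) (FA_S18_BASE_jb A M h))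
        (FA_S18_H2_icl (IsLocalRing.ResidueField ↥A) (FA_S18_BASE_jb A M h)⁻¹)
        (FA_S18_BASE_jb A M h)⁻¹ b := by
    apply Submodule.span_le.mpr
    rintro _ ⟨y, hy, rfl⟩
    have hyW := (FA_S18_E_mem_ball.mp hy).1
    obtain ⟨h1, h2⟩ := (hWmem _).1 hyW
    simp only [pow_one, pow_zero, mul_one, one_mul] at h1 h2
    refine ⟨FA_S18_BASE_into_fin A M hℓ hA hM h hint y h1, ?_⟩
    have e : FA_S18_I_red A M h y * (FA_S18_BASE_jb A M h)⁻¹ ^ b
        = FA_S18_I_red A M h (y * FA_S18_I_jinv A M ^ b) := by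
      rw [map_mul, map_pow, FA_S18_I_red_jinv]
    show FA_S18_I_red A M h y * (FA_S18_BASE_jb A M h)⁻¹ ^ b ∈ _
    rw [e]
    exact FA_S18_BASE_into_inf A M hℓ hA hM h hint _ h2
  -- (5), (6) the elementary bound gives equality
  have heq := FA_S18_BASE_eq_V
    (FA_S18_H2_icl (IsLocalRing.ResidueField ↥A) (FA_S18_BASE_jb A M h))
    (FA_S18_H2_icl (IsLocalRing.ResidueField ↥A) (FA_S18_BASE_jb A M h)⁻¹)
    (FA_S18_BASE_jb A M h)⁻¹ (inv_ne_zero hjb) (FA_S18_H2_self_mem _)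
    (FA_S18_BASE_const A M h) (dedekindPsi M) (FA_S18_BASE_rank_jinv A M hℓ hA hM h) b _ hle hc
  rw [← heq] at hxV
  obtain ⟨y, hy, hyx⟩ := (FA_S18_E_mem_redImage (FA_S18_I_res_surj A)
    (FA_S18_I_compat A M h) _).1 hxV
  have hyW := (FA_S18_E_mem_ball.mp hy).1
  obtain ⟨h1, -⟩ := (hWmem _).1 hyW
  simp only [pow_one, pow_zero, mul_one] at h1
  exact ⟨y, h1, hyx⟩


set_option synthInstance.maxHeartbeats 400000 in
set_option maxHeartbeats 1000000 in
/-- **(NB1), chart at infinity.**  At a level `M` of genus `0` with `ℓ ∤ M`: every element of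
`F̄_M` integral over `k[j̄⁻¹]` is the reduction of an element of `O` integral over `ℚ̄[j⁻¹]`. -/
theorem FA_S18_BASE_lift_inf {ℓ : ℕ} (hℓ : ℓ.Prime) (hA : A.LiesOverPrime ℓ) (hM : ¬ ℓ ∣ M)
    (h : FA_S18_I_Range A M) (hint : FA_S18_Target_B_integral A M ℓ)
    (hg : genusFF (AlgebraicClosure ℚ) ↥(modularFunctionFieldBar M) = 0)
    (x : ↥(modularFunctionFieldFullC (IsLocalRing.ResidueField ↥A) M))
    (hx : x ∈ FA_S18_H2_icl (IsLocalRing.ResidueField ↥A) (FA_S18_BASE_jb A M h)⁻¹) :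
    x ∈ FA_S18_I_redAlg A M h (FA_S18_H2_Bi M) := by
  have hcart : FA_S18_Target_B_cart A M ℓ := FA_S18_B4_cart_inst A M ℓ
  have hjb := FA_S18_BASE_jb_ne A M h
  -- (1) the pole order of `x`
  obtain ⟨a, -, ha⟩ := FA_S18_H2_mid_bound (K := IsLocalRing.ResidueField ↥A) (inv_ne_zero hjb)
    (FA_S18_H2_icl_le_mid (K := IsLocalRing.ResidueField ↥A) (FA_S18_BASE_jb A M h)⁻¹ hx)
  rw [inv_inv] at ha
  have hxV : x ∈ FA_S18_BASE_V
      (FA_S18_H2_icl (IsLocalRing.ResidueField ↥A) (FA_S18_BASE_jb A M h)⁻¹)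
      (FA_S18_H2_icl (IsLocalRing.ResidueField ↥A) (FA_S18_BASE_jb A M h))
      (FA_S18_BASE_jb A M h) a := ⟨hx, ha⟩
  -- (2) the Riemann–Roch space in characteristic zero
  have hp1 : 0 < 1 := Nat.one_pos
  have hf1 : (1 : ↥(modularFunctionFieldBar M)) ≠ 0 := one_ne_zero
  have hdiv : ∀ v : Place (AlgebraicClosure ℚ) ↥(modularFunctionFieldBar M),
      ((1 : ℕ) : ℤ) ∣ v.ord (1 : ↥(modularFunctionFieldBar M)) := fun v => by
    rw [Nat.cast_one]; exact one_dvd _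
  obtain ⟨W, hW, hfin, hdim⟩ := FA_S18_C0_main M 1 hp1 1 hf1 hdiv 0 a 0
  have hdim' : Module.finrank (AlgebraicClosure ℚ) W = a * dedekindPsi M + 1 := by
    have h1 := hdim (by
      rw [hg]
      have h3 : (0 : ℤ) ≤ ((a : ℤ) + ((0 : ℕ) : ℤ)) * dedekindPsi M := by positivity
      have h0 : ((0 : ℕ) : ℤ) = 0 := Nat.cast_zero
      linarith)
    rw [hg] at h1
    simp only [Nat.cast_zero, add_zero, sub_zero] at h1
    exact_mod_cast h1
  have hWmem : ∀ y : ↥(modularFunctionFieldBar M), y ∈ W →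
      y * FA_S18_A_jbar M ^ a ∈ FA_S18_H2_Bf M ∧ y ∈ FA_S18_H2_Bi M := by
    intro y hy
    have h1 : y ∈ (W : Set ↥(modularFunctionFieldBar M)) := hy
    rw [hW] at h1
    obtain ⟨h2, h3⟩ := h1
    simp only [pow_one, pow_zero, mul_one, one_mul, mul_zero] at h2 h3
    exact ⟨h2, h3⟩
  -- (3) the reduction of its unit ball
  have hc := (FA_S18_I_cart A M hℓ hA hM h hcart W hfin).2
  rw [hdim'] at hc
  -- (4) it lies in `V a`
  have hle : FA_S18_E_redImage (kk := IsLocalRing.ResidueField ↥A) (FA_S18_I_O A M)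
      (FA_S18_I_red A M h) (FA_S18_E_ball (FA_S18_I_O A M) W)
      ≤ FA_S18_BASE_V (FA_S18_H2_icl (IsLocalRing.ResidueField ↥A) (FA_S18_BASE_jb A M h)⁻¹)
        (FA_S18_H2_icl (IsLocalRing.ResidueField ↥A) (FA_S18_BASE_jb A M h))
        (FA_S18_BASE_jb A M h) a := by
    apply Submodule.span_le.mpr
    rintro _ ⟨y, hy, rfl⟩
    have hyW := (FA_S18_E_mem_ball.mp hy).1
    obtain ⟨h1, h2⟩ := hWmem _ hyW
    refine ⟨FA_S18_BASE_into_inf A M hℓ hA hM h hint y h2, ?_⟩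
    have e : FA_S18_I_red A M h y * (FA_S18_BASE_jb A M h) ^ a
        = FA_S18_I_red A M h (y * FA_S18_I_j A M ^ a) := by
      rw [map_mul, map_pow]
    show FA_S18_I_red A M h y * (FA_S18_BASE_jb A M h) ^ a ∈ _
    rw [e]
    exact FA_S18_BASE_into_fin A M hℓ hA hM h hint _ h1
  -- (5), (6) the elementary bound gives equality
  have heq := FA_S18_BASE_eq_V
    (FA_S18_H2_icl (IsLocalRing.ResidueField ↥A) (FA_S18_BASE_jb A M h)⁻¹)
    (FA_S18_H2_icl (IsLocalRing.ResidueField ↥A) (FA_S18_BASE_jb A M h))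
    (FA_S18_BASE_jb A M h) hjb (FA_S18_H2_self_mem _)
    (fun x h1 h2 => FA_S18_BASE_const A M h x h2 h1) (dedekindPsi M)
    (FA_S18_BASE_rank_j A M hℓ hA hM h) a _ hle hc
  rw [← heq] at hxV
  obtain ⟨y, hy, hyx⟩ := (FA_S18_E_mem_redImage (FA_S18_I_res_surj A)
    (FA_S18_I_compat A M h) _).1 hxV
  have hyW := (FA_S18_E_mem_ball.mp hy).1
  obtain ⟨-, h2⟩ := hWmem _ hyW
  exact ⟨y, h2, hyx⟩

/-- **(NB1)** at `M = 4, 9`, with the targets of leaf B as the only hypotheses. -/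
theorem FA_S18_BASE_NB1 {ℓ : ℕ} (hℓ : ℓ.Prime) (hA : A.LiesOverPrime ℓ) (hM : ¬ ℓ ∣ M)
    (hM49 : M = 4 ∨ M = 9) (hint : FA_S18_Target_B_integral A M ℓ) :
    ∃ h : FA_S18_I_Range A M,
      (∀ x : ↥(modularFunctionFieldFullC (IsLocalRing.ResidueField ↥A) M),
        x ∈ FA_S18_H2_icl (IsLocalRing.ResidueField ↥A) (FA_S18_BASE_jb A M h) →
        x ∈ FA_S18_I_redAlg A M h (FA_S18_H2_Bf M)) ∧
      (∀ x : ↥(modularFunctionFieldFullC (IsLocalRing.ResidueField ↥A) M),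
        x ∈ FA_S18_H2_icl (IsLocalRing.ResidueField ↥A) (FA_S18_BASE_jb A M h)⁻¹ →
        x ∈ FA_S18_I_redAlg A M h (FA_S18_H2_Bi M)) := by
  have h : FA_S18_I_Range A M := (FA_S18_B_range_inst A M ℓ hℓ hA hM).1
  have hg := FA_S18_NB_genus_zero M hM49
  exact ⟨h, fun x hx => FA_S18_BASE_lift_fin A M hℓ hA hM h hint hg x hx,
    fun x hx => FA_S18_BASE_lift_inf A M hℓ hA hM h hint hg x hx⟩


set_option synthInstance.maxHeartbeats 400000 in
/-- **(NB1)** in Laurent-series form (finite chart). -/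
theorem FA_S18_BASE_NB1_laurent {ℓ : ℕ} (hℓ : ℓ.Prime) (hA : A.LiesOverPrime ℓ) (hM : ¬ ℓ ∣ M)
    (hM49 : M = 4 ∨ M = 9) (hint : FA_S18_Target_B_integral A M ℓ)
    (z : LaurentSeries (IsLocalRing.ResidueField ↥A))
    (hz : z ∈ modularFunctionFieldFullC (IsLocalRing.ResidueField ↥A) M)
    (hzi : IsIntegral ↥(Algebra.adjoin (IsLocalRing.ResidueField ↥A)
      {jqModC (IsLocalRing.ResidueField ↥A)}) z) :
    ∃ y ∈ modularFunctionFieldBar M, FA_S18_B_IsInt A (FA_S18_pi A) y ∧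
      IsIntegral ↥(Algebra.adjoin (AlgebraicClosure ℚ) {jqModC (AlgebraicClosure ℚ)}) y ∧
      FA_S18_B_red A (FA_S18_pi A) y = z := by
  obtain ⟨h, hfin, -⟩ := FA_S18_BASE_NB1 A M hℓ hA hM hM49 hint
  have hx : (⟨z, hz⟩ : ↥(modularFunctionFieldFullC (IsLocalRing.ResidueField ↥A) M))
      ∈ FA_S18_H2_icl (IsLocalRing.ResidueField ↥A) (FA_S18_BASE_jb A M h) := by
    rw [FA_S18_H2_mem_icl, FA_S18_BASE_isIntegral_coe_iff_singleton, FA_S18_I_red_j_coe]
    exact hzi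
  obtain ⟨y, hy, hyx⟩ := hfin _ hx
  refine ⟨((y : ↥(modularFunctionFieldBar M)) : LaurentSeries (AlgebraicClosure ℚ)),
    (y : ↥(modularFunctionFieldBar M)).2, y.2, ?_, ?_⟩
  · have hy' : IsIntegral (Algebra.adjoin (AlgebraicClosure ℚ) {FA_S18_A_jbar M})
        (y : ↥(modularFunctionFieldBar M)) := hy
    rw [FA_S18_BASE_isIntegral_coe_iff_singleton, FA_S18_I_jbar_coe] at hy'
    exact hy'
  · have := congrArg Subtype.val hyx
    exact this

set_option synthInstance.maxHeartbeats 400000 in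
/-- **(NB1)** in Laurent-series form (chart at infinity). -/
theorem FA_S18_BASE_NB1_laurent_inf {ℓ : ℕ} (hℓ : ℓ.Prime) (hA : A.LiesOverPrime ℓ)
    (hM : ¬ ℓ ∣ M) (hM49 : M = 4 ∨ M = 9) (hint : FA_S18_Target_B_integral A M ℓ)
    (z : LaurentSeries (IsLocalRing.ResidueField ↥A))
    (hz : z ∈ modularFunctionFieldFullC (IsLocalRing.ResidueField ↥A) M)
    (hzi : IsIntegral ↥(Algebra.adjoin (IsLocalRing.ResidueField ↥A)
      {(jqModC (IsLocalRing.ResidueField ↥A))⁻¹}) z) :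
    ∃ y ∈ modularFunctionFieldBar M, FA_S18_B_IsInt A (FA_S18_pi A) y ∧
      IsIntegral ↥(Algebra.adjoin (AlgebraicClosure ℚ) {(jqModC (AlgebraicClosure ℚ))⁻¹}) y ∧
      FA_S18_B_red A (FA_S18_pi A) y = z := by
  obtain ⟨h, -, hinf⟩ := FA_S18_BASE_NB1 A M hℓ hA hM hM49 hint
  have e1 : (((FA_S18_BASE_jb A M h)⁻¹ :
      ↥(modularFunctionFieldFullC (IsLocalRing.ResidueField ↥A) M)) :
      LaurentSeries (IsLocalRing.ResidueField ↥A))
      = (jqModC (IsLocalRing.ResidueField ↥A))⁻¹ := by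
    rw [← FA_S18_I_red_j_coe A M h]
    rfl
  have hx : (⟨z, hz⟩ : ↥(modularFunctionFieldFullC (IsLocalRing.ResidueField ↥A) M))
      ∈ FA_S18_H2_icl (IsLocalRing.ResidueField ↥A) (FA_S18_BASE_jb A M h)⁻¹ := by
    rw [FA_S18_H2_mem_icl, FA_S18_BASE_isIntegral_coe_iff_singleton, e1]
    exact hzi
  obtain ⟨y, hy, hyx⟩ := hinf _ hx
  refine ⟨((y : ↥(modularFunctionFieldBar M)) : LaurentSeries (AlgebraicClosure ℚ)),
    (y : ↥(modularFunctionFieldBar M)).2, y.2, ?_, ?_⟩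
  · have hy' : IsIntegral (Algebra.adjoin (AlgebraicClosure ℚ) {(FA_S18_A_jbar M)⁻¹})
        (y : ↥(modularFunctionFieldBar M)) := hy
    rw [FA_S18_BASE_isIntegral_coe_iff_singleton] at hy'
    have e2 : (((FA_S18_A_jbar M)⁻¹ : ↥(modularFunctionFieldBar M)) :
        LaurentSeries (AlgebraicClosure ℚ)) = (jqModC (AlgebraicClosure ℚ))⁻¹ := by
      rw [← FA_S18_I_jbar_coe M]
      rfl
    rw [e2] at hy'
    exact hy'
  · have := congrArg Subtype.val hyx
    exact this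

end Fermat.Agent.S18
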