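import Mathlib
import Fermat.Agent.S18.GaussBasis

/-!
# S18, leaf B (Gauss valuation), part 4: the Gauss lemma in `K[X][T]`

`A ⊂ K` a valuation ring with residue map `π : A → k`.  If `χ ∈ A[X][T]` factors as `μ · ν` in
`K[X][T]` with `μ` monic and the leading coefficient of `χ` has nonzero reduction, then
`μ ∈ A[X][T]`.
-/

set_option autoImplicit false
set_option linter.unusedSectionVars false
set_option linter.style.haveILetI false

noncomputable section

namespace Fermat.Agent.S18

open Polynomial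

variable {K : Type*} [Field K] (A : ValuationSubring K) {k : Type*} [Field k] (π : A →+* k)

theorem FA_S18_B3_coeff_sum {R : Type*} [CommRing R] (N : ℕ) (g : Fin (N + 1) → R) (j : ℕ) :
    (∑ i : Fin (N + 1), monomial (i : ℕ) (g i)).coeff j
      = if h : j < N + 1 then g ⟨j, h⟩ else 0 := by
  classical
  rw [finsetSum_coeff]
  simp only [coeff_monomial]
  split_ifs with h
  · rw [Finset.sum_eq_single ⟨j, h⟩]
    · simp
    · intro b _ hb
      rw [if_neg]
      intro hbj
      exact hb (Fin.ext hbj)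
    · intro hn
      exact absurd (Finset.mem_univ _) hn
  · apply Finset.sum_eq_zero
    intro b _
    rw [if_neg]
    intro hbj
    exact h (hbj ▸ b.2)

/-- Content of a bivariate polynomial. -/
theorem FA_S18_B3_content2 (f : K[X][X]) (hf : f ≠ 0) :
    ∃ c : K, c ≠ 0 ∧ ∃ f' : A[X][X],
      f'.map (Polynomial.mapRingHom A.subtype) = C (C c⁻¹) * f ∧
      f'.map (Polynomial.mapRingHom π) ≠ 0 := by
  have h0 : ∃ i : Fin (f.natDegree + 1), f.coeff i ≠ 0 :=
    ⟨⟨f.natDegree, Nat.lt_succ_self _⟩, by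
      show f.coeff f.natDegree ≠ 0
      rw [coeff_natDegree]
      exact leadingCoeff_ne_zero.mpr hf⟩
  obtain ⟨c, hc, P', hP', i₀, hi₀⟩ := FA_S18_B_content_poly A π
    (fun i : Fin (f.natDegree + 1) => f.coeff i) h0
  refine ⟨c, hc, ∑ i : Fin (f.natDegree + 1), monomial (i : ℕ) (P' i), ?_, ?_⟩
  · ext j : 1
    rw [coeff_map, FA_S18_B3_coeff_sum, coeff_C_mul]
    split_ifs with h
    · rw [coe_mapRingHom, hP' ⟨j, h⟩]
    · rw [map_zero, coeff_eq_zero_of_natDegree_lt (by omega), mul_zero]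
  · intro h
    have h1 := congrArg (fun p => p.coeff (i₀ : ℕ)) h
    simp only [coeff_map, coeff_zero] at h1
    rw [FA_S18_B3_coeff_sum, dif_pos i₀.2, coe_mapRingHom] at h1
    exact hi₀ h1

theorem FA_S18_B3_map_injective :
    Function.Injective (Polynomial.map (Polynomial.mapRingHom A.subtype) : A[X][X] → K[X][X]) :=
  Polynomial.map_injective _ (Polynomial.map_injective _ Subtype.val_injective)

/-- **Gauss lemma**: a monic factor in `K[X][T]` of a polynomial in `A[X][T]` whose leading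
coefficient has nonzero reduction lies in `A[X][T]`. -/
theorem FA_S18_B3_gauss (hπ : ∀ a : A, a ∈ IsLocalRing.maximalIdeal A → π a = 0)
    (χ : A[X][X]) (μ ν : K[X][X]) (hμ : μ.Monic)
    (hχ : χ.map (Polynomial.mapRingHom A.subtype) = μ * ν)
    (hlc : (χ.leadingCoeff).map π ≠ 0) :
    ∃ μ' : A[X][X], μ'.Monic ∧ μ'.map (Polynomial.mapRingHom A.subtype) = μ := by
  have hinj := FA_S18_B3_map_injective A
  have hμ0 : μ ≠ 0 := hμ.ne_zero
  have hχ0 : χ ≠ 0 := by
    rintro rfl
    simp at hlc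
  have hν0 : ν ≠ 0 := by
    rintro rfl
    rw [mul_zero] at hχ
    exact hχ0 (hinj (by rw [hχ, Polynomial.map_zero]))
  obtain ⟨c, hc, μ'', hμ'', hμr⟩ := FA_S18_B3_content2 A π μ hμ0
  obtain ⟨d, hd, ν'', hν'', hνr⟩ := FA_S18_B3_content2 A π ν hν0
  have hcd : c * d ≠ 0 := mul_ne_zero hc hd
  -- (i) `c d ∈ A`
  have h1 : (μ'' * ν'').map (Polynomial.mapRingHom A.subtype)
      = C (C (c * d)⁻¹) * χ.map (Polynomial.mapRingHom A.subtype) := by
    rw [Polynomial.map_mul, hμ'', hν'', hχ, mul_inv, map_mul, map_mul]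
    ring
  have hcdA : c * d ∈ A := by
    by_contra hnot
    have hinv : (c * d)⁻¹ ∈ A := (A.mem_or_inv_mem (c * d)).resolve_left hnot
    have hm : (⟨(c * d)⁻¹, hinv⟩ : A) ∈ IsLocalRing.maximalIdeal A := by
      rw [IsLocalRing.mem_maximalIdeal, mem_nonunits_iff]
      intro hu
      obtain ⟨u, hu⟩ := hu
      apply hnot
      have h2 : ((u⁻¹ : Aˣ) : A) * ⟨(c * d)⁻¹, hinv⟩ = 1 := by
        rw [← hu]
        exact u.inv_mul
      have h3 := congrArg Subtype.val h2
      simp only [MulMemClass.coe_mul, OneMemClass.coe_one] at h3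
      have h4 : (((u⁻¹ : Aˣ) : A) : K) = c * d := by
        field_simp at h3
        exact h3
      rw [← h4]
      exact Subtype.mem _
    have h2 : μ'' * ν'' = C (C (⟨(c * d)⁻¹, hinv⟩ : A)) * χ := by
      apply hinj
      rw [h1, Polynomial.map_mul, Polynomial.map_C, coe_mapRingHom, Polynomial.map_C]
      rfl
    have h3 := congrArg (Polynomial.map (Polynomial.mapRingHom π)) h2
    rw [Polynomial.map_mul, Polynomial.map_mul, Polynomial.map_C, coe_mapRingHom,
      Polynomial.map_C, hπ _ hm, map_zero, map_zero, zero_mul] at h3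
    rcases mul_eq_zero.mp h3 with h | h
    · exact hμr h
    · exact hνr h
  -- (ii) `c⁻¹ ∈ A`
  have hcinv : c⁻¹ ∈ A := by
    have h2 : A.subtype ((μ''.coeff μ.natDegree).coeff 0) = c⁻¹ := by
      have h3 := congrArg (fun p => (p.coeff μ.natDegree).coeff 0) hμ''
      simpa only [coeff_map, coe_mapRingHom, coeff_C_mul, coeff_natDegree, hμ.leadingCoeff,
        coeff_one_zero, mul_one, coeff_C_zero] using h3
    rw [← h2]
    exact Subtype.mem _
  -- (iii) `d⁻¹ ∈ A`
  have hdinv : d⁻¹ ∈ A := by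
    have hlcχ : (χ.leadingCoeff).map A.subtype = ν.leadingCoeff := by
      have h2 : (χ.map (Polynomial.mapRingHom A.subtype)).leadingCoeff = ν.leadingCoeff := by
        rw [hχ, leadingCoeff_mul, hμ.leadingCoeff, one_mul]
      rw [← h2, leadingCoeff_map_of_injective
        (Polynomial.map_injective _ Subtype.val_injective), coe_mapRingHom]
    obtain ⟨t, ht⟩ : ∃ t, π ((χ.leadingCoeff).coeff t) ≠ 0 := by
      by_contra hall
      push Not at hall
      apply hlc
      ext t
      rw [coeff_map, hall t, coeff_zero]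
    have hunit : IsUnit ((χ.leadingCoeff).coeff t) := by
      by_contra hnu
      exact ht (hπ _ ((IsLocalRing.mem_maximalIdeal _).mpr hnu))
    obtain ⟨u, hu⟩ := hunit
    have h2 : A.subtype ((ν''.coeff ν.natDegree).coeff t) = d⁻¹ * A.subtype (u : A) := by
      have h3 := congrArg (fun p => (p.coeff ν.natDegree).coeff t) hν''
      simp only [coeff_map, coe_mapRingHom, coeff_C_mul, coeff_natDegree] at h3
      rw [h3, ← hlcχ, coeff_map, hu]
    have h3 : d⁻¹ = (((ν''.coeff ν.natDegree).coeff t * ((u⁻¹ : Aˣ) : A) : A) : K) := by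
      have h4 : A.subtype (u : A) * A.subtype ((u⁻¹ : Aˣ) : A) = 1 := by
        rw [← map_mul, u.mul_inv, map_one]
      show d⁻¹ = A.subtype ((ν''.coeff ν.natDegree).coeff t * ((u⁻¹ : Aˣ) : A))
      rw [map_mul, h2, mul_assoc, h4, mul_one]
    rw [h3]
    exact Subtype.mem _
  -- (iv) `c ∈ A`
  have hcA : c ∈ A := by
    have : c = (c * d) * d⁻¹ := by
      rw [mul_assoc, mul_inv_cancel₀ hd, mul_one]
    rw [this]
    exact A.mul_mem _ _ hcdA hdinv
  have hmap : (C (C (⟨c, hcA⟩ : A)) * μ'').map (Polynomial.mapRingHom A.subtype) = μ := by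
    rw [Polynomial.map_mul, hμ'', Polynomial.map_C, coe_mapRingHom, Polynomial.map_C,
      ← mul_assoc, ← map_mul, ← map_mul]
    have : A.subtype ⟨c, hcA⟩ * c⁻¹ = 1 := mul_inv_cancel₀ hc
    rw [this, map_one, map_one, one_mul]
  refine ⟨C (C (⟨c, hcA⟩ : A)) * μ'', ?_, hmap⟩
  have hinj1 : Function.Injective (Polynomial.mapRingHom A.subtype) :=
    Polynomial.map_injective _ Subtype.val_injective
  apply Polynomial.monic_of_injective hinj1
  rw [hmap]
  exact hμ

end Fermat.Agent.S18
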