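import Mathlib
import Fermat.Agent.S18.GaussBasis
import Fermat.Agent.S18.GaussLemma

/-!
# S18, leaf B (Gauss valuation), part 6: integrality is preserved by the reduction (B3, core)

For a datum `D` (generator `x`, basis `e i` with independent reductions): if `y ∈ F ∩ O` is
integral over `K[x]`, then `red y` is integral over `k[x̄]`.

Proof: the determinant trick on the lattice `⊕ A[x] e_i` gives `χ ∈ A[X][T]` with `χ(y) = 0` and
leading coefficient `Q^r`, `Q̄ ≠ 0`; the minimal polynomial `μ` of `y` over `K[X]` divides `χ`;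
by the Gauss lemma `μ ∈ A[X][T]`; reduce.
-/

set_option autoImplicit false
set_option linter.unusedSectionVars false
set_option linter.style.haveILetI false

noncomputable section

namespace Fermat.Agent.S18

open ModularCurve Polynomial

/-- Evaluation of polynomials at a Laurent series, as a ring hom. -/
def FA_S18_B3_evHom {R : Type*} [CommRing R] (x : LaurentSeries R) : R[X] →+* LaurentSeries R :=
  Polynomial.eval₂RingHom HahnSeries.C x

theorem FA_S18_B3_evHom_apply {R : Type*} [CommRing R] (x : LaurentSeries R) (P : R[X]) :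
    FA_S18_B3_evHom x P = FA_S18_B_ev x P := rfl

theorem FA_S18_B3_evHom_comp {R S : Type*} [CommRing R] [CommRing S] (φ : R →+* S)
    (x : LaurentSeries R) :
    (coeffMap φ).comp (FA_S18_B3_evHom x)
      = (FA_S18_B3_evHom (coeffMap φ x)).comp (Polynomial.mapRingHom φ) := by
  refine RingHom.ext fun P => ?_
  show coeffMap φ (FA_S18_B_ev x P) = FA_S18_B_ev (coeffMap φ x) (P.map φ)
  exact FA_S18_B_coeffMap_ev φ x P

/-- The determinant trick. -/
theorem FA_S18_B3_det_abs {R L : Type*} [CommRing R] [Field L] (φ : R →+* L) {ι : Type*}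
    [Fintype ι] (v : ι → L) (hv : ∃ i, v i ≠ 0) (z : L)
    (hz : ∀ i, ∃ c : ι → R, z * v i = ∑ j, φ (c j) * v j) :
    ∃ χ : R[X], χ.Monic ∧ χ.eval₂ φ z = 0 := by
  letI : Algebra R L := φ.toAlgebra
  have hsmul : ∀ (r : R) (w : L), r • w = φ r * w := fun r w => by
    rw [Algebra.smul_def]
    rfl
  have h := isIntegral_of_smul_mem_submodule (R := R) (A := L) (M := L)
    (Submodule.span R (Set.range v)) (by
      obtain ⟨i, hi⟩ := hv
      intro hbot
      have : v i ∈ Submodule.span R (Set.range v) := Submodule.subset_span (Set.mem_range_self i)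
      rw [hbot, Submodule.mem_bot] at this
      exact hi this)
    (Submodule.fg_span (Set.finite_range v)) z (by
      intro w hw
      induction hw using Submodule.span_induction with
      | mem w hw =>
        obtain ⟨i, rfl⟩ := hw
        obtain ⟨c, hc⟩ := hz i
        rw [smul_eq_mul, hc]
        refine Submodule.sum_mem _ fun j _ => ?_
        rw [← hsmul]
        exact Submodule.smul_mem _ _ (Submodule.subset_span (Set.mem_range_self j))
      | zero => rw [smul_zero]; exact Submodule.zero_mem _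
      | add a b _ _ ha hb => rw [smul_add]; exact Submodule.add_mem _ ha hb
      | smul r a _ ha =>
        rw [smul_comm]
        exact Submodule.smul_mem _ _ ha)
  exact h

variable {K : Type*} [Field K] {A : ValuationSubring K} {k : Type*} [Field k] {π : A →+* k}
variable {F : IntermediateField K (LaurentSeries K)} {n : ℕ}

theorem FA_S18_B3_e_ne_zero (D : FA_S18_B_Datum A π F n) (i : Fin n) :
    coeffMap A.subtype (D.e i) ≠ 0 := by
  classical
  apply FA_S18_B_iota_ne_zero (π := π)
  intro h0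
  have h1 := D.indep (fun j => if j = i then 1 else 0) (by
    apply Finset.sum_eq_zero
    intro j _
    by_cases hj : j = i
    · rw [if_pos hj, hj, h0, mul_zero]
    · rw [if_neg hj, FA_S18_B_ev_zero, zero_mul]) i
  simp at h1

/-- The determinant trick on the lattice `⊕ A[x] e_i`. -/
theorem FA_S18_B3_det (D : FA_S18_B_Datum A π F n) {y : LaurentSeries K} (hy : y ∈ F)
    (hint : FA_S18_B_IsInt A π y) :
    ∃ (Q : A[X]) (χ : A[X][X]), Q.map π ≠ 0 ∧ χ.Monic ∧
      χ.eval₂ ((coeffMap A.subtype).comp (FA_S18_B3_evHom D.x))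
        (coeffMap A.subtype (FA_S18_B_ev D.x Q) * y) = 0 := by
  classical
  have h1 : ∀ i, ∃ (Q : A[X]) (P : Fin n → A[X]), Q.map π ≠ 0 ∧
      coeffMap A.subtype (FA_S18_B_ev D.x Q) * (y * coeffMap A.subtype (D.e i))
        = coeffMap A.subtype (D.comb P) := fun i =>
    FA_S18_B_int_normal D (mul_mem hy (D.e_mem i))
      (FA_S18_B_isInt_mul hint (FA_S18_B_isInt_iota _))
  choose Q P hQ hP using h1
  refine ⟨∏ i, Q i, ?_⟩
  have hQtot : (∏ i, Q i).map π ≠ 0 := by
    rw [Polynomial.map_prod]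
    exact Finset.prod_ne_zero_iff.mpr fun i _ => hQ i
  obtain ⟨χ, hχ, hχ0⟩ := FA_S18_B3_det_abs ((coeffMap A.subtype).comp (FA_S18_B3_evHom D.x))
    (fun i => coeffMap A.subtype (D.e i)) ⟨⟨0, D.pos⟩, FA_S18_B3_e_ne_zero D _⟩
    (coeffMap A.subtype (FA_S18_B_ev D.x (∏ i, Q i)) * y) (by
      intro i
      refine ⟨fun j => (∏ i' ∈ Finset.univ.erase i, Q i') * P i j, ?_⟩
      have e1 : coeffMap A.subtype (FA_S18_B_ev D.x (∏ i, Q i)) * y * coeffMap A.subtype (D.e i)
          = coeffMap A.subtype (FA_S18_B_ev D.x (∏ i' ∈ Finset.univ.erase i, Q i'))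
            * coeffMap A.subtype (D.comb (P i)) := by
        rw [← hP i, ← Finset.mul_prod_erase Finset.univ Q (Finset.mem_univ i), FA_S18_B_ev_mul,
          map_mul]
        ring
      rw [e1, FA_S18_B_Datum.comb, map_sum, Finset.mul_sum]
      apply Finset.sum_congr rfl
      intro j _
      show _ = coeffMap A.subtype (FA_S18_B_ev D.x ((∏ i' ∈ Finset.univ.erase i, Q i') * P i j))
        * _
      rw [FA_S18_B_ev_mul, map_mul, map_mul, mul_assoc])
  exact ⟨χ, hQtot, hχ, hχ0⟩

/-- **B3 (core)**: the reduction of an element of `F ∩ O` that is integral over `K[x]` is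
integral over `k[x̄]`. -/
theorem FA_S18_B3_core (D : FA_S18_B_Datum A π F n) {y : LaurentSeries K} (hy : y ∈ F)
    (hint : FA_S18_B_IsInt A π y)
    (hyint : ∃ P : K[X][X], P.Monic ∧
      P.eval₂ (FA_S18_B3_evHom (coeffMap A.subtype D.x)) y = 0) :
    ∃ R : k[X][X], R.Monic ∧
      R.eval₂ (FA_S18_B3_evHom (coeffMap π D.x)) (FA_S18_B_red A π y) = 0 := by
  obtain ⟨Q, χ, hQ, hχ, hχ0⟩ := FA_S18_B3_det D hy hint
  have hQ0 : Q ≠ 0 := by
    rintro rfl
    exact hQ (Polynomial.map_zero _)
  -- `χ₁(T) = χ(Q T)`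
  have hχ1 : (χ.comp (C Q * X)).eval₂ ((coeffMap A.subtype).comp (FA_S18_B3_evHom D.x)) y = 0 := by
    rw [Polynomial.eval₂_comp, eval₂_mul, eval₂_C, eval₂_X]
    exact hχ0
  have hlc : (χ.comp (C Q * X)).leadingCoeff = Q ^ χ.natDegree := by
    rw [leadingCoeff_comp (by rw [natDegree_C_mul_X _ hQ0]; exact one_ne_zero),
      hχ.leadingCoeff, one_mul, leadingCoeff_mul, leadingCoeff_C, leadingCoeff_X, mul_one]
  have hlc' : ((χ.comp (C Q * X)).leadingCoeff).map π ≠ 0 := by
    rw [hlc, Polynomial.map_pow]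
    exact pow_ne_zero _ hQ
  -- the minimal polynomial over `K[X]`
  letI algK : Algebra K[X] (LaurentSeries K) :=
    (FA_S18_B3_evHom (coeffMap A.subtype D.x)).toAlgebra
  have halg : algebraMap K[X] (LaurentSeries K) = FA_S18_B3_evHom (coeffMap A.subtype D.x) := rfl
  have hinj : Function.Injective (algebraMap K[X] (LaurentSeries K)) := by
    rw [injective_iff_map_eq_zero]
    intro P hP
    exact D.x_transc P hP
  haveI : Module.IsTorsionFree K[X] (LaurentSeries K) :=
    Module.isTorsionFree_iff_algebraMap_injective.mpr hinj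
  have hI : IsIntegral K[X] y := hyint
  have hp : Polynomial.aeval y ((χ.comp (C Q * X)).map (Polynomial.mapRingHom A.subtype)) = 0 := by
    rw [aeval_def, eval₂_map, halg, ← FA_S18_B3_evHom_comp]
    exact hχ1
  obtain ⟨ν, hν⟩ := minpoly.isIntegrallyClosed_dvd hI hp
  obtain ⟨μ', hμ', hμ'map⟩ := FA_S18_B3_gauss A π D.ker (χ.comp (C Q * X)) (minpoly K[X] y) ν
    (minpoly.monic hI) hν hlc'
  refine ⟨μ'.map (Polynomial.mapRingHom π), hμ'.map _, ?_⟩
  have h0 : μ'.eval₂ ((coeffMap A.subtype).comp (FA_S18_B3_evHom D.x)) y = 0 := by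
    rw [FA_S18_B3_evHom_comp, ← eval₂_map, hμ'map, ← halg, ← aeval_def]
    exact minpoly.aeval _ _
  -- reduce inside the subring of Gauss-integral series
  let φS : A[X] →+* FA_S18_B_ring A π :=
    ((coeffMap A.subtype).comp (FA_S18_B3_evHom D.x)).codRestrict (FA_S18_B_ring A π)
      (fun P => FA_S18_B_isInt_iota _)
  have hyS : y ∈ FA_S18_B_ring A π := hint
  have h1 : μ'.eval₂ φS ⟨y, hyS⟩ = 0 := by
    apply (FA_S18_B_ring A π).subtype_injective
    have h2 := Polynomial.hom_eval₂ μ' φS (FA_S18_B_ring A π).subtype ⟨y, hyS⟩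
    rw [h2, map_zero]
    exact h0
  have h3 := Polynomial.hom_eval₂ μ' φS (FA_S18_B_redHom A π) ⟨y, hyS⟩
  rw [h1, map_zero] at h3
  have h4 : (FA_S18_B_redHom A π).comp φS
      = (FA_S18_B3_evHom (coeffMap π D.x)).comp (Polynomial.mapRingHom π) := by
    refine RingHom.ext fun P => ?_
    show FA_S18_B_red A π (coeffMap A.subtype (FA_S18_B_ev D.x P))
      = FA_S18_B_ev (coeffMap π D.x) (P.map π)
    rw [FA_S18_B_red_iota, FA_S18_B_coeffMap_ev]
  rw [h4] at h3
  rw [eval₂_map]
  exact h3.symm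

end Fermat.Agent.S18
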