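import Fermat.Agent.S18.Charts0

/-!
# S18, leaf B3: helper lemmas on integrality over `L[x]` and `L[x, x⁻¹]`

* `FA_S18_B3m_poly_of_integral`, `FA_S18_B3m_integral_of_poly` : `y` is integral over
  `Algebra.adjoin L {x}` iff it is a root of a monic polynomial in `L[X][T]` evaluated at `X = x`.
* `FA_S18_B3m_mid_a`, `FA_S18_B3m_mid_b` : `y` is integral over `L[x, x⁻¹]` iff some `x ^ m * y` is
  integral over `L[x]`.
-/

set_option autoImplicit false
set_option linter.unusedSectionVars false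

noncomputable section

namespace Fermat.Agent.S18

open Polynomial

variable {L E : Type*} [Field L] [Field E] [Algebra L E]

/-- The surjection `L[X] → L[x]`. -/
def FA_S18_B3m_toAdjoin (x : E) : L[X] →+* ↥(Algebra.adjoin L {x}) :=
  ((Polynomial.aeval x : L[X] →ₐ[L] E) : L[X] →+* E).codRestrict
    (Algebra.adjoin L {x}).toSubring (fun p => by
      show (Polynomial.aeval x) p ∈ Algebra.adjoin L {x}
      rw [Algebra.adjoin_singleton_eq_range_aeval]
      exact ⟨p, rfl⟩)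

theorem FA_S18_B3m_toAdjoin_coe (x : E) (p : L[X]) :
    ((FA_S18_B3m_toAdjoin x p : ↥(Algebra.adjoin L {x})) : E) = Polynomial.aeval x p := rfl

theorem FA_S18_B3m_toAdjoin_surjective (x : E) :
    Function.Surjective (FA_S18_B3m_toAdjoin (L := L) x) := by
  rintro ⟨z, hz⟩
  have hz' := hz
  rw [Algebra.adjoin_singleton_eq_range_aeval] at hz'
  obtain ⟨p, hp⟩ := hz'
  exact ⟨p, Subtype.ext hp⟩

theorem FA_S18_B3m_comp (x : E) :
    (algebraMap ↥(Algebra.adjoin L {x}) E).comp (FA_S18_B3m_toAdjoin (L := L) x)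
      = ((Polynomial.aeval x : L[X] →ₐ[L] E) : L[X] →+* E) := by
  apply RingHom.ext
  intro p
  rfl

/-- (M1) -/
theorem FA_S18_B3m_poly_of_integral (x y : E) (h : IsIntegral ↥(Algebra.adjoin L {x}) y) :
    ∃ P : L[X][X], P.Monic ∧
      P.eval₂ ((Polynomial.aeval x : L[X] →ₐ[L] E) : L[X] →+* E) y = 0 := by
  obtain ⟨p, hp, hpy⟩ := h
  have hlift : p ∈ Polynomial.lifts (FA_S18_B3m_toAdjoin (L := L) x) := by
    rw [Polynomial.mem_lifts]
    exact Polynomial.map_surjective _ (FA_S18_B3m_toAdjoin_surjective x) p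
  obtain ⟨P, hP, -, hPm⟩ := Polynomial.lifts_and_degree_eq_and_monic hlift hp
  refine ⟨P, hPm, ?_⟩
  rw [← FA_S18_B3m_comp, ← Polynomial.eval₂_map, hP]
  exact hpy

/-- (M2) -/
theorem FA_S18_B3m_integral_of_poly (x y : E)
    (h : ∃ P : L[X][X], P.Monic ∧
      P.eval₂ ((Polynomial.aeval x : L[X] →ₐ[L] E) : L[X] →+* E) y = 0) :
    IsIntegral ↥(Algebra.adjoin L {x}) y := by
  obtain ⟨P, hP, hPy⟩ := h
  refine ⟨P.map (FA_S18_B3m_toAdjoin (L := L) x), hP.map _, ?_⟩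
  rw [Polynomial.eval₂_map, FA_S18_B3m_comp]
  exact hPy

/-- (M3) -/
theorem FA_S18_B3m_mid_a (x y : E) (hx : x ≠ 0)
    (h : IsIntegral ↥(Algebra.adjoin L {x, x⁻¹}) y) :
    ∃ m : ℕ, IsIntegral ↥(Algebra.adjoin L {x}) (x ^ m * y) := by
  obtain ⟨m, hm, -⟩ := FA_S18_H2_mid_bound (K := L) hx (z := y) h
  refine ⟨m, ?_⟩
  rw [mul_comm]
  exact hm

/-- (M4) -/
theorem FA_S18_B3m_mid_b (x y : E) (hx : x ≠ 0) (m : ℕ)
    (h : IsIntegral ↥(Algebra.adjoin L {x}) (x ^ m * y)) :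
    IsIntegral ↥(Algebra.adjoin L {x, x⁻¹}) y := by
  have h1 : IsIntegral ↥(Algebra.adjoin L {x, x⁻¹}) (x ^ m * y) :=
    FA_S18_H2_isIntegral_mono (Algebra.adjoin_mono (by simp)) h
  have hxi : x⁻¹ ∈ Algebra.adjoin L {x, x⁻¹} := Algebra.subset_adjoin (by simp)
  have h2 : IsIntegral ↥(Algebra.adjoin L {x, x⁻¹}) (x⁻¹ ^ m) := by
    have : x⁻¹ ^ m = algebraMap ↥(Algebra.adjoin L {x, x⁻¹}) E
        ⟨x⁻¹ ^ m, Subalgebra.pow_mem _ hxi m⟩ := rfl
    rw [this]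
    exact isIntegral_algebraMap
  have h3 : y = x⁻¹ ^ m * (x ^ m * y) := by
    rw [← mul_assoc, ← mul_pow, inv_mul_cancel₀ hx, one_pow, one_mul]
  rw [h3]
  exact h2.mul h1

end Fermat.Agent.S18
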