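import Mathlib
import Fermat.Agent.S18.GaussInst
import Fermat.Agent.S18.GaussIntegral
import Fermat.Agent.S18.GaussInv
import Fermat.Agent.S18.GaussMid
import Fermat.Agent.S18.CuspKummer

/-!
# S18, leaf B (Gauss valuation), part 8: B3 at level `n`

`FA_S18_B_integral_inst : FA_S18_Target_B_integral A n ℓ`: for `y ∈ F_n ∩ O`, integrality over
`ℚ̄[j]` (resp. `ℚ̄[1/j]`, `ℚ̄[j, 1/j]`) implies integrality of `red y` over `k[j̄]`
(resp. `k[1/j̄]`, `k[j̄, 1/j̄]`).
-/

set_option autoImplicit false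
set_option linter.unusedSectionVars false
set_option linter.style.haveILetI false

noncomputable section

namespace Fermat.Agent.S18

open ModularCurve Polynomial Fermat.Agent.S28

theorem FA_S18_B3_aeval_eq_evHom {L : Type*} [Field L] (x : LaurentSeries L) :
    ((Polynomial.aeval x : L[X] →ₐ[L] LaurentSeries L) : L[X] →+* LaurentSeries L)
      = FA_S18_B3_evHom x :=
  RingHom.ext fun P => FA_S18_B_aeval_eq_ev x P

/-- B3 for a datum, in terms of `IsIntegral` over `K[x]`. -/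
theorem FA_S18_B3_core' {K : Type*} [Field K] {A : ValuationSubring K} {k : Type*} [Field k]
    {π : A →+* k} {F : IntermediateField K (LaurentSeries K)} {n : ℕ}
    (D : FA_S18_B_Datum A π F n) {y : LaurentSeries K} (hy : y ∈ F)
    (hint : FA_S18_B_IsInt A π y)
    (hI : IsIntegral ↥(Algebra.adjoin K {coeffMap A.subtype D.x}) y) :
    IsIntegral ↥(Algebra.adjoin k {coeffMap π D.x}) (FA_S18_B_red A π y) := by
  obtain ⟨P, hP, hPy⟩ := FA_S18_B3m_poly_of_integral (L := K) (coeffMap A.subtype D.x) y hI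
  rw [FA_S18_B3_aeval_eq_evHom] at hPy
  obtain ⟨R, hR, hRy⟩ := FA_S18_B3_core D hy hint ⟨P, hP, hPy⟩
  rw [← FA_S18_B3_aeval_eq_evHom] at hRy
  exact FA_S18_B3m_integral_of_poly _ _ ⟨R, hR, hRy⟩

theorem FA_S18_B3_coeffMap_u {R S : Type*} [Field S] [CommRing R] (φ : R →+* S) :
    coeffMap φ (FA_S18_CU_u R) = (jqModC S)⁻¹ := by
  apply eq_inv_of_mul_eq_one_right
  rw [← coeffMap_jqModC φ, ← map_mul, FA_S18_CU_j_mul_u, map_one]

theorem FA_S18_B3_j_ne_zero (L : Type*) [Field L] : jqModC L ≠ 0 :=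
  left_ne_zero_of_mul_eq_one (FA_S18_CU_j_mul_u L)

variable (A : ValuationSubring (AlgebraicClosure ℚ)) (n : ℕ) [NeZero n]

/-- **B3 (integrality)** at level `n`. -/
theorem FA_S18_B_integral_inst (ℓ : ℕ) : FA_S18_Target_B_integral A n ℓ := by
  intro hℓ hA hn
  obtain ⟨D, hDx, -⟩ := FA_S18_B_datum_inst A n ℓ hℓ hA hn
  have hfin : ∀ y ∈ modularFunctionFieldBar n, FA_S18_B_IsInt A (FA_S18_pi A) y →
      IsIntegral ↥(Algebra.adjoin (AlgebraicClosure ℚ) {jqModC (AlgebraicClosure ℚ)}) y →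
        IsIntegral ↥(Algebra.adjoin (IsLocalRing.ResidueField A)
          {jqModC (IsLocalRing.ResidueField A)}) (FA_S18_B_red A (FA_S18_pi A) y) := by
    intro y hy hint hI
    have h := FA_S18_B3_core' D hy hint (by rw [hDx, coeffMap_jqModC]; exact hI)
    rw [hDx, coeffMap_jqModC] at h
    exact h
  have hinf : ∀ y ∈ modularFunctionFieldBar n, FA_S18_B_IsInt A (FA_S18_pi A) y →
      IsIntegral ↥(Algebra.adjoin (AlgebraicClosure ℚ) {(jqModC (AlgebraicClosure ℚ))⁻¹}) y →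
        IsIntegral ↥(Algebra.adjoin (IsLocalRing.ResidueField A)
          {(jqModC (IsLocalRing.ResidueField A))⁻¹}) (FA_S18_B_red A (FA_S18_pi A) y) := by
    intro y hy hint hI
    have h := FA_S18_B3_core' (D.inv (FA_S18_CU_u ↥A) (by rw [hDx]; exact FA_S18_CU_j_mul_u _))
      hy hint (by rw [FA_S18_B_Datum.inv_x, FA_S18_B3_coeffMap_u]; exact hI)
    rw [FA_S18_B_Datum.inv_x, FA_S18_B3_coeffMap_u] at h
    exact h
  intro y hy hint
  refine ⟨hfin y hy hint, hinf y hy hint, ?_⟩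
  intro hmid
  obtain ⟨m, hm⟩ := FA_S18_B3m_mid_a (L := AlgebraicClosure ℚ) (jqModC (AlgebraicClosure ℚ)) y
    (FA_S18_B3_j_ne_zero _) hmid
  have hjmem : jqModC (AlgebraicClosure ℚ) ∈ modularFunctionFieldBar n := by
    have := D.x_mem
    rwa [hDx, coeffMap_jqModC] at this
  have hjint : FA_S18_B_IsInt A (FA_S18_pi A) (jqModC (AlgebraicClosure ℚ)) := by
    have := FA_S18_B_isInt_iota (A := A) (π := FA_S18_pi A) (jqModC ↥A)
    rwa [coeffMap_jqModC] at this
  have hjred : FA_S18_B_red A (FA_S18_pi A) (jqModC (AlgebraicClosure ℚ))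
      = jqModC (IsLocalRing.ResidueField A) := by
    have := FA_S18_B_red_iota (A := A) (π := FA_S18_pi A) (jqModC ↥A)
    rwa [coeffMap_jqModC, coeffMap_jqModC] at this
  have h1 := hfin (jqModC (AlgebraicClosure ℚ) ^ m * y) (mul_mem (pow_mem hjmem m) hy)
    (FA_S18_B_isInt_mul (FA_S18_B_isInt_pow hjint m) hint) hm
  rw [FA_S18_B_red_mul (FA_S18_B_isInt_pow hjint m) hint, FA_S18_B_red_pow hjint, hjred] at h1
  exact FA_S18_B3m_mid_b (L := IsLocalRing.ResidueField A) _ _ (FA_S18_B3_j_ne_zero _) m h1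

end Fermat.Agent.S18
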