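import Fermat.Agent.S18.SepBar
import Fermat.Agent.S18.GaussDeg
import Fermat.Agent.S18.NCh0Unram

/-!
# S18, leaf N / INST-fin: degrees of `F̄_n / F̄_M` and `F_n / F_M` (inclusion algebras)

* `FA_S18_SEPD_finrank_eq` : for intermediate fields `E₁ ≤ E₂`, the `finrank` for the inclusion
  algebra is `IntermediateField.relfinrank E₁ E₂`.
* `FA_S18_SEPD_relfinrank_bar` : `[F̄_n : k(j̄)] = ψ(n)` over the residue field of `A` (`ℓ ∤ n`).
* `FA_S18_SEPD_deg` : `F̄_n / F̄_M` is finite and `[F̄_n : F̄_M] = [F_n : F_M]`, `M ∣ n`, `ℓ ∤ n`.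
-/

set_option autoImplicit false
set_option linter.unusedSectionVars false
set_option linter.style.haveILetI false

noncomputable section

namespace Fermat.Agent.S18

open ModularCurve Polynomial Fermat.Agent.S28 IntermediateField

section generic

variable {k0 Ω : Type*} [Field k0] [Field Ω] [Algebra k0 Ω]

/-- `finrank` for the inclusion algebra is the relative `finrank`. -/
theorem FA_S18_SEPD_finrank_eq (E₁ E₂ : IntermediateField k0 Ω) (h : E₁ ≤ E₂) :
    letI : Algebra ↥E₁ ↥E₂ := (IntermediateField.inclusion h).toRingHom.toAlgebra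
    Module.finrank ↥E₁ ↥E₂ = IntermediateField.relfinrank E₁ E₂ := by
  letI : Algebra ↥E₁ ↥E₂ := (IntermediateField.inclusion h).toRingHom.toAlgebra
  rw [IntermediateField.relfinrank_eq_finrank_of_le h]
  let e : ↥E₂ ≃ₗ[↥E₁] ↥(IntermediateField.extendScalars h) :=
    { toFun := fun x => ⟨x.1, x.2⟩
      invFun := fun x => ⟨x.1, x.2⟩
      map_add' := fun _ _ => rfl
      map_smul' := fun _ _ => rfl
      left_inv := fun _ => rfl
      right_inv := fun _ => rfl }
  exact e.finrank_eq

/-- Finiteness for the inclusion algebra from a nonzero relative degree. -/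
theorem FA_S18_SEPD_finite (E₁ E₂ : IntermediateField k0 Ω) (h : E₁ ≤ E₂)
    (hpos : 0 < IntermediateField.relfinrank E₁ E₂) :
    letI : Algebra ↥E₁ ↥E₂ := (IntermediateField.inclusion h).toRingHom.toAlgebra
    FiniteDimensional ↥E₁ ↥E₂ := by
  letI : Algebra ↥E₁ ↥E₂ := (IntermediateField.inclusion h).toRingHom.toAlgebra
  apply Module.finite_of_finrank_pos
  rw [FA_S18_SEPD_finrank_eq E₁ E₂ h]
  exact hpos

end generic

variable (A : ValuationSubring (AlgebraicClosure ℚ)) (n : ℕ) [NeZero n]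

theorem FA_S18_SEPD_kappa_le_fullC (k : Type) [Field k] (N : ℕ) [NeZero N] :
    FA_S28_kappa k ≤ modularFunctionFieldFullC k N :=
  FA_S18_SEP_kappa_le N

/-- **`[F̄_n : k(j̄)] = ψ(n)`** over the residue field of `A`. -/
theorem FA_S18_SEPD_relfinrank_bar {ℓ : ℕ} (hℓ : ℓ.Prime) (hA : A.LiesOverPrime ℓ)
    (hn : ¬ ℓ ∣ n) :
    IntermediateField.relfinrank (FA_S28_kappa (IsLocalRing.ResidueField ↥A))
      (modularFunctionFieldFullC (IsLocalRing.ResidueField ↥A) n) = dedekindPsi n := by
  classical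
  haveI : Fact ℓ.Prime := ⟨hℓ⟩
  haveI := FA_S18_B_resField_isAlgClosed A
  haveI := FA_S18_B_resField_charP A ℓ hℓ hA
  have hge : dedekindPsi n ≤ IntermediateField.relfinrank
      (FA_S28_kappa (IsLocalRing.ResidueField ↥A))
      (modularFunctionFieldFullC (IsLocalRing.ResidueField ↥A) n) := by
    rw [FA_S18_G_fullC_eq_fld]
    exact FA_S18_B_indDeg ℓ (IsLocalRing.ResidueField ↥A) n (NeZero.ne n) hn
  apply le_antisymm _ hge
  by_contra hlt
  rw [not_le] at hlt
  have hle := FA_S18_SEPD_kappa_le_fullC (IsLocalRing.ResidueField ↥A) n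
  rw [IntermediateField.relfinrank_eq_finrank_of_le hle] at hlt
  haveI : Module.Finite ↥(FA_S28_kappa (IsLocalRing.ResidueField ↥A))
      ↥(IntermediateField.extendScalars hle) :=
    Module.finite_of_finrank_pos (lt_of_le_of_lt (Nat.zero_le _) hlt)
  let b := Module.finBasis ↥(FA_S28_kappa (IsLocalRing.ResidueField ↥A))
    ↥(IntermediateField.extendScalars hle)
  have hli : LinearIndependent ↥(FA_S28_kappa (IsLocalRing.ResidueField ↥A))
      (fun l : Fin (dedekindPsi n + 1) => b (Fin.castLE hlt l)) :=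
    b.linearIndependent.comp _ (Fin.castLE_injective hlt)
  have hli' : LinearIndependent ↥(FA_S28_kappa (IsLocalRing.ResidueField ↥A))
      (fun l : Fin (dedekindPsi n + 1) =>
        ((b (Fin.castLE hlt l) : ↥(IntermediateField.extendScalars hle)) :
          LaurentSeries (IsLocalRing.ResidueField ↥A))) :=
    hli.map' (IntermediateField.extendScalars hle).val.toLinearMap
      (LinearMap.ker_eq_bot.mpr Subtype.val_injective)
  obtain ⟨P, ⟨l₀, hl₀⟩, hsum⟩ := FA_S18_B_deg_le A n ℓ hℓ hA hn
    (fun l => ((b (Fin.castLE hlt l) : ↥(IntermediateField.extendScalars hle)) :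
      LaurentSeries (IsLocalRing.ResidueField ↥A)))
    (fun l => (b (Fin.castLE hlt l)).2)
  rw [Fintype.linearIndependent_iff] at hli'
  have h0 := hli' (fun l => (⟨FA_S18_B_ev (jqModC (IsLocalRing.ResidueField ↥A)) (P l),
      FA_S18_B_ev_mem_kappa _ (P l)⟩ : ↥(FA_S28_kappa (IsLocalRing.ResidueField ↥A))))
    (by
      rw [← hsum]
      apply Finset.sum_congr rfl
      intro l _
      rw [Algebra.smul_def]
      rfl) l₀
  exact hl₀ (FA_S18_B_ev_j_eq_zero _ (P l₀) (congrArg Subtype.val h0))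

/-- `[F_n : ℚ̄(j)] = ψ(n)` with `F_n` written as `modularFunctionFieldBar n`. -/
theorem FA_S18_SEPD_relfinrank_zero (N : ℕ) [NeZero N] :
    IntermediateField.relfinrank (FA_S28_kappa (AlgebraicClosure ℚ)) (modularFunctionFieldBar N)
      = dedekindPsi N :=
  FA_S18_G_relfinrank N

/-- **Degrees**: `F̄_n / F̄_M` is finite and `[F̄_n : F̄_M] = [F_n : F_M]` (inclusion algebras). -/
theorem FA_S18_SEPD_deg (M : ℕ) [NeZero M] (hMn : M ∣ n) {ℓ : ℕ} (hℓ : ℓ.Prime)
    (hA : A.LiesOverPrime ℓ) (hn : ¬ ℓ ∣ n) :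
    letI : Algebra ↥(modularFunctionFieldFullC (IsLocalRing.ResidueField ↥A) M)
        ↥(modularFunctionFieldFullC (IsLocalRing.ResidueField ↥A) n) :=
      (IntermediateField.inclusion
        (full_degeneracyC_le (IsLocalRing.ResidueField ↥A) hMn)).toRingHom.toAlgebra
    letI : Algebra ↥(modularFunctionFieldBar M) ↥(modularFunctionFieldBar n) :=
      (IntermediateField.inclusion (Fermat.Agent.S24.FA_S18_NC_bar_le hMn)).toRingHom.toAlgebra
    FiniteDimensional ↥(modularFunctionFieldFullC (IsLocalRing.ResidueField ↥A) M)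
        ↥(modularFunctionFieldFullC (IsLocalRing.ResidueField ↥A) n) ∧
      Module.finrank ↥(modularFunctionFieldFullC (IsLocalRing.ResidueField ↥A) M)
        ↥(modularFunctionFieldFullC (IsLocalRing.ResidueField ↥A) n)
        = Module.finrank ↥(modularFunctionFieldBar M) ↥(modularFunctionFieldBar n) := by
  have hM : ¬ ℓ ∣ M := fun h => hn (h.trans hMn)
  have hψM : 0 < dedekindPsi M := FA_S18_B_psi_pos M
  have hψn : 0 < dedekindPsi n := FA_S18_B_psi_pos n
  -- characteristic `ℓ`
  have hb := IntermediateField.relfinrank_mul_relfinrank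
    (FA_S18_SEPD_kappa_le_fullC (IsLocalRing.ResidueField ↥A) M)
    (full_degeneracyC_le (IsLocalRing.ResidueField ↥A) hMn)
  rw [FA_S18_SEPD_relfinrank_bar A M hℓ hA hM, FA_S18_SEPD_relfinrank_bar A n hℓ hA hn] at hb
  -- characteristic `0`
  have h0 := IntermediateField.relfinrank_mul_relfinrank
    (FA_S18_B_kappa_le_bar M) (Fermat.Agent.S24.FA_S18_NC_bar_le hMn)
  rw [FA_S18_G_relfinrank M, FA_S18_G_relfinrank n] at h0
  have heq : IntermediateField.relfinrank
      (modularFunctionFieldFullC (IsLocalRing.ResidueField ↥A) M)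
      (modularFunctionFieldFullC (IsLocalRing.ResidueField ↥A) n)
      = IntermediateField.relfinrank (modularFunctionFieldBar M) (modularFunctionFieldBar n) :=
    Nat.eq_of_mul_eq_mul_left hψM (hb.trans h0.symm)
  have hpos : 0 < IntermediateField.relfinrank
      (modularFunctionFieldFullC (IsLocalRing.ResidueField ↥A) M)
      (modularFunctionFieldFullC (IsLocalRing.ResidueField ↥A) n) := by
    rcases Nat.eq_zero_or_pos (IntermediateField.relfinrank
      (modularFunctionFieldFullC (IsLocalRing.ResidueField ↥A) M)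
      (modularFunctionFieldFullC (IsLocalRing.ResidueField ↥A) n)) with h | h
    · rw [h, mul_zero] at hb
      omega
    · exact h
  refine ⟨FA_S18_SEPD_finite _ _ _ hpos, ?_⟩
  rw [FA_S18_SEPD_finrank_eq _ _ (full_degeneracyC_le (IsLocalRing.ResidueField ↥A) hMn),
    FA_S18_SEPD_finrank_eq _ _ (Fermat.Agent.S24.FA_S18_NC_bar_le hMn)]
  exact heq

end Fermat.Agent.S18
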