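import Fermat.Agent.S18.FinInstDefs
import Fermat.Agent.S18.BaseLift
import Fermat.Agent.S18.GaussIntInst
import Fermat.Agent.S18.SepDeg
import Fermat.Agent.S18.Charts0Inst

/-!
# S18, leaf N, INST-fin: the fields `ic` and `frac` of `FA_S18_U_GlueHyp` at `F_M ⊂ F_n`

`Rb = red (Bf M ∩ O)` is exactly the integral closure of `k[j̄]` in `F̄_M` (`M = 4, 9`):
`⊆` by B3 (`FA_S18_B_integral_inst`), `⊇` by NB1 (`FA_S18_BASE_NB1_laurent`).  Hence `Rb` is
integrally closed in `F̄_M` (`ic`) and `F̄_M` is its field of fractions (`frac`).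
-/

set_option autoImplicit false
set_option linter.unusedSectionVars false
set_option linter.style.haveILetI false

noncomputable section

namespace Fermat.Agent.S18

open ModularCurve FA_S18 Fermat.Agent.S28

open scoped IntermediateField.algebraAdjoinAdjoin

/-- Generic: a subring `Rb` of a field `Fb ⊂ Ω` which is the integral closure of `S` in `Fb`,
`Fb / S` algebraic: then `Rb` is integrally closed in `Fb` and `Fb = Frac Rb`. -/
theorem FA_S18_FIC_generic {k Ω : Type*} [Field k] [Field Ω] [Algebra k Ω]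
    (Fb : IntermediateField k Ω) (S : Subalgebra k Ω) (Rb : Subring ↥Fb)
    (h0 : ∀ s : S, (s : Ω) ∈ Fb)
    (h1 : ∀ z : ↥Fb, IsIntegral S (z : Ω) → z ∈ Rb)
    (h2 : ∀ ρ ∈ Rb, IsIntegral S ((ρ : ↥Fb) : Ω))
    (h3 : ∀ t : ↥Fb, IsAlgebraic S (t : Ω)) :
    (∀ t : ↥Fb, IsIntegral ↥Rb t → t ∈ Rb) ∧
    (∀ t : ↥Fb, ∃ r s : ↥Fb, r ∈ Rb ∧ s ∈ Rb ∧ s ≠ 0 ∧ t * s = r) := by
  constructor
  · intro t ht
    let φ : ↥Rb →+* ↥(integralClosure S Ω) :=
      (Fb.val.toRingHom.comp Rb.subtype).codRestrict (integralClosure S Ω).toSubring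
        (fun ρ => h2 ρ ρ.2)
    have hφ : (algebraMap ↥(integralClosure S Ω) Ω).comp φ
        = Fb.val.toRingHom.comp (algebraMap ↥Rb ↥Fb) := by
      ext ρ
      rfl
    have h4 : IsIntegral ↥(integralClosure S Ω) (Fb.val.toRingHom t) :=
      IsIntegral.map_of_comp_eq φ Fb.val.toRingHom hφ ht
    exact h1 t (isIntegral_trans (R := S) (A := integralClosure S Ω) _ h4)
  · intro t
    obtain ⟨y, hy0, hy⟩ := (h3 t).exists_integral_multiple
    have hs : (⟨(y : Ω), h0 y⟩ : ↥Fb) ∈ Rb := h1 _ (by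
      have : ((⟨(y : Ω), h0 y⟩ : ↥Fb) : Ω) = algebraMap S Ω y := rfl
      rw [this]
      exact isIntegral_algebraMap)
    refine ⟨t * ⟨(y : Ω), h0 y⟩, ⟨(y : Ω), h0 y⟩, ?_, hs, ?_, rfl⟩
    · apply h1
      have : ((t * ⟨(y : Ω), h0 y⟩ : ↥Fb) : Ω) = y • (t : Ω) := by
        rw [Algebra.smul_def, mul_comm]
        rfl
      rw [this]
      exact hy
    · intro h
      apply hy0
      have : (y : Ω) = 0 := congrArg Subtype.val h
      exact Subtype.ext this

variable (A : ValuationSubring (AlgebraicClosure ℚ)) (M : ℕ) [NeZero M]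

set_option synthInstance.maxHeartbeats 400000 in
/-- **The fields `ic` and `frac` of the `GlueHyp` instance at `F_M ⊂ F_n`** (`M = 4, 9`). -/
theorem FA_S18_FIC_ic_frac {ℓ : ℕ} (hℓ : ℓ.Prime) (hA : A.LiesOverPrime ℓ) (hM : ¬ ℓ ∣ M)
    (hM49 : M = 4 ∨ M = 9)
    (hval : FA_S18_FI_Val A (FA_S18_pi A) (modularFunctionFieldBar M))
    (hrM : FA_S18_FI_Range A (FA_S18_pi A) (modularFunctionFieldBar M)
      (modularFunctionFieldFullC (IsLocalRing.ResidueField ↥A) M)) :
    (∀ t : ↥(modularFunctionFieldFullC (IsLocalRing.ResidueField ↥A) M),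
      IsIntegral ↥(FA_S18_U_Rb (FA_S18_FI_O A (FA_S18_pi A) (modularFunctionFieldBar M) hval)
        (FA_S18_FI_red A (FA_S18_pi A) (modularFunctionFieldBar M)
          (modularFunctionFieldFullC (IsLocalRing.ResidueField ↥A) M) hval hrM)
        (FA_S18_H2_Bf M).toSubring) t →
      t ∈ FA_S18_U_Rb (FA_S18_FI_O A (FA_S18_pi A) (modularFunctionFieldBar M) hval)
        (FA_S18_FI_red A (FA_S18_pi A) (modularFunctionFieldBar M)
          (modularFunctionFieldFullC (IsLocalRing.ResidueField ↥A) M) hval hrM)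
        (FA_S18_H2_Bf M).toSubring) ∧
    (∀ t : ↥(modularFunctionFieldFullC (IsLocalRing.ResidueField ↥A) M),
      ∃ r s : ↥(modularFunctionFieldFullC (IsLocalRing.ResidueField ↥A) M),
        r ∈ FA_S18_U_Rb (FA_S18_FI_O A (FA_S18_pi A) (modularFunctionFieldBar M) hval)
          (FA_S18_FI_red A (FA_S18_pi A) (modularFunctionFieldBar M)
            (modularFunctionFieldFullC (IsLocalRing.ResidueField ↥A) M) hval hrM)
          (FA_S18_H2_Bf M).toSubring ∧
        s ∈ FA_S18_U_Rb (FA_S18_FI_O A (FA_S18_pi A) (modularFunctionFieldBar M) hval)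
          (FA_S18_FI_red A (FA_S18_pi A) (modularFunctionFieldBar M)
            (modularFunctionFieldFullC (IsLocalRing.ResidueField ↥A) M) hval hrM)
          (FA_S18_H2_Bf M).toSubring ∧
        s ≠ 0 ∧ t * s = r) := by
  classical
  haveI : Fact ℓ.Prime := ⟨hℓ⟩
  haveI := FA_S18_B_resField_isAlgClosed A
  haveI := FA_S18_B_resField_charP A ℓ hℓ hA
  have hint := FA_S18_B_integral_inst A M ℓ
  apply FA_S18_FIC_generic (modularFunctionFieldFullC (IsLocalRing.ResidueField ↥A) M)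
    (Algebra.adjoin (IsLocalRing.ResidueField ↥A) {jqModC (IsLocalRing.ResidueField ↥A)})
  · -- `k[j̄] ⊆ F̄_M`
    intro s
    have hle : Algebra.adjoin (IsLocalRing.ResidueField ↥A)
        {jqModC (IsLocalRing.ResidueField ↥A)}
        ≤ (modularFunctionFieldFullC (IsLocalRing.ResidueField ↥A) M).toSubalgebra := by
      apply Algebra.adjoin_le
      rintro _ rfl
      exact jqModC_mem_full _ M
    exact hle s.2
  · -- NB1
    intro z hz
    obtain ⟨y, hyF, hyInt, hyI, hyz⟩ := FA_S18_BASE_NB1_laurent A M hℓ hA hM hM49 hint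
      (z : LaurentSeries (IsLocalRing.ResidueField ↥A)) z.2 hz
    rw [FA_S18_U_mem_Rb]
    refine ⟨⟨⟨y, hyF⟩, hyInt⟩, ?_, Subtype.ext hyz⟩
    show IsIntegral (Algebra.adjoin (AlgebraicClosure ℚ) {FA_S18_A_jbar M})
      (⟨y, hyF⟩ : ↥(modularFunctionFieldBar M))
    rw [FA_S18_BASE_isIntegral_coe_iff_singleton, FA_S18_I_jbar_coe]
    exact hyI
  · -- B3
    intro ρ hρ
    obtain ⟨r, hrR, hrρ⟩ := FA_S18_U_mem_Rb.mp hρ
    have hrI : IsIntegral (Algebra.adjoin (AlgebraicClosure ℚ) {FA_S18_A_jbar M})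
        (r : ↥(modularFunctionFieldBar M)) := hrR
    rw [FA_S18_BASE_isIntegral_coe_iff_singleton, FA_S18_I_jbar_coe] at hrI
    have := (hint hℓ hA hM _ (r : ↥(modularFunctionFieldBar M)).2 r.2).1 hrI
    rw [← hrρ]
    exact this
  · -- algebraicity
    intro t
    have hsep := FA_S18_SEP_mem (k := IsLocalRing.ResidueField ↥A) ℓ hℓ M hM
      (t : LaurentSeries (IsLocalRing.ResidueField ↥A)) t.2
    have halg : IsAlgebraic ↥(FA_S28_kappa (IsLocalRing.ResidueField ↥A))
        (t : LaurentSeries (IsLocalRing.ResidueField ↥A)) := hsep.isIntegral.isAlgebraic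
    exact (IsFractionRing.isAlgebraic_iff
      (Algebra.adjoin (IsLocalRing.ResidueField ↥A) {jqModC (IsLocalRing.ResidueField ↥A)})
      (IntermediateField.adjoin (IsLocalRing.ResidueField ↥A)
        {jqModC (IsLocalRing.ResidueField ↥A)})
      (LaurentSeries (IsLocalRing.ResidueField ↥A))).mpr halg

end Fermat.Agent.S18

end
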