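import Fermat.Agent.S18.GaussInst
import Fermat.Agent.S18.GaussIntInst

/-!
# S18, leaf N / INST-fin: the fields `span` and `int` of `FA_S18_U_GlueHyp` (Laurent-series form)

Level `n` prime to `ℓ`, `A` over `ℓ`, `kk` the residue field of `A`.

* `FA_S18_FIS_span_laurent` : every `t ∈ F̄_n` is `red c / Q̄(j̄)` with `c ∈ F_n ∩ O` integral over
  `ℚ̄[j]` and `Q ∈ A[X]` with `Q̄ ≠ 0`;
* `FA_S18_FIS_int_laurent` : the reduction of `y ∈ F_n ∩ O` integral over `ℚ̄[j]` is a root of a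
  monic polynomial with coefficients in `kk[j̄]` (polynomial form).
-/

set_option autoImplicit false
set_option linter.unusedSectionVars false
set_option linter.style.haveILetI false

noncomputable section

namespace Fermat.Agent.S18

open ModularCurve Polynomial

variable (A : ValuationSubring (AlgebraicClosure ℚ)) (n : ℕ) [NeZero n]

/-- **SPAN (Laurent form)**. -/
theorem FA_S18_FIS_span_laurent {ℓ : ℕ} (hℓ : ℓ.Prime) (hA : A.LiesOverPrime ℓ) (hn : ¬ ℓ ∣ n)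
    (t : LaurentSeries (IsLocalRing.ResidueField ↥A))
    (ht : t ∈ modularFunctionFieldFullC (IsLocalRing.ResidueField ↥A) n) :
    ∃ (c : LaurentSeries (AlgebraicClosure ℚ)) (Q : (↥A)[X]),
      c ∈ modularFunctionFieldBar n ∧ FA_S18_B_IsInt A (FA_S18_pi A) c ∧
      IsIntegral ↥(Algebra.adjoin (AlgebraicClosure ℚ) {jqModC (AlgebraicClosure ℚ)}) c ∧
      Q.map (FA_S18_pi A) ≠ 0 ∧
      FA_S18_B_red A (FA_S18_pi A) c
        = FA_S18_B_ev (jqModC (IsLocalRing.ResidueField ↥A)) (Q.map (FA_S18_pi A)) * t := by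
  obtain ⟨D, hDx, -⟩ := FA_S18_B_datum_inst A n ℓ hℓ hA hn
  obtain ⟨y, hy, hint, hred⟩ := (FA_S18_B_range_inst A n ℓ hℓ hA hn).2 t ht
  obtain ⟨Q, χ, hQ, hχ, hχ0⟩ := FA_S18_B3_det D hy hint
  have hjF : coeffMap A.subtype D.x ∈ modularFunctionFieldBar n := D.x_mem
  have hQF : coeffMap A.subtype (FA_S18_B_ev D.x Q) ∈ modularFunctionFieldBar n := by
    rw [FA_S18_B_coeffMap_ev]
    exact FA_S18_B_ev_mem _ hjF _
  refine ⟨coeffMap A.subtype (FA_S18_B_ev D.x Q) * y, Q, mul_mem hQF hy,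
    FA_S18_B_isInt_mul (FA_S18_B_isInt_iota _) hint, ?_, hQ, ?_⟩
  · -- integrality over `ℚ̄[j]`
    have hx : coeffMap A.subtype D.x = jqModC (AlgebraicClosure ℚ) := by
      rw [hDx, coeffMap_jqModC]
    rw [← hx]
    apply FA_S18_B3m_integral_of_poly
    refine ⟨χ.map (Polynomial.mapRingHom A.subtype), hχ.map _, ?_⟩
    rw [FA_S18_B3_aeval_eq_evHom, Polynomial.eval₂_map, ← FA_S18_B3_evHom_comp]
    exact hχ0
  · rw [FA_S18_B_red_mul (FA_S18_B_isInt_iota _) hint, FA_S18_B_red_iota, hred,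
      FA_S18_B_coeffMap_ev, hDx, coeffMap_jqModC]

/-- **INT (Laurent form)**. -/
theorem FA_S18_FIS_int_laurent {ℓ : ℕ} (hℓ : ℓ.Prime) (hA : A.LiesOverPrime ℓ) (hn : ¬ ℓ ∣ n)
    (y : LaurentSeries (AlgebraicClosure ℚ)) (hy : y ∈ modularFunctionFieldBar n)
    (hint : FA_S18_B_IsInt A (FA_S18_pi A) y)
    (hI : IsIntegral ↥(Algebra.adjoin (AlgebraicClosure ℚ) {jqModC (AlgebraicClosure ℚ)}) y) :
    ∃ R : (IsLocalRing.ResidueField ↥A)[X][X], R.Monic ∧
      R.eval₂ (FA_S18_B3_evHom (jqModC (IsLocalRing.ResidueField ↥A)))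
        (FA_S18_B_red A (FA_S18_pi A) y) = 0 := by
  have h := ((FA_S18_B_integral_inst A n ℓ) hℓ hA hn y hy hint).1 hI
  obtain ⟨R, hR, hRy⟩ := FA_S18_B3m_poly_of_integral _ _ h
  rw [FA_S18_B3_aeval_eq_evHom] at hRy
  exact ⟨R, hR, hRy⟩

end Fermat.Agent.S18

end
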