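import Fermat.Agent.S18.FinInstDefs
import Fermat.Agent.S18.FinInstSpan
import Fermat.Agent.S18.InstDefs
import Fermat.Agent.S18.NCh0Unram
import Fermat.Agent.S18.Charts0Inst

/-!
# S18, leaf N / INST-fin: the fields `span` and `int` of `FA_S18_U_GlueHyp` at `F_M ⊂ F_n`

Verbatim the two fields of the instance of `FA_S18.FA_S18_U_GlueHyp` with
`O = FA_S18_FI_O A π F_M hval`, `O' = FA_S18_FI_O' A π F_n`, `red = FA_S18_FI_red …`,
`red' = FA_S18_FI_red' …`, `RQ = (FA_S18_H2_Bf M).toSubring`, `BQ = (FA_S18_H2_Bf n).toSubring`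
(`π = FA_S18_pi A`), the algebra `F̄_M → F̄_n` being the inclusion.

* `FA_S18_FIS_span` : the field `span`;
* `FA_S18_FIS_int` : the field `int`.
-/

set_option autoImplicit false
set_option linter.unusedSectionVars false
set_option linter.style.haveILetI false

noncomputable section

namespace Fermat.Agent.S18

open FA_S18 ModularCurve Polynomial

variable (A : ValuationSubring (AlgebraicClosure ℚ)) (M n : ℕ) [NeZero M] [NeZero n]

/-- The Laurent series of `Q(j) ∈ F_M`, `Q ∈ A[X]`. -/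
theorem FA_S18_FIS_coe_aeval (Q : (↥A)[X]) :
    ((aeval (FA_S18_A_jbar M) (Q.map A.subtype) : ↥(modularFunctionFieldBar M)) :
        LaurentSeries (AlgebraicClosure ℚ))
      = coeffMap A.subtype (FA_S18_B_ev (jqModC ↥A) Q) := by
  rw [FA_S18_B_coeffMap_ev, coeffMap_jqModC, ← FA_S18_B_aeval_eq_ev, ← FA_S18_I_jbar_coe M]
  exact (Polynomial.aeval_algHom_apply (modularFunctionFieldBar M).val _ _).symm

theorem FA_S18_FIS_aeval_isInt (Q : (↥A)[X]) :
    FA_S18_B_IsInt A (FA_S18_pi A)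
      ((aeval (FA_S18_A_jbar M) (Q.map A.subtype) : ↥(modularFunctionFieldBar M)) :
        LaurentSeries (AlgebraicClosure ℚ)) := by
  rw [FA_S18_FIS_coe_aeval]
  exact FA_S18_B_isInt_iota _

theorem FA_S18_FIS_aeval_red (Q : (↥A)[X]) :
    FA_S18_B_red A (FA_S18_pi A)
      ((aeval (FA_S18_A_jbar M) (Q.map A.subtype) : ↥(modularFunctionFieldBar M)) :
        LaurentSeries (AlgebraicClosure ℚ))
      = FA_S18_B_ev (jqModC (IsLocalRing.ResidueField ↥A)) (Q.map (FA_S18_pi A)) := by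
  rw [FA_S18_FIS_coe_aeval, FA_S18_B_red_iota, FA_S18_B_coeffMap_ev, coeffMap_jqModC]

theorem FA_S18_FIS_aeval_mem_Bf (P : (AlgebraicClosure ℚ)[X]) :
    aeval (FA_S18_A_jbar M) P ∈ FA_S18_H2_Bf M := by
  have h1 : aeval (FA_S18_A_jbar M) P ∈ Algebra.adjoin (AlgebraicClosure ℚ) {FA_S18_A_jbar M} :=
    Polynomial.aeval_mem_adjoin_singleton _ _
  have h2 : Algebra.adjoin (AlgebraicClosure ℚ) {FA_S18_A_jbar M} ≤ FA_S18_H2_Bf M :=
    Algebra.adjoin_le (Set.singleton_subset_iff.mpr (FA_S18_H2_j_mem_Bf M))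
  exact h2 h1

/-- `Q(j)` as an element of the Gauss valuation ring of `F_M`. -/
def FA_S18_FIS_sQ (hval : FA_S18_FI_Val A (FA_S18_pi A) (modularFunctionFieldBar M))
    (Q : (↥A)[X]) : ↥(FA_S18_FI_O A (FA_S18_pi A) (modularFunctionFieldBar M) hval) :=
  ⟨aeval (FA_S18_A_jbar M) (Q.map A.subtype), FA_S18_FIS_aeval_isInt A M Q⟩

theorem FA_S18_FIS_sQ_mem (hval : FA_S18_FI_Val A (FA_S18_pi A) (modularFunctionFieldBar M))
    (Q : (↥A)[X]) :
    ((FA_S18_FIS_sQ A M hval Q : ↥(FA_S18_FI_O A (FA_S18_pi A) (modularFunctionFieldBar M) hval)) :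
      ↥(modularFunctionFieldBar M)) ∈ (FA_S18_H2_Bf M).toSubring :=
  FA_S18_FIS_aeval_mem_Bf M _

theorem FA_S18_FIS_sQ_red (hval : FA_S18_FI_Val A (FA_S18_pi A) (modularFunctionFieldBar M))
    (hrM : FA_S18_FI_Range A (FA_S18_pi A) (modularFunctionFieldBar M)
      (modularFunctionFieldFullC (IsLocalRing.ResidueField ↥A) M)) (Q : (↥A)[X]) :
    ((FA_S18_FI_red A (FA_S18_pi A) (modularFunctionFieldBar M)
        (modularFunctionFieldFullC (IsLocalRing.ResidueField ↥A) M) hval hrM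
        (FA_S18_FIS_sQ A M hval Q) :
        ↥(modularFunctionFieldFullC (IsLocalRing.ResidueField ↥A) M)) :
      LaurentSeries (IsLocalRing.ResidueField ↥A))
      = FA_S18_B_ev (jqModC (IsLocalRing.ResidueField ↥A)) (Q.map (FA_S18_pi A)) := by
  rw [FA_S18_FI_red_coe]
  exact FA_S18_FIS_aeval_red A M Q

/-- Membership in `Bf n` from integrality of the Laurent series over `ℚ̄[j]`. -/
theorem FA_S18_FIS_mem_Bf_iff (y : ↥(modularFunctionFieldBar n)) :
    y ∈ (FA_S18_H2_Bf n).toSubring ↔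
      IsIntegral ↥(Algebra.adjoin (AlgebraicClosure ℚ) {jqModC (AlgebraicClosure ℚ)})
        (y : LaurentSeries (AlgebraicClosure ℚ)) := by
  rw [← FA_S18_I_jbar_coe n, ← FA_S18_BASE_isIntegral_coe_iff_singleton]
  exact Iff.rfl

/-- **The field `span`** of the instance of `FA_S18_U_GlueHyp` at `F_M ⊂ F_n`. -/
theorem FA_S18_FIS_span (hMn : M ∣ n) {ℓ : ℕ} (hℓ : ℓ.Prime) (hA : A.LiesOverPrime ℓ)
    (hn : ¬ ℓ ∣ n)
    (hval : FA_S18_FI_Val A (FA_S18_pi A) (modularFunctionFieldBar M))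
    (hrM : FA_S18_FI_Range A (FA_S18_pi A) (modularFunctionFieldBar M)
      (modularFunctionFieldFullC (IsLocalRing.ResidueField ↥A) M))
    (hrn : FA_S18_FI_Range A (FA_S18_pi A) (modularFunctionFieldBar n)
      (modularFunctionFieldFullC (IsLocalRing.ResidueField ↥A) n)) :
    letI : Algebra ↥(modularFunctionFieldFullC (IsLocalRing.ResidueField ↥A) M)
        ↥(modularFunctionFieldFullC (IsLocalRing.ResidueField ↥A) n) :=
      (IntermediateField.inclusion
        (full_degeneracyC_le (IsLocalRing.ResidueField ↥A) hMn)).toRingHom.toAlgebra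
    ∀ t : ↥(modularFunctionFieldFullC (IsLocalRing.ResidueField ↥A) n),
      ∃ (c : ↥(FA_S18_FI_O' A (FA_S18_pi A) (modularFunctionFieldBar n)))
        (s : ↥(FA_S18_FI_O A (FA_S18_pi A) (modularFunctionFieldBar M) hval)),
        (c : ↥(modularFunctionFieldBar n)) ∈ (FA_S18_H2_Bf n).toSubring ∧
        (s : ↥(modularFunctionFieldBar M)) ∈ (FA_S18_H2_Bf M).toSubring ∧
        FA_S18_FI_red A (FA_S18_pi A) (modularFunctionFieldBar M)
          (modularFunctionFieldFullC (IsLocalRing.ResidueField ↥A) M) hval hrM s ≠ 0 ∧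
        algebraMap ↥(modularFunctionFieldFullC (IsLocalRing.ResidueField ↥A) M)
            ↥(modularFunctionFieldFullC (IsLocalRing.ResidueField ↥A) n)
            (FA_S18_FI_red A (FA_S18_pi A) (modularFunctionFieldBar M)
              (modularFunctionFieldFullC (IsLocalRing.ResidueField ↥A) M) hval hrM s) * t
          = FA_S18_FI_red' A (FA_S18_pi A) (modularFunctionFieldBar n)
              (modularFunctionFieldFullC (IsLocalRing.ResidueField ↥A) n) hrn c := by
  letI : Algebra ↥(modularFunctionFieldFullC (IsLocalRing.ResidueField ↥A) M)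
      ↥(modularFunctionFieldFullC (IsLocalRing.ResidueField ↥A) n) :=
    (IntermediateField.inclusion
      (full_degeneracyC_le (IsLocalRing.ResidueField ↥A) hMn)).toRingHom.toAlgebra
  intro t
  obtain ⟨c, Q, hc, hint, hI, hQ, hred⟩ := FA_S18_FIS_span_laurent A n hℓ hA hn
    (t : LaurentSeries (IsLocalRing.ResidueField ↥A)) t.2
  refine ⟨⟨⟨c, hc⟩, hint⟩, FA_S18_FIS_sQ A M hval Q, ?_, FA_S18_FIS_sQ_mem A M hval Q, ?_, ?_⟩
  · exact (FA_S18_FIS_mem_Bf_iff n ⟨c, hc⟩).2 hI
  · intro h0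
    have h1 := congrArg (fun z : ↥(modularFunctionFieldFullC (IsLocalRing.ResidueField ↥A) M) =>
      (z : LaurentSeries (IsLocalRing.ResidueField ↥A))) h0
    simp only [ZeroMemClass.coe_zero] at h1
    rw [FA_S18_FIS_sQ_red] at h1
    exact hQ (FA_S18_B_ev_j_eq_zero _ _ h1)
  · apply Subtype.ext
    rw [FA_S18_FI_red'_coe]
    show ((FA_S18_FI_red A (FA_S18_pi A) (modularFunctionFieldBar M)
        (modularFunctionFieldFullC (IsLocalRing.ResidueField ↥A) M) hval hrM
        (FA_S18_FIS_sQ A M hval Q) :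
        ↥(modularFunctionFieldFullC (IsLocalRing.ResidueField ↥A) M)) :
      LaurentSeries (IsLocalRing.ResidueField ↥A))
        * (t : LaurentSeries (IsLocalRing.ResidueField ↥A)) = _
    rw [FA_S18_FIS_sQ_red]
    exact hred.symm

/-- `jqModC kk ∈ F̄_M`. -/
theorem FA_S18_FIS_jb_mem
    (hrM : FA_S18_FI_Range A (FA_S18_pi A) (modularFunctionFieldBar M)
      (modularFunctionFieldFullC (IsLocalRing.ResidueField ↥A) M)) :
    jqModC (IsLocalRing.ResidueField ↥A)
      ∈ modularFunctionFieldFullC (IsLocalRing.ResidueField ↥A) M := by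
  rw [← FA_S18_I_jbar_red A M]
  exact hrM _ (FA_S18_A_jbar M).2 (FA_S18_I_jbar_isInt A M)

/-- `kk[X] → F̄_M`, `P ↦ P(j̄)`. -/
def FA_S18_FIS_g0
    (hrM : FA_S18_FI_Range A (FA_S18_pi A) (modularFunctionFieldBar M)
      (modularFunctionFieldFullC (IsLocalRing.ResidueField ↥A) M)) :
    (IsLocalRing.ResidueField ↥A)[X] →+*
      ↥(modularFunctionFieldFullC (IsLocalRing.ResidueField ↥A) M) :=
  (FA_S18_B3_evHom (jqModC (IsLocalRing.ResidueField ↥A))).codRestrict
    (modularFunctionFieldFullC (IsLocalRing.ResidueField ↥A) M)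
    (fun P => FA_S18_B_ev_mem _ (FA_S18_FIS_jb_mem A M hrM) P)

theorem FA_S18_FIS_g0_coe
    (hrM : FA_S18_FI_Range A (FA_S18_pi A) (modularFunctionFieldBar M)
      (modularFunctionFieldFullC (IsLocalRing.ResidueField ↥A) M))
    (P : (IsLocalRing.ResidueField ↥A)[X]) :
    ((FA_S18_FIS_g0 A M hrM P : ↥(modularFunctionFieldFullC (IsLocalRing.ResidueField ↥A) M)) :
      LaurentSeries (IsLocalRing.ResidueField ↥A))
      = FA_S18_B_ev (jqModC (IsLocalRing.ResidueField ↥A)) P := rfl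

/-- `kk[j̄] ⊆ Rb`. -/
theorem FA_S18_FIS_g0_mem (hval : FA_S18_FI_Val A (FA_S18_pi A) (modularFunctionFieldBar M))
    (hrM : FA_S18_FI_Range A (FA_S18_pi A) (modularFunctionFieldBar M)
      (modularFunctionFieldFullC (IsLocalRing.ResidueField ↥A) M))
    (P : (IsLocalRing.ResidueField ↥A)[X]) :
    FA_S18_FIS_g0 A M hrM P ∈ FA_S18_U_Rb (FA_S18_FI_O A (FA_S18_pi A) (modularFunctionFieldBar M) hval)
      (FA_S18_FI_red A (FA_S18_pi A) (modularFunctionFieldBar M)
        (modularFunctionFieldFullC (IsLocalRing.ResidueField ↥A) M) hval hrM)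
      (FA_S18_H2_Bf M).toSubring := by
  obtain ⟨Q, rfl⟩ := Polynomial.map_surjective (FA_S18_pi A) IsLocalRing.residue_surjective P
  rw [FA_S18_U_mem_Rb]
  refine ⟨FA_S18_FIS_sQ A M hval Q, FA_S18_FIS_sQ_mem A M hval Q, ?_⟩
  apply Subtype.ext
  rw [FA_S18_FIS_sQ_red, FA_S18_FIS_g0_coe]

/-- `kk[X] → Rb`, `P ↦ P(j̄)`. -/
def FA_S18_FIS_g (hval : FA_S18_FI_Val A (FA_S18_pi A) (modularFunctionFieldBar M))
    (hrM : FA_S18_FI_Range A (FA_S18_pi A) (modularFunctionFieldBar M)
      (modularFunctionFieldFullC (IsLocalRing.ResidueField ↥A) M)) :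
    (IsLocalRing.ResidueField ↥A)[X] →+*
      ↥(FA_S18_U_Rb (FA_S18_FI_O A (FA_S18_pi A) (modularFunctionFieldBar M) hval)
        (FA_S18_FI_red A (FA_S18_pi A) (modularFunctionFieldBar M)
          (modularFunctionFieldFullC (IsLocalRing.ResidueField ↥A) M) hval hrM)
        (FA_S18_H2_Bf M).toSubring) :=
  (FA_S18_FIS_g0 A M hrM).codRestrict _ (fun P => FA_S18_FIS_g0_mem A M hval hrM P)

/-- **The field `int`** of the instance of `FA_S18_U_GlueHyp` at `F_M ⊂ F_n`. -/
theorem FA_S18_FIS_int (hMn : M ∣ n) {ℓ : ℕ} (hℓ : ℓ.Prime) (hA : A.LiesOverPrime ℓ)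
    (hn : ¬ ℓ ∣ n)
    (hval : FA_S18_FI_Val A (FA_S18_pi A) (modularFunctionFieldBar M))
    (hrM : FA_S18_FI_Range A (FA_S18_pi A) (modularFunctionFieldBar M)
      (modularFunctionFieldFullC (IsLocalRing.ResidueField ↥A) M))
    (hrn : FA_S18_FI_Range A (FA_S18_pi A) (modularFunctionFieldBar n)
      (modularFunctionFieldFullC (IsLocalRing.ResidueField ↥A) n)) :
    letI : Algebra ↥(modularFunctionFieldFullC (IsLocalRing.ResidueField ↥A) M)
        ↥(modularFunctionFieldFullC (IsLocalRing.ResidueField ↥A) n) :=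
      (IntermediateField.inclusion
        (full_degeneracyC_le (IsLocalRing.ResidueField ↥A) hMn)).toRingHom.toAlgebra
    ∀ y : ↥(FA_S18_FI_O' A (FA_S18_pi A) (modularFunctionFieldBar n)),
      (y : ↥(modularFunctionFieldBar n)) ∈ (FA_S18_H2_Bf n).toSubring →
      IsIntegral
        ↥(FA_S18_U_Rb (FA_S18_FI_O A (FA_S18_pi A) (modularFunctionFieldBar M) hval)
          (FA_S18_FI_red A (FA_S18_pi A) (modularFunctionFieldBar M)
            (modularFunctionFieldFullC (IsLocalRing.ResidueField ↥A) M) hval hrM)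
          (FA_S18_H2_Bf M).toSubring)
        (FA_S18_FI_red' A (FA_S18_pi A) (modularFunctionFieldBar n)
          (modularFunctionFieldFullC (IsLocalRing.ResidueField ↥A) n) hrn y) := by
  letI : Algebra ↥(modularFunctionFieldFullC (IsLocalRing.ResidueField ↥A) M)
      ↥(modularFunctionFieldFullC (IsLocalRing.ResidueField ↥A) n) :=
    (IntermediateField.inclusion
      (full_degeneracyC_le (IsLocalRing.ResidueField ↥A) hMn)).toRingHom.toAlgebra
  intro y hy
  obtain ⟨R, hR, hRy⟩ := FA_S18_FIS_int_laurent A n hℓ hA hn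
    ((y : ↥(modularFunctionFieldBar n)) : LaurentSeries (AlgebraicClosure ℚ))
    (y : ↥(modularFunctionFieldBar n)).2 y.2 ((FA_S18_FIS_mem_Bf_iff n _).1 hy)
  refine ⟨R.map (FA_S18_FIS_g A M hval hrM), hR.map _, ?_⟩
  rw [Polynomial.eval₂_map]
  have h1 := Polynomial.hom_eval₂ R
    ((algebraMap
      ↥(FA_S18_U_Rb (FA_S18_FI_O A (FA_S18_pi A) (modularFunctionFieldBar M) hval)
          (FA_S18_FI_red A (FA_S18_pi A) (modularFunctionFieldBar M)
            (modularFunctionFieldFullC (IsLocalRing.ResidueField ↥A) M) hval hrM)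
          (FA_S18_H2_Bf M).toSubring)
      ↥(modularFunctionFieldFullC (IsLocalRing.ResidueField ↥A) n)).comp
      (FA_S18_FIS_g A M hval hrM))
    ((modularFunctionFieldFullC (IsLocalRing.ResidueField ↥A) n).val :
      ↥(modularFunctionFieldFullC (IsLocalRing.ResidueField ↥A) n) →+*
        LaurentSeries (IsLocalRing.ResidueField ↥A))
    (FA_S18_FI_red' A (FA_S18_pi A) (modularFunctionFieldBar n)
          (modularFunctionFieldFullC (IsLocalRing.ResidueField ↥A) n) hrn y)
  have hcomp : ((modularFunctionFieldFullC (IsLocalRing.ResidueField ↥A) n).val :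
      ↥(modularFunctionFieldFullC (IsLocalRing.ResidueField ↥A) n) →+*
        LaurentSeries (IsLocalRing.ResidueField ↥A)).comp
      ((algebraMap
      ↥(FA_S18_U_Rb (FA_S18_FI_O A (FA_S18_pi A) (modularFunctionFieldBar M) hval)
          (FA_S18_FI_red A (FA_S18_pi A) (modularFunctionFieldBar M)
            (modularFunctionFieldFullC (IsLocalRing.ResidueField ↥A) M) hval hrM)
          (FA_S18_H2_Bf M).toSubring)
      ↥(modularFunctionFieldFullC (IsLocalRing.ResidueField ↥A) n)).comp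
      (FA_S18_FIS_g A M hval hrM))
      = FA_S18_B3_evHom (jqModC (IsLocalRing.ResidueField ↥A)) :=
    RingHom.ext fun P => rfl
  rw [hcomp] at h1
  apply Subtype.ext
  exact h1.trans hRy

end Fermat.Agent.S18

end
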