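import Fermat.Agent.S18.FinInst
import Fermat.Agent.S18.FinInstIc
import Fermat.Agent.S18.FinInstSpanB

/-!
# S18, leaf N, INST-fin: the reduced finite chart is closed under `p`-th roots

`FA_S18_FI_icl_fin` : for `M ∣ n`, `M = 4` or `9`, `ℓ ∤ n`: `x ^ p ∈ red (Bf n ∩ O)` implies
`x ∈ red (Bf n ∩ O)` (first half of `FA_S18_I_Target_N_icl`), unconditionally.

Inputs: the glueing theorem `FA_S18_U_glue` (`S18/UnimodGlue.lean`) at `F_M ⊂ F_n`; its fields
`deg` (`S18/SepDeg.lean`), `smul_mem`/`tr_mem`/`dual`/`fg` (`S18/NCh0Glue.lean`), `points`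
(`S18/PointsInst.lean`), `ic`/`frac` (`S18/FinInstIc.lean`), `int`/`span`
(`S18/FinInstSpanB.lean`), and separability (`S18/SepBar.lean`).
-/

set_option autoImplicit false
set_option linter.unusedSectionVars false
set_option linter.style.haveILetI false

noncomputable section

namespace Fermat.Agent.S18

open ModularCurve Fermat.Agent.S24 FA_S18

variable (A : ValuationSubring (AlgebraicClosure ℚ)) (M n : ℕ) [NeZero M] [NeZero n]

set_option synthInstance.maxHeartbeats 400000 in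
set_option maxHeartbeats 1000000 in
/-- **INST-fin**: `red (Bf n ∩ O)` is closed under `p`-th roots in `F̄_n`
(`M ∣ n`, `M = 4` or `9`, `ℓ ∤ n`, `p > 0`). -/
theorem FA_S18_FI_icl_fin (hMn : M ∣ n) (h49 : M = 4 ∨ M = 9) {ℓ : ℕ} (hℓ : ℓ.Prime)
    (hA : A.LiesOverPrime ℓ) (hn : ¬ ℓ ∣ n) (h : FA_S18_I_Range A n) (p : ℕ) (hp : 0 < p)
    (x : ↥(modularFunctionFieldFullC (IsLocalRing.ResidueField ↥A) n))
    (hx : x ^ p ∈ FA_S18_I_redAlg A n h (FA_S18_H2_Bf n)) :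
    x ∈ FA_S18_I_redAlg A n h (FA_S18_H2_Bf n) := by
  have hM : ¬ ℓ ∣ M := fun h => hn (h.trans hMn)
  have hval := FA_S18_FI_hval A M hℓ hA hM
  have hrM : FA_S18_FI_Range A (FA_S18_pi A) (modularFunctionFieldBar M)
      (modularFunctionFieldFullC (IsLocalRing.ResidueField ↥A) M) :=
    (FA_S18_B_range_inst A M ℓ hℓ hA hM).1
  have hicfrac := FA_S18_FIC_ic_frac A M hℓ hA hM h49 hval hrM
  exact FA_S18_FI_icl_fin_of A M n hMn h49 hℓ hA hn hval hrM h hicfrac.1 hicfrac.2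
    (FA_S18_FIS_int A M n hMn hℓ hA hn hval hrM h)
    (FA_S18_FIS_span A M n hMn hℓ hA hn hval hrM h) p hp x hx

/-- **INST-fin at the auxiliary level `n = N·r²`**, `r ∈ {2, 3}`. -/
theorem FA_S18_FI_icl_fin_aux (N : ℕ) [NeZero N] (r : ℕ) (hr23 : r = 2 ∨ r = 3)
    (hn' : n = N * (r * r)) {ℓ : ℕ} (hℓ : ℓ.Prime)
    (hA : A.LiesOverPrime ℓ) (hn : ¬ ℓ ∣ n) (h : FA_S18_I_Range A n) (p : ℕ) (hp : 0 < p)
    (x : ↥(modularFunctionFieldFullC (IsLocalRing.ResidueField ↥A) n))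
    (hx : x ^ p ∈ FA_S18_I_redAlg A n h (FA_S18_H2_Bf n)) :
    x ∈ FA_S18_I_redAlg A n h (FA_S18_H2_Bf n) := by
  have hrpos : r * r ≠ 0 := by rcases hr23 with h | h <;> rw [h] <;> norm_num
  haveI : NeZero (r * r) := ⟨hrpos⟩
  have hMn : r * r ∣ n := by rw [hn']; exact Dvd.intro_left N rfl
  have h49 : r * r = 4 ∨ r * r = 9 := by
    rcases hr23 with h | h
    · left; rw [h]
    · right; rw [h]
  exact FA_S18_FI_icl_fin A (r * r) n hMn h49 hℓ hA hn h p hp x hx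

end Fermat.Agent.S18
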