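import Mathlib

/-!
# S18, leaf F (abstract core): the connectedness lemma

`A` a commutative ring with an ideal `𝔪` such that any two elements of `𝔪` have a common divisor in `𝔪`
dividing both (true in a valuation ring) and such that every power-sequence of an element of `𝔪` is
eventually divisible by any given nonzero `π` (rank one).  `R` a commutative `A`-algebra with two
subalgebras `R₁`, `R₂` such that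

* (H0) `R₁ ∩ R₂ = A`;
* (H2) the torsion of `R / (R₁ + R₂)` is killed by one element `c ≠ 0`.

Then an idempotent of the "special fibre" which is defined on both charts is constant:
if `a₁ ∈ R₁`, `a₂ ∈ R₂` are idempotent modulo `𝔪 R₁`, `𝔪 R₂` and congruent modulo `𝔪 R`, then
`a₁ ≡ α` modulo `𝔪 R₁` for some `α ∈ A`.
-/

set_option autoImplicit false

namespace FA_S18

variable {A : Type*} [CommRing A] {R : Type*} [CommRing R] [Algebra A R]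

/-- `x ∈ 𝔪 · S` in the strong form `x = m • r`, `m ∈ 𝔪`, `r ∈ S`. -/
def FA_S18_Small (𝔪 : Ideal A) (S : Subalgebra A R) (x : R) : Prop :=
  ∃ m ∈ 𝔪, ∃ r ∈ S, x = m • r

/-- `x ∈ π · S`. -/
def FA_S18_Div (π : A) (S : Subalgebra A R) (x : R) : Prop :=
  ∃ r ∈ S, x = π • r

theorem FA_S18_small_add {𝔪 : Ideal A} {S : Subalgebra A R}
    (hV : ∀ m₁ ∈ 𝔪, ∀ m₂ ∈ 𝔪, ∃ m ∈ 𝔪, m ∣ m₁ ∧ m ∣ m₂)
    {x y : R} (hx : FA_S18_Small 𝔪 S x) (hy : FA_S18_Small 𝔪 S y) :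
    FA_S18_Small 𝔪 S (x + y) := by
  obtain ⟨m₁, hm₁, r₁, hr₁, rfl⟩ := hx
  obtain ⟨m₂, hm₂, r₂, hr₂, rfl⟩ := hy
  obtain ⟨m, hm, ⟨u₁, rfl⟩, ⟨u₂, rfl⟩⟩ := hV m₁ hm₁ m₂ hm₂
  refine ⟨m, hm, u₁ • r₁ + u₂ • r₂, S.add_mem (S.smul_mem hr₁ _) (S.smul_mem hr₂ _), ?_⟩
  simp only [smul_add, smul_smul]

theorem FA_S18_small_neg {𝔪 : Ideal A} {S : Subalgebra A R}
    {x : R} (hx : FA_S18_Small 𝔪 S x) : FA_S18_Small 𝔪 S (-x) := by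
  obtain ⟨m, hm, r, hr, rfl⟩ := hx
  exact ⟨m, hm, -r, S.neg_mem hr, by simp⟩

theorem FA_S18_small_mul_right {𝔪 : Ideal A} {S : Subalgebra A R}
    {x y : R} (hx : FA_S18_Small 𝔪 S x) (hy : y ∈ S) : FA_S18_Small 𝔪 S (x * y) := by
  obtain ⟨m, hm, r, hr, rfl⟩ := hx
  exact ⟨m, hm, r * y, S.mul_mem hr hy, by simp⟩

theorem FA_S18_small_mem {𝔪 : Ideal A} {S : Subalgebra A R}
    {x : R} (hx : FA_S18_Small 𝔪 S x) : x ∈ S := by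
  obtain ⟨m, _, r, hr, rfl⟩ := hx
  exact S.smul_mem hr m

theorem FA_S18_small_mono {𝔪 : Ideal A} {S T : Subalgebra A R} (hST : S ≤ T)
    {x : R} (hx : FA_S18_Small 𝔪 S x) : FA_S18_Small 𝔪 T x := by
  obtain ⟨m, hm, r, hr, rfl⟩ := hx
  exact ⟨m, hm, r, hST hr, rfl⟩

/-- One Newton step for idempotents: `e ↦ 3e² − 2e³`. -/
theorem FA_S18_newton_step {S : Subalgebra A R} {e : R} (he : e ∈ S) {m : A} {r : R} (hr : r ∈ S)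
    (h : e ^ 2 - e = m • r) :
    ∃ e' ∈ S, (∃ s ∈ S, e' - e = m • s) ∧ ∃ r' ∈ S, e' ^ 2 - e' = (m ^ 2) • r' := by
  refine ⟨3 * e ^ 2 - 2 * e ^ 3, ?_, ⟨r * (1 - 2 * e), ?_, ?_⟩, ⟨r ^ 2 * (4 * e ^ 2 - 4 * e - 3), ?_, ?_⟩⟩
  · have h3 : (3 : R) ∈ S := ofNat_mem S 3
    have h2 : (2 : R) ∈ S := ofNat_mem S 2
    exact S.sub_mem (S.mul_mem h3 (S.pow_mem he 2)) (S.mul_mem h2 (S.pow_mem he 3))
  · have h2 : (2 : R) ∈ S := ofNat_mem S 2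
    exact S.mul_mem hr (S.sub_mem S.one_mem (S.mul_mem h2 he))
  · have : m • (r * (1 - 2 * e)) = (m • r) * (1 - 2 * e) := by simp
    rw [this, ← h]; ring
  · have h3 : (3 : R) ∈ S := ofNat_mem S 3
    have h4 : (4 : R) ∈ S := ofNat_mem S 4
    exact S.mul_mem (S.pow_mem hr 2)
      (S.sub_mem (S.sub_mem (S.mul_mem h4 (S.pow_mem he 2)) (S.mul_mem h4 he)) h3)
  · have : (m ^ 2) • (r ^ 2 * (4 * e ^ 2 - 4 * e - 3)) = (m • r) ^ 2 * (4 * e ^ 2 - 4 * e - 3) := by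
      rw [smul_pow]; simp
    rw [this, ← h]; ring

/-- Iterated Newton: from an idempotent modulo `m` to an idempotent modulo `m ^ (2 ^ n)`,
staying in the same class modulo `m`. -/
theorem FA_S18_newton_iter {S : Subalgebra A R} {m : A} (n : ℕ) :
    ∀ {e : R}, e ∈ S → ∀ {r : R}, r ∈ S → e ^ 2 - e = m • r →
    ∃ e' ∈ S, (∃ s ∈ S, e' - e = m • s) ∧ ∃ r' ∈ S, e' ^ 2 - e' = (m ^ (2 ^ n)) • r' := by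
  induction n with
  | zero =>
    intro e he r hr h
    exact ⟨e, he, ⟨0, S.zero_mem, by simp⟩, ⟨r, hr, by simpa using h⟩⟩
  | succ n ih =>
    intro e he r hr h
    obtain ⟨e₁, he₁, ⟨s₁, hs₁, hes₁⟩, r₁, hr₁, h₁⟩ := ih he hr h
    obtain ⟨e₂, he₂, ⟨s₂, hs₂, hes₂⟩, r₂, hr₂, h₂⟩ := FA_S18_newton_step he₁ hr₁ h₁
    refine ⟨e₂, he₂, ⟨m ^ (2 ^ n - 1) • s₂ + s₁, S.add_mem (S.smul_mem hs₂ _) hs₁, ?_⟩, ⟨r₂, hr₂, ?_⟩⟩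
    · have hpos : 0 < 2 ^ n := by positivity
      have hm : m * m ^ (2 ^ n - 1) = m ^ (2 ^ n) := by
        rw [← pow_succ']; congr 1; omega
      have : e₂ - e = (e₂ - e₁) + (e₁ - e) := by ring
      rw [this, hes₂, hes₁, smul_add, smul_smul, hm]
    · rw [h₂, ← pow_mul, pow_succ]

/-- **Connectedness lemma.**  `R₁, R₂ ≤ R₁₂` subalgebras of a commutative `A`-algebra. -/
theorem FA_S18_conn (𝔪 : Ideal A)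
    (hV : ∀ m₁ ∈ 𝔪, ∀ m₂ ∈ 𝔪, ∃ m ∈ 𝔪, m ∣ m₁ ∧ m ∣ m₂)
    (hrank : ∀ m ∈ 𝔪, ∀ π : A, π ≠ 0 → ∃ n : ℕ, π ∣ m ^ n)
    (π₀ : A) (hπ₀ : π₀ ∈ 𝔪) (hπ₀0 : π₀ ≠ 0) (hdom : ∀ a b : A, a ≠ 0 → b ≠ 0 → a * b ≠ 0)
    (R₁ R₂ R₁₂ : Subalgebra A R) (h1 : R₁ ≤ R₁₂) (h2 : R₂ ≤ R₁₂)
    (H0 : ∀ x : R, x ∈ R₁ → x ∈ R₂ → ∃ a : A, x = algebraMap A R a)
    (H2 : ∃ c : A, c ≠ 0 ∧ ∀ b ∈ R₁₂, (∃ π : A, π ≠ 0 ∧ ∃ u ∈ R₁, ∃ w ∈ R₂, π • b = u + w) →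
      ∃ u ∈ R₁, ∃ w ∈ R₂, c • b = u + w)
    (a₁ a₂ : R) (ha₁ : a₁ ∈ R₁) (ha₂ : a₂ ∈ R₂)
    (hid₁ : FA_S18_Small 𝔪 R₁ (a₁ ^ 2 - a₁)) (hid₂ : FA_S18_Small 𝔪 R₂ (a₂ ^ 2 - a₂))
    (h12 : FA_S18_Small 𝔪 R₁₂ (a₁ - a₂)) :
    ∃ α : A, FA_S18_Small 𝔪 R₁ (a₁ - algebraMap A R α) := by
  obtain ⟨c, hc, H2⟩ := H2
  set π₁ : A := c * π₀ with hπ₁
  have hπ₁0 : π₁ ≠ 0 := hdom c π₀ hc hπ₀0
  -- lift the idempotents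
  obtain ⟨m₁, hm₁, r₁, hr₁, h₁⟩ := hid₁
  obtain ⟨m₂, hm₂, r₂, hr₂, h₂⟩ := hid₂
  obtain ⟨m₃, hm₃, r₃, hr₃, h₃⟩ := h12
  -- common divisor of m₁ m₂ m₃
  obtain ⟨m', hm', hm'1, hm'2⟩ := hV m₁ hm₁ m₂ hm₂
  obtain ⟨m, hm, hmm', ⟨u₃, hu₃⟩⟩ := hV m' hm' m₃ hm₃
  obtain ⟨u₁, hu₁⟩ := hmm'.trans hm'1
  obtain ⟨u₂, hu₂⟩ := hmm'.trans hm'2
  have h₁' : a₁ ^ 2 - a₁ = m • (u₁ • r₁) := by rw [h₁, hu₁, smul_smul]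
  have h₂' : a₂ ^ 2 - a₂ = m • (u₂ • r₂) := by rw [h₂, hu₂, smul_smul]
  have h₃' : a₁ - a₂ = m • (u₃ • r₃) := by rw [h₃, hu₃, smul_smul]
  obtain ⟨N, hN⟩ := hrank m hm π₁ hπ₁0
  have hN2 : π₁ ∣ m ^ (2 ^ N) := by
    have : N ≤ 2 ^ N := Nat.lt_two_pow_self.le
    exact hN.trans (pow_dvd_pow m this)
  obtain ⟨e₁, he₁, ⟨s₁, hs₁, hes₁⟩, t₁, ht₁, hE₁⟩ :=
    FA_S18_newton_iter (S := R₁) (m := m) N ha₁ (R₁.smul_mem hr₁ u₁) h₁'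
  obtain ⟨e₂, he₂, ⟨s₂, hs₂, hes₂⟩, t₂, ht₂, hE₂⟩ :=
    FA_S18_newton_iter (S := R₂) (m := m) N ha₂ (R₂.smul_mem hr₂ u₂) h₂'
  obtain ⟨v, hv⟩ := hN2
  have hE₁' : e₁ ^ 2 - e₁ = π₁ • (v • t₁) := by rw [hE₁, hv, smul_smul]
  have hE₂' : e₂ ^ 2 - e₂ = π₁ • (v • t₂) := by rw [hE₂, hv, smul_smul]
  have he₁' : e₁ ∈ R₁₂ := h1 he₁
  have he₂' : e₂ ∈ R₁₂ := h2 he₂
  have hone : (1 : R) ∈ R₁₂ := R₁₂.one_mem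
  have h3m : (3 : R) ∈ R₁₂ := ofNat_mem R₁₂ 3
  -- d = e₁ - e₂ = m • x
  set x : R := s₁ - s₂ + u₃ • r₃ with hx
  have hxm : x ∈ R₁₂ := R₁₂.add_mem (R₁₂.sub_mem (h1 hs₁) (h2 hs₂)) (R₁₂.smul_mem hr₃ _)
  have hd : e₁ - e₂ = m • x := by
    have : e₁ - e₂ = (e₁ - a₁) - (e₂ - a₂) + (a₁ - a₂) := by ring
    rw [this, hes₁, hes₂, h₃', hx]; simp only [smul_add, smul_sub]
  have hdm : e₁ - e₂ ∈ R₁₂ := R₁₂.sub_mem he₁' he₂'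
  -- d^3 - d ∈ π₁ R₁₂
  have hd3 : ∃ y ∈ R₁₂, (e₁ - e₂) ^ 3 - (e₁ - e₂) = π₁ • y := by
    refine ⟨(v • t₁) * (e₁ + 1 - 3 * e₂) - (v • t₂) * (e₂ + 1 - 3 * e₁), ?_, ?_⟩
    · exact R₁₂.sub_mem
        (R₁₂.mul_mem (R₁₂.smul_mem (h1 ht₁) _)
          (R₁₂.sub_mem (R₁₂.add_mem he₁' hone) (R₁₂.mul_mem h3m he₂')))
        (R₁₂.mul_mem (R₁₂.smul_mem (h2 ht₂) _)
          (R₁₂.sub_mem (R₁₂.add_mem he₂' hone) (R₁₂.mul_mem h3m he₁')))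
    · have : (e₁ - e₂) ^ 3 - (e₁ - e₂)
          = (e₁ ^ 2 - e₁) * (e₁ + 1 - 3 * e₂) - (e₂ ^ 2 - e₂) * (e₂ + 1 - 3 * e₁) := by ring
      rw [this, hE₁', hE₂']
      simp only [smul_sub, smul_mul_assoc]
  obtain ⟨y, hym, hy⟩ := hd3
  have hpow : ∀ k : ℕ, ∃ z ∈ R₁₂, (e₁ - e₂) = (e₁ - e₂) ^ (2 * k + 1) + π₁ • z := by
    intro k
    induction k with
    | zero => exact ⟨0, R₁₂.zero_mem, by simp⟩
    | succ k ih =>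
      obtain ⟨z, hzm, hz⟩ := ih
      refine ⟨z - (e₁ - e₂) ^ (2 * k) * y,
        R₁₂.sub_mem hzm (R₁₂.mul_mem (R₁₂.pow_mem hdm _) hym), ?_⟩
      have h3 : (e₁ - e₂) ^ (2 * (k + 1) + 1) = (e₁ - e₂) ^ (2 * k) * (e₁ - e₂) ^ 3 := by
        rw [← pow_add]; congr 1
      have h3' : (e₁ - e₂) ^ 3 = (e₁ - e₂) + π₁ • y := by rw [← hy]; ring
      have h4 : (e₁ - e₂) ^ (2 * k) * (e₁ - e₂) = (e₁ - e₂) ^ (2 * k + 1) := by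
        rw [pow_succ]
      have h5 : π₁ • ((e₁ - e₂) ^ (2 * k) * y) = (e₁ - e₂) ^ (2 * k) * π₁ • y := by
        rw [mul_smul_comm]
      rw [h3, h3', mul_add, h4, smul_sub, h5]
      linear_combination hz
  obtain ⟨b, hbm, hb⟩ : ∃ b ∈ R₁₂, e₁ - e₂ = π₁ • b := by
    obtain ⟨z, hzm, hz⟩ := hpow (2 ^ N)
    have hmp : π₁ ∣ m ^ (2 * 2 ^ N + 1) :=
      (Dvd.intro v hv.symm).trans (pow_dvd_pow m (by omega))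
    obtain ⟨v', hv'⟩ := hmp
    refine ⟨v' • x ^ (2 * 2 ^ N + 1) + z,
      R₁₂.add_mem (R₁₂.smul_mem (R₁₂.pow_mem hxm _) _) hzm, ?_⟩
    rw [hz, hd, smul_pow, hv', smul_add, smul_smul]
  -- apply H2
  obtain ⟨b₁, hb₁, b₂, hb₂, hcb⟩ :=
    H2 b hbm ⟨π₁, hπ₁0, e₁, he₁, -e₂, R₂.neg_mem he₂, by rw [← hb]; ring⟩
  have hkey : e₁ - π₀ • b₁ = e₂ + π₀ • b₂ := by
    have : e₁ - e₂ = π₀ • b₁ + π₀ • b₂ := by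
      rw [hb, hπ₁, mul_comm, mul_smul, hcb, smul_add]
    linear_combination this
  obtain ⟨α, hα⟩ := H0 (e₁ - π₀ • b₁) (R₁.sub_mem he₁ (R₁.smul_mem hb₁ _))
    (by rw [hkey]; exact R₂.add_mem he₂ (R₂.smul_mem hb₂ _))
  refine ⟨α, ?_⟩
  have hsum : a₁ - algebraMap A R α = (-(m • s₁)) + π₀ • b₁ := by
    rw [← hα, ← hes₁]; ring
  rw [hsum]
  exact FA_S18_small_add hV (FA_S18_small_neg ⟨m, hm, s₁, hs₁, rfl⟩) ⟨π₀, hπ₀, b₁, hb₁, rfl⟩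

end FA_S18
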