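import Mathlib
import Fermat.Agent.S18.Conn

set_option autoImplicit false

namespace FA_S18

open Polynomial

variable {A : Type*} [CommRing A] {F : Type*} [Field F] [Algebra A F]

/-- The Kummer algebra `F[T]/(T^p - f)`. -/
noncomputable abbrev FA_S18_KR (f : F) (p : ℕ) : Type _ :=
  AdjoinRoot (X ^ p - C f : F[X])

/-- The monomial `y T^k`. -/
noncomputable def FA_S18_mono (f : F) (p : ℕ) (k : ℕ) (y : F) : FA_S18_KR f p :=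
  algebraMap F (FA_S18_KR f p) y * (AdjoinRoot.root (X ^ p - C f : F[X])) ^ k

/-- `Σ_{k<p} c_k T^k`. -/
noncomputable def FA_S18_ev (f : F) (p : ℕ) (c : ℕ → F) : FA_S18_KR f p :=
  ∑ k ∈ Finset.range p, FA_S18_mono f p k (c k)

theorem FA_S18_mono_add (f : F) (p k : ℕ) (y y' : F) :
    FA_S18_mono f p k (y + y') = FA_S18_mono f p k y + FA_S18_mono f p k y' := by
  simp only [FA_S18_mono, map_add, add_mul]

theorem FA_S18_mono_zero (f : F) (p k : ℕ) : FA_S18_mono f p k 0 = 0 := by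
  simp only [FA_S18_mono, map_zero, zero_mul]

theorem FA_S18_mono_neg (f : F) (p k : ℕ) (y : F) :
    FA_S18_mono f p k (-y) = - FA_S18_mono f p k y := by
  simp only [FA_S18_mono, map_neg, neg_mul]

theorem FA_S18_mono_sub (f : F) (p k : ℕ) (y y' : F) :
    FA_S18_mono f p k (y - y') = FA_S18_mono f p k y - FA_S18_mono f p k y' := by
  simp only [FA_S18_mono, map_sub, sub_mul]

theorem FA_S18_mono_smul (f : F) (p k : ℕ) (a : A) (y : F) :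
    FA_S18_mono f p k (a • y) = a • FA_S18_mono f p k y := by
  simp only [FA_S18_mono]
  rw [Algebra.algebraMap_eq_smul_one, smul_assoc, ← Algebra.algebraMap_eq_smul_one, smul_mul_assoc]

theorem FA_S18_root_pow (f : F) (p : ℕ) :
    (AdjoinRoot.root (X ^ p - C f : F[X])) ^ p = algebraMap F (FA_S18_KR f p) f := by
  have h := AdjoinRoot.mk_self (f := (X ^ p - C f : F[X]))
  rw [map_sub, map_pow, AdjoinRoot.mk_X, AdjoinRoot.mk_C, sub_eq_zero] at h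
  rw [h, AdjoinRoot.algebraMap_eq]

theorem FA_S18_mono_mul_lt (f : F) (p : ℕ) {k k' : ℕ} (y y' : F) :
    FA_S18_mono f p k y * FA_S18_mono f p k' y' = FA_S18_mono f p (k + k') (y * y') := by
  simp only [FA_S18_mono, map_mul, pow_add]
  ring

theorem FA_S18_mono_mul_ge (f : F) (p : ℕ) {k k' : ℕ} (h : p ≤ k + k') (y y' : F) :
    FA_S18_mono f p k y * FA_S18_mono f p k' y' = FA_S18_mono f p (k + k' - p) (y * y' * f) := by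
  have e : k + k' = (k + k' - p) + p := by omega
  rw [FA_S18_mono_mul_lt, FA_S18_mono, e, pow_add, FA_S18_root_pow, FA_S18_mono, map_mul _ (y * y') f]
  have : k + k' - p + p - p = k + k' - p := by omega
  rw [this]
  ring

theorem FA_S18_mono_zero_algebraMap (f : F) (p : ℕ) (a : A) :
    FA_S18_mono f p 0 (algebraMap A F a) = algebraMap A (FA_S18_KR f p) a := by
  rw [FA_S18_mono, pow_zero, mul_one, ← IsScalarTower.algebraMap_apply]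

/-- `ev c` as the class of a polynomial. -/
theorem FA_S18_ev_eq_mk (f : F) (p : ℕ) (c : ℕ → F) :
    FA_S18_ev f p c =
      AdjoinRoot.mk (X ^ p - C f : F[X]) (∑ k ∈ Finset.range p, C (c k) * X ^ k) := by
  rw [FA_S18_ev, map_sum]
  refine Finset.sum_congr rfl fun k _ => ?_
  rw [FA_S18_mono, map_mul, map_pow, AdjoinRoot.mk_X, AdjoinRoot.mk_C, AdjoinRoot.algebraMap_eq]

theorem FA_S18_coeff_sum (p : ℕ) (c : ℕ → F) (m : ℕ) :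
    (∑ k ∈ Finset.range p, C (c k) * X ^ k : F[X]).coeff m = if m < p then c m else 0 := by
  rw [Polynomial.finsetSum_coeff]
  simp only [Polynomial.coeff_C_mul_X_pow]
  rw [Finset.sum_ite_eq]
  simp only [Finset.mem_range]

theorem FA_S18_ev_eq_zero (f : F) {p : ℕ} (hp : 0 < p) (c : ℕ → F)
    (h : FA_S18_ev f p c = 0) : ∀ k < p, c k = 0 := by
  rw [FA_S18_ev_eq_mk, AdjoinRoot.mk_eq_zero] at h
  have hdeg : (∑ k ∈ Finset.range p, C (c k) * X ^ k : F[X]).degree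
      < (X ^ p - C f : F[X]).degree := by
    rw [Polynomial.degree_X_pow_sub_C hp, Polynomial.degree_lt_iff_coeff_zero]
    intro m hm
    rw [FA_S18_coeff_sum, if_neg (by omega)]
  have h0 := Polynomial.eq_zero_of_dvd_of_degree_lt h hdeg
  intro k hk
  have := congrArg (fun P : F[X] => P.coeff k) h0
  simp only [FA_S18_coeff_sum, if_pos hk, Polynomial.coeff_zero] at this
  exact this

theorem FA_S18_ev_add (f : F) (p : ℕ) (c c' : ℕ → F) :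
    FA_S18_ev f p (c + c') = FA_S18_ev f p c + FA_S18_ev f p c' := by
  simp only [FA_S18_ev, Pi.add_apply, FA_S18_mono_add, Finset.sum_add_distrib]

theorem FA_S18_ev_sub (f : F) (p : ℕ) (c c' : ℕ → F) :
    FA_S18_ev f p (c - c') = FA_S18_ev f p c - FA_S18_ev f p c' := by
  simp only [FA_S18_ev, Pi.sub_apply, FA_S18_mono_sub, Finset.sum_sub_distrib]

theorem FA_S18_ev_smul (f : F) (p : ℕ) (a : A) (c : ℕ → F) :
    FA_S18_ev f p (a • c) = a • FA_S18_ev f p c := by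
  simp only [FA_S18_ev, Pi.smul_apply, FA_S18_mono_smul, Finset.smul_sum]

theorem FA_S18_ev_zero (f : F) (p : ℕ) : FA_S18_ev f p 0 = 0 := by
  simp only [FA_S18_ev, Pi.zero_apply, FA_S18_mono_zero, Finset.sum_const_zero]

theorem FA_S18_ev_single (f : F) {p : ℕ} {k : ℕ} (hk : k < p) (y : F) :
    FA_S18_ev f p (fun i => if i = k then y else 0) = FA_S18_mono f p k y := by
  rw [FA_S18_ev]
  rw [Finset.sum_eq_single k]
  · rw [if_pos rfl]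
  · intro b _ hb
    rw [if_neg hb, FA_S18_mono_zero]
  · intro h
    exact absurd (Finset.mem_range.2 hk) h

theorem FA_S18_ev_inj (f : F) {p : ℕ} (hp : 0 < p) (c c' : ℕ → F)
    (h : FA_S18_ev f p c = FA_S18_ev f p c') : ∀ k < p, c k = c' k := by
  intro k hk
  have h0 : FA_S18_ev f p (c - c') = 0 := by rw [FA_S18_ev_sub, h, sub_self]
  have := FA_S18_ev_eq_zero f hp _ h0 k hk
  rw [Pi.sub_apply] at this
  exact sub_eq_zero.1 this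

/-- `x ∈ 𝔪 · L` in the strong form `x = m • y`, `m ∈ 𝔪`, `y ∈ L`, for a lattice `L ⊆ F`. -/
def FA_S18_SmallL (𝔪 : Ideal A) (L : Submodule A F) (x : F) : Prop :=
  ∃ m ∈ 𝔪, ∃ y ∈ L, x = m • y

/-- The set of monomials `y T^k`, `k < p`, `y ∈ Λ k`. -/
def FA_S18_monos (f : F) (p : ℕ) (Λ : ℕ → Submodule A F) : Set (FA_S18_KR f p) :=
  {x | ∃ k, k < p ∧ ∃ y ∈ Λ k, x = FA_S18_mono f p k y}

/-- The graded subalgebra `⊕_{k<p} Λ_k T^k` of the Kummer algebra. -/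
noncomputable def FA_S18_KSub (f : F) (p : ℕ) (Λ : ℕ → Submodule A F) :
    Subalgebra A (FA_S18_KR f p) :=
  Algebra.adjoin A (FA_S18_monos f p Λ)

/-- The multiplicativity hypothesis on a family of lattices. -/
def FA_S18_LMul (f : F) (p : ℕ) (Λ : ℕ → Submodule A F) : Prop :=
  (1 : F) ∈ Λ 0 ∧ ∀ k < p, ∀ k' < p, ∀ y ∈ Λ k, ∀ y' ∈ Λ k',
    (k + k' < p → y * y' ∈ Λ (k + k')) ∧ (p ≤ k + k' → y * y' * f ∈ Λ (k + k' - p))

theorem FA_S18_ev_mem (f : F) (p : ℕ) (Λ : ℕ → Submodule A F) (c : ℕ → F)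
    (hc : ∀ k < p, c k ∈ Λ k) : FA_S18_ev f p c ∈ FA_S18_KSub f p Λ := by
  rw [FA_S18_ev]
  refine Subalgebra.sum_mem _ fun k hk => ?_
  exact Algebra.subset_adjoin ⟨k, Finset.mem_range.1 hk, c k, hc k (Finset.mem_range.1 hk), rfl⟩

/-- the predicate "is of the form `ev c` with `c k ∈ Λ k`" -/
def FA_S18_IsEv (f : F) (p : ℕ) (Λ : ℕ → Submodule A F) (x : FA_S18_KR f p) : Prop :=
  ∃ c : ℕ → F, (∀ k < p, c k ∈ Λ k) ∧ x = FA_S18_ev f p c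

theorem FA_S18_isEv_zero (f : F) (p : ℕ) (Λ : ℕ → Submodule A F) : FA_S18_IsEv f p Λ 0 :=
  ⟨0, fun _ _ => (Λ _).zero_mem, (FA_S18_ev_zero f p).symm⟩

theorem FA_S18_isEv_add (f : F) (p : ℕ) (Λ : ℕ → Submodule A F) {x y : FA_S18_KR f p}
    (hx : FA_S18_IsEv f p Λ x) (hy : FA_S18_IsEv f p Λ y) : FA_S18_IsEv f p Λ (x + y) := by
  obtain ⟨c, hc, rfl⟩ := hx
  obtain ⟨c', hc', rfl⟩ := hy
  exact ⟨c + c', fun k hk => (Λ k).add_mem (hc k hk) (hc' k hk), (FA_S18_ev_add f p c c').symm⟩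

theorem FA_S18_isEv_sum (f : F) (p : ℕ) (Λ : ℕ → Submodule A F) {ι : Type*} (s : Finset ι)
    (g : ι → FA_S18_KR f p) (hg : ∀ i ∈ s, FA_S18_IsEv f p Λ (g i)) :
    FA_S18_IsEv f p Λ (∑ i ∈ s, g i) := by
  classical
  induction s using Finset.induction_on with
  | empty => simpa using FA_S18_isEv_zero f p Λ
  | insert a s ha ih =>
    rw [Finset.sum_insert ha]
    exact FA_S18_isEv_add f p Λ (hg a (Finset.mem_insert_self a s))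
      (ih fun i hi => hg i (Finset.mem_insert_of_mem hi))

theorem FA_S18_isEv_mono (f : F) (p : ℕ) (Λ : ℕ → Submodule A F) {k : ℕ} (hk : k < p)
    {y : F} (hy : y ∈ Λ k) : FA_S18_IsEv f p Λ (FA_S18_mono f p k y) := by
  refine ⟨fun i => if i = k then y else 0, fun i _ => ?_, (FA_S18_ev_single f hk y).symm⟩
  by_cases h : i = k
  · subst h; simpa using hy
  · simp only [if_neg h]; exact (Λ i).zero_mem

theorem FA_S18_isEv_mono_mul (f : F) (p : ℕ) (Λ : ℕ → Submodule A F)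
    (hΛ : FA_S18_LMul f p Λ) {k k' : ℕ} (hk : k < p) (hk' : k' < p)
    {y y' : F} (hy : y ∈ Λ k) (hy' : y' ∈ Λ k') :
    FA_S18_IsEv f p Λ (FA_S18_mono f p k y * FA_S18_mono f p k' y') := by
  by_cases h : k + k' < p
  · rw [FA_S18_mono_mul_lt]
    exact FA_S18_isEv_mono f p Λ h ((hΛ.2 k hk k' hk' y hy y' hy').1 h)
  · rw [FA_S18_mono_mul_ge f p (not_lt.1 h)]
    exact FA_S18_isEv_mono f p Λ (by omega) ((hΛ.2 k hk k' hk' y hy y' hy').2 (not_lt.1 h))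

theorem FA_S18_isEv_mul (f : F) (p : ℕ) (Λ : ℕ → Submodule A F)
    (hΛ : FA_S18_LMul f p Λ) {x y : FA_S18_KR f p}
    (hx : FA_S18_IsEv f p Λ x) (hy : FA_S18_IsEv f p Λ y) : FA_S18_IsEv f p Λ (x * y) := by
  obtain ⟨c, hc, rfl⟩ := hx
  obtain ⟨c', hc', rfl⟩ := hy
  rw [FA_S18_ev, FA_S18_ev, Finset.sum_mul_sum]
  refine FA_S18_isEv_sum f p Λ _ _ fun k hk => FA_S18_isEv_sum f p Λ _ _ fun k' hk' => ?_
  exact FA_S18_isEv_mono_mul f p Λ hΛ (Finset.mem_range.1 hk) (Finset.mem_range.1 hk')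
    (hc k (Finset.mem_range.1 hk)) (hc' k' (Finset.mem_range.1 hk'))

theorem FA_S18_isEv_algebraMap (f : F) {p : ℕ} (hp : 0 < p) (Λ : ℕ → Submodule A F)
    (hΛ : FA_S18_LMul f p Λ) (a : A) :
    FA_S18_IsEv f p Λ (algebraMap A (FA_S18_KR f p) a) := by
  rw [← FA_S18_mono_zero_algebraMap]
  refine FA_S18_isEv_mono f p Λ hp ?_
  rw [Algebra.algebraMap_eq_smul_one]
  exact (Λ 0).smul_mem a hΛ.1

theorem FA_S18_mem_KSub_iff (f : F) {p : ℕ} (hp : 0 < p) (Λ : ℕ → Submodule A F)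
    (hΛ : FA_S18_LMul f p Λ) (x : FA_S18_KR f p) :
    x ∈ FA_S18_KSub f p Λ ↔ FA_S18_IsEv f p Λ x := by
  constructor
  · intro hx
    refine Algebra.adjoin_induction (p := fun x _ => FA_S18_IsEv f p Λ x) ?_ ?_ ?_ ?_ hx
    · rintro x ⟨k, hk, y, hy, rfl⟩
      exact FA_S18_isEv_mono f p Λ hk hy
    · intro a
      exact FA_S18_isEv_algebraMap f hp Λ hΛ a
    · intro x y _ _ hx hy
      exact FA_S18_isEv_add f p Λ hx hy
    · intro x y _ _ hx hy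
      exact FA_S18_isEv_mul f p Λ hΛ hx hy
  · rintro ⟨c, hc, rfl⟩
    exact FA_S18_ev_mem f p Λ c hc

theorem FA_S18_KSub_mono (f : F) (p : ℕ) (Λ Λ' : ℕ → Submodule A F)
    (h : ∀ k < p, Λ k ≤ Λ' k) : FA_S18_KSub f p Λ ≤ FA_S18_KSub f p Λ' := by
  refine Algebra.adjoin_mono ?_
  rintro x ⟨k, hk, y, hy, rfl⟩
  exact ⟨k, hk, y, h k hk hy, rfl⟩


theorem FA_S18_ev_congr (f : F) (p : ℕ) (c c' : ℕ → F) (h : ∀ k < p, c k = c' k) :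
    FA_S18_ev f p c = FA_S18_ev f p c' := by
  rw [FA_S18_ev, FA_S18_ev]
  exact Finset.sum_congr rfl fun k hk => by rw [h k (Finset.mem_range.1 hk)]

section general

variable {R : Type*} [CommRing R] [Algebra A R]

theorem FA_S18_small_zero (𝔪 : Ideal A) (S : Subalgebra A R) : FA_S18_Small 𝔪 S 0 :=
  ⟨0, 𝔪.zero_mem, 0, S.zero_mem, by simp⟩

theorem FA_S18_small_smul {𝔪 : Ideal A} {S : Subalgebra A R} (a : A) {x : R}
    (hx : FA_S18_Small 𝔪 S x) : FA_S18_Small 𝔪 S (a • x) := by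
  obtain ⟨m, hm, r, hr, rfl⟩ := hx
  exact ⟨m, hm, a • r, S.smul_mem hr a, smul_comm a m r⟩

theorem FA_S18_small_sum {𝔪 : Ideal A} {S : Subalgebra A R}
    (hV : ∀ m₁ ∈ 𝔪, ∀ m₂ ∈ 𝔪, ∃ m ∈ 𝔪, m ∣ m₁ ∧ m ∣ m₂)
    {ι : Type*} (s : Finset ι) (g : ι → R) (hg : ∀ i ∈ s, FA_S18_Small 𝔪 S (g i)) :
    FA_S18_Small 𝔪 S (∑ i ∈ s, g i) := by
  classical
  induction s using Finset.induction_on with
  | empty => simpa using FA_S18_small_zero 𝔪 S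
  | insert a s ha ih =>
    rw [Finset.sum_insert ha]
    exact FA_S18_small_add hV (hg a (Finset.mem_insert_self a s))
      (ih fun i hi => hg i (Finset.mem_insert_of_mem hi))

end general

theorem FA_S18_small_mono_of_smallL (𝔪 : Ideal A) (f : F) (p : ℕ) (Λ : ℕ → Submodule A F)
    {k : ℕ} (hk : k < p) {y : F} (hy : FA_S18_SmallL 𝔪 (Λ k) y) :
    FA_S18_Small 𝔪 (FA_S18_KSub f p Λ) (FA_S18_mono f p k y) := by
  obtain ⟨m, hm, y', hy', rfl⟩ := hy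
  exact ⟨m, hm, FA_S18_mono f p k y', Algebra.subset_adjoin ⟨k, hk, y', hy', rfl⟩,
    FA_S18_mono_smul f p k m y'⟩

/-- rotation of the index set `range p` -/
theorem FA_S18_rot {M : Type*} [AddCommMonoid M] {p k : ℕ} (hk : k < p) (g : ℕ → M) :
    ∑ k' ∈ Finset.range p, g (if k + k' < p then k + k' else k + k' - p)
      = ∑ j ∈ Finset.range p, g j := by
  refine Finset.sum_nbij' (fun k' => if k + k' < p then k + k' else k + k' - p)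
    (fun j => if k ≤ j then j - k else j + p - k) ?_ ?_ ?_ ?_ ?_
  · intro a ha
    simp only [Finset.mem_range] at ha ⊢
    split_ifs <;> omega
  · intro a ha
    simp only [Finset.mem_range] at ha ⊢
    split_ifs <;> omega
  · intro a ha
    simp only [Finset.mem_range] at ha
    split_ifs <;> omega
  · intro a ha
    simp only [Finset.mem_range] at ha
    split_ifs <;> omega
  · intro a _
    rfl

/-- `ε = (1/p) Σ u_k T^k` is idempotent modulo `𝔪`. -/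
theorem FA_S18_idem (𝔪 : Ideal A)
    (hV : ∀ m₁ ∈ 𝔪, ∀ m₂ ∈ 𝔪, ∃ m ∈ 𝔪, m ∣ m₁ ∧ m ∣ m₂)
    (f : F) (p : ℕ) (pinv : A) (hpinv : pinv * (p : A) = 1)
    (Λ : ℕ → Submodule A F) (u : ℕ → F)
    (huu : ∀ k < p, ∀ k' < p,
      (k + k' < p → FA_S18_SmallL 𝔪 (Λ (k + k')) (u k * u k' - u (k + k'))) ∧
      (p ≤ k + k' → FA_S18_SmallL 𝔪 (Λ (k + k' - p)) (u k * u k' * f - u (k + k' - p)))) :
    FA_S18_Small 𝔪 (FA_S18_KSub f p Λ)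
      ((pinv • FA_S18_ev f p u) ^ 2 - pinv • FA_S18_ev f p u) := by
  have key : (pinv • FA_S18_ev f p u) ^ 2 - pinv • FA_S18_ev f p u
      = (pinv * pinv) • ∑ k ∈ Finset.range p, ∑ k' ∈ Finset.range p,
          (FA_S18_mono f p k (u k) * FA_S18_mono f p k' (u k')
            - (fun j => FA_S18_mono f p j (u j)) (if k + k' < p then k + k' else k + k' - p)) := by
    have h2 : ∑ k ∈ Finset.range p, ∑ k' ∈ Finset.range p,
        (fun j => FA_S18_mono f p j (u j)) (if k + k' < p then k + k' else k + k' - p)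
        = (p : A) • FA_S18_ev f p u := by
      rw [Finset.sum_congr rfl (fun k hk => FA_S18_rot (Finset.mem_range.1 hk)
        (fun j => FA_S18_mono f p j (u j)))]
      rw [Finset.sum_const, Finset.card_range, Nat.cast_smul_eq_nsmul]
      rfl
    simp only [Finset.sum_sub_distrib]
    rw [h2, ← Finset.sum_mul_sum, smul_sub, smul_smul, mul_assoc, hpinv, mul_one]
    change _ = (pinv * pinv) • (FA_S18_ev f p u * FA_S18_ev f p u) - _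
    rw [pow_two, smul_mul_smul_comm]
  rw [key]
  refine FA_S18_small_smul _ (FA_S18_small_sum hV _ _ fun k hk =>
    FA_S18_small_sum hV _ _ fun k' hk' => ?_)
  have hk := Finset.mem_range.1 hk
  have hk' := Finset.mem_range.1 hk'
  by_cases h : k + k' < p
  · simp only [if_pos h]
    rw [FA_S18_mono_mul_lt, ← FA_S18_mono_sub]
    exact FA_S18_small_mono_of_smallL 𝔪 f p Λ h ((huu k hk k' hk').1 h)
  · simp only [if_neg h]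
    rw [FA_S18_mono_mul_ge f p (not_lt.1 h), ← FA_S18_mono_sub]
    exact FA_S18_small_mono_of_smallL 𝔪 f p Λ (by omega) ((huu k hk k' hk').2 (not_lt.1 h))


/-- **Connectedness, Kummer instance.**  `Λ₁ k`, `Λ₂ k ≤ Λ₁₂ k` (`k < p`) multiplicative families
of `A`-lattices in a field `F` (twisted by `f`: `Λ k · Λ k' ⊆ Λ (k+k')` resp. `f⁻¹ Λ (k+k'-p)`),
`1/p ∈ A`, (H0) `Λ₁ 0 ∩ Λ₂ 0 = A`, (H2) the torsion of `Λ₁₂ k / (Λ₁ k + Λ₂ k)` is killed by one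
`c ≠ 0`, and `u k ∈ Λ₁ k`, `w k ∈ Λ₂ k` "lifts of 1" (multiplicative and equal modulo `𝔪`) with
`u 1 ∉ 𝔪 Λ₁ 1`.  Then `Λ₁ k ∩ Λ₂ k ≠ 0` for some `0 < k < p`. -/
theorem FA_S18_conn_inst (𝔪 : Ideal A)
    (hV : ∀ m₁ ∈ 𝔪, ∀ m₂ ∈ 𝔪, ∃ m ∈ 𝔪, m ∣ m₁ ∧ m ∣ m₂)
    (hrank : ∀ m ∈ 𝔪, ∀ π : A, π ≠ 0 → ∃ n : ℕ, π ∣ m ^ n)
    (π₀ : A) (hπ₀ : π₀ ∈ 𝔪) (hπ₀0 : π₀ ≠ 0) (hdom : ∀ a b : A, a ≠ 0 → b ≠ 0 → a * b ≠ 0)
    (f : F) (p : ℕ) (hp : 2 ≤ p) (pinv : A) (hpinv : pinv * (p : A) = 1)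
    (Λ₁ Λ₂ Λ₁₂ : ℕ → Submodule A F)
    (h1 : ∀ k < p, Λ₁ k ≤ Λ₁₂ k) (h2 : ∀ k < p, Λ₂ k ≤ Λ₁₂ k)
    (hΛ₁ : FA_S18_LMul f p Λ₁) (hΛ₂ : FA_S18_LMul f p Λ₂) (hΛ₁₂ : FA_S18_LMul f p Λ₁₂)
    (H00 : ∀ x : F, x ∈ Λ₁ 0 → x ∈ Λ₂ 0 → ∃ a : A, x = algebraMap A F a)
    (H2 : ∃ c : A, c ≠ 0 ∧ ∀ k < p, ∀ b ∈ Λ₁₂ k,
      (∃ π : A, π ≠ 0 ∧ ∃ y₁ ∈ Λ₁ k, ∃ y₂ ∈ Λ₂ k, π • b = y₁ + y₂) →
      ∃ y₁ ∈ Λ₁ k, ∃ y₂ ∈ Λ₂ k, c • b = y₁ + y₂)
    (u w : ℕ → F) (hu : ∀ k < p, u k ∈ Λ₁ k) (hw : ∀ k < p, w k ∈ Λ₂ k)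
    (huu : ∀ k < p, ∀ k' < p,
      (k + k' < p → FA_S18_SmallL 𝔪 (Λ₁ (k + k')) (u k * u k' - u (k + k'))) ∧
      (p ≤ k + k' → FA_S18_SmallL 𝔪 (Λ₁ (k + k' - p)) (u k * u k' * f - u (k + k' - p))))
    (hww : ∀ k < p, ∀ k' < p,
      (k + k' < p → FA_S18_SmallL 𝔪 (Λ₂ (k + k')) (w k * w k' - w (k + k'))) ∧
      (p ≤ k + k' → FA_S18_SmallL 𝔪 (Λ₂ (k + k' - p)) (w k * w k' * f - w (k + k' - p))))
    (huw : ∀ k < p, FA_S18_SmallL 𝔪 (Λ₁₂ k) (u k - w k))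
    (hne : ¬ FA_S18_SmallL 𝔪 (Λ₁ 1) (u 1)) :
    ∃ k, 0 < k ∧ k < p ∧ ∃ x : F, x ≠ 0 ∧ x ∈ Λ₁ k ∧ x ∈ Λ₂ k := by
  by_contra hcon
  push Not at hcon
  have hp0 : 0 < p := by omega
  have hp1 : 1 < p := by omega
  -- (H0) for the graded algebras
  have H0R : ∀ x : FA_S18_KR f p, x ∈ FA_S18_KSub f p Λ₁ → x ∈ FA_S18_KSub f p Λ₂ →
      ∃ a : A, x = algebraMap A (FA_S18_KR f p) a := by
    intro x hx1 hx2
    obtain ⟨c, hc, rfl⟩ := (FA_S18_mem_KSub_iff f hp0 Λ₁ hΛ₁ _).1 hx1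
    obtain ⟨c', hc', h⟩ := (FA_S18_mem_KSub_iff f hp0 Λ₂ hΛ₂ _).1 hx2
    have e := FA_S18_ev_inj f hp0 c c' h
    have hz : ∀ k, 0 < k → k < p → c k = 0 := by
      intro k hk0 hk
      by_contra hne'
      exact hcon k hk0 hk (c k) hne' (hc k hk) (e k hk ▸ hc' k hk)
    obtain ⟨a, ha⟩ := H00 (c 0) (hc 0 hp0) (e 0 hp0 ▸ hc' 0 hp0)
    refine ⟨a, ?_⟩
    rw [← FA_S18_mono_zero_algebraMap, ← ha, ← FA_S18_ev_single f hp0 (c 0)]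
    refine FA_S18_ev_congr f p _ _ fun k hk => ?_
    by_cases hk0 : k = 0
    · subst hk0; simp
    · rw [if_neg hk0]; exact hz k (Nat.pos_of_ne_zero hk0) hk
  -- (H2) for the graded algebras
  have H2R : ∃ c : A, c ≠ 0 ∧ ∀ b ∈ FA_S18_KSub f p Λ₁₂,
      (∃ π : A, π ≠ 0 ∧ ∃ x₁ ∈ FA_S18_KSub f p Λ₁, ∃ x₂ ∈ FA_S18_KSub f p Λ₂, π • b = x₁ + x₂) →
      ∃ x₁ ∈ FA_S18_KSub f p Λ₁, ∃ x₂ ∈ FA_S18_KSub f p Λ₂, c • b = x₁ + x₂ := by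
    obtain ⟨cc, hcc, H2⟩ := H2
    refine ⟨cc, hcc, ?_⟩
    rintro b hb ⟨π, hπ, x₁, hx₁, x₂, hx₂, e⟩
    obtain ⟨c, hc, rfl⟩ := (FA_S18_mem_KSub_iff f hp0 Λ₁₂ hΛ₁₂ _).1 hb
    obtain ⟨c₁, hc₁, rfl⟩ := (FA_S18_mem_KSub_iff f hp0 Λ₁ hΛ₁ _).1 hx₁
    obtain ⟨c₂, hc₂, rfl⟩ := (FA_S18_mem_KSub_iff f hp0 Λ₂ hΛ₂ _).1 hx₂
    rw [← FA_S18_ev_smul, ← FA_S18_ev_add] at e
    have e' := FA_S18_ev_inj f hp0 _ _ e
    have key : ∀ k, k < p → ∃ y₁ ∈ Λ₁ k, ∃ y₂ ∈ Λ₂ k, cc • c k = y₁ + y₂ := fun k hk =>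
      H2 k hk (c k) (hc k hk) ⟨π, hπ, c₁ k, hc₁ k hk, c₂ k, hc₂ k hk, e' k hk⟩
    choose! y₁ hy₁ y₂ hy₂ hy using key
    refine ⟨FA_S18_ev f p y₁, FA_S18_ev_mem f p Λ₁ y₁ hy₁, FA_S18_ev f p y₂,
      FA_S18_ev_mem f p Λ₂ y₂ hy₂, ?_⟩
    rw [← FA_S18_ev_smul, ← FA_S18_ev_add]
    exact FA_S18_ev_congr f p _ _ fun k hk => hy k hk
  -- the two lifts of the idempotent
  have ha₁ : pinv • FA_S18_ev f p u ∈ FA_S18_KSub f p Λ₁ :=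
    Subalgebra.smul_mem _ (FA_S18_ev_mem f p Λ₁ u hu) pinv
  have ha₂ : pinv • FA_S18_ev f p w ∈ FA_S18_KSub f p Λ₂ :=
    Subalgebra.smul_mem _ (FA_S18_ev_mem f p Λ₂ w hw) pinv
  have hid₁ := FA_S18_idem 𝔪 hV f p pinv hpinv Λ₁ u huu
  have hid₂ := FA_S18_idem 𝔪 hV f p pinv hpinv Λ₂ w hww
  have h12 : FA_S18_Small 𝔪 (FA_S18_KSub f p Λ₁₂)
      (pinv • FA_S18_ev f p u - pinv • FA_S18_ev f p w) := by
    rw [← smul_sub, ← FA_S18_ev_sub]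
    refine FA_S18_small_smul _ (FA_S18_small_sum hV _ _ fun k hk => ?_)
    exact FA_S18_small_mono_of_smallL 𝔪 f p Λ₁₂ (Finset.mem_range.1 hk)
      (huw k (Finset.mem_range.1 hk))
  obtain ⟨α, m, hm, r, hr, e⟩ := FA_S18_conn 𝔪 hV hrank π₀ hπ₀ hπ₀0 hdom
    (FA_S18_KSub f p Λ₁) (FA_S18_KSub f p Λ₂) (FA_S18_KSub f p Λ₁₂)
    (FA_S18_KSub_mono f p Λ₁ Λ₁₂ h1) (FA_S18_KSub_mono f p Λ₂ Λ₁₂ h2) H0R H2R
    (pinv • FA_S18_ev f p u) (pinv • FA_S18_ev f p w) ha₁ ha₂ hid₁ hid₂ h12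
  obtain ⟨c, hc, rfl⟩ := (FA_S18_mem_KSub_iff f hp0 Λ₁ hΛ₁ _).1 hr
  have e' : FA_S18_ev f p (pinv • u - fun i => if i = 0 then algebraMap A F α else 0)
      = FA_S18_ev f p (m • c) := by
    rw [FA_S18_ev_sub, FA_S18_ev_smul, FA_S18_ev_single f hp0, FA_S18_mono_zero_algebraMap,
      FA_S18_ev_smul]
    exact e
  have e1 := FA_S18_ev_inj f hp0 _ _ e' 1 hp1
  simp only [Pi.sub_apply, Pi.smul_apply, one_ne_zero, if_false, sub_zero] at e1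
  refine hne ⟨m, hm, (p : A) • c 1, (Λ₁ 1).smul_mem _ (hc 1 hp1), ?_⟩
  rw [smul_comm, ← e1, smul_smul, mul_comm, hpinv, one_smul]


/-- **Connectedness, Kummer instance, with a reduction map.**  Same as `FA_S18_conn_inst`, the
smallness hypotheses being derived from a ring homomorphism `red : O → K` (`O` a subring of `F`
containing all the lattices, `K ≠ 0`) which kills `𝔪 O`, is injective modulo `𝔪` on each lattice,
and sends `f`, `u k`, `w k` to `1`. -/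
theorem FA_S18_conn_inst_red (𝔪 : Ideal A)
    (hV : ∀ m₁ ∈ 𝔪, ∀ m₂ ∈ 𝔪, ∃ m ∈ 𝔪, m ∣ m₁ ∧ m ∣ m₂)
    (hrank : ∀ m ∈ 𝔪, ∀ π : A, π ≠ 0 → ∃ n : ℕ, π ∣ m ^ n)
    (π₀ : A) (hπ₀ : π₀ ∈ 𝔪) (hπ₀0 : π₀ ≠ 0) (hdom : ∀ a b : A, a ≠ 0 → b ≠ 0 → a * b ≠ 0)
    (p : ℕ) (hp : 2 ≤ p) (pinv : A) (hpinv : pinv * (p : A) = 1)
    (O : Subring F) {K : Type*} [CommRing K] [Nontrivial K] (red : O →+* K)
    (hred𝔪 : ∀ m ∈ 𝔪, ∀ y z : O, (z : F) = m • (y : F) → red z = 0)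
    (f : O) (hf : red f = 1)
    (Λ₁ Λ₂ Λ₁₂ : ℕ → Submodule A F)
    (hO : ∀ k < p, ∀ y ∈ Λ₁₂ k, y ∈ O)
    (h1 : ∀ k < p, Λ₁ k ≤ Λ₁₂ k) (h2 : ∀ k < p, Λ₂ k ≤ Λ₁₂ k)
    (hΛ₁ : FA_S18_LMul (f : F) p Λ₁) (hΛ₂ : FA_S18_LMul (f : F) p Λ₂)
    (hΛ₁₂ : FA_S18_LMul (f : F) p Λ₁₂)
    (hker₁ : ∀ k < p, ∀ y : O, (y : F) ∈ Λ₁ k → red y = 0 → FA_S18_SmallL 𝔪 (Λ₁ k) (y : F))
    (hker₂ : ∀ k < p, ∀ y : O, (y : F) ∈ Λ₂ k → red y = 0 → FA_S18_SmallL 𝔪 (Λ₂ k) (y : F))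
    (hker₁₂ : ∀ k < p, ∀ y : O, (y : F) ∈ Λ₁₂ k → red y = 0 → FA_S18_SmallL 𝔪 (Λ₁₂ k) (y : F))
    (H00 : ∀ x : F, x ∈ Λ₁ 0 → x ∈ Λ₂ 0 → ∃ a : A, x = algebraMap A F a)
    (H2 : ∃ c : A, c ≠ 0 ∧ ∀ k < p, ∀ b ∈ Λ₁₂ k,
      (∃ π : A, π ≠ 0 ∧ ∃ y₁ ∈ Λ₁ k, ∃ y₂ ∈ Λ₂ k, π • b = y₁ + y₂) →
      ∃ y₁ ∈ Λ₁ k, ∃ y₂ ∈ Λ₂ k, c • b = y₁ + y₂)
    (u w : ℕ → O) (hu : ∀ k < p, (u k : F) ∈ Λ₁ k) (hw : ∀ k < p, (w k : F) ∈ Λ₂ k)
    (hu1 : ∀ k < p, red (u k) = 1) (hw1 : ∀ k < p, red (w k) = 1) :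
    ∃ k, 0 < k ∧ k < p ∧ ∃ x : F, x ≠ 0 ∧ x ∈ Λ₁ k ∧ x ∈ Λ₂ k := by
  have hp1 : 1 < p := by omega
  have mul_small : ∀ (Λ : ℕ → Submodule A F) (_ : FA_S18_LMul (f : F) p Λ)
      (_ : ∀ k < p, ∀ y : O, (y : F) ∈ Λ k → red y = 0 → FA_S18_SmallL 𝔪 (Λ k) (y : F))
      (v : ℕ → O) (_ : ∀ k < p, (v k : F) ∈ Λ k) (_ : ∀ k < p, red (v k) = 1),
      ∀ k < p, ∀ k' < p,
      (k + k' < p → FA_S18_SmallL 𝔪 (Λ (k + k')) ((v k : F) * (v k' : F) - (v (k + k') : F))) ∧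
      (p ≤ k + k' → FA_S18_SmallL 𝔪 (Λ (k + k' - p))
        ((v k : F) * (v k' : F) * (f : F) - (v (k + k' - p) : F))) := by
    intro Λ hΛ hker v hv hv1 k hk k' hk'
    constructor
    · intro h
      have hmem : ((v k * v k' - v (k + k') : O) : F) ∈ Λ (k + k') :=
        (Λ (k + k')).sub_mem ((hΛ.2 k hk k' hk' _ (hv k hk) _ (hv k' hk')).1 h) (hv _ h)
      have := hker (k + k') h (v k * v k' - v (k + k')) hmem
        (by rw [map_sub, map_mul, hv1 k hk, hv1 k' hk', hv1 _ h]; ring)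
      exact this
    · intro h
      have hlt : k + k' - p < p := by omega
      have hmem : ((v k * v k' * f - v (k + k' - p) : O) : F) ∈ Λ (k + k' - p) :=
        (Λ (k + k' - p)).sub_mem ((hΛ.2 k hk k' hk' _ (hv k hk) _ (hv k' hk')).2 h) (hv _ hlt)
      have := hker (k + k' - p) hlt (v k * v k' * f - v (k + k' - p)) hmem
        (by rw [map_sub, map_mul, map_mul, hv1 k hk, hv1 k' hk', hv1 _ hlt, hf]; ring)
      exact this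
  refine FA_S18_conn_inst 𝔪 hV hrank π₀ hπ₀ hπ₀0 hdom (f : F) p hp pinv hpinv Λ₁ Λ₂ Λ₁₂ h1 h2
    hΛ₁ hΛ₂ hΛ₁₂ H00 H2 (fun k => (u k : F)) (fun k => (w k : F)) hu hw
    (mul_small Λ₁ hΛ₁ hker₁ u hu hu1) (mul_small Λ₂ hΛ₂ hker₂ w hw hw1) ?_ ?_
  · intro k hk
    have hmem : ((u k - w k : O) : F) ∈ Λ₁₂ k :=
      (Λ₁₂ k).sub_mem (h1 k hk (hu k hk)) (h2 k hk (hw k hk))
    exact hker₁₂ k hk (u k - w k) hmem (by rw [map_sub, hu1 k hk, hw1 k hk, sub_self])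
  · rintro ⟨m, hm, y, hy, e⟩
    have hyO : y ∈ O := hO 1 hp1 y (h1 1 hp1 hy)
    have := hred𝔪 m hm ⟨y, hyO⟩ (u 1) e
    rw [hu1 1 hp1] at this
    exact one_ne_zero this

end FA_S18
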