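import Mathlib
import Fermat.Agent.S18.LiftAbs2

/-!
# S18, leaf E (abstract part 3): componentwise `H0` (degree `0`), torsion bound `H2`, lifts of `1`
-/

set_option autoImplicit false
set_option linter.unusedSectionVars false

noncomputable section

namespace FA_S18

open IsLocalRing

variable {A K F Fb kk : Type*} [CommRing A] [IsDomain A] [IsLocalRing A]
  [Field K] [Algebra A K] [IsFractionRing A K]
  [Field F] [Algebra K F] [Algebra A F] [IsScalarTower A K F]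
  [Field kk] [Field Fb] [Algebra kk Fb]

variable {O : Subalgebra A F} {red : O →+* Fb} {res : A →+* kk}
  {j jinv : O} {BfQ BiQ BmQ : Subalgebra K F} {Bbf Bbi : Subalgebra kk Fb}
  {p : ℕ} {f : O} {W : ℕ → ℕ → Submodule K F} {ψ g : ℕ}

namespace FA_S18_E_Hyp

variable (H : FA_S18_E_Hyp O red res j jinv BfQ BiQ BmQ Bbf Bbi p f W ψ g)
include H

/-- `H0` in degree `0`: the intersection of the two chart lattices is `A`. -/
theorem H00 (H2 : FA_S18_E_Hyp2 O BfQ BiQ p) (x : F)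
    (h1 : x ∈ FA_S18_E_Lam1 O (j : F) W 0) (h2 : x ∈ FA_S18_E_Lam2 O (j : F) W 0) :
    ∃ a : A, x = algebraMap A F a := by
  obtain ⟨b, hb⟩ := (H.mem_Lam1 0 x).mp h1
  obtain ⟨a, ha⟩ := (H.mem_Lam2 0 x).mp h2
  rw [FA_S18_E_Lam, FA_S18_E_mem_ball, H.mem_WLam_iff] at hb ha
  have hxf : x ^ p ∈ BfQ := by
    have := hb.1.1
    simpa using this
  have hxi : x ^ p ∈ BiQ := by
    have := ha.1.2
    simpa using this
  obtain ⟨c, hc⟩ := H2.consts _ hxf hxi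
  obtain ⟨c', hc'⟩ := H2.Kclosed x c hc
  obtain ⟨a', ha'⟩ := H2.O_K c' (hc' ▸ hb.2)
  exact ⟨a', by rw [hc', ← ha', ← IsScalarTower.algebraMap_apply]⟩

/-- Scaling an element of a twisted space into the lattice. -/
theorem scale_Lam (H2 : FA_S18_E_Hyp2 O BfQ BiQ p) (k a b : ℕ) (v : F)
    (hv : v ∈ FA_S18_E_WLam (j : F) W k a b) :
    ∃ π : A, π ≠ 0 ∧ π • v ∈ FA_S18_E_Lam O (j : F) W k a b := by
  obtain ⟨π, hπ0, hπ⟩ := H2.scale v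
  refine ⟨π, hπ0, ?_⟩
  rw [FA_S18_E_Lam, FA_S18_E_mem_ball]
  refine ⟨?_, hπ⟩
  rw [← algebraMap_smul K π v]
  exact Submodule.smul_mem _ _ hv

theorem Lam_le_Lam1 (k b : ℕ) :
    FA_S18_E_Lam O (j : F) W k 0 b ≤ FA_S18_E_Lam1 O (j : F) W k :=
  fun y hy => (H.mem_Lam1 k y).mpr ⟨b, hy⟩

theorem Lam_le_Lam2 (k a : ℕ) :
    FA_S18_E_Lam O (j : F) W k a 0 ≤ FA_S18_E_Lam2 O (j : F) W k :=
  fun y hy => (H.mem_Lam2 k y).mpr ⟨a, hy⟩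

theorem Lam1_le_W1 (k : ℕ) (y : F) (hy : y ∈ FA_S18_E_Lam1 O (j : F) W k) :
    y ∈ FA_S18_E_W1 (j : F) W k := by
  obtain ⟨b, hb⟩ := (H.mem_Lam1 k y).mp hy
  exact (H.mem_W1 k y).mpr ⟨b, (FA_S18_E_mem_ball.mp hb).1⟩

theorem Lam2_le_W2 (k : ℕ) (y : F) (hy : y ∈ FA_S18_E_Lam2 O (j : F) W k) :
    y ∈ FA_S18_E_W2 (j : F) W k := by
  obtain ⟨a, ha⟩ := (H.mem_Lam2 k y).mp hy
  exact (H.mem_W2 k y).mpr ⟨a, (FA_S18_E_mem_ball.mp ha).1⟩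

/-- Step A: decomposition of `Λ₁₂` into the two chart lattices and a finitely generated piece. -/
theorem Lam12_decomp : ∃ c₀ : ℕ, ∀ c, c₀ ≤ c → ∀ k, k < p →
    FA_S18_E_Lam12 O (j : F) W k
      ≤ (FA_S18_E_Lam2 O (j : F) W k ⊔ FA_S18_E_Lam O (j : F) W k c c)
          ⊔ FA_S18_E_Lam1 O (j : F) W k := by
  obtain ⟨cs, hcs⟩ := H.Lam_sum
  refine ⟨cs, fun c hc k hk y hy => ?_⟩
  obtain ⟨n, hn⟩ := (H.mem_Lam12 k y).mp hy
  rcases Nat.lt_or_ge n c with hnc | hnc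
  · exact Submodule.mem_sup_left (Submodule.mem_sup_right (H.Lam_mono k hnc.le hnc.le hn))
  · have s1 := hcs k n c n c hk hnc hnc (by omega) hn
    obtain ⟨y1, hy1, y2, hy2, rfl⟩ := Submodule.mem_sup.mp s1
    have s2 := hcs k n c c 0 hk hnc (Nat.zero_le c) (by omega) hy1
    have s3 := hcs k c 0 n c hk (Nat.zero_le c) hnc (by omega) hy2
    obtain ⟨u1, hu1, u2, hu2, rfl⟩ := Submodule.mem_sup.mp s2
    obtain ⟨v1, hv1, v2, hv2, rfl⟩ := Submodule.mem_sup.mp s3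
    have e : u1 + u2 + (v1 + v2) = (u1 + (u2 + v1)) + v2 := by ring
    rw [e]
    refine Submodule.add_mem_sup (Submodule.add_mem_sup (H.Lam_le_Lam2 k n hu1) ?_)
      (H.Lam_le_Lam1 k n hv2)
    exact Submodule.add_mem _ hu2 hv1

/-- Step B: the torsion bound on the finitely generated piece. -/
theorem torsion_piece (H2 : FA_S18_E_Hyp2 O BfQ BiQ p) : ∃ c₀ : ℕ, ∀ c, c₀ ≤ c → ∀ k, k < p →
    ∃ d : A, d ≠ 0 ∧ ∀ s ∈ FA_S18_E_Lam O (j : F) W k c c,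
      (∃ π : A, π ≠ 0 ∧ π • s ∈ FA_S18_E_Lam1 O (j : F) W k ⊔ FA_S18_E_Lam2 O (j : F) W k) →
      d • s ∈ FA_S18_E_Lam1 O (j : F) W k ⊔ FA_S18_E_Lam2 O (j : F) W k := by
  obtain ⟨cd, hcd⟩ := H.WLam_dim
  refine ⟨cd, fun c hc k hk => ?_⟩
  obtain ⟨hfd, -⟩ := hcd k c c hk (by omega)
  set V : Submodule K F := FA_S18_E_WLam (j : F) W k c c
    ⊓ (FA_S18_E_W1 (j : F) W k ⊔ FA_S18_E_W2 (j : F) W k) with hV
  have hVfd : FiniteDimensional K V := Submodule.finiteDimensional_of_le inf_le_left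
  have hfg := (H.cart V hVfd).1
  obtain ⟨d, hd0, hd⟩ := FA_S18_E_common_mult (FA_S18_E_ball O V)
    (FA_S18_E_Lam1 O (j : F) W k ⊔ FA_S18_E_Lam2 O (j : F) W k) hfg (by
      intro y hy
      obtain ⟨hyV, -⟩ := FA_S18_E_mem_ball.mp hy
      obtain ⟨-, hy12⟩ := Submodule.mem_inf.mp hyV
      obtain ⟨v1, hv1, v2, hv2, rfl⟩ := Submodule.mem_sup.mp hy12
      obtain ⟨b, hb⟩ := (H.mem_W1 k v1).mp hv1
      obtain ⟨a, ha⟩ := (H.mem_W2 k v2).mp hv2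
      obtain ⟨π1, hπ1, h1⟩ := H.scale_Lam H2 k 0 b v1 hb
      obtain ⟨π2, hπ2, h2⟩ := H.scale_Lam H2 k a 0 v2 ha
      refine ⟨π1 * π2, mul_ne_zero hπ1 hπ2, ?_⟩
      have e : (π1 * π2) • (v1 + v2) = π2 • (π1 • v1) + π1 • (π2 • v2) := by
        rw [smul_add, mul_smul, mul_smul, smul_comm π1 π2 v1]
      rw [e]
      exact Submodule.add_mem_sup
        (Submodule.smul_mem _ _ (H.Lam_le_Lam1 k b h1))
        (Submodule.smul_mem _ _ (H.Lam_le_Lam2 k a h2)))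
  refine ⟨d, hd0, fun s hs hπ => ?_⟩
  apply hd
  obtain ⟨hsW, hsO⟩ := FA_S18_E_mem_ball.mp hs
  refine FA_S18_E_mem_ball.mpr ⟨Submodule.mem_inf.mpr ⟨hsW, ?_⟩, hsO⟩
  obtain ⟨π, hπ0, hπs⟩ := hπ
  obtain ⟨y1, hy1, y2, hy2, hy12⟩ := Submodule.mem_sup.mp hπs
  have hπK : (algebraMap A K π) ≠ 0 := by
    simpa using (IsFractionRing.injective A K).ne hπ0
  have e : s = (algebraMap A K π)⁻¹ • (y1 + y2) := by
    rw [hy12, ← algebraMap_smul K π s, smul_smul, inv_mul_cancel₀ hπK, one_smul]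
  rw [e]
  exact Submodule.smul_mem _ _
    (Submodule.add_mem_sup (H.Lam1_le_W1 k y1 hy1) (H.Lam2_le_W2 k y2 hy2))

/-- The torsion bound, for one `k`. -/
theorem torsion_k (H2 : FA_S18_E_Hyp2 O BfQ BiQ p) (k : ℕ) (hk : k < p) :
    ∃ d : A, d ≠ 0 ∧ ∀ b ∈ FA_S18_E_Lam12 O (j : F) W k,
      (∃ π : A, π ≠ 0 ∧ π • b ∈ FA_S18_E_Lam1 O (j : F) W k ⊔ FA_S18_E_Lam2 O (j : F) W k) →
      d • b ∈ FA_S18_E_Lam1 O (j : F) W k ⊔ FA_S18_E_Lam2 O (j : F) W k := by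
  obtain ⟨c1, hc1⟩ := H.Lam12_decomp
  obtain ⟨c2, hc2⟩ := H.torsion_piece H2
  obtain ⟨d, hd0, hd⟩ := hc2 (max c1 c2) (le_max_right _ _) k hk
  refine ⟨d, hd0, fun b hb hπ => ?_⟩
  have hdec := hc1 (max c1 c2) (le_max_left _ _) k hk hb
  obtain ⟨t, ht, b1, hb1, rfl⟩ := Submodule.mem_sup.mp hdec
  obtain ⟨b2, hb2, s, hs, rfl⟩ := Submodule.mem_sup.mp ht
  obtain ⟨π, hπ0, hπb⟩ := hπ
  have hL1 : FA_S18_E_Lam1 O (j : F) W k
      ≤ FA_S18_E_Lam1 O (j : F) W k ⊔ FA_S18_E_Lam2 O (j : F) W k := le_sup_left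
  have hL2 : FA_S18_E_Lam2 O (j : F) W k
      ≤ FA_S18_E_Lam1 O (j : F) W k ⊔ FA_S18_E_Lam2 O (j : F) W k := le_sup_right
  have hs' : π • s ∈ FA_S18_E_Lam1 O (j : F) W k ⊔ FA_S18_E_Lam2 O (j : F) W k := by
    have e : π • s = π • (b2 + s + b1) - π • b2 - π • b1 := by
      rw [smul_add, smul_add]; abel
    rw [e]
    exact Submodule.sub_mem _ (Submodule.sub_mem _ hπb (Submodule.smul_mem _ _ (hL2 hb2)))
      (Submodule.smul_mem _ _ (hL1 hb1))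
  have hds := hd s hs ⟨π, hπ0, hs'⟩
  rw [smul_add, smul_add]
  exact Submodule.add_mem _ (Submodule.add_mem _ (Submodule.smul_mem _ _ (hL2 hb2)) hds)
    (Submodule.smul_mem _ _ (hL1 hb1))

/-- **Componentwise `H2`** (torsion bound), in the form of `FA_S18_conn_inst_red`. -/
theorem H2 (H2 : FA_S18_E_Hyp2 O BfQ BiQ p) :
    ∃ c : A, c ≠ 0 ∧ ∀ k < p, ∀ b ∈ FA_S18_E_Lam12 O (j : F) W k,
      (∃ π : A, π ≠ 0 ∧ ∃ y₁ ∈ FA_S18_E_Lam1 O (j : F) W k,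
        ∃ y₂ ∈ FA_S18_E_Lam2 O (j : F) W k, π • b = y₁ + y₂) →
      ∃ y₁ ∈ FA_S18_E_Lam1 O (j : F) W k, ∃ y₂ ∈ FA_S18_E_Lam2 O (j : F) W k,
        c • b = y₁ + y₂ := by
  classical
  have hall : ∀ k : ℕ, ∃ d : A, d ≠ 0 ∧ (k < p → ∀ b ∈ FA_S18_E_Lam12 O (j : F) W k,
      (∃ π : A, π ≠ 0 ∧ π • b ∈ FA_S18_E_Lam1 O (j : F) W k ⊔ FA_S18_E_Lam2 O (j : F) W k) →
      d • b ∈ FA_S18_E_Lam1 O (j : F) W k ⊔ FA_S18_E_Lam2 O (j : F) W k) := by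
    intro k
    by_cases hk : k < p
    · obtain ⟨d, hd0, hd⟩ := H.torsion_k H2 k hk
      exact ⟨d, hd0, fun _ => hd⟩
    · exact ⟨1, one_ne_zero, fun h => absurd h hk⟩
  choose d hd0 hd using hall
  refine ⟨∏ k ∈ Finset.range p, d k, Finset.prod_ne_zero_iff.mpr fun k _ => hd0 k, ?_⟩
  intro k hk b hb hπ
  obtain ⟨π, hπ0, y₁, hy₁, y₂, hy₂, hπb⟩ := hπ
  have h1 := hd k hk b hb ⟨π, hπ0, hπb ▸ Submodule.add_mem_sup hy₁ hy₂⟩
  have h2 : (∏ k ∈ Finset.range p, d k) • b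
      ∈ FA_S18_E_Lam1 O (j : F) W k ⊔ FA_S18_E_Lam2 O (j : F) W k := by
    rw [← Finset.mul_prod_erase (Finset.range p) d (Finset.mem_range.mpr hk), mul_comm, mul_smul]
    exact Submodule.smul_mem _ _ h1
  obtain ⟨z₁, hz₁, z₂, hz₂, hz⟩ := Submodule.mem_sup.mp h2
  exact ⟨z₁, hz₁, z₂, hz₂, hz.symm⟩

/-- Lifts of `1` in the two chart lattices. -/
theorem lifts_one : ∀ k, k < p →
    (∃ u : O, (u : F) ∈ FA_S18_E_Lam1 O (j : F) W k ∧ red u = 1) ∧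
    (∃ w : O, (w : F) ∈ FA_S18_E_Lam2 O (j : F) W k ∧ red w = 1) := by
  obtain ⟨c, hc⟩ := H.lift2
  intro k hk
  constructor
  · have h1 : (1 : Fb) ∈ FA_S18_E_Lbar2 Bbf Bbi (red j) 0 c := by
      rw [H.mem_Lbar2_iff]
      simp only [one_mul, pow_zero]
      exact ⟨Bbf.one_mem, Bbi.pow_mem H.jbinv_inf _⟩
    obtain ⟨y, hy, hy1⟩ := hc k 0 c hk (by omega) 1 h1
    exact ⟨y, H.Lam_le_Lam1 k c hy, hy1⟩
  · have h1 : (1 : Fb) ∈ FA_S18_E_Lbar2 Bbf Bbi (red j) c 0 := by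
      rw [H.mem_Lbar2_iff]
      simp only [one_mul, pow_zero]
      exact ⟨Bbf.pow_mem H.jb_fin _, Bbi.one_mem⟩
    obtain ⟨y, hy, hy1⟩ := hc k c 0 hk (by omega) 1 h1
    exact ⟨y, H.Lam_le_Lam2 k c hy, hy1⟩

end FA_S18_E_Hyp

end FA_S18
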