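import Mathlib
import Fermat.Agent.S18.LiftAbs3
import Fermat.Agent.S18.ConnInst

/-!
# S18, leaf E (abstract core): from the two hypothesis bundles to `f = c · h ^ p`

`FA_S18_E_core` : under `FA_S18_E_Hyp` and `FA_S18_E_Hyp2`, the element `f ∈ O` (with `red f = 1`,
whose twisted spaces have the Riemann–Roch dimensions) is a constant times a `p`-th power in `F`.
-/

set_option autoImplicit false
set_option linter.unusedSectionVars false

noncomputable section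

namespace FA_S18

open IsLocalRing

variable {A K F Fb kk : Type*} [CommRing A] [IsDomain A] [IsLocalRing A]
  [Field K] [Algebra A K] [IsFractionRing A K]
  [Field F] [Algebra K F] [Algebra A F] [IsScalarTower A K F]
  [Field kk] [Field Fb] [Algebra kk Fb]

variable {O : Subalgebra A F} {red : O →+* Fb} {res : A →+* kk}
  {j jinv : O} {BfQ BiQ BmQ : Subalgebra K F} {Bbf Bbi : Subalgebra kk Fb}
  {p : ℕ} {f : O} {W : ℕ → ℕ → Submodule K F} {ψ g : ℕ}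

/-- Bezout step: `x ^ p * f ^ k = c` with `gcd(k, p) = 1` makes `f` a constant times a `p`-th
power. -/
theorem FA_S18_E_bezout {K F : Type*} [Field K] [Field F] [Algebra K F] (p k : ℕ)
    (hkp : Nat.Coprime k p) (x f : F) (hx : x ≠ 0) (hf : f ≠ 0) (c : K)
    (h : x ^ p * f ^ k = algebraMap K F c) :
    ∃ c' : K, c' ≠ 0 ∧ ∃ h : F, f = algebraMap K F c' * h ^ p := by
  have hc0 : c ≠ 0 := by
    rintro rfl
    rw [map_zero] at h
    exact mul_ne_zero (pow_ne_zero _ hx) (pow_ne_zero _ hf) h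
  have hfk : f ^ k = algebraMap K F c * (x ^ p)⁻¹ := by
    rw [← h, mul_comm (x ^ p), mul_assoc, mul_inv_cancel₀ (pow_ne_zero _ hx), mul_one]
  have hb : (1 : ℤ) = (k : ℤ) * Nat.gcdA k p + (p : ℤ) * Nat.gcdB k p := by
    rw [← Nat.gcd_eq_gcd_ab, hkp.gcd_eq_one, Nat.cast_one]
  set u := Nat.gcdA k p
  set v := Nat.gcdB k p
  refine ⟨c ^ u, zpow_ne_zero _ hc0, x ^ (-u) * f ^ v, ?_⟩
  have e1 : ((x ^ p)⁻¹) ^ u = (x ^ (-u)) ^ p := by
    rw [← zpow_natCast (x ^ (-u)) p, ← zpow_mul, inv_zpow', ← zpow_natCast x p, ← zpow_mul]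
    congr 1
    ring
  calc f = f ^ (1 : ℤ) := (zpow_one _).symm
    _ = f ^ ((k : ℤ) * u + (p : ℤ) * v) := by rw [← hb]
    _ = (f ^ k) ^ u * (f ^ v) ^ p := by
        rw [zpow_add₀ hf, zpow_mul, zpow_natCast, mul_comm (p : ℤ) v, zpow_mul, zpow_natCast]
    _ = (algebraMap K F c * (x ^ p)⁻¹) ^ u * (f ^ v) ^ p := by rw [hfk]
    _ = algebraMap K F (c ^ u) * (x ^ (-u) * f ^ v) ^ p := by
        rw [mul_zpow, map_zpow₀, e1, mul_pow]
        ring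

/-- **Abstract core of stage 2.** -/
theorem FA_S18_E_core
    (H : FA_S18_E_Hyp O red res j jinv BfQ BiQ BmQ Bbf Bbi p f W ψ g)
    (H2 : FA_S18_E_Hyp2 O BfQ BiQ p) :
    ∃ c : K, c ≠ 0 ∧ ∃ h : F, (f : F) = algebraMap K F c * h ^ p := by
  classical
  obtain ⟨π₀, hπ₀, hπ₀0⟩ := H2.m_ne
  obtain ⟨pinv, hpinv⟩ := H2.p_unit
  have hl := H.lifts_one
  have hlu : ∀ k : ℕ, ∃ u : O, k < p → (u : F) ∈ FA_S18_E_Lam1 O (j : F) W k ∧ red u = 1 := by
    intro k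
    by_cases hk : k < p
    · obtain ⟨u, hu⟩ := (hl k hk).1
      exact ⟨u, fun _ => hu⟩
    · exact ⟨1, fun h => absurd h hk⟩
  have hlw : ∀ k : ℕ, ∃ w : O, k < p → (w : F) ∈ FA_S18_E_Lam2 O (j : F) W k ∧ red w = 1 := by
    intro k
    by_cases hk : k < p
    · obtain ⟨w, hw⟩ := (hl k hk).2
      exact ⟨w, fun _ => hw⟩
    · exact ⟨1, fun h => absurd h hk⟩
  choose u hu using hlu
  choose w hw using hlw
  have hf0 : (f : F) ≠ 0 := by
    intro h0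
    have : f = 0 := Subtype.ext h0
    have h1 := H.f_red
    rw [this, map_zero] at h1
    exact zero_ne_one h1
  have hLMul : ∀ (Λ : ℕ → Submodule A F),
      (1 : F) ∈ Λ 0 →
      (∀ k k' : ℕ, ∀ y ∈ Λ k, ∀ y' ∈ Λ k',
        (k + k' < p → y * y' ∈ Λ (k + k')) ∧ (p ≤ k + k' → y * y' * (f : F) ∈ Λ (k + k' - p))) →
      FA_S18_LMul (f : F) p Λ := fun Λ h1 h2 => ⟨h1, fun k _ k' _ y hy y' hy' => h2 k k' y hy y' hy'⟩
  have key := FA_S18_conn_inst_red (A := A) (F := F) (maximalIdeal A) H2.hV H2.hrank π₀ hπ₀ hπ₀0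
    (fun a b ha hb => mul_ne_zero ha hb) p H2.p_prime.two_le pinv hpinv
    O.toSubring (K := Fb) red
    (by
      intro m hm y z hzy
      have hz : (⟨z.1, z.2⟩ : O) = m • (⟨y.1, y.2⟩ : O) := Subtype.ext hzy
      have hzz : red z = red (⟨z.1, z.2⟩ : O) := rfl
      rw [hzz, hz, FA_S18_E_red_smul O red res H.compat, H.res_max m hm, map_zero, zero_mul])
    f H.f_red
    (FA_S18_E_Lam1 O (j : F) W) (FA_S18_E_Lam2 O (j : F) W) (FA_S18_E_Lam12 O (j : F) W)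
    (fun k _ y hy => H.Lam12_le_O k y hy)
    (fun k _ => H.Lam1_le_Lam12 k) (fun k _ => H.Lam2_le_Lam12 k)
    (hLMul _ ((H.mem_Lam1 0 1).mpr ⟨0, H.one_mem_Lam⟩) (by
      intro k k' y hy y' hy'
      obtain ⟨b, hb⟩ := (H.mem_Lam1 k y).mp hy
      obtain ⟨b', hb'⟩ := (H.mem_Lam1 k' y').mp hy'
      have := H.Lam_mul_cases hb hb'
      exact ⟨fun h => (H.mem_Lam1 _ _).mpr ⟨b + b', this.1 h⟩,
        fun h => (H.mem_Lam1 _ _).mpr ⟨b + b', this.2 h⟩⟩))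
    (hLMul _ ((H.mem_Lam2 0 1).mpr ⟨0, H.one_mem_Lam⟩) (by
      intro k k' y hy y' hy'
      obtain ⟨a, ha⟩ := (H.mem_Lam2 k y).mp hy
      obtain ⟨a', ha'⟩ := (H.mem_Lam2 k' y').mp hy'
      have := H.Lam_mul_cases ha ha'
      exact ⟨fun h => (H.mem_Lam2 _ _).mpr ⟨a + a', this.1 h⟩,
        fun h => (H.mem_Lam2 _ _).mpr ⟨a + a', this.2 h⟩⟩))
    (hLMul _ ((H.mem_Lam12 0 1).mpr ⟨0, H.one_mem_Lam⟩) (by
      intro k k' y hy y' hy'
      obtain ⟨a, ha⟩ := (H.mem_Lam12 k y).mp hy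
      obtain ⟨a', ha'⟩ := (H.mem_Lam12 k' y').mp hy'
      have := H.Lam_mul_cases ha ha'
      exact ⟨fun h => (H.mem_Lam12 _ _).mpr ⟨a + a', this.1 h⟩,
        fun h => (H.mem_Lam12 _ _).mpr ⟨a + a', this.2 h⟩⟩))
    (by
      intro k _ y hy h0
      obtain ⟨b, hb⟩ := (H.mem_Lam1 k y).mp hy
      obtain ⟨m, hm, y', hy', hyy'⟩ := H.Lam_ker k 0 b y hb h0
      exact ⟨m, hm, y', H.Lam_le_Lam1 k b hy', congrArg Subtype.val hyy'⟩)
    (by
      intro k _ y hy h0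
      obtain ⟨a, ha⟩ := (H.mem_Lam2 k y).mp hy
      obtain ⟨m, hm, y', hy', hyy'⟩ := H.Lam_ker k a 0 y ha h0
      exact ⟨m, hm, y', H.Lam_le_Lam2 k a hy', congrArg Subtype.val hyy'⟩)
    (by
      intro k _ y hy h0
      obtain ⟨n, hn⟩ := (H.mem_Lam12 k y).mp hy
      obtain ⟨m, hm, y', hy', hyy'⟩ := H.Lam_ker k n n y hn h0
      exact ⟨m, hm, y', (H.mem_Lam12 k _).mpr ⟨n, hy'⟩, congrArg Subtype.val hyy'⟩)
    (fun x h1 h2 => H.H00 H2 x h1 h2)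
    (H.H2 H2)
    u w (fun k hk => (hu k hk).1) (fun k hk => (hw k hk).1)
    (fun k hk => (hu k hk).2) (fun k hk => (hw k hk).2)
  obtain ⟨k, hk0, hkp, x, hx0, hx1, hx2⟩ := key
  obtain ⟨b, hb⟩ := (H.mem_Lam1 k x).mp hx1
  obtain ⟨a, ha⟩ := (H.mem_Lam2 k x).mp hx2
  rw [FA_S18_E_Lam, FA_S18_E_mem_ball, H.mem_WLam_iff] at hb ha
  have hxf : x ^ p * (f : F) ^ k ∈ BfQ := by
    have := hb.1.1
    simpa using this
  have hxi : x ^ p * (f : F) ^ k ∈ BiQ := by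
    have := ha.1.2
    simpa using this
  obtain ⟨c, hc⟩ := H2.consts _ hxf hxi
  have hcop : Nat.Coprime k p := by
    rw [Nat.coprime_comm, H2.p_prime.coprime_iff_not_dvd]
    exact Nat.not_dvd_of_pos_of_lt hk0 hkp
  exact FA_S18_E_bezout p k hcop x (f : F) hx0 hf0 c hc

end FA_S18
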