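import Fermat.Agent.S18.Assemble0
import Fermat.Agent.S18.InstB
import Fermat.Agent.S18.CoreAbs

/-!
# S18, leaf H3 (assembly), part 2: the statement of S18 from the targets of leaves B and N

* `FA_S18_H3_core` : `FA_S18_Target_Core A M N p` at the auxiliary level `n = N·M`, `M = r²`,
  from the B targets (scale, ker, range, cart) and the N targets (icl, h1) at level `n`.
* `FA_S18_H3_main` : the statement of S18 from these targets at one auxiliary level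
  `n = N·r²` (`r` prime, `ℓ ∤ r`).
* `FA_S18_H3_final` : the same with the level chosen inside (`r = 2` if `ℓ` is odd, `r = 3` if
  `ℓ = 2`); hypotheses for all levels prime to `ℓ` (B) and for `n = N·4`, `N·9` (N).
-/

set_option autoImplicit false
set_option linter.unusedSectionVars false
set_option linter.style.haveILetI false

noncomputable section

namespace Fermat.Agent.S18

open ModularCurve AlgebraicCurve FA_S18

set_option synthInstance.maxHeartbeats 400000 in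
set_option maxHeartbeats 800000 in
/-- **Core at the auxiliary level** from the targets of leaves B and N. -/
theorem FA_S18_H3_core (A : ValuationSubring (AlgebraicClosure ℚ)) {ℓ : ℕ} (hℓ : ℓ.Prime)
    (hA : A.LiesOverPrime ℓ) (r : ℕ) (hr : r.Prime) (M : ℕ) [NeZero M] (hM : M = r * r)
    (N : ℕ) [NeZero N] (n : ℕ) [NeZero n] (hn : n = N * M) (hℓn : ¬ ℓ ∣ n)
    (hscale : FA_S18_Target_B_scale A n ℓ) (hker : FA_S18_Target_B_ker A n ℓ)
    (hrange : FA_S18_Target_B_range A n ℓ) (hcart : FA_S18_Target_B_cart A n ℓ)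
    (p : ℕ) (hp : p.Prime) (hpℓ : p ≠ ℓ)
    (hicl : ∀ h : FA_S18_I_Range A n, FA_S18_I_Target_N_icl A n h p)
    (hh1 : FA_S18_I_Target_N_h1 A n) :
    FA_S18_Target_Core A M N p := by
  have hR : FA_S18_I_Range A n := FA_S18_I_range_of_target A n hℓ hA hℓn hrange
  refine FA_S18_H1_core_of_sub A M N n hn p ?_
  intro y₁ y₂ h₁ h₂ heq hne hdiv
  have hne₂ : coeffMap (IsLocalRing.residue A) y₂ ≠ 0 := heq ▸ hne
  -- the function `f`
  set fF : ↥(modularFunctionFieldBar n) :=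
    ⟨qExpand (AlgebraicClosure ℚ) M (coeffMap A.subtype y₁ / coeffMap A.subtype y₂),
      FA_S18_H1_qExpand_mem M N n hn (div_mem h₁.1 h₂.1)⟩ with hfF
  have hfO : fF ∈ FA_S18_I_O A n :=
    (FA_S18_I_mem_O A n).mpr (FA_S18_H3_f_isInt (π := FA_S18_pi A) (M := M) hne₂)
  set f : ↥(FA_S18_I_O A n) := ⟨fF, hfO⟩ with hf
  have hred : FA_S18_I_red A n hR f = 1 :=
    Subtype.ext (FA_S18_H3_f_red (π := FA_S18_pi A) (M := M) heq hne₂)
  have hord : ∀ v : Place (AlgebraicClosure ℚ) ↥(modularFunctionFieldBar n),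
      (p : ℤ) ∣ v.ord (f : ↥(modularFunctionFieldBar n)) :=
    fun v => FA_S18_H3_f_ord A r hr M hM N n hn p y₁ y₂ h₁ h₂ hne hne₂ hdiv v
  have H := FA_S18_I_hyp A n hℓ hA hℓn hR hker hcart p hp.pos f hred hord (hicl hR) hh1
  have H2 := FA_S18_I_hyp2 A n hℓ hA hℓn hscale p hp hpℓ
  obtain ⟨c, hc, h, hh⟩ := FA_S18_E_core H H2
  exact ⟨c, hc, h, hh⟩

/-- **S18 from the targets of leaves B and N** at one auxiliary level `n = N·r²`. -/
theorem FA_S18_H3_main (N : ℕ) [NeZero N] {ℓ : ℕ} (hℓ : ℓ.Prime)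
    (A : ValuationSubring (AlgebraicClosure ℚ)) (hA : A.LiesOverPrime ℓ)
    (r : ℕ) (hr : r.Prime) (n : ℕ) [NeZero n] (hn : n = N * (r * r)) (hℓn : ¬ ℓ ∣ n)
    (hscale : FA_S18_Target_B_scale A n ℓ) (hker : FA_S18_Target_B_ker A n ℓ)
    (hrange : FA_S18_Target_B_range A n ℓ) (hcart : FA_S18_Target_B_cart A n ℓ)
    (hicl : ∀ h : FA_S18_I_Range A n, ∀ p : ℕ, p.Prime → p ≠ ℓ → FA_S18_I_Target_N_icl A n h p)
    (hh1 : FA_S18_I_Target_N_h1 A n)
    (h : ReductionInputsModL A N) (m : ℕ) (hm : ¬ ℓ ∣ m) (z : JZero N)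
    (hmz : m • z = 0) (hz : reductionModL A N z = 0) : z = 0 := by
  haveI : NeZero (r * r) := ⟨Nat.mul_ne_zero hr.ne_zero hr.ne_zero⟩
  exact FA_S18_H1_final N A r hr (r * r) rfl
    (fun p hp hpℓ => FA_S18_H3_core A hℓ hA r hr (r * r) rfl N n hn hℓn hscale hker hrange
      hcart p hp hpℓ (fun hR => hicl hR p hp hpℓ) hh1)
    h m hm z hmz hz

/-- **S18 from the targets of leaves B and N**, the auxiliary level chosen inside. -/
theorem FA_S18_H3_final (N : ℕ) [NeZero N] {ℓ : ℕ} [hℓ : Fact ℓ.Prime] (hℓN : ¬ ℓ ∣ N)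
    (A : ValuationSubring (AlgebraicClosure ℚ)) (hA : A.LiesOverPrime ℓ)
    (hB : ∀ (n : ℕ) [NeZero n], ¬ ℓ ∣ n →
      FA_S18_Target_B_scale A n ℓ ∧ FA_S18_Target_B_ker A n ℓ ∧
        FA_S18_Target_B_range A n ℓ ∧ FA_S18_Target_B_cart A n ℓ)
    (hN : ∀ (r : ℕ), r.Prime → ¬ ℓ ∣ r * r → (r = 2 ∨ r = 3) →
      ∀ (n : ℕ) [NeZero n], n = N * (r * r) → ¬ ℓ ∣ n →
        (∀ h : FA_S18_I_Range A n, ∀ p : ℕ, p.Prime → p ≠ ℓ →
          FA_S18_I_Target_N_icl A n h p) ∧ FA_S18_I_Target_N_h1 A n)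
    (h : ReductionInputsModL A N) (m : ℕ) (hm : ¬ ℓ ∣ m) (z : JZero N)
    (hmz : m • z = 0) (hz : reductionModL A N z = 0) : z = 0 := by
  obtain ⟨r, hr, hℓr, hr23⟩ : ∃ r : ℕ, r.Prime ∧ ¬ ℓ ∣ r * r ∧ (r = 2 ∨ r = 3) := by
    by_cases h2 : ℓ = 2
    · refine ⟨3, Nat.prime_three, ?_, Or.inr rfl⟩
      rw [h2]
      decide
    · refine ⟨2, Nat.prime_two, fun hd => h2 ?_, Or.inl rfl⟩
      have h1 : ℓ ∣ 2 := (hℓ.out.dvd_mul.mp hd).elim id id
      exact (Nat.prime_dvd_prime_iff_eq hℓ.out Nat.prime_two).mp h1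
  haveI hn0 : NeZero (N * (r * r)) :=
    ⟨Nat.mul_ne_zero (NeZero.ne N) (Nat.mul_ne_zero hr.ne_zero hr.ne_zero)⟩
  have hℓn : ¬ ℓ ∣ N * (r * r) := FA_S18_H3_not_dvd hℓ.out hℓN hℓr
  obtain ⟨hscale, hker, hrange, hcart⟩ := hB (N * (r * r)) hℓn
  obtain ⟨hicl, hh1⟩ := hN r hr hℓr hr23 (N * (r * r)) rfl hℓn
  exact FA_S18_H3_main N hℓ.out A hA r hr (N * (r * r)) rfl hℓn hscale hker hrange hcart
    hicl hh1 h m hm z hmz hz

end Fermat.Agent.S18
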