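import Fermat.Agent.S18.RootCore
import Fermat.Agent.S18.InstDefs

/-!
# S18, leaf H3 (assembly), part 1: the level and the function `f = σ(ι y₁ / ι y₂)`

* `FA_S18_H3_level` : for a prime `ℓ` there is a prime `r ∈ {2, 3}` with `ℓ ∤ r²`.
* For `y₁, y₂ : A((q))` integral at level `N` with equal nonzero reductions:
  `f = σ_M (ι y₁ / ι y₂)` is Gauss-integral with reduction `1` (`FA_S18_H3_f_isInt`,
  `FA_S18_H3_f_red`), nonzero, and its orders at the places of `F_{N·M}` are divisible by `p`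
  if those of `ι y₁ / ι y₂` at the places of `F_N` are (`FA_S18_H3_f_ord`).
-/

set_option autoImplicit false
set_option linter.unusedSectionVars false
set_option linter.style.haveILetI false

noncomputable section

namespace Fermat.Agent.S18

open ModularCurve AlgebraicCurve

/-- The auxiliary prime: `r = 2` if `ℓ` is odd, `r = 3` if `ℓ = 2`. -/
theorem FA_S18_H3_level {ℓ : ℕ} (hℓ : ℓ.Prime) : ∃ r : ℕ, r.Prime ∧ ¬ ℓ ∣ r * r := by
  by_cases h2 : ℓ = 2
  · subst h2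
    exact ⟨3, Nat.prime_three, by decide⟩
  · refine ⟨2, Nat.prime_two, fun h => h2 ?_⟩
    have h1 : ℓ ∣ 2 := (hℓ.dvd_mul.mp h).elim id id
    exact (Nat.prime_dvd_prime_iff_eq hℓ Nat.prime_two).mp h1

/-- `ℓ ∤ N`, `ℓ ∤ M` gives `ℓ ∤ N * M`. -/
theorem FA_S18_H3_not_dvd {ℓ : ℕ} (hℓ : ℓ.Prime) {N M : ℕ} (hN : ¬ ℓ ∣ N) (hM : ¬ ℓ ∣ M) :
    ¬ ℓ ∣ N * M := fun h => (hℓ.dvd_mul.mp h).elim hN hM

section fside

variable {K : Type*} [Field K] (A : ValuationSubring K) {k : Type*} [Field k] (π : A →+* k)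
  (M : ℕ) [NeZero M]

/-- `σ(ι y₂) · σ(ι y₁ / ι y₂) = σ(ι y₁)` in integral form. -/
theorem FA_S18_H3_sigma_eq {y₁ y₂ : LaurentSeries A} (h₂ : coeffMap A.subtype y₂ ≠ 0) :
    coeffMap A.subtype (qExpand A M y₂)
        * qExpand K M (coeffMap A.subtype y₁ / coeffMap A.subtype y₂)
      = coeffMap A.subtype (qExpand A M y₁) := by
  rw [coeffMap_qExpand, coeffMap_qExpand, ← map_mul, mul_div_cancel₀ _ h₂]

variable {A π M}

/-- `f = σ(ι y₁/ι y₂)` is Gauss-integral. -/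
theorem FA_S18_H3_f_isInt {y₁ y₂ : LaurentSeries A} (hne : coeffMap π y₂ ≠ 0) :
    FA_S18_B_IsInt A π (qExpand K M (coeffMap A.subtype y₁ / coeffMap A.subtype y₂)) := by
  refine ⟨qExpand A M y₁, qExpand A M y₂, ?_, FA_S18_H3_sigma_eq A M (FA_S18_B_iota_ne_zero hne)⟩
  rw [coeffMap_qExpand]
  intro h0
  apply hne
  apply qExpand_injective M
  rw [h0, map_zero]

/-- `red f = 1`. -/
theorem FA_S18_H3_f_red {y₁ y₂ : LaurentSeries A} (heq : coeffMap π y₁ = coeffMap π y₂)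
    (hne : coeffMap π y₂ ≠ 0) :
    FA_S18_B_red A π (qExpand K M (coeffMap A.subtype y₁ / coeffMap A.subtype y₂)) = 1 := by
  have h0 : coeffMap π (qExpand A M y₂) ≠ 0 := by
    rw [coeffMap_qExpand]
    intro h0
    apply hne
    apply qExpand_injective M
    rw [h0, map_zero]
  rw [FA_S18_B_red_eq h0 (FA_S18_H3_sigma_eq A M (FA_S18_B_iota_ne_zero hne)),
    coeffMap_qExpand, coeffMap_qExpand, heq, ← coeffMap_qExpand]
  exact div_self h0

/-- `f ≠ 0`. -/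
theorem FA_S18_H3_f_ne {y₁ y₂ : LaurentSeries A} (hne₁ : coeffMap π y₁ ≠ 0)
    (hne₂ : coeffMap π y₂ ≠ 0) :
    qExpand K M (coeffMap A.subtype y₁ / coeffMap A.subtype y₂) ≠ 0 := by
  intro h0
  have h1 : coeffMap A.subtype y₁ / coeffMap A.subtype y₂ = 0 := by
    apply qExpand_injective M
    rw [h0, map_zero]
  rcases div_eq_zero_iff.mp h1 with h | h
  · exact FA_S18_B_iota_ne_zero hne₁ h
  · exact FA_S18_B_iota_ne_zero hne₂ h

end fside

section ord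

variable (A : ValuationSubring (AlgebraicClosure ℚ)) (r : ℕ) (hr : r.Prime) (M : ℕ) [NeZero M]
  (hM : M = r * r) (N : ℕ) [NeZero N] (n : ℕ) [NeZero n] (hn : n = N * M) (p : ℕ)

include hr hM in
/-- The orders of `f = σ(ι y₁/ι y₂)` at the places of `F_{N M}` are divisible by `p`. -/
theorem FA_S18_H3_f_ord (y₁ y₂ : LaurentSeries A)
    (h₁ : FA_S18_A_Int A (IsLocalRing.residue A) N y₁)
    (h₂ : FA_S18_A_Int A (IsLocalRing.residue A) N y₂)
    (hne₁ : coeffMap (IsLocalRing.residue A) y₁ ≠ 0)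
    (hne₂ : coeffMap (IsLocalRing.residue A) y₂ ≠ 0)
    (hdiv : ∀ P : Place (AlgebraicClosure ℚ) (modularFunctionFieldBar N),
      (p : ℤ) ∣ P.ord (FA_S18_A_gen y₁ h₁) - P.ord (FA_S18_A_gen y₂ h₂))
    (w : Place (AlgebraicClosure ℚ) ↥(modularFunctionFieldBar n)) :
    (p : ℤ) ∣ w.ord ⟨qExpand (AlgebraicClosure ℚ) M
        (coeffMap A.subtype y₁ / coeffMap A.subtype y₂),
      FA_S18_H1_qExpand_mem M N n hn (div_mem h₁.1 h₂.1)⟩ := by
  have hg₁ := FA_S18_A_gen_ne_zero h₁ hne₁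
  have hg₂ := FA_S18_A_gen_ne_zero h₂ hne₂
  obtain ⟨hmem, hdiv'⟩ := FA_S18_G_transfer r hr M hM N n hn (p : ℤ)
    (coeffMap A.subtype y₁ / coeffMap A.subtype y₂) (div_mem h₁.1 h₂.1) (fun P => by
      have : (⟨coeffMap A.subtype y₁ / coeffMap A.subtype y₂, div_mem h₁.1 h₂.1⟩ :
          ↥(modularFunctionFieldBar N)) = FA_S18_A_gen y₁ h₁ / FA_S18_A_gen y₂ h₂ := rfl
      rw [this, FA_S18_H1_ord_div P hg₁ hg₂]
      exact hdiv P)
  exact hdiv' w

end ord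

end Fermat.Agent.S18
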