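import Fermat.Agent.S18.Assemble
import Fermat.Agent.S18.FinSep
import Fermat.Agent.S18.GaussIntInst
import Fermat.Agent.S18.GaussCartInst

/-!
# S18, leaf H3 (assembly), part 3: S18 from the normality target `icl` alone

Leaf B (scale, ker, range, integral, cart) and N3 (`h1`, leaf FIN) are proved; the only remaining
hypothesis is `FA_S18_I_Target_N_icl` at the auxiliary level `n = N·r²`.

* `FA_S18_H3_h1_inst` : `FA_S18_I_Target_N_h1 A n` for every level `n` prime to `ℓ`.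
* `FA_S18_H3_final_icl` : the statement of S18 from `icl` at `n = N·4` (`ℓ` odd) resp. `n = N·9`
  (`ℓ = 2`).
-/

set_option autoImplicit false
set_option linter.unusedSectionVars false
set_option linter.style.haveILetI false

noncomputable section

namespace Fermat.Agent.S18

open ModularCurve AlgebraicCurve FA_S18

/-- **N3 (`h1`)** at every level prime to `ℓ`. -/
theorem FA_S18_H3_h1_inst (A : ValuationSubring (AlgebraicClosure ℚ)) (n : ℕ) [NeZero n]
    {ℓ : ℕ} (hℓ : ℓ.Prime) (hA : A.LiesOverPrime ℓ) (hn : ¬ ℓ ∣ n) :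
    FA_S18_I_Target_N_h1 A n :=
  FA_S18_FINA_h1 A n hℓ hA hn
    (FA_S18_I_range_of_target A n hℓ hA hn (FA_S18_B_range_inst A n ℓ))
    (FA_S18_B_integral_inst A n ℓ) (FA_S18_B4_cart_inst A n ℓ)

/-- **S18 from the normality target** (`icl`) at the auxiliary level. -/
theorem FA_S18_H3_final_icl (N : ℕ) [NeZero N] {ℓ : ℕ} [hℓ : Fact ℓ.Prime] (hℓN : ¬ ℓ ∣ N)
    (A : ValuationSubring (AlgebraicClosure ℚ)) (hA : A.LiesOverPrime ℓ)
    (hN : ∀ (r : ℕ), r.Prime → ¬ ℓ ∣ r * r → (r = 2 ∨ r = 3) →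
      ∀ (n : ℕ) [NeZero n], n = N * (r * r) → ¬ ℓ ∣ n →
        ∀ h : FA_S18_I_Range A n, ∀ p : ℕ, p.Prime → p ≠ ℓ → FA_S18_I_Target_N_icl A n h p)
    (h : ReductionInputsModL A N) (m : ℕ) (hm : ¬ ℓ ∣ m) (z : JZero N)
    (hmz : m • z = 0) (hz : reductionModL A N z = 0) : z = 0 :=
  FA_S18_H3_final N hℓN A hA
    (fun n _ _ => ⟨FA_S18_B_scale_inst A n ℓ, FA_S18_B_ker_inst A n ℓ,
      FA_S18_B_range_inst A n ℓ, FA_S18_B4_cart_inst A n ℓ⟩)
    (fun r hr hℓr hr23 n _ hn hℓn =>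
      ⟨hN r hr hℓr hr23 n hn hℓn, FA_S18_H3_h1_inst A n hℓ.out hA hℓn⟩)
    h m hm z hmz hz

end Fermat.Agent.S18
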