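import Mathlib

/-!
# S18, leaf N, sub-leaf BASE (abstract part 1): the elementary Riemann bound

`kk` a field, `Fb / kk` a field, `u ∈ Fb` nonzero, `Bf`, `Bi` two `kk`-subalgebras of `Fb` with
`u ∈ Bi`, `Bf ∩ Bi = kk` ("a function without poles is constant"), and such that any `ψ + 1`
elements of `Fb` are linearly dependent over `kk[u]`.  Then the space
`V b = {x ∈ Bf | x u^b ∈ Bi}` ("`L(b (u)_0)`") has dimension `≤ b ψ + 1`.

No genus, no places: `V b / V (b-1)` embeds into `Bi / u Bi`, which has dimension `≤ ψ`.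
-/

set_option autoImplicit false
set_option linter.style.haveILetI false

noncomputable section

namespace FA_S18

open Polynomial

variable {kk Fb : Type*} [Field kk] [Field Fb] [Algebra kk Fb]

/-- `V b = {x ∈ Bf | x u^b ∈ Bi}`. -/
def FA_S18_BASE_V (Bf Bi : Subalgebra kk Fb) (u : Fb) (b : ℕ) : Submodule kk Fb where
  carrier := {x | x ∈ Bf ∧ x * u ^ b ∈ Bi}
  add_mem' := by
    rintro x y ⟨hx, hx'⟩ ⟨hy, hy'⟩
    exact ⟨Bf.add_mem hx hy, by rw [add_mul]; exact Bi.add_mem hx' hy'⟩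
  zero_mem' := ⟨Bf.zero_mem, by rw [zero_mul]; exact Bi.zero_mem⟩
  smul_mem' := by
    rintro c x ⟨hx, hx'⟩
    exact ⟨Bf.smul_mem hx c, by rw [smul_mul_assoc]; exact Bi.smul_mem hx' c⟩

theorem FA_S18_BASE_mem_V {Bf Bi : Subalgebra kk Fb} {u : Fb} {b : ℕ} {x : Fb} :
    x ∈ FA_S18_BASE_V Bf Bi u b ↔ x ∈ Bf ∧ x * u ^ b ∈ Bi := Iff.rfl

/-- `u Bi` as a submodule of `Bi`. -/
def FA_S18_BASE_uB (Bi : Subalgebra kk Fb) (u : Fb) : Submodule kk (Subalgebra.toSubmodule Bi) where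
  carrier := {x | ∃ y ∈ Bi, (x : Fb) = u * y}
  add_mem' := by
    rintro x y ⟨a, ha, hxa⟩ ⟨b, hb, hyb⟩
    exact ⟨a + b, Bi.add_mem ha hb, by simp [hxa, hyb, mul_add]⟩
  zero_mem' := ⟨0, Bi.zero_mem, by simp⟩
  smul_mem' := by
    rintro c x ⟨a, ha, hxa⟩
    exact ⟨c • a, Bi.smul_mem ha c, by simp [hxa]⟩

/-- **`dim Bi / u Bi ≤ ψ`.** -/
theorem FA_S18_BASE_rank_quot (Bi : Subalgebra kk Fb) (u : Fb) (hu : u ≠ 0) (huB : u ∈ Bi)
    (ψ : ℕ)
    (hrank : ∀ y : Fin (ψ + 1) → Fb, ∃ P : Fin (ψ + 1) → kk[X], (∃ i, P i ≠ 0) ∧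
      ∑ i, aeval u (P i) * y i = 0) :
    Module.rank kk (Subalgebra.toSubmodule Bi ⧸ FA_S18_BASE_uB Bi u) ≤ (ψ : Cardinal) := by
  classical
  apply rank_le
  intro s hs
  by_contra hcard
  push Not at hcard
  -- choose ψ + 1 elements of s
  obtain ⟨t, hts, htcard⟩ := Finset.exists_subset_card_eq (show ψ + 1 ≤ s.card by omega)
  have ht : LinearIndependent kk (fun i : t => (i : Subalgebra.toSubmodule Bi ⧸ FA_S18_BASE_uB Bi u)) :=
    hs.comp (fun i : t => (⟨i.1, hts i.2⟩ : s)) (fun a b hab => by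
      apply Subtype.ext
      have := congrArg (fun z : s => (z : Subalgebra.toSubmodule Bi ⧸ FA_S18_BASE_uB Bi u)) hab
      exact this)
  let e : Fin (ψ + 1) ≃ t := (Finset.equivFinOfCardEq htcard).symm
  have hq : LinearIndependent kk (fun i : Fin (ψ + 1) =>
      ((e i : t) : Subalgebra.toSubmodule Bi ⧸ FA_S18_BASE_uB Bi u)) :=
    ht.comp e e.injective
  -- lift to Bi
  have hlift : ∀ i : Fin (ψ + 1), ∃ y : Subalgebra.toSubmodule Bi,
      Submodule.Quotient.mk y = ((e i : t) : Subalgebra.toSubmodule Bi ⧸ FA_S18_BASE_uB Bi u) :=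
    fun i => Submodule.Quotient.mk_surjective _ _
  choose y hy using hlift
  -- a polynomial relation, minimal total degree
  have hex : ∃ d : ℕ, ∃ P : Fin (ψ + 1) → kk[X], (∃ i, P i ≠ 0) ∧
      ∑ i, aeval u (P i) * (y i : Fb) = 0 ∧ ∑ i, (P i).natDegree = d := by
    obtain ⟨P, hP, hsum⟩ := hrank (fun i => (y i : Fb))
    exact ⟨_, P, hP, hsum, rfl⟩
  obtain ⟨P, hP, hsum, hdeg⟩ := Nat.find_spec hex
  have hmin := fun m (hm : m < Nat.find hex) => Nat.find_min hex hm
  -- some constant coefficient is nonzero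
  have hc : ∃ i, (P i).coeff 0 ≠ 0 := by
    by_contra hall
    push Not at hall
    -- all P i divisible by X: divide
    have hdiv : ∀ i, P i = X * (P i).divX := fun i => by
      have := Polynomial.divX_mul_X_add (P i)
      rw [hall i, map_zero, add_zero] at this
      rw [mul_comm]; exact this.symm
    obtain ⟨i₀, hi₀⟩ := hP
    have hi₀' : (P i₀).divX ≠ 0 := by
      intro h
      apply hi₀
      rw [hdiv i₀, h, mul_zero]
    have hsum' : ∑ i, aeval u ((P i).divX) * (y i : Fb) = 0 := by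
      have : u * ∑ i, aeval u ((P i).divX) * (y i : Fb) = 0 := by
        rw [Finset.mul_sum, ← hsum]
        refine Finset.sum_congr rfl fun i _ => ?_
        conv_rhs => rw [hdiv i]
        rw [map_mul, aeval_X]
        ring
      exact (mul_eq_zero.1 this).resolve_left hu
    have hlt : ∑ i, ((P i).divX).natDegree < Nat.find hex := by
      rw [← hdeg]
      apply Finset.sum_lt_sum
      · intro i _
        rw [Polynomial.natDegree_divX_eq_natDegree_tsub_one]
        omega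
      · refine ⟨i₀, Finset.mem_univ _, ?_⟩
        rw [Polynomial.natDegree_divX_eq_natDegree_tsub_one]
        have : 0 < (P i₀).natDegree := by
          rw [hdiv i₀, Polynomial.natDegree_X_mul hi₀']
          omega
        omega
    exact hmin _ hlt ⟨_, ⟨i₀, hi₀'⟩, hsum', rfl⟩
  -- reduce modulo u
  have hrel : ∑ i, (P i).coeff 0 • ((e i : t) : Subalgebra.toSubmodule Bi ⧸ FA_S18_BASE_uB Bi u)
      = 0 := by
    have h1 : ∑ i, (P i).coeff 0 • ((e i : t) : Subalgebra.toSubmodule Bi ⧸ FA_S18_BASE_uB Bi u)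
        = (FA_S18_BASE_uB Bi u).mkQ (∑ i, (P i).coeff 0 • y i) := by
      rw [map_sum]
      refine Finset.sum_congr rfl fun i _ => ?_
      rw [map_smul, Submodule.mkQ_apply, hy i]
    rw [h1, Submodule.mkQ_apply, Submodule.Quotient.mk_eq_zero]
    have haev : ∀ Q : kk[X], aeval u Q ∈ Bi := fun Q => by
      have : aeval u Q ∈ Algebra.adjoin kk {u} := Polynomial.aeval_mem_adjoin_singleton kk u
      exact (Algebra.adjoin_le (Set.singleton_subset_iff.2 huB)) this
    refine ⟨- ∑ i, aeval u ((P i).divX) * (y i : Fb), ?_, ?_⟩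
    · exact Bi.neg_mem (Bi.sum_mem fun i _ => Bi.mul_mem (haev _) (y i).2)
    · have hsplit : ∀ i, aeval u (P i) = algebraMap kk Fb ((P i).coeff 0)
          + u * aeval u ((P i).divX) := fun i => by
        conv_lhs => rw [← Polynomial.divX_mul_X_add (P i)]
        rw [map_add, map_mul, aeval_X, aeval_C]
        ring
      have h2 : ∑ i, (algebraMap kk Fb ((P i).coeff 0) + u * aeval u ((P i).divX)) * (y i : Fb)
          = 0 := by
        rw [← hsum]
        exact Finset.sum_congr rfl fun i _ => by rw [hsplit i]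
      simp only [add_mul, Finset.sum_add_distrib] at h2
      have h3 : ((∑ i, (P i).coeff 0 • y i : Subalgebra.toSubmodule Bi) : Fb)
          = ∑ i, algebraMap kk Fb ((P i).coeff 0) * (y i : Fb) := by
        rw [Submodule.coe_sum]
        refine Finset.sum_congr rfl fun i _ => ?_
        rw [Submodule.coe_smul, Algebra.smul_def]
      rw [h3, mul_neg, Finset.mul_sum]
      rw [eq_neg_iff_add_eq_zero, ← h2]
      congr 1
      exact Finset.sum_congr rfl fun i _ => by ring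
  have := (Fintype.linearIndependent_iff.1 hq) (fun i => (P i).coeff 0) hrel
  obtain ⟨i, hi⟩ := hc
  exact hi (this i)


/-- **The elementary Riemann bound** `dim V b ≤ b ψ + 1`. -/
theorem FA_S18_BASE_rank_V (Bf Bi : Subalgebra kk Fb) (u : Fb) (hu : u ≠ 0) (huB : u ∈ Bi)
    (hconst : ∀ x, x ∈ Bf → x ∈ Bi → ∃ c : kk, x = algebraMap kk Fb c)
    (ψ : ℕ)
    (hrank : ∀ y : Fin (ψ + 1) → Fb, ∃ P : Fin (ψ + 1) → kk[X], (∃ i, P i ≠ 0) ∧
      ∑ i, aeval u (P i) * y i = 0) (b : ℕ) :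
    Module.rank kk (FA_S18_BASE_V Bf Bi u b) ≤ ((b * ψ + 1 : ℕ) : Cardinal) := by
  induction b with
  | zero =>
    have h : FA_S18_BASE_V Bf Bi u 0 ≤ Submodule.span kk {(1 : Fb)} := by
      rintro x ⟨hx, hx'⟩
      rw [pow_zero, mul_one] at hx'
      obtain ⟨c, rfl⟩ := hconst x hx hx'
      rw [Algebra.algebraMap_eq_smul_one]
      exact Submodule.smul_mem _ _ (Submodule.subset_span rfl)
    refine (Submodule.rank_mono h).trans ((rank_span_le _).trans ?_)
    simp
  | succ b ih =>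
    -- the map x ↦ class of x u^(b+1) in Bi / u Bi
    let ψ₀ : FA_S18_BASE_V Bf Bi u (b + 1) →ₗ[kk] Subalgebra.toSubmodule Bi :=
      { toFun := fun x => ⟨(x : Fb) * u ^ (b + 1), x.2.2⟩
        map_add' := fun x y => by
          apply Subtype.ext
          simp [add_mul]
        map_smul' := fun c x => by
          apply Subtype.ext
          simp }
    let φ : FA_S18_BASE_V Bf Bi u (b + 1) →ₗ[kk] (Subalgebra.toSubmodule Bi ⧸ FA_S18_BASE_uB Bi u) :=
      (FA_S18_BASE_uB Bi u).mkQ.comp ψ₀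
    have hker : (LinearMap.ker φ).map (FA_S18_BASE_V Bf Bi u (b + 1)).subtype
        ≤ FA_S18_BASE_V Bf Bi u b := by
      rintro x ⟨x', hx', rfl⟩
      have h1 : φ x' = 0 := hx'
      have h2 : ψ₀ x' ∈ FA_S18_BASE_uB Bi u := by
        have : (FA_S18_BASE_uB Bi u).mkQ (ψ₀ x') = 0 := h1
        rwa [Submodule.mkQ_apply, Submodule.Quotient.mk_eq_zero] at this
      obtain ⟨y, hy, hxy⟩ := h2
      have h3 : (x' : Fb) * u ^ (b + 1) = u * y := hxy
      refine ⟨x'.2.1, ?_⟩
      have h4 : (x' : Fb) * u ^ b = y := by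
        have : u * ((x' : Fb) * u ^ b) = u * y := by rw [← h3, pow_succ]; ring
        exact mul_left_cancel₀ hu this
      show (x' : Fb) * u ^ b ∈ Bi
      rw [h4]
      exact hy
    have h1 : Module.rank kk (LinearMap.ker φ) ≤ ((b * ψ + 1 : ℕ) : Cardinal) := by
      have e1 : Module.rank kk (LinearMap.ker φ)
          ≤ Module.rank kk ((LinearMap.ker φ).map (FA_S18_BASE_V Bf Bi u (b + 1)).subtype) := by
        have := (Submodule.equivMapOfInjective (FA_S18_BASE_V Bf Bi u (b + 1)).subtype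
          (Submodule.injective_subtype _) (LinearMap.ker φ)).rank_eq
        exact this.le
      exact e1.trans ((Submodule.rank_mono hker).trans ih)
    have h2 : Module.rank kk (LinearMap.range φ) ≤ (ψ : Cardinal) :=
      (Submodule.rank_le _).trans (FA_S18_BASE_rank_quot Bi u hu huB ψ hrank)
    have h3 := LinearMap.rank_range_add_rank_ker φ
    rw [← h3]
    have : ((((b + 1) * ψ + 1 : ℕ)) : Cardinal) = (ψ : Cardinal) + ((b * ψ + 1 : ℕ) : Cardinal) := by
      rw [← Nat.cast_add]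
      congr 1
      ring
    rw [this]
    exact add_le_add h2 h1

/-- A linearly independent family of `b ψ + 1` elements of `V b` spans `V b`. -/
theorem FA_S18_BASE_span (Bf Bi : Subalgebra kk Fb) (u : Fb) (hu : u ≠ 0) (huB : u ∈ Bi)
    (hconst : ∀ x, x ∈ Bf → x ∈ Bi → ∃ c : kk, x = algebraMap kk Fb c)
    (ψ : ℕ)
    (hrank : ∀ y : Fin (ψ + 1) → Fb, ∃ P : Fin (ψ + 1) → kk[X], (∃ i, P i ≠ 0) ∧
      ∑ i, aeval u (P i) * y i = 0) (b : ℕ) {m : ℕ} (hm : b * ψ + 1 ≤ m)
    (r : Fin m → Fb) (hr : ∀ i, r i ∈ FA_S18_BASE_V Bf Bi u b)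
    (hli : LinearIndependent kk r) (x : Fb) (hx : x ∈ FA_S18_BASE_V Bf Bi u b) :
    ∃ c : Fin m → kk, x = ∑ i, c i • r i := by
  have hrk := FA_S18_BASE_rank_V Bf Bi u hu huB hconst ψ hrank b
  have : Module.Finite kk (FA_S18_BASE_V Bf Bi u b) := by
    rw [← Module.rank_lt_aleph0_iff]
    exact lt_of_le_of_lt hrk (Cardinal.natCast_lt_aleph0)
  have hfr : Module.finrank kk (FA_S18_BASE_V Bf Bi u b) ≤ b * ψ + 1 := by
    have := Module.finrank_eq_rank kk (FA_S18_BASE_V Bf Bi u b)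
    rw [← this] at hrk
    exact_mod_cast hrk
  let r' : Fin m → FA_S18_BASE_V Bf Bi u b := fun i => ⟨r i, hr i⟩
  have hli' : LinearIndependent kk r' := by
    apply LinearIndependent.of_comp (FA_S18_BASE_V Bf Bi u b).subtype
    exact hli
  have hcard : Fintype.card (Fin m) = Module.finrank kk (FA_S18_BASE_V Bf Bi u b) := by
    have h1 := hli'.fintype_card_le_finrank
    rw [Fintype.card_fin] at h1 ⊢
    omega
  have hspan := hli'.span_eq_top_of_card_eq_finrank' hcard
  have hx' : (⟨x, hx⟩ : FA_S18_BASE_V Bf Bi u b) ∈ Submodule.span kk (Set.range r') := by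
    rw [hspan]; exact Submodule.mem_top
  obtain ⟨c, hc⟩ := (Submodule.mem_span_range_iff_exists_fun kk).1 hx'
  refine ⟨c, ?_⟩
  have := congrArg (fun z : FA_S18_BASE_V Bf Bi u b => (z : Fb)) hc
  simp only [Submodule.coe_sum, Submodule.coe_smul] at this
  exact this.symm


/-- A polynomial relation in `x` gives a polynomial relation in `x⁻¹`. -/
theorem FA_S18_BASE_rank_reflect (x : Fb) (hx : x ≠ 0) {m : ℕ} (y : Fin m → Fb)
    (P : Fin m → kk[X]) (hP : ∃ i, P i ≠ 0) (hsum : ∑ i, aeval x (P i) * y i = 0) :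
    ∃ Q : Fin m → kk[X], (∃ i, Q i ≠ 0) ∧ ∑ i, aeval x⁻¹ (Q i) * y i = 0 := by
  classical
  set N : ℕ := Finset.univ.sup (fun i => (P i).natDegree) with hN
  have hle : ∀ i, (P i).natDegree ≤ N := fun i =>
    Finset.le_sup (f := fun i => (P i).natDegree) (Finset.mem_univ i)
  letI : Invertible x := invertibleOfNonzero hx
  have hinv : ⅟x = x⁻¹ := invOf_eq_inv x
  refine ⟨fun i => Polynomial.reflect N (P i), ?_, ?_⟩
  · obtain ⟨i, hi⟩ := hP
    exact ⟨i, fun h0 => hi (Polynomial.reflect_eq_zero_iff.1 h0)⟩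
  · have key : ∀ i, aeval x⁻¹ (Polynomial.reflect N (P i)) * x ^ N = aeval x (P i) := fun i => by
      have := Polynomial.eval₂_reflect_mul_pow (algebraMap kk Fb) x N (P i) (hle i)
      rw [hinv] at this
      exact this
    have h2 : (∑ i, aeval x⁻¹ (Polynomial.reflect N (P i)) * y i) * x ^ N = 0 := by
      rw [Finset.sum_mul, ← hsum]
      refine Finset.sum_congr rfl fun i _ => ?_
      rw [← key i]
      ring
    exact (mul_eq_zero.1 h2).resolve_right (pow_ne_zero N hx)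


/-- `V b` is finite-dimensional of dimension `≤ b ψ + 1`. -/
theorem FA_S18_BASE_finrank_V (Bf Bi : Subalgebra kk Fb) (u : Fb) (hu : u ≠ 0) (huB : u ∈ Bi)
    (hconst : ∀ x, x ∈ Bf → x ∈ Bi → ∃ c : kk, x = algebraMap kk Fb c)
    (ψ : ℕ)
    (hrank : ∀ y : Fin (ψ + 1) → Fb, ∃ P : Fin (ψ + 1) → kk[X], (∃ i, P i ≠ 0) ∧
      ∑ i, aeval u (P i) * y i = 0) (b : ℕ) :
    Module.Finite kk (FA_S18_BASE_V Bf Bi u b) ∧
      Module.finrank kk (FA_S18_BASE_V Bf Bi u b) ≤ b * ψ + 1 := by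
  have hrk := FA_S18_BASE_rank_V Bf Bi u hu huB hconst ψ hrank b
  have hfin : Module.Finite kk (FA_S18_BASE_V Bf Bi u b) := by
    rw [← Module.rank_lt_aleph0_iff]
    exact lt_of_le_of_lt hrk Cardinal.natCast_lt_aleph0
  refine ⟨hfin, ?_⟩
  have := Module.finrank_eq_rank kk (FA_S18_BASE_V Bf Bi u b)
  rw [← this] at hrk
  exact_mod_cast hrk

/-- A subspace of `V b` of dimension `b ψ + 1` is all of `V b`. -/
theorem FA_S18_BASE_eq_V (Bf Bi : Subalgebra kk Fb) (u : Fb) (hu : u ≠ 0) (huB : u ∈ Bi)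
    (hconst : ∀ x, x ∈ Bf → x ∈ Bi → ∃ c : kk, x = algebraMap kk Fb c)
    (ψ : ℕ)
    (hrank : ∀ y : Fin (ψ + 1) → Fb, ∃ P : Fin (ψ + 1) → kk[X], (∃ i, P i ≠ 0) ∧
      ∑ i, aeval u (P i) * y i = 0) (b : ℕ)
    (S : Submodule kk Fb) (hS : S ≤ FA_S18_BASE_V Bf Bi u b)
    (hdim : Module.finrank kk S = b * ψ + 1) : S = FA_S18_BASE_V Bf Bi u b := by
  obtain ⟨hfin, hfr⟩ := FA_S18_BASE_finrank_V Bf Bi u hu huB hconst ψ hrank b
  exact Submodule.eq_of_le_of_finrank_le hS (by rw [hdim]; exact hfr)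

end FA_S18
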