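import Mathlib

/-!
# S18, leaf N, sub-leaf BASE: `k` is algebraically closed in `k((q))`

An element of `k((q))` which is algebraic over `k` is a constant (any field `k`).
-/

set_option autoImplicit false

noncomputable section

namespace FA_S18

open PowerSeries

variable {k : Type*} [Field k]

/-- an element of `k((q))` integral over `k` is a power series -/
theorem FA_S18_BASE_powerSeries_of_isAlgebraic {x : LaurentSeries k} (hx : IsAlgebraic k x) :
    ∃ p : PowerSeries k, (p : LaurentSeries k) = x := by
  have h1 : IsIntegral k x := hx.isIntegral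
  have h2 : IsIntegral (PowerSeries k) x := by
    obtain ⟨P, hP, hPx⟩ := h1
    refine ⟨P.map (algebraMap k (PowerSeries k)), hP.map _, ?_⟩
    rw [Polynomial.eval₂_map]
    have e : (algebraMap (PowerSeries k) (LaurentSeries k)).comp (algebraMap k (PowerSeries k))
        = algebraMap k (LaurentSeries k) := by
      ext c : 1
      rw [RingHom.comp_apply, HahnSeries.algebraMap_apply']
      rfl
    rw [e]
    exact hPx
  obtain ⟨p, hp⟩ := (IsIntegrallyClosed.isIntegral_iff (R := PowerSeries k)
    (K := LaurentSeries k)).1 h2
  exact ⟨p, hp⟩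

/-- **`k` is algebraically closed in `k((q))`.** -/
theorem FA_S18_BASE_const_of_isAlgebraic {x : LaurentSeries k} (hx : IsAlgebraic k x) :
    ∃ c : k, algebraMap k (LaurentSeries k) c = x := by
  obtain ⟨p, hp⟩ := FA_S18_BASE_powerSeries_of_isAlgebraic hx
  refine ⟨constantCoeff p, ?_⟩
  by_contra hne
  -- y = x - c is a nonzero algebraic element, a power series with zero constant term
  set y : PowerSeries k := p - PowerSeries.C (constantCoeff p) with hy
  have hy0 : constantCoeff y = 0 := by simp [hy]
  have hyx : (y : LaurentSeries k) = x - algebraMap k (LaurentSeries k) (constantCoeff p) := by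
    rw [hy, ← hp]
    simp only [PowerSeries.coe_sub]
    congr 1
  have hyne : (y : LaurentSeries k) ≠ 0 := by
    rw [hyx]
    intro h
    exact hne (sub_eq_zero.1 h).symm
  have hyalg : IsAlgebraic k (y : LaurentSeries k) := by
    rw [hyx]
    exact hx.sub (isAlgebraic_algebraMap _)
  have hinv : IsAlgebraic k ((y : LaurentSeries k)⁻¹) := hyalg.inv
  obtain ⟨z, hz⟩ := FA_S18_BASE_powerSeries_of_isAlgebraic hinv
  have hyz : y * z = 1 := by
    have : ((y * z : PowerSeries k) : LaurentSeries k) = ((1 : PowerSeries k) : LaurentSeries k) := by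
      rw [PowerSeries.coe_mul, hz, mul_inv_cancel₀ hyne, PowerSeries.coe_one]
    exact HahnSeries.ofPowerSeries_injective this
  have hunit : IsUnit y := IsUnit.of_mul_eq_one _ hyz
  have := (PowerSeries.isUnit_iff_constantCoeff).1 hunit
  rw [hy0] at this
  exact not_isUnit_zero this

end FA_S18
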