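import Fermat.Agent.S28.DegZero
import Fermat.Agent.Lib.RR.Main

/-!
# S18, leaf C0 (base): `F_n = modularFunctionFieldBar n` is a function field over `ℚ̄`,
`j` is transcendental and `[F_n : ℚ̄(j)] = ψ(n)`.
-/

set_option autoImplicit false
set_option linter.unusedSectionVars false
set_option linter.style.haveILetI false

noncomputable section

namespace FA_S18

open Fermat.Agent.S24 Fermat.Agent.S28 Fermat.Agent.Mero ModularCurve Polynomial
  IntermediateField AlgebraicCurve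

/-- `j` as an element of `F_n = modularFunctionFieldBar n`. -/
def FA_S18_C0_j (n : ℕ) [NeZero n] : ↥(modularFunctionFieldBar n) :=
  ⟨coeffEmb (AlgebraicClosure ℚ) jq,
    coeffEmb_mem_laurentBaseChange (AlgebraicClosure ℚ)
      (modularFunctionField_le_full n (jq_mem n))⟩

theorem FA_S18_C0_j_val (n : ℕ) [NeZero n] :
    ((FA_S18_C0_j n : ↥(modularFunctionFieldBar n)) : LaurentSeries (AlgebraicClosure ℚ)) =
      coeffEmb (AlgebraicClosure ℚ) jq := rfl

/-- The basic facts: `j` is transcendental, `F_n / ℚ̄(j)` is finite of degree `ψ(n)`. -/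
theorem FA_S18_C0_base (n : ℕ) [NeZero n] :
    Transcendental (AlgebraicClosure ℚ) (FA_S18_C0_j n) ∧
    FiniteDimensional (AlgebraicClosure ℚ)⟮FA_S18_C0_j n⟯ ↥(modularFunctionFieldBar n) ∧
    Module.finrank (AlgebraicClosure ℚ)⟮FA_S18_C0_j n⟯ ↥(modularFunctionFieldBar n)
      = dedekindPsi n := by
  have halg : Algebra.IsAlgebraic ℚ (AlgebraicClosure ℚ) := AlgebraicClosure.isAlgebraic ℚ
  letI algC : Algebra (AlgebraicClosure ℚ) ℂ :=
    (IsAlgClosed.lift (R := ℚ) (S := AlgebraicClosure ℚ) (M := ℂ)).toRingHom.toAlgebra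
  letI algM : Algebra (AlgebraicClosure ℚ) FA_Mero_Field :=
    ((algebraMap ℂ FA_Mero_Field).comp (algebraMap (AlgebraicClosure ℚ) ℂ)).toAlgebra
  have ht : FA_S24_Tower (AlgebraicClosure ℚ) := fun c => rfl
  have hP := FA_S24_props FA_S24_UT FA_S24_UT0 FA_S24_QE FA_S24_TW FA_S24_BDD FA_S24_HOL
    FA_S24_RAT FA_S24_NORM FA_S24_COEF (AlgebraicClosure ℚ) ht n
    (FA_S24_roots_mem (AlgebraicClosure ℚ))
  obtain ⟨τ, hτ, hj⟩ := FA_S28_d0_transfer (AlgebraicClosure ℚ) ht n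
  obtain ⟨τ', hτ', hval⟩ := FA_S28_d0_transport (FA_S24_BC n) τ
  have hjmem : coeffEmb (AlgebraicClosure ℚ) jq ∈ modularFunctionFieldBar n :=
    coeffEmb_mem_laurentBaseChange (AlgebraicClosure ℚ)
      (modularFunctionField_le_full n (jq_mem n))
  have hx : τ' (FA_S18_C0_j n) = FA_S24_g 1 :=
    (hval _ hjmem ((FA_S24_BC n) ▸ hjmem)).trans (hj _)
  have hfr := FA_S28_d0_finrank hP (modularFunctionFieldBar n) τ' (hτ'.trans hτ)
    (FA_S18_C0_j n) hx
  have hfin := FA_S28_d0_finite hP (modularFunctionFieldBar n) τ' (hτ'.trans hτ)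
    (FA_S18_C0_j n) hx
  refine ⟨?_, hfin, hfr⟩
  intro hx'
  apply hP.transc
  rw [← hx]
  exact hx'.algHom τ'

theorem FA_S18_C0_j_transcendental (n : ℕ) [NeZero n] :
    Transcendental (AlgebraicClosure ℚ) (FA_S18_C0_j n) := (FA_S18_C0_base n).1

instance FA_S18_C0_finiteDimensional (n : ℕ) [NeZero n] :
    FiniteDimensional (AlgebraicClosure ℚ)⟮FA_S18_C0_j n⟯ ↥(modularFunctionFieldBar n) :=
  (FA_S18_C0_base n).2.1

theorem FA_S18_C0_finrank (n : ℕ) [NeZero n] :
    Module.finrank (AlgebraicClosure ℚ)⟮FA_S18_C0_j n⟯ ↥(modularFunctionFieldBar n)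
      = dedekindPsi n := (FA_S18_C0_base n).2.2

/-- `F_n` is a function field in one variable over `ℚ̄`. -/
theorem FA_S18_C0_isFF (n : ℕ) [NeZero n] :
    FA_RR_IsFF (AlgebraicClosure ℚ) ↥(modularFunctionFieldBar n) :=
  ⟨FA_S18_C0_j n, FA_S18_C0_j_transcendental n, FA_S18_C0_finiteDimensional n⟩

theorem FA_S18_C0_j_ne_zero (n : ℕ) [NeZero n] : FA_S18_C0_j n ≠ 0 := by
  intro h
  apply FA_S18_C0_j_transcendental n
  rw [h]
  exact isAlgebraic_zero

end FA_S18

end
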