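import Fermat.Agent.Lib.RR.Main

/-!
# S18, leaf C0 (general part): consequences of Riemann–Roch in ring-theoretic form

`K` algebraically closed of characteristic zero, `F / K` a function field (`FA_RR_IsFF K F`).

* `FA_S18_C0_isIntegral_iff` : `y` is integral over `K[x]` iff `y ∈ O_v` for every place `v` with
  `x ∈ O_v`;
* `FA_S18_C0_finrank_L` : `ℓ(E) = deg E + 1 - g` if `deg E > 2g - 2`;
* `FA_S18_C0_eq_zero_of_nonneg`, `FA_S18_C0_ord_eq_of_mem_L` : a nonzero element of `L(E)`,
  `deg E = 0`, has divisor `-E`;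
* `FA_S18_C0_exists_root_divisor` : if `p ∣ ord_v f` for all `v` then `div f = p • Dh`.
-/

set_option autoImplicit false
set_option linter.unusedSectionVars false
set_option linter.style.haveILetI false

noncomputable section

namespace FA_S18

open AlgebraicCurve IntermediateField IsDedekindDomain WithZero KaehlerDifferential FA_RR FA_RR.WPB

variable {K F : Type*} [Field K] [Field F] [Algebra K F] [IsAlgClosed K] [CharZero K]

/-- Ring form of "regular on the chart of `x`". -/
theorem FA_S18_C0_isIntegral_iff (hF : FA_RR_IsFF K F) {x : F} (hx : Transcendental K x)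
    (y : F) :
    IsIntegral (Algebra.adjoin K {x}) y ↔
      ∀ v : Place K F, x ∈ v.toValuationSubring → y ∈ v.toValuationSubring := by
  haveI := finiteDimensional_adjoin hF hx
  haveI := isDedekindDomain_chartRing hx
  haveI := isFractionRing_chartRing (K := K) x
  constructor
  · intro hy v hv
    exact chartRing_le v hv ⟨y, hy⟩
  · intro h
    have hval : ∀ w : HeightOneSpectrum (chartRing K x), w.valuation F y ≤ 1 := by
      intro w
      have h1 := h (chartPlace hx w) (x_mem_chartPlace hx w)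
      rw [← chartPlace_adicValuation hx w y]
      exact (chartPlace hx w).adicValuation_le_one_of_mem h1
    obtain ⟨r, hr⟩ := HeightOneSpectrum.mem_integers_of_valuation_le_one F y hval
    rw [← hr]
    exact r.2

/-- `ℓ(E) = deg E + 1 - g` for `deg E > 2g - 2`. -/
theorem FA_S18_C0_finrank_L (hF : FA_RR_IsFF K F) (E : Divisor K F)
    (hE : 2 * (genusFF K F : ℤ) - 2 < Divisor.degree E) :
    (Module.finrank K (riemannRochSpace E) : ℤ)
      = Divisor.degree E + 1 - (genusFF K F : ℤ) := by
  haveI := FA_RR.Main.hasCanonicalDivisor hF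
  obtain ⟨x, hx, -⟩ := id hF
  have hω : D K F x ≠ 0 := FA_RR.D_ne_zero' hF x hx
  have hrr := FA_RR.Main.riemann_roch hF hω E
  have hdeg := FA_RR.Main.degree_canonicalDivisorOf hF hω
  have hneg : Divisor.degree (canonicalDivisorOf hω - E) < 0 := by
    rw [map_sub, hdeg]; omega
  rw [L_eq_bot_of_degree_neg hF hneg, finrank_bot] at hrr
  simpa using hrr

/-- An effective divisor of degree zero is zero. -/
theorem FA_S18_C0_eq_zero_of_nonneg (hF : FA_RR_IsFF K F) {E : Divisor K F} (h0 : 0 ≤ E)
    (hdeg : Divisor.degree E = 0) : E = 0 := by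
  classical
  by_contra hne
  obtain ⟨v, hv⟩ : ∃ v, E v ≠ 0 := by
    by_contra hall
    push Not at hall
    exact hne (Finsupp.ext hall)
  have hv0 : 0 ≤ E v := Finsupp.le_def.mp h0 v
  have hv1 : 1 ≤ E v := by omega
  have hle : Finsupp.single v (1 : ℤ) ≤ E := by
    rw [Finsupp.le_def]
    intro w
    by_cases hw : w = v
    · subst hw; simpa using hv1
    · rw [Finsupp.single_apply, if_neg (Ne.symm hw)]
      exact Finsupp.le_def.mp h0 w
  have := degree_mono hle
  rw [Divisor.degree_single, FA_RR.deg_eq_one hF v, hdeg] at this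
  norm_num at this

/-- A nonzero element of `L(E)`, `deg E = 0`, has divisor `-E`. -/
theorem FA_S18_C0_ord_eq_of_mem_L (hF : FA_RR_IsFF K F) {E : Divisor K F}
    (hE : Divisor.degree E = 0) {y : F} (hy : y ≠ 0) (hyE : y ∈ riemannRochSpace E)
    (v : Place K F) : v.ord y = - E v := by
  haveI := hasPrincipalDivisors hF
  obtain ⟨Dy, hDy, hdeg⟩ := HasPrincipalDivisors.exists_divisor (K := K) y hy
  have h0 : 0 ≤ Dy + E := by
    rw [Finsupp.le_def]
    intro w
    rw [Finsupp.zero_apply, Finsupp.add_apply, hDy w]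
    rcases (mem_riemannRochSpace_iff.mp hyE) w with h | h
    · exact absurd h hy
    · omega
  have hz := FA_S18_C0_eq_zero_of_nonneg hF h0 (by rw [map_add, hdeg, hE, add_zero])
  have := congrArg (fun D : Divisor K F => D v) hz
  simp only [Finsupp.add_apply, Finsupp.zero_apply, hDy v] at this
  omega

/-- A divisor of degree zero with `L(E) ≠ 0` is principal. -/
theorem FA_S18_C0_isPrincipal_of_mem_L (hF : FA_RR_IsFF K F) {E : Divisor K F}
    (hE : Divisor.degree E = 0) {y : F} (hy : y ≠ 0) (hyE : y ∈ riemannRochSpace E) :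
    Divisor.IsPrincipal E :=
  ⟨y⁻¹, inv_ne_zero hy, fun v => by
    rw [v.ord_inv, FA_S18_C0_ord_eq_of_mem_L hF hE hy hyE v, neg_neg]⟩

/-- If `p ∣ ord_v f` for every place `v`, then `div f = p • Dh` with `deg Dh = 0`. -/
theorem FA_S18_C0_exists_root_divisor (hF : FA_RR_IsFF K F) {p : ℕ} (hp : 0 < p) {f : F}
    (hf : f ≠ 0) (hdiv : ∀ v : Place K F, (p : ℤ) ∣ v.ord f) :
    ∃ Dh : Divisor K F, Divisor.degree Dh = 0 ∧ ∀ v : Place K F, (p : ℤ) * Dh v = v.ord f := by
  haveI := hasPrincipalDivisors hF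
  obtain ⟨Df, hDf, hdeg⟩ := HasPrincipalDivisors.exists_divisor (K := K) f hf
  have hp0 : (p : ℤ) ≠ 0 := by exact_mod_cast hp.ne'
  let Dh : Divisor K F := Df.mapRange (fun m : ℤ => m / (p : ℤ)) (by simp)
  have hDh : ∀ v : Place K F, (p : ℤ) * Dh v = v.ord f := by
    intro v
    show (p : ℤ) * (Df v / (p : ℤ)) = v.ord f
    rw [hDf v]
    exact Int.mul_ediv_cancel' (hdiv v)
  have hsm : (p : ℤ) • Dh = Df := by
    ext v
    rw [Finsupp.smul_apply, smul_eq_mul, hDh v, hDf v]
  refine ⟨Dh, ?_, hDh⟩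
  have h1 : (p : ℤ) * Divisor.degree Dh = 0 := by
    rw [← smul_eq_mul, ← map_zsmul, hsm, hdeg]
  rcases mul_eq_zero.mp h1 with h | h
  · exact absurd h hp0
  · exact h

end FA_S18

end
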