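import Mathlib
import Fermat.Agent.Lib.RR.Chart
import Fermat.Agent.S24.DPlace

/-!
# S18, leaf G (descent), part 6: restriction of a place along an algebraic field embedding

`σ : F →ₐ[K] F'` with `F'` integral over `σ(F)`.  Every place `w'` of `F'` restricts to a place
`w` of `F`, and `ord_{w'}(σ a) = m · ord_w(a)` with `m > 0`.  Hence divisibility of all orders by
`p` is preserved by `σ`.
-/

set_option autoImplicit false

noncomputable section

namespace Fermat.Agent.S18

open Fermat.Agent.S24 AlgebraicCurve Polynomial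

variable {K F F' : Type} [Field K] [Field F] [Field F'] [Algebra K F] [Algebra K F']

/-- Restriction of a place. -/
theorem FA_S18_G_restrict (σ : F →ₐ[K] F')
    (hint : ∀ x : F', ∃ P : Polynomial F, P.Monic ∧ Polynomial.eval₂ (σ : F →+* F') x P = 0)
    (w' : Place K F') :
    ∃ w : Place K F, ∃ m : ℤ, 0 < m ∧ ∀ a : F, a ≠ 0 → w'.ord (σ a) = m * w.ord a := by
  set ν : F → ℤ := fun a => w'.ord (σ a) with hν
  have hσ0 : ∀ a : F, a ≠ 0 → σ a ≠ 0 := fun a ha h =>
    ha (σ.toRingHom.injective (by rw [AlgHom.toRingHom_eq_coe, RingHom.coe_coe, h, map_zero]))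
  have hval : FA_S24_IsVal K ν := by
    refine ⟨fun a b ha hb => ?_, fun a b ha hb hab => ?_, fun c _ => ?_, ?_⟩
    · show w'.ord (σ (a * b)) = _
      rw [map_mul]
      exact w'.ord_mul (hσ0 a ha) (hσ0 b hb)
    · show _ ≤ w'.ord (σ (a + b))
      have h1 : σ a + σ b ≠ 0 := by
        rw [← map_add]
        exact hσ0 _ hab
      rw [map_add]
      exact FA_RR.ord_add_ge w' h1 _ (Or.inr (min_le_left _ _)) (Or.inr (min_le_right _ _))
    · show w'.ord (σ (algebraMap K F c)) = 0
      rw [AlgHom.commutes]
      exact FA_RR.ord_algebraMap w' c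
    · by_contra hcon
      push Not at hcon
      -- then `σ(F) ⊆ O_{w'}`, so `O_{w'} = ⊤`
      have hmem : ∀ a : F, σ a ∈ w'.toValuationSubring := by
        intro a
        rw [FA_RR.mem_iff_ord]
        by_cases ha : a = 0
        · left
          rw [ha, map_zero]
        · right
          have := hcon a ha
          show 0 ≤ ν a
          rw [this]
      apply w'.ne_top'
      refine SetLike.ext fun x => ⟨fun _ => ValuationSubring.mem_top x, fun _ => ?_⟩
      obtain ⟨P, hPm, hPx⟩ := hint x
      let φ : F →+* ↥w'.toValuationSubring :=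
        { toFun := fun a => ⟨σ a, hmem a⟩
          map_one' := Subtype.ext (by simp)
          map_mul' := fun a b => Subtype.ext (by simp)
          map_zero' := Subtype.ext (by simp)
          map_add' := fun a b => Subtype.ext (by simp) }
      have hφ : (algebraMap ↥w'.toValuationSubring F').comp φ = (σ : F →+* F') := by
        ext a
        rfl
      have hI : IsIntegral ↥w'.toValuationSubring x := by
        refine ⟨P.map φ, hPm.map _, ?_⟩
        rw [Polynomial.eval₂_map, hφ]
        exact hPx
      obtain ⟨y, hy⟩ := IsIntegrallyClosed.algebraMap_eq_of_integral hI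
      rw [← hy]
      exact y.2
  obtain ⟨w, m, hm, hw, _⟩ := hval.exists_place
  exact ⟨w, m, hm, fun a ha => hw a ha⟩

/-- Divisibility of all orders is preserved. -/
theorem FA_S18_G_pull (σ : F →ₐ[K] F')
    (hint : ∀ x : F', ∃ P : Polynomial F, P.Monic ∧ Polynomial.eval₂ (σ : F →+* F') x P = 0)
    (p : ℤ) (a : F) (hdiv : ∀ w : Place K F, p ∣ w.ord a) (w' : Place K F') :
    p ∣ w'.ord (σ a) := by
  by_cases ha : a = 0
  · rw [ha, map_zero, Place.ord_zero]
    exact dvd_zero p
  · obtain ⟨w, m, _, hw⟩ := FA_S18_G_restrict σ hint w'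
    rw [hw a ha]
    exact Dvd.dvd.mul_left (hdiv w) m

end Fermat.Agent.S18
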