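import Mathlib
import Fermat.Agent.Lib.RR.Hurwitz
import Fermat.Agent.Lib.RR.RiemannBound
import Fermat.Agent.S18.DescentPull

/-!
# S18, leaf N, sub-leaf CUSP, part C (char 0): places of a Kummer cover, tools

* `FA_S18_CUC_exists_single_zero` : every place `v` of a function field is the only zero of some
  transcendental element (Riemann's inequality).
* `FA_S18_CUC_exists_extension` : every place of `F` extends along an algebraic embedding
  `σ : F → F'`.
* `FA_S18_CUC_place_eq_of_ord` : two places with proportional orders (along `σ`) coincide.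
-/

set_option autoImplicit false

noncomputable section

namespace Fermat.Agent.S18

open AlgebraicCurve FA_RR IntermediateField

variable {K F F' : Type} [Field K] [IsAlgClosed K] [CharZero K] [Field F] [Field F']
  [Algebra K F] [Algebra K F']

/-- Two places `v`, `w` of `F` with `O_v ⊆ O_w` are equal. -/
theorem FA_S18_CUC_place_eq_of_le {v w : Place K F}
    (h : ∀ a : F, a ≠ 0 → 0 ≤ v.ord a → 0 ≤ w.ord a) : v = w := by
  -- `ord_w` vanishes on the units of `O_v`, and is positive on a uniformizer of `v`
  have hunit : ∀ a : F, a ≠ 0 → v.ord a = 0 → w.ord a = 0 := by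
    intro a ha hva
    have h1 := h a ha (by omega)
    have h2 := h a⁻¹ (inv_ne_zero ha) (by rw [v.ord_inv]; omega)
    rw [w.ord_inv] at h2
    omega
  obtain ⟨π, hπ⟩ := IsDiscreteValuationRing.exists_irreducible v.toValuationSubring
  have hπ1 : v.ord (π : F) = 1 := v.ord_coe_irreducible hπ
  have hπ0 : (π : F) ≠ 0 := by
    intro h0
    rw [h0, Place.ord_zero] at hπ1
    omega
  have hwπ : 0 ≤ w.ord (π : F) := h _ hπ0 (by omega)
  -- every `a ≠ 0` is `unit * π ^ ord_v a`
  have hord : ∀ a : F, a ≠ 0 → w.ord a = v.ord a * w.ord (π : F) := by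
    intro a ha
    have h1 : v.ord (a * ((π : F) ^ (v.ord a))⁻¹) = 0 := by
      rw [v.ord_mul ha (inv_ne_zero (zpow_ne_zero _ hπ0)), v.ord_inv, v.ord_zpow, hπ1]
      ring
    have h2 := hunit _ (mul_ne_zero ha (inv_ne_zero (zpow_ne_zero _ hπ0))) h1
    rw [w.ord_mul ha (inv_ne_zero (zpow_ne_zero _ hπ0)), w.ord_inv, w.ord_zpow] at h2
    linarith
  -- `ord_w π > 0`, otherwise `O_w = F`
  have hwπ' : 0 < w.ord (π : F) := by
    rcases hwπ.lt_or_eq with h1 | h1
    · exact h1
    · exfalso
      apply w.ne_top'
      refine SetLike.ext fun a => ⟨fun _ => ValuationSubring.mem_top a, fun _ => ?_⟩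
      rw [FA_RR.mem_iff_ord]
      by_cases ha : a = 0
      · exact Or.inl ha
      · right
        rw [hord a ha, ← h1, mul_zero]
  -- so `O_w ⊆ O_v` as well
  apply Place.ext
  apply le_antisymm
  · intro a ha
    rw [FA_RR.mem_iff_ord] at ha ⊢
    rcases ha with ha | ha
    · exact Or.inl ha
    · by_cases ha0 : a = 0
      · exact Or.inl ha0
      · exact Or.inr (h a ha0 ha)
  · intro a ha
    rw [FA_RR.mem_iff_ord] at ha ⊢
    rcases ha with ha | ha
    · exact Or.inl ha
    · by_cases ha0 : a = 0
      · exact Or.inl ha0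
      · right
        rw [hord a ha0] at ha
        by_contra hneg
        push Not at hneg
        have : v.ord a * w.ord (π : F) < 0 := mul_neg_of_neg_of_pos hneg hwπ'
        omega

/-- Every place `v` is the only zero of some transcendental element. -/
theorem FA_S18_CUC_exists_single_zero (hF : FA_RR_IsFF K F) (v : Place K F) :
    ∃ t : F, Transcendental K t ∧ 0 < v.ord t ∧ ∀ v₂ : Place K F, 0 < v₂.ord t → v₂ = v := by
  classical
  obtain ⟨γ, hγ⟩ := FA_RR.WPB.riemann_bound hF
  set n : ℤ := max (γ + 2) 1 with hn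
  set D : Divisor K F := Finsupp.single v n with hD
  have hdeg : Divisor.degree D = n := by
    rw [hD, Divisor.degree_single, FA_RR.deg_eq_one hF]
    simp
  haveI : Module.Finite K (riemannRochSpace D) := FA_RR.WPB.finiteL hF D
  have hl : (2 : ℤ) ≤ (Module.finrank K (riemannRochSpace D) : ℤ) := by
    have := hγ D
    unfold FA_RR.WPB.rD at this
    rw [hdeg] at this
    have : γ + 2 ≤ n := le_max_left _ _
    omega
  -- a non-constant element of `L(D)`
  obtain ⟨f, hfD, hfc⟩ : ∃ f ∈ riemannRochSpace D, ∀ c : K, algebraMap K F c ≠ f := by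
    by_contra hcon
    push Not at hcon
    have hle : riemannRochSpace D ≤ Submodule.span K {(1 : F)} := by
      intro f hf
      obtain ⟨c, hc⟩ := hcon f hf
      rw [Submodule.mem_span_singleton]
      exact ⟨c, by rw [← hc, Algebra.smul_def, mul_one]⟩
    have h1 := Submodule.finrank_mono hle
    have h2 : Module.finrank K (Submodule.span K {(1 : F)}) ≤ 1 := by
      have := finrank_span_le_card (R := K) ({(1 : F)} : Set F)
      simpa using this
    have : (Module.finrank K (riemannRochSpace D) : ℤ) ≤ 1 := by exact_mod_cast h1.trans h2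
    omega
  have hf0 : f ≠ 0 := fun h => hfc 0 (by rw [map_zero, h])
  have htr : Transcendental K f := by
    intro halg
    obtain ⟨c, hc⟩ := FA_RR.exists_const_of_isAlgebraic halg
    exact hfc c hc
  have hmem := mem_riemannRochSpace_iff.mp hfD
  have hord2 : ∀ v₂ : Place K F, v₂ ≠ v → 0 ≤ v₂.ord f := by
    intro v₂ hv₂
    rcases hmem v₂ with h | h
    · exact absurd h hf0
    · rw [hD, Finsupp.single_apply, if_neg (Ne.symm hv₂)] at h
      simpa using h
  have hordv : v.ord f < 0 := by
    by_contra hcon
    push Not at hcon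
    have : f ∈ riemannRochSpace (0 : Divisor K F) := by
      rw [mem_riemannRochSpace_iff]
      intro v₂
      right
      rw [Finsupp.zero_apply, neg_zero]
      by_cases hv₂ : v₂ = v
      · rw [hv₂]; exact hcon
      · exact hord2 v₂ hv₂
    obtain ⟨c, hc⟩ := FA_RR.WPB.L_zero hF this
    exact hfc c hc
  refine ⟨f⁻¹, FA_RR.transcendental_inv htr, ?_, ?_⟩
  · rw [v.ord_inv]; omega
  · intro v₂ hv₂
    rw [v₂.ord_inv] at hv₂
    by_contra hne
    have := hord2 v₂ hne
    omega

/-- **Extension of places** along an algebraic embedding of function fields. -/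
theorem FA_S18_CUC_exists_extension (hF : FA_RR_IsFF K F) (hF' : FA_RR_IsFF K F')
    (σ : F →ₐ[K] F')
    (hint : ∀ x : F', ∃ P : Polynomial F, P.Monic ∧ Polynomial.eval₂ (σ : F →+* F') x P = 0)
    (v : Place K F) :
    ∃ v' : Place K F', ∃ m : ℤ, 0 < m ∧ ∀ a : F, a ≠ 0 → v'.ord (σ a) = m * v.ord a := by
  obtain ⟨t, ht, htv, hsingle⟩ := FA_S18_CUC_exists_single_zero hF v
  have ht' : Transcendental K (σ t) := by
    intro halg
    apply ht
    have hinj : Function.Injective σ := σ.toRingHom.injective
    exact (isAlgebraic_algHom_iff σ hinj).mp halg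
  -- `σ t` has a zero
  obtain ⟨v', hv'⟩ : ∃ v' : Place K F', 0 < v'.ord (σ t) := by
    by_contra hcon
    push Not at hcon
    have hdeg := FA_RR.degree_zeroDiv hF' ht'
    have hzero : FA_RR.zeroDiv hF' ht' = 0 := by
      ext w
      rw [FA_RR.zeroDiv_apply, Finsupp.zero_apply]
      exact max_eq_right (hcon w)
    rw [hzero, map_zero] at hdeg
    haveI := FA_RR.finiteDimensional_adjoin hF' ht'
    have hpos : 0 < Module.finrank K⟮σ t⟯ F' := Module.finrank_pos
    omega
  obtain ⟨w, m, hm, hw⟩ := FA_S18_G_restrict σ hint v'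
  have ht0 : t ≠ 0 := by
    intro h
    rw [h, Place.ord_zero] at htv
    omega
  have hwt : 0 < w.ord t := by
    have := hw t ht0
    rw [this] at hv'
    by_contra hcon
    push Not at hcon
    have : m * w.ord t ≤ 0 := mul_nonpos_of_nonneg_of_nonpos hm.le hcon
    omega
  have hwv : w = v := hsingle w hwt
  subst hwv
  exact ⟨v', m, hm, hw⟩

end Fermat.Agent.S18
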