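import Fermat.Agent.S18.CuspAbhA

/-!
# S18, leaf N, sub-leaf CUSP, part C (char 0): counting lemma

If the zeros of `y' ∈ F'` contain `ord_v y` distinct places for every zero `v` of `y ∈ F`
(injectively), and `[F' : K(y')] ≤ [F : K(y)]`, then all zeros of `y'` are simple.
-/

set_option autoImplicit false

noncomputable section

namespace Fermat.Agent.S18

open AlgebraicCurve FA_RR IntermediateField

variable {K F F' : Type} [Field K] [IsAlgClosed K] [CharZero K] [Field F] [Field F']
  [Algebra K F] [Algebra K F']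

/-- **Counting lemma.** -/
theorem FA_S18_CUC_count (hF : FA_RR_IsFF K F) (hF' : FA_RR_IsFF K F')
    (y : F) (hy : Transcendental K y) (y' : F') (hy' : Transcendental K y')
    (hdeg : Module.finrank K⟮y'⟯ F' ≤ Module.finrank K⟮y⟯ F)
    (P : Place K F → ℕ → Place K F')
    (hP : ∀ v : Place K F, ∀ i : ℕ, (i : ℤ) < v.ord y → 0 < (P v i).ord y')
    (hinj : ∀ (v v₂ : Place K F) (i j : ℕ), (i : ℤ) < v.ord y → (j : ℤ) < v₂.ord y →
      P v i = P v₂ j → v = v₂ ∧ i = j)
    (v' : Place K F') (hv' : 0 < v'.ord y') : v'.ord y' = 1 := by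
  classical
  set Z := FA_RR.zeroDiv hF hy with hZ
  set Z' := FA_RR.zeroDiv hF' hy' with hZ'
  -- the index set
  set T : Finset (Σ _ : Place K F, ℕ) := Z.support.sigma (fun v => Finset.range (Z v).toNat)
    with hT
  have hTmem : ∀ p : (Σ _ : Place K F, ℕ), p ∈ T ↔ (p.2 : ℤ) < p.1.ord y := by
    intro p
    rw [hT, Finset.mem_sigma, Finset.mem_range, FA_RR.mem_support_zeroDiv, FA_RR.zeroDiv_apply]
    constructor
    · rintro ⟨h1, h2⟩
      rw [max_eq_left h1.le] at h2
      omega
    · intro h
      have h1 : 0 < p.1.ord y := by omega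
      refine ⟨h1, ?_⟩
      rw [max_eq_left h1.le]
      omega
  have hTcard : (T.card : ℤ) = Divisor.degree Z := by
    rw [hT, Finset.card_sigma]
    have h1 : Divisor.degree Z = ∑ v ∈ Z.support, Z v := by
      conv_lhs => rw [← Finsupp.sum_single Z]
      rw [Finsupp.sum, map_sum]
      simp only [Divisor.degree_single, FA_RR.deg_eq_one hF, Nat.cast_one, mul_one]
    rw [h1]
    push_cast
    refine Finset.sum_congr rfl fun v _ => ?_
    rw [Finset.card_range]
    exact Int.toNat_of_nonneg (FA_RR.zeroDiv_nonneg hF hy v)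
  -- the injection into the zeros of `y'`
  have hle : T.card ≤ Z'.support.card := by
    apply Finset.card_le_card_of_injOn (fun p => P p.1 p.2)
    · intro p hp
      rw [Finset.mem_coe, FA_RR.mem_support_zeroDiv]
      exact hP p.1 p.2 ((hTmem p).mp hp)
    · intro p hp q hq hpq
      obtain ⟨h1, h2⟩ := hinj p.1 q.1 p.2 q.2 ((hTmem p).mp hp) ((hTmem q).mp hq) hpq
      obtain ⟨pv, pi⟩ := p
      obtain ⟨qv, qi⟩ := q
      simp only at h1 h2
      subst h1
      subst h2
      rfl
  have hcard : Nat.card {v : Place K F' // 0 < v.ord y'} = Module.finrank K⟮y'⟯ F' := by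
    rw [← FA_RR.card_support_zeroDiv hF' hy']
    apply le_antisymm
    · -- card of support ≤ degree
      have h1 : Divisor.degree Z' = ∑ v ∈ Z'.support, Z' v := by
        conv_lhs => rw [← Finsupp.sum_single Z']
        rw [Finsupp.sum, map_sum]
        simp only [Divisor.degree_single, FA_RR.deg_eq_one hF', Nat.cast_one, mul_one]
      have h2 : ∑ v ∈ Z'.support, (1 : ℤ) ≤ ∑ v ∈ Z'.support, Z' v := by
        apply Finset.sum_le_sum
        intro v hv
        have := (FA_RR.mem_support_zeroDiv hF' hy' v).mp hv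
        rw [FA_RR.zeroDiv_apply, max_eq_left this.le]
        omega
      rw [Finset.sum_const, ← h1, FA_RR.degree_zeroDiv hF' hy'] at h2
      simp only [nsmul_eq_mul, mul_one] at h2
      exact_mod_cast h2
    · have h3 := FA_RR.degree_zeroDiv hF hy
      rw [← hZ, ← hTcard] at h3
      have h4 : T.card = Module.finrank K⟮y⟯ F := by exact_mod_cast h3
      have h5 : T.card ≤ (FA_RR.zeroDiv hF' hy').support.card := hle
      omega
  have := FA_RR.ord_le_one_of_card hF' hy' hcard v'
  omega

end Fermat.Agent.S18
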