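import Fermat.Agent.S18.CuspAbhB

/-!
# S18, leaf N, sub-leaf CUSP, part C (char 0): Abhyankar's lemma for a Kummer cover, by orbits

`σ : F → F'` function fields over `K` (algebraically closed, characteristic `0`), `x ∈ F'` with
`x ^ w = σ u`, `τ` an automorphism of `F'` over `σ F` with `τ x = ζ x`, `ζ` a primitive `w`-th
root of unity, `[F' : K(x)] ≤ [F : K(u)]`.

* `FA_S18_CUC_stab` : if `ord_v u = h ∣ w` and `v'` lies over `v`, then the stabiliser of `v'` in
  `⟨τ⟩` is contained in `⟨τ ^ h⟩`.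
* `FA_S18_CUC_unram_zero` : if all zeros `v` of `u` have `ord_v u ∣ w`, then all zeros of `x` are
  simple.
-/

set_option autoImplicit false

noncomputable section

namespace Fermat.Agent.S18

open AlgebraicCurve FA_RR IntermediateField

variable {K F F' : Type} [Field K] [IsAlgClosed K] [CharZero K] [Field F] [Field F']
  [Algebra K F] [Algebra K F']

/-- `ord (x ^ n) = n * ord x`. -/
theorem FA_S18_CUC_ord_pow (v : Place K F) (f : F) (n : ℕ) : v.ord (f ^ n) = n * v.ord f := by
  have := v.ord_zpow f (n : ℤ)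
  rwa [zpow_natCast] at this

/-- The order at the translated place. -/
theorem FA_S18_CUC_ord_inv_smul (τ : F' ≃ₐ[K] F') (v' : Place K F') (f : F') :
    (τ⁻¹ • v').ord f = v'.ord (τ f) := by
  have h := Place.ord_smul (τ⁻¹) v' (τ f)
  rw [← h]
  congr 1
  show f = τ.symm (τ f)
  rw [AlgEquiv.symm_apply_apply]

theorem FA_S18_CUC_pow_x (τ : F' ≃ₐ[K] F') (x : F') (ζ : K)
    (hτx : τ x = algebraMap K F' ζ * x) (i : ℕ) :
    (τ ^ i) x = algebraMap K F' (ζ ^ i) * x := by
  induction i with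
  | zero => simp
  | succ i ih =>
    rw [pow_succ, AlgEquiv.mul_apply, hτx, map_mul, AlgEquiv.commutes, ih, pow_succ, map_mul]
    ring

theorem FA_S18_CUC_pow_sigma {σ : F →ₐ[K] F'} (τ : F' ≃ₐ[K] F')
    (hτσ : ∀ f : F, τ (σ f) = σ f) (i : ℕ) (f : F) : (τ ^ i) (σ f) = σ f := by
  induction i with
  | zero => simp
  | succ i ih => rw [pow_succ, AlgEquiv.mul_apply, hτσ, ih]

/-- **Stabiliser bound.** -/
theorem FA_S18_CUC_stab_aux (hF' : FA_RR_IsFF K F') (σ : F →ₐ[K] F') (u : F) (x : F') (w : ℕ)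
    (hxw : x ^ w = σ u) (ζ : K) (hζ : IsPrimitiveRoot ζ w) (τ : F' ≃ₐ[K] F')
    (hτσ : ∀ f : F, τ (σ f) = σ f) (hτx : τ x = algebraMap K F' ζ * x)
    (v : Place K F) (v' : Place K F') (m : ℤ) (hm : 0 < m)
    (hv' : ∀ a : F, a ≠ 0 → v'.ord (σ a) = m * v.ord a)
    (h : ℕ) (hh : v.ord u = h) (hpos : 0 < h) (hdvd : h ∣ w)
    (d : ℕ) (hd : ∀ g : F', v'.ord ((τ ^ d) g) = v'.ord g) : h ∣ d := by
  obtain ⟨c, hc⟩ := hdvd
  have hu0 : u ≠ 0 := by
    intro h0
    rw [h0, Place.ord_zero] at hh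
    have : (h : ℤ) = 0 := hh.symm
    omega
  have hw0 : 0 < w := by
    rcases Nat.eq_zero_or_pos w with h0 | h0
    · exfalso
      rw [h0, pow_zero] at hxw
      have h1 : v'.ord (σ u) = 0 := by rw [← hxw, Place.ord_one]
      rw [hv' u hu0, hh] at h1
      have : (0 : ℤ) < m * h := mul_pos hm (by exact_mod_cast hpos)
      omega
    · exact h0
  have hc0 : 0 < c := by
    rcases Nat.eq_zero_or_pos c with h0 | h0
    · rw [h0, mul_zero] at hc; omega
    · exact h0
  have hx0 : x ≠ 0 := by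
    intro h0
    rw [h0, zero_pow hw0.ne'] at hxw
    have : σ u ≠ 0 := by
      rw [ne_eq, map_eq_zero_iff σ σ.toRingHom.injective]
      exact hu0
    exact this hxw.symm
  -- `w * ord x = m * h`
  have he : (w : ℤ) * v'.ord x = m * h := by
    rw [← FA_S18_CUC_ord_pow, hxw, hv' u hu0, hh]
  have he' : (c : ℤ) * v'.ord x = m := by
    have h1 : (w : ℤ) = h * c := by exact_mod_cast hc
    rw [h1] at he
    have h2 : (h : ℤ) * ((c : ℤ) * v'.ord x) = h * m := by linarith
    have h3 : (h : ℤ) ≠ 0 := by exact_mod_cast hpos.ne'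
    exact mul_left_cancel₀ h3 h2
  -- a uniformizer of `v`
  obtain ⟨π, hπ⟩ := IsDiscreteValuationRing.exists_irreducible v.toValuationSubring
  have hπ1 : v.ord (π : F) = 1 := v.ord_coe_irreducible hπ
  have hπ0 : (π : F) ≠ 0 := by
    intro h0
    rw [h0, Place.ord_zero] at hπ1
    omega
  have hσπ0 : σ (π : F) ≠ 0 := by
    rw [ne_eq, map_eq_zero_iff σ σ.toRingHom.injective]
    exact hπ0
  set z : F' := x ^ c * (σ (π : F))⁻¹ with hz
  have hz0 : z ≠ 0 := mul_ne_zero (pow_ne_zero _ hx0) (inv_ne_zero hσπ0)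
  have hzord : v'.ord z = 0 := by
    rw [hz, v'.ord_mul (pow_ne_zero _ hx0) (inv_ne_zero hσπ0), v'.ord_inv, FA_S18_CUC_ord_pow,
      hv' _ hπ0, hπ1, he']
    ring
  -- the residue of `z`
  have hzmem : v'.adicValuation z ≤ 1 := by
    rw [v'.adicValuation_le_one_iff]
    exact Or.inr hzord.ge
  obtain ⟨r, hr⟩ := FA_RR.residue hF' v' z hzmem
  rw [FA_RR.adicValuation_lt_one_iff] at hr
  have hr0 : r ≠ 0 := by
    rintro rfl
    rw [map_zero, sub_zero] at hr
    rcases hr with h1 | h1
    · exact hz0 h1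
    · omega
  -- the action of `τ ^ d` on `z`
  set ξ : K := ζ ^ (c * d) with hξ
  have hτz : (τ ^ d) z = algebraMap K F' ξ * z := by
    rw [hz, map_mul, map_pow, map_inv₀, FA_S18_CUC_pow_x τ x ζ hτx, FA_S18_CUC_pow_sigma τ hτσ,
      mul_pow, ← map_pow, hξ, ← pow_mul, mul_comm d c]
    ring
  have hξ1 : ξ = 1 := by
    by_contra hne
    have hconst : algebraMap K F' (r * (1 - ξ)) ≠ 0 := by
      rw [ne_eq, map_eq_zero_iff _ (algebraMap K F').injective]
      exact mul_ne_zero hr0 (sub_ne_zero.mpr (Ne.symm hne))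
    rcases hr with h1 | h1
    · -- `z = r` is constant
      have hzr : z = algebraMap K F' r := sub_eq_zero.mp h1
      have h2 : (τ ^ d) z = z := by rw [hzr, AlgEquiv.commutes]
      rw [hτz] at h2
      have h3 : (algebraMap K F' ξ - 1) * z = 0 := by rw [sub_mul, h2, one_mul, sub_self]
      rcases mul_eq_zero.mp h3 with h4 | h4
      · apply hne
        have : algebraMap K F' ξ = algebraMap K F' 1 := by rw [map_one]; exact sub_eq_zero.mp h4
        exact (algebraMap K F').injective this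
      · exact hz0 h4
    · have h2 := hd (z - algebraMap K F' r)
      rw [map_sub, AlgEquiv.commutes, hτz] at h2
      have h3 : 0 < v'.ord (algebraMap K F' ξ * z - algebraMap K F' r) := by rw [h2]; exact h1
      have h4 : algebraMap K F' ξ * (z - algebraMap K F' r)
          - (algebraMap K F' ξ * z - algebraMap K F' r) = algebraMap K F' (r * (1 - ξ)) := by
        rw [map_mul, map_sub, map_one]; ring
      have hξ0 : algebraMap K F' ξ ≠ 0 := by
        rw [ne_eq, map_eq_zero_iff _ (algebraMap K F').injective, hξ]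
        exact pow_ne_zero _ (hζ.ne_zero hw0.ne')
      have hzr0 : z - algebraMap K F' r ≠ 0 := by
        intro h0
        rw [h0, Place.ord_zero] at h1
        omega
      have h5 : 1 ≤ v'.ord (algebraMap K F' ξ * (z - algebraMap K F' r)) := by
        rw [v'.ord_mul hξ0 hzr0, FA_RR.ord_algebraMap]
        omega
      have h6 : 1 ≤ v'.ord (algebraMap K F' ξ * (z - algebraMap K F' r)
          - (algebraMap K F' ξ * z - algebraMap K F' r)) := by
        refine FA_RR.ord_sub_ge v' ?_ 1 (Or.inr h5) (Or.inr (by omega))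
        rw [h4]
        exact hconst
      rw [h4, FA_RR.ord_algebraMap] at h6
      omega
  have h1 : w ∣ c * d := (hζ.pow_eq_one_iff_dvd _).mp hξ1
  rw [hc, mul_comm h c] at h1
  exact (Nat.mul_dvd_mul_iff_left hc0).mp h1

end Fermat.Agent.S18
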