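import Fermat.Agent.S18.CuspAbhC

/-!
# S18, leaf N, sub-leaf CUSP, part C (char 0): Abhyankar's lemma for a Kummer cover

* `FA_S18_CUC_unram_zero` : if all zeros `v` of `u` have `ord_v u ∣ w`, then all zeros of `x`
  (`x ^ w = σ u`) are simple.
* `FA_S18_CUC_unram_ne` : if all zeros of `u - α ^ w` (`α ≠ 0`) are simple, then all zeros of
  `x - α` are simple.
-/

set_option autoImplicit false

noncomputable section

namespace Fermat.Agent.S18

open AlgebraicCurve FA_RR IntermediateField

variable {K F F' : Type} [Field K] [IsAlgClosed K] [CharZero K] [Field F] [Field F']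
  [Algebra K F] [Algebra K F']

theorem FA_S18_CUC_transcendental_x (σ : F →ₐ[K] F') (u : F) (hu : Transcendental K u) (x : F')
    (w : ℕ) (hxw : x ^ w = σ u) : Transcendental K x := by
  intro halg
  apply hu
  have h1 : IsAlgebraic K (σ u) := by rw [← hxw]; exact halg.pow w
  exact (isAlgebraic_algHom_iff σ σ.toRingHom.injective).mp h1

/-- Restriction data determine the place below. -/
theorem FA_S18_CUC_below_unique (σ : F →ₐ[K] F') (q : Place K F') (v v₂ : Place K F)
    (m m₂ : ℤ) (hm : 0 < m) (hm₂ : 0 < m₂)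
    (h : ∀ a : F, a ≠ 0 → q.ord (σ a) = m * v.ord a)
    (h₂ : ∀ a : F, a ≠ 0 → q.ord (σ a) = m₂ * v₂.ord a) : v = v₂ := by
  apply FA_S18_CUC_place_eq_of_le
  intro a ha hva
  have h1 := h a ha
  have h3 := h₂ a ha
  rw [h1] at h3
  by_contra hneg
  push Not at hneg
  have h4 : m₂ * v₂.ord a < 0 := mul_neg_of_pos_of_neg hm₂ hneg
  have h5 : 0 ≤ m * v.ord a := mul_nonneg hm.le hva
  omega

/-- **Abhyankar at the cusps**: all zeros of `x` are simple. -/
theorem FA_S18_CUC_unram_zero (hF : FA_RR_IsFF K F) (hF' : FA_RR_IsFF K F')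
    (σ : F →ₐ[K] F')
    (hint : ∀ x : F', ∃ P : Polynomial F, P.Monic ∧ Polynomial.eval₂ (σ : F →+* F') x P = 0)
    (u : F) (hu : Transcendental K u) (x : F') (w : ℕ) (hw : 0 < w)
    (hxw : x ^ w = σ u) (ζ : K) (hζ : IsPrimitiveRoot ζ w) (τ : F' ≃ₐ[K] F')
    (hτσ : ∀ f : F, τ (σ f) = σ f) (hτx : τ x = algebraMap K F' ζ * x)
    (hdeg : Module.finrank K⟮x⟯ F' ≤ Module.finrank K⟮u⟯ F)
    (hwidth : ∀ v : Place K F, 0 < v.ord u → ∃ h : ℕ, v.ord u = h ∧ h ∣ w)
    (v' : Place K F') (hv' : 0 < v'.ord x) : v'.ord x = 1 := by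
  classical
  have hx : Transcendental K x := FA_S18_CUC_transcendental_x σ u hu x w hxw
  have hu0 : u ≠ 0 := by
    rintro rfl
    exact hu (isAlgebraic_zero)
  have hζ0 : ζ ≠ 0 := hζ.ne_zero hw.ne'
  choose E m hm hE using fun v => FA_S18_CUC_exists_extension hF hF' σ hint v
  set P : Place K F → ℕ → Place K F' := fun v i => (τ ^ i)⁻¹ • E v with hP
  have hPord : ∀ v i f, (P v i).ord f = (E v).ord ((τ ^ i) f) := fun v i f =>
    FA_S18_CUC_ord_inv_smul (τ ^ i) (E v) f
  have hx0 : x ≠ 0 := by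
    rintro rfl
    exact hx isAlgebraic_zero
  have hordx : ∀ v, (w : ℤ) * (E v).ord x = m v * v.ord u := by
    intro v
    rw [← FA_S18_CUC_ord_pow, hxw, hE v u hu0]
  refine FA_S18_CUC_count hF hF' u hu x hx hdeg P ?_ ?_ v' hv'
  · intro v i hi
    rw [hPord, FA_S18_CUC_pow_x τ x ζ hτx, (E v).ord_mul
      (by rw [ne_eq, map_eq_zero_iff _ (algebraMap K F').injective]; exact pow_ne_zero _ hζ0) hx0,
      FA_RR.ord_algebraMap, zero_add]
    have h1 := hordx v
    have h2 : 0 < v.ord u := by omega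
    have h3 : 0 < m v * v.ord u := mul_pos (hm v) h2
    by_contra hcon
    push Not at hcon
    have h4 : (w : ℤ) * (E v).ord x ≤ 0 :=
      mul_nonpos_of_nonneg_of_nonpos (by exact_mod_cast hw.le) hcon
    omega
  · intro v v₂ i j hi hj hPP
    have hres : ∀ (v : Place K F) (i : ℕ) (a : F), a ≠ 0 → (P v i).ord (σ a) = m v * v.ord a := by
      intro v i a ha
      rw [hPord, FA_S18_CUC_pow_sigma τ hτσ, hE v a ha]
    have hvv : v = v₂ := by
      refine FA_S18_CUC_below_unique σ (P v i) v v₂ (m v) (m v₂) (hm v) (hm v₂)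
        (hres v i) ?_
      intro a ha
      rw [hPP]
      exact hres v₂ j a ha
    subst hvv
    refine ⟨rfl, ?_⟩
    have hpos : 0 < v.ord u := by omega
    obtain ⟨h, hh, hdvd⟩ := hwidth v hpos
    have hhpos : 0 < h := by
      have : (0 : ℤ) < h := by rw [← hh]; exact hpos
      exact_mod_cast this
    have hij : ∀ f : F', (E v).ord ((τ ^ i) f) = (E v).ord ((τ ^ j) f) := by
      intro f
      rw [← hPord, ← hPord, hPP]
    -- general claim for `a ≤ b`
    have key : ∀ a b : ℕ, a ≤ b → (b : ℤ) < v.ord u →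
        (∀ f : F', (E v).ord ((τ ^ b) f) = (E v).ord ((τ ^ a) f)) → b = a := by
      intro a b hab hb hf
      have hd : ∀ g : F', (E v).ord ((τ ^ (b - a)) g) = (E v).ord g := by
        intro g
        have h1 := hf ((τ ^ a).symm g)
        rw [AlgEquiv.apply_symm_apply] at h1
        rw [← h1]
        congr 1
        have h2 : τ ^ b = τ ^ (b - a) * τ ^ a := by
          rw [← pow_add, Nat.sub_add_cancel hab]
        rw [h2, AlgEquiv.mul_apply, AlgEquiv.apply_symm_apply]
      have h3 := FA_S18_CUC_stab_aux hF' σ u x w hxw ζ hζ τ hτσ hτx v (E v) (m v) (hm v) (hE v)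
        h hh hhpos hdvd (b - a) hd
      have h4 : b - a < h := by
        have : (b : ℤ) < h := by rw [← hh]; exact hb
        have : b < h := by exact_mod_cast this
        omega
      have h5 : b - a = 0 := Nat.eq_zero_of_dvd_of_lt h3 h4
      omega
    rcases le_total i j with hle | hle
    · exact (key i j hle hj (fun f => (hij f).symm)).symm
    · exact key j i hle hi hij

end Fermat.Agent.S18
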