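import Fermat.Agent.S18.Unimod

/-!
# S18, leaf U/GLUE: from the unimodularity core to "the reduction of the chart is normal"

Global data: `RQ ⊂ K` (characteristic-zero chart of the base curve), `BQ ⊂ K'` (chart of the
cover), `O`, `O'`, `red`, `red'` as in `Unimod.lean`.  `Rb := red (RQ ∩ O)`.

Main theorem `FA_S18_U_glue`: every `x ∈ κ'` integral over `Rb` is the reduction of an element of
`BQ ∩ O'`.
-/

set_option autoImplicit false

noncomputable section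

namespace FA_S18

open Module

variable {K K' κ κ' : Type*} [Field K] [Field K'] [Algebra K K']
  [Field κ] [Field κ'] [Algebra κ κ']

/-- The reduction of `RQ ∩ O`, a subring of `κ`. -/
def FA_S18_U_Rb (O : ValuationSubring K) (red : O →+* κ) (RQ : Subring K) : Subring κ :=
  (RQ.comap O.subtype).map red

theorem FA_S18_U_mem_Rb {O : ValuationSubring K} {red : O →+* κ} {RQ : Subring K} {t : κ} :
    t ∈ FA_S18_U_Rb O red RQ ↔ ∃ r : O, (r : K) ∈ RQ ∧ red r = t := by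
  simp [FA_S18_U_Rb, Subring.mem_map, Subring.mem_comap]

/-- The elements of `RQ ∩ O` whose reduction is a unit of `Rb`. -/
def FA_S18_U_S (O : ValuationSubring K) (red : O →+* κ) (RQ : Subring K) : Submonoid K where
  carrier := {s | s ∈ RQ ∧ ∃ s' : O, (s' : K) = s ∧ ∃ t : O, (t : K) ∈ RQ ∧ red s' * red t = 1}
  one_mem' := ⟨RQ.one_mem, 1, rfl, 1, RQ.one_mem, by simp⟩
  mul_mem' := by
    rintro a b ⟨ha, a', rfl, ta, hta, hta1⟩ ⟨hb, b', rfl, tb, htb, htb1⟩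
    refine ⟨RQ.mul_mem ha hb, a' * b', rfl, ta * tb, RQ.mul_mem hta htb, ?_⟩
    rw [map_mul, map_mul, mul_mul_mul_comm, hta1, htb1, one_mul]

theorem FA_S18_U_S_ne_zero {O : ValuationSubring K} {red : O →+* κ} {RQ : Subring K} {s : K}
    (hs : s ∈ FA_S18_U_S O red RQ) : s ≠ 0 := by
  obtain ⟨_, s', rfl, t, _, h⟩ := hs
  intro h0
  have : s' = 0 := Subtype.ext h0
  rw [this, map_zero, zero_mul] at h
  exact zero_ne_one h

/-- The localisation `S⁻¹ RQ` as a subring of `K`. -/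
def FA_S18_U_R' (O : ValuationSubring K) (red : O →+* κ) (RQ : Subring K) : Subring K where
  carrier := {x | ∃ s ∈ FA_S18_U_S O red RQ, s * x ∈ RQ}
  one_mem' := ⟨1, (FA_S18_U_S O red RQ).one_mem, by simpa using RQ.one_mem⟩
  zero_mem' := ⟨1, (FA_S18_U_S O red RQ).one_mem, by simpa using RQ.zero_mem⟩
  mul_mem' := by
    rintro a b ⟨s, hs, ha⟩ ⟨s', hs', hb⟩
    refine ⟨s * s', (FA_S18_U_S O red RQ).mul_mem hs hs', ?_⟩
    have : s * s' * (a * b) = (s * a) * (s' * b) := by ring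
    rw [this]; exact RQ.mul_mem ha hb
  add_mem' := by
    rintro a b ⟨s, hs, ha⟩ ⟨s', hs', hb⟩
    refine ⟨s * s', (FA_S18_U_S O red RQ).mul_mem hs hs', ?_⟩
    have : s * s' * (a + b) = s' * (s * a) + s * (s' * b) := by ring
    rw [this]; exact RQ.add_mem (RQ.mul_mem hs'.1 ha) (RQ.mul_mem hs.1 hb)
  neg_mem' := by
    rintro a ⟨s, hs, ha⟩
    exact ⟨s, hs, by rw [mul_neg]; exact RQ.neg_mem ha⟩

/-- The localisation `S⁻¹ BQ` as a subring of `K'`. -/
def FA_S18_U_B' (O : ValuationSubring K) (red : O →+* κ) (RQ : Subring K) (BQ : Subring K')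
    (hsm : ∀ r ∈ RQ, ∀ y ∈ BQ, algebraMap K K' r * y ∈ BQ) : Subring K' where
  carrier := {y | ∃ s ∈ FA_S18_U_S O red RQ, algebraMap K K' s * y ∈ BQ}
  one_mem' := ⟨1, (FA_S18_U_S O red RQ).one_mem, by simpa using BQ.one_mem⟩
  zero_mem' := ⟨1, (FA_S18_U_S O red RQ).one_mem, by simpa using BQ.zero_mem⟩
  mul_mem' := by
    rintro a b ⟨s, hs, ha⟩ ⟨s', hs', hb⟩
    refine ⟨s * s', (FA_S18_U_S O red RQ).mul_mem hs hs', ?_⟩
    have : algebraMap K K' (s * s') * (a * b)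
        = (algebraMap K K' s * a) * (algebraMap K K' s' * b) := by
      rw [map_mul]; ring
    rw [this]; exact BQ.mul_mem ha hb
  add_mem' := by
    rintro a b ⟨s, hs, ha⟩ ⟨s', hs', hb⟩
    refine ⟨s * s', (FA_S18_U_S O red RQ).mul_mem hs hs', ?_⟩
    have : algebraMap K K' (s * s') * (a + b)
        = algebraMap K K' s' * (algebraMap K K' s * a)
          + algebraMap K K' s * (algebraMap K K' s' * b) := by
      rw [map_mul]; ring
    rw [this]; exact BQ.add_mem (hsm _ hs'.1 _ ha) (hsm _ hs.1 _ hb)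
  neg_mem' := by
    rintro a ⟨s, hs, ha⟩
    exact ⟨s, hs, by rw [mul_neg]; exact BQ.neg_mem ha⟩

theorem FA_S18_U_RQ_le_R' (O : ValuationSubring K) (red : O →+* κ) (RQ : Subring K) :
    RQ ≤ FA_S18_U_R' O red RQ := fun x hx =>
  ⟨1, (FA_S18_U_S O red RQ).one_mem, by simpa using hx⟩

theorem FA_S18_U_BQ_le_B' (O : ValuationSubring K) (red : O →+* κ) (RQ : Subring K)
    (BQ : Subring K') (hsm : ∀ r ∈ RQ, ∀ y ∈ BQ, algebraMap K K' r * y ∈ BQ) :
    BQ ≤ FA_S18_U_B' O red RQ BQ hsm := fun x hx =>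
  ⟨1, (FA_S18_U_S O red RQ).one_mem, by simpa using hx⟩

/-- The hypotheses of the glueing theorem. -/
structure FA_S18_U_GlueHyp [FiniteDimensional K K'] (O : ValuationSubring K) (O' : Subring K')
    (red : O →+* κ) (red' : O' →+* κ') (RQ : Subring K) (K0 : Subfield K) (BQ : Subring K') :
    Prop where
  deg : Module.finrank κ κ' = Module.finrank K K'
  red_max : ∀ a : O, (a : K)⁻¹ ∉ O → red a = 0
  incl : ∀ a : O, algebraMap K K' a ∈ O'
  compat : ∀ (a : O) (y : O'), (y : K') = algebraMap K K' a → red' y = algebraMap κ κ' (red a)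
  K0_le : ∀ k ∈ K0, k ∈ RQ
  smul_mem : ∀ r ∈ RQ, ∀ y ∈ BQ, algebraMap K K' r * y ∈ BQ
  tr_mem : ∀ y ∈ BQ, Algebra.trace K K' y ∈ RQ
  dual : ∀ y : K', (∀ x ∈ BQ, Algebra.trace K K' (y * x) ∈ RQ) → y ∈ BQ
  fg : ∃ (m : ℕ) (x : Fin m → K'), (∀ l, x l ∈ BQ) ∧
    ∀ y ∈ BQ, ∃ r : Fin m → K, (∀ l, r l ∈ RQ) ∧ y = ∑ l, algebraMap K K' (r l) * x l
  points : ∀ g ∈ RQ, g ≠ 0 → ∃ (u : K) (ws : List K), g = u * ws.prod ∧ u ∈ RQ ∧ u⁻¹ ∈ RQ ∧
    ∀ w ∈ ws, w ≠ 0 ∧ w ∈ RQ ∧ w ∈ O ∧ w⁻¹ ∈ O ∧ ∀ r ∈ RQ, ∃ c ∈ K0, ∃ r' ∈ RQ, r = c + w * r'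
  ic : ∀ t : κ, IsIntegral (FA_S18_U_Rb O red RQ) t → t ∈ FA_S18_U_Rb O red RQ
  frac : ∀ t : κ, ∃ r s : κ, r ∈ FA_S18_U_Rb O red RQ ∧ s ∈ FA_S18_U_Rb O red RQ ∧ s ≠ 0 ∧
    t * s = r
  int : ∀ y : O', (y : K') ∈ BQ → IsIntegral (FA_S18_U_Rb O red RQ) (red' y)
  span : ∀ t : κ', ∃ (c : O') (s : O), (c : K') ∈ BQ ∧ (s : K) ∈ RQ ∧ red s ≠ 0 ∧
    algebraMap κ κ' (red s) * t = red' c

namespace FA_S18_U_GlueHyp

variable [FiniteDimensional K K'] {O : ValuationSubring K} {O' : Subring K'} {red : O →+* κ}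
  {red' : O' →+* κ'} {RQ : Subring K} {K0 : Subfield K} {BQ : Subring K'}
  (H : FA_S18_U_GlueHyp O O' red red' RQ K0 BQ)
include H

theorem inv_mem_of_red_ne (a : O) (ha : red a ≠ 0) : (a : K)⁻¹ ∈ O := by
  by_contra h
  exact ha (H.red_max a h)

theorem red_eq_zero_of_not_mem (c : K) (hc : c ∉ O) (hinv : c⁻¹ ∈ O) :
    red ⟨c⁻¹, hinv⟩ = 0 := by
  apply H.red_max
  simpa using hc

/-- Elements of `S` are units of `O`. -/
theorem S_mem_O {s : K} (hs : s ∈ FA_S18_U_S O red RQ) : s ∈ O ∧ s⁻¹ ∈ O := by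
  obtain ⟨_, s', rfl, t, _, h⟩ := hs
  refine ⟨s'.2, H.inv_mem_of_red_ne s' ?_⟩
  intro h0
  rw [h0, zero_mul] at h
  exact zero_ne_one h

/-- The reduction of `R' ∩ O` is `Rb`. -/
theorem red_R' (x : O) (hx : (x : K) ∈ FA_S18_U_R' O red RQ) :
    red x ∈ FA_S18_U_Rb O red RQ := by
  obtain ⟨s, ⟨hsR, s', rfl, t, htR, hst⟩, hsx⟩ := hx
  rw [FA_S18_U_mem_Rb]
  refine ⟨t * (s' * x), RQ.mul_mem htR hsx, ?_⟩
  rw [map_mul, map_mul, ← mul_assoc, mul_comm (red t), hst, one_mul]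

/-- `red' (a • y) = red a • red' y`. -/
theorem red_smul (a : O) (y : O') (z : O') (hz : (z : K') = algebraMap K K' a * y) :
    red' z = algebraMap κ κ' (red a) * red' y := by
  have : z = ⟨algebraMap K K' a, H.incl a⟩ * y := Subtype.ext hz
  rw [this, map_mul, H.compat a ⟨algebraMap K K' a, H.incl a⟩ rfl]

/-- The reduction of `B' ∩ O'` is the reduction of `BQ ∩ O'`. -/
theorem red_B' (y : O') (hy : (y : K') ∈ FA_S18_U_B' O red RQ BQ H.smul_mem) :
    ∃ y₀ : O', (y₀ : K') ∈ BQ ∧ red' y₀ = red' y := by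
  obtain ⟨s, ⟨hsR, s', rfl, t, htR, hst⟩, hsy⟩ := hy
  refine ⟨⟨algebraMap K K' ((t * s' : O) : K), H.incl (t * s')⟩ * y, ?_, ?_⟩
  · show algebraMap K K' ((t * s' : O) : K) * (y : K') ∈ BQ
    have : algebraMap K K' ((t * s' : O) : K) * (y : K')
        = algebraMap K K' (t : K) * (algebraMap K K' (s' : K) * y) := by
      show algebraMap K K' ((t : K) * (s' : K)) * (y : K') = _
      rw [map_mul]; ring
    rw [this]
    exact H.smul_mem _ htR _ hsy
  · rw [H.red_smul (t * s') y _ rfl, map_mul, mul_comm (red t), hst, map_one, one_mul]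

/-! ### `Rb` is a principal ideal domain -/

/-- The class in `Rb` of an element of `RQ ∩ O`. -/
def rb (_ : FA_S18_U_GlueHyp O O' red red' RQ K0 BQ) (a : O) (ha : (a : K) ∈ RQ) :
    FA_S18_U_Rb O red RQ :=
  ⟨red a, FA_S18_U_mem_Rb.mpr ⟨a, ha, rfl⟩⟩

theorem rb_mul (a b : O) (ha : (a : K) ∈ RQ) (hb : (b : K) ∈ RQ) :
    H.rb (a * b) (RQ.mul_mem ha hb) = H.rb a ha * H.rb b hb :=
  Subtype.ext (map_mul red a b)

theorem rb_surj (m : FA_S18_U_Rb O red RQ) : ∃ (a : O) (ha : (a : K) ∈ RQ), H.rb a ha = m := by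
  obtain ⟨a, ha, h⟩ := FA_S18_U_mem_Rb.mp m.2
  exact ⟨a, ha, Subtype.ext h⟩

/-- Decomposition `p = c + w p'` inside `O`, for a good `w` whose reduction is not a unit. -/
theorem good_decomp (w : O) (hw0 : (w : K) ≠ 0) (hwinv : (w : K)⁻¹ ∈ O)
    (hdec : ∀ r ∈ RQ, ∃ c ∈ K0, ∃ r' ∈ RQ, r = c + (w : K) * r')
    (hnu : ∀ v : O, (v : K) ∈ RQ → red w * red v ≠ 1)
    (p : O) (hp : (p : K) ∈ RQ) :
    ∃ c p' : O, (c : K) ∈ K0 ∧ (p' : K) ∈ RQ ∧ (p : K) = c + (w : K) * p' := by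
  obtain ⟨c, hc, p', hp', hpe⟩ := hdec _ hp
  have hcO : c ∈ O := by
    by_contra hcon
    have hcinv : c⁻¹ ∈ O := (O.mem_or_inv_mem c).resolve_left hcon
    have hc0 : c ≠ 0 := fun h => hcon (h ▸ O.zero_mem)
    have hred0 : red ⟨c⁻¹, hcinv⟩ = 0 := H.red_eq_zero_of_not_mem c hcon hcinv
    -- `v = - p' / c`
    have hv : -(p' * c⁻¹) = (1 - (p : K) * c⁻¹) * (w : K)⁻¹ := by
      rw [hpe]; field_simp; ring
    have hvO : -(p' * c⁻¹) ∈ O := by
      rw [hv]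
      exact O.mul_mem _ _ (sub_mem O.one_mem (O.mul_mem _ _ p.2 hcinv)) hwinv
    have hvR : -(p' * c⁻¹) ∈ RQ :=
      RQ.neg_mem (RQ.mul_mem hp' (H.K0_le _ (K0.inv_mem hc)))
    apply hnu ⟨_, hvO⟩ hvR
    rw [← map_mul]
    have e : w * (⟨-(p' * c⁻¹), hvO⟩ : O) = 1 - p * ⟨c⁻¹, hcinv⟩ := by
      apply Subtype.ext
      show (w : K) * (-(p' * c⁻¹)) = 1 - (p : K) * c⁻¹
      rw [hv]; field_simp
    rw [e, map_sub, map_mul, hred0, mul_zero, sub_zero, map_one]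
  have hp'O : p' ∈ O := by
    have : p' = ((p : K) - c) * (w : K)⁻¹ := by
      rw [hpe]; field_simp; ring
    rw [this]
    exact O.mul_mem _ _ (sub_mem p.2 hcO) hwinv
  exact ⟨⟨c, hcO⟩, ⟨p', hp'O⟩, hc, hp', hpe⟩

/-- `Rb` is a principal ideal ring. -/
theorem isPrincipalIdealRing : IsPrincipalIdealRing (FA_S18_U_Rb O red RQ) := by
  classical
  apply IsPrincipalIdealRing.of_prime
  intro P hP
  by_cases hbot : P = ⊥
  · rw [hbot]; exact bot_isPrincipal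
  obtain ⟨xb, hxP, hx0⟩ := Submodule.exists_mem_ne_zero_of_ne_bot hbot
  obtain ⟨x, hxR, rfl⟩ := H.rb_surj xb
  have hxne : (x : K) ≠ 0 := by
    intro h
    apply hx0
    have : x = 0 := Subtype.ext h
    apply Subtype.ext
    show red x = 0
    rw [this, map_zero]
  obtain ⟨u, ws, hg, huR, huinvR, hws⟩ := H.points _ hxR hxne
  -- membership predicate
  let InP : K → Prop := fun a => ∃ (hO : a ∈ O) (hR : a ∈ RQ), H.rb ⟨a, hO⟩ hR ∈ P
  have hInP_mul : ∀ a b : K, a ∈ O → a ∈ RQ → b ∈ O → b ∈ RQ → InP (a * b) → InP a ∨ InP b := by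
    rintro a b haO haR hbO hbR ⟨hO, hR, hm⟩
    have : H.rb ⟨a * b, hO⟩ hR = H.rb ⟨a, haO⟩ haR * H.rb ⟨b, hbO⟩ hbR :=
      H.rb_mul ⟨a, haO⟩ ⟨b, hbO⟩ haR hbR
    rw [this] at hm
    rcases hP.mem_or_mem hm with h | h
    · exact Or.inl ⟨haO, haR, h⟩
    · exact Or.inr ⟨hbO, hbR, h⟩
  have hlist : ∀ l : List K, (∀ w ∈ l, w ∈ RQ ∧ w ∈ O) →
      (l.prod ∈ RQ ∧ l.prod ∈ O) ∧ (InP l.prod → ∃ w ∈ l, InP w) := by
    intro l
    induction l with
    | nil =>
      intro _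
      refine ⟨⟨by simpa using RQ.one_mem, by simpa using O.one_mem⟩, ?_⟩
      rintro ⟨hO, hR, hm⟩
      exfalso
      apply hP.ne_top
      rw [Ideal.eq_top_iff_one]
      have : H.rb ⟨([] : List K).prod, hO⟩ hR = 1 := by
        apply Subtype.ext
        show red ⟨([] : List K).prod, hO⟩ = 1
        have : (⟨([] : List K).prod, hO⟩ : O) = 1 := Subtype.ext (by simp)
        rw [this, map_one]
      rw [this] at hm
      exact hm
    | cons a l ih =>
      intro hl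
      have ha := hl a List.mem_cons_self
      obtain ⟨⟨h1, h2⟩, h3⟩ := ih (fun w hw => hl w (List.mem_cons_of_mem _ hw))
      refine ⟨⟨by rw [List.prod_cons]; exact RQ.mul_mem ha.1 h1,
        by rw [List.prod_cons]; exact O.mul_mem _ _ ha.2 h2⟩, ?_⟩
      intro hin
      rw [List.prod_cons] at hin
      rcases hInP_mul a l.prod ha.2 ha.1 h2 h1 hin with h | h
      · exact ⟨a, List.mem_cons_self, h⟩
      · obtain ⟨w, hw, hwP⟩ := h3 h
        exact ⟨w, List.mem_cons_of_mem _ hw, hwP⟩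
  obtain ⟨⟨hpR, hpO⟩, hex⟩ := hlist ws (fun w hw => ⟨(hws w hw).2.1, (hws w hw).2.2.1⟩)
  -- `u` is a unit of `RQ ∩ O`
  have hprod_inv : ∀ l : List K, (∀ w ∈ l, w⁻¹ ∈ O) → (l.prod)⁻¹ ∈ O := by
    intro l
    induction l with
    | nil => intro _; simpa using O.one_mem
    | cons a l ih =>
      intro hl
      rw [List.prod_cons, mul_inv]
      exact O.mul_mem _ _ (hl a List.mem_cons_self)
        (ih fun w hw => hl w (List.mem_cons_of_mem _ hw))
  have hpinv : (ws.prod)⁻¹ ∈ O := hprod_inv ws fun w hw => (hws w hw).2.2.2.1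
  have hxinv : (x : K)⁻¹ ∈ O := H.inv_mem_of_red_ne x (fun h => hx0 (Subtype.ext h))
  have hp0 : ws.prod ≠ 0 := by
    intro h; rw [h, mul_zero] at hg; exact hxne hg
  have hu0 : u ≠ 0 := by
    intro h; rw [h, zero_mul] at hg; exact hxne hg
  have huO : u ∈ O := by
    have : u = (x : K) * (ws.prod)⁻¹ := by rw [hg]; field_simp
    rw [this]; exact O.mul_mem _ _ x.2 hpinv
  have huinvO : u⁻¹ ∈ O := by
    have : u⁻¹ = ws.prod * (x : K)⁻¹ := by rw [hg]; field_simp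
    rw [this]; exact O.mul_mem _ _ hpO hxinv
  have hInP : InP ws.prod := by
    have hxP' : InP (u * ws.prod) := by
      refine ⟨by rw [← hg]; exact x.2, by rw [← hg]; exact hxR, ?_⟩
      have : (⟨u * ws.prod, by rw [← hg]; exact x.2⟩ : O) = x := Subtype.ext hg.symm
      simp only [this]
      exact hxP
    rcases hInP_mul u ws.prod huO huR hpO hpR hxP' with h | h
    · exfalso
      obtain ⟨hO, hR, hm⟩ := h
      apply hP.ne_top
      rw [Ideal.eq_top_iff_one]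
      have : (1 : FA_S18_U_Rb O red RQ) = H.rb ⟨u, hO⟩ hR * H.rb ⟨u⁻¹, huinvO⟩ huinvR := by
        rw [← H.rb_mul]
        apply Subtype.ext
        show (1 : κ) = red (⟨u, hO⟩ * ⟨u⁻¹, huinvO⟩)
        have : (⟨u, hO⟩ * ⟨u⁻¹, huinvO⟩ : O) = 1 :=
          Subtype.ext (mul_inv_cancel₀ hu0)
        rw [this, map_one]
      rw [this]
      exact P.mul_mem_right _ hm
    · exact h
  obtain ⟨w, hw, hwO, hwR, hwP⟩ := hex hInP
  obtain ⟨hw0, _, _, hwinv, hdec⟩ := hws w hw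
  -- `P = (red w)`
  refine ⟨⟨H.rb ⟨w, hwO⟩ hwR, ?_⟩⟩
  apply le_antisymm
  · intro m hm
    obtain ⟨p, hpR', rfl⟩ := H.rb_surj m
    have hnu : ∀ v : O, (v : K) ∈ RQ → red (⟨w, hwO⟩ : O) * red v ≠ 1 := by
      intro v hv h1
      apply hP.ne_top
      rw [Ideal.eq_top_iff_one]
      have : (1 : FA_S18_U_Rb O red RQ) = H.rb ⟨w, hwO⟩ hwR * H.rb v hv :=
        Subtype.ext h1.symm
      rw [this]
      exact P.mul_mem_right _ hwP
    obtain ⟨c, p', hcK0, hp'R, hpe⟩ := H.good_decomp ⟨w, hwO⟩ hw0 hwinv hdec hnu p hpR'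
    have hcR : (c : K) ∈ RQ := H.K0_le _ hcK0
    have hsum : H.rb p hpR' = H.rb c hcR + H.rb ⟨w, hwO⟩ hwR * H.rb p' hp'R := by
      apply Subtype.ext
      show red p = red c + red ⟨w, hwO⟩ * red p'
      rw [← map_mul, ← map_add]
      congr 1
      exact Subtype.ext hpe
    have hcP : H.rb c hcR ∈ P := by
      have : H.rb c hcR = H.rb p hpR' - H.rb ⟨w, hwO⟩ hwR * H.rb p' hp'R := by
        rw [hsum]; ring
      rw [this]
      exact P.sub_mem hm (P.mul_mem_right _ hwP)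
    have hc0 : red c = 0 := by
      by_contra hne
      have hcinv := H.inv_mem_of_red_ne c hne
      apply hP.ne_top
      rw [Ideal.eq_top_iff_one]
      have hc0' : (c : K) ≠ 0 := by
        intro h
        apply hne
        have : c = 0 := Subtype.ext h
        rw [this, map_zero]
      have : (1 : FA_S18_U_Rb O red RQ)
          = H.rb c hcR * H.rb ⟨(c : K)⁻¹, hcinv⟩ (H.K0_le _ (K0.inv_mem hcK0)) := by
        rw [← H.rb_mul]
        apply Subtype.ext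
        show (1 : κ) = red (c * ⟨(c : K)⁻¹, hcinv⟩)
        have : (c * ⟨(c : K)⁻¹, hcinv⟩ : O) = 1 := Subtype.ext (mul_inv_cancel₀ hc0')
        rw [this, map_one]
      rw [this]
      exact P.mul_mem_right _ hcP
    have hc0'' : H.rb c hcR = 0 := Subtype.ext hc0
    rw [hsum, hc0'', zero_add]
    exact Submodule.mem_span_singleton.mpr ⟨H.rb p' hp'R, by rw [smul_eq_mul, mul_comm]⟩
  · rw [Submodule.span_le]
    intro m hm
    rw [Set.mem_singleton_iff.mp hm]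
    exact hwP

/-! ### The hypotheses of the core for the localised rings -/

theorem smul_mem' (r : K) (hr : r ∈ FA_S18_U_R' O red RQ) (y : K')
    (hy : y ∈ FA_S18_U_B' O red RQ BQ H.smul_mem) :
    algebraMap K K' r * y ∈ FA_S18_U_B' O red RQ BQ H.smul_mem := by
  obtain ⟨s, hs, hsr⟩ := hr
  obtain ⟨s', hs', hsy⟩ := hy
  refine ⟨s * s', (FA_S18_U_S O red RQ).mul_mem hs hs', ?_⟩
  have : algebraMap K K' (s * s') * (algebraMap K K' r * y)
      = algebraMap K K' (s * r) * (algebraMap K K' s' * y) := by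
    rw [map_mul, map_mul]; ring
  rw [this]
  exact H.smul_mem _ hsr _ hsy

theorem tr_mem' (y : K') (hy : y ∈ FA_S18_U_B' O red RQ BQ H.smul_mem) :
    Algebra.trace K K' y ∈ FA_S18_U_R' O red RQ := by
  obtain ⟨s, hs, hsy⟩ := hy
  refine ⟨s, hs, ?_⟩
  have := H.tr_mem _ hsy
  rwa [← Algebra.smul_def, map_smul, smul_eq_mul] at this

theorem dual' (y : K')
    (hy : ∀ x ∈ FA_S18_U_B' O red RQ BQ H.smul_mem,
      Algebra.trace K K' (y * x) ∈ FA_S18_U_R' O red RQ) :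
    y ∈ FA_S18_U_B' O red RQ BQ H.smul_mem := by
  classical
  obtain ⟨m, x, hxB, hgen⟩ := H.fg
  have h1 : ∀ l, ∃ s ∈ FA_S18_U_S O red RQ, s * Algebra.trace K K' (y * x l) ∈ RQ :=
    fun l => hy (x l) (FA_S18_U_BQ_le_B' O red RQ BQ H.smul_mem (hxB l))
  choose s hsS hs using h1
  have hst : (∏ l, s l) ∈ FA_S18_U_S O red RQ := Submonoid.prod_mem _ (fun l _ => hsS l)
  refine ⟨∏ l, s l, hst, H.dual _ ?_⟩
  intro z hz
  obtain ⟨r, hr, rfl⟩ := hgen z hz
  have e : Algebra.trace K K'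
      (algebraMap K K' (∏ l, s l) * y * ∑ l, algebraMap K K' (r l) * x l)
      = ∑ l, r l * ((∏ l, s l) * Algebra.trace K K' (y * x l)) := by
    rw [Finset.mul_sum, map_sum]
    refine Finset.sum_congr rfl fun l _ => ?_
    have : algebraMap K K' (∏ l, s l) * y * (algebraMap K K' (r l) * x l)
        = (r l * ∏ l, s l) • (y * x l) := by
      rw [Algebra.smul_def, map_mul]; ring
    rw [this, map_smul, smul_eq_mul]; ring
  rw [e]
  refine RQ.sum_mem fun l _ => RQ.mul_mem (hr l) ?_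
  have : (∏ l, s l) = (∏ l' ∈ Finset.univ.erase l, s l') * s l :=
    (Finset.prod_erase_mul _ _ (Finset.mem_univ l)).symm
  rw [this, mul_assoc]
  exact RQ.mul_mem (RQ.prod_mem fun l' _ => (hsS l').1) (hs l)

/-- A good element of `RQ` is either a unit of `R'` or good for `R'`. -/
theorem good_or_unit (w : K) (hw0 : w ≠ 0) (hwR : w ∈ RQ) (hwO : w ∈ O) (hwinv : w⁻¹ ∈ O)
    (hdec : ∀ r ∈ RQ, ∃ c ∈ K0, ∃ r' ∈ RQ, r = c + w * r') :
    w⁻¹ ∈ FA_S18_U_R' O red RQ ∨ FA_S18_U_Good O red (FA_S18_U_R' O red RQ) K0 w := by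
  by_cases h : ∃ v : O, (v : K) ∈ FA_S18_U_R' O red RQ ∧ red ⟨w, hwO⟩ * red v = 1
  · left
    obtain ⟨v, ⟨s₁, ⟨hs₁R, s₁', hs₁e, t₁, ht₁R, hst₁⟩, hs₁v⟩, hwv⟩ := h
    subst hs₁e
    -- `r = w * (s₁ v) ∈ S`
    refine ⟨w * ((s₁' : K) * v), ⟨RQ.mul_mem hwR hs₁v, ⟨w, hwO⟩ * (s₁' * v), rfl, t₁, ht₁R, ?_⟩, ?_⟩
    · rw [map_mul, map_mul, mul_comm (red s₁'), ← mul_assoc, hwv, one_mul, hst₁]
    · have : w * ((s₁' : K) * v) * w⁻¹ = (s₁' : K) * v := by field_simp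
      rw [this]; exact hs₁v
  · right
    push Not at h
    refine ⟨hw0, FA_S18_U_RQ_le_R' O red RQ hwR, hwO, hwinv, ?_, ?_⟩
    · intro w' v hw' hv
      have : w' = ⟨w, hwO⟩ := Subtype.ext hw'
      rw [this]
      exact h v hv
    · rintro u ⟨s, ⟨hsR, s', hse, t, htR, hst⟩, hsu⟩
      subst hse
      obtain ⟨kr, hkr, r', hr', hre⟩ := hdec _ hsu
      obtain ⟨ks, hks, s'', hs'', hse⟩ := hdec _ hsR
      have hs0 : (s' : K) ≠ 0 := by
        intro h0
        have : s' = 0 := Subtype.ext h0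
        rw [this, map_zero, zero_mul] at hst
        exact zero_ne_one hst
      have hks0 : ks ≠ 0 := by
        intro h0
        rw [h0, zero_add] at hse
        have hs''O : s'' ∈ O := by
          have : s'' = (s' : K) * w⁻¹ := by rw [hse]; field_simp
          rw [this]; exact O.mul_mem _ _ s'.2 hwinv
        apply h (⟨s'', hs''O⟩ * t)
          (FA_S18_U_RQ_le_R' O red RQ (RQ.mul_mem hs'' htR))
        rw [map_mul, ← mul_assoc, ← map_mul]
        have : (⟨w, hwO⟩ * ⟨s'', hs''O⟩ : O) = s' := Subtype.ext hse.symm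
        rw [this, hst]
      refine ⟨kr * ks⁻¹, K0.mul_mem hkr (K0.inv_mem hks),
        (r' * ks - kr * s'') * ks⁻¹ * (s' : K)⁻¹, ?_, ?_⟩
      · refine ⟨s', ⟨hsR, s', rfl, t, htR, hst⟩, ?_⟩
        have : (s' : K) * ((r' * ks - kr * s'') * ks⁻¹ * (s' : K)⁻¹)
            = (r' * ks - kr * s'') * ks⁻¹ := by field_simp
        rw [this]
        exact RQ.mul_mem (RQ.sub_mem (RQ.mul_mem hr' (H.K0_le _ hks))
          (RQ.mul_mem (H.K0_le _ hkr) hs'')) (H.K0_le _ (K0.inv_mem hks))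
      · have hu : u = ((s' : K) * u) * (s' : K)⁻¹ := by field_simp
        rw [hu, hre]
        have hs'e : (s' : K)⁻¹ = (ks + w * s'')⁻¹ := by rw [← hse]
        rw [hs'e]
        have hne : ks + w * s'' ≠ 0 := by rw [← hse]; exact hs0
        field_simp
        ring

/-- Factorisation in `R'` into good elements. -/
theorem fact' (g : K) (hg : g ∈ FA_S18_U_R' O red RQ) (hg0 : g ≠ 0) :
    ∃ ws : List K, (∀ w ∈ ws, FA_S18_U_Good O red (FA_S18_U_R' O red RQ) K0 w) ∧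
      ∃ u ∈ FA_S18_U_R' O red RQ, u⁻¹ ∈ FA_S18_U_R' O red RQ ∧ g = u * ws.prod := by
  obtain ⟨s, hsS, hsg⟩ := hg
  have hs0 := FA_S18_U_S_ne_zero hsS
  obtain ⟨u₀, ws₀, hfac, hu₀R, hu₀inv, hws₀⟩ := H.points _ hsg (mul_ne_zero hs0 hg0)
  -- split the list
  have hsplit : ∀ l : List K, (∀ w ∈ l, w ≠ 0 ∧ w ∈ RQ ∧ w ∈ O ∧ w⁻¹ ∈ O ∧
      ∀ r ∈ RQ, ∃ c ∈ K0, ∃ r' ∈ RQ, r = c + w * r') →
      ∃ ws : List K, (∀ w ∈ ws, FA_S18_U_Good O red (FA_S18_U_R' O red RQ) K0 w) ∧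
        ∃ v ∈ FA_S18_U_R' O red RQ, v⁻¹ ∈ FA_S18_U_R' O red RQ ∧ l.prod = v * ws.prod := by
    intro l
    induction l with
    | nil =>
      intro _
      exact ⟨[], by simp, 1, Subring.one_mem _, by simpa using Subring.one_mem _, by simp⟩
    | cons a l ih =>
      intro hl
      obtain ⟨ws, hws, v, hv, hvinv, hprod⟩ := ih (fun w hw => hl w (List.mem_cons_of_mem _ hw))
      obtain ⟨ha0, haR, haO, hainv, hadec⟩ := hl a List.mem_cons_self
      rcases H.good_or_unit a ha0 haR haO hainv hadec with h | h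
      · refine ⟨ws, hws, a * v, Subring.mul_mem _ (FA_S18_U_RQ_le_R' O red RQ haR) hv, ?_, ?_⟩
        · rw [mul_inv]; exact Subring.mul_mem _ h hvinv
        · rw [List.prod_cons, hprod]; ring
      · refine ⟨a :: ws, ?_, v, hv, hvinv, ?_⟩
        · intro w hw
          rcases List.mem_cons.mp hw with rfl | hw
          · exact h
          · exact hws w hw
        · rw [List.prod_cons, List.prod_cons, hprod]; ring
  obtain ⟨ws, hws, v, hv, hvinv, hprod⟩ := hsplit ws₀ hws₀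
  have hsinv : s⁻¹ ∈ FA_S18_U_R' O red RQ := ⟨s, hsS, by
    rw [mul_inv_cancel₀ hs0]; exact RQ.one_mem⟩
  refine ⟨ws, hws, s⁻¹ * u₀ * v, ?_, ?_, ?_⟩
  · exact Subring.mul_mem _ (Subring.mul_mem _ hsinv (FA_S18_U_RQ_le_R' O red RQ hu₀R)) hv
  · rw [mul_inv, mul_inv, inv_inv]
    exact Subring.mul_mem _ (Subring.mul_mem _ (FA_S18_U_RQ_le_R' O red RQ hsS.1)
      (FA_S18_U_RQ_le_R' O red RQ hu₀inv)) hvinv
  · have : g = s⁻¹ * (s * g) := by field_simp
    rw [this, hfac, hprod]; ring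

/-! ### The reduction of the chart as a module over `Rb` -/

theorem isFractionRing : IsFractionRing (FA_S18_U_Rb O red RQ) κ := by
  apply IsFractionRing.of_field
  intro z
  obtain ⟨r, s, hr, hs, hs0, h⟩ := H.frac z
  refine ⟨⟨r, hr⟩, ⟨s, hs⟩, ?_⟩
  show z = r / s
  rw [← h]; field_simp

theorem isIntegrallyClosed : IsIntegrallyClosed (FA_S18_U_Rb O red RQ) := by
  haveI := H.isFractionRing
  rw [isIntegrallyClosed_iff κ]
  intro x hx
  exact ⟨⟨x, H.ic x hx⟩, rfl⟩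

/-- The reduction of `BQ ∩ O'`, an `Rb`-submodule of `κ'`. -/
def Cmod (H : FA_S18_U_GlueHyp O O' red red' RQ K0 BQ) :
    Submodule (FA_S18_U_Rb O red RQ) κ' where
  carrier := {x | ∃ y : O', (y : K') ∈ BQ ∧ red' y = x}
  add_mem' := by
    rintro a b ⟨y, hy, rfl⟩ ⟨z, hz, rfl⟩
    exact ⟨y + z, BQ.add_mem hy hz, map_add _ _ _⟩
  zero_mem' := ⟨0, BQ.zero_mem, map_zero _⟩
  smul_mem' := by
    rintro c x ⟨y, hy, rfl⟩
    obtain ⟨a, ha, rfl⟩ := H.rb_surj c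
    refine ⟨⟨algebraMap K K' a, H.incl a⟩ * y, H.smul_mem _ ha _ hy, ?_⟩
    rw [H.red_smul a y _ rfl, Algebra.smul_def]
    rfl

theorem mem_Cmod {x : κ'} : x ∈ H.Cmod ↔ ∃ y : O', (y : K') ∈ BQ ∧ red' y = x := Iff.rfl

/-- **Glueing theorem**: every element of `κ'` integral over `Rb = red (RQ ∩ O)` is the reduction
of an element of `BQ ∩ O'`. -/
theorem FA_S18_U_glue [Algebra.IsSeparable K K'] [FiniteDimensional κ κ']
    [Algebra.IsSeparable κ κ'] (x : κ') (hx : IsIntegral (FA_S18_U_Rb O red RQ) x) :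
    ∃ y : O', (y : K') ∈ BQ ∧ red' y = x := by
  classical
  haveI : IsPrincipalIdealRing (FA_S18_U_Rb O red RQ) := H.isPrincipalIdealRing
  haveI : IsFractionRing (FA_S18_U_Rb O red RQ) κ := H.isFractionRing
  haveI : IsIntegrallyClosed (FA_S18_U_Rb O red RQ) := H.isIntegrallyClosed
  -- `C` is a finite free module
  have hCle : H.Cmod ≤ Subalgebra.toSubmodule (integralClosure (FA_S18_U_Rb O red RQ) κ') := by
    rintro c ⟨y, hy, rfl⟩
    exact H.int y hy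
  haveI hN : IsNoetherian (FA_S18_U_Rb O red RQ) (integralClosure (FA_S18_U_Rb O red RQ) κ') :=
    IsIntegralClosure.isNoetherian (FA_S18_U_Rb O red RQ) κ κ'
      (integralClosure (FA_S18_U_Rb O red RQ) κ')
  haveI hN' : IsNoetherian (FA_S18_U_Rb O red RQ)
      (Subalgebra.toSubmodule (integralClosure (FA_S18_U_Rb O red RQ) κ')) := hN
  haveI : IsNoetherian (FA_S18_U_Rb O red RQ) H.Cmod := isNoetherian_of_le hCle
  haveI : Module.Finite (FA_S18_U_Rb O red RQ) H.Cmod := inferInstance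
  haveI : Module.Free (FA_S18_U_Rb O red RQ) H.Cmod := Module.free_of_finite_type_torsion_free'
  let cbC := Module.Free.chooseBasis (FA_S18_U_Rb O red RQ) H.Cmod
  -- the `κ`-basis
  have hli : LinearIndependent κ (fun i => ((cbC i : H.Cmod) : κ')) := by
    rw [← LinearIndependent.iff_fractionRing (FA_S18_U_Rb O red RQ) κ]
    exact cbC.linearIndependent.map' H.Cmod.subtype (Submodule.ker_subtype _)
  have hsum : ∀ (c : κ') (hc : c ∈ H.Cmod),
      c = ∑ i, ((cbC.repr ⟨c, hc⟩ i : FA_S18_U_Rb O red RQ) : κ) • ((cbC i : H.Cmod) : κ') := by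
    intro c hc
    have h1 := cbC.sum_repr ⟨c, hc⟩
    have h2 := congrArg (fun z : H.Cmod => (z : κ')) h1
    simp only [Submodule.coe_sum, Submodule.coe_smul] at h2
    exact h2.symm
  have hsp : ⊤ ≤ Submodule.span κ (Set.range (fun i => ((cbC i : H.Cmod) : κ'))) := by
    intro t _
    obtain ⟨c, s, hcB, hsR, hs0, hts⟩ := H.span t
    have hcC : red' c ∈ H.Cmod := ⟨c, hcB, rfl⟩
    have ht : t = (red s)⁻¹ • red' c := by
      rw [← hts, Algebra.smul_def, ← mul_assoc, ← map_mul, inv_mul_cancel₀ hs0, map_one,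
        one_mul]
    rw [ht]
    apply Submodule.smul_mem
    rw [hsum _ hcC]
    exact Submodule.sum_mem _ fun i _ =>
      Submodule.smul_mem _ _ (Submodule.subset_span ⟨i, rfl⟩)
  let cb : Basis (Module.Free.ChooseBasisIndex (FA_S18_U_Rb O red RQ) H.Cmod) κ κ' :=
    Basis.mk hli hsp
  have hcb : ∀ i, cb i = ((cbC i : H.Cmod) : κ') := fun i => by
    simp [cb, Basis.mk_apply]
  have hrepr : ∀ (c : κ') (hc : c ∈ H.Cmod) i,
      cb.repr c i = ((cbC.repr ⟨c, hc⟩ i : FA_S18_U_Rb O red RQ) : κ) := by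
    intro c hc i
    have h1 := hsum c hc
    have h2 : c = ∑ i, ((cbC.repr ⟨c, hc⟩ i : FA_S18_U_Rb O red RQ) : κ) • cb i := by
      simp only [hcb]; exact h1
    conv_lhs => rw [h2]
    rw [cb.repr_sum_self]
  -- lifts
  have hlift : ∀ i, ∃ y : O', (y : K') ∈ BQ ∧ red' y = ((cbC i : H.Cmod) : κ') :=
    fun i => (cbC i).2
  choose b hbB hbred using hlift
  -- the hypotheses of the core
  have HU : FA_S18_U_Hyp O O' red red' (FA_S18_U_R' O red RQ) K0
      (FA_S18_U_B' O red RQ BQ H.smul_mem) cb b :=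
    { card := by rw [← H.deg, Module.finrank_eq_card_basis cb]
      red_max := H.red_max
      incl := H.incl
      compat := H.compat
      b_red := fun i => by rw [hbred, hcb]
      b_mem := fun i => FA_S18_U_BQ_le_B' O red RQ BQ H.smul_mem (hbB i)
      redB := by
        intro y' hy' i
        obtain ⟨y₀, hy₀, hy₀e⟩ := H.red_B' y' hy'
        have hc : red' y' ∈ H.Cmod := ⟨y₀, hy₀, hy₀e⟩
        rw [hrepr _ hc i]
        obtain ⟨r, hr, hre⟩ := FA_S18_U_mem_Rb.mp (cbC.repr ⟨red' y', hc⟩ i).2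
        exact ⟨r, FA_S18_U_RQ_le_R' O red RQ hr, hre⟩
      K0_le := fun k hk => FA_S18_U_RQ_le_R' O red RQ (H.K0_le k hk)
      smul_mem := H.smul_mem'
      tr_mem := H.tr_mem'
      dual := H.dual'
      fact := H.fact' }
  -- traces of `x * cb j` lie in `Rb`
  have hcbint : ∀ j, IsIntegral (FA_S18_U_Rb O red RQ) (cb j) := fun j => by
    rw [hcb, ← hbred]; exact H.int _ (hbB j)
  have htr : ∀ j, ∃ s : O, (s : K) ∈ FA_S18_U_R' O red RQ ∧
      red s = Algebra.trace κ κ' (x * cb j) := by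
    intro j
    have h1 : IsIntegral (FA_S18_U_Rb O red RQ) (Algebra.trace κ κ' (x * cb j)) :=
      Algebra.isIntegral_trace (hx.mul (hcbint j))
    obtain ⟨r, hr, hre⟩ := FA_S18_U_mem_Rb.mp (H.ic _ h1)
    exact ⟨r, FA_S18_U_RQ_le_R' O red RQ hr, hre⟩
  obtain ⟨y, hyB, hyred⟩ := HU.FA_S18_U_lift x htr
  obtain ⟨y₀, hy₀, hy₀e⟩ := H.red_B' y hyB
  exact ⟨y₀, hy₀, hy₀e.trans hyred⟩

end FA_S18_U_GlueHyp

end FA_S18
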