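import Fermat.Agent.S18.CuspBase
import Fermat.Agent.S18.UnimodGlue
import Fermat.Agent.S18.GaussBasis

/-!
# S18, leaf N / CUSP, sub-leaf CU-U (abstract part 2): the Gauss valuation on `Kq(x)`

`A ⊂ Kq` a valuation ring with residue map `res : A → k`, `O ⊂ K` a valuation ring with reduction
`red : O → κ`, `x ∈ O` with `x̄ = red x` transcendental over `k` and generating `κ`
(bundle `FA_S18_CUU_Hyp`).  For `d ∈ A[X]` with `d̄ ≠ 0` and the chart
`RQ = Kq[x][1/d(x)]`: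

* `FA_S18_CUU_Hyp.gauss` : `P(x) ∈ O` implies `P ∈ A[X]` (Gauss lemma).
* `FA_S18_CUU_Hyp.Rb_eq` : `red (RQ ∩ O) = k[x̄][1/d̄(x̄)]`.
* `FA_S18_CUU_Hyp.points`, `.ic`, `.frac`, `.K0_le` : the fields `points`, `ic`, `frac`, `K0_le`
  of `FA_S18_U_GlueHyp` for `RQ`, `K0 = Kq`.
-/

set_option autoImplicit false
set_option linter.style.haveILetI false
set_option linter.unusedSectionVars false

noncomputable section

namespace FA_S18

open Polynomial Fermat.Agent.S18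

variable {Kq : Type*} [Field Kq] {K : Type*} [Field K] [Algebra Kq K]
  {k : Type*} [Field k] {κ : Type*} [Field κ] [Algebra k κ]

/-- The hypotheses on the Gauss valuation of `Kq(x)`. -/
structure FA_S18_CUU_Hyp (A : ValuationSubring Kq) (res : A →+* k)
    (O : ValuationSubring K) (red : O →+* κ) (x : O) : Prop where
  res_surj : Function.Surjective res
  res_max : ∀ a : A, a ∈ IsLocalRing.maximalIdeal A → res a = 0
  const_mem : ∀ a : A, algebraMap Kq K (a : Kq) ∈ O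
  compat : ∀ (a : A) (y : O), (y : K) = algebraMap Kq K (a : Kq) →
    red y = algebraMap k κ (res a)
  mem_A : ∀ c : Kq, algebraMap Kq K c ∈ O → c ∈ A
  red_max : ∀ a : O, (a : K)⁻¹ ∉ O → red a = 0
  xbar_tr : Transcendental k (red x)
  genk : ∀ t : κ, ∃ P Q : k[X], Q ≠ 0 ∧ t * aeval (red x) Q = aeval (red x) P

/-- constants, as a ring hom `A → O` -/
def FA_S18_CUU_toO (A : ValuationSubring Kq) (O : ValuationSubring K)
    (hc : ∀ a : A, algebraMap Kq K (a : Kq) ∈ O) : A →+* O where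
  toFun a := ⟨algebraMap Kq K (a : Kq), hc a⟩
  map_one' := Subtype.ext (by simp)
  map_mul' a b := Subtype.ext (by simp)
  map_zero' := Subtype.ext (by simp)
  map_add' a b := Subtype.ext (by simp)

namespace FA_S18_CUU_Hyp

variable {A : ValuationSubring Kq} {res : A →+* k} {O : ValuationSubring K} {red : O →+* κ}
  {x : O} (H : FA_S18_CUU_Hyp A res O red x)
include H

/-- `P(x)` for `P ∈ A[X]`, as an element of `O`. -/
def evO (_ : FA_S18_CUU_Hyp A res O red x) (P : A[X]) : O :=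
  Polynomial.eval₂ (FA_S18_CUU_toO A O (fun a => ‹FA_S18_CUU_Hyp A res O red x›.const_mem a)) x P

theorem evO_coe (P : A[X]) : ((H.evO P : O) : K) = aeval (x : K) (P.map A.subtype) := by
  have h1 := Polynomial.hom_eval₂ P (FA_S18_CUU_toO A O H.const_mem) O.subtype x
  rw [aeval_def, Polynomial.eval₂_map]
  exact h1

theorem red_evO (P : A[X]) : red (H.evO P) = aeval (red x) (P.map res) := by
  have h1 := Polynomial.hom_eval₂ P (FA_S18_CUU_toO A O H.const_mem) red x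
  rw [aeval_def, Polynomial.eval₂_map]
  have h2 : red.comp (FA_S18_CUU_toO A O H.const_mem) = (algebraMap k κ).comp res := by
    ext a
    exact H.compat a _ rfl
  rw [← h2]
  exact h1

theorem inv_mem_of_red_ne (a : O) (ha : red a ≠ 0) : (a : K)⁻¹ ∈ O := by
  by_contra h
  exact ha (H.red_max a h)

theorem red_evO_ne {P : A[X]} (hP : P.map res ≠ 0) : red (H.evO P) ≠ 0 := by
  rw [H.red_evO]
  intro h0
  exact hP ((transcendental_iff.mp H.xbar_tr) _ h0)

theorem evO_ne {P : A[X]} (hP : P.map res ≠ 0) : aeval (x : K) (P.map A.subtype) ≠ 0 := by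
  intro h0
  apply H.red_evO_ne hP
  have : H.evO P = 0 := Subtype.ext (by rw [H.evO_coe, h0]; rfl)
  rw [this, map_zero]

theorem evO_inv_mem {P : A[X]} (hP : P.map res ≠ 0) :
    (aeval (x : K) (P.map A.subtype))⁻¹ ∈ O := by
  rw [← H.evO_coe]
  exact H.inv_mem_of_red_ne _ (H.red_evO_ne hP)

/-- **Gauss lemma**: a polynomial in `x` lying in `O` has coefficients in `A`. -/
theorem gauss (P : Kq[X]) (hP : aeval (x : K) P ∈ O) : ∃ PA : A[X], PA.map A.subtype = P := by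
  by_cases hP0 : P = 0
  · exact ⟨0, by rw [hP0, Polynomial.map_zero]⟩
  obtain ⟨c, hc, P', hP', ⟨_, hP'r⟩⟩ :=
    FA_S18_B_content_poly A res (fun _ : Unit => P) ⟨(), hP0⟩
  have h1 : aeval (x : K) ((P' ()).map A.subtype) = algebraMap Kq K c⁻¹ * aeval (x : K) P := by
    rw [hP' (), map_mul, aeval_C]
  have hinv := H.evO_inv_mem hP'r
  have hne := H.evO_ne hP'r
  have hcK : algebraMap Kq K c ≠ 0 := by rwa [Ne, map_eq_zero]
  have h2 : algebraMap Kq K c
      = aeval (x : K) P * (aeval (x : K) ((P' ()).map A.subtype))⁻¹ := by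
    rw [h1, map_inv₀]
    have hPx : aeval (x : K) P ≠ 0 := by
      intro h0
      rw [h0, mul_zero] at h1
      exact hne h1
    field_simp
  have hcO : algebraMap Kq K c ∈ O := by
    rw [h2]
    exact O.mul_mem _ _ hP hinv
  have hcA : c ∈ A := H.mem_A c hcO
  refine ⟨C (⟨c, hcA⟩ : A) * P' (), ?_⟩
  rw [Polynomial.map_mul, Polynomial.map_C, hP' (), ← mul_assoc, ← map_mul]
  show C (c * c⁻¹) * P = P
  rw [mul_inv_cancel₀ hc, map_one, one_mul]

theorem x_ne (β : Kq) : (x : K) ≠ algebraMap Kq K β := by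
  intro h
  have hβO : algebraMap Kq K β ∈ O := h ▸ x.2
  have hβA : β ∈ A := H.mem_A β hβO
  have h1 : red x = algebraMap k κ (res ⟨β, hβA⟩) := H.compat ⟨β, hβA⟩ x h
  have h2 : aeval (red x) (X - C (res ⟨β, hβA⟩)) = 0 := by
    rw [map_sub, aeval_X, aeval_C, h1, sub_self]
  exact X_sub_C_ne_zero _ ((transcendental_iff.mp H.xbar_tr) _ h2)

theorem good1 (β : Kq) (hβ : β ∈ A) :
    ((x : K) - algebraMap Kq K β) ∈ O ∧ ((x : K) - algebraMap Kq K β)⁻¹ ∈ O := by
  have e : ((H.evO (X - C (⟨β, hβ⟩ : A)) : O) : K) = (x : K) - algebraMap Kq K β := by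
    rw [H.evO_coe, Polynomial.map_sub, Polynomial.map_X, Polynomial.map_C, map_sub, aeval_X,
      aeval_C]
    rfl
  have hne : (X - C (⟨β, hβ⟩ : A)).map res ≠ 0 := by
    rw [Polynomial.map_sub, Polynomial.map_X, Polynomial.map_C]
    exact X_sub_C_ne_zero _
  refine ⟨e ▸ (H.evO _).2, ?_⟩
  rw [← e]
  exact H.inv_mem_of_red_ne _ (H.red_evO_ne hne)

theorem good2 (β : Kq) (hβ : β ∉ A) :
    (1 - algebraMap Kq K β⁻¹ * (x : K)) ∈ O ∧ (1 - algebraMap Kq K β⁻¹ * (x : K))⁻¹ ∈ O := by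
  have hβi : β⁻¹ ∈ A := (A.mem_or_inv_mem β).resolve_left hβ
  have hβ0 : β ≠ 0 := fun h0 => hβ (h0 ▸ A.zero_mem)
  have hm : (⟨β⁻¹, hβi⟩ : A) ∈ IsLocalRing.maximalIdeal A := by
    rw [IsLocalRing.mem_maximalIdeal, mem_nonunits_iff]
    intro hunit
    apply hβ
    obtain ⟨b, hb⟩ := isUnit_iff_exists_inv.mp hunit
    have h1 : β⁻¹ * (b : Kq) = 1 := by
      have := congrArg Subtype.val hb
      simpa using this
    have h2 : (b : Kq) = β := by
      have h3 := congrArg (fun t => β * t) h1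
      simp only [← mul_assoc, mul_inv_cancel₀ hβ0, one_mul, mul_one] at h3
      exact h3
    rw [← h2]
    exact b.2
  have e : ((H.evO (1 - C (⟨β⁻¹, hβi⟩ : A) * X) : O) : K)
      = 1 - algebraMap Kq K β⁻¹ * (x : K) := by
    rw [H.evO_coe, Polynomial.map_sub, Polynomial.map_one, Polynomial.map_mul, Polynomial.map_X,
      Polynomial.map_C, map_sub, map_one, map_mul, aeval_X, aeval_C]
    rfl
  have hne : (1 - C (⟨β⁻¹, hβi⟩ : A) * X).map res ≠ 0 := by
    rw [Polynomial.map_sub, Polynomial.map_one, Polynomial.map_mul, Polynomial.map_X,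
      Polynomial.map_C, H.res_max _ hm, map_zero, zero_mul, sub_zero]
    exact one_ne_zero
  refine ⟨e ▸ (H.evO _).2, ?_⟩
  rw [← e]
  exact H.inv_mem_of_red_ne _ (H.red_evO_ne hne)

/-- **K0_le** -/
theorem K0_le (d : Kq[X]) : ∀ c ∈ (algebraMap Kq K).fieldRange, c ∈ FA_S18_CUU_RQ (x : K) d := by
  rintro _ ⟨c, rfl⟩
  exact FA_S18_CUU_const_mem _ _ c

/-- **points** -/
theorem points [IsAlgClosed Kq] (dA : A[X]) (hd : dA.map res ≠ 0) :
    ∀ g ∈ FA_S18_CUU_RQ (x : K) (dA.map A.subtype), g ≠ 0 → ∃ (u : K) (ws : List K),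
      g = u * ws.prod ∧ u ∈ FA_S18_CUU_RQ (x : K) (dA.map A.subtype) ∧
      u⁻¹ ∈ FA_S18_CUU_RQ (x : K) (dA.map A.subtype) ∧
      ∀ w ∈ ws, w ≠ 0 ∧ w ∈ FA_S18_CUU_RQ (x : K) (dA.map A.subtype) ∧ w ∈ O ∧ w⁻¹ ∈ O ∧
        ∀ r ∈ FA_S18_CUU_RQ (x : K) (dA.map A.subtype),
          ∃ c ∈ (algebraMap Kq K).fieldRange,
            ∃ r' ∈ FA_S18_CUU_RQ (x : K) (dA.map A.subtype), r = c + w * r' := by
  intro g hg hg0
  exact FA_S18_CUU_points_of A O (x : K) (dA.map A.subtype) (H.evO_ne hd) H.x_ne H.good1 H.good2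
    g hg hg0

/-- **The reduction of the chart**: `red (RQ ∩ O) = k[x̄][1/d̄(x̄)]`. -/
theorem Rb_eq (dA : A[X]) (hd : dA.map res ≠ 0) :
    FA_S18_U_Rb O red (FA_S18_CUU_RQ (x : K) (dA.map A.subtype))
      = FA_S18_CUU_RQ (red x) (dA.map res) := by
  have hdx := H.evO_ne hd
  have hdr := H.red_evO_ne hd
  ext t
  rw [FA_S18_U_mem_Rb]
  constructor
  · rintro ⟨r, ⟨P, m, hP⟩, rfl⟩
    have hPO : aeval (x : K) P ∈ O := by
      rw [← hP, ← H.evO_coe]
      exact O.mul_mem _ _ r.2 (pow_mem (H.evO dA).2 m)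
    obtain ⟨PA, rfl⟩ := H.gauss P hPO
    refine ⟨PA.map res, m, ?_⟩
    rw [← H.red_evO, ← H.red_evO, ← map_pow, ← map_mul]
    congr 1
    apply Subtype.ext
    show (r : K) * ((H.evO dA : O) : K) ^ m = ((H.evO PA : O) : K)
    rw [H.evO_coe, H.evO_coe, hP]
  · rintro ⟨P, m, hP⟩
    obtain ⟨PA, rfl⟩ := Polynomial.map_surjective res H.res_surj P
    have hinv : ((H.evO dA : O) : K)⁻¹ ∈ O := H.inv_mem_of_red_ne _ hdr
    have hr : ((H.evO PA : O) : K) * (((H.evO dA : O) : K)⁻¹) ^ m ∈ O :=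
      O.mul_mem _ _ (H.evO PA).2 (pow_mem hinv m)
    refine ⟨⟨_, hr⟩, ?_, ?_⟩
    · show ((H.evO PA : O) : K) * (((H.evO dA : O) : K)⁻¹) ^ m ∈ _
      rw [H.evO_coe, H.evO_coe]
      exact Subring.mul_mem _ (FA_S18_CUU_aeval_mem _ _ _)
        (Subring.pow_mem _ (FA_S18_CUU_inv_d_mem _ _ hdx) m)
    · have h1 : (⟨_, hr⟩ : O) * (H.evO dA) ^ m = H.evO PA := by
        apply Subtype.ext
        show ((H.evO PA : O) : K) * (((H.evO dA : O) : K)⁻¹) ^ m * ((H.evO dA : O) : K) ^ m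
          = ((H.evO PA : O) : K)
        rw [H.evO_coe dA, mul_assoc, ← mul_pow, inv_mul_cancel₀ hdx, one_pow, mul_one]
      have h2 := congrArg red h1
      rw [map_mul, map_pow, H.red_evO, H.red_evO] at h2
      have h3 : (aeval (red x) (dA.map res)) ^ m ≠ 0 := by
        rw [← H.red_evO]
        exact pow_ne_zero m hdr
      exact mul_right_cancel₀ h3 (h2.trans hP.symm)

/-- **frac** -/
theorem frac (dA : A[X]) (hd : dA.map res ≠ 0) (t : κ) :
    ∃ r s : κ, r ∈ FA_S18_U_Rb O red (FA_S18_CUU_RQ (x : K) (dA.map A.subtype)) ∧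
      s ∈ FA_S18_U_Rb O red (FA_S18_CUU_RQ (x : K) (dA.map A.subtype)) ∧ s ≠ 0 ∧ t * s = r := by
  rw [H.Rb_eq dA hd]
  exact FA_S18_CUU_frac_of (red x) (dA.map res) H.xbar_tr H.genk t

/-- **ic** -/
theorem ic (dA : A[X]) (hd : dA.map res ≠ 0) (t : κ)
    (ht : IsIntegral (FA_S18_U_Rb O red (FA_S18_CUU_RQ (x : K) (dA.map A.subtype))) t) :
    t ∈ FA_S18_U_Rb O red (FA_S18_CUU_RQ (x : K) (dA.map A.subtype)) := by
  have key : ∀ (S : Subring κ), S = FA_S18_CUU_RQ (red x) (dA.map res) →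
      IsIntegral S t → t ∈ S := by
    intro S hS
    subst hS
    exact FA_S18_CUU_ic_of (red x) (dA.map res) H.xbar_tr H.genk hd t
  exact key _ (H.Rb_eq dA hd) ht

end FA_S18_CUU_Hyp

end FA_S18
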