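import Mathlib
import Fermat.Agent.S18.CuspDualB

/-!
# S18, leaf N, sub-leaf CUSP, part D (continued): `tr_mem`, `fg`, `dual` for `(RQ, BQ)`

`RQ = FA_S18_CUU_RQ x₀ s ⊂ L = K(x₀)`, `BQ = FA_S18_CUDB_BQ K x s ⊂ F`, `x = algebraMap L F x₀`.
-/

set_option autoImplicit false
set_option linter.style.haveILetI false
set_option linter.unusedSectionVars false

noncomputable section

open AlgebraicCurve IsDedekindDomain IntermediateField WithZero Polynomial
open scoped IntermediateField.algebraAdjoinAdjoin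

namespace Fermat.Agent.S18

variable {K F : Type*} [Field K] [Field F] [Algebra K F]

theorem FA_S18_CUDB_coe_aeval (x : F) (q : K[X]) :
    ((aeval (FA_S18_CUD_x0 K x) q : Algebra.adjoin K {x}) : F) = aeval x q := by
  have : ((aeval (FA_S18_CUD_x0 K x) q : Algebra.adjoin K {x}) : F) =
      algebraMap (Algebra.adjoin K {x}) F (aeval (FA_S18_CUD_x0 K x) q) := rfl
  rw [this, ← Polynomial.aeval_algebraMap_apply]
  rfl

/-- Every element of `K[x]` is a polynomial in the generator. -/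
theorem FA_S18_CUDB_exists_aeval (x : F) (a : Algebra.adjoin K {x}) :
    ∃ P : K[X], a = aeval (FA_S18_CUD_x0 K x) P := by
  have ha : (a : F) ∈ (aeval x : K[X] →ₐ[K] F).range := by
    rw [← Algebra.adjoin_singleton_eq_range_aeval]
    exact a.2
  obtain ⟨P, hP⟩ := ha
  refine ⟨P, Subtype.ext ?_⟩
  rw [FA_S18_CUDB_coe_aeval]
  exact hP.symm

section Chart

variable [CharZero K] {x : F} (hx : Transcendental K x) [FiniteDimensional K⟮x⟯ F]
include hx

/-- The trace of an element of `BQ` lies in `RQ` (chart form). -/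
theorem FA_S18_CUDB_tr_chart (s : K[X]) (y : F) (N : ℕ)
    (hy : IsIntegral (Algebra.adjoin K {x}) (aeval x s ^ N * y)) :
    ∃ P : K[X], ((Algebra.trace ↥(K⟮x⟯) F y : ↥(K⟮x⟯)) : F) * aeval x s ^ N = aeval x P := by
  haveI : IsPrincipalIdealRing (Algebra.adjoin K {x}) := FA_RR.isPrincipalIdealRing_adjoin hx
  have h1 : IsIntegral (Algebra.adjoin K {x})
      (Algebra.trace ↥(K⟮x⟯) F (aeval x s ^ N * y)) :=
    Algebra.isIntegral_trace hy
  obtain ⟨a, ha⟩ := IsIntegrallyClosed.isIntegral_iff.mp h1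
  obtain ⟨P, rfl⟩ := FA_S18_CUDB_exists_aeval x a
  refine ⟨P, ?_⟩
  have hlin : Algebra.trace ↥(K⟮x⟯) F (aeval x s ^ N * y)
      = algebraMap (Algebra.adjoin K {x}) ↥(K⟮x⟯) (aeval (FA_S18_CUD_x0 K x) s ^ N) *
        Algebra.trace ↥(K⟮x⟯) F y := by
    have : aeval x s ^ N * y
        = (algebraMap (Algebra.adjoin K {x}) ↥(K⟮x⟯) (aeval (FA_S18_CUD_x0 K x) s ^ N)) • y := by
      rw [Algebra.smul_def]
      congr 1
      rw [← FA_S18_CUDB_coe_aeval x s]
      rfl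
    rw [this, map_smul, smul_eq_mul]
  rw [hlin] at ha
  have ha' := congrArg (Subtype.val) ha
  calc ((Algebra.trace ↥(K⟮x⟯) F y : ↥(K⟮x⟯)) : F) * aeval x s ^ N
      = ((aeval (FA_S18_CUD_x0 K x) s : Algebra.adjoin K {x}) : F) ^ N *
          ((Algebra.trace ↥(K⟮x⟯) F y : ↥(K⟮x⟯)) : F) := by
        rw [FA_S18_CUDB_coe_aeval, mul_comm]
    _ = _ := ha'.symm
    _ = aeval x P := by rw [← FA_S18_CUDB_coe_aeval x P]; rfl

/-- The integral closure of `K[x]` in `F` is finitely generated over `K[x]` (chart form). -/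
theorem FA_S18_CUDB_fg_chart :
    ∃ (m : ℕ) (g : Fin m → F), (∀ l, IsIntegral (Algebra.adjoin K {x}) (g l)) ∧
      ∀ z : F, IsIntegral (Algebra.adjoin K {x}) z →
        ∃ P : Fin m → K[X], z = ∑ l, aeval x (P l) * g l := by
  haveI := FA_RR.finite_chartRing hx
  obtain ⟨m, g, hg⟩ := Module.Finite.exists_fin (R := Algebra.adjoin K {x})
    (M := FA_RR.chartRing K x)
  refine ⟨m, fun l => (g l : F), fun l => (g l).2, ?_⟩
  intro z hz
  have hmem : (⟨z, hz⟩ : FA_RR.chartRing K x) ∈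
      Submodule.span (Algebra.adjoin K {x}) (Set.range g) := by
    rw [hg]; trivial
  obtain ⟨c, hc⟩ := (Submodule.mem_span_range_iff_exists_fun _).mp hmem
  choose P hP using fun l => FA_S18_CUDB_exists_aeval x (c l)
  refine ⟨P, ?_⟩
  have h := congrArg (fun t : FA_RR.chartRing K x => (t : F)) hc
  simp only at h
  rw [← h]
  rw [show ((∑ i, c i • g i : FA_RR.chartRing K x) : F) = ∑ i, ((c i • g i : FA_RR.chartRing K x) : F)
    from map_sum (algebraMap (FA_RR.chartRing K x) F) _ _]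
  refine Finset.sum_congr rfl fun l _ => ?_
  rw [← FA_S18_CUDB_coe_aeval x (P l), ← hP l]
  rfl

end Chart

section L

variable [IsAlgClosed K] [CharZero K]
variable {L : Type*} [Field L] [Algebra K L] [Algebra L F] [IsScalarTower K L F]
  [FiniteDimensional L F]

theorem FA_S18_CUDB_finite (x₀ : L)
    (hL : ∀ l : L, algebraMap L F l ∈ K⟮algebraMap L F x₀⟯) :
    FiniteDimensional ↥(K⟮algebraMap L F x₀⟯) F := by
  let e := FA_S18_CUD_equiv (K := K) (F := F) x₀ hL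
  have he : (algebraMap ↥(K⟮algebraMap L F x₀⟯) F).comp
      (e : L →+* ↥(K⟮algebraMap L F x₀⟯)) = algebraMap L F := by
    ext l
    rfl
  exact Module.Finite.of_equiv_equiv (A₁ := L) (B₁ := F) e (RingEquiv.refl F) (by
      rw [he]
      ext l
      rfl)

theorem FA_S18_CUDB_trace_coe (x₀ : L)
    (hL : ∀ l : L, algebraMap L F l ∈ K⟮algebraMap L F x₀⟯) (y : F) :
    ((Algebra.trace ↥(K⟮algebraMap L F x₀⟯) F y : ↥(K⟮algebraMap L F x₀⟯)) : F)
      = algebraMap L F (Algebra.trace L F y) := by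
  let e := FA_S18_CUD_equiv (K := K) (F := F) x₀ hL
  have he : (algebraMap ↥(K⟮algebraMap L F x₀⟯) F).comp
      (e : L →+* ↥(K⟮algebraMap L F x₀⟯)) = algebraMap L F := by
    ext l
    rfl
  have htr : e (Algebra.trace L F y) = Algebra.trace ↥(K⟮algebraMap L F x₀⟯) F y :=
    Algebra.trace_eq_of_ringEquiv e he y
  rw [← htr]
  rfl

/-- `tr_mem`. -/
theorem FA_S18_CUDB_tr_mem (x₀ : L) (hx : Transcendental K (algebraMap L F x₀))
    (hL : ∀ l : L, algebraMap L F l ∈ K⟮algebraMap L F x₀⟯) (s : K[X]) :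
    ∀ y ∈ FA_S18_CUDB_BQ K (algebraMap L F x₀) s,
      Algebra.trace L F y ∈ FA_S18.FA_S18_CUU_RQ x₀ s := by
  rintro y ⟨N, hy⟩
  haveI := FA_S18_CUDB_finite (K := K) (F := F) x₀ hL
  obtain ⟨P, hP⟩ := FA_S18_CUDB_tr_chart hx s y N hy
  refine ⟨P, N, ?_⟩
  apply (algebraMap L F).injective
  rw [map_mul, map_pow, FA_S18_CUDB_map_aeval, FA_S18_CUDB_map_aeval,
    ← FA_S18_CUDB_trace_coe x₀ hL y]
  exact hP

/-- `fg`. -/
theorem FA_S18_CUDB_fg (x₀ : L) (hx : Transcendental K (algebraMap L F x₀))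
    (hL : ∀ l : L, algebraMap L F l ∈ K⟮algebraMap L F x₀⟯) (s : K[X])
    (hs : aeval x₀ s ≠ 0) :
    ∃ (m : ℕ) (g : Fin m → F), (∀ l, g l ∈ FA_S18_CUDB_BQ K (algebraMap L F x₀) s) ∧
      ∀ y ∈ FA_S18_CUDB_BQ K (algebraMap L F x₀) s,
        ∃ r : Fin m → L, (∀ l, r l ∈ FA_S18.FA_S18_CUU_RQ x₀ s) ∧
          y = ∑ l, algebraMap L F (r l) * g l := by
  haveI := FA_S18_CUDB_finite (K := K) (F := F) x₀ hL
  obtain ⟨m, g, hg, hgen⟩ := FA_S18_CUDB_fg_chart (K := K) hx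
  refine ⟨m, g, fun l => FA_S18_CUDB_mem_of_isIntegral (hg l), ?_⟩
  rintro y ⟨N, hy⟩
  obtain ⟨P, hP⟩ := hgen _ hy
  have hs' : aeval (algebraMap L F x₀) s ≠ 0 := by
    rw [← FA_S18_CUDB_map_aeval]
    exact (map_ne_zero (algebraMap L F)).mpr hs
  refine ⟨fun l => aeval x₀ (P l) * (aeval x₀ s ^ N)⁻¹, fun l => ⟨P l, N, ?_⟩, ?_⟩
  · rw [mul_assoc, inv_mul_cancel₀ (pow_ne_zero N hs), mul_one]
  · have h1 : y = (aeval (algebraMap L F x₀) s ^ N)⁻¹ *
        (aeval (algebraMap L F x₀) s ^ N * y) := by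
      rw [← mul_assoc, inv_mul_cancel₀ (pow_ne_zero N hs'), one_mul]
    rw [h1, hP, Finset.mul_sum]
    refine Finset.sum_congr rfl fun l _ => ?_
    rw [map_mul, map_inv₀, map_pow, FA_S18_CUDB_map_aeval, FA_S18_CUDB_map_aeval]
    ring

/-- `dual`. -/
theorem FA_S18_CUDB_dual (x₀ : L) (hx : Transcendental K (algebraMap L F x₀))
    (hL : ∀ l : L, algebraMap L F l ∈ K⟮algebraMap L F x₀⟯) (s : K[X])
    (hsimple : ∀ β : K, s.eval β ≠ 0 → ∀ v : Place K F,
      0 < v.ord (algebraMap L F x₀ - algebraMap K F β) →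
        v.ord (algebraMap L F x₀ - algebraMap K F β) = 1) :
    ∀ y : F, (∀ b ∈ FA_S18_CUDB_BQ K (algebraMap L F x₀) s,
      Algebra.trace L F (y * b) ∈ FA_S18.FA_S18_CUU_RQ x₀ s) →
      y ∈ FA_S18_CUDB_BQ K (algebraMap L F x₀) s := by
  intro y hy
  refine FA_S18_CUD_dual x₀ hx hL s hsimple (FA_S18.FA_S18_CUU_RQ x₀ s)
    (FA_S18_CUDB_BQ K (algebraMap L F x₀) s) ?_ (fun y N h => ⟨N, h⟩) y hy
  rintro r ⟨P, m, hP⟩
  exact ⟨m, P, by rw [mul_comm]; exact hP⟩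

end L

end Fermat.Agent.S18

end
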