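import Fermat.Agent.S18.CuspBaseGauss

/-!
# S18, leaf N / CUSP, sub-leaf CU-U (instance, part 1): the Gauss valuation of a datum

For a Gauss datum `D : FA_S18_B_Datum A π F n` of a field `F ⊂ K((t))` (generator `x`):

* `FA_S18_CUU_OF D : ValuationSubring ↥F` : the Gauss valuation ring `O'` of `F`;
* `FA_S18_CUU_redF D hπ : O' →+* ↥(FA_S18_B_redField F hπ)` : the reduction `red'`;
* `FA_S18_CUU_xF D : ↥F`, `FA_S18_CUU_Kx D = K(x) ⊂ ↥F`, `FA_S18_CUU_O D = O' ∩ K(x)`;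
* `FA_S18_CUU_xb D hπ`, `FA_S18_CUU_kx D hπ = k(x̄)`, `FA_S18_CUU_red D hπ : O →+* k(x̄)`;
* `FA_S18_CUU_hyp D hπ` : the bundle `FA_S18_CUU_Hyp` for these objects.
-/

set_option autoImplicit false
set_option linter.style.haveILetI false
set_option linter.unusedSectionVars false

noncomputable section

namespace FA_S18

open Polynomial Fermat.Agent.S18 ModularCurve

variable {K : Type*} [Field K] {A : ValuationSubring K} {k : Type*} [Field k] {π : A →+* k}
  {F : IntermediateField K (LaurentSeries K)} {n : ℕ}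

/-- The Gauss valuation ring `O'` of `F`. -/
def FA_S18_CUU_OF (D : FA_S18_B_Datum A π F n) : ValuationSubring ↥F where
  carrier := {y | FA_S18_B_IsInt A π (y : LaurentSeries K)}
  mul_mem' := fun {a _} ha hb => FA_S18_B_isInt_mul (y := (a : LaurentSeries K)) ha hb
  one_mem' := FA_S18_B_isInt_one
  add_mem' := fun {a _} ha hb => FA_S18_B_isInt_add (y := (a : LaurentSeries K)) ha hb
  zero_mem' := FA_S18_B_isInt_zero
  neg_mem' := fun {a} ha => FA_S18_B_isInt_neg (y := (a : LaurentSeries K)) ha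
  mem_or_inv_mem' := fun y => FA_S18_B_isInt_or_inv D y.2

theorem FA_S18_CUU_mem_OF (D : FA_S18_B_Datum A π F n) {y : ↥F} :
    y ∈ FA_S18_CUU_OF D ↔ FA_S18_B_IsInt A π (y : LaurentSeries K) := Iff.rfl

/-- The reduction `red' : O' → κ'`, `κ' = FA_S18_B_redField F hπ`. -/
def FA_S18_CUU_redF (D : FA_S18_B_Datum A π F n) (hπ : Function.Surjective π) :
    ↥(FA_S18_CUU_OF D) →+* ↥(FA_S18_B_redField (A := A) F hπ) where
  toFun y := ⟨FA_S18_B_red A π ((y : ↥F) : LaurentSeries K),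
    ⟨((y : ↥F) : LaurentSeries K), (y : ↥F).2, y.2, rfl⟩⟩
  map_one' := Subtype.ext FA_S18_B_red_one
  map_mul' y y' := Subtype.ext (FA_S18_B_red_mul y.2 y'.2)
  map_zero' := Subtype.ext FA_S18_B_red_zero
  map_add' y y' := Subtype.ext (FA_S18_B_red_add y.2 y'.2)

theorem FA_S18_CUU_redF_coe (D : FA_S18_B_Datum A π F n) (hπ : Function.Surjective π)
    (y : ↥(FA_S18_CUU_OF D)) :
    ((FA_S18_CUU_redF D hπ y : ↥(FA_S18_B_redField (A := A) F hπ)) : LaurentSeries k)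
      = FA_S18_B_red A π ((y : ↥F) : LaurentSeries K) := rfl

theorem FA_S18_CUU_redF_surjective (D : FA_S18_B_Datum A π F n) (hπ : Function.Surjective π) :
    Function.Surjective (FA_S18_CUU_redF D hπ) := by
  rintro ⟨z, y, hy, hint, rfl⟩
  exact ⟨⟨⟨y, hy⟩, hint⟩, rfl⟩

/-- The generator `x` as an element of `F`. -/
def FA_S18_CUU_xF (D : FA_S18_B_Datum A π F n) : ↥F := ⟨coeffMap A.subtype D.x, D.x_mem⟩

/-- The rational subfield `K(x) ⊂ F`. -/
def FA_S18_CUU_Kx (D : FA_S18_B_Datum A π F n) : IntermediateField K ↥F :=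
  IntermediateField.adjoin K {FA_S18_CUU_xF D}

/-- The Gauss valuation ring `O = O' ∩ K(x)` of `K(x)`. -/
def FA_S18_CUU_O (D : FA_S18_B_Datum A π F n) : ValuationSubring ↥(FA_S18_CUU_Kx D) :=
  (FA_S18_CUU_OF D).comap (algebraMap ↥(FA_S18_CUU_Kx D) ↥F)

theorem FA_S18_CUU_mem_O (D : FA_S18_B_Datum A π F n) {a : ↥(FA_S18_CUU_Kx D)} :
    a ∈ FA_S18_CUU_O D ↔ FA_S18_B_IsInt A π (((a : ↥F)) : LaurentSeries K) := Iff.rfl

/-- `x` as an element of `O`. -/
def FA_S18_CUU_x (D : FA_S18_B_Datum A π F n) : ↥(FA_S18_CUU_O D) :=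
  ⟨⟨FA_S18_CUU_xF D, IntermediateField.mem_adjoin_simple_self K _⟩, FA_S18_B_isInt_iota D.x⟩

/-- The reduction `x̄` of the generator, as an element of `κ'`. -/
def FA_S18_CUU_xb (D : FA_S18_B_Datum A π F n) (hπ : Function.Surjective π) :
    ↥(FA_S18_B_redField (A := A) F hπ) :=
  ⟨coeffMap π D.x, ⟨coeffMap A.subtype D.x, D.x_mem, FA_S18_B_isInt_iota D.x,
    FA_S18_B_red_iota D.x⟩⟩

/-- The rational subfield `k(x̄) ⊂ κ'`. -/
def FA_S18_CUU_kx (D : FA_S18_B_Datum A π F n) (hπ : Function.Surjective π) :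
    IntermediateField k ↥(FA_S18_B_redField (A := A) F hπ) :=
  IntermediateField.adjoin k {FA_S18_CUU_xb D hπ}

/-! ### The Gauss lemma on `K(x)` -/

/-- The trivial datum of `K(x)`: generator `x`, basis `{1}`. -/
def FA_S18_CUU_trivial (D : FA_S18_B_Datum A π F n) :
    FA_S18_B_Datum A π (IntermediateField.adjoin K {coeffMap A.subtype D.x}) 1 where
  x := D.x
  e := fun _ => 1
  pos := one_pos
  ker := D.ker
  x_mem := IntermediateField.mem_adjoin_simple_self _ _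
  e_mem := fun _ => by
    rw [map_one]
    exact one_mem _
  indep := by
    intro c hc i
    rw [Fin.sum_univ_one, map_one, mul_one] at hc
    have := D.xbar_transc _ hc
    rwa [Subsingleton.elim i 0]
  span := by
    intro y hy
    rw [IntermediateField.mem_adjoin_simple_iff] at hy
    obtain ⟨r, s, hrs⟩ := hy
    by_cases hs : aeval (coeffMap A.subtype D.x) s = 0
    · refine ⟨1, fun _ => 0, one_ne_zero, ?_⟩
      rw [hrs, hs, div_zero, mul_zero, Fin.sum_univ_one, FA_S18_B_ev_zero, zero_mul]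
    · refine ⟨s, fun _ => r, fun h => hs (by rw [h, map_zero]), ?_⟩
      rw [hrs, Fin.sum_univ_one, map_one, mul_one, ← FA_S18_B_aeval_eq_ev,
        ← FA_S18_B_aeval_eq_ev, mul_div_cancel₀ _ hs]

/-- elements of `K(x) ⊂ ↥F` are rational functions of `x` as Laurent series -/
theorem FA_S18_CUU_Kx_coe_mem (D : FA_S18_B_Datum A π F n) (a : ↥(FA_S18_CUU_Kx D)) :
    (((a : ↥F)) : LaurentSeries K) ∈ IntermediateField.adjoin K {coeffMap A.subtype D.x} := by
  have ha : (a : ↥F) ∈ IntermediateField.adjoin K {FA_S18_CUU_xF D} := a.2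
  rw [IntermediateField.mem_adjoin_simple_iff] at ha
  obtain ⟨r, s, hrs⟩ := ha
  rw [IntermediateField.mem_adjoin_simple_iff]
  refine ⟨r, s, ?_⟩
  have h1 : ∀ P : K[X], ((aeval (FA_S18_CUU_xF D) P : ↥F) : LaurentSeries K)
      = aeval (coeffMap A.subtype D.x) P := fun P =>
    (Polynomial.aeval_algHom_apply F.val (FA_S18_CUU_xF D) P).symm
  rw [← h1, ← h1, hrs]
  rfl

/-- **Gauss lemma on `K(x)`**: the reduction of an element of `O` is a rational function of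
`x̄`. -/
theorem FA_S18_CUU_red_rat (D : FA_S18_B_Datum A π F n) {y : LaurentSeries K}
    (hy : y ∈ IntermediateField.adjoin K {coeffMap A.subtype D.x})
    (hint : FA_S18_B_IsInt A π y) :
    ∃ P Q : A[X], Q.map π ≠ 0 ∧
      coeffMap A.subtype (FA_S18_B_ev D.x Q) * y = coeffMap A.subtype (FA_S18_B_ev D.x P) ∧
      FA_S18_B_ev (coeffMap π D.x) (Q.map π) * FA_S18_B_red A π y
        = FA_S18_B_ev (coeffMap π D.x) (P.map π) := by
  obtain ⟨Q, P, hQ, e⟩ := FA_S18_B_int_normal (FA_S18_CUU_trivial D) hy hint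
  have h2 := FA_S18_B_red_of_normal (FA_S18_CUU_trivial D) hQ e
  refine ⟨P 0, Q, hQ, ?_, ?_⟩
  · rw [show (FA_S18_CUU_trivial D).x = D.x from rfl] at e
    rw [e, FA_S18_B_Datum.comb, Fin.sum_univ_one]
    show coeffMap A.subtype (FA_S18_B_ev D.x (P 0) * 1) = _
    rw [mul_one]
  · rw [Fin.sum_univ_one] at h2
    have h3 : coeffMap π ((FA_S18_CUU_trivial D).e 0) = 1 := map_one _
    rw [h3, mul_one] at h2
    exact h2

theorem FA_S18_CUU_xb_aeval (D : FA_S18_B_Datum A π F n) (hπ : Function.Surjective π)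
    (P : k[X]) :
    ((aeval (FA_S18_CUU_xb D hπ) P : ↥(FA_S18_B_redField (A := A) F hπ)) : LaurentSeries k)
      = FA_S18_B_ev (coeffMap π D.x) P := by
  rw [← FA_S18_B_aeval_eq_ev]
  exact (Polynomial.aeval_algHom_apply (FA_S18_B_redField (A := A) F hπ).val
    (FA_S18_CUU_xb D hπ) P).symm

theorem FA_S18_CUU_xb_aeval_ne (D : FA_S18_B_Datum A π F n) (hπ : Function.Surjective π)
    {P : k[X]} (hP : P ≠ 0) : aeval (FA_S18_CUU_xb D hπ) P ≠ 0 := by
  intro h0
  apply hP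
  apply D.xbar_transc
  rw [← FA_S18_CUU_xb_aeval D hπ, h0]
  rfl

/-- the reduction of an element of `O` lies in `k(x̄)` -/
theorem FA_S18_CUU_red_mem (D : FA_S18_B_Datum A π F n) (hπ : Function.Surjective π)
    (a : ↥(FA_S18_CUU_O D)) :
    FA_S18_CUU_redF D hπ ⟨((a : ↥(FA_S18_CUU_Kx D)) : ↥F), a.2⟩ ∈ FA_S18_CUU_kx D hπ := by
  obtain ⟨P, Q, hQ, -, e⟩ := FA_S18_CUU_red_rat D (FA_S18_CUU_Kx_coe_mem D a) a.2
  show _ ∈ IntermediateField.adjoin k {FA_S18_CUU_xb D hπ}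
  rw [IntermediateField.mem_adjoin_simple_iff]
  refine ⟨P.map π, Q.map π, ?_⟩
  have hQx := FA_S18_CUU_xb_aeval_ne D hπ hQ
  rw [eq_div_iff hQx]
  apply Subtype.ext
  show FA_S18_B_red A π _ * ((aeval (FA_S18_CUU_xb D hπ) (Q.map π) :
      ↥(FA_S18_B_redField (A := A) F hπ)) : LaurentSeries k)
    = ((aeval (FA_S18_CUU_xb D hπ) (P.map π) :
      ↥(FA_S18_B_redField (A := A) F hπ)) : LaurentSeries k)
  rw [FA_S18_CUU_xb_aeval, FA_S18_CUU_xb_aeval, mul_comm]
  exact e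

/-- The reduction `red : O → k(x̄)`. -/
def FA_S18_CUU_red (D : FA_S18_B_Datum A π F n) (hπ : Function.Surjective π) :
    ↥(FA_S18_CUU_O D) →+* ↥(FA_S18_CUU_kx D hπ) where
  toFun a := ⟨FA_S18_CUU_redF D hπ ⟨((a : ↥(FA_S18_CUU_Kx D)) : ↥F), a.2⟩,
    FA_S18_CUU_red_mem D hπ a⟩
  map_one' := Subtype.ext (Subtype.ext FA_S18_B_red_one)
  map_mul' y y' := Subtype.ext (Subtype.ext (FA_S18_B_red_mul y.2 y'.2))
  map_zero' := Subtype.ext (Subtype.ext FA_S18_B_red_zero)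
  map_add' y y' := Subtype.ext (Subtype.ext (FA_S18_B_red_add y.2 y'.2))

theorem FA_S18_CUU_red_coe (D : FA_S18_B_Datum A π F n) (hπ : Function.Surjective π)
    (a : ↥(FA_S18_CUU_O D)) :
    (((FA_S18_CUU_red D hπ a : ↥(FA_S18_CUU_kx D hπ)) :
      ↥(FA_S18_B_redField (A := A) F hπ)) : LaurentSeries k)
      = FA_S18_B_red A π ((((a : ↥(FA_S18_CUU_Kx D)) : ↥F)) : LaurentSeries K) := rfl

theorem FA_S18_CUU_red_x (D : FA_S18_B_Datum A π F n) (hπ : Function.Surjective π) :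
    ((FA_S18_CUU_red D hπ (FA_S18_CUU_x D) : ↥(FA_S18_CUU_kx D hπ)) :
      ↥(FA_S18_B_redField (A := A) F hπ)) = FA_S18_CUU_xb D hπ :=
  Subtype.ext (FA_S18_B_red_iota D.x)

end FA_S18
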