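import Mathlib
import Fermat.Agent.S18.CuspDualC
import Fermat.Agent.S18.CuspInstDefs
import Fermat.Agent.S18.DatumDeg

/-!
# S18, leaf N, sub-leaf CUSP, part D (instance): the characteristic-zero fields of the cusp
`FA_S18_U_GlueHyp` at lead's types

For a Gauss datum `D` of `F ⊂ K((t))` (`K` algebraically closed of characteristic zero):
`L = ↥(FA_S18_CUU_Kx D)`, `x₀ = FA_S18_CUU_x D`, `RQ = FA_S18_CUU_RQ x₀ s`,
`BQ = FA_S18_CUDB_BQ K (FA_S18_CUU_xF D) s`: the fields `smul_mem`, `tr_mem`, `dual`, `fg`.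
-/

set_option autoImplicit false
set_option linter.style.haveILetI false
set_option linter.unusedSectionVars false
set_option synthInstance.maxHeartbeats 400000
set_option maxHeartbeats 1600000

noncomputable section

open AlgebraicCurve IntermediateField Polynomial ModularCurve FA_S18

namespace Fermat.Agent.S18

variable {K : Type*} [Field K] {A : ValuationSubring K} {k : Type*} [Field k] {π : A →+* k}
  {F : IntermediateField K (LaurentSeries K)} {n : ℕ}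

/-- The generator of `K(x)` (the coercion of `FA_S18_CUU_x D`). -/
abbrev FA_S18_CUDI_x0 (D : FA_S18_B_Datum A π F n) : ↥(FA_S18_CUU_Kx D) :=
  ((FA_S18_CUU_x D : ↥(FA_S18_CUU_O D)) : ↥(FA_S18_CUU_Kx D))

theorem FA_S18_CUDI_map_x0 (D : FA_S18_B_Datum A π F n) :
    algebraMap ↥(FA_S18_CUU_Kx D) ↥F (FA_S18_CUDI_x0 D) = FA_S18_CUU_xF D := rfl

theorem FA_S18_CUDI_hL (D : FA_S18_B_Datum A π F n) (l : ↥(FA_S18_CUU_Kx D)) :
    algebraMap ↥(FA_S18_CUU_Kx D) ↥F l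
      ∈ K⟮algebraMap ↥(FA_S18_CUU_Kx D) ↥F (FA_S18_CUDI_x0 D)⟯ := l.2

theorem FA_S18_CUDI_finite (D : FA_S18_B_Datum A π F n) :
    FiniteDimensional ↥(FA_S18_CUU_Kx D) ↥F :=
  (FA_S18_DEG_char0 D (FA_S18_CUU_xF D) rfl).1

section

variable [IsAlgClosed K] [CharZero K]

/-- The chart of the cover. -/
abbrev FA_S18_CUDI_BQ (D : FA_S18_B_Datum A π F n) (s : K[X]) : Subring ↥F :=
  FA_S18_CUDB_BQ K (FA_S18_CUU_xF D) s

/-- `smul_mem`, `tr_mem`, `dual`, `fg` of the cusp `FA_S18_U_GlueHyp`. -/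
theorem FA_S18_CUDI_fields (D : FA_S18_B_Datum A π F n)
    (hx : Transcendental K (FA_S18_CUU_xF D)) (s : K[X]) (hs : s ≠ 0)
    (hsimple : ∀ β : K, s.eval β ≠ 0 → ∀ v : Place K ↥F,
      0 < v.ord (FA_S18_CUU_xF D - algebraMap K ↥F β) →
        v.ord (FA_S18_CUU_xF D - algebraMap K ↥F β) = 1) :
    (∀ r ∈ FA_S18_CUU_RQ (FA_S18_CUDI_x0 D) s, ∀ y ∈ FA_S18_CUDI_BQ D s,
      algebraMap ↥(FA_S18_CUU_Kx D) ↥F r * y ∈ FA_S18_CUDI_BQ D s) ∧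
    (∀ y ∈ FA_S18_CUDI_BQ D s,
      Algebra.trace ↥(FA_S18_CUU_Kx D) ↥F y ∈ FA_S18_CUU_RQ (FA_S18_CUDI_x0 D) s) ∧
    (∀ y : ↥F, (∀ b ∈ FA_S18_CUDI_BQ D s,
      Algebra.trace ↥(FA_S18_CUU_Kx D) ↥F (y * b) ∈ FA_S18_CUU_RQ (FA_S18_CUDI_x0 D) s) →
      y ∈ FA_S18_CUDI_BQ D s) ∧
    (∃ (m : ℕ) (g : Fin m → ↥F), (∀ l, g l ∈ FA_S18_CUDI_BQ D s) ∧
      ∀ y ∈ FA_S18_CUDI_BQ D s,
        ∃ r : Fin m → ↥(FA_S18_CUU_Kx D), (∀ l, r l ∈ FA_S18_CUU_RQ (FA_S18_CUDI_x0 D) s) ∧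
          y = ∑ l, algebraMap ↥(FA_S18_CUU_Kx D) ↥F (r l) * g l) := by
  haveI := FA_S18_CUDI_finite D
  have hs' : aeval (FA_S18_CUDI_x0 D) s ≠ 0 := by
    intro h0
    have h1 := congrArg (algebraMap ↥(FA_S18_CUU_Kx D) ↥F) h0
    rw [FA_S18_CUDB_map_aeval, map_zero] at h1
    exact hs (transcendental_iff.mp hx s h1)
  exact ⟨FA_S18_CUDB_smul_mem (FA_S18_CUDI_x0 D) s,
    FA_S18_CUDB_tr_mem (FA_S18_CUDI_x0 D) hx (FA_S18_CUDI_hL D) s,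
    FA_S18_CUDB_dual (FA_S18_CUDI_x0 D) hx (FA_S18_CUDI_hL D) s hsimple,
    FA_S18_CUDB_fg (FA_S18_CUDI_x0 D) hx (FA_S18_CUDI_hL D) s hs'⟩

end

end Fermat.Agent.S18

end
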