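import Mathlib
import Fermat.Agent.S18.GaussIntInst

/-!
# S18, leaf N / CUSP: the fields `span` and `int` of the glueing hypotheses, datum-generic

For a Gauss datum `D` of `F ⊂ K((q))` (generator `x`, basis `e i`):

* `FA_S18_CUB_spanL` : every `y ∈ F ∩ O` has a denominator `Q(x)`, `Q ∈ A[X]`, `Q̄ ≠ 0`, such that
  `Q(x) · y` is integral over `K[x]` (even over `A[x]`).
* `FA_S18_CUB_intL` : if `d(x)^N · y` is integral over `K[x]` (`y ∈ F ∩ O`, `d ∈ A[X]`), then
  `d̄(x̄)^N · red y` is integral over `k[x̄]`.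
-/

set_option autoImplicit false
set_option linter.unusedSectionVars false
set_option linter.style.haveILetI false

noncomputable section

namespace Fermat.Agent.S18

open ModularCurve Polynomial

variable {K : Type*} [Field K] {A : ValuationSubring K} {k : Type*} [Field k] {π : A →+* k}
variable {F : IntermediateField K (LaurentSeries K)} {n : ℕ}

/-- `ι (P(x)) = (P.map ι)(ι x)` as `aeval`. -/
theorem FA_S18_CUB_iota_ev (x : LaurentSeries A) (P : A[X]) :
    coeffMap A.subtype (FA_S18_B_ev x P) = aeval (coeffMap A.subtype x) (P.map A.subtype) := by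
  rw [FA_S18_B_coeffMap_ev, FA_S18_B_aeval_eq_ev]

/-- `ρ (P(x)) = (P.map π)(ρ x)` as `aeval`. -/
theorem FA_S18_CUB_rho_ev (x : LaurentSeries A) (P : A[X]) :
    coeffMap π (FA_S18_B_ev x P) = aeval (coeffMap π x) (P.map π) := by
  rw [FA_S18_B_coeffMap_ev, FA_S18_B_aeval_eq_ev]

theorem FA_S18_CUB_aeval_mem (D : FA_S18_B_Datum A π F n) (P : A[X]) :
    aeval (coeffMap A.subtype D.x) (P.map A.subtype) ∈ F := by
  rw [← FA_S18_CUB_iota_ev]
  rw [FA_S18_B_coeffMap_ev, ← FA_S18_B_aeval_eq_ev]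
  exact (Algebra.adjoin_le (S := F.toSubalgebra) (Set.singleton_subset_iff.mpr D.x_mem))
    (Polynomial.aeval_mem_adjoin_singleton K _)

theorem FA_S18_CUB_aeval_isInt (x : LaurentSeries A) (P : A[X]) :
    FA_S18_B_IsInt A π (aeval (coeffMap A.subtype x) (P.map A.subtype)) := by
  rw [← FA_S18_CUB_iota_ev]
  exact FA_S18_B_isInt_iota _

theorem FA_S18_CUB_aeval_red (x : LaurentSeries A) (P : A[X]) :
    FA_S18_B_red A π (aeval (coeffMap A.subtype x) (P.map A.subtype))
      = aeval (coeffMap π x) (P.map π) := by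
  rw [← FA_S18_CUB_iota_ev, FA_S18_B_red_iota, FA_S18_CUB_rho_ev]

/-- **SPAN-L**: a Gauss-unit denominator making `y ∈ F ∩ O` integral over `K[x]`. -/
theorem FA_S18_CUB_spanL (D : FA_S18_B_Datum A π F n) {y : LaurentSeries K} (hy : y ∈ F)
    (hint : FA_S18_B_IsInt A π y) :
    ∃ Q : A[X], Q.map π ≠ 0 ∧
      IsIntegral ↥(Algebra.adjoin K {coeffMap A.subtype D.x})
        (aeval (coeffMap A.subtype D.x) (Q.map A.subtype) * y) := by
  obtain ⟨Q, χ, hQ, hχ, hχ0⟩ := FA_S18_B3_det D hy hint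
  refine ⟨Q, hQ, ?_⟩
  apply FA_S18_B3m_integral_of_poly
  refine ⟨χ.map (Polynomial.mapRingHom A.subtype), hχ.map _, ?_⟩
  rw [eval₂_map, FA_S18_B3_aeval_eq_evHom, ← FA_S18_B3_evHom_comp, ← FA_S18_CUB_iota_ev]
  exact hχ0

/-- **INT-L**: integrality over the localized chart passes to the reduction. -/
theorem FA_S18_CUB_intL (D : FA_S18_B_Datum A π F n) (d : A[X]) {y : LaurentSeries K}
    (hy : y ∈ F) (hint : FA_S18_B_IsInt A π y) (N : ℕ)
    (hI : IsIntegral ↥(Algebra.adjoin K {coeffMap A.subtype D.x})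
      (aeval (coeffMap A.subtype D.x) (d.map A.subtype) ^ N * y)) :
    IsIntegral ↥(Algebra.adjoin k {coeffMap π D.x})
      (aeval (coeffMap π D.x) (d.map π) ^ N * FA_S18_B_red A π y) := by
  have h1 := FA_S18_B3_core' D (mul_mem (pow_mem (FA_S18_CUB_aeval_mem D d) N) hy)
    (FA_S18_B_isInt_mul (FA_S18_B_isInt_pow (FA_S18_CUB_aeval_isInt D.x d) N) hint) hI
  rw [FA_S18_B_red_mul (FA_S18_B_isInt_pow (FA_S18_CUB_aeval_isInt D.x d) N) hint,
    FA_S18_B_red_pow (FA_S18_CUB_aeval_isInt D.x d), FA_S18_CUB_aeval_red] at h1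
  exact h1

end Fermat.Agent.S18
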