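import Mathlib
import Fermat.Agent.S18.CuspSpanInt

/-!
# S18, leaf N / CUSP: `span` and `int`, subtype forms

The statements of `CuspSpanInt.lean` for elements of the subtypes `↥F` and
`↥(FA_S18_B_redField F hπ)`.
-/

set_option autoImplicit false
set_option linter.unusedSectionVars false
set_option linter.style.haveILetI false

noncomputable section

namespace Fermat.Agent.S18

open ModularCurve Polynomial

/-- Integrality over `L[x]` can be tested in the ambient field of Laurent series. -/
theorem FA_S18_CUB_isIntegral_coe {L : Type*} [Field L]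
    (E : IntermediateField L (LaurentSeries L)) (x y : ↥E) :
    IsIntegral ↥(Algebra.adjoin L {x}) y ↔
      IsIntegral ↥(Algebra.adjoin L {(x : LaurentSeries L)}) (y : LaurentSeries L) := by
  have hcomp : (E.val : ↥E →+* LaurentSeries L).comp
      ((Polynomial.aeval x : L[X] →ₐ[L] ↥E) : L[X] →+* ↥E)
      = ((Polynomial.aeval (x : LaurentSeries L) : L[X] →ₐ[L] LaurentSeries L) :
          L[X] →+* LaurentSeries L) := by
    refine RingHom.ext fun P => ?_
    exact (Polynomial.aeval_algHom_apply E.val x P).symm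
  constructor
  · intro h
    obtain ⟨P, hP, hPy⟩ := FA_S18_B3m_poly_of_integral (L := L) x y h
    apply FA_S18_B3m_integral_of_poly
    refine ⟨P, hP, ?_⟩
    have h1 := Polynomial.hom_eval₂ P ((Polynomial.aeval x : L[X] →ₐ[L] ↥E) : L[X] →+* ↥E)
      (E.val : ↥E →+* LaurentSeries L) y
    rw [hPy, map_zero, hcomp] at h1
    exact h1.symm
  · intro h
    obtain ⟨P, hP, hPy⟩ := FA_S18_B3m_poly_of_integral (L := L) (x : LaurentSeries L)
      (y : LaurentSeries L) h
    apply FA_S18_B3m_integral_of_poly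
    refine ⟨P, hP, ?_⟩
    have h1 := Polynomial.hom_eval₂ P ((Polynomial.aeval x : L[X] →ₐ[L] ↥E) : L[X] →+* ↥E)
      (E.val : ↥E →+* LaurentSeries L) y
    rw [hcomp] at h1
    apply E.val.injective
    rw [map_zero]
    exact h1.trans hPy

theorem FA_S18_CUB_coe_aeval {L : Type*} [Field L] (E : IntermediateField L (LaurentSeries L))
    (x : ↥E) (P : L[X]) :
    ((aeval x P : ↥E) : LaurentSeries L) = aeval (x : LaurentSeries L) P :=
  (Polynomial.aeval_algHom_apply E.val x P).symm

variable {K : Type*} [Field K] {A : ValuationSubring K} {k : Type*} [Field k] {π : A →+* k}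
variable {F : IntermediateField K (LaurentSeries K)} {n : ℕ}

/-- **SPAN, subtype form.** -/
theorem FA_S18_CUB_spanS (D : FA_S18_B_Datum A π F n) (x' : ↥F)
    (hx' : (x' : LaurentSeries K) = coeffMap A.subtype D.x) (y : ↥F)
    (hint : FA_S18_B_IsInt A π (y : LaurentSeries K)) :
    ∃ Q : A[X], Q.map π ≠ 0 ∧
      IsIntegral ↥(Algebra.adjoin K {x'}) (aeval x' (Q.map A.subtype) * y) := by
  obtain ⟨Q, hQ, h⟩ := FA_S18_CUB_spanL D y.2 hint
  refine ⟨Q, hQ, ?_⟩
  rw [FA_S18_CUB_isIntegral_coe]
  show IsIntegral _ (((aeval x' (Q.map A.subtype) : ↥F) : LaurentSeries K) * (y : LaurentSeries K))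
  rw [FA_S18_CUB_coe_aeval, hx']
  exact h

/-- **INT, subtype form.** -/
theorem FA_S18_CUB_intS (D : FA_S18_B_Datum A π F n) (hπ : Function.Surjective π) (x' : ↥F)
    (hx' : (x' : LaurentSeries K) = coeffMap A.subtype D.x)
    (xb : ↥(FA_S18_B_redField (A := A) F hπ))
    (hxb : (xb : LaurentSeries k) = coeffMap π D.x) (d : A[X]) (y : ↥F)
    (hint : FA_S18_B_IsInt A π (y : LaurentSeries K)) (N : ℕ)
    (hI : IsIntegral ↥(Algebra.adjoin K {x'}) (aeval x' (d.map A.subtype) ^ N * y))
    (yb : ↥(FA_S18_B_redField (A := A) F hπ))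
    (hyb : (yb : LaurentSeries k) = FA_S18_B_red A π (y : LaurentSeries K)) :
    IsIntegral ↥(Algebra.adjoin k {xb}) (aeval xb (d.map π) ^ N * yb) := by
  rw [FA_S18_CUB_isIntegral_coe] at hI ⊢
  have h1 : (((aeval x' (d.map A.subtype) ^ N * y : ↥F)) : LaurentSeries K)
      = aeval (coeffMap A.subtype D.x) (d.map A.subtype) ^ N * (y : LaurentSeries K) := by
    show ((aeval x' (d.map A.subtype) : ↥F) : LaurentSeries K) ^ N * (y : LaurentSeries K) = _
    rw [FA_S18_CUB_coe_aeval, hx']
  have h2 : (((aeval xb (d.map π) ^ N * yb : ↥(FA_S18_B_redField (A := A) F hπ))) :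
      LaurentSeries k)
      = aeval (coeffMap π D.x) (d.map π) ^ N * FA_S18_B_red A π (y : LaurentSeries K) := by
    show ((aeval xb (d.map π) : ↥(FA_S18_B_redField (A := A) F hπ)) : LaurentSeries k) ^ N
      * (yb : LaurentSeries k) = _
    rw [FA_S18_CUB_coe_aeval, hxb, hyb]
  rw [h1, hx'] at hI
  rw [h2, hxb]
  exact FA_S18_CUB_intL D d y.2 hint N hI

end Fermat.Agent.S18
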