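import Mathlib
import Fermat.Agent.S18.CuspInstDefs
import Fermat.Agent.S18.CuspDualC
import Fermat.Agent.S18.UnimodGlue
import Fermat.Agent.S18.CuspSpanIntS

/-!
# S18, leaf N / CUSP: the fields `span` and `int` of `FA_S18_U_GlueHyp` for the cusp chart

Types as in `CuspInstDefs.lean` (generic in a Gauss datum `D` of `F ⊂ K((t))`):
`K' = ↥F`, `O' = FA_S18_CUU_OF D`, `κ' = ↥(FA_S18_B_redField F hπ)`, `red' = FA_S18_CUU_redF D hπ`,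
`K = ↥(FA_S18_CUU_Kx D)`, `O = FA_S18_CUU_O D`, `κ = ↥(FA_S18_CUU_kx D hπ)`,
`red = FA_S18_CUU_red D hπ`, `x₀ = FA_S18_CUU_x D`, `RQ = FA_S18_CUU_RQ x₀ s`,
`BQ = FA_S18_CUDB_BQ K (algebraMap K K' x₀) s`, `s = d.map A.subtype`, `d ∈ A[X]`, `d̄ ≠ 0`.
-/

set_option autoImplicit false
set_option linter.unusedSectionVars false
set_option linter.style.haveILetI false

noncomputable section

namespace Fermat.Agent.S18

open ModularCurve Polynomial FA_S18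

variable {K : Type*} [Field K] {A : ValuationSubring K} {k : Type*} [Field k] {π : A →+* k}
variable {F : IntermediateField K (LaurentSeries K)} {n : ℕ}

/-- The generator as an element of `K(x)`. -/
abbrev FA_S18_CUB_x0 (D : FA_S18_B_Datum A π F n) : ↥(FA_S18_CUU_Kx D) :=
  ((FA_S18_CUU_x D : ↥(FA_S18_CUU_O D)) : ↥(FA_S18_CUU_Kx D))

theorem FA_S18_CUB_x0_coe (D : FA_S18_B_Datum A π F n) :
    algebraMap ↥(FA_S18_CUU_Kx D) ↥F (FA_S18_CUB_x0 D) = FA_S18_CUU_xF D := rfl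

theorem FA_S18_CUB_xF_coe (D : FA_S18_B_Datum A π F n) :
    ((FA_S18_CUU_xF D : ↥F) : LaurentSeries K) = coeffMap A.subtype D.x := rfl

/-- coercion of `P(x₀)` to Laurent series -/
theorem FA_S18_CUB_aeval_x0_coe (D : FA_S18_B_Datum A π F n) (P : K[X]) :
    (((aeval (FA_S18_CUB_x0 D) P : ↥(FA_S18_CUU_Kx D)) : ↥F) : LaurentSeries K)
      = aeval (coeffMap A.subtype D.x) P := by
  have h1 : ((aeval (FA_S18_CUB_x0 D) P : ↥(FA_S18_CUU_Kx D)) : ↥F)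
      = aeval (FA_S18_CUU_xF D) P :=
    (Polynomial.aeval_algHom_apply (FA_S18_CUU_Kx D).val (FA_S18_CUB_x0 D) P).symm
  rw [h1, FA_S18_CUB_coe_aeval, FA_S18_CUB_xF_coe]

/-- `P(x)`, `P ∈ A[X]`, as an element of `O`. -/
def FA_S18_CUB_sO (D : FA_S18_B_Datum A π F n) (P : A[X]) : ↥(FA_S18_CUU_O D) :=
  ⟨aeval (FA_S18_CUB_x0 D) (P.map A.subtype), by
    rw [FA_S18_CUU_mem_O, FA_S18_CUB_aeval_x0_coe]
    exact FA_S18_CUB_aeval_isInt D.x P⟩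

theorem FA_S18_CUB_sO_coe (D : FA_S18_B_Datum A π F n) (P : A[X]) :
    ((FA_S18_CUB_sO D P : ↥(FA_S18_CUU_O D)) : ↥(FA_S18_CUU_Kx D))
      = aeval (FA_S18_CUB_x0 D) (P.map A.subtype) := rfl

theorem FA_S18_CUB_sO_mem_RQ (D : FA_S18_B_Datum A π F n) (P : A[X]) (s : K[X]) :
    ((FA_S18_CUB_sO D P : ↥(FA_S18_CUU_O D)) : ↥(FA_S18_CUU_Kx D))
      ∈ FA_S18_CUU_RQ (FA_S18_CUB_x0 D) s :=
  FA_S18_CUU_aeval_mem _ _ _

theorem FA_S18_CUB_red_sO (D : FA_S18_B_Datum A π F n) (hπ : Function.Surjective π) (P : A[X]) :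
    (((FA_S18_CUU_red D hπ (FA_S18_CUB_sO D P) : ↥(FA_S18_CUU_kx D hπ)) :
      ↥(FA_S18_B_redField (A := A) F hπ)) : LaurentSeries k)
      = aeval (coeffMap π D.x) (P.map π) := by
  rw [FA_S18_CUU_red_coe, FA_S18_CUB_sO_coe, FA_S18_CUB_aeval_x0_coe, FA_S18_CUB_aeval_red]

theorem FA_S18_CUB_red_sO_ne (D : FA_S18_B_Datum A π F n) (hπ : Function.Surjective π)
    {P : A[X]} (hP : P.map π ≠ 0) : FA_S18_CUU_red D hπ (FA_S18_CUB_sO D P) ≠ 0 := by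
  intro h0
  have h1 := FA_S18_CUB_red_sO D hπ P
  rw [h0] at h1
  apply hP
  apply D.xbar_transc
  rw [← FA_S18_B_aeval_eq_ev, ← h1]
  rfl

/-- **Field `span`** of the cusp instance. -/
theorem FA_S18_CUB_field_span (D : FA_S18_B_Datum A π F n) (hπ : Function.Surjective π)
    (s : K[X]) :
    ∀ t : ↥(FA_S18_B_redField (A := A) F hπ),
      ∃ (c : ↥(FA_S18_CUU_OF D)) (r : ↥(FA_S18_CUU_O D)),
        (c : ↥F) ∈ FA_S18_CUDB_BQ K (algebraMap ↥(FA_S18_CUU_Kx D) ↥F (FA_S18_CUB_x0 D)) s ∧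
        (r : ↥(FA_S18_CUU_Kx D)) ∈ FA_S18_CUU_RQ (FA_S18_CUB_x0 D) s ∧
        FA_S18_CUU_red D hπ r ≠ 0 ∧
        algebraMap ↥(FA_S18_CUU_kx D hπ) ↥(FA_S18_B_redField (A := A) F hπ)
          (FA_S18_CUU_red D hπ r) * t = FA_S18_CUU_redF D hπ c := by
  intro t
  obtain ⟨y, rfl⟩ := FA_S18_CUU_redF_surjective D hπ t
  obtain ⟨Q, hQ, hI⟩ := FA_S18_CUB_spanS D (FA_S18_CUU_xF D) rfl (y : ↥F) y.2
  have hmemF : aeval (FA_S18_CUU_xF D) (Q.map A.subtype) ∈ FA_S18_CUU_OF D := by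
    rw [FA_S18_CUU_mem_OF, FA_S18_CUB_coe_aeval]
    exact FA_S18_CUB_aeval_isInt D.x Q
  refine ⟨⟨aeval (FA_S18_CUU_xF D) (Q.map A.subtype), hmemF⟩ * y, FA_S18_CUB_sO D Q, ?_,
    FA_S18_CUB_sO_mem_RQ D Q s, FA_S18_CUB_red_sO_ne D hπ hQ, ?_⟩
  · exact FA_S18_CUDB_mem_of_isIntegral hI
  · rw [map_mul]
    congr 1
    apply Subtype.ext
    show (((FA_S18_CUU_red D hπ (FA_S18_CUB_sO D Q) : ↥(FA_S18_CUU_kx D hπ)) :
      ↥(FA_S18_B_redField (A := A) F hπ)) : LaurentSeries k) = _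
    rw [FA_S18_CUB_red_sO, FA_S18_CUU_redF_coe]
    show _ = FA_S18_B_red A π ((aeval (FA_S18_CUU_xF D) (Q.map A.subtype) : ↥F) :
      LaurentSeries K)
    rw [FA_S18_CUB_coe_aeval, FA_S18_CUB_xF_coe, FA_S18_CUB_aeval_red]

/-- coercion of `c(x̄)`, `x̄ = red x ∈ κ`, to `κ'` -/
theorem FA_S18_CUB_aeval_redx_coe (D : FA_S18_B_Datum A π F n) (hπ : Function.Surjective π)
    (c : k[X]) :
    ((aeval (FA_S18_CUU_red D hπ (FA_S18_CUU_x D)) c : ↥(FA_S18_CUU_kx D hπ)) :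
      ↥(FA_S18_B_redField (A := A) F hπ)) = aeval (FA_S18_CUU_xb D hπ) c := by
  rw [← FA_S18_CUU_red_x D hπ]
  exact (Polynomial.aeval_algHom_apply (FA_S18_CUU_kx D hπ).val _ c).symm

theorem FA_S18_CUB_red_sO_eq (D : FA_S18_B_Datum A π F n) (hπ : Function.Surjective π)
    (P : A[X]) :
    FA_S18_CUU_red D hπ (FA_S18_CUB_sO D P)
      = aeval (FA_S18_CUU_red D hπ (FA_S18_CUU_x D)) (P.map π) := by
  apply Subtype.ext
  apply Subtype.ext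
  rw [FA_S18_CUB_red_sO, FA_S18_CUB_aeval_redx_coe, FA_S18_CUU_xb_aeval, FA_S18_B_aeval_eq_ev]

/-- polynomials in `x̄` lie in `Rb` -/
theorem FA_S18_CUB_aeval_mem_Rb (D : FA_S18_B_Datum A π F n) (hπ : Function.Surjective π)
    (s : K[X]) (c : k[X]) :
    aeval (FA_S18_CUU_red D hπ (FA_S18_CUU_x D)) c
      ∈ FA_S18_U_Rb (FA_S18_CUU_O D) (FA_S18_CUU_red D hπ) (FA_S18_CUU_RQ (FA_S18_CUB_x0 D) s) := by
  obtain ⟨C, rfl⟩ := Polynomial.map_surjective π hπ c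
  rw [FA_S18_U_mem_Rb]
  exact ⟨FA_S18_CUB_sO D C, FA_S18_CUB_sO_mem_RQ D C s, FA_S18_CUB_red_sO_eq D hπ C⟩

/-- `1 / d̄(x̄)` lies in `Rb` -/
theorem FA_S18_CUB_inv_mem_Rb (D : FA_S18_B_Datum A π F n) (hπ : Function.Surjective π)
    (d : A[X]) (hd : d.map π ≠ 0) :
    (aeval (FA_S18_CUU_red D hπ (FA_S18_CUU_x D)) (d.map π))⁻¹
      ∈ FA_S18_U_Rb (FA_S18_CUU_O D) (FA_S18_CUU_red D hπ)
          (FA_S18_CUU_RQ (FA_S18_CUB_x0 D) (d.map A.subtype)) := by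
  have hne : FA_S18_CUU_red D hπ (FA_S18_CUB_sO D d) ≠ 0 := FA_S18_CUB_red_sO_ne D hπ hd
  have hne0 : aeval (FA_S18_CUB_x0 D) (d.map A.subtype) ≠ 0 := by
    intro h0
    apply hne
    have : FA_S18_CUB_sO D d = 0 := Subtype.ext h0
    rw [this, map_zero]
  have hredL : FA_S18_B_red A π (aeval (coeffMap A.subtype D.x) (d.map A.subtype)) ≠ 0 := by
    rw [FA_S18_CUB_aeval_red, FA_S18_B_aeval_eq_ev]
    exact fun h0 => hd (D.xbar_transc _ h0)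
  have hinv : (aeval (FA_S18_CUB_x0 D) (d.map A.subtype))⁻¹ ∈ FA_S18_CUU_O D := by
    rw [FA_S18_CUU_mem_O]
    show FA_S18_B_IsInt A π ((((aeval (FA_S18_CUB_x0 D) (d.map A.subtype))⁻¹ :
      ↥(FA_S18_CUU_Kx D)) : ↥F) : LaurentSeries K)
    have h1 : ((((aeval (FA_S18_CUB_x0 D) (d.map A.subtype))⁻¹ :
        ↥(FA_S18_CUU_Kx D)) : ↥F) : LaurentSeries K)
        = (aeval (coeffMap A.subtype D.x) (d.map A.subtype))⁻¹ := by
      rw [← FA_S18_CUB_aeval_x0_coe]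
      rfl
    rw [h1]
    exact (FA_S18_B_isInt_inv (FA_S18_CUB_aeval_isInt D.x d) hredL).1
  rw [FA_S18_U_mem_Rb]
  refine ⟨⟨_, hinv⟩, FA_S18_CUU_inv_d_mem _ _ hne0, ?_⟩
  have h2 : (⟨_, hinv⟩ : ↥(FA_S18_CUU_O D)) * FA_S18_CUB_sO D d = 1 := by
    apply Subtype.ext
    show (aeval (FA_S18_CUB_x0 D) (d.map A.subtype))⁻¹
      * aeval (FA_S18_CUB_x0 D) (d.map A.subtype) = 1
    exact inv_mul_cancel₀ hne0
  have h3 := congrArg (FA_S18_CUU_red D hπ) h2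
  rw [map_mul, map_one, FA_S18_CUB_red_sO_eq] at h3
  exact eq_inv_of_mul_eq_one_left h3

/-- **Field `int`** of the cusp instance. -/
theorem FA_S18_CUB_field_int (D : FA_S18_B_Datum A π F n) (hπ : Function.Surjective π)
    (d : A[X]) (hd : d.map π ≠ 0) :
    ∀ y : ↥(FA_S18_CUU_OF D),
      (y : ↥F) ∈ FA_S18_CUDB_BQ K (algebraMap ↥(FA_S18_CUU_Kx D) ↥F (FA_S18_CUB_x0 D))
        (d.map A.subtype) →
      IsIntegral ↥(FA_S18_U_Rb (FA_S18_CUU_O D) (FA_S18_CUU_red D hπ)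
        (FA_S18_CUU_RQ (FA_S18_CUB_x0 D) (d.map A.subtype))) (FA_S18_CUU_redF D hπ y) := by
  rintro y ⟨N, hN⟩
  have h1 := FA_S18_CUB_intS D hπ (FA_S18_CUU_xF D) rfl (FA_S18_CUU_xb D hπ) rfl d (y : ↥F) y.2 N
    hN (FA_S18_CUU_redF D hπ y) rfl
  obtain ⟨P, hP, hPz⟩ := FA_S18_B3m_poly_of_integral (L := k) _ _ h1
  -- the coefficient map `k[X] → Rb`
  have hψ : (algebraMap ↥(FA_S18_U_Rb (FA_S18_CUU_O D) (FA_S18_CUU_red D hπ)
        (FA_S18_CUU_RQ (FA_S18_CUB_x0 D) (d.map A.subtype)))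
        ↥(FA_S18_B_redField (A := A) F hπ)).comp
      ((((aeval (FA_S18_CUU_red D hπ (FA_S18_CUU_x D)) : k[X] →ₐ[k] ↥(FA_S18_CUU_kx D hπ)) :
        k[X] →+* ↥(FA_S18_CUU_kx D hπ)).codRestrict
          (FA_S18_U_Rb (FA_S18_CUU_O D) (FA_S18_CUU_red D hπ)
            (FA_S18_CUU_RQ (FA_S18_CUB_x0 D) (d.map A.subtype)))
          (fun c => FA_S18_CUB_aeval_mem_Rb D hπ _ c)))
      = ((aeval (FA_S18_CUU_xb D hπ) : k[X] →ₐ[k] ↥(FA_S18_B_redField (A := A) F hπ)) :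
          k[X] →+* ↥(FA_S18_B_redField (A := A) F hπ)) := by
    refine RingHom.ext fun c => ?_
    exact FA_S18_CUB_aeval_redx_coe D hπ c
  have hz : IsIntegral ↥(FA_S18_U_Rb (FA_S18_CUU_O D) (FA_S18_CUU_red D hπ)
      (FA_S18_CUU_RQ (FA_S18_CUB_x0 D) (d.map A.subtype)))
      (aeval (FA_S18_CUU_xb D hπ) (d.map π) ^ N * FA_S18_CUU_redF D hπ y) :=
    ⟨P.map _, hP.map _, by rw [eval₂_map, hψ]; exact hPz⟩
  have hu : IsIntegral ↥(FA_S18_U_Rb (FA_S18_CUU_O D) (FA_S18_CUU_red D hπ)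
      (FA_S18_CUU_RQ (FA_S18_CUB_x0 D) (d.map A.subtype)))
      (algebraMap ↥(FA_S18_U_Rb (FA_S18_CUU_O D) (FA_S18_CUU_red D hπ)
        (FA_S18_CUU_RQ (FA_S18_CUB_x0 D) (d.map A.subtype)))
        ↥(FA_S18_B_redField (A := A) F hπ)
        ⟨_, FA_S18_CUB_inv_mem_Rb D hπ d hd⟩) := isIntegral_algebraMap
  have hne : aeval (FA_S18_CUU_xb D hπ) (d.map π) ≠ 0 := FA_S18_CUU_xb_aeval_ne D hπ hd
  have hval : (algebraMap ↥(FA_S18_U_Rb (FA_S18_CUU_O D) (FA_S18_CUU_red D hπ)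
        (FA_S18_CUU_RQ (FA_S18_CUB_x0 D) (d.map A.subtype)))
        ↥(FA_S18_B_redField (A := A) F hπ)
        ⟨_, FA_S18_CUB_inv_mem_Rb D hπ d hd⟩)
      = (aeval (FA_S18_CUU_xb D hπ) (d.map π))⁻¹ := by
    show (((aeval (FA_S18_CUU_red D hπ (FA_S18_CUU_x D)) (d.map π))⁻¹ :
      ↥(FA_S18_CUU_kx D hπ)) : ↥(FA_S18_B_redField (A := A) F hπ)) = _
    rw [← FA_S18_CUB_aeval_redx_coe]
    rfl
  have heq : FA_S18_CUU_redF D hπ y
      = (algebraMap ↥(FA_S18_U_Rb (FA_S18_CUU_O D) (FA_S18_CUU_red D hπ)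
        (FA_S18_CUU_RQ (FA_S18_CUB_x0 D) (d.map A.subtype)))
        ↥(FA_S18_B_redField (A := A) F hπ)
        ⟨_, FA_S18_CUB_inv_mem_Rb D hπ d hd⟩) ^ N
        * (aeval (FA_S18_CUU_xb D hπ) (d.map π) ^ N * FA_S18_CUU_redF D hπ y) := by
    rw [hval, ← mul_assoc, ← mul_pow, inv_mul_cancel₀ hne, one_pow, one_mul]
  rw [heq]
  exact (hu.pow N).mul hz

end Fermat.Agent.S18
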