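import Fermat.Agent.S18.CuspInstHyp
import Fermat.Agent.S18.DatumDeg
import Fermat.Agent.S18.CuspDualC
import Fermat.Agent.S18.CuspSpanIntS

/-!
# S18, leaf N / CUSP, sub-leaf CU-U (instance, part 3): the glueing hypotheses of a datum

For a Gauss datum `D` of a field `F ⊂ K((t))` (`K` algebraically closed of characteristic `0`),
`d ∈ A[X]` with `d̄ ≠ 0`, and the charts `RQ = K[x][1/d(x)] ⊂ K(x)`,
`BQ = FA_S18_CUDB_BQ K x d` (integral closure of `RQ` in `F`), assuming that the zeros of `x - β`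
(`d(β) ≠ 0`) on `F` are simple:

* `FA_S18_CUU_glueHyp` : `FA_S18_U_GlueHyp O O' red red' RQ K BQ`;
* `FA_S18_CUU_glue` : if `κ' / k(x̄)` is separable, every element of `κ'` integral over
  `Rb = k[x̄][1/d̄(x̄)]` is the reduction of an element of `BQ ∩ O'`;
* `FA_S18_CUU_root` : the same for a `p`-th root of the reduction of an element of `BQ ∩ O'`.
-/

set_option autoImplicit false
set_option linter.style.haveILetI false
set_option linter.unusedSectionVars false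
set_option synthInstance.maxHeartbeats 400000
set_option maxHeartbeats 1000000

noncomputable section

namespace FA_S18

open Polynomial Fermat.Agent.S18 ModularCurve AlgebraicCurve

variable {K : Type*} [Field K] {A : ValuationSubring K} {k : Type*} [Field k] {π : A →+* k}
  {F : IntermediateField K (LaurentSeries K)} {n : ℕ}

theorem FA_S18_CUU_fd (D : FA_S18_B_Datum A π F n) :
    FiniteDimensional ↥(FA_S18_CUU_Kx D) ↥F :=
  (FA_S18_DEG_char0 D (FA_S18_CUU_xF D) rfl).1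

theorem FA_S18_CUU_fd_bar (D : FA_S18_B_Datum A π F n) (hπ : Function.Surjective π) :
    FiniteDimensional ↥(FA_S18_CUU_kx D hπ) ↥(FA_S18_B_redField (A := A) F hπ) :=
  (FA_S18_DEG_bar D hπ (FA_S18_CUU_xb D hπ) rfl).1

theorem FA_S18_CUU_deg (D : FA_S18_B_Datum A π F n) (hπ : Function.Surjective π) :
    Module.finrank ↥(FA_S18_CUU_kx D hπ) ↥(FA_S18_B_redField (A := A) F hπ)
      = Module.finrank ↥(FA_S18_CUU_Kx D) ↥F :=
  FA_S18_DEG_eq D hπ (FA_S18_CUU_xF D) rfl (FA_S18_CUU_xb D hπ) rfl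

theorem FA_S18_CUU_xF_transc (D : FA_S18_B_Datum A π F n) :
    Transcendental K (FA_S18_CUU_xF D) := by
  rw [transcendental_iff]
  intro P hP
  apply D.x_transc
  rw [← FA_S18_B_aeval_eq_ev]
  have h1 := Polynomial.aeval_algHom_apply F.val (FA_S18_CUU_xF D) P
  rw [hP, map_zero] at h1
  exact h1

theorem FA_S18_CUU_hL (D : FA_S18_B_Datum A π F n) (l : ↥(FA_S18_CUU_Kx D)) :
    algebraMap ↥(FA_S18_CUU_Kx D) ↥F l
      ∈ IntermediateField.adjoin K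
        {algebraMap ↥(FA_S18_CUU_Kx D) ↥F ((FA_S18_CUU_x D : ↥(FA_S18_CUU_O D)) :
          ↥(FA_S18_CUU_Kx D))} :=
  l.2

/-- the coefficient map `k[X] → Rb`, `Q ↦ Q(x̄)` -/
def FA_S18_CUU_toRb (D : FA_S18_B_Datum A π F n) (hπ : Function.Surjective π) (d : k[X]) :
    k[X] →+* ↥(FA_S18_CUU_RQ ((FA_S18_CUU_red D hπ (FA_S18_CUU_x D) : ↥(FA_S18_CUU_kx D hπ))) d) :=
  ((aeval (FA_S18_CUU_red D hπ (FA_S18_CUU_x D)) : k[X] →ₐ[k] ↥(FA_S18_CUU_kx D hπ)) :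
    k[X] →+* ↥(FA_S18_CUU_kx D hπ)).codRestrict _
      (fun P => FA_S18_CUU_aeval_mem _ d P)

/-- integrality over `k[x̄]` implies integrality over `k[x̄][1/d̄]` -/
theorem FA_S18_CUU_int_of_adjoin (D : FA_S18_B_Datum A π F n) (hπ : Function.Surjective π)
    (d : k[X]) (z : ↥(FA_S18_B_redField (A := A) F hπ))
    (hz : IsIntegral ↥(Algebra.adjoin k {FA_S18_CUU_xb D hπ}) z) :
    IsIntegral
      ↥(FA_S18_CUU_RQ ((FA_S18_CUU_red D hπ (FA_S18_CUU_x D) : ↥(FA_S18_CUU_kx D hπ))) d) z := by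
  obtain ⟨P, hP, hPz⟩ := FA_S18_B3m_poly_of_integral (L := k) (FA_S18_CUU_xb D hπ) z hz
  refine ⟨P.map (FA_S18_CUU_toRb D hπ d), hP.map _, ?_⟩
  rw [Polynomial.eval₂_map]
  have hcomp : (algebraMap
      ↥(FA_S18_CUU_RQ ((FA_S18_CUU_red D hπ (FA_S18_CUU_x D) : ↥(FA_S18_CUU_kx D hπ))) d)
      ↥(FA_S18_B_redField (A := A) F hπ)).comp (FA_S18_CUU_toRb D hπ d)
      = ((aeval (FA_S18_CUU_xb D hπ) : k[X] →ₐ[k] ↥(FA_S18_B_redField (A := A) F hπ)) :
          k[X] →+* ↥(FA_S18_B_redField (A := A) F hπ)) := by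
    refine RingHom.ext fun Q => ?_
    exact FA_S18_CUU_kx_aeval D hπ Q
  rw [hcomp]
  exact hPz

section Main

variable [IsAlgClosed K] [CharZero K]

/-- **CU-U: the glueing hypotheses for the chart `RQ = K[x][1/d(x)]` of `K(x) ⊂ F`.** -/
theorem FA_S18_CUU_glueHyp (D : FA_S18_B_Datum A π F n) (hπ : Function.Surjective π)
    (dA : A[X]) (hd : dA.map π ≠ 0)
    (hsimple : ∀ β : K, (dA.map A.subtype).eval β ≠ 0 → ∀ v : Place K ↥F,
      0 < v.ord (FA_S18_CUU_xF D - algebraMap K ↥F β) →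
        v.ord (FA_S18_CUU_xF D - algebraMap K ↥F β) = 1) :
    haveI := FA_S18_CUU_fd D
    FA_S18_U_GlueHyp (FA_S18_CUU_O D) (FA_S18_CUU_OF D).toSubring (FA_S18_CUU_red D hπ)
      (FA_S18_CUU_redF D hπ)
      (FA_S18_CUU_RQ ((FA_S18_CUU_x D : ↥(FA_S18_CUU_O D)) : ↥(FA_S18_CUU_Kx D))
        (dA.map A.subtype))
      (algebraMap K ↥(FA_S18_CUU_Kx D)).fieldRange
      (FA_S18_CUDB_BQ K (FA_S18_CUU_xF D) (dA.map A.subtype)) := by
  haveI := FA_S18_CUU_fd D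
  have H := FA_S18_CUU_hyp D hπ
  have hx : Transcendental K (algebraMap ↥(FA_S18_CUU_Kx D) ↥F
      ((FA_S18_CUU_x D : ↥(FA_S18_CUU_O D)) : ↥(FA_S18_CUU_Kx D))) := FA_S18_CUU_xF_transc D
  have hL := FA_S18_CUU_hL D
  refine
    { deg := FA_S18_CUU_deg D hπ
      red_max := H.red_max
      incl := fun a => a.2
      compat := ?_
      K0_le := H.K0_le _
      smul_mem := FA_S18_CUDB_smul_mem
        ((FA_S18_CUU_x D : ↥(FA_S18_CUU_O D)) : ↥(FA_S18_CUU_Kx D)) (dA.map A.subtype)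
      tr_mem := FA_S18_CUDB_tr_mem
        ((FA_S18_CUU_x D : ↥(FA_S18_CUU_O D)) : ↥(FA_S18_CUU_Kx D)) hx hL (dA.map A.subtype)
      dual := FA_S18_CUDB_dual
        ((FA_S18_CUU_x D : ↥(FA_S18_CUU_O D)) : ↥(FA_S18_CUU_Kx D)) hx hL (dA.map A.subtype)
        hsimple
      fg := FA_S18_CUDB_fg
        ((FA_S18_CUU_x D : ↥(FA_S18_CUU_O D)) : ↥(FA_S18_CUU_Kx D)) hx hL (dA.map A.subtype)
        (H.evO_ne hd)
      points := H.points dA hd
      ic := H.ic dA hd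
      frac := H.frac dA hd
      int := ?_
      span := ?_ }
  · -- compat
    intro a y hy
    have : y = ⟨algebraMap ↥(FA_S18_CUU_Kx D) ↥F (a : ↥(FA_S18_CUU_Kx D)), a.2⟩ :=
      Subtype.ext hy
    rw [this]
    rfl
  · -- int
    intro y hy
    obtain ⟨N, hN⟩ := hy
    have h1 := FA_S18_CUB_intS D hπ (FA_S18_CUU_xF D) rfl (FA_S18_CUU_xb D hπ) rfl dA
      (y : ↥F) y.2 N hN (FA_S18_CUU_redF D hπ y) rfl
    have h2 := FA_S18_CUU_int_of_adjoin D hπ (dA.map π) _ h1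
    rw [H.Rb_eq dA hd]
    -- the unit `(d̄(x̄)⁻¹)^N` of `Rb`
    have hdne : aeval (FA_S18_CUU_xb D hπ) (dA.map π) ≠ 0 :=
      FA_S18_CUU_xb_aeval_ne D hπ hd
    have hdne' : aeval (FA_S18_CUU_red D hπ (FA_S18_CUU_x D)) (dA.map π) ≠ 0 := by
      intro h0
      apply hdne
      rw [← FA_S18_CUU_kx_aeval D hπ, h0]
      rfl
    have hu : ((aeval (FA_S18_CUU_red D hπ (FA_S18_CUU_x D)) (dA.map π))⁻¹) ^ N
        ∈ FA_S18_CUU_RQ ((FA_S18_CUU_red D hπ (FA_S18_CUU_x D) : ↥(FA_S18_CUU_kx D hπ)))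
          (dA.map π) :=
      Subring.pow_mem _ (FA_S18_CUU_inv_d_mem _ _ hdne') N
    have h3 : IsIntegral
        ↥(FA_S18_CUU_RQ ((FA_S18_CUU_red D hπ (FA_S18_CUU_x D) : ↥(FA_S18_CUU_kx D hπ)))
          (dA.map π))
        (algebraMap ↥(FA_S18_CUU_RQ ((FA_S18_CUU_red D hπ (FA_S18_CUU_x D) :
          ↥(FA_S18_CUU_kx D hπ))) (dA.map π)) ↥(FA_S18_B_redField (A := A) F hπ) ⟨_, hu⟩) :=
      isIntegral_algebraMap
    have h4 := h3.mul h2
    have h5 : algebraMap ↥(FA_S18_CUU_RQ ((FA_S18_CUU_red D hπ (FA_S18_CUU_x D) :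
          ↥(FA_S18_CUU_kx D hπ))) (dA.map π)) ↥(FA_S18_B_redField (A := A) F hπ) ⟨_, hu⟩
        * (aeval (FA_S18_CUU_xb D hπ) (dA.map π) ^ N * FA_S18_CUU_redF D hπ y)
        = FA_S18_CUU_redF D hπ y := by
      have h6 : algebraMap ↥(FA_S18_CUU_RQ ((FA_S18_CUU_red D hπ (FA_S18_CUU_x D) :
          ↥(FA_S18_CUU_kx D hπ))) (dA.map π)) ↥(FA_S18_B_redField (A := A) F hπ) ⟨_, hu⟩
          = ((aeval (FA_S18_CUU_xb D hπ) (dA.map π))⁻¹) ^ N := by
        rw [← FA_S18_CUU_kx_aeval D hπ]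
        rfl
      rw [h6, ← mul_assoc, ← mul_pow, inv_mul_cancel₀ hdne, one_pow, one_mul]
    rw [h5] at h4
    exact h4
  · -- span
    intro t
    obtain ⟨y, rfl⟩ := FA_S18_CUU_redF_surjective D hπ t
    obtain ⟨Q, hQ, hI⟩ := FA_S18_CUB_spanS D (FA_S18_CUU_xF D) rfl (y : ↥F) y.2
    have h2 : algebraMap ↥(FA_S18_CUU_Kx D) ↥F ((H.evO Q : ↥(FA_S18_CUU_O D)) :
        ↥(FA_S18_CUU_Kx D)) = aeval (FA_S18_CUU_xF D) (Q.map A.subtype) := by
      rw [H.evO_coe]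
      exact FA_S18_CUDB_map_aeval _ _
    have hQO : FA_S18_B_IsInt A π
        ((aeval (FA_S18_CUU_xF D) (Q.map A.subtype) : ↥F) : LaurentSeries K) := by
      rw [← h2]
      exact (H.evO Q).2
    have hcO : FA_S18_B_IsInt A π
        ((aeval (FA_S18_CUU_xF D) (Q.map A.subtype) * (y : ↥F) : ↥F) : LaurentSeries K) :=
      FA_S18_B_isInt_mul hQO y.2
    refine ⟨⟨aeval (FA_S18_CUU_xF D) (Q.map A.subtype) * (y : ↥F), hcO⟩, H.evO Q, ?_, ?_,
      H.red_evO_ne hQ, ?_⟩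
    · exact FA_S18_CUDB_mem_of_isIntegral hI
    · rw [H.evO_coe]
      exact FA_S18_CUU_aeval_mem _ _ _
    · apply Subtype.ext
      have e1 : ((algebraMap ↥(FA_S18_CUU_kx D hπ) ↥(FA_S18_B_redField (A := A) F hπ)
            (FA_S18_CUU_red D hπ (H.evO Q)) * FA_S18_CUU_redF D hπ y :
            ↥(FA_S18_B_redField (A := A) F hπ)) : LaurentSeries k)
          = FA_S18_B_red A π ((algebraMap ↥(FA_S18_CUU_Kx D) ↥F
              ((H.evO Q : ↥(FA_S18_CUU_O D)) : ↥(FA_S18_CUU_Kx D)) : ↥F) : LaurentSeries K)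
            * FA_S18_B_red A π ((y : ↥F) : LaurentSeries K) := rfl
      rw [e1, h2, ← FA_S18_B_red_mul hQO y.2]
      rfl

end Main

end FA_S18
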