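import Fermat.Agent.S18.CuspInstDefs

/-!
# S18, leaf N / CUSP, sub-leaf CU-U (instance, part 2): the bundle `FA_S18_CUU_Hyp` of a datum

`FA_S18_CUU_hyp D hπ : FA_S18_CUU_Hyp A π (FA_S18_CUU_O D) (FA_S18_CUU_red D hπ) (FA_S18_CUU_x D)`
for every Gauss datum `D` of a field `F ⊂ K((t))`; hence the fields `points`, `ic`, `frac`,
`K0_le` of `FA_S18_U_GlueHyp` for the chart `RQ = K[x][1/d(x)]` of `K(x) ⊂ F`.
-/
set_option autoImplicit false
set_option linter.style.haveILetI false
set_option linter.unusedSectionVars false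
set_option synthInstance.maxHeartbeats 400000
set_option maxHeartbeats 1000000

noncomputable section

namespace FA_S18

open Polynomial Fermat.Agent.S18 ModularCurve

variable {K : Type*} [Field K] {A : ValuationSubring K} {k : Type*} [Field k] {π : A →+* k}
  {F : IntermediateField K (LaurentSeries K)} {n : ℕ}

theorem FA_S18_CUU_kx_aeval (D : FA_S18_B_Datum A π F n) (hπ : Function.Surjective π)
    (P : k[X]) :
    ((aeval (FA_S18_CUU_red D hπ (FA_S18_CUU_x D)) P : ↥(FA_S18_CUU_kx D hπ)) :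
      ↥(FA_S18_B_redField (A := A) F hπ)) = aeval (FA_S18_CUU_xb D hπ) P := by
  rw [← FA_S18_CUU_red_x D hπ]
  exact (Polynomial.aeval_algHom_apply (FA_S18_CUU_kx D hπ).val
    (FA_S18_CUU_red D hπ (FA_S18_CUU_x D)) P).symm

/-- **The bundle `FA_S18_CUU_Hyp` for the Gauss valuation of `K(x) ⊂ F`.** -/
theorem FA_S18_CUU_hyp (D : FA_S18_B_Datum A π F n) (hπ : Function.Surjective π) :
    FA_S18_CUU_Hyp A π (FA_S18_CUU_O D) (FA_S18_CUU_red D hπ) (FA_S18_CUU_x D) where
  res_surj := hπ
  res_max := D.ker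
  const_mem a := FA_S18_B_isInt_const a
  compat a y hy := by
    apply Subtype.ext
    apply Subtype.ext
    rw [FA_S18_CUU_red_coe, hy]
    exact FA_S18_B_red_const a
  mem_A c hc := FA_S18_B_mem_of_isInt_const D.ker hc
  red_max a ha := by
    by_contra hne
    apply ha
    have h1 : FA_S18_B_red A π ((((a : ↥(FA_S18_CUU_Kx D)) : ↥F)) : LaurentSeries K) ≠ 0 := by
      intro h0
      apply hne
      apply Subtype.ext
      apply Subtype.ext
      rw [FA_S18_CUU_red_coe, h0]
      rfl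
    exact (FA_S18_B_isInt_inv a.2 h1).1
  xbar_tr := by
    rw [transcendental_iff]
    intro P hP
    apply D.xbar_transc
    rw [← FA_S18_CUU_xb_aeval D hπ, ← FA_S18_CUU_kx_aeval D hπ, hP]
    rfl
  genk t := by
    have ht : (t : ↥(FA_S18_B_redField (A := A) F hπ))
        ∈ IntermediateField.adjoin k {FA_S18_CUU_xb D hπ} := t.2
    rw [IntermediateField.mem_adjoin_simple_iff] at ht
    obtain ⟨r, s, hrs⟩ := ht
    by_cases hs : s = 0
    · refine ⟨0, 1, one_ne_zero, ?_⟩
      have : t = 0 := by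
        apply Subtype.ext
        rw [hrs, hs, map_zero, div_zero]
        rfl
      rw [this, zero_mul, map_zero]
    · refine ⟨r, s, hs, ?_⟩
      apply Subtype.ext
      show (t : ↥(FA_S18_B_redField (A := A) F hπ))
          * ((aeval (FA_S18_CUU_red D hπ (FA_S18_CUU_x D)) s : ↥(FA_S18_CUU_kx D hπ)) :
            ↥(FA_S18_B_redField (A := A) F hπ))
        = ((aeval (FA_S18_CUU_red D hπ (FA_S18_CUU_x D)) r : ↥(FA_S18_CUU_kx D hπ)) :
            ↥(FA_S18_B_redField (A := A) F hπ))
      rw [FA_S18_CUU_kx_aeval, FA_S18_CUU_kx_aeval, hrs,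
        div_mul_cancel₀ _ (FA_S18_CUU_xb_aeval_ne D hπ hs)]

end FA_S18
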