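import Fermat.Agent.S18.CuspInst
import Fermat.Agent.S18.CuspAbhInst
import Fermat.Agent.S18.CuspDatumInst

/-!
# S18, leaf N / CUSP: the hypothesis `hsimple` of `FA_S18_CUU_glueHyp` for the Kummer field, and
the concrete instance of the glueing hypotheses

`F' = σ_n(F_n)(x)`, `x = t · σ_n(g)`, `x ^ n = σ_n(1/j)`, `d = 1 - 1728 X ^ n`.

* `FA_S18_CUSI_dA A n : A[X]`, with `FA_S18_CUSI_dA_map`, `FA_S18_CUSI_dA_map_ne`;
* `FA_S18_CUSI_xF_eq` : `FA_S18_CUU_xF D = FA_S18_CUF_x n F_n x` if `ι D.x = x`;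
* `FA_S18_CUSI_hsimple` : the hypothesis `hsimple` for any Gauss datum `D` of `F'` with
  `ι D.x = x`;
* `FA_S18_CUSI_glueHyp` : `FA_S18_U_GlueHyp` for `K(x) ⊂ F'`, `RQ = K[x][1/d(x)]`,
  `BQ = FA_S18_CUDB_BQ`;
* `FA_S18_CUSI_datum` : a Gauss datum of `F'` for the Kummer element `FA_S18_CUK_x A n hw`.
-/

set_option autoImplicit false
set_option linter.unusedSectionVars false
set_option linter.style.haveILetI false
set_option synthInstance.maxHeartbeats 400000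
set_option maxHeartbeats 1000000

noncomputable section

namespace Fermat.Agent.S18

open ModularCurve Polynomial IntermediateField FA_S18 AlgebraicCurve Fermat.Agent.S28

local notation "Qb" => AlgebraicClosure ℚ

/-- the polynomial `1 - 1728 X ^ n` over `A` -/
def FA_S18_CUSI_dA (A : ValuationSubring Qb) (n : ℕ) : Polynomial ↥A :=
  1 - Polynomial.C (1728 : ↥A) * Polynomial.X ^ n

theorem FA_S18_CUSI_dA_map (A : ValuationSubring Qb) (n : ℕ) :
    (FA_S18_CUSI_dA A n).map A.subtype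
      = 1 - Polynomial.C (1728 : Qb) * Polynomial.X ^ n := by
  have h : A.subtype (1728 : ↥A) = (1728 : Qb) := map_ofNat A.subtype 1728
  rw [FA_S18_CUSI_dA, Polynomial.map_sub, Polynomial.map_one, Polynomial.map_mul,
    Polynomial.map_C, Polynomial.map_pow, Polynomial.map_X, h]

theorem FA_S18_CUSI_dA_eval (A : ValuationSubring Qb) (n : ℕ) (β : Qb)
    (h : 1728 * β ^ n = 1) : ((FA_S18_CUSI_dA A n).map A.subtype).eval β = 0 := by
  rw [FA_S18_CUSI_dA_map]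
  simp [h]

theorem FA_S18_CUSI_dA_map_ne {k : Type*} [Field k] (A : ValuationSubring Qb) (n : ℕ)
    (hn : 0 < n) (π : ↥A →+* k) : (FA_S18_CUSI_dA A n).map π ≠ 0 := by
  intro h
  have h1 := congrArg (Polynomial.eval (0 : k)) h
  simp [FA_S18_CUSI_dA, hn.ne'] at h1

variable (n : ℕ) [NeZero n] {A : ValuationSubring Qb} {k : Type*} [Field k] {π : A →+* k}
  {m : ℕ}

theorem FA_S18_CUSI_xF_eq (x : LaurentSeries Qb)
    (D : FA_S18_B_Datum A π (FA_S18_CUF_field Qb n (modularFunctionFieldBar n) x) m)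
    (hD : coeffMap A.subtype D.x = x) :
    FA_S18_CUU_xF D = FA_S18_CUF_x n (modularFunctionFieldBar n) x :=
  Subtype.ext hD

/-- `hsimple` for any datum of the Kummer field whose generator is the Kummer element. -/
theorem FA_S18_CUSI_hsimple (hn : 2 ≤ n) (g x : LaurentSeries Qb)
    (hx : x = HahnSeries.single (1 : ℤ) (1 : Qb) * qExpand Qb n g)
    (hxw : x ^ n = qExpand Qb n (FA_S18_CU_u Qb))
    (D : FA_S18_B_Datum A π (FA_S18_CUF_field Qb n (modularFunctionFieldBar n) x) m)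
    (hD : coeffMap A.subtype D.x = x)
    (s : Polynomial Qb) (hs : ∀ β : Qb, 1728 * β ^ n = 1 → s.eval β = 0) :
    ∀ β : Qb, s.eval β ≠ 0 →
      ∀ v : Place Qb ↥(FA_S18_CUF_field Qb n (modularFunctionFieldBar n) x),
        0 < v.ord (FA_S18_CUU_xF D
          - algebraMap Qb ↥(FA_S18_CUF_field Qb n (modularFunctionFieldBar n) x) β) →
        v.ord (FA_S18_CUU_xF D
          - algebraMap Qb ↥(FA_S18_CUF_field Qb n (modularFunctionFieldBar n) x) β) = 1 := by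
  rw [FA_S18_CUSI_xF_eq n x D hD]
  exact FA_S18_CUCI_hsimple n hn g x hx hxw s hs

/-- **The glueing hypotheses for the Kummer chart** `K(x) ⊂ F' = σ_n(F_n)(x)`,
`RQ = K[x][1/(1 - 1728 x ^ n)]`. -/
theorem FA_S18_CUSI_glueHyp (hn : 2 ≤ n) (g x : LaurentSeries Qb)
    (hx : x = HahnSeries.single (1 : ℤ) (1 : Qb) * qExpand Qb n g)
    (hxw : x ^ n = qExpand Qb n (FA_S18_CU_u Qb))
    (D : FA_S18_B_Datum A π (FA_S18_CUF_field Qb n (modularFunctionFieldBar n) x) m)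
    (hD : coeffMap A.subtype D.x = x) (hπ : Function.Surjective π) :
    haveI := FA_S18_CUU_fd D
    FA_S18_U_GlueHyp (FA_S18_CUU_O D) (FA_S18_CUU_OF D).toSubring (FA_S18_CUU_red D hπ)
      (FA_S18_CUU_redF D hπ)
      (FA_S18_CUU_RQ ((FA_S18_CUU_x D : ↥(FA_S18_CUU_O D)) : ↥(FA_S18_CUU_Kx D))
        ((FA_S18_CUSI_dA A n).map A.subtype))
      (algebraMap Qb ↥(FA_S18_CUU_Kx D)).fieldRange
      (FA_S18_CUDB_BQ Qb (FA_S18_CUU_xF D) ((FA_S18_CUSI_dA A n).map A.subtype)) :=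
  FA_S18_CUU_glueHyp D hπ (FA_S18_CUSI_dA A n)
    (FA_S18_CUSI_dA_map_ne A n (Nat.pos_of_ne_zero (NeZero.ne n)) π)
    (FA_S18_CUSI_hsimple n hn g x hx hxw D hD _ (FA_S18_CUSI_dA_eval A n))

/-- the chart `BQ` in the form of `FA_S18_CUSP_TargetBQ` -/
theorem FA_S18_CUSI_BQ_eq (x : LaurentSeries Qb)
    (D : FA_S18_B_Datum A π (FA_S18_CUF_field Qb n (modularFunctionFieldBar n) x) m)
    (hD : coeffMap A.subtype D.x = x) :
    FA_S18_CUDB_BQ Qb (FA_S18_CUU_xF D) ((FA_S18_CUSI_dA A n).map A.subtype)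
      = FA_S18_CUDB_BQ Qb (FA_S18_CUF_x n (modularFunctionFieldBar n) x)
          ((1 : Qb[X]) - C 1728 * X ^ n) := by
  rw [FA_S18_CUSI_xF_eq n x D hD, FA_S18_CUSI_dA_map]

/-- **A Gauss datum of the Kummer field** for the Kummer element `FA_S18_CUK_x A n hw`. -/
theorem FA_S18_CUSI_datum (A : ValuationSubring Qb) (ℓ : ℕ) (hℓ : ℓ.Prime)
    (hA : A.LiesOverPrime ℓ) (hn : ¬ ℓ ∣ n) (hw : IsUnit ((n : ℕ) : ↥A)) :
    ∃ D : FA_S18_B_Datum A (FA_S18_pi A)
        (FA_S18_CUF_field Qb n (modularFunctionFieldBar n) (FA_S18_CUK_x A n hw))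
        (dedekindPsi n),
      D.x = FA_S18_CUK_xA A n hw ∧
      coeffMap A.subtype D.x = FA_S18_CUK_x A n hw ∧
      ∀ i, ∃ eZ ∈ Submonoid.closure (FA_S28_indMain_jdZ '' {d | d ∣ n}),
        D.e i = qExpand ↥A n (coeffMap (Int.castRingHom ↥A) eZ) := by
  obtain ⟨D, hDx, hDe⟩ := FA_S18_CUB_kummer_inst A n ℓ hℓ hA hn n (FA_S18_CUK_gA A n hw)
    (FA_S18_CUK_xA_pow A n hw)
  have hx : coeffMap A.subtype
      (HahnSeries.single (1 : ℤ) (1 : ↥A) * qExpand ↥A n (FA_S18_CUK_gA A n hw))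
      = FA_S18_CUK_x A n hw := (FA_S18_CUK_x_eq A n hw).symm
  revert D
  rw [hx]
  intro D hDx hDe
  exact ⟨D, hDx, by rw [hDx]; exact hx, hDe⟩

end Fermat.Agent.S18
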