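import Mathlib
import Fermat.Agent.S18.DescentDeg
import Fermat.Agent.S24.DPlace

/-!
# S18, leaf G (descent), part 5: the place at infinity of `F_N`

The `q`-adic order is the order function of a place of `F_N = modularFunctionFieldBar N`; hence
`p ∣ ord_q f` whenever all orders of `f` are divisible by `p` (e.g. `div f = p · D`).
-/

set_option autoImplicit false

noncomputable section

namespace Fermat.Agent.S18

open Fermat.Agent.S24 Fermat.Agent.S28 ModularCurve AlgebraicCurve

/-- The place at infinity: its order function is the `q`-adic order. -/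
theorem FA_S18_G_place_infty (N : ℕ) [NeZero N] :
    ∃ w : Place (AlgebraicClosure ℚ) ↥(modularFunctionFieldBar N),
      ∀ a : ↥(modularFunctionFieldBar N), a ≠ 0 →
        w.ord a = (a : LaurentSeries (AlgebraicClosure ℚ)).order := by
  set ν : ↥(modularFunctionFieldBar N) → ℤ :=
    fun a => (a : LaurentSeries (AlgebraicClosure ℚ)).order with hν
  have hne : ∀ a : ↥(modularFunctionFieldBar N), a ≠ 0 →
      (a : LaurentSeries (AlgebraicClosure ℚ)) ≠ 0 := fun a ha h => ha (Subtype.ext h)
  have hjmem : jqModC (AlgebraicClosure ℚ) ∈ modularFunctionFieldBar N := by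
    rw [FA_S18_G_bar_eq_fullC]
    exact jqModC_mem_full _ N
  have hval : FA_S24_IsVal (AlgebraicClosure ℚ) ν := by
    refine ⟨fun a b ha hb => ?_, fun a b ha hb hab => ?_, fun c hc => ?_, ?_⟩
    · exact HahnSeries.order_mul (hne a ha) (hne b hb)
    · exact HahnSeries.min_order_le_order_add (hne _ hab)
    · have hc0 : c ≠ 0 := fun h => hc (by rw [h, map_zero])
      show (algebraMap (AlgebraicClosure ℚ) (LaurentSeries (AlgebraicClosure ℚ)) c).order = 0
      rw [algebraMap_laurentSeries_eq_single, HahnSeries.order_single hc0]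
    · refine ⟨⟨jqModC _, hjmem⟩, fun h => ?_, ?_⟩
      · exact jqModC_ne_zero_of_nontrivial (AlgebraicClosure ℚ) (congrArg Subtype.val h)
      · show (jqModC (AlgebraicClosure ℚ)).order ≠ 0
        rw [FA_S28_order_jq]
        omega
  obtain ⟨w, m, hm, hw, _⟩ := hval.exists_place
  refine ⟨w, fun a ha => ?_⟩
  have hj := hw ⟨jqModC _, hjmem⟩ (fun h =>
    jqModC_ne_zero_of_nontrivial (AlgebraicClosure ℚ) (congrArg Subtype.val h))
  have hj' : (-1 : ℤ) = m * w.ord ⟨jqModC _, hjmem⟩ := by
    rw [← hj]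
    show (-1 : ℤ) = (jqModC (AlgebraicClosure ℚ)).order
    rw [FA_S28_order_jq]
  have hm1 : m = 1 := by
    have hdvd : m ∣ 1 := by
      refine ⟨- w.ord ⟨jqModC _, hjmem⟩, ?_⟩
      linarith
    exact Int.eq_one_of_dvd_one hm.le hdvd
  have := hw a ha
  rw [hm1, one_mul] at this
  exact this.symm

/-- If all orders of `f` are divisible by `p`, so is the `q`-adic order. -/
theorem FA_S18_G_order_dvd (N : ℕ) [NeZero N] (p : ℕ) (f : ↥(modularFunctionFieldBar N))
    (hf : f ≠ 0)
    (hdiv : ∀ w : Place (AlgebraicClosure ℚ) ↥(modularFunctionFieldBar N), (p : ℤ) ∣ w.ord f) :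
    (p : ℤ) ∣ (f : LaurentSeries (AlgebraicClosure ℚ)).order := by
  obtain ⟨w, hw⟩ := FA_S18_G_place_infty N
  rw [← hw f hf]
  exact hdiv w

end Fermat.Agent.S18
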