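import Mathlib
import Fermat.Agent.S18.Descent
import Fermat.Agent.S18.DescentPull

/-!
# S18, leaf G (descent), part 7 (G0): transfer of "all orders divisible by `p`" from level `N`
to level `N M` along `σ = (q ↦ q^M)`
-/

set_option autoImplicit false

noncomputable section

namespace Fermat.Agent.S18

open Fermat.Agent.S24 Fermat.Agent.S28 ModularCurve Polynomial IntermediateField AlgebraicCurve

/-- Integrality over a subfield from finiteness of the relative rank. -/
theorem FA_S18_G_integral_of_relfinrank {k Ω : Type} [Field k] [Field Ω] [Algebra k Ω]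
    (X Y : IntermediateField k Ω) (hXY : X ≤ Y) (hfin : relfinrank X Y ≠ 0) (y : Ω) (hy : y ∈ Y) :
    ∃ Q : Polynomial ↥X, Q.Monic ∧ Polynomial.aeval y Q = 0 := by
  have hlt : relrank X Y < Cardinal.aleph0 := (Cardinal.toNat_ne_zero.mp hfin).2
  rw [IntermediateField.relrank_eq_rank_of_le hXY] at hlt
  have hfd : FiniteDimensional ↥X ↥(IntermediateField.extendScalars hXY) :=
    Module.rank_lt_aleph0_iff.mp hlt
  have hI : IsIntegral ↥X (⟨y, hy⟩ : ↥(IntermediateField.extendScalars hXY)) :=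
    Algebra.IsIntegral.isIntegral _
  obtain ⟨Q, hQm, hQ⟩ := hI
  refine ⟨Q, hQm, ?_⟩
  have h1 := congrArg (fun z : ↥(IntermediateField.extendScalars hXY) => (z : Ω)) hQ
  simp only [ZeroMemClass.coe_zero] at h1
  rw [← h1]
  show Polynomial.aeval y Q = (IntermediateField.extendScalars hXY).val
    (Polynomial.eval₂ (algebraMap ↥X ↥(IntermediateField.extendScalars hXY)) ⟨y, hy⟩ Q)
  rw [← Polynomial.aeval_def, ← Polynomial.aeval_algHom_apply]
  rfl

/-- **(G0)**: `σ f₀ ∈ F_{N M}`, and if all orders of `f₀` (at the places of `F_N`) are divisible by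
`p`, then so are all orders of `σ f₀` (at the places of `F_{N M}`). -/
theorem FA_S18_G_transfer (r : ℕ) (hr : r.Prime) (M : ℕ) [NeZero M] (hM : M = r * r)
    (N N' : ℕ) [NeZero N] (hN' : N' = N * M) (p : ℤ)
    (f₀ : LaurentSeries (AlgebraicClosure ℚ)) (hf₀ : f₀ ∈ modularFunctionFieldBar N)
    (hdiv : ∀ w : Place (AlgebraicClosure ℚ) ↥(modularFunctionFieldBar N), p ∣ w.ord ⟨f₀, hf₀⟩) :
    ∃ hmem : qExpand (AlgebraicClosure ℚ) M f₀ ∈ modularFunctionFieldBar N',
      ∀ w' : Place (AlgebraicClosure ℚ) ↥(modularFunctionFieldBar N'),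
        p ∣ w'.ord ⟨qExpand (AlgebraicClosure ℚ) M f₀, hmem⟩ := by
  subst hM
  subst hN'
  have hrN : NeZero r := ⟨hr.ne_zero⟩
  have hN'N : NeZero (N * (r * r)) := ⟨Nat.mul_ne_zero (NeZero.ne N) (NeZero.ne (r * r))⟩
  have : Fact r.Prime := ⟨hr⟩
  obtain ⟨ζ, hζ⟩ := FA_S18_G_exists_primitiveRoot r hr.ne_zero
  obtain ⟨hfin, hle, _⟩ := FA_S18_G_inter_aux r hr (FA_S28_phi r) ζ hζ N (NeZero.ne N)
    (FA_S18_G_relfinrank_fld N) (FA_S18_G_relfinrank_fld (r * r))
    (FA_S18_G_relfinrank_fld (N * (r * r)))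
  rw [← FA_S18_G_bar_eq_fld, ← FA_S18_G_bar_eq_fld] at hfin hle
  set σ := qExpandAlgHomC (AlgebraicClosure ℚ) (r * r) with hσ
  set FN := modularFunctionFieldBar N with hFN
  set FN' := modularFunctionFieldBar (N * (r * r)) with hFN'
  let e := IntermediateField.equivMap FN σ
  let σ' : ↥FN →ₐ[AlgebraicClosure ℚ] ↥FN' :=
    (IntermediateField.inclusion hle).comp e.toAlgHom
  have hσ' : ∀ x : ↥FN, ((σ' x : ↥FN') : LaurentSeries (AlgebraicClosure ℚ))
      = qExpand (AlgebraicClosure ℚ) (r * r) (x : LaurentSeries (AlgebraicClosure ℚ)) :=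
    fun x => rfl
  have hmem : qExpand (AlgebraicClosure ℚ) (r * r) f₀ ∈ FN' := (σ' ⟨f₀, hf₀⟩).2
  refine ⟨hmem, fun w' => ?_⟩
  have hint : ∀ y : ↥FN', ∃ P : Polynomial ↥FN, P.Monic ∧
      Polynomial.eval₂ (σ' : ↥FN →+* ↥FN') y P = 0 := by
    intro y
    obtain ⟨Q, hQm, hQ⟩ := FA_S18_G_integral_of_relfinrank (FN.map σ) FN' hle hfin
      (y : LaurentSeries (AlgebraicClosure ℚ)) y.2
    refine ⟨Q.map (e.symm : ↥(FN.map σ) →+* ↥FN), hQm.map _, ?_⟩
    apply Subtype.ext
    rw [Polynomial.eval₂_map]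
    have h1 : ((Polynomial.eval₂ ((σ' : ↥FN →+* ↥FN').comp (e.symm : ↥(FN.map σ) →+* ↥FN)) y Q
        : ↥FN') : LaurentSeries (AlgebraicClosure ℚ))
        = Polynomial.eval₂ (algebraMap ↥(FN.map σ) (LaurentSeries (AlgebraicClosure ℚ)))
            (y : LaurentSeries (AlgebraicClosure ℚ)) Q := by
      have h2 : (FN'.val : ↥FN' →+* LaurentSeries (AlgebraicClosure ℚ)).comp
          ((σ' : ↥FN →+* ↥FN').comp (e.symm : ↥(FN.map σ) →+* ↥FN))
          = algebraMap ↥(FN.map σ) (LaurentSeries (AlgebraicClosure ℚ)) := by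
        refine RingHom.ext fun x => ?_
        show ((σ' (e.symm x) : ↥FN') : LaurentSeries (AlgebraicClosure ℚ)) = x
        rw [hσ']
        have h3 := congrArg (fun z : ↥(FN.map σ) => (z : LaurentSeries (AlgebraicClosure ℚ)))
          (e.apply_symm_apply x)
        exact h3
      rw [← h2]
      exact Polynomial.hom_eval₂ Q _ (FN'.val : ↥FN' →+* LaurentSeries (AlgebraicClosure ℚ)) y
    rw [h1]
    exact hQ
  exact FA_S18_G_pull σ' hint p ⟨f₀, hf₀⟩ hdiv w'

end Fermat.Agent.S18
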