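import Mathlib
import Fermat.Agent.S18.Descent
import Fermat.Agent.S18.DescentOrd
import Fermat.Agent.S18.DescentTransfer

/-!
# S18, leaf G: summary (the two statements of `NOTES/plan/S18.md`, leaf table)

`K = ℚ̄`, `F_n = modularFunctionFieldBar n`, `M = r²` with `r` prime, `σ = qExpand K M`.

* (G0) `FA_S18_G_transfer` : `f₀ ∈ F_N` with `p ∣ ord_P f₀` for all places `P` of `F_N` ⟹
  `σ f₀ ∈ F_{N M}` and `p ∣ ord_{P'} (σ f₀)` for all places `P'` of `F_{N M}`.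
* (G1) `FA_S18_G_main` : `f₀ ∈ F_N`, `f₀ ≠ 0`, `p ∣ ord_P f₀` for all `P`; `g ∈ F_{N M}` with
  `g ^ p = c · σ f₀` ⟹ `∃ g₀ ∈ F_N, g₀ ^ p = c · f₀`.
-/

set_option autoImplicit false

noncomputable section

namespace Fermat.Agent.S18

open ModularCurve AlgebraicCurve

/-- **(G1)**. -/
theorem FA_S18_G_main (r : ℕ) (hr : r.Prime) (M : ℕ) [NeZero M] (hM : M = r * r)
    (N N' : ℕ) [NeZero N] (hN' : N' = N * M) (p : ℕ) (hp : p ≠ 0)
    (f₀ : LaurentSeries (AlgebraicClosure ℚ)) (hf₀ : f₀ ∈ modularFunctionFieldBar N)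
    (hne : f₀ ≠ 0)
    (hdiv : ∀ w : Place (AlgebraicClosure ℚ) ↥(modularFunctionFieldBar N),
      (p : ℤ) ∣ w.ord ⟨f₀, hf₀⟩)
    (g : LaurentSeries (AlgebraicClosure ℚ)) (hg : g ∈ modularFunctionFieldBar N')
    (c : AlgebraicClosure ℚ) (hc : c ≠ 0)
    (hpow : g ^ p = algebraMap (AlgebraicClosure ℚ) (LaurentSeries (AlgebraicClosure ℚ)) c
      * qExpand (AlgebraicClosure ℚ) M f₀) :
    ∃ g₀ ∈ modularFunctionFieldBar N,
      g₀ ^ p = algebraMap (AlgebraicClosure ℚ) (LaurentSeries (AlgebraicClosure ℚ)) c * f₀ := by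
  have hord : (p : ℤ) ∣ f₀.order :=
    FA_S18_G_order_dvd N p ⟨f₀, hf₀⟩ (fun h => hne (congrArg Subtype.val h)) hdiv
  have hpow' : qExpand (AlgebraicClosure ℚ) M f₀
      = algebraMap (AlgebraicClosure ℚ) (LaurentSeries (AlgebraicClosure ℚ)) c⁻¹ * g ^ p := by
    rw [hpow, ← mul_assoc, ← map_mul, inv_mul_cancel₀ hc, map_one, one_mul]
  obtain ⟨g₀, hg₀, hfg⟩ := FA_S18_G_descent r hr M hM N N' hN' p hp f₀ g hne hord hg c⁻¹
    (inv_ne_zero hc) hpow'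
  refine ⟨g₀, hg₀, ?_⟩
  rw [hfg, ← mul_assoc, ← map_mul, mul_inv_cancel₀ hc, map_one, one_mul]

end Fermat.Agent.S18
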