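import Mathlib

/-!
# S18, leaf N / FIN (abstract part): finite generation by the Rees module and Nakayama

## Part 1 (Rees module, Hilbert basis theorem)

`k` a field, `Fb` a commutative `k`-algebra, `x ∈ Fb`, `L b ⊂ Fb` an increasing family of
`k`-subspaces with `x · L b ⊂ L (b+1)`, contained in an ambient family
`Σ_i k[x]_{≤ b + τ} · ē_i`.  Then `L (b+1) = L b + x · L b` for `b ≥ b₁`
(`FA_S18_FIN_rees`): `⊕ L b T^b` is a submodule of a finitely generated module over the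
noetherian ring `k[X₀, X₁]` (`X₀ ↦ T`, `X₁ ↦ x T`).

## Part 2 (Nakayama)

`A` a local ring, `O` an `A`-algebra with a reduction `red : O → Fb`, `Λ b ⊂ O` finitely generated
`A`-submodules with `Λ b ⊂ Λ (b+1)`, `j Λ b ⊂ Λ (b+1)`, `ker red ∩ Λ b = 𝔪 Λ b`, whose reductions
satisfy the ambient bound.  Then `⋃ Λ b` is generated over `A[j]` by finitely many elements
(`FA_S18_FIN_main`).
-/

set_option autoImplicit false
set_option linter.style.haveILetI false
set_option linter.unusedSectionVars false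

noncomputable section

namespace FA_S18

open Polynomial

section Rees

variable {k : Type*} [Field k] {Fb : Type*} [CommRing Fb] [Algebra k Fb]

/-- The Rees homomorphism `k[X₀, X₁] → Fb[T]`, `X₀ ↦ T`, `X₁ ↦ x T`. -/
def FA_S18_FIN_phi (x : Fb) : MvPolynomial (Fin 2) k →ₐ[k] Fb[X] :=
  MvPolynomial.aeval ![(X : Fb[X]), C x * X]

theorem FA_S18_FIN_phi_X0 (x : Fb) :
    FA_S18_FIN_phi (k := k) x (MvPolynomial.X 0) = X := by
  simp [FA_S18_FIN_phi]

theorem FA_S18_FIN_phi_X1 (x : Fb) :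
    FA_S18_FIN_phi (k := k) x (MvPolynomial.X 1) = C x * X := by
  simp [FA_S18_FIN_phi]

theorem FA_S18_FIN_phi_C (x : Fb) (a : k) :
    FA_S18_FIN_phi (k := k) x (MvPolynomial.C a) = C (algebraMap k Fb a) := by
  simp [FA_S18_FIN_phi]

/-- Closure of the coefficientwise condition under the Rees action. -/
theorem FA_S18_FIN_smul_mem (x : Fb) (L : ℕ → Submodule k Fb)
    (mono : ∀ b, L b ≤ L (b + 1)) (xmul : ∀ b, ∀ y ∈ L b, x * y ∈ L (b + 1))
    (s : MvPolynomial (Fin 2) k) :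
    ∀ f : Fb[X], (∀ b, f.coeff b ∈ L b) → ∀ b, (FA_S18_FIN_phi x s * f).coeff b ∈ L b := by
  induction s using MvPolynomial.induction_on with
  | C a =>
    intro f hf b
    rw [FA_S18_FIN_phi_C, coeff_C_mul, ← Algebra.smul_def]
    exact (L b).smul_mem a (hf b)
  | add p q hp hq =>
    intro f hf b
    rw [map_add, add_mul, coeff_add]
    exact (L b).add_mem (hp f hf b) (hq f hf b)
  | mul_X p i hp =>
    intro f hf b
    have hg := hp f hf
    rw [map_mul, mul_comm (FA_S18_FIN_phi x p), mul_assoc]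
    obtain rfl | rfl : i = 0 ∨ i = 1 := by omega
    · rw [FA_S18_FIN_phi_X0]
      cases b with
      | zero => rw [coeff_X_mul_zero]; exact (L 0).zero_mem
      | succ b => rw [coeff_X_mul]; exact mono b (hg b)
    · rw [FA_S18_FIN_phi_X1, mul_assoc, coeff_C_mul]
      cases b with
      | zero => rw [coeff_X_mul_zero, mul_zero]; exact (L 0).zero_mem
      | succ b => rw [coeff_X_mul]; exact xmul b _ (hg b)

/-- Second closure lemma: the condition "the coefficient of `T^(b+1)` lies in `L b + x L b` for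
`b ≥ b₁`" is stable under the Rees action on coefficientwise elements. -/
theorem FA_S18_FIN_smul_mem' (x : Fb) (L : ℕ → Submodule k Fb)
    (mono : ∀ b, L b ≤ L (b + 1)) (xmul : ∀ b, ∀ y ∈ L b, x * y ∈ L (b + 1))
    (b₁ : ℕ) (s : MvPolynomial (Fin 2) k) :
    ∀ f : Fb[X], (∀ b, f.coeff b ∈ L b) →
      (∀ b, b₁ ≤ b → f.coeff (b + 1) ∈ L b ⊔ (L b).map (LinearMap.mulLeft k x)) →
      ∀ b, b₁ ≤ b →
        (FA_S18_FIN_phi x s * f).coeff (b + 1) ∈ L b ⊔ (L b).map (LinearMap.mulLeft k x) := by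
  induction s using MvPolynomial.induction_on with
  | C a =>
    intro f _ hf' b hb
    rw [FA_S18_FIN_phi_C, coeff_C_mul, ← Algebra.smul_def]
    exact Submodule.smul_mem _ a (hf' b hb)
  | add p q hp hq =>
    intro f hf hf' b hb
    rw [map_add, add_mul, coeff_add]
    exact Submodule.add_mem _ (hp f hf hf' b hb) (hq f hf hf' b hb)
  | mul_X p i _ =>
    intro f hf _ b _
    have hg := FA_S18_FIN_smul_mem x L mono xmul p f hf
    rw [map_mul, mul_comm (FA_S18_FIN_phi x p), mul_assoc]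
    obtain rfl | rfl : i = 0 ∨ i = 1 := by omega
    · rw [FA_S18_FIN_phi_X0, coeff_X_mul]
      exact Submodule.mem_sup_left (hg b)
    · rw [FA_S18_FIN_phi_X1, mul_assoc, coeff_C_mul, coeff_X_mul]
      exact Submodule.mem_sup_right (Submodule.mem_map.mpr ⟨_, hg b, rfl⟩)

/-- Monomials of the ambient family lie in the span of the finitely many generators. -/
theorem FA_S18_FIN_monomial_mem (x : Fb) {r : ℕ} (eb : Fin r → Fb) (τ : ℕ)
    (P : Fb[X] → Prop) (hP : ∀ (s : MvPolynomial (Fin 2) k) (a : Fin (τ + 1)) (i : Fin r),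
      P (FA_S18_FIN_phi x s * C (x ^ (a : ℕ) * eb i)))
    (b a : ℕ) (ha : a ≤ b + τ) (i : Fin r) :
    P (monomial b (x ^ a * eb i)) := by
  by_cases hab : a ≤ b
  · have h := hP (MvPolynomial.X 0 ^ (b - a) * MvPolynomial.X 1 ^ a) ⟨0, Nat.succ_pos τ⟩ i
    have e : FA_S18_FIN_phi (k := k) x (MvPolynomial.X 0 ^ (b - a) * MvPolynomial.X 1 ^ a)
        * C (x ^ ((⟨0, Nat.succ_pos τ⟩ : Fin (τ + 1)) : ℕ) * eb i)
        = monomial b (x ^ a * eb i) := by
      rw [map_mul, map_pow, map_pow, FA_S18_FIN_phi_X0, FA_S18_FIN_phi_X1, mul_pow, ← C_pow,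
        pow_zero, one_mul, ← C_mul_X_pow_eq_monomial, C_mul]
      have : (X : Fb[X]) ^ b = X ^ (b - a) * X ^ a := by
        rw [← pow_add, Nat.sub_add_cancel hab]
      rw [this]
      ring
    rw [← e]
    exact h
  · push Not at hab
    have h := hP (MvPolynomial.X 1 ^ b) ⟨a - b, by omega⟩ i
    have e : FA_S18_FIN_phi (k := k) x (MvPolynomial.X 1 ^ b)
        * C (x ^ ((⟨a - b, by omega⟩ : Fin (τ + 1)) : ℕ) * eb i)
        = monomial b (x ^ a * eb i) := by
      rw [map_pow, FA_S18_FIN_phi_X1, mul_pow, ← C_pow, ← C_mul_X_pow_eq_monomial, C_mul, C_mul]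
      have : x ^ a = x ^ b * x ^ (a - b) := by
        rw [← pow_add, Nat.add_sub_cancel' hab.le]
      rw [this, C_mul]
      ring
    rw [← e]
    exact h

/-- **Rees stabilisation**: `L (b+1) = L b + x · L b` for `b ≥ b₁`. -/
theorem FA_S18_FIN_rees (x : Fb) (L : ℕ → Submodule k Fb)
    (mono : ∀ b, L b ≤ L (b + 1)) (xmul : ∀ b, ∀ y ∈ L b, x * y ∈ L (b + 1))
    (amb : ∃ (r : ℕ) (eb : Fin r → Fb) (τ : ℕ), ∀ b, ∀ y ∈ L b,
      ∃ c : Fin r → k[X], (∀ i, (c i).natDegree ≤ b + τ) ∧ y = ∑ i, aeval x (c i) * eb i) :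
    ∃ b₁ : ℕ, ∀ b, b₁ ≤ b → ∀ y ∈ L (b + 1), ∃ y₁ ∈ L b, ∃ y₂ ∈ L b, y = y₁ + x * y₂ := by
  classical
  obtain ⟨r, eb, τ, hamb⟩ := amb
  letI instM : Module (MvPolynomial (Fin 2) k) Fb[X] :=
    Module.compHom _ (FA_S18_FIN_phi (k := k) x).toRingHom
  have hsmul : ∀ (s : MvPolynomial (Fin 2) k) (f : Fb[X]),
      s • f = FA_S18_FIN_phi x s * f := fun s f => rfl
  -- the Rees module
  let LL : Submodule (MvPolynomial (Fin 2) k) Fb[X] :=
    { carrier := {f | ∀ b, f.coeff b ∈ L b}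
      add_mem' := fun {f g} hf hg b => by
        rw [coeff_add]; exact (L b).add_mem (hf b) (hg b)
      zero_mem' := fun b => by rw [coeff_zero]; exact (L b).zero_mem
      smul_mem' := fun s f hf => by
        show ∀ b, (s • f).coeff b ∈ L b
        rw [hsmul]
        exact FA_S18_FIN_smul_mem x L mono xmul s f hf }
  have hLL : ∀ f : Fb[X], f ∈ LL ↔ ∀ b, f.coeff b ∈ L b := fun f => Iff.rfl
  -- the ambient module
  let MM : Submodule (MvPolynomial (Fin 2) k) Fb[X] :=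
    Submodule.span (MvPolynomial (Fin 2) k)
      (Set.range fun p : Fin (τ + 1) × Fin r => (C (x ^ (p.1 : ℕ) * eb p.2) : Fb[X]))
  have hMM : ∀ (s : MvPolynomial (Fin 2) k) (a : Fin (τ + 1)) (i : Fin r),
      FA_S18_FIN_phi x s * C (x ^ (a : ℕ) * eb i) ∈ MM := by
    intro s a i
    rw [← hsmul]
    exact Submodule.smul_mem _ s (Submodule.subset_span ⟨(a, i), rfl⟩)
  have hmon : ∀ (b a : ℕ), a ≤ b + τ → ∀ i : Fin r, monomial b (x ^ a * eb i) ∈ MM :=
    fun b a ha i => FA_S18_FIN_monomial_mem x eb τ (fun f => f ∈ MM) hMM b a ha i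
  have hMMk : ∀ (c : k) (f : Fb[X]), f ∈ MM → C (algebraMap k Fb c) * f ∈ MM := by
    intro c f hf
    rw [← FA_S18_FIN_phi_C (k := k) x c, ← hsmul]
    exact Submodule.smul_mem _ _ hf
  have hle : LL ≤ MM := by
    intro f hf
    rw [← f.sum_monomial_eq, Polynomial.sum_def]
    refine Submodule.sum_mem _ fun b _ => ?_
    obtain ⟨c, hc, e⟩ := hamb b (f.coeff b) (hf b)
    rw [e, map_sum]
    refine Submodule.sum_mem _ fun i _ => ?_
    have e2 : aeval x (c i) = ∑ a ∈ Finset.range (b + τ + 1),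
        algebraMap k Fb ((c i).coeff a) * x ^ a := by
      rw [aeval_eq_sum_range' (Nat.lt_succ_of_le (hc i))]
      refine Finset.sum_congr rfl fun a _ => ?_
      rw [Algebra.smul_def]
    rw [e2, Finset.sum_mul, map_sum]
    refine Submodule.sum_mem _ fun a ha => ?_
    have ha' : a ≤ b + τ := Nat.lt_succ_iff.mp (Finset.mem_range.mp ha)
    have e3 : monomial b (algebraMap k Fb ((c i).coeff a) * x ^ a * eb i)
        = C (algebraMap k Fb ((c i).coeff a)) * monomial b (x ^ a * eb i) := by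
      rw [C_mul_monomial, mul_assoc]
    rw [e3]
    exact hMMk _ _ (hmon b a ha' i)
  -- noetherianity
  haveI : IsNoetherian (MvPolynomial (Fin 2) k) ↥MM :=
    isNoetherian_span_of_finite _ (Set.finite_range _)
  haveI : IsNoetherian (MvPolynomial (Fin 2) k) ↥LL := isNoetherian_of_le hle
  have hfg : LL.FG := Module.Finite.iff_fg.mp inferInstance
  obtain ⟨G, hGfin, hG⟩ := Submodule.fg_def.mp hfg
  obtain ⟨b₁, hb₁⟩ : ∃ b₁ : ℕ, ∀ g ∈ G, natDegree g ≤ b₁ := by
    refine ⟨hGfin.toFinset.sup natDegree, fun g hg => ?_⟩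
    exact Finset.le_sup (f := natDegree) (hGfin.mem_toFinset.mpr hg)
  refine ⟨b₁, ?_⟩
  -- the submodule of elements with the stabilisation property
  let QQ : Submodule (MvPolynomial (Fin 2) k) Fb[X] :=
    { carrier := {f | (∀ b, f.coeff b ∈ L b) ∧
        ∀ b, b₁ ≤ b → f.coeff (b + 1) ∈ L b ⊔ (L b).map (LinearMap.mulLeft k x)}
      add_mem' := fun {f g} hf hg => ⟨fun b => by
          rw [coeff_add]; exact (L b).add_mem (hf.1 b) (hg.1 b),
        fun b hb => by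
          rw [coeff_add]; exact Submodule.add_mem _ (hf.2 b hb) (hg.2 b hb)⟩
      zero_mem' := ⟨fun b => by rw [coeff_zero]; exact (L b).zero_mem,
        fun b _ => by rw [coeff_zero]; exact Submodule.zero_mem _⟩
      smul_mem' := fun s f hf => by
        show (∀ b, (s • f).coeff b ∈ L b) ∧
          ∀ b, b₁ ≤ b → (s • f).coeff (b + 1) ∈ L b ⊔ (L b).map (LinearMap.mulLeft k x)
        rw [hsmul]
        exact ⟨FA_S18_FIN_smul_mem x L mono xmul s f hf.1,
          FA_S18_FIN_smul_mem' x L mono xmul b₁ s f hf.1 hf.2⟩ }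
  have hGQ : G ⊆ (QQ : Set Fb[X]) := by
    intro g hg
    have hgL : g ∈ LL := by
      rw [← hG]; exact Submodule.subset_span hg
    refine ⟨hgL, fun b hb => ?_⟩
    rw [coeff_eq_zero_of_natDegree_lt (lt_of_le_of_lt (hb₁ g hg) (Nat.lt_succ_of_le hb))]
    exact Submodule.zero_mem _
  have hLQ : LL ≤ QQ := by
    rw [← hG]
    exact Submodule.span_le.mpr hGQ
  intro b hb y hy
  have hmem : monomial (b + 1) y ∈ LL := by
    intro c
    rw [coeff_monomial]
    split_ifs with h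
    · rw [← h]; exact hy
    · exact (L c).zero_mem
  have h2 := (hLQ hmem).2 b hb
  rw [coeff_monomial, if_pos rfl] at h2
  obtain ⟨y₁, hy₁, z, hz, e⟩ := Submodule.mem_sup.mp h2
  obtain ⟨y₂, hy₂, rfl⟩ := Submodule.mem_map.mp hz
  exact ⟨y₁, hy₁, y₂, hy₂, e.symm⟩

end Rees

section Nakayama

variable {A : Type*} [CommRing A] [IsLocalRing A] {F : Type*} [CommRing F] [Algebra A F]
  (O : Subalgebra A F) {Fb : Type*} [CommRing Fb] [Algebra (IsLocalRing.ResidueField A) Fb]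
  (red : ↥O →+* Fb)
  (compat : ∀ a : A, red (algebraMap A ↥O a)
    = algebraMap (IsLocalRing.ResidueField A) Fb (IsLocalRing.residue A a))

include compat in
/-- The reduction of an `A`-submodule of `O`, as a subspace over the residue field. -/
def FA_S18_FIN_redSub (Λ : Submodule A ↥O) : Submodule (IsLocalRing.ResidueField A) Fb where
  carrier := {z | ∃ y ∈ Λ, red y = z}
  add_mem' := by
    rintro _ _ ⟨y, hy, rfl⟩ ⟨y', hy', rfl⟩
    exact ⟨y + y', Λ.add_mem hy hy', map_add _ _ _⟩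
  zero_mem' := ⟨0, Λ.zero_mem, map_zero _⟩
  smul_mem' := by
    rintro c _ ⟨y, hy, rfl⟩
    obtain ⟨a, rfl⟩ := IsLocalRing.residue_surjective c
    refine ⟨a • y, Λ.smul_mem a hy, ?_⟩
    rw [Algebra.smul_def, map_mul, compat, Algebra.smul_def]

theorem FA_S18_FIN_mem_redSub (Λ : Submodule A ↥O) (z : Fb) :
    z ∈ FA_S18_FIN_redSub O red compat Λ ↔ ∃ y ∈ Λ, red y = z := Iff.rfl

/-- **Nakayama step**: if `red Λ' ⊂ red Λ + red(j) red Λ`, `Λ ∪ jΛ ⊂ Λ'`, `Λ'` finitely generated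
and `ker red ∩ Λ' = 𝔪 Λ'`, then `Λ' = Λ + j Λ`. -/
theorem FA_S18_FIN_nakayama (j : ↥O) (Λ Λ' : Submodule A ↥O) (hle : Λ ≤ Λ')
    (hj : ∀ y ∈ Λ, j * y ∈ Λ') (fg : Λ'.FG)
    (ker : ∀ y ∈ Λ', red y = 0 → y ∈ IsLocalRing.maximalIdeal A • Λ')
    (hred : ∀ y ∈ Λ', ∃ y₁ ∈ Λ, ∃ y₂ ∈ Λ, red y = red y₁ + red j * red y₂) :
    Λ' ≤ Λ ⊔ Λ.map (LinearMap.mulLeft A j) := by
  refine Submodule.le_of_le_smul_of_le_jacobson_bot (I := IsLocalRing.maximalIdeal A) fg
    (IsLocalRing.maximalIdeal_le_jacobson ⊥) ?_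
  intro y hy
  obtain ⟨y₁, hy₁, y₂, hy₂, e⟩ := hred y hy
  have hz : y - (y₁ + j * y₂) ∈ Λ' :=
    Λ'.sub_mem hy (Λ'.add_mem (hle hy₁) (hj y₂ hy₂))
  have hz0 : red (y - (y₁ + j * y₂)) = 0 := by
    rw [map_sub, map_add, map_mul, e, sub_self]
  have h1 := ker _ hz hz0
  have h2 : y₁ + j * y₂ ∈ Λ ⊔ Λ.map (LinearMap.mulLeft A j) :=
    Submodule.add_mem _ (Submodule.mem_sup_left hy₁)
      (Submodule.mem_sup_right (Submodule.mem_map.mpr ⟨y₂, hy₂, rfl⟩))
  have e2 : y = (y₁ + j * y₂) + (y - (y₁ + j * y₂)) := by ring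
  rw [e2]
  exact Submodule.add_mem _ (Submodule.mem_sup_left h2) (Submodule.mem_sup_right h1)

/-- The `A`-submodule of `O` of `A[j]`-combinations of a finite family. -/
def FA_S18_FIN_comb (j : ↥O) {m : ℕ} (e : Fin m → ↥O) : Submodule A ↥O where
  carrier := {y | ∃ a : Fin m → A[X], y = ∑ i, aeval j (a i) * e i}
  add_mem' := by
    rintro _ _ ⟨a, rfl⟩ ⟨a', rfl⟩
    refine ⟨a + a', ?_⟩
    rw [← Finset.sum_add_distrib]
    refine Finset.sum_congr rfl fun i _ => ?_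
    rw [Pi.add_apply, map_add, add_mul]
  zero_mem' := ⟨0, by simp⟩
  smul_mem' := by
    rintro c _ ⟨a, rfl⟩
    refine ⟨fun i => C c * a i, ?_⟩
    rw [Finset.smul_sum]
    refine Finset.sum_congr rfl fun i _ => ?_
    rw [map_mul, aeval_C, Algebra.smul_def, mul_assoc]

theorem FA_S18_FIN_mem_comb (j : ↥O) {m : ℕ} (e : Fin m → ↥O) (y : ↥O) :
    y ∈ FA_S18_FIN_comb O j e ↔ ∃ a : Fin m → A[X], y = ∑ i, aeval j (a i) * e i := Iff.rfl

theorem FA_S18_FIN_self_mem_comb (j : ↥O) {m : ℕ} (e : Fin m → ↥O) (i : Fin m) :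
    e i ∈ FA_S18_FIN_comb O j e := by
  classical
  refine ⟨fun l => if l = i then 1 else 0, ?_⟩
  rw [Finset.sum_eq_single i]
  · show e i = aeval j (if i = i then (1 : A[X]) else 0) * e i
    rw [if_pos rfl, map_one, one_mul]
  · intro l _ hl
    show aeval j (if l = i then (1 : A[X]) else 0) * e l = 0
    rw [if_neg hl, map_zero, zero_mul]
  · intro h
    exact absurd (Finset.mem_univ i) h

theorem FA_S18_FIN_mul_mem_comb (j : ↥O) {m : ℕ} (e : Fin m → ↥O) {y : ↥O}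
    (hy : y ∈ FA_S18_FIN_comb O j e) : j * y ∈ FA_S18_FIN_comb O j e := by
  obtain ⟨a, rfl⟩ := hy
  refine ⟨fun i => X * a i, ?_⟩
  rw [Finset.mul_sum]
  refine Finset.sum_congr rfl fun i _ => ?_
  rw [map_mul, aeval_X, mul_assoc]

include compat in
/-- **FIN (abstract)**: `⋃ Λ b` is generated over `A[j]` by finitely many elements of some
`Λ b₁`. -/
theorem FA_S18_FIN_main (j : ↥O) (Λ : ℕ → Submodule A ↥O)
    (mono : ∀ b, Λ b ≤ Λ (b + 1))
    (jmul : ∀ b, ∀ y ∈ Λ b, j * y ∈ Λ (b + 1))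
    (fg : ∀ b, (Λ b).FG)
    (ker : ∀ b, ∀ y ∈ Λ b, red y = 0 → y ∈ IsLocalRing.maximalIdeal A • Λ b)
    (amb : ∃ (r : ℕ) (eb : Fin r → Fb) (τ : ℕ), ∀ b, ∀ y ∈ Λ b,
      ∃ c : Fin r → (IsLocalRing.ResidueField A)[X], (∀ i, (c i).natDegree ≤ b + τ) ∧
        red y = ∑ i, aeval (red j) (c i) * eb i) :
    ∃ (m : ℕ) (e : Fin m → ↥O) (b₁ : ℕ), (∀ i, e i ∈ Λ b₁) ∧
      ∀ b, ∀ y ∈ Λ b, ∃ a : Fin m → A[X], y = ∑ i, aeval j (a i) * e i := by
  -- Rees stabilisation for the reductions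
  obtain ⟨b₁, hb₁⟩ := FA_S18_FIN_rees (red j) (fun b => FA_S18_FIN_redSub O red compat (Λ b))
    (fun b => by
      rintro _ ⟨y, hy, rfl⟩
      exact ⟨y, mono b hy, rfl⟩)
    (fun b => by
      rintro _ ⟨y, hy, rfl⟩
      exact ⟨j * y, jmul b y hy, map_mul _ _ _⟩)
    (by
      obtain ⟨r, eb, τ, h⟩ := amb
      refine ⟨r, eb, τ, ?_⟩
      rintro b _ ⟨y, hy, rfl⟩
      exact h b y hy)
  -- generators of `Λ b₁`
  obtain ⟨m, e, he⟩ := Submodule.fg_iff_exists_fin_generating_family.mp (fg b₁)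
  have heΛ : ∀ i, e i ∈ Λ b₁ := fun i => by
    rw [← he]; exact Submodule.subset_span ⟨i, rfl⟩
  refine ⟨m, e, b₁, heΛ, ?_⟩
  have hmono : Monotone Λ := monotone_nat_of_le_succ mono
  have hbase : Λ b₁ ≤ FA_S18_FIN_comb O j e := by
    rw [← he]
    refine Submodule.span_le.mpr ?_
    rintro _ ⟨i, rfl⟩
    exact FA_S18_FIN_self_mem_comb O j e i
  have hstep : ∀ d, Λ (b₁ + d) ≤ FA_S18_FIN_comb O j e := by
    intro d
    induction d with
    | zero => exact hbase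
    | succ d ih =>
      have h1 : Λ (b₁ + d + 1) ≤ Λ (b₁ + d) ⊔ (Λ (b₁ + d)).map (LinearMap.mulLeft A j) := by
        refine FA_S18_FIN_nakayama O red j (Λ (b₁ + d)) (Λ (b₁ + d + 1)) (mono _) (jmul _)
          (fg _) (ker _) ?_
        intro y hy
        obtain ⟨z₁, ⟨y₁, hy₁, rfl⟩, z₂, ⟨y₂, hy₂, rfl⟩, e'⟩ :=
          hb₁ (b₁ + d) (Nat.le_add_right _ _) (red y) ⟨y, hy, rfl⟩
        exact ⟨y₁, hy₁, y₂, hy₂, e'⟩
      refine h1.trans (sup_le ih ?_)
      rintro _ ⟨y, hy, rfl⟩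
      exact FA_S18_FIN_mul_mem_comb O j e (ih hy)
  intro b y hy
  rcases le_total b b₁ with h | h
  · exact hbase (hmono h hy)
  · obtain ⟨d, rfl⟩ := Nat.exists_eq_add_of_le h
    exact hstep d hy

end Nakayama

end FA_S18

end
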