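import Fermat.Agent.S18.Charts0

/-!
# S18, leaf N / FIN, step 1 (abstract): the ambient bound

`k` a field, `F / k` a field, `x : F` transcendental with `F` finite separable over `k(x)`.
Then there are finitely many `e_i ∈ F` and `τ` such that every `z ∈ F` integral over `k[x]` with
`z x^{-b}` integral over `k[x⁻¹]` is `Σ a_i(x) e_i` with `a_i ∈ k[X]` of degree `≤ b + τ`
(`FA_S18_FINA_ambient`).  (`e_i` = the trace-dual basis of an integral basis of `F / k(x)`.)
-/

set_option autoImplicit false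
set_option linter.unusedSectionVars false
set_option linter.style.haveILetI false

noncomputable section

namespace Fermat.Agent.S18

open IntermediateField Polynomial FA_RR
open scoped IntermediateField.algebraAdjoinAdjoin

variable {k F : Type*} [Field k] [Field F] [Algebra k F]

/-- **Lemma A**: traces of integral elements are integral (over a subalgebra of the base
field). -/
theorem FA_S18_FINA_trace_int (S : Subalgebra k F) (E : IntermediateField k F)
    (hle : S ≤ E.toSubalgebra) [FiniteDimensional E F] {y : F} (hy : IsIntegral S y) :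
    IsIntegral S ((Algebra.trace E F y : E) : F) := by
  letI : Algebra S E := (Subalgebra.inclusion hle).toRingHom.toAlgebra
  haveI : IsScalarTower S E F := IsScalarTower.of_algebraMap_eq (fun r => rfl)
  have h1 : IsIntegral S (Algebra.trace E F y) := Algebra.isIntegral_trace hy
  exact h1.map (IsScalarTower.toAlgHom S E F)

/-- **Lemma B**: `k[x]` is integrally closed in `k(x)`. -/
theorem FA_S18_FINA_mem_adjoin {x : F} (hx : Transcendental k x) {t : F} (ht : t ∈ k⟮x⟯)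
    (hint : IsIntegral (Algebra.adjoin k {x}) t) : t ∈ Algebra.adjoin k {x} := by
  haveI : IsPrincipalIdealRing (Algebra.adjoin k {x}) := isPrincipalIdealRing_adjoin hx
  have h1 : IsIntegral (Algebra.adjoin k {x}) (⟨t, ht⟩ : k⟮x⟯) := by
    rw [← isIntegral_algebraMap_iff (algebraMap k⟮x⟯ F).injective]
    exact hint
  obtain ⟨r, hr⟩ := IsIntegrallyClosed.isIntegral_iff.mp h1
  have : (r : F) = t := congrArg Subtype.val hr
  rw [← this]
  exact r.2

/-- `Q(x⁻¹) = (reflect N Q)(x) · x⁻ᴺ`. -/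
theorem FA_S18_FINA_reflect {x : F} (hx0 : x ≠ 0) (Q : k[X]) :
    aeval x⁻¹ Q = aeval x (reflect Q.natDegree Q) * x⁻¹ ^ Q.natDegree := by
  letI : Invertible x⁻¹ := invertibleOfNonzero (inv_ne_zero hx0)
  have h := eval₂_reflect_mul_pow (algebraMap k F) x⁻¹ Q.natDegree Q le_rfl
  have hinv : ⅟(x⁻¹) = x := by
    rw [invOf_eq_inv, inv_inv]
  rw [hinv] at h
  rw [aeval_def, aeval_def, h]

/-- **Lemma C**: the degree bound. -/
theorem FA_S18_FINA_deg {x : F} (hx : Transcendental k x) {t : F} (c : ℕ)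
    (h1 : t ∈ Algebra.adjoin k {x}) (h2 : t * x⁻¹ ^ c ∈ Algebra.adjoin k {x⁻¹}) :
    ∃ P : k[X], P.natDegree ≤ c ∧ aeval x P = t := by
  have hx0 : x ≠ 0 := FA_S18_C.sep_ne_zero_of_transcendental hx
  rw [Algebra.adjoin_singleton_eq_range_aeval] at h1 h2
  obtain ⟨P, rfl⟩ := h1
  obtain ⟨Q, hQ⟩ := h2
  refine ⟨P, ?_, rfl⟩
  by_cases hP : P = 0
  · rw [hP]; simp
  set N := Q.natDegree with hN
  have hQ' : aeval x⁻¹ Q = aeval x (reflect N Q) * x⁻¹ ^ N := FA_S18_FINA_reflect hx0 Q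
  have hQ2 : (aeval x) Q = (Polynomial.aeval x : k[X] →ₐ[k] F) Q := rfl
  have e1 : aeval x (P * X ^ N) = aeval x (reflect N Q * X ^ c) := by
    rw [map_mul, map_mul, map_pow, map_pow, aeval_X]
    have h3 : aeval x P * x⁻¹ ^ c = aeval x (reflect N Q) * x⁻¹ ^ N := by
      rw [← hQ']
      exact hQ.symm
    have hc : x ^ c * x⁻¹ ^ c = 1 := by rw [← mul_pow, mul_inv_cancel₀ hx0, one_pow]
    have hn : x ^ N * x⁻¹ ^ N = 1 := by rw [← mul_pow, mul_inv_cancel₀ hx0, one_pow]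
    calc aeval x P * x ^ N = (aeval x P * x⁻¹ ^ c) * (x ^ c * x ^ N) := by
          rw [mul_assoc, ← mul_assoc (x⁻¹ ^ c), mul_comm (x⁻¹ ^ c), hc, one_mul]
      _ = (aeval x (reflect N Q) * x⁻¹ ^ N) * (x ^ c * x ^ N) := by rw [h3]
      _ = aeval x (reflect N Q) * x ^ c * (x ^ N * x⁻¹ ^ N) := by ring
      _ = aeval x (reflect N Q) * x ^ c := by rw [hn, mul_one]
  have e2 : P * X ^ N = reflect N Q * X ^ c :=
    (transcendental_iff_injective.mp hx) e1
  have e3 := congrArg natDegree e2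
  rw [natDegree_mul_X_pow N hP] at e3
  have hR : reflect N Q ≠ 0 := by
    intro h0
    rw [h0, zero_mul] at e2
    exact hP (by simpa using e2)
  rw [natDegree_mul_X_pow c hR] at e3
  have h4 : (reflect N Q).natDegree ≤ N := natDegree_reflect_le.trans (by simp [hN])
  omega

/-- **Ambient bound** (abstract): the elements of `F` integral over `k[x]` with `z x^{-b}`
integral over `k[x⁻¹]` are combinations of finitely many `e_i` with polynomial coefficients of
degree `≤ b + τ`. -/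
theorem FA_S18_FINA_ambient {x : F} (hx : Transcendental k x) [FiniteDimensional k⟮x⟯ F]
    [Algebra.IsSeparable k⟮x⟯ F] :
    ∃ (r : ℕ) (e : Fin r → F) (τ : ℕ), ∀ (b : ℕ) (z : F),
      z ∈ FA_S18_H2_icl k x → z * x⁻¹ ^ b ∈ FA_S18_H2_icl k x⁻¹ →
      ∃ a : Fin r → k[X], (∀ i, (a i).natDegree ≤ b + τ) ∧ z = ∑ i, aeval x (a i) * e i := by
  classical
  have hx0 : x ≠ 0 := FA_S18_C.sep_ne_zero_of_transcendental hx
  haveI : IsPrincipalIdealRing (Algebra.adjoin k {x}) := isPrincipalIdealRing_adjoin hx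
  obtain ⟨s, bs, hbs⟩ := FiniteDimensional.exists_is_basis_integral (Algebra.adjoin k {x}) k⟮x⟯ F
  set r := Fintype.card s with hr
  let eq : s ≃ Fin r := Fintype.equivFin s
  let b' : Module.Basis (Fin r) k⟮x⟯ F := bs.reindex eq
  have hb' : ∀ i, IsIntegral (Algebra.adjoin k {x}) (b' i) := fun i => by
    show IsIntegral _ (bs.reindex eq i)
    rw [Module.Basis.reindex_apply]
    exact hbs _
  let d := (Algebra.traceForm k⟮x⟯ F).dualBasis (traceForm_nondegenerate k⟮x⟯ F) b'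
  -- a uniform exponent at infinity for the basis
  have hτ : ∃ τ, ∀ i, b' i * x⁻¹ ^ τ ∈ FA_S18_H2_icl k x⁻¹ := by
    have h1 : ∀ i, ∃ m, b' i * x⁻¹ ^ m ∈ FA_S18_H2_icl k x⁻¹ := fun i => by
      obtain ⟨m, -, hm⟩ := FA_S18_H2_mid_bound hx0 (FA_S18_H2_icl_le_mid x (hb' i))
      exact ⟨m, hm⟩
    choose m hm using h1
    refine ⟨∑ i, m i, fun i => ?_⟩
    obtain ⟨c, hc⟩ := Nat.exists_eq_add_of_le
      (Finset.single_le_sum (f := m) (fun _ _ => Nat.zero_le _) (Finset.mem_univ i))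
    rw [hc, pow_add, ← mul_assoc]
    exact Subalgebra.mul_mem _ (hm i) (Subalgebra.pow_mem _ (FA_S18_H2_self_mem x⁻¹) c)
  obtain ⟨τ, hτ⟩ := hτ
  refine ⟨r, fun i => d i, τ, fun b z hz hzb => ?_⟩
  have hxE : x ∈ k⟮x⟯ := mem_adjoin_simple_self k x
  have hle1 : Algebra.adjoin k {x} ≤ k⟮x⟯.toSubalgebra := algebra_adjoin_le_adjoin k _
  have hle2 : Algebra.adjoin k {x⁻¹} ≤ k⟮x⟯.toSubalgebra := by
    apply Algebra.adjoin_le
    rintro _ rfl
    exact (inv_mem hxE : x⁻¹ ∈ k⟮x⟯)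
  have key : ∀ i, ∃ P : k[X], P.natDegree ≤ b + τ ∧
      aeval x P = ((Algebra.trace k⟮x⟯ F (z * b' i) : k⟮x⟯) : F) := by
    intro i
    set t : k⟮x⟯ := Algebra.trace k⟮x⟯ F (z * b' i) with ht
    have h1 : IsIntegral (Algebra.adjoin k {x}) (t : F) :=
      FA_S18_FINA_trace_int _ _ hle1 (IsIntegral.mul hz (hb' i))
    have h1' : (t : F) ∈ Algebra.adjoin k {x} := FA_S18_FINA_mem_adjoin hx t.2 h1
    have h2 : IsIntegral (Algebra.adjoin k {x⁻¹})
        (((Algebra.trace k⟮x⟯ F ((z * x⁻¹ ^ b) * (b' i * x⁻¹ ^ τ)) : k⟮x⟯) : F)) :=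
      FA_S18_FINA_trace_int _ _ hle2 (IsIntegral.mul hzb (hτ i))
    have h3 : Algebra.trace k⟮x⟯ F ((z * x⁻¹ ^ b) * (b' i * x⁻¹ ^ τ))
        = ((⟨x, hxE⟩ : k⟮x⟯)⁻¹ ^ (b + τ)) * t := by
      have h4 : (z * x⁻¹ ^ b) * (b' i * x⁻¹ ^ τ)
          = ((⟨x, hxE⟩ : k⟮x⟯)⁻¹ ^ (b + τ)) • (z * b' i) := by
        rw [Algebra.smul_def]
        show _ = (x⁻¹ ^ (b + τ)) * _
        rw [pow_add]
        ring
      rw [h4, map_smul, smul_eq_mul]
    have h2' : (t : F) * x⁻¹ ^ (b + τ) ∈ Algebra.adjoin k {x⁻¹} := by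
      have hmem : (t : F) * x⁻¹ ^ (b + τ) ∈ k⟮x⁻¹⟯ := by
        rw [adjoin_inv_eq]
        exact mul_mem t.2 (pow_mem (inv_mem hxE) _)
      apply FA_S18_FINA_mem_adjoin (transcendental_inv hx) hmem
      rw [h3] at h2
      have h5 : ((((⟨x, hxE⟩ : k⟮x⟯)⁻¹ ^ (b + τ)) * t : k⟮x⟯) : F)
          = (t : F) * x⁻¹ ^ (b + τ) := by
        show (x⁻¹ ^ (b + τ)) * (t : F) = _
        ring
      rw [← h5]
      exact h2
    exact FA_S18_FINA_deg hx (b + τ) h1' h2'
  choose P hP1 hP2 using key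
  refine ⟨P, hP1, ?_⟩
  have hz' : z = ∑ i, (d.repr z i) • d i := (d.sum_repr z).symm
  conv_lhs => rw [hz']
  refine Finset.sum_congr rfl fun i _ => ?_
  rw [LinearMap.BilinForm.dualBasis_repr_apply, Algebra.traceForm_apply, hP2 i, Algebra.smul_def]
  rfl

end Fermat.Agent.S18
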