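import Fermat.Agent.S18.FinAmb
import Fermat.Agent.S18.BaseLift

/-!
# S18, leaf N / FIN, step 1 (concrete): the ambient bound at level `n`

* `FA_S18_FINA_finite_of_rank` : a field extension `F / k(x)` in which any `ψ + 1` elements are
  dependent over `k[x]` is finite.
* `FA_S18_FINA_finite_inst` : `F̄_n` is finite over `k(j̄)`.
* `FA_S18_FINA_amb_inst` : the ambient bound (AB) for the bundle objects at level `n`, from B3
  and the separability of `F̄_n / k(j̄)`.
-/

set_option autoImplicit false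
set_option linter.unusedSectionVars false
set_option linter.style.haveILetI false

noncomputable section

namespace Fermat.Agent.S18

open ModularCurve AlgebraicCurve FA_S18 IsLocalRing Polynomial IntermediateField

section abstract

variable {k F : Type*} [Field k] [Field F] [Algebra k F]

/-- If any `ψ + 1` elements of `F` are linearly dependent over `k[x]`, then `F` is finite over
`k(x)`. -/
theorem FA_S18_FINA_finite_of_rank {x : F} (hx : Transcendental k x) (ψ : ℕ)
    (h : ∀ y : Fin (ψ + 1) → F, ∃ P : Fin (ψ + 1) → k[X], (∃ i, P i ≠ 0) ∧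
      ∑ i, aeval x (P i) * y i = 0) :
    FiniteDimensional k⟮x⟯ F := by
  classical
  have hxE : x ∈ k⟮x⟯ := mem_adjoin_simple_self k x
  have hrank : Module.rank k⟮x⟯ F ≤ (ψ : Cardinal) := by
    apply rank_le
    intro s hs
    by_contra hlt
    push Not at hlt
    -- choose `ψ + 1` distinct elements of `s`
    have hcard : Fintype.card (Fin (ψ + 1)) ≤ Fintype.card s := by
      rw [Fintype.card_fin, Fintype.card_coe]
      exact hlt
    obtain ⟨f⟩ := Function.Embedding.nonempty_of_card_le hcard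
    have hli : LinearIndependent k⟮x⟯ (fun i : Fin (ψ + 1) => ((f i : s) : F)) :=
      hs.comp f f.injective
    obtain ⟨P, ⟨i, hi⟩, hsum⟩ := h (fun i => ((f i : s) : F))
    have h0 := Fintype.linearIndependent_iff.mp hli
      (fun i => (⟨aeval x (P i), by
        have : aeval x (P i) ∈ Algebra.adjoin k {x} := aeval_mem_adjoin_singleton k x
        exact algebra_adjoin_le_adjoin k _ this⟩ : k⟮x⟯))
      (by
        rw [← hsum]
        refine Finset.sum_congr rfl fun i _ => ?_
        rw [Algebra.smul_def]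
        rfl) i
    have h1 : aeval x (P i) = 0 := congrArg Subtype.val h0
    exact hi (transcendental_iff.mp hx (P i) h1)
  exact Module.rank_lt_aleph0_iff.mp (lt_of_le_of_lt hrank (Cardinal.natCast_lt_aleph0))

end abstract

variable (A : ValuationSubring (AlgebraicClosure ℚ)) (n : ℕ) [NeZero n]

set_option synthInstance.maxHeartbeats 400000 in
/-- shortcut instance (the search is slow with all the imports) -/
local instance (priority := 2000) FA_S18_FINA_alg :
    Algebra (IsLocalRing.ResidueField ↥A)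
      ↥(modularFunctionFieldFullC (IsLocalRing.ResidueField ↥A) n) := inferInstance

/-- `F̄_n` is finite over `k(j̄)`. -/
theorem FA_S18_FINA_finite_inst {ℓ : ℕ} (hℓ : ℓ.Prime) (hA : A.LiesOverPrime ℓ) (hn : ¬ ℓ ∣ n)
    (h : FA_S18_I_Range A n) :
    FiniteDimensional (IsLocalRing.ResidueField ↥A)⟮FA_S18_BASE_jb A n h⟯
      ↥(modularFunctionFieldFullC (IsLocalRing.ResidueField ↥A) n) :=
  FA_S18_FINA_finite_of_rank (FA_S18_BASE_jb_transc A n h) (dedekindPsi n)
    (FA_S18_BASE_rank_j A n hℓ hA hn h)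

/-- **The ambient bound (AB)** at level `n`. -/
theorem FA_S18_FINA_amb_inst {ℓ : ℕ} (hℓ : ℓ.Prime) (hA : A.LiesOverPrime ℓ) (hn : ¬ ℓ ∣ n)
    (h : FA_S18_I_Range A n) (hint : FA_S18_Target_B_integral A n ℓ)
    (hsep : Algebra.IsSeparable (IsLocalRing.ResidueField ↥A)⟮FA_S18_BASE_jb A n h⟯
      ↥(modularFunctionFieldFullC (IsLocalRing.ResidueField ↥A) n)) :
    ∃ (r : ℕ) (eb : Fin r → ↥(modularFunctionFieldFullC (IsLocalRing.ResidueField ↥A) n))
      (τ : ℕ), ∀ (b : ℕ) (y : ↥(FA_S18_I_O A n)),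
        (y : ↥(modularFunctionFieldBar n)) ∈ FA_S18_H2_Bf n →
        (y : ↥(modularFunctionFieldBar n)) * ((FA_S18_A_jbar n)⁻¹) ^ b ∈ FA_S18_H2_Bi n →
        ∃ a : Fin r → (IsLocalRing.ResidueField ↥A)[X], (∀ i, (a i).natDegree ≤ b + τ) ∧
          FA_S18_I_red A n h y
            = ∑ i, aeval (FA_S18_I_red A n h (FA_S18_I_j A n)) (a i) * eb i := by
  haveI := FA_S18_FINA_finite_inst A n hℓ hA hn h
  obtain ⟨r, eb, τ, hamb⟩ := FA_S18_FINA_ambient (FA_S18_BASE_jb_transc A n h)
  refine ⟨r, eb, τ, fun b y hy hyb => ?_⟩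
  refine hamb b (FA_S18_I_red A n h y) (FA_S18_BASE_into_fin A n hℓ hA hn h hint y hy) ?_
  have h1 := FA_S18_BASE_into_inf A n hℓ hA hn h hint (y * FA_S18_I_jinv A n ^ b) hyb
  rw [map_mul, map_pow, FA_S18_I_red_jinv] at h1
  exact h1

end Fermat.Agent.S18
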