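import Fermat.Agent.S18.NCh0Extra

/-!
# S18, leaf N, INST-fin: the char-0 fields of `FA_S18_U_GlueHyp` at `F_M ⊂ F_n`

`smul_mem`, `tr_mem`, `dual`, `fg` for `RQ = Bf M`, `BQ = Bf n` (as subrings), in exactly the
shape of the fields of `FA_S18.FA_S18_U_GlueHyp`.
-/

set_option autoImplicit false
set_option linter.style.haveILetI false

noncomputable section

namespace Fermat.Agent.S24

open AlgebraicCurve IntermediateField ModularCurve Fermat.Agent.S18

local notation "Qb" => AlgebraicClosure ℚ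

/-- Finset form ⟹ `Fin m` form of finite generation. -/
theorem FA_S18_NC_fg_fin {K K' : Type*} [Field K] [Field K'] [Algebra K K']
    (RQ : Subring K) (BQ : Subring K')
    (h : ∃ s : Finset K', (∀ e ∈ s, e ∈ BQ) ∧
      ∀ y ∈ BQ, ∃ c : K' → K, (∀ e, c e ∈ RQ) ∧ y = ∑ e ∈ s, algebraMap K K' (c e) * e) :
    ∃ (m : ℕ) (x : Fin m → K'), (∀ l, x l ∈ BQ) ∧
      ∀ y ∈ BQ, ∃ r : Fin m → K, (∀ l, r l ∈ RQ) ∧ y = ∑ l, algebraMap K K' (r l) * x l := by
  classical
  obtain ⟨s, hs1, hs2⟩ := h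
  refine ⟨s.card, fun l => ((s.equivFin.symm l : s) : K'), fun l => hs1 _ (s.equivFin.symm l).2,
    ?_⟩
  intro y hy
  obtain ⟨c, hc1, hc2⟩ := hs2 y hy
  refine ⟨fun l => c ((s.equivFin.symm l : s) : K'), fun l => hc1 _, ?_⟩
  rw [hc2, ← Finset.sum_coe_sort s (fun e => algebraMap K K' (c e) * e)]
  exact (Equiv.sum_comp s.equivFin.symm
    (fun e : s => algebraMap K K' (c (e : K')) * (e : K'))).symm

/-- **The char-0 fields of `GlueHyp` at `F_M ⊂ F_n`** (`4 ∣ M` or `9 ∣ M`, `M ∣ n`):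
`smul_mem`, `tr_mem`, `dual`, `fg` for `RQ = Bf M`, `BQ = Bf n`. -/
theorem FA_S18_NC_glue_fields (M n : ℕ) [NeZero M] [NeZero n] (hMn : M ∣ n)
    (h : 4 ∣ M ∨ 9 ∣ M) :
    letI : Algebra (modularFunctionFieldBar M) (modularFunctionFieldBar n) :=
      (IntermediateField.inclusion (FA_S18_NC_bar_le hMn)).toRingHom.toAlgebra
    (∀ r ∈ (FA_S18_H2_Bf M).toSubring, ∀ y ∈ (FA_S18_H2_Bf n).toSubring,
      algebraMap (modularFunctionFieldBar M) (modularFunctionFieldBar n) r * y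
        ∈ (FA_S18_H2_Bf n).toSubring) ∧
    (∀ y ∈ (FA_S18_H2_Bf n).toSubring,
      Algebra.trace (modularFunctionFieldBar M) (modularFunctionFieldBar n) y
        ∈ (FA_S18_H2_Bf M).toSubring) ∧
    (∀ y : modularFunctionFieldBar n,
      (∀ x ∈ (FA_S18_H2_Bf n).toSubring,
        Algebra.trace (modularFunctionFieldBar M) (modularFunctionFieldBar n) (y * x)
          ∈ (FA_S18_H2_Bf M).toSubring) → y ∈ (FA_S18_H2_Bf n).toSubring) ∧
    (∃ (m : ℕ) (x : Fin m → modularFunctionFieldBar n),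
      (∀ l, x l ∈ (FA_S18_H2_Bf n).toSubring) ∧
      ∀ y ∈ (FA_S18_H2_Bf n).toSubring, ∃ r : Fin m → modularFunctionFieldBar M,
        (∀ l, r l ∈ (FA_S18_H2_Bf M).toSubring) ∧
        y = ∑ l, algebraMap (modularFunctionFieldBar M) (modularFunctionFieldBar n) (r l) * x l)
    := by
  letI : Algebra (modularFunctionFieldBar M) (modularFunctionFieldBar n) :=
    (IntermediateField.inclusion (FA_S18_NC_bar_le hMn)).toRingHom.toAlgebra
  have hM : 2 ≤ M := by
    have hpos : 0 < M := Nat.pos_of_ne_zero (NeZero.ne M)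
    rcases h with h | h
    · exact le_trans (by norm_num) (Nat.le_of_dvd hpos h)
    · exact le_trans (by norm_num) (Nat.le_of_dvd hpos h)
  refine ⟨?_, ?_, ?_, ?_⟩
  · intro r hr y hy
    exact (FA_S18_H2_Bf n).mul_mem (FA_S18_NC_map_mem M n hMn r hr) hy
  · exact FA_S18_NC_trace_mem M n hMn hM
  · exact FA_S18_NC_dual_base M n hMn h
  · exact FA_S18_NC_fg_fin (FA_S18_H2_Bf M).toSubring (FA_S18_H2_Bf n).toSubring
      (FA_S18_NC_fg M n hMn hM)

end Fermat.Agent.S24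

end
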