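import Fermat.Agent.S18.FinInstGen
import Fermat.Agent.S18.NCh0Glue
import Fermat.Agent.S18.SepDeg
import Fermat.Agent.S18.PointsInst
import Fermat.Agent.S18.GaussInst
import Fermat.Agent.S18.InstB

/-!
# S18, leaf N, INST-fin: the glueing theorem at `F_M ⊂ F_n`

Instantiation of `FA_S18.FA_S18_U_GlueHyp` (`S18/UnimodGlue.lean`) at `K = F_M`, `K' = F_n`
(`M ∣ n`, `M = 4` or `9`), `κ = F̄_M`, `κ' = F̄_n`, and the consequence: the reduced finite chart
`red (Bf n ∩ O)` is closed under `p`-th roots in `F̄_n` (first half of `FA_S18_I_Target_N_icl`).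
-/

set_option autoImplicit false
set_option linter.unusedSectionVars false
set_option linter.style.haveILetI false

noncomputable section

namespace Fermat.Agent.S18

open ModularCurve Fermat.Agent.S24 FA_S18

variable (A : ValuationSubring (AlgebraicClosure ℚ)) (M n : ℕ) [NeZero M] [NeZero n]

/-- The Gauss ring of `F_M` is a valuation ring. -/
theorem FA_S18_FI_hval {ℓ : ℕ} (hℓ : ℓ.Prime) (hA : A.LiesOverPrime ℓ) (hM : ¬ ℓ ∣ M) :
    FA_S18_FI_Val A (FA_S18_pi A) (modularFunctionFieldBar M) := by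
  obtain ⟨D, -, -⟩ := FA_S18_B_datum_inst A M ℓ hℓ hA hM
  exact fun y hy => FA_S18_B_isInt_or_inv D hy

/-- The field `points` from NB2. -/
theorem FA_S18_FI_points (hval : FA_S18_FI_Val A (FA_S18_pi A) (modularFunctionFieldBar M))
    (hNB2 : FA_S18_Target_NB2 A M) :
    ∀ g ∈ (FA_S18_H2_Bf M).toSubring, g ≠ 0 →
      ∃ (u : ↥(modularFunctionFieldBar M)) (ws : List ↥(modularFunctionFieldBar M)),
        g = u * ws.prod ∧ u ∈ (FA_S18_H2_Bf M).toSubring ∧ u⁻¹ ∈ (FA_S18_H2_Bf M).toSubring ∧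
        ∀ w ∈ ws, w ≠ 0 ∧ w ∈ (FA_S18_H2_Bf M).toSubring ∧
          w ∈ FA_S18_FI_O A (FA_S18_pi A) (modularFunctionFieldBar M) hval ∧
          w⁻¹ ∈ FA_S18_FI_O A (FA_S18_pi A) (modularFunctionFieldBar M) hval ∧
          ∀ r ∈ (FA_S18_H2_Bf M).toSubring, ∃ c ∈ FA_S18_FI_K0 (modularFunctionFieldBar M),
            ∃ r' ∈ (FA_S18_H2_Bf M).toSubring, r = c + w * r' := by
  intro g hg hg0
  obtain ⟨u, ws, hgu, hu, hu', hws⟩ := hNB2 g hg hg0
  refine ⟨u, ws, hgu, hu, hu', ?_⟩
  intro w hw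
  obtain ⟨h1, h2, h3, h4, h5⟩ := hws w hw
  refine ⟨h1, h2, h3, h4, ?_⟩
  intro r hr
  obtain ⟨c, r', hr', e⟩ := h5 r hr
  exact ⟨_, ⟨c, rfl⟩, r', hr', e⟩



set_option synthInstance.maxHeartbeats 400000 in
set_option maxHeartbeats 1000000 in
/-- **The instance of `FA_S18_U_GlueHyp` at `F_M ⊂ F_n`**, from the four fields `ic`, `frac`,
`int`, `span` (all other fields are supplied here). -/
theorem FA_S18_FI_glueHyp (hMn : M ∣ n) (h49 : M = 4 ∨ M = 9) {ℓ : ℕ} (hℓ : ℓ.Prime)
    (hA : A.LiesOverPrime ℓ) (hn : ¬ ℓ ∣ n)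
    (hval : FA_S18_FI_Val A (FA_S18_pi A) (modularFunctionFieldBar M))
    (hrM : FA_S18_FI_Range A (FA_S18_pi A) (modularFunctionFieldBar M) (modularFunctionFieldFullC (IsLocalRing.ResidueField ↥A) M))
    (hrn : FA_S18_FI_Range A (FA_S18_pi A) (modularFunctionFieldBar n) (modularFunctionFieldFullC (IsLocalRing.ResidueField ↥A) n)) :
    letI : Algebra ↥(modularFunctionFieldBar M) ↥(modularFunctionFieldBar n) :=
      (IntermediateField.inclusion (FA_S18_NC_bar_le hMn)).toRingHom.toAlgebra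
    letI : Algebra ↥(modularFunctionFieldFullC (IsLocalRing.ResidueField ↥A) M) ↥(modularFunctionFieldFullC (IsLocalRing.ResidueField ↥A) n) :=
      (IntermediateField.inclusion (full_degeneracyC_le (IsLocalRing.ResidueField ↥A) hMn)).toRingHom.toAlgebra
    ∀ [FiniteDimensional ↥(modularFunctionFieldBar M) ↥(modularFunctionFieldBar n)],
    (∀ t : ↥(modularFunctionFieldFullC (IsLocalRing.ResidueField ↥A) M), IsIntegral ↥(FA_S18_U_Rb (FA_S18_FI_O A (FA_S18_pi A) (modularFunctionFieldBar M) hval)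
        (FA_S18_FI_red A (FA_S18_pi A) (modularFunctionFieldBar M) (modularFunctionFieldFullC (IsLocalRing.ResidueField ↥A) M) hval hrM) (FA_S18_H2_Bf M).toSubring) t →
      t ∈ FA_S18_U_Rb (FA_S18_FI_O A (FA_S18_pi A) (modularFunctionFieldBar M) hval)
        (FA_S18_FI_red A (FA_S18_pi A) (modularFunctionFieldBar M) (modularFunctionFieldFullC (IsLocalRing.ResidueField ↥A) M) hval hrM) (FA_S18_H2_Bf M).toSubring) →
    (∀ t : ↥(modularFunctionFieldFullC (IsLocalRing.ResidueField ↥A) M), ∃ r s : ↥(modularFunctionFieldFullC (IsLocalRing.ResidueField ↥A) M),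
      r ∈ FA_S18_U_Rb (FA_S18_FI_O A (FA_S18_pi A) (modularFunctionFieldBar M) hval)
        (FA_S18_FI_red A (FA_S18_pi A) (modularFunctionFieldBar M) (modularFunctionFieldFullC (IsLocalRing.ResidueField ↥A) M) hval hrM) (FA_S18_H2_Bf M).toSubring ∧
      s ∈ FA_S18_U_Rb (FA_S18_FI_O A (FA_S18_pi A) (modularFunctionFieldBar M) hval)
        (FA_S18_FI_red A (FA_S18_pi A) (modularFunctionFieldBar M) (modularFunctionFieldFullC (IsLocalRing.ResidueField ↥A) M) hval hrM) (FA_S18_H2_Bf M).toSubring ∧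
      s ≠ 0 ∧ t * s = r) →
    (∀ y : ↥(FA_S18_FI_O' A (FA_S18_pi A) (modularFunctionFieldBar n)), (y : ↥(modularFunctionFieldBar n)) ∈ (FA_S18_H2_Bf n).toSubring →
      IsIntegral ↥(FA_S18_U_Rb (FA_S18_FI_O A (FA_S18_pi A) (modularFunctionFieldBar M) hval)
        (FA_S18_FI_red A (FA_S18_pi A) (modularFunctionFieldBar M) (modularFunctionFieldFullC (IsLocalRing.ResidueField ↥A) M) hval hrM) (FA_S18_H2_Bf M).toSubring)
        (FA_S18_FI_red' A (FA_S18_pi A) (modularFunctionFieldBar n) (modularFunctionFieldFullC (IsLocalRing.ResidueField ↥A) n) hrn y)) →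
    (∀ t : ↥(modularFunctionFieldFullC (IsLocalRing.ResidueField ↥A) n), ∃ (c : ↥(FA_S18_FI_O' A (FA_S18_pi A) (modularFunctionFieldBar n)))
        (s : ↥(FA_S18_FI_O A (FA_S18_pi A) (modularFunctionFieldBar M) hval)),
      (c : ↥(modularFunctionFieldBar n)) ∈ (FA_S18_H2_Bf n).toSubring ∧ (s : ↥(modularFunctionFieldBar M)) ∈ (FA_S18_H2_Bf M).toSubring ∧
      FA_S18_FI_red A (FA_S18_pi A) (modularFunctionFieldBar M) (modularFunctionFieldFullC (IsLocalRing.ResidueField ↥A) M) hval hrM s ≠ 0 ∧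
      algebraMap ↥(modularFunctionFieldFullC (IsLocalRing.ResidueField ↥A) M) ↥(modularFunctionFieldFullC (IsLocalRing.ResidueField ↥A) n) (FA_S18_FI_red A (FA_S18_pi A) (modularFunctionFieldBar M) (modularFunctionFieldFullC (IsLocalRing.ResidueField ↥A) M) hval hrM s) * t
        = FA_S18_FI_red' A (FA_S18_pi A) (modularFunctionFieldBar n) (modularFunctionFieldFullC (IsLocalRing.ResidueField ↥A) n) hrn c) →
    FA_S18_U_GlueHyp (FA_S18_FI_O A (FA_S18_pi A) (modularFunctionFieldBar M) hval) (FA_S18_FI_O' A (FA_S18_pi A) (modularFunctionFieldBar n))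
      (FA_S18_FI_red A (FA_S18_pi A) (modularFunctionFieldBar M) (modularFunctionFieldFullC (IsLocalRing.ResidueField ↥A) M) hval hrM)
      (FA_S18_FI_red' A (FA_S18_pi A) (modularFunctionFieldBar n) (modularFunctionFieldFullC (IsLocalRing.ResidueField ↥A) n) hrn)
      (FA_S18_H2_Bf M).toSubring (FA_S18_FI_K0 (modularFunctionFieldBar M)) (FA_S18_H2_Bf n).toSubring := by
  letI : Algebra ↥(modularFunctionFieldBar M) ↥(modularFunctionFieldBar n) :=
    (IntermediateField.inclusion (FA_S18_NC_bar_le hMn)).toRingHom.toAlgebra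
  letI : Algebra ↥(modularFunctionFieldFullC (IsLocalRing.ResidueField ↥A) M) ↥(modularFunctionFieldFullC (IsLocalRing.ResidueField ↥A) n) :=
    (IntermediateField.inclusion (full_degeneracyC_le (IsLocalRing.ResidueField ↥A) hMn)).toRingHom.toAlgebra
  intro _ hic hfrac hint hspan
  have h49' : 4 ∣ M ∨ 9 ∣ M := h49.imp (fun h => by rw [h]) (fun h => by rw [h])
  have hM : ¬ ℓ ∣ M := fun h => hn (h.trans hMn)
  obtain ⟨hsmul, htr, hdual, hfg⟩ := FA_S18_NC_glue_fields M n hMn h49'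
  exact
    { deg := (FA_S18_SEPD_deg A n M hMn hℓ hA hn).2
      red_max := FA_S18_FI_red_max A (FA_S18_pi A) hval hrM
      incl := FA_S18_FI_incl_mem A (FA_S18_pi A) (FA_S18_NC_bar_le hMn) hval
      compat := fun a y h => FA_S18_FI_compat A (FA_S18_pi A) (FA_S18_NC_bar_le hMn)
        (full_degeneracyC_le (IsLocalRing.ResidueField ↥A) hMn) hval hrM hrn a y h
      K0_le := FA_S18_FI_K0_le (FA_S18_H2_Bf M)
      smul_mem := hsmul
      tr_mem := htr
      dual := hdual
      fg := hfg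
      points := FA_S18_FI_points A M hval
        (FA_S18_NB_points_of_scale A M h49 ℓ hℓ hA hM (FA_S18_B_scale_inst A M ℓ))
      ic := hic
      frac := hfrac
      int := hint
      span := hspan }



set_option synthInstance.maxHeartbeats 400000 in
set_option maxHeartbeats 1000000 in
/-- **INST-fin (conditional form)**: the reduced finite chart `red (Bf n ∩ O)` is closed under
`p`-th roots, from the four fields `ic`, `frac`, `int`, `span`. -/
theorem FA_S18_FI_icl_fin_of (hMn : M ∣ n) (h49 : M = 4 ∨ M = 9) {ℓ : ℕ} (hℓ : ℓ.Prime)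
    (hA : A.LiesOverPrime ℓ) (hn : ¬ ℓ ∣ n)
    (hval : FA_S18_FI_Val A (FA_S18_pi A) (modularFunctionFieldBar M))
    (hrM : FA_S18_FI_Range A (FA_S18_pi A) (modularFunctionFieldBar M) (modularFunctionFieldFullC (IsLocalRing.ResidueField ↥A) M))
    (hrn : FA_S18_FI_Range A (FA_S18_pi A) (modularFunctionFieldBar n) (modularFunctionFieldFullC (IsLocalRing.ResidueField ↥A) n)) :
    letI : Algebra ↥(modularFunctionFieldBar M) ↥(modularFunctionFieldBar n) :=
      (IntermediateField.inclusion (FA_S18_NC_bar_le hMn)).toRingHom.toAlgebra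
    letI : Algebra ↥(modularFunctionFieldFullC (IsLocalRing.ResidueField ↥A) M) ↥(modularFunctionFieldFullC (IsLocalRing.ResidueField ↥A) n) :=
      (IntermediateField.inclusion (full_degeneracyC_le (IsLocalRing.ResidueField ↥A) hMn)).toRingHom.toAlgebra
    (∀ t : ↥(modularFunctionFieldFullC (IsLocalRing.ResidueField ↥A) M), IsIntegral ↥(FA_S18_U_Rb (FA_S18_FI_O A (FA_S18_pi A) (modularFunctionFieldBar M) hval)
        (FA_S18_FI_red A (FA_S18_pi A) (modularFunctionFieldBar M) (modularFunctionFieldFullC (IsLocalRing.ResidueField ↥A) M) hval hrM) (FA_S18_H2_Bf M).toSubring) t →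
      t ∈ FA_S18_U_Rb (FA_S18_FI_O A (FA_S18_pi A) (modularFunctionFieldBar M) hval)
        (FA_S18_FI_red A (FA_S18_pi A) (modularFunctionFieldBar M) (modularFunctionFieldFullC (IsLocalRing.ResidueField ↥A) M) hval hrM) (FA_S18_H2_Bf M).toSubring) →
    (∀ t : ↥(modularFunctionFieldFullC (IsLocalRing.ResidueField ↥A) M), ∃ r s : ↥(modularFunctionFieldFullC (IsLocalRing.ResidueField ↥A) M),
      r ∈ FA_S18_U_Rb (FA_S18_FI_O A (FA_S18_pi A) (modularFunctionFieldBar M) hval)
        (FA_S18_FI_red A (FA_S18_pi A) (modularFunctionFieldBar M) (modularFunctionFieldFullC (IsLocalRing.ResidueField ↥A) M) hval hrM) (FA_S18_H2_Bf M).toSubring ∧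
      s ∈ FA_S18_U_Rb (FA_S18_FI_O A (FA_S18_pi A) (modularFunctionFieldBar M) hval)
        (FA_S18_FI_red A (FA_S18_pi A) (modularFunctionFieldBar M) (modularFunctionFieldFullC (IsLocalRing.ResidueField ↥A) M) hval hrM) (FA_S18_H2_Bf M).toSubring ∧
      s ≠ 0 ∧ t * s = r) →
    (∀ y : ↥(FA_S18_FI_O' A (FA_S18_pi A) (modularFunctionFieldBar n)), (y : ↥(modularFunctionFieldBar n)) ∈ (FA_S18_H2_Bf n).toSubring →
      IsIntegral ↥(FA_S18_U_Rb (FA_S18_FI_O A (FA_S18_pi A) (modularFunctionFieldBar M) hval)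
        (FA_S18_FI_red A (FA_S18_pi A) (modularFunctionFieldBar M) (modularFunctionFieldFullC (IsLocalRing.ResidueField ↥A) M) hval hrM) (FA_S18_H2_Bf M).toSubring)
        (FA_S18_FI_red' A (FA_S18_pi A) (modularFunctionFieldBar n) (modularFunctionFieldFullC (IsLocalRing.ResidueField ↥A) n) hrn y)) →
    (∀ t : ↥(modularFunctionFieldFullC (IsLocalRing.ResidueField ↥A) n), ∃ (c : ↥(FA_S18_FI_O' A (FA_S18_pi A) (modularFunctionFieldBar n)))
        (s : ↥(FA_S18_FI_O A (FA_S18_pi A) (modularFunctionFieldBar M) hval)),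
      (c : ↥(modularFunctionFieldBar n)) ∈ (FA_S18_H2_Bf n).toSubring ∧ (s : ↥(modularFunctionFieldBar M)) ∈ (FA_S18_H2_Bf M).toSubring ∧
      FA_S18_FI_red A (FA_S18_pi A) (modularFunctionFieldBar M) (modularFunctionFieldFullC (IsLocalRing.ResidueField ↥A) M) hval hrM s ≠ 0 ∧
      algebraMap ↥(modularFunctionFieldFullC (IsLocalRing.ResidueField ↥A) M) ↥(modularFunctionFieldFullC (IsLocalRing.ResidueField ↥A) n) (FA_S18_FI_red A (FA_S18_pi A) (modularFunctionFieldBar M) (modularFunctionFieldFullC (IsLocalRing.ResidueField ↥A) M) hval hrM s) * t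
        = FA_S18_FI_red' A (FA_S18_pi A) (modularFunctionFieldBar n) (modularFunctionFieldFullC (IsLocalRing.ResidueField ↥A) n) hrn c) →
    ∀ (p : ℕ), 0 < p → ∀ x : ↥(modularFunctionFieldFullC (IsLocalRing.ResidueField ↥A) n), x ^ p ∈ FA_S18_I_redAlg A n hrn (FA_S18_H2_Bf n) →
      x ∈ FA_S18_I_redAlg A n hrn (FA_S18_H2_Bf n) := by
  letI : Algebra ↥(modularFunctionFieldBar M) ↥(modularFunctionFieldBar n) :=
    (IntermediateField.inclusion (FA_S18_NC_bar_le hMn)).toRingHom.toAlgebra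
  letI : Algebra ↥(modularFunctionFieldFullC (IsLocalRing.ResidueField ↥A) M) ↥(modularFunctionFieldFullC (IsLocalRing.ResidueField ↥A) n) :=
    (IntermediateField.inclusion (full_degeneracyC_le (IsLocalRing.ResidueField ↥A) hMn)).toRingHom.toAlgebra
  intro hic hfrac hint hspan p hp x hx
  have hM2 : 2 ≤ M := by rcases h49 with h | h <;> rw [h] <;> norm_num
  haveI hfd : FiniteDimensional ↥(modularFunctionFieldBar M) ↥(modularFunctionFieldBar n) := FA_S18_NC_finite_bar hMn hM2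
  haveI hfdb : FiniteDimensional ↥(modularFunctionFieldFullC (IsLocalRing.ResidueField ↥A) M) ↥(modularFunctionFieldFullC (IsLocalRing.ResidueField ↥A) n) := (FA_S18_SEPD_deg A n M hMn hℓ hA hn).1
  haveI := FA_S18_B_resField_isAlgClosed A
  haveI := FA_S18_B_resField_charP A ℓ hℓ hA
  haveI hsepb : Algebra.IsSeparable ↥(modularFunctionFieldFullC (IsLocalRing.ResidueField ↥A) M) ↥(modularFunctionFieldFullC (IsLocalRing.ResidueField ↥A) n) := FA_S18_SEP_bar ℓ hℓ (IsLocalRing.ResidueField ↥A) M n hMn hn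
  haveI hcz : CharZero ↥(modularFunctionFieldBar M) :=
    charZero_of_injective_algebraMap (algebraMap (AlgebraicClosure ℚ) ↥(modularFunctionFieldBar M)).injective
  haveI hsep : Algebra.IsSeparable ↥(modularFunctionFieldBar M) ↥(modularFunctionFieldBar n) := Algebra.IsAlgebraic.isSeparable_of_perfectField
  have H := FA_S18_FI_glueHyp A M n hMn h49 hℓ hA hn hval hrM hrn hic hfrac hint hspan
  obtain ⟨y₀, hy₀, hy₀x⟩ := hx
  have hxp : IsIntegral ↥(FA_S18_U_Rb (FA_S18_FI_O A (FA_S18_pi A) (modularFunctionFieldBar M) hval)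
      (FA_S18_FI_red A (FA_S18_pi A) (modularFunctionFieldBar M) (modularFunctionFieldFullC (IsLocalRing.ResidueField ↥A) M) hval hrM) (FA_S18_H2_Bf M).toSubring) (x ^ p) := by
    have h1 := H.int ⟨(y₀ : ↥(modularFunctionFieldBar n)), y₀.2⟩ hy₀
    have h2 : FA_S18_FI_red' A (FA_S18_pi A) (modularFunctionFieldBar n) (modularFunctionFieldFullC (IsLocalRing.ResidueField ↥A) n) hrn ⟨(y₀ : ↥(modularFunctionFieldBar n)), y₀.2⟩ = x ^ p := by
      rw [← hy₀x]
      exact Subtype.ext rfl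
    rw [h2] at h1
    exact h1
  have hxi := IsIntegral.of_pow hp hxp
  obtain ⟨y, hy, hyx⟩ := H.FA_S18_U_glue x hxi
  refine ⟨⟨(y : ↥(modularFunctionFieldBar n)), y.2⟩, hy, ?_⟩
  rw [← hyx]
  exact Subtype.ext rfl



end Fermat.Agent.S18
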