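import Fermat.Agent.S18.UnimodGlue
import Fermat.Agent.S18.GaussDefs
import Fermat.Agent.S18.BaseCoe

/-!
# S18, leaf N, INST-fin: generic types of the instance of `FA_S18_U_GlueHyp` at `E ⊂ F`

Everything is generic: `K₀` a field, `A` a valuation subring with residue map `π : A →+* k`,
`E, F` intermediate fields of `K₀((q)) / K₀`, `Eb, Fb` intermediate fields of `k((q)) / k`.
(Concrete use: `E = F_M`, `F = F_n`, `Eb = F̄_M`, `Fb = F̄_n`, `x = j`.)

* `FA_S18_FI_O' A π F : Subring ↥F` : the Gauss-integral elements of `F`.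
* `FA_S18_FI_O A π E hval : ValuationSubring ↥E` : the same, as a valuation subring.
* `FA_S18_FI_red' A π F Fb hr`, `FA_S18_FI_red A π E Eb hval hr` : the reductions.
* `FA_S18_FI_icl E x : Subring ↥E` : the elements of `E` integral over `K₀[x]` (`x` a series).
* `FA_S18_FI_K0 E : Subfield ↥E` : the constants.
-/

set_option autoImplicit false
set_option linter.unusedSectionVars false

noncomputable section

namespace Fermat.Agent.S18

open FA_S18

variable {K₀ : Type*} [Field K₀] (A : ValuationSubring K₀) {k : Type*} [Field k] (π : A →+* k)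

/-- The Gauss-integral elements of an intermediate field `F ⊂ K₀((q))`. -/
def FA_S18_FI_O' (F : IntermediateField K₀ (LaurentSeries K₀)) : Subring ↥F :=
  (FA_S18_B_ring A π).comap F.val.toRingHom

theorem FA_S18_FI_mem_O' {F : IntermediateField K₀ (LaurentSeries K₀)} {y : ↥F} :
    y ∈ FA_S18_FI_O' A π F ↔ FA_S18_B_IsInt A π (y : LaurentSeries K₀) := Iff.rfl

/-- `F ∩ (Gauss ring)` is a valuation ring of `F`. -/
def FA_S18_FI_Val (F : IntermediateField K₀ (LaurentSeries K₀)) : Prop :=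
  ∀ y ∈ F, FA_S18_B_IsInt A π y ∨ FA_S18_B_IsInt A π y⁻¹

/-- The Gauss valuation ring of `E`. -/
def FA_S18_FI_O (E : IntermediateField K₀ (LaurentSeries K₀)) (hval : FA_S18_FI_Val A π E) :
    ValuationSubring ↥E :=
  { FA_S18_FI_O' A π E with
    mem_or_inv_mem' := fun y => hval (y : LaurentSeries K₀) y.2 }

theorem FA_S18_FI_mem_O {E : IntermediateField K₀ (LaurentSeries K₀)}
    {hval : FA_S18_FI_Val A π E} {y : ↥E} :
    y ∈ FA_S18_FI_O A π E hval ↔ FA_S18_B_IsInt A π (y : LaurentSeries K₀) := Iff.rfl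

/-- `red` maps the Gauss-integral elements of `F` into `Fb`. -/
def FA_S18_FI_Range (F : IntermediateField K₀ (LaurentSeries K₀))
    (Fb : IntermediateField k (LaurentSeries k)) : Prop :=
  ∀ y ∈ F, FA_S18_B_IsInt A π y → FA_S18_B_red A π y ∈ Fb

/-- The reduction `O' → Fb`. -/
def FA_S18_FI_red' (F : IntermediateField K₀ (LaurentSeries K₀))
    (Fb : IntermediateField k (LaurentSeries k)) (hr : FA_S18_FI_Range A π F Fb) :
    ↥(FA_S18_FI_O' A π F) →+* ↥Fb where
  toFun y := ⟨FA_S18_B_red A π ((y : ↥F) : LaurentSeries K₀), hr _ (y : ↥F).2 y.2⟩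
  map_one' := Subtype.ext FA_S18_B_red_one
  map_mul' y y' := Subtype.ext (FA_S18_B_red_mul y.2 y'.2)
  map_zero' := Subtype.ext FA_S18_B_red_zero
  map_add' y y' := Subtype.ext (FA_S18_B_red_add y.2 y'.2)

theorem FA_S18_FI_red'_coe (F : IntermediateField K₀ (LaurentSeries K₀))
    (Fb : IntermediateField k (LaurentSeries k)) (hr : FA_S18_FI_Range A π F Fb)
    (y : ↥(FA_S18_FI_O' A π F)) :
    ((FA_S18_FI_red' A π F Fb hr y : ↥Fb) : LaurentSeries k)
      = FA_S18_B_red A π ((y : ↥F) : LaurentSeries K₀) := rfl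

/-- The reduction `O → Eb` on the valuation ring. -/
def FA_S18_FI_red (E : IntermediateField K₀ (LaurentSeries K₀))
    (Eb : IntermediateField k (LaurentSeries k)) (hval : FA_S18_FI_Val A π E)
    (hr : FA_S18_FI_Range A π E Eb) :
    ↥(FA_S18_FI_O A π E hval) →+* ↥Eb where
  toFun y := ⟨FA_S18_B_red A π ((y : ↥E) : LaurentSeries K₀), hr _ (y : ↥E).2 y.2⟩
  map_one' := Subtype.ext FA_S18_B_red_one
  map_mul' y y' := Subtype.ext (FA_S18_B_red_mul y.2 y'.2)
  map_zero' := Subtype.ext FA_S18_B_red_zero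
  map_add' y y' := Subtype.ext (FA_S18_B_red_add y.2 y'.2)

theorem FA_S18_FI_red_coe (E : IntermediateField K₀ (LaurentSeries K₀))
    (Eb : IntermediateField k (LaurentSeries k)) (hval : FA_S18_FI_Val A π E)
    (hr : FA_S18_FI_Range A π E Eb) (y : ↥(FA_S18_FI_O A π E hval)) :
    ((FA_S18_FI_red A π E Eb hval hr y : ↥Eb) : LaurentSeries k)
      = FA_S18_B_red A π ((y : ↥E) : LaurentSeries K₀) := rfl

/-- The elements of `E` which are integral over `K₀[x]`, `x` a Laurent series. -/
def FA_S18_FI_icl (E : IntermediateField K₀ (LaurentSeries K₀)) (x : LaurentSeries K₀) :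
    Subring ↥E :=
  (integralClosure ↥(Algebra.adjoin K₀ {x}) (LaurentSeries K₀)).toSubring.comap
    E.val.toRingHom

theorem FA_S18_FI_mem_icl {E : IntermediateField K₀ (LaurentSeries K₀)} {x : LaurentSeries K₀}
    {y : ↥E} : y ∈ FA_S18_FI_icl E x ↔
      IsIntegral ↥(Algebra.adjoin K₀ {x}) (y : LaurentSeries K₀) := Iff.rfl

/-- The constants of `E`. -/
def FA_S18_FI_K0 (E : IntermediateField K₀ (LaurentSeries K₀)) : Subfield ↥E :=
  (algebraMap K₀ ↥E).fieldRange

theorem FA_S18_FI_mem_K0 {E : IntermediateField K₀ (LaurentSeries K₀)} {y : ↥E} :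
    y ∈ FA_S18_FI_K0 E ↔ ∃ c : K₀, algebraMap K₀ ↥E c = y := Iff.rfl

/-- The inclusion `E → F` as an algebra structure (the form used by all the inputs). -/
@[reducible] def FA_S18_FI_incl {L : Type*} [Field L] [Algebra K₀ L]
    {E F : IntermediateField K₀ L} (h : E ≤ F) : Algebra ↥E ↥F :=
  (IntermediateField.inclusion h).toRingHom.toAlgebra

theorem FA_S18_FI_incl_coe {L : Type*} [Field L] [Algebra K₀ L]
    {E F : IntermediateField K₀ L} (h : E ≤ F) (a : ↥E) :
    ((@algebraMap ↥E ↥F _ _ (IntermediateField.inclusion h).toRingHom.toAlgebra a : ↥F) : L)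
      = (a : L) := rfl

end Fermat.Agent.S18
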