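import Fermat.Agent.S18.FinInstDefs

/-!
# S18, leaf N, INST-fin: the formal fields of the instance of `FA_S18_U_GlueHyp` (generic)

`red_max`, `incl`, `compat` for the generic types of `S18/FinInstDefs.lean`, for arbitrary
intermediate fields `E ≤ F` of `K₀((q))`, `Eb ≤ Fb` of `k((q))` with the inclusion algebras.
-/

set_option autoImplicit false
set_option linter.unusedSectionVars false
set_option linter.style.haveILetI false

noncomputable section

namespace Fermat.Agent.S18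

open FA_S18

variable {K₀ : Type*} [Field K₀] (A : ValuationSubring K₀) {k : Type*} [Field k] (π : A →+* k)
  {E F : IntermediateField K₀ (LaurentSeries K₀)}
  {Eb Fb : IntermediateField k (LaurentSeries k)}

/-- `red_max` -/
theorem FA_S18_FI_red_max (hval : FA_S18_FI_Val A π E) (hrE : FA_S18_FI_Range A π E Eb)
    (a : ↥(FA_S18_FI_O A π E hval)) (ha : ((a : ↥E))⁻¹ ∉ FA_S18_FI_O A π E hval) :
    FA_S18_FI_red A π E Eb hval hrE a = 0 := by
  by_contra hne
  apply ha
  have hne' : FA_S18_B_red A π ((a : ↥E) : LaurentSeries K₀) ≠ 0 := by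
    intro h0
    apply hne
    apply Subtype.ext
    rw [FA_S18_FI_red_coe]
    exact h0
  exact (FA_S18_B_isInt_inv a.2 hne').1

/-- `incl` -/
theorem FA_S18_FI_incl_mem (hEF : E ≤ F) (hval : FA_S18_FI_Val A π E)
    (a : ↥(FA_S18_FI_O A π E hval)) :
    letI : Algebra ↥E ↥F := (IntermediateField.inclusion hEF).toRingHom.toAlgebra
    algebraMap ↥E ↥F (a : ↥E) ∈ FA_S18_FI_O' A π F := by
  letI : Algebra ↥E ↥F := (IntermediateField.inclusion hEF).toRingHom.toAlgebra
  exact a.2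

/-- `compat` -/
theorem FA_S18_FI_compat (hEF : E ≤ F) (hEFb : Eb ≤ Fb) (hval : FA_S18_FI_Val A π E)
    (hrE : FA_S18_FI_Range A π E Eb) (hrF : FA_S18_FI_Range A π F Fb)
    (a : ↥(FA_S18_FI_O A π E hval)) (y : ↥(FA_S18_FI_O' A π F)) :
    letI : Algebra ↥E ↥F := (IntermediateField.inclusion hEF).toRingHom.toAlgebra
    letI : Algebra ↥Eb ↥Fb := (IntermediateField.inclusion hEFb).toRingHom.toAlgebra
    (y : ↥F) = algebraMap ↥E ↥F (a : ↥E) →
      FA_S18_FI_red' A π F Fb hrF y = algebraMap ↥Eb ↥Fb (FA_S18_FI_red A π E Eb hval hrE a) := by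
  letI : Algebra ↥E ↥F := (IntermediateField.inclusion hEF).toRingHom.toAlgebra
  letI : Algebra ↥Eb ↥Fb := (IntermediateField.inclusion hEFb).toRingHom.toAlgebra
  intro h
  apply Subtype.ext
  rw [FA_S18_FI_red'_coe, h]
  rfl

/-- `K0_le` for any subring containing the constants. -/
theorem FA_S18_FI_K0_le (RQ : Subalgebra K₀ ↥E) :
    ∀ c ∈ FA_S18_FI_K0 E, c ∈ RQ.toSubring := by
  rintro _ ⟨c, rfl⟩
  exact RQ.algebraMap_mem c

/-- The elements of `redAlg`-type: the reduction of `RQ ∩ O` in ambient terms. -/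
theorem FA_S18_FI_mem_Rb (hval : FA_S18_FI_Val A π E) (hrE : FA_S18_FI_Range A π E Eb)
    (RQ : Subring ↥E) (t : ↥Eb) :
    t ∈ FA_S18_U_Rb (FA_S18_FI_O A π E hval) (FA_S18_FI_red A π E Eb hval hrE) RQ ↔
      ∃ r : ↥E, r ∈ RQ ∧ FA_S18_B_IsInt A π (r : LaurentSeries K₀) ∧
        FA_S18_B_red A π (r : LaurentSeries K₀) = (t : LaurentSeries k) := by
  rw [FA_S18_U_mem_Rb]
  constructor
  · rintro ⟨r, hr, rfl⟩
    exact ⟨r, hr, r.2, rfl⟩
  · rintro ⟨r, hr, hint, hred⟩
    exact ⟨⟨r, hint⟩, hr, Subtype.ext hred⟩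

end Fermat.Agent.S18
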