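import Fermat.Agent.S18.InstB
import Fermat.Agent.S18.CoreAbs

/-!
# S18, leaf I: the abstract core `FA_S18_E_core` for the concrete objects

`FA_S18_I_core` : from the targets of leaf B (`scale`, `ker`, `range`, `cart`) and of leaf N
(`FA_S18_I_Target_N_icl`, `FA_S18_I_Target_N_h1`): every Gauss-integral `f ∈ F_n` with `red f = 1`
all of whose orders are divisible by a prime `p ≠ ℓ` is a constant times a `p`-th power in `F_n`.
-/

set_option autoImplicit false
set_option linter.unusedSectionVars false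

noncomputable section

namespace Fermat.Agent.S18

open ModularCurve IsLocalRing FA_S18 AlgebraicCurve

variable (A : ValuationSubring (AlgebraicClosure ℚ)) (n : ℕ) [NeZero n]

/-- **Core for the concrete objects**, element form. -/
theorem FA_S18_I_core_elt {ℓ : ℕ} (hℓ : ℓ.Prime) (hA : A.LiesOverPrime ℓ) (hn : ¬ ℓ ∣ n)
    (h : FA_S18_I_Range A n) (hscale : FA_S18_Target_B_scale A n ℓ)
    (hker : FA_S18_Target_B_ker A n ℓ) (hcart : FA_S18_Target_B_cart A n ℓ)
    (p : ℕ) (hp : p.Prime) (hpℓ : p ≠ ℓ)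
    (hicl : FA_S18_I_Target_N_icl A n h p) (hh1 : FA_S18_I_Target_N_h1 A n)
    (f : ↥(FA_S18_I_O A n)) (hf : FA_S18_I_red A n h f = 1)
    (hdiv : ∀ v : Place (AlgebraicClosure ℚ) ↥(modularFunctionFieldBar n),
      (p : ℤ) ∣ v.ord (f : ↥(modularFunctionFieldBar n))) :
    ∃ c : AlgebraicClosure ℚ, c ≠ 0 ∧ ∃ g : ↥(modularFunctionFieldBar n),
      (f : ↥(modularFunctionFieldBar n))
        = algebraMap (AlgebraicClosure ℚ) ↥(modularFunctionFieldBar n) c * g ^ p :=
  FA_S18_E_core (FA_S18_I_hyp A n hℓ hA hn h hker hcart p hp.pos f hf hdiv hicl hh1)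
    (FA_S18_I_hyp2 A n hℓ hA hn hscale p hp hpℓ)

/-- **Core for the concrete objects**, Laurent-series form: `f ∈ F_n` Gauss-integral with
reduction `1` and all orders divisible by `p`. -/
theorem FA_S18_I_core {ℓ : ℕ} (hℓ : ℓ.Prime) (hA : A.LiesOverPrime ℓ) (hn : ¬ ℓ ∣ n)
    (hrange : FA_S18_Target_B_range A n ℓ) (hscale : FA_S18_Target_B_scale A n ℓ)
    (hker : FA_S18_Target_B_ker A n ℓ) (hcart : FA_S18_Target_B_cart A n ℓ)
    (p : ℕ) (hp : p.Prime) (hpℓ : p ≠ ℓ)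
    (hicl : FA_S18_I_Target_N_icl A n (FA_S18_I_range_of_target A n hℓ hA hn hrange) p)
    (hh1 : FA_S18_I_Target_N_h1 A n)
    (f : ↥(modularFunctionFieldBar n))
    (hfO : FA_S18_B_IsInt A (FA_S18_pi A) (f : LaurentSeries (AlgebraicClosure ℚ)))
    (hf : FA_S18_B_red A (FA_S18_pi A) (f : LaurentSeries (AlgebraicClosure ℚ)) = 1)
    (hdiv : ∀ v : Place (AlgebraicClosure ℚ) ↥(modularFunctionFieldBar n), (p : ℤ) ∣ v.ord f) :
    ∃ c : AlgebraicClosure ℚ, c ≠ 0 ∧ ∃ g : ↥(modularFunctionFieldBar n),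
      f = algebraMap (AlgebraicClosure ℚ) ↥(modularFunctionFieldBar n) c * g ^ p :=
  FA_S18_I_core_elt A n hℓ hA hn (FA_S18_I_range_of_target A n hℓ hA hn hrange) hscale hker hcart
    p hp hpℓ hicl hh1 ⟨f, hfO⟩ (Subtype.ext hf) hdiv

end Fermat.Agent.S18
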