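import Fermat.Agent.S18.NCh0Transfer

/-!
# S18, leaf N, sub-leaf N-CH0 (char 0): counting the places over `j = c`

For `L ≥ 2` the number of places of `F_L = ℚ̄(X₀(L))` over `j = c` is the number of orbits of the
inertia group `I_c` on `SL₂(ℤ) / Γ₀(L)`; the degree of `F_L` over `ℚ̄(j)` is `ψ(L)`.  If
`ν₂(L) = ν₃(L) = 0` this is `ψ(L) / e_c` with `e_0 = 3`, `e_1728 = 2`, `e_c = 1` otherwise.
-/

set_option autoImplicit false
set_option linter.style.haveILetI false

noncomputable section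

namespace Fermat.Agent.S24

open AlgebraicCurve MatrixGroups IntermediateField

section abstract

variable {K F : Type} [Field K] [IsAlgClosed K] [CharZero K] [Field F] [Algebra K F]

/-- Counting zeros of `x - c` from the model. -/
theorem FA_S18_NC_card_of_model {N : ℕ} {x : F} (hM : FA_S18_NC_ModelAt K F N x) (c : K) :
    Nat.card {v : Place K F // 0 < v.ord (x - algebraMap K F c)}
      = FA_S24_orbits (FA_S24_IK c) (CongruenceSubgroup.Gamma0 N) := by
  obtain ⟨E, _, _, _, _, φ, hfin, hx, hxΓ, hfixΓ, hker, hH, hfixH, hI, -⟩ := hM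
  obtain ⟨w, hw1, hw2, hw3, -⟩ := hI c
  have hmap : algebraMap F E (x - algebraMap K F c) =
      algebraMap F E x - algebraMap K E c := by
    rw [map_sub, ← IsScalarTower.algebraMap_apply K F E]
  refine FA_S24_A_count K F E SL(2, ℤ) φ hfin (x - algebraMap K F c)
    (FA_RR.transcendental_sub_const hx c)
    ?_ ?_ (CongruenceSubgroup.Gamma0 N) hker hH hfixH (FA_S24_IK c) w ?_ hw2 ?_
  · intro γ
    rw [hmap, map_sub, hxΓ γ, AlgEquiv.commutes]
  · intro e he
    obtain ⟨f, hf, hfe⟩ := hfixΓ e he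
    exact ⟨f, by rw [FA_RR.adjoin_sub_const_eq]; exact hf, hfe⟩
  · rw [hmap]; exact hw1
  · rw [hmap]; exact hw3

/-- The degree from the model. -/
theorem FA_S18_NC_finrank_of_model {N : ℕ} {x : F} (hM : FA_S18_NC_ModelAt K F N x) :
    FA_RR_IsFF K F ∧
      Module.finrank (IntermediateField.adjoin K {x}) F = (CongruenceSubgroup.Gamma0 N).index := by
  obtain ⟨E, _, _, _, _, φ, hfin, hx, hxΓ, hfixΓ, hker, hH, hfixH, -, -⟩ := hM
  exact FA_S24_A_degree K F E SL(2, ℤ) φ hfin x hx hxΓ hfixΓ (CongruenceSubgroup.Gamma0 N)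
    hker hH hfixH

/-- The ramification bound: every zero of `x - c` on `F` has order at most `eBound c`. -/
theorem FA_S18_NC_ord_le_of_model {N : ℕ} {x : F} (hM : FA_S18_NC_ModelAt K F N x) (c : K)
    (v : Place K F) (hv : 0 < v.ord (x - algebraMap K F c)) :
    v.ord (x - algebraMap K F c) ≤ FA_S24_eBound c := by
  obtain ⟨E, _, _, _, _, φ, hfin, hx, hxΓ, hfixΓ, hker, hH, hfixH, hI, -⟩ := hM
  obtain ⟨w, hw1, hw2, hw3, hw4⟩ := hI c
  classical
  set y : F := x - algebraMap K F c with hy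
  have hyT : Transcendental K y := FA_RR.transcendental_sub_const hx c
  have hmap : algebraMap F E y = algebraMap F E x - algebraMap K E c := by
    rw [hy, map_sub, ← IsScalarTower.algebraMap_apply K F E]
  have hyΓ : ∀ γ : SL(2, ℤ), φ γ (algebraMap F E y) = algebraMap F E y := by
    intro γ
    rw [hmap, map_sub, hxΓ γ, AlgEquiv.commutes]
  have hfixy : ∀ e : E, (∀ γ : SL(2, ℤ), φ γ e = e) →
      ∃ f : F, f ∈ IntermediateField.adjoin K {y} ∧ algebraMap F E f = e := by
    intro e he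
    obtain ⟨f, hf, hfe⟩ := hfixΓ e he
    exact ⟨f, by rw [hy, FA_RR.adjoin_sub_const_eq]; exact hf, hfe⟩
  have hw : 0 < w.ord (algebraMap F E y) := by rw [hmap]; exact hw1
  have hyE : Transcendental K (algebraMap F E y) :=
    (transcendental_algebraMap_iff (algebraMap F E).injective).mpr hyT
  obtain ⟨hFE, hcardG⟩ := FA_S24_isFF_top φ hfin y hyT hyΓ hfixy
  haveI : FiniteDimensional K⟮algebraMap F E y⟯ E := FA_RR.finiteDimensional_adjoin hFE hyE
  have hG2 : IsGaloisGroup ((CongruenceSubgroup.Gamma0 N).map φ) F E :=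
    FA_S24_isGaloisGroup_map φ F (CongruenceSubgroup.Gamma0 N) hH hfixH
  haveI hfinH : Finite ((CongruenceSubgroup.Gamma0 N).map φ) :=
    FA_S24_finite_map φ hfin (CongruenceSubgroup.Gamma0 N)
  haveI hfinG : Finite φ.range := hfin
  haveI : FiniteDimensional F E :=
    IsGaloisGroup.finiteDimensional ((CongruenceSubgroup.Gamma0 N).map φ) F E
  -- a place of `E` over `v`
  obtain ⟨w', hw'⟩ := FA_S24_exists_restrict_eq (E := E) v
  have hord' : w'.ord (algebraMap F E y) = (w'.ramificationIndex F : ℤ) * v.ord y := by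
    rw [w'.ord_restrict y, hw']
  have hepos := w'.ramificationIndex_pos (F := F)
  have hw'pos : 0 < w'.ord (algebraMap F E y) := by
    rw [hord']
    exact mul_pos (by exact_mod_cast hepos) hv
  -- transitivity
  obtain ⟨g, ⟨γ, rfl⟩, hg⟩ := FA_S24_exists_smul_eq hyE φ.range
    (by rintro g ⟨γ, rfl⟩; exact hyΓ γ) w w'
    ((FA_RR.mem_iff_ord w).mpr (Or.inr hw.le)) ((FA_RR.mem_iff_ord w').mpr (Or.inr hw'pos.le))
    (by
      intro z hz hpos
      obtain ⟨f, hf, rfl⟩ := hfixy z (fun γ => hz (φ γ) ⟨γ, rfl⟩)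
      obtain ⟨m, hm⟩ := FA_S24_ord_ratfunc (K := K) (FA_S24_mem_adjoin_map (E := E) hf)
      rw [hm w' hw'pos] at hpos
      rw [hm w hw]
      have hm0 : 0 < m := by
        by_contra hneg
        push Not at hneg
        have : m * w'.ord (algebraMap F E y) ≤ 0 :=
          mul_nonpos_of_nonpos_of_nonneg hneg hw'pos.le
        omega
      exact mul_pos hm0 hw)
  have hordeq : w'.ord (algebraMap F E y) = w.ord (algebraMap F E y) := by
    rw [hg]
    exact FA_S24_ord_smul_of_fixed (φ γ) w (hyΓ γ)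
  have h1 : v.ord y ≤ w'.ord (algebraMap F E y) := by
    rw [hord']
    have h2 : (1 : ℤ) ≤ (w'.ramificationIndex F : ℤ) := by exact_mod_cast hepos
    nlinarith
  calc v.ord y ≤ w'.ord (algebraMap F E y) := h1
    _ = w.ord (algebraMap F E y) := hordeq
    _ = w.ord (algebraMap F E x - algebraMap K E c) := by rw [hmap]
    _ ≤ FA_S24_eBound c := hw4

/-- If `#orbits · eBound = degree`, every zero of `x - c` has order exactly `eBound c`. -/
theorem FA_S18_NC_ord_eq_of_model {N : ℕ} {x : F} (hM : FA_S18_NC_ModelAt K F N x) (c : K)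
    (hnum : (FA_S24_orbits (FA_S24_IK c) (CongruenceSubgroup.Gamma0 N) : ℤ) * FA_S24_eBound c
      = ((CongruenceSubgroup.Gamma0 N).index : ℤ))
    (v : Place K F) (hv : 0 < v.ord (x - algebraMap K F c)) :
    v.ord (x - algebraMap K F c) = FA_S24_eBound c := by
  classical
  obtain ⟨hF, hn⟩ := FA_S18_NC_finrank_of_model hM
  have hx : Transcendental K x := by
    obtain ⟨E, _, _, _, _, φ, hfin, hx, -⟩ := hM
    exact hx
  set y : F := x - algebraMap K F c with hy
  have hyT : Transcendental K y := FA_RR.transcendental_sub_const hx c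
  have hcard := FA_S18_NC_card_of_model hM c
  have hdeg := FA_RR.degree_zeroDiv hF hyT
  rw [FA_RR.finrank_adjoin_sub_const, hn] at hdeg
  have hsum : Divisor.degree (FA_RR.zeroDiv hF hyT) =
      ∑ w' ∈ (FA_RR.zeroDiv hF hyT).support, FA_RR.zeroDiv hF hyT w' := by
    conv_lhs => rw [← Finsupp.sum_single (FA_RR.zeroDiv hF hyT)]
    rw [Finsupp.sum, map_sum]
    simp only [Divisor.degree_single, FA_RR.deg_eq_one hF, Nat.cast_one, mul_one]
  have hle : ∀ w' ∈ (FA_RR.zeroDiv hF hyT).support,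
      FA_RR.zeroDiv hF hyT w' ≤ FA_S24_eBound c := by
    intro w' hw'
    have hpos := (FA_RR.mem_support_zeroDiv hF hyT w').mp hw'
    rw [FA_RR.zeroDiv_apply, max_eq_left hpos.le]
    exact FA_S18_NC_ord_le_of_model hM c w' hpos
  have hcard' : ((FA_RR.zeroDiv hF hyT).support.card : ℤ)
      = (FA_S24_orbits (FA_S24_IK c) (CongruenceSubgroup.Gamma0 N) : ℤ) := by
    rw [FA_RR.card_support_zeroDiv hF hyT, hcard]
  have htot : ∑ w' ∈ (FA_RR.zeroDiv hF hyT).support, FA_S24_eBound c
      = ∑ w' ∈ (FA_RR.zeroDiv hF hyT).support, FA_RR.zeroDiv hF hyT w' := by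
    rw [Finset.sum_const, nsmul_eq_mul, hcard', hnum, ← hsum, hdeg]
  have hvmem : v ∈ (FA_RR.zeroDiv hF hyT).support :=
    (FA_RR.mem_support_zeroDiv hF hyT v).mpr hv
  have heq := (Finset.sum_eq_sum_iff_of_le hle).mp htot.symm v hvmem
  rw [FA_RR.zeroDiv_apply, max_eq_left hv.le] at heq
  exact heq

end abstract

end Fermat.Agent.S24

end
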