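import Mathlib

/-!
# S18, leaf N, sub-leaf N-CH0: unramified ⇒ trivial different ⇒ trace-dual form (generic core)

`A ⊆ B` Dedekind domains with fraction fields `F ⊆ F'` (finite, characteristic zero), `A` an
algebra over a field `K` of characteristic zero, `B` the integral closure of `A` in `F'`.
If every nonzero maximal ideal `P` of `B` contains the image of an element of `A` that is not in
`P ^ 2` (i.e. `e(P) = 1`), then `differentIdeal A B = ⊤`, and hence
`Tr_{F'/F}(y · B) ⊆ A → y ∈ B`.
-/

set_option autoImplicit false
set_option linter.style.haveILetI false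

open IsDedekindDomain

namespace Fermat.Agent.S24

section Core

attribute [local instance] FractionRing.liftAlgebra FractionRing.isScalarTower_liftAlgebra
  Ideal.Quotient.field

/-- If every nonzero maximal ideal `P` of `B` contains the image of an element of `A` that is
not in `P ^ 2`, then the different of `B / A` is trivial (characteristic zero). -/
theorem FA_S18_NC_different_top
    (K A B F F' : Type*) [Field K] [CharZero K] [CommRing A] [CommRing B] [Field F] [Field F']
    [Algebra K A]
    [Algebra A F] [Algebra B F'] [Algebra A B] [Algebra F F'] [Algebra A F']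
    [IsScalarTower A F F'] [IsScalarTower A B F']
    [IsDedekindDomain A] [IsDedekindDomain B] [IsFractionRing A F] [IsFractionRing B F']
    [FiniteDimensional F F'] [CharZero F] [IsIntegralClosure B A F']
    [Module.IsTorsionFree A B]
    (h : ∀ P : Ideal B, P.IsMaximal → P ≠ ⊥ →
      ∃ a : A, algebraMap A B a ∈ P ∧ algebraMap A B a ∉ P ^ 2) :
    differentIdeal A B = ⊤ := by
  classical
  haveI : Module.Finite A B := IsIntegralClosure.finite A F F' B
  haveI : Algebra.IsIntegral A B := IsIntegralClosure.isIntegral_algebra A F'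
  haveI : CharZero A := by
    refine ⟨fun m n hmn => ?_⟩
    have := congrArg (algebraMap A F) hmn
    simpa using this
  haveI : CharZero (FractionRing A) :=
    charZero_of_injective_algebraMap (IsFractionRing.injective A (FractionRing A))
  haveI : Algebra.IsSeparable (FractionRing A) (FractionRing B) := inferInstance
  by_contra hne
  obtain ⟨P, hPmax, hle⟩ := Ideal.exists_le_maximal _ hne
  have hP0 : P ≠ ⊥ := by
    rintro rfl
    exact (differentIdeal_ne_bot (A := A) (B := B)) (le_bot_iff.mp hle)
  obtain ⟨a, haP, haP2⟩ := h P hPmax hP0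
  -- the prime below
  set p : Ideal A := P.under A with hp
  haveI : P.LiesOver p := ⟨rfl⟩
  haveI hpmax : p.IsMaximal := Ideal.IsMaximal.under A P
  have hp0 : p ≠ ⊥ := mt Ideal.eq_bot_of_comap_eq_bot hP0
  have hp' : p.map (algebraMap A B) ≠ ⊥ :=
    (Ideal.map_eq_bot_iff_of_injective (FaithfulSMul.algebraMap_injective A B)).not.mpr hp0
  obtain ⟨Q, hQ1, hQ2⟩ := Ideal.eq_prime_pow_mul_coprime hp' P
  have hap : a ∈ p := haP
  have hmapP : p.map (algebraMap A B) ≤ P := Ideal.map_comap_le
  have hk : Multiset.count P (UniqueFactorizationMonoid.normalizedFactors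
      (p.map (algebraMap A B))) = 1 := by
    set k := Multiset.count P (UniqueFactorizationMonoid.normalizedFactors
      (p.map (algebraMap A B))) with hkdef
    rcases Nat.lt_or_ge k 1 with h0 | h1
    · exfalso
      have hk0 : k = 0 := by omega
      rw [hk0, pow_zero, one_mul] at hQ2
      have : Q ≤ P := hQ2 ▸ hmapP
      rw [sup_of_le_left this] at hQ1
      exact hPmax.ne_top hQ1
    rcases Nat.lt_or_ge 1 k with h2 | h2
    · exfalso
      apply haP2
      have h3 : p.map (algebraMap A B) ≤ P ^ 2 := by
        rw [hQ2]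
        exact Ideal.mul_le_left.trans (Ideal.pow_le_pow_right h2)
      exact h3 (Ideal.mem_map_of_mem _ hap)
    · omega
  rw [hk, pow_one] at hQ2
  haveI : Algebra.IsSeparable (A ⧸ p) (B ⧸ P) := by
    haveI : CharZero (A ⧸ p) := by
      exact charZero_of_injective_ringHom
        (f := (Ideal.Quotient.mk p).comp (algebraMap K A)) (RingHom.injective _)
    exact Algebra.IsAlgebraic.isSeparable_of_perfectField
  exact not_dvd_differentIdeal_of_isCoprime_of_isSeparable A P Q
    (Ideal.isCoprime_iff_sup_eq.mpr hQ1) hQ2.symm (Ideal.dvd_iff_le.mpr hle)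

/-- Trace-dual form: if the different is trivial, `Tr(y · B) ⊆ A` forces `y ∈ B`. -/
theorem FA_S18_NC_dual_mem
    (K A B F F' : Type*) [Field K] [CharZero K] [CommRing A] [CommRing B] [Field F] [Field F']
    [Algebra K A]
    [Algebra A F] [Algebra B F'] [Algebra A B] [Algebra F F'] [Algebra A F']
    [IsScalarTower A F F'] [IsScalarTower A B F']
    [IsDedekindDomain A] [IsDedekindDomain B] [IsFractionRing A F] [IsFractionRing B F']
    [FiniteDimensional F F'] [CharZero F] [IsIntegralClosure B A F']
    [Module.IsTorsionFree A B]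
    (h : ∀ P : Ideal B, P.IsMaximal → P ≠ ⊥ →
      ∃ a : A, algebraMap A B a ∈ P ∧ algebraMap A B a ∉ P ^ 2)
    (y : F')
    (hy : ∀ b : B, ∃ a : A, Algebra.trace F F' (y * algebraMap B F' b) = algebraMap A F a) :
    ∃ b : B, algebraMap B F' b = y := by
  have hD := FA_S18_NC_different_top K A B F F' h
  have h1 := coeIdeal_differentIdeal A F F' B
  rw [hD, FractionalIdeal.coeIdeal_top] at h1
  have h2 : FractionalIdeal.dual A F (1 : FractionalIdeal (nonZeroDivisors B) F') = 1 :=
    inv_eq_one.mp h1.symm
  have h3 : y ∈ FractionalIdeal.dual A F (1 : FractionalIdeal (nonZeroDivisors B) F') := by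
    rw [FractionalIdeal.mem_dual (one_ne_zero' (FractionalIdeal (nonZeroDivisors B) F'))]
    intro a ha
    obtain ⟨b, rfl⟩ := (FractionalIdeal.mem_one_iff _).mp ha
    obtain ⟨a', ha'⟩ := hy b
    exact ⟨a', by rw [Algebra.traceForm_apply, ha']⟩
  rw [h2] at h3
  exact (FractionalIdeal.mem_one_iff _).mp h3

end Core

end Fermat.Agent.S24
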