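import Fermat.Agent.S18.NCh0Final

/-!
# S18, leaf N, sub-leaf N-CH0: extras

* `FA_S18_NC_Z1` : at any level `L ≥ 2`, a place over `j = c`, `c ≠ 0, 1728`, has
  `ord (j - c) = 1`;
* `FA_S18_NC_trace_mem` : `Tr_{F_n/F_M}(Bf n) ⊆ Bf M`;
* `FA_S18_NC_map_mem` : `Bf M ⊆ Bf n`.
-/

set_option autoImplicit false
set_option linter.style.haveILetI false
set_option linter.unusedSectionVars false

noncomputable section

namespace Fermat.Agent.S24

open AlgebraicCurve IntermediateField ModularCurve Fermat.Agent.S18 Polynomial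

local notation "Qb" => AlgebraicClosure ℚ

/-! ### Z1 -/

/-- **Z1.**  At any level `L ≥ 2`, every place over `j = c`, `c ∉ {0, 1728}`, is unramified
over the `j`-line. -/
theorem FA_S18_NC_Z1 (L : ℕ) [NeZero L] (hL : 2 ≤ L) (c : Qb) (hc0 : c ≠ 0) (hc1 : c ≠ 1728)
    (v : Place Qb (modularFunctionFieldBar L))
    (hv : 0 < v.ord (FA_S18_A_jbar L - algebraMap Qb (modularFunctionFieldBar L) c)) :
    v.ord (FA_S18_A_jbar L - algebraMap Qb (modularFunctionFieldBar L) c) = 1 := by
  classical
  rw [← FA_S18_NC_jBar_eq] at hv ⊢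
  have h := FA_S18_NC_ord_le_of_model (FA_S18_NC_model L hL) c v hv
  have he : FA_S24_eBound c = 1 := by
    unfold FA_S24_eBound
    rw [if_neg hc0, if_neg hc1]
  rw [he] at h
  omega

/-! ### Integrality over `K[x]` and over `K[x']` -/

section Generic

variable {K F F' : Type*} [Field K] [Field F] [Field F']
  [Algebra K F] [Algebra K F'] [Algebra F F'] [IsScalarTower K F F']

/-- The restriction of `F → F'` to `K[x] → K[x']`. -/
def FA_S18_NC_adjoinMap (x : F) :
    Algebra.adjoin K {x} →+* Algebra.adjoin K {algebraMap F F' x} :=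
  ((algebraMap F F').comp (algebraMap (Algebra.adjoin K {x}) F)).codRestrict
    (Algebra.adjoin K {algebraMap F F' x}).toSubring (fun a => by
      have h1 : (Algebra.adjoin K {x}).map (IsScalarTower.toAlgHom K F F')
          = Algebra.adjoin K {algebraMap F F' x} :=
        AlgHom.map_adjoin_singleton (IsScalarTower.toAlgHom K F F') x
      show algebraMap F F' (a : F) ∈ Algebra.adjoin K {algebraMap F F' x}
      rw [← h1]
      exact ⟨a, a.2, rfl⟩)

theorem FA_S18_NC_adjoinMap_surjective (x : F) :
    Function.Surjective (FA_S18_NC_adjoinMap (K := K) (F' := F') x) := by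
  rintro ⟨b, hb⟩
  have h1 : (Algebra.adjoin K {x}).map (IsScalarTower.toAlgHom K F F')
      = Algebra.adjoin K {algebraMap F F' x} :=
    AlgHom.map_adjoin_singleton (IsScalarTower.toAlgHom K F F') x
  rw [← h1] at hb
  obtain ⟨a, ha, rfl⟩ := hb
  exact ⟨⟨a, ha⟩, Subtype.ext rfl⟩

/-- Integral over `K[x]` ⟹ integral over `K[x']`. -/
theorem FA_S18_NC_isIntegral_ascend (x : F) {y : F'}
    (h : IsIntegral (Algebra.adjoin K {x}) y) :
    IsIntegral (Algebra.adjoin K {algebraMap F F' x}) y :=
  IsIntegral.map_of_comp_eq (FA_S18_NC_adjoinMap x) (RingHom.id F')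
    (by ext a; rfl) h

/-- Integral over `K[x']` ⟹ integral over `K[x]`. -/
theorem FA_S18_NC_isIntegral_descend (x : F) {y : F'}
    (h : IsIntegral (Algebra.adjoin K {algebraMap F F' x}) y) :
    IsIntegral (Algebra.adjoin K {x}) y := by
  obtain ⟨p, hp, hpy⟩ := h
  have hlift : p ∈ Polynomial.lifts (FA_S18_NC_adjoinMap (K := K) (F' := F') x) := by
    rw [Polynomial.lifts_iff_coeff_lifts]
    intro i
    exact FA_S18_NC_adjoinMap_surjective x _
  obtain ⟨q, hq, -, hqmonic⟩ := Polynomial.lifts_and_degree_eq_and_monic hlift hp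
  refine ⟨q, hqmonic, ?_⟩
  have h2 : (algebraMap (Algebra.adjoin K {x}) F')
      = (algebraMap (Algebra.adjoin K {algebraMap F F' x}) F').comp
          (FA_S18_NC_adjoinMap x) := by
    ext a
    rfl
  rw [h2, ← Polynomial.eval₂_map, hq]
  exact hpy

/-- `Tr_{F'/F}` maps the chart of `F'` into the chart of `F`. -/
theorem FA_S18_NC_trace_mem_icl [FiniteDimensional F F'] (x : F) {y : F'}
    (hy : y ∈ FA_S18_H2_icl K (algebraMap F F' x)) :
    Algebra.trace F F' y ∈ FA_S18_H2_icl K x := by
  have h1 : IsIntegral (Algebra.adjoin K {x}) y := FA_S18_NC_isIntegral_descend x hy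
  exact Algebra.isIntegral_trace (R := Algebra.adjoin K {x}) (L := F) (F := F') h1

/-- The chart of `F` maps into the chart of `F'`. -/
theorem FA_S18_NC_map_mem_icl (x : F) {a : F} (ha : a ∈ FA_S18_H2_icl K x) :
    algebraMap F F' a ∈ FA_S18_H2_icl K (algebraMap F F' x) := by
  have h1 : IsIntegral (Algebra.adjoin K {x}) (algebraMap F F' a) :=
    IsIntegral.map (IsScalarTower.toAlgHom (Algebra.adjoin K {x}) F F') ha
  exact FA_S18_NC_isIntegral_ascend x h1

end Generic

/-! ### Finite generation -/

/-- Finite generation of the integral closure, in elementwise form. -/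
theorem FA_S18_NC_fg_abstract (A F F' : Type*) [CommRing A] [IsDomain A] [IsIntegrallyClosed A]
    [IsNoetherianRing A] [Field F] [Field F'] [Algebra A F] [IsFractionRing A F] [Algebra F F']
    [Algebra A F'] [IsScalarTower A F F'] [FiniteDimensional F F'] [Algebra.IsSeparable F F'] :
    ∃ s : Finset F', (∀ e ∈ s, IsIntegral A e) ∧
      ∀ y : F', IsIntegral A y → ∃ c : F' → A, y = ∑ e ∈ s, algebraMap A F' (c e) * e := by
  classical
  haveI : Module.Finite A (integralClosure A F') :=
    IsIntegralClosure.finite A F F' (integralClosure A F')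
  obtain ⟨s, hs⟩ := (Module.finite_def.mp ‹Module.Finite A (integralClosure A F')›)
  refine ⟨s.image (fun b : integralClosure A F' => (b : F')), ?_, ?_⟩
  · intro e he
    obtain ⟨b, -, rfl⟩ := Finset.mem_image.mp he
    exact b.2
  · intro y hy
    have hmem : (⟨y, hy⟩ : integralClosure A F') ∈
        Submodule.span A (s : Set (integralClosure A F')) := by
      rw [hs]; exact Submodule.mem_top
    obtain ⟨f, -, hf⟩ := Submodule.mem_span_finset.mp hmem
    refine ⟨fun e => if h : e ∈ integralClosure A F' then f ⟨e, h⟩ else 0, ?_⟩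
    rw [Finset.sum_image (fun a _ b _ h => Subtype.ext h)]
    have h1 := congrArg (fun b : integralClosure A F' => (b : F')) hf
    simp only at h1
    rw [← h1]
    push_cast
    refine Finset.sum_congr rfl fun b _ => ?_
    rw [dif_pos b.2, Algebra.smul_def]

section GenericFG

variable {K F F' : Type*} [Field K] [CharZero K] [Field F] [Field F']
  [Algebra K F] [Algebra K F'] [Algebra F F'] [IsScalarTower K F F'] [FiniteDimensional F F']
  {x : F} (hx : Transcendental K x) [FiniteDimensional K⟮x⟯ F]

include hx in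
/-- The chart of `F'` is finitely generated as a module over the chart of `F`. -/
theorem FA_S18_NC_fg_icl :
    ∃ s : Finset F', (∀ e ∈ s, e ∈ FA_S18_H2_icl K (algebraMap F F' x)) ∧
      ∀ y ∈ FA_S18_H2_icl K (algebraMap F F' x), ∃ c : F' → F,
        (∀ e, c e ∈ FA_S18_H2_icl K x) ∧ y = ∑ e ∈ s, algebraMap F F' (c e) * e := by
  classical
  haveI : CharZero F := charZero_of_injective_algebraMap (algebraMap K F).injective
  haveI hA_ded : IsDedekindDomain (FA_RR.chartRing K x) := FA_RR.isDedekindDomain_chartRing hx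
  haveI hA_frac : IsFractionRing (FA_RR.chartRing K x) F :=
    FA_RR.isFractionRing_chartRing (K := K) x
  obtain ⟨s, hs1, hs2⟩ := FA_S18_NC_fg_abstract (FA_RR.chartRing K x) F F'
  refine ⟨s, ?_, ?_⟩
  · intro e he
    have h1 : IsIntegral (FA_RR.chartRing K x) e := hs1 e he
    have h2 : IsIntegral (Algebra.adjoin K {x}) e := isIntegral_trans e h1
    exact FA_S18_NC_isIntegral_ascend x h2
  · intro y hy
    have h1 : IsIntegral (Algebra.adjoin K {x}) y := FA_S18_NC_isIntegral_descend x hy
    have h2 : IsIntegral (FA_RR.chartRing K x) y := h1.tower_top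
    obtain ⟨c, hc⟩ := hs2 y h2
    exact ⟨fun e => (c e : F), fun e => (c e).2, hc⟩

end GenericFG

/-! ### The two levels -/

/-- `Tr_{F_n/F_M}(Bf n) ⊆ Bf M`. -/
theorem FA_S18_NC_trace_mem (M n : ℕ) [NeZero M] [NeZero n] (hMn : M ∣ n) (hM : 2 ≤ M) :
    letI : Algebra (modularFunctionFieldBar M) (modularFunctionFieldBar n) :=
      (IntermediateField.inclusion (FA_S18_NC_bar_le hMn)).toRingHom.toAlgebra
    ∀ y ∈ FA_S18_H2_Bf n,
      Algebra.trace (modularFunctionFieldBar M) (modularFunctionFieldBar n) y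
        ∈ FA_S18_H2_Bf M := by
  letI : Algebra (modularFunctionFieldBar M) (modularFunctionFieldBar n) :=
    (IntermediateField.inclusion (FA_S18_NC_bar_le hMn)).toRingHom.toAlgebra
  haveI : IsScalarTower Qb (modularFunctionFieldBar M) (modularFunctionFieldBar n) :=
    IsScalarTower.of_algebraMap_eq fun c => rfl
  haveI : FiniteDimensional (modularFunctionFieldBar M) (modularFunctionFieldBar n) :=
    FA_S18_NC_finite_bar hMn hM
  have hmap : algebraMap (modularFunctionFieldBar M) (modularFunctionFieldBar n)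
      (FA_S18_A_jbar M) = FA_S18_A_jbar n := Subtype.ext rfl
  intro y hy
  have hy' : y ∈ FA_S18_H2_icl Qb (algebraMap (modularFunctionFieldBar M)
      (modularFunctionFieldBar n) (FA_S18_A_jbar M)) := by
    rw [hmap]
    exact hy
  exact FA_S18_NC_trace_mem_icl (FA_S18_A_jbar M) hy'

/-- `Bf M ⊆ Bf n`. -/
theorem FA_S18_NC_map_mem (M n : ℕ) [NeZero M] [NeZero n] (hMn : M ∣ n) :
    letI : Algebra (modularFunctionFieldBar M) (modularFunctionFieldBar n) :=
      (IntermediateField.inclusion (FA_S18_NC_bar_le hMn)).toRingHom.toAlgebra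
    ∀ a ∈ FA_S18_H2_Bf M,
      algebraMap (modularFunctionFieldBar M) (modularFunctionFieldBar n) a
        ∈ FA_S18_H2_Bf n := by
  letI : Algebra (modularFunctionFieldBar M) (modularFunctionFieldBar n) :=
    (IntermediateField.inclusion (FA_S18_NC_bar_le hMn)).toRingHom.toAlgebra
  haveI : IsScalarTower Qb (modularFunctionFieldBar M) (modularFunctionFieldBar n) :=
    IsScalarTower.of_algebraMap_eq fun c => rfl
  have hmap : algebraMap (modularFunctionFieldBar M) (modularFunctionFieldBar n)
      (FA_S18_A_jbar M) = FA_S18_A_jbar n := Subtype.ext rfl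
  intro a ha
  have h := FA_S18_NC_map_mem_icl (K := Qb) (F' := modularFunctionFieldBar n)
    (FA_S18_A_jbar M) ha
  rw [hmap] at h
  exact h

/-- `Bf n` is a finitely generated module over `Bf M`. -/
theorem FA_S18_NC_fg (M n : ℕ) [NeZero M] [NeZero n] (hMn : M ∣ n) (hM : 2 ≤ M) :
    letI : Algebra (modularFunctionFieldBar M) (modularFunctionFieldBar n) :=
      (IntermediateField.inclusion (FA_S18_NC_bar_le hMn)).toRingHom.toAlgebra
    ∃ s : Finset (modularFunctionFieldBar n), (∀ e ∈ s, e ∈ FA_S18_H2_Bf n) ∧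
      ∀ y ∈ FA_S18_H2_Bf n, ∃ c : modularFunctionFieldBar n → modularFunctionFieldBar M,
        (∀ e, c e ∈ FA_S18_H2_Bf M) ∧
        y = ∑ e ∈ s, algebraMap (modularFunctionFieldBar M) (modularFunctionFieldBar n) (c e) * e
      := by
  letI : Algebra (modularFunctionFieldBar M) (modularFunctionFieldBar n) :=
    (IntermediateField.inclusion (FA_S18_NC_bar_le hMn)).toRingHom.toAlgebra
  haveI : IsScalarTower Qb (modularFunctionFieldBar M) (modularFunctionFieldBar n) :=
    IsScalarTower.of_algebraMap_eq fun c => rfl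
  haveI : FiniteDimensional (modularFunctionFieldBar M) (modularFunctionFieldBar n) :=
    FA_S18_NC_finite_bar hMn hM
  haveI := (FA_S18_A_jbar_spec M).2.1
  have hjM := (FA_S18_A_jbar_spec M).1
  have hmap : algebraMap (modularFunctionFieldBar M) (modularFunctionFieldBar n)
      (FA_S18_A_jbar M) = FA_S18_A_jbar n := Subtype.ext rfl
  have h := FA_S18_NC_fg_icl (K := Qb) (F := modularFunctionFieldBar M)
    (F' := modularFunctionFieldBar n) hjM
  rw [hmap] at h
  exact h

end Fermat.Agent.S24

end
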