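import Fermat.Agent.S24.DGeneric

/-!
# S18, leaf N, sub-leaf N-CH0 (char 0): the S24 model with `x = j`

`FA_S24_ModelFor` hides the coordinate `x`.  For comparing two levels we need the model with the
*same* coordinate `x = j` at both levels.  This file re-runs `FA_S24_Props.modelFor` with a
prescribed `x` and counts the places of `F_L` over `j = c`.
-/

set_option autoImplicit false

noncomputable section

namespace Fermat.Agent.S24

open AlgebraicCurve MatrixGroups IntermediateField

/-- The model statement of S24 with a prescribed coordinate `x`. -/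
def FA_S18_NC_ModelAt (K F : Type) [Field K] [Field F] [Algebra K F] (N : ℕ) (x : F) : Prop :=
  ∃ (E : Type) (_ : Field E) (_ : Algebra K E) (_ : Algebra F E) (_ : IsScalarTower K F E)
    (φ : SL(2, ℤ) →* (E ≃ₐ[K] E)),
    (Set.range φ).Finite ∧
    Transcendental K x ∧
    (∀ γ : SL(2, ℤ), φ γ (algebraMap F E x) = algebraMap F E x) ∧
    (∀ e : E, (∀ γ : SL(2, ℤ), φ γ e = e) →
      ∃ f : F, f ∈ IntermediateField.adjoin K {x} ∧ algebraMap F E f = e) ∧
    φ.ker ≤ CongruenceSubgroup.Gamma0 N ∧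
    (∀ γ ∈ CongruenceSubgroup.Gamma0 N, ∀ f : F, φ γ (algebraMap F E f) = algebraMap F E f) ∧
    (∀ e : E, (∀ γ ∈ CongruenceSubgroup.Gamma0 N, φ γ e = e) →
      e ∈ Set.range (algebraMap F E)) ∧
    (∀ c : K, ∃ w : Place K E,
      0 < w.ord (algebraMap F E x - algebraMap K E c) ∧
      (∀ γ ∈ FA_S24_IK c, ∀ e : E, w.ord (φ γ e) = w.ord e) ∧
      w.ord (algebraMap F E x - algebraMap K E c) ≤ (Nat.card ((FA_S24_IK c).map φ) : ℤ) ∧
      w.ord (algebraMap F E x - algebraMap K E c) ≤ FA_S24_eBound c) ∧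
    (∃ w : Place K E,
      w.ord (algebraMap F E x) < 0 ∧
      (∀ γ ∈ Subgroup.zpowers ModularGroup.T, ∀ e : E, w.ord (φ γ e) = w.ord e) ∧
      - w.ord (algebraMap F E x) ≤ (Nat.card ((Subgroup.zpowers ModularGroup.T).map φ) : ℤ))

variable {K M : Type} [Field K] [Field M] [Algebra K M]
variable {ρ : SL(2, ℤ) →* (M ≃ₐ[K] M)} {g : ℕ → M} {N : ℕ}

/-- **The model from the analytic package, with prescribed coordinate.** -/
theorem FA_S18_NC_modelAt (hP : FA_S24_Props ρ g N) [NeZero N] (hN : 2 ≤ N) (F : Type) [Field F]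
    [Algebra K F] (τ : F →ₐ[K] M)
    (hτ : Set.range τ = (FA_S24_F0 K g N : Set M)) (x : F) (hx : τ x = g 1) :
    FA_S18_NC_ModelAt K F N x := by
  classical
  have hτmem : ∀ f : F, τ f ∈ FA_S24_F0 K g N := fun f => by
    have : τ f ∈ Set.range τ := ⟨f, rfl⟩
    rw [hτ] at this
    exact this
  have hτsurj : ∀ y ∈ FA_S24_F0 K g N, ∃ f : F, τ f = y := fun y hy => by
    have : y ∈ Set.range τ := by rw [hτ]; exact hy
    exact this
  let τE : F →ₐ[K] FA_S24_E ρ g N :=
    AlgHom.codRestrict τ (FA_S24_E ρ g N).toSubalgebra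
      (fun f => FA_S24_F0_le_E ρ g N (hτmem f))
  let algFE : Algebra F (FA_S24_E ρ g N) := τE.toRingHom.toAlgebra
  have hcoe : ∀ f : F, ((algebraMap F (FA_S24_E ρ g N) f : FA_S24_E ρ g N) : M) = τ f :=
    fun f => rfl
  have tower : IsScalarTower K F (FA_S24_E ρ g N) :=
    IsScalarTower.of_algebraMap_eq (fun c => (τE.commutes c).symm)
  have hcoeK : ∀ c : K, ((algebraMap K (FA_S24_E ρ g N) c : FA_S24_E ρ g N) : M)
      = algebraMap K M c := fun c => rfl
  refine ⟨FA_S24_E ρ g N, inferInstance, inferInstance, algFE, tower, FA_S24_phi ρ g N,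
    hP.finite_range, ?_, ?_, ?_, hP.ker_le, ?_, ?_, ?_, ?_⟩
  · -- transcendence
    intro hx'
    apply hP.transc
    rw [← hx]
    exact hx'.algHom τ
  · intro γ
    apply Subtype.ext
    show ρ γ (τ x) = τ x
    rw [hx]
    exact hP.fix_g_one γ
  · intro e he
    have he' : ∀ γ : SL(2, ℤ), ρ γ (e : M) = (e : M) := fun γ =>
      congrArg (fun y : FA_S24_E ρ g N => (y : M)) (he γ)
    have h1 := hP.invariants (e : M) e.2 he'
    have h2 : (IntermediateField.adjoin K {x}).map τ = IntermediateField.adjoin K {g 1} := by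
      rw [IntermediateField.adjoin_map, Set.image_singleton, hx]
    rw [← h2] at h1
    obtain ⟨f, hf, hfe⟩ := h1
    exact ⟨f, hf, Subtype.ext hfe⟩
  · intro γ hγ f
    apply Subtype.ext
    show ρ γ (τ f) = τ f
    exact hP.fix_F0 γ hγ (hτmem f)
  · intro e he
    obtain ⟨f, hf⟩ := hτsurj _ (hP.mem_F0_of_fixed e he)
    exact ⟨f, Subtype.ext hf⟩
  · -- finite places
    intro c
    obtain ⟨ν, hν, hpos, hinv, hle⟩ := hP.val c
    obtain ⟨w, m, hm, hord, -⟩ := hν.exists_place
    have ha0 : (algebraMap F (FA_S24_E ρ g N) x - algebraMap K (FA_S24_E ρ g N) c) ≠ 0 := by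
      intro h
      have h1 := congrArg (fun y : FA_S24_E ρ g N => (y : M)) h
      have h2 : τ x - algebraMap K M c = 0 := h1
      rw [hx] at h2
      exact hP.g_one_sub_ne_zero c h2
    have hval : ν (g 1 - algebraMap K M c)
        = m * w.ord (algebraMap F (FA_S24_E ρ g N) x - algebraMap K (FA_S24_E ρ g N) c) := by
      rw [← hord _ ha0]
      show ν (g 1 - algebraMap K M c) = ν (τ x - algebraMap K M c)
      rw [hx]
    have hwpos : 0 < w.ord (algebraMap F (FA_S24_E ρ g N) x
        - algebraMap K (FA_S24_E ρ g N) c) := by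
      rw [hval] at hpos
      by_contra hcon
      have hcon' := not_lt.mp hcon
      exact absurd hpos (not_lt.mpr (mul_nonpos_of_nonneg_of_nonpos hm.le hcon'))
    have h1 : w.ord (algebraMap F (FA_S24_E ρ g N) x - algebraMap K (FA_S24_E ρ g N) c)
        ≤ m * w.ord (algebraMap F (FA_S24_E ρ g N) x - algebraMap K (FA_S24_E ρ g N) c) := by
      nlinarith
    have hb : w.ord (algebraMap F (FA_S24_E ρ g N) x - algebraMap K (FA_S24_E ρ g N) c)
        ≤ FA_S24_eBound c :=
      calc w.ord (algebraMap F (FA_S24_E ρ g N) x - algebraMap K (FA_S24_E ρ g N) c)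
          ≤ ν (g 1 - algebraMap K M c) := by rw [hval]; exact h1
        _ ≤ FA_S24_eBound c := hle
    refine ⟨w, hwpos, ?_, hb.trans (hP.eBound_le_card hN c), hb⟩
    intro γ hγ e
    by_cases he0 : e = 0
    · subst he0
      rw [map_zero]
    have he0' : FA_S24_phi ρ g N γ e ≠ 0 := by
      rwa [ne_eq, EmbeddingLike.map_eq_zero_iff]
    have h1 := hord _ he0
    have h2 := hord _ he0'
    have h3 : ν ((FA_S24_phi ρ g N γ e : FA_S24_E ρ g N) : M) = ν (e : M) :=
      hinv γ hγ e e.2
    rw [h3, h1] at h2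
    exact (mul_left_cancel₀ hm.ne' h2).symm
  · -- the place at infinity
    obtain ⟨ν, hν, hneg, hinv, hle⟩ := hP.valInf
    obtain ⟨w, m, hm, hord, -⟩ := hν.exists_place
    have ha0 : (algebraMap F (FA_S24_E ρ g N) x) ≠ 0 := by
      intro h
      have h1 := congrArg (fun y : FA_S24_E ρ g N => (y : M)) h
      have h2 : τ x = 0 := h1
      rw [hx] at h2
      exact hP.g_one_ne_zero h2
    have hval : ν (g 1) = m * w.ord (algebraMap F (FA_S24_E ρ g N) x) := by
      rw [← hord _ ha0]
      show ν (g 1) = ν (τ x)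
      rw [hx]
    have hwneg : w.ord (algebraMap F (FA_S24_E ρ g N) x) < 0 := by
      rw [hval] at hneg
      by_contra hcon
      have hcon' := not_lt.mp hcon
      exact absurd hneg (not_lt.mpr (mul_nonneg hm.le hcon'))
    refine ⟨w, hwneg, ?_, ?_⟩
    · intro γ hγ e
      by_cases he0 : e = 0
      · subst he0
        rw [map_zero]
      have he0' : FA_S24_phi ρ g N γ e ≠ 0 := by
        rwa [ne_eq, EmbeddingLike.map_eq_zero_iff]
      have h1 := hord _ he0
      have h2 := hord _ he0'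
      have h3 : ν ((FA_S24_phi ρ g N γ e : FA_S24_E ρ g N) : M) = ν (e : M) :=
        hinv γ hγ e e.2
      rw [h3, h1] at h2
      exact (mul_left_cancel₀ hm.ne' h2).symm
    · have h1 : - w.ord (algebraMap F (FA_S24_E ρ g N) x)
          ≤ - (m * w.ord (algebraMap F (FA_S24_E ρ g N) x)) := by
        nlinarith
      calc - w.ord (algebraMap F (FA_S24_E ρ g N) x)
          ≤ - ν (g 1) := by rw [hval]; exact h1
        _ ≤ (N : ℤ) := hle
        _ ≤ _ := hP.card_T

end Fermat.Agent.S24

end
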