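import Fermat.Agent.S24.ACount

/-!
# S18, leaf N / CUSP, input Z2 (abstract part): widths of the places over `x = ∞`

Situation of `FA_S24_Target_A_count`: `E / K(x)` Galois with group `φ(Γ)`, `F = E^H`.  Let `w` be a
place of `E` with `ord_w x < 0`, stabilised by the cyclic group `⟨T⟩`, with
`-ord_w x ≤ #φ(⟨T⟩)` and `φ(T)^N = 1`.  Then every place `v` of `F` with `ord_v x < 0` has
`(-ord_v x) ∣ N`.

Proof: the stabiliser of `w` in `φ(Γ)` has order `e = -ord_w x` (orbit–stabiliser and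
`Σ e = [E : K(x)]`), it contains `φ(⟨T⟩)` of order `≥ e`, so `e = ord φ(T) ∣ N`; all places of
`E` over `∞` are conjugate and `e = e(w'/v) · (-ord_v x)`.
-/

set_option autoImplicit false
set_option linter.style.haveILetI false
set_option linter.unusedSectionVars false

noncomputable section

namespace Fermat.Agent.S24

open AlgebraicCurve IntermediateField

section Width

variable {K F E Γ : Type} [Field K] [IsAlgClosed K] [CharZero K] [Field F] [Algebra K F]
    [Field E] [Algebra K E] [Algebra F E] [IsScalarTower K F E] [Group Γ]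
    (φ : Γ →* (E ≃ₐ[K] E))

/-- Transitivity on the zeros of `y` and the order of the stabiliser. -/
theorem FA_S18_NCW_stab (hfin : (Set.range φ).Finite)
    (y : F) (hy : Transcendental K y)
    (hyΓ : ∀ γ : Γ, φ γ (algebraMap F E y) = algebraMap F E y)
    (hfixΓ : ∀ e : E, (∀ γ : Γ, φ γ e = e) →
      ∃ f : F, f ∈ IntermediateField.adjoin K {y} ∧ algebraMap F E f = e)
    (w : Place K E) (hw : 0 < w.ord (algebraMap F E y)) :
    (∀ w' : Place K E, 0 < w'.ord (algebraMap F E y) → ∃ γ : Γ, w' = φ γ • w) ∧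
      (Nat.card (MulAction.stabilizer φ.range w) : ℤ) = w.ord (algebraMap F E y) := by
  classical
  have hxE : Transcendental K (algebraMap F E y) :=
    (transcendental_algebraMap_iff (algebraMap F E).injective).mpr hy
  obtain ⟨hFE, hcardG⟩ := FA_S24_isFF_top φ hfin y hy hyΓ hfixΓ
  haveI : FiniteDimensional K⟮algebraMap F E y⟯ E := FA_RR.finiteDimensional_adjoin hFE hxE
  haveI hfinG : Finite φ.range := hfin
  -- (a) transitivity of `Γ` on the zeros of `y`
  have hT1 : ∀ w' : Place K E, 0 < w'.ord (algebraMap F E y) → ∃ γ : Γ, w' = φ γ • w := by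
    intro w' hw'
    obtain ⟨g, ⟨γ, rfl⟩, hg⟩ := FA_S24_exists_smul_eq hxE φ.range
      (by rintro g ⟨γ, rfl⟩; exact hyΓ γ) w w'
      ((FA_RR.mem_iff_ord w).mpr (Or.inr hw.le)) ((FA_RR.mem_iff_ord w').mpr (Or.inr hw'.le))
      (by
        intro z hz hpos
        obtain ⟨f, hf, rfl⟩ := hfixΓ z (fun γ => hz (φ γ) ⟨γ, rfl⟩)
        obtain ⟨m, hm⟩ := FA_S24_ord_ratfunc (K := K) (FA_S24_mem_adjoin_map (E := E) hf)
        rw [hm w' hw'] at hpos
        rw [hm w hw]
        have hm0 : 0 < m := by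
          by_contra hneg
          push Not at hneg
          have : m * w'.ord (algebraMap F E y) ≤ 0 :=
            mul_nonpos_of_nonpos_of_nonneg hneg hw'.le
          omega
        exact mul_pos hm0 hw)
    exact ⟨γ, hg⟩
  refine ⟨hT1, ?_⟩
  -- (b) all ramification indices are equal
  have hord : ∀ γ : Γ, (φ γ • w).ord (algebraMap F E y) = w.ord (algebraMap F E y) :=
    fun γ => FA_S24_ord_smul_of_fixed (φ γ) w (hyΓ γ)
  -- (c) `#zeros * e = #G`
  have hdeg := FA_RR.degree_zeroDiv hFE hxE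
  have hsum : Divisor.degree (FA_RR.zeroDiv hFE hxE) =
      ∑ w' ∈ (FA_RR.zeroDiv hFE hxE).support, FA_RR.zeroDiv hFE hxE w' := by
    conv_lhs => rw [← Finsupp.sum_single (FA_RR.zeroDiv hFE hxE)]
    rw [Finsupp.sum, map_sum]
    simp only [Divisor.degree_single, FA_RR.deg_eq_one hFE, Nat.cast_one, mul_one]
  have hcount : ((FA_RR.zeroDiv hFE hxE).support.card : ℤ) * w.ord (algebraMap F E y) =
      (Nat.card φ.range : ℤ) := by
    rw [← hcardG, ← hdeg, hsum]
    have : ∀ w' ∈ (FA_RR.zeroDiv hFE hxE).support,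
        FA_RR.zeroDiv hFE hxE w' = w.ord (algebraMap F E y) := by
      intro w' hw'
      have hpos := (FA_RR.mem_support_zeroDiv hFE hxE w').mp hw'
      obtain ⟨γ, rfl⟩ := hT1 w' hpos
      rw [FA_RR.zeroDiv_apply, max_eq_left hpos.le, hord]
    rw [Finset.sum_congr rfl this, Finset.sum_const, nsmul_eq_mul]
  -- (d) orbit-stabiliser
  have horb : MulAction.orbit φ.range w = {w' : Place K E | 0 < w'.ord (algebraMap F E y)} := by
    ext w'
    constructor
    · rintro ⟨⟨g, γ, rfl⟩, rfl⟩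
      show 0 < (φ γ • w).ord (algebraMap F E y)
      rw [hord]
      exact hw
    · intro hw'
      obtain ⟨γ, rfl⟩ := hT1 w' hw'
      exact ⟨⟨φ γ, γ, rfl⟩, rfl⟩
  have hos : Nat.card (MulAction.stabilizer φ.range w) *
      (FA_RR.zeroDiv hFE hxE).support.card = Nat.card φ.range := by
    rw [FA_RR.card_support_zeroDiv hFE hxE]
    have h1 := Subgroup.card_mul_index (MulAction.stabilizer φ.range w)
    rw [MulAction.index_stabilizer, horb] at h1
    exact h1
  have hsupp_pos : 0 < (FA_RR.zeroDiv hFE hxE).support.card :=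
    Finset.card_pos.mpr ⟨w, (FA_RR.mem_support_zeroDiv hFE hxE w).mpr hw⟩
  have h1 : (Nat.card (MulAction.stabilizer φ.range w) : ℤ) *
      ((FA_RR.zeroDiv hFE hxE).support.card : ℤ) =
      ((FA_RR.zeroDiv hFE hxE).support.card : ℤ) * w.ord (algebraMap F E y) := by
    rw [hcount]
    exact_mod_cast hos
  have h2 : ((FA_RR.zeroDiv hFE hxE).support.card : ℤ) ≠ 0 := by
    exact_mod_cast hsupp_pos.ne'
  rw [mul_comm] at h1
  exact mul_left_cancel₀ h2 h1

/-- **Widths divide `N`** (abstract form). -/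
theorem FA_S18_NCW_width_abs (hfin : (Set.range φ).Finite)
    (x : F) (hx : Transcendental K x)
    (hxΓ : ∀ γ : Γ, φ γ (algebraMap F E x) = algebraMap F E x)
    (hfixΓ : ∀ e : E, (∀ γ : Γ, φ γ e = e) →
      ∃ f : F, f ∈ IntermediateField.adjoin K {x} ∧ algebraMap F E f = e)
    (H : Subgroup Γ)
    (hH : ∀ γ ∈ H, ∀ f : F, φ γ (algebraMap F E f) = algebraMap F E f)
    (hfixH : ∀ e : E, (∀ γ ∈ H, φ γ e = e) → e ∈ Set.range (algebraMap F E))
    (T : Γ) (N : ℕ) (hTN : φ (T ^ N) = 1)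
    (w : Place K E) (hw : w.ord (algebraMap F E x) < 0)
    (hI : ∀ γ ∈ Subgroup.zpowers T, ∀ e : E, w.ord (φ γ e) = w.ord e)
    (he : - w.ord (algebraMap F E x) ≤ (Nat.card ((Subgroup.zpowers T).map φ) : ℤ))
    (v : Place K F) (hv : v.ord x < 0) : (- v.ord x) ∣ (N : ℤ) := by
  classical
  -- work with `y = x⁻¹`
  have hyT : Transcendental K x⁻¹ := FA_RR.transcendental_inv hx
  have hmap : algebraMap F E x⁻¹ = (algebraMap F E x)⁻¹ := map_inv₀ _ _
  have hyΓ : ∀ γ : Γ, φ γ (algebraMap F E x⁻¹) = algebraMap F E x⁻¹ := by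
    intro γ
    rw [hmap, map_inv₀, hxΓ γ]
  have hfixy : ∀ e : E, (∀ γ : Γ, φ γ e = e) →
      ∃ f : F, f ∈ IntermediateField.adjoin K {x⁻¹} ∧ algebraMap F E f = e := by
    intro e he'
    obtain ⟨f, hf, hfe⟩ := hfixΓ e he'
    exact ⟨f, by rw [FA_RR.adjoin_inv_eq]; exact hf, hfe⟩
  have hwy : w.ord (algebraMap F E x⁻¹) = - w.ord (algebraMap F E x) := by
    rw [hmap, w.ord_inv]
  have hw' : 0 < w.ord (algebraMap F E x⁻¹) := by rw [hwy]; omega
  obtain ⟨hT1, hstab⟩ := FA_S18_NCW_stab φ hfin x⁻¹ hyT hyΓ hfixy w hw'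
  haveI hfinG : Finite φ.range := hfin
  haveI hfinI : Finite ((Subgroup.zpowers T).map φ) := FA_S24_finite_map φ hfin _
  -- the stabiliser contains `φ(⟨T⟩)`
  have hIle : ((Subgroup.zpowers T).map φ).subgroupOf φ.range
      ≤ MulAction.stabilizer φ.range w := by
    rintro ⟨g, hg⟩ hmem
    rw [Subgroup.mem_subgroupOf] at hmem
    obtain ⟨i, hi, rfl⟩ := hmem
    rw [MulAction.mem_stabilizer_iff]
    exact FA_S24_smul_eq_of_ord (φ i) w (hI i hi)
  have hle : (Subgroup.zpowers T).map φ ≤ φ.range := by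
    rintro g ⟨i, -, rfl⟩
    exact ⟨i, rfl⟩
  have hcardI : Nat.card (((Subgroup.zpowers T).map φ).subgroupOf φ.range)
      = Nat.card ((Subgroup.zpowers T).map φ) :=
    Nat.card_congr (Subgroup.subgroupOfEquivOfLe hle).toEquiv
  have hcard_le : Nat.card ((Subgroup.zpowers T).map φ)
      ≤ Nat.card (MulAction.stabilizer φ.range w) := by
    rw [← hcardI]
    exact Subgroup.card_le_of_le hIle
  -- hence `e = #φ(⟨T⟩) = orderOf (φ T)`
  have heq : (Nat.card ((Subgroup.zpowers T).map φ) : ℤ) = - w.ord (algebraMap F E x) := by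
    have h1 : (Nat.card ((Subgroup.zpowers T).map φ) : ℤ)
        ≤ (Nat.card (MulAction.stabilizer φ.range w) : ℤ) := by exact_mod_cast hcard_le
    rw [hstab, hwy] at h1
    omega
  have hzp : (Subgroup.zpowers T).map φ = Subgroup.zpowers (φ T) := MonoidHom.map_zpowers φ T
  have hdvd : (Nat.card ((Subgroup.zpowers T).map φ)) ∣ N := by
    rw [hzp, Nat.card_zpowers]
    apply orderOf_dvd_of_pow_eq_one
    rw [← map_pow]
    exact hTN
  have hedvd : (- w.ord (algebraMap F E x)) ∣ (N : ℤ) := by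
    rw [← heq]
    exact_mod_cast hdvd
  -- a place of `E` over `v`
  have hG2 : IsGaloisGroup (H.map φ) F E := FA_S24_isGaloisGroup_map φ F H hH hfixH
  haveI hfinH : Finite (H.map φ) := FA_S24_finite_map φ hfin H
  haveI : FiniteDimensional F E := IsGaloisGroup.finiteDimensional (H.map φ) F E
  obtain ⟨w₁, hw₁⟩ := FA_S24_exists_restrict_eq (E := E) v
  have hord₁ : w₁.ord (algebraMap F E x⁻¹) = (w₁.ramificationIndex F : ℤ) * v.ord x⁻¹ := by
    rw [w₁.ord_restrict x⁻¹, hw₁]
  have hepos := w₁.ramificationIndex_pos (F := F)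
  have hvy : v.ord x⁻¹ = - v.ord x := v.ord_inv x
  have hw₁pos : 0 < w₁.ord (algebraMap F E x⁻¹) := by
    rw [hord₁]
    exact mul_pos (by exact_mod_cast hepos) (by rw [hvy]; omega)
  obtain ⟨γ, hγ⟩ := hT1 w₁ hw₁pos
  have hordeq : w₁.ord (algebraMap F E x⁻¹) = w.ord (algebraMap F E x⁻¹) := by
    rw [hγ]
    exact FA_S24_ord_smul_of_fixed (φ γ) w (hyΓ γ)
  have hfac : - w.ord (algebraMap F E x) = (w₁.ramificationIndex F : ℤ) * (- v.ord x) := by
    rw [← hwy, ← hordeq, hord₁, hvy]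
  exact (Dvd.intro_left _ hfac.symm).trans hedvd

end Width

end Fermat.Agent.S24

end
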