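import Mathlib

/-!
# S18, leaf N, sub-leaf NORM (part A): relative norms of primes of inertia degree one

`B ⊆ B'` Dedekind domains, `B'` a finite torsion-free `B`-module.  If every prime of `B'` over the
maximal ideal `𝔮 ≠ ⊥` of `B` has inertia degree one, then `relNorm B Q = 𝔮` for each of them.
No separability is needed (only the fundamental identity `∑ e f = n`).
-/

set_option autoImplicit false

open Ideal Module

section

variable {B B' : Type*} [CommRing B] [IsDedekindDomain B]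
  [CommRing B'] [IsDedekindDomain B'] [Algebra B B'] [Module.Finite B B']
  [IsTorsionFree B B']

/-- The exponent of the relative norm of a prime over a nonzero maximal ideal is positive. -/
theorem FA_S18_N_relNorm_exp_pos (𝔮 : Ideal B) [𝔮.IsMaximal] (Q : Ideal B') [Q.IsPrime]
    [Q.LiesOver 𝔮] {s : ℕ} (hs : relNorm B Q = 𝔮 ^ s) : s ≠ 0 := by
  rintro rfl
  have h1 : relNorm B Q ≤ comap (algebraMap B B') Q := relNorm_le_comap B Q
  rw [hs, pow_zero, Ideal.one_eq_top, ← Ideal.under_def, ← Ideal.over_def Q 𝔮] at h1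
  exact (IsMaximal.ne_top ‹_›) (top_le_iff.mp h1)

/-- If all primes over `𝔮` have inertia degree one, their relative norm is `𝔮`. -/
theorem FA_S18_N_relNorm_eq_of_inertiaDeg_one (𝔮 : Ideal B) [𝔮.IsMaximal] (hq : 𝔮 ≠ ⊥)
    (hf : ∀ Q ∈ 𝔮.primesOver B', Q.inertiaDeg B = 1) :
    ∀ Q ∈ 𝔮.primesOver B', relNorm B Q = 𝔮 := by
  classical
  -- exponents
  have hex : ∀ Q : Ideal B', ∃ s : ℕ, Q ∈ 𝔮.primesOver B' → (relNorm B Q = 𝔮 ^ s ∧ 1 ≤ s) := by
    intro Q
    by_cases hQ : Q ∈ 𝔮.primesOver B'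
    · haveI : Q.IsPrime := hQ.1
      haveI : Q.LiesOver 𝔮 := hQ.2
      obtain ⟨s, hs⟩ := exists_relNorm_eq_pow_of_isPrime (R := B) Q 𝔮
      exact ⟨s, fun _ => ⟨hs, Nat.one_le_iff_ne_zero.mpr (FA_S18_N_relNorm_exp_pos 𝔮 Q hs)⟩⟩
    · exact ⟨1, fun h => (hQ h).elim⟩
  choose s hs using hex
  have h := (congr_arg (relNorm B ·) <|
    map_algebraMap_eq_finsetProd_pow (R := B') hq).symm.trans <| relNorm_algebraMap B' 𝔮
  simp only [map_prod, map_pow] at h
  have h2 : ∏ P ∈ (𝔮.primesOver B').toFinset, (relNorm B P) ^ P.ramificationIdx B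
      = 𝔮 ^ (∑ P ∈ (𝔮.primesOver B').toFinset, s P * P.ramificationIdx B) := by
    rw [← Finset.prod_pow_eq_pow_sum]
    refine Finset.prod_congr rfl fun P hP => ?_
    rw [Set.mem_toFinset] at hP
    rw [(hs P hP).1, ← pow_mul]
  rw [h2] at h
  have hne1 : 𝔮 ≠ 1 := by
    rw [Ideal.one_eq_top]; exact IsMaximal.ne_top ‹_›
  have hinj := (IsLeftCancelMulZero.mul_left_cancel_of_ne_zero hq).pow_injective hne1 h
  -- the fundamental identity
  have hfund := Ideal.sum_ramification_inertia_eq_finrank 𝔮 B'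
  rw [← hinj] at hfund
  have hfund2 : ∑ P ∈ (𝔮.primesOver B').toFinset, P.ramificationIdx B * P.inertiaDeg B
      = ∑ P ∈ (𝔮.primesOver B').toFinset, s P * P.ramificationIdx B := by
    rw [← hfund]
    exact (Finset.sum_set_coe (s := 𝔮.primesOver B')
      (f := fun P => P.ramificationIdx B * P.inertiaDeg B)).symm
  intro Q hQ
  have hle : ∀ P ∈ (𝔮.primesOver B').toFinset,
      P.ramificationIdx B * P.inertiaDeg B ≤ s P * P.ramificationIdx B := by
    intro P hP
    rw [Set.mem_toFinset] at hP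
    rw [hf P hP, mul_one]
    exact Nat.le_mul_of_pos_left _ (hs P hP).2
  have heq := (Finset.sum_eq_sum_iff_of_le hle).mp hfund2 Q (Set.mem_toFinset.mpr hQ)
  rw [hf Q hQ, mul_one] at heq
  haveI : Q.IsPrime := hQ.1
  have hpos : 0 < Q.ramificationIdx B := Ideal.ramificationIdx_pos Q B
  have hsQ : s Q = 1 := by
    have : 1 * Q.ramificationIdx B = s Q * Q.ramificationIdx B := by rw [one_mul]; exact heq
    exact (Nat.eq_of_mul_eq_mul_right hpos this).symm
  rw [(hs Q hQ).1, hsQ, pow_one]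

end
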