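import Fermat.Agent.S18.NormA

/-!
# S18, leaf N, sub-leaf NORM (part B): the norm trick

`C ⊆ B ⊆ B'` with `B`, `B'` Dedekind, `B` finite over `C`, `B'` finite over `B`.  If
* every residue field of `B'` at a maximal ideal is the image of `C` (`hres`), and
* the norm of every element of `B'` lies in `C` (`hnorm`),
then `C = B`.  (Normality descends along norms; no Galois or tameness hypothesis.)
-/

set_option autoImplicit false

open Ideal Module

section

variable {B B' : Type*} [CommRing B] [IsDedekindDomain B]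
  [CommRing B'] [IsDedekindDomain B'] [Algebra B B'] [Module.Finite B B']
  [IsTorsionFree B B']

/-- A prime of `B` dividing the relative norm of `I` lies under a prime divisor of `I`. -/
theorem FA_S18_N_exists_prime_of_dvd_relNorm (𝔭 : Ideal B) [h𝔭 : 𝔭.IsPrime] (h𝔭0 : 𝔭 ≠ ⊥)
    (I : Ideal B') (hI : I ≠ ⊥) (hdvd : 𝔭 ∣ relNorm B I) :
    ∃ P : Ideal B', P.IsPrime ∧ P ∣ I ∧ comap (algebraMap B B') P = 𝔭 := by
  have hprime : Prime 𝔭 := Ideal.prime_of_isPrime h𝔭0 h𝔭
  revert hI hdvd
  induction I using UniqueFactorizationMonoid.induction_on_prime with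
  | h₁ => intro h; exact (h rfl).elim
  | h₂ x hx =>
    intro _ hdvd
    have hx' : x = ⊤ := by rwa [Ideal.isUnit_iff] at hx
    rw [hx', relNorm_top] at hdvd
    exact (hprime.not_unit (isUnit_of_dvd_unit hdvd (by rw [Ideal.isUnit_iff]))).elim
  | h₃ a p ha hp ih =>
    intro _ hdvd
    rw [map_mul] at hdvd
    rcases hprime.dvd_or_dvd hdvd with h1 | h1
    · haveI hpp : p.IsPrime := Ideal.isPrime_of_prime hp
      have hp0 : p ≠ ⊥ := hp.ne_zero
      haveI : (comap (algebraMap B B') p).IsPrime := Ideal.comap_isPrime _ _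
      haveI : p.LiesOver (comap (algebraMap B B') p) := ⟨rfl⟩
      obtain ⟨s, hs⟩ := exists_relNorm_eq_pow_of_isPrime (R := B) p (comap (algebraMap B B') p)
      rw [hs] at h1
      have h2 : 𝔭 ∣ comap (algebraMap B B') p := hprime.dvd_of_dvd_pow h1
      have h3 : comap (algebraMap B B') p ≤ 𝔭 := Ideal.dvd_iff_le.mp h2
      have hne : comap (algebraMap B B') p ≠ ⊥ := fun h =>
        hp0 (Ideal.eq_bot_of_comap_eq_bot h)
      have hmax : (comap (algebraMap B B') p).IsMaximal :=
        Ideal.IsPrime.isMaximal inferInstance hne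
      exact ⟨p, hpp, Dvd.intro a rfl, hmax.eq_of_le h𝔭.ne_top h3⟩
    · obtain ⟨P, hP, hPa, hPc⟩ := ih ha h1
      exact ⟨P, hP, hPa.mul_left p, hPc⟩

end

section main

variable {C B B' : Type*} [CommRing C] [CommRing B] [IsDedekindDomain B]
  [CommRing B'] [IsDedekindDomain B'] [Algebra C B] [Algebra B B'] [Algebra C B']
  [IsScalarTower C B B'] [Module.Finite C B] [Module.Finite B B'] [IsTorsionFree B B']

/-- Nakayama, global form: a finite `C`-algebra `B` with `B = C + 𝔫 B` for all maximal `𝔫`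
is a quotient of `C`. -/
theorem FA_S18_N_surjective_of_forall_maximal
    (h : ∀ 𝔫 : Ideal C, 𝔫.IsMaximal → ∀ b : B, ∃ c : C,
      b - algebraMap C B c ∈ map (algebraMap C B) 𝔫) :
    Function.Surjective (algebraMap C B) := by
  classical
  set N : Submodule C B := LinearMap.range (Algebra.linearMap C B) with hN
  -- the quotient module
  have hfg : (⊤ : Submodule C (B ⧸ N)).FG := Module.finite_def.mp inferInstance
  have hsm : ∀ 𝔫 : Ideal C, 𝔫.IsMaximal → (⊤ : Submodule C (B ⧸ N)) ≤ 𝔫 • ⊤ := by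
    intro 𝔫 h𝔫 x _
    obtain ⟨b, rfl⟩ := Submodule.Quotient.mk_surjective N x
    obtain ⟨c, hc⟩ := h 𝔫 h𝔫 b
    have hmem : b - algebraMap C B c ∈ 𝔫 • (⊤ : Submodule C B) := by
      rwa [Ideal.smul_top_eq_map]
    have h1 : Submodule.Quotient.mk (p := N) b
        = Submodule.Quotient.mk (p := N) (b - algebraMap C B c) := by
      rw [Submodule.Quotient.eq]
      refine ⟨c, ?_⟩
      simp
    rw [h1]
    have h2 : N.mkQ (b - algebraMap C B c) ∈ Submodule.map N.mkQ (𝔫 • (⊤ : Submodule C B)) :=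
      Submodule.mem_map_of_mem hmem
    rw [Submodule.map_smul''] at h2
    exact Submodule.smul_mono le_rfl le_top h2
  -- annihilator is not contained in any maximal ideal
  have hann : ∀ x : B ⧸ N, x = 0 := by
    by_contra hcon
    push Not at hcon
    obtain ⟨x, hx⟩ := hcon
    set J : Ideal C := Submodule.annihilator (⊤ : Submodule C (B ⧸ N)) with hJ
    have hJtop : J ≠ ⊤ := by
      intro hJt
      have : (1 : C) ∈ J := hJt ▸ Submodule.mem_top
      rw [hJ, Submodule.mem_annihilator] at this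
      exact hx (by simpa using this x Submodule.mem_top)
    obtain ⟨𝔫, h𝔫, hle⟩ := Ideal.exists_le_maximal J hJtop
    obtain ⟨r, hr1, hr2⟩ := Submodule.exists_sub_one_mem_and_smul_eq_zero_of_fg_of_le_smul 𝔫
      (⊤ : Submodule C (B ⧸ N)) hfg (hsm 𝔫 h𝔫)
    have hrJ : r ∈ J := by
      rw [hJ, Submodule.mem_annihilator]
      exact hr2
    have hr𝔫 : r ∈ 𝔫 := hle hrJ
    have : (1 : C) ∈ 𝔫 := by
      have := 𝔫.sub_mem hr𝔫 hr1
      simpa using this
    exact h𝔫.ne_top ((Ideal.eq_top_iff_one _).mpr this)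
  intro b
  have := hann (Submodule.Quotient.mk b)
  rw [Submodule.Quotient.mk_eq_zero] at this
  obtain ⟨c, hc⟩ := this
  exact ⟨c, by simpa using hc⟩

end main
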