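import Fermat.Agent.S18.NormB

/-!
# S18, leaf N, sub-leaf NORM (part C): the norm trick, main theorem

`FA_S18_N_main`: `C ⊆ B ⊆ B'`, `B` and `B'` Dedekind, `B` finite over `C`, `B'` finite and
torsion free over `B`; if every residue field of `B'` is the image of `C` and the norm
`B' → B` takes values in `C`, then `C = B`.
-/

set_option autoImplicit false

open Ideal Module

section main

variable {C B B' : Type*} [CommRing C] [CommRing B] [IsDedekindDomain B]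
  [CommRing B'] [IsDedekindDomain B'] [Algebra C B] [Algebra B B'] [Algebra C B']
  [IsScalarTower C B B'] [Module.Finite C B] [Module.Finite B B'] [IsTorsionFree B B']

/-- Inertia degree one from surjectivity on residue fields. -/
theorem FA_S18_N_inertiaDeg_eq_one
    (hres : ∀ Q : Ideal B', Q.IsMaximal → ∀ x : B', ∃ c : C, x - algebraMap C B' c ∈ Q)
    (𝔮 : Ideal B) [𝔮.IsMaximal] (Q : Ideal B') (hQ : Q ∈ 𝔮.primesOver B') :
    Q.inertiaDeg B = 1 := by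
  haveI : Algebra.IsIntegral B B' := Algebra.IsIntegral.of_finite B B'
  haveI : Q.IsPrime := hQ.1
  haveI : Q.LiesOver 𝔮 := hQ.2
  haveI hQmax : Q.IsMaximal := Ideal.IsMaximal.of_liesOver_isMaximal Q 𝔮
  rw [Ideal.inertiaDeg_eq_of_isMaximal 𝔮 Q]
  letI : Field (B ⧸ 𝔮) := Ideal.Quotient.field 𝔮
  letI : Field (B' ⧸ Q) := Ideal.Quotient.field Q
  rw [finrank_eq_one_iff_of_nonzero' (1 : B' ⧸ Q) one_ne_zero]
  intro w
  obtain ⟨x, rfl⟩ := Ideal.Quotient.mk_surjective w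
  obtain ⟨c, hc⟩ := hres Q hQmax x
  refine ⟨Ideal.Quotient.mk 𝔮 (algebraMap C B c), ?_⟩
  rw [Algebra.smul_def, mul_one, Ideal.Quotient.algebraMap_mk_of_liesOver,
    ← IsScalarTower.algebraMap_apply, eq_comm, Ideal.Quotient.eq]
  exact hc

/-- **The norm trick.** -/
theorem FA_S18_N_main
    (hinj : Function.Injective (algebraMap C B))
    (hres : ∀ Q : Ideal B', Q.IsMaximal → ∀ x : B', ∃ c : C, x - algebraMap C B' c ∈ Q)
    (hnorm : ∀ t : B', ∃ c : C, algebraMap C B c = Algebra.intNorm B B' t) :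
    Function.Surjective (algebraMap C B) := by
  classical
  apply FA_S18_N_surjective_of_forall_maximal
  intro 𝔫 h𝔫 b
  have : Algebra.IsIntegral C B := Algebra.IsIntegral.of_finite C B
  have : Algebra.IsIntegral B B' := Algebra.IsIntegral.of_finite B B'
  have hinj' : Function.Injective (algebraMap B B') :=
    isTorsionFree_iff_algebraMap_injective.mp inferInstance
  haveI : Nontrivial C := by
    refine nontrivial_of_ne (0 : C) 1 fun h01 => h𝔫.ne_top ?_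
    rw [Ideal.eq_top_iff_one, ← h01]
    exact Ideal.zero_mem _
  obtain ⟨𝔮, h𝔮max, h𝔮⟩ := Ideal.exists_ideal_over_maximal_of_isIntegral (S := B) 𝔫
    (by rw [(RingHom.injective_iff_ker_eq_bot _).mp hinj]; exact bot_le)
  obtain ⟨Q₁, hQ₁max, hQ₁⟩ := Ideal.exists_ideal_over_maximal_of_isIntegral (S := B') 𝔮
    (by rw [(RingHom.injective_iff_ker_eq_bot _).mp hinj']; exact bot_le)
  haveI hQ₁prime : Q₁.IsPrime := hQ₁max.isPrime
  haveI : Q₁.LiesOver 𝔮 := ⟨hQ₁.symm⟩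
  obtain ⟨c', hc'⟩ := hres Q₁ hQ₁max (algebraMap B B' b)
  have hb𝔮 : b - algebraMap C B c' ∈ 𝔮 := by
    rw [← hQ₁, Ideal.mem_comap, map_sub, ← IsScalarTower.algebraMap_apply]
    exact hc'
  refine ⟨c', ?_⟩
  suffices hmap : map (algebraMap C B) 𝔫 = 𝔮 by rw [hmap]; exact hb𝔮
  by_cases h𝔮0 : 𝔮 = ⊥
  · subst h𝔮0
    have : 𝔫 = ⊥ := by rw [← h𝔮]; exact comap_bot_of_injective _ hinj
    rw [this, Ideal.map_bot]
  -- main case
  have h𝔫0 : 𝔫 ≠ ⊥ := by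
    intro h0
    rw [h0] at h𝔮
    exact h𝔮0 (Ideal.eq_bot_of_comap_eq_bot h𝔮)
  have hQ₁0 : Q₁ ≠ ⊥ := by
    intro h0
    rw [h0] at hQ₁
    exact h𝔮0 (by rw [← hQ₁]; exact comap_bot_of_injective _ hinj')
  obtain ⟨c₀, hc₀mem, hc₀ne⟩ := Submodule.exists_mem_ne_zero_of_ne_bot h𝔫0
  set x₀ : B' := algebraMap C B' c₀ with hx₀
  have hx₀ne : x₀ ≠ 0 := by
    rw [hx₀, IsScalarTower.algebraMap_apply C B B']
    intro h0
    exact hc₀ne (hinj (by rw [map_zero]; exact hinj' (by rw [map_zero]; exact h0)))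
  have hspan0 : (span {x₀} : Ideal B') ≠ ⊥ := by
    rwa [Ne, Ideal.span_singleton_eq_bot]
  set T : Finset (Ideal B') := (UniqueFactorizationMonoid.normalizedFactors (span {x₀})).toFinset
    with hT
  -- primes over `𝔫` are in `T`
  have hTmem : ∀ P : Ideal B', P.IsPrime → 𝔫 ≤ comap (algebraMap C B') P → P ∈ T := by
    intro P hP hle
    rw [hT, Multiset.mem_toFinset, Ideal.mem_normalizedFactors_iff hspan0]
    refine ⟨hP, ?_⟩
    rw [Ideal.span_singleton_le_iff_mem]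
    exact hle hc₀mem
  have hTprime : ∀ P ∈ T, Prime P := by
    intro P hP
    rw [hT, Multiset.mem_toFinset] at hP
    exact UniqueFactorizationMonoid.prime_of_normalized_factor P hP
  have hcomapQ₁ : comap (algebraMap C B') Q₁ = 𝔫 := by
    rw [IsScalarTower.algebraMap_eq C B B', ← Ideal.comap_comap, hQ₁, h𝔮]
  have hQ₁T : Q₁ ∈ T := hTmem Q₁ hQ₁prime hcomapQ₁.ge
  -- uniformiser at `Q₁`
  obtain ⟨π, hπ1, hπ2⟩ := Ideal.exists_mem_pow_notMem_pow_succ Q₁ hQ₁0 hQ₁max.ne_top 1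
  rw [pow_one] at hπ1
  -- CRT
  obtain ⟨t, ht⟩ := IsDedekindDomain.exists_forall_sub_mem_ideal (s := T) (fun P => P)
    (fun P => if P = Q₁ then 2 else 1) hTprime (fun i _ j _ hij => hij)
    (fun P => if P.1 = Q₁ then π else 1)
  have htQ₁ : t - π ∈ Q₁ ^ 2 := by
    have := ht Q₁ hQ₁T
    simpa using this
  have htmem : t ∈ Q₁ := by
    have h1 : t - π ∈ Q₁ := Ideal.pow_le_self (two_ne_zero) htQ₁
    have := Q₁.add_mem h1 hπ1
    simpa using this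
  have htnot : t ∉ Q₁ ^ 2 := by
    intro h1
    apply hπ2
    have := (Q₁ ^ 2).sub_mem h1 htQ₁
    simpa using this
  have htother : ∀ P ∈ T, P ≠ Q₁ → t ∉ P := by
    intro P hP hne h1
    have h2 := ht P hP
    simp only [hne, if_false, pow_one] at h2
    have hPprime : P.IsPrime := Ideal.isPrime_of_prime (hTprime P hP)
    have := P.sub_mem h1 h2
    rw [sub_sub_cancel] at this
    exact hPprime.ne_top ((Ideal.eq_top_iff_one _).mpr this)
  have htne : t ≠ 0 := fun h0 => htnot (h0 ▸ Ideal.zero_mem _)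
  -- factor `span {t} = Q₁ * 𝔞`
  have hdvd : Q₁ ∣ span {t} := by
    rw [Ideal.dvd_iff_le, Ideal.span_singleton_le_iff_mem]
    exact htmem
  obtain ⟨𝔞, h𝔞⟩ := hdvd
  have h𝔞0 : 𝔞 ≠ ⊥ := by
    rintro rfl
    rw [Ideal.mul_bot, Ideal.span_singleton_eq_bot] at h𝔞
    exact htne h𝔞
  have hQ₁𝔞 : ¬ Q₁ ∣ 𝔞 := by
    rintro ⟨𝔠, rfl⟩
    apply htnot
    have : span {t} ≤ Q₁ ^ 2 := by
      rw [h𝔞, ← mul_assoc, ← pow_two]
      exact Ideal.mul_le_left
    exact this (Ideal.mem_span_singleton_self t)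
  have hT𝔞 : ∀ P ∈ T, P ≠ Q₁ → ¬ P ∣ 𝔞 := by
    intro P hP hne hdiv
    apply htother P hP hne
    have h1 : P ∣ span {t} := h𝔞 ▸ hdiv.mul_left Q₁
    rw [Ideal.dvd_iff_le, Ideal.span_singleton_le_iff_mem] at h1
    exact h1
  -- norms
  have hf := FA_S18_N_inertiaDeg_eq_one (C := C) hres 𝔮
  have hrelQ₁ : relNorm B Q₁ = 𝔮 :=
    FA_S18_N_relNorm_eq_of_inertiaDeg_one 𝔮 h𝔮0 hf Q₁ ⟨hQ₁prime, inferInstance⟩
  set z : B := Algebra.intNorm B B' t with hz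
  have hzspan : span {z} = 𝔮 * relNorm B 𝔞 := by
    rw [hz, ← relNorm_singleton, h𝔞, map_mul, hrelQ₁]
  set 𝔟 : Ideal B := relNorm B 𝔞 with h𝔟
  -- coprimality
  have hcop : ∀ 𝔭 : Ideal B, 𝔭.IsPrime → 𝔫 ≤ comap (algebraMap C B) 𝔭 → ¬ 𝔭 ∣ 𝔟 := by
    intro 𝔭 h𝔭 hle hdiv
    have h𝔭0 : 𝔭 ≠ ⊥ := by
      rintro rfl
      rw [comap_bot_of_injective _ hinj] at hle
      exact h𝔫0 (le_bot_iff.mp hle)
    obtain ⟨P, hP, hP𝔞, hPc⟩ := FA_S18_N_exists_prime_of_dvd_relNorm 𝔭 h𝔭0 𝔞 h𝔞0 hdiv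
    have hPT : P ∈ T := by
      apply hTmem P hP
      rw [IsScalarTower.algebraMap_eq C B B', ← Ideal.comap_comap, hPc]
      exact hle
    by_cases hPQ : P = Q₁
    · exact hQ₁𝔞 (hPQ ▸ hP𝔞)
    · exact hT𝔞 P hPT hPQ hP𝔞
  -- `z` comes from `C`
  obtain ⟨c, hc⟩ := hnorm t
  have hz𝔮 : z ∈ 𝔮 := by
    have : span {z} ≤ 𝔮 := hzspan ▸ Ideal.mul_le_left
    exact this (Ideal.mem_span_singleton_self z)
  have hc𝔫 : c ∈ 𝔫 := by
    rw [← h𝔮, Ideal.mem_comap, hc, ← hz]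
    exact hz𝔮
  set J : Ideal B := map (algebraMap C B) 𝔫 with hJ
  have hzJ : z ∈ J := by
    rw [hz, ← hc]
    exact Ideal.mem_map_of_mem _ hc𝔫
  have hJ𝔮 : J ≤ 𝔮 := by
    rw [hJ, Ideal.map_le_iff_le_comap, h𝔮]
  obtain ⟨J', hJ'⟩ : 𝔮 ∣ J := Ideal.dvd_iff_le.mpr hJ𝔮
  have hJz : J ∣ span {z} := by
    rw [Ideal.dvd_iff_le, Ideal.span_singleton_le_iff_mem]
    exact hzJ
  rw [hzspan, hJ', mul_dvd_mul_iff_left h𝔮0] at hJz
  have hJ'top : J' = ⊤ := by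
    by_contra hne
    obtain ⟨P, hPmax, hle⟩ := Ideal.exists_le_maximal J' hne
    have hP𝔟 : P ∣ 𝔟 := (Ideal.dvd_iff_le.mpr hle).trans hJz
    refine hcop P hPmax.isPrime ?_ hP𝔟
    rw [← Ideal.map_le_iff_le_comap, ← hJ, hJ']
    exact le_trans Ideal.mul_le_right hle
  rw [hJ', hJ'top, Ideal.mul_top]

end main
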