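import Fermat.Agent.S18.C0Gen
import Fermat.Agent.S18.Charts0

/-!
# S18, leaf N, sub-leaf BASE(2) = NB2 POINTS (general part)

`K` algebraically closed of characteristic zero, `F / K` a function field of genus `0`,
`x ∈ F` transcendental, `B = FA_S18_H2_icl K x` the integral closure of `K[x]` in `F`.

* `FA_S18_NB_exists_pole` : `x` has a pole;
* `FA_S18_NB_exists_gen`  : genus `0`: for places `P ≠ Q` there is `w` with `div w = P - Q`;
* `FA_S18_NB_good_of_ord` : such a `w` (for `P` finite, `Q` a pole of `x`) lies in `B` and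
  `B = K + w B` (the residue field of `P` is `K`);
* `FA_S18_NB_points_gen`  : every nonzero `g ∈ B` is `u * ∏ w`, `u ∈ B^×`, every `w` a good
  generator which is a unit of `O` (`O` any subset of `F` with the scaling property).
-/

set_option autoImplicit false
set_option linter.unusedSectionVars false
set_option linter.style.haveILetI false

noncomputable section

namespace Fermat.Agent.S18

open AlgebraicCurve IntermediateField FA_RR FA_RR.WPB FA_S18

variable {K F : Type*} [Field K] [Field F] [Algebra K F] [IsAlgClosed K] [CharZero K]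

/-- A transcendental element has a pole. -/
theorem FA_S18_NB_exists_pole (hF : FA_RR_IsFF K F) {x : F} (hx : Transcendental K x) :
    ∃ Q : Place K F, Q.ord x < 0 := by
  obtain ⟨Z, hZ, hdeg⟩ := sumZeros hF x⁻¹ (transcendental_inv hx)
  haveI := finiteDimensional_adjoin hF (transcendental_inv hx)
  have hpos : 0 < Module.finrank K⟮x⁻¹⟯ F := Module.finrank_pos
  by_contra hcon
  push Not at hcon
  have hZ0 : Z = 0 := by
    ext v
    rw [hZ v, v.ord_inv, Finsupp.zero_apply]
    have := hcon v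
    omega
  rw [hZ0, map_zero] at hdeg
  omega

/-- Genus `0`: for two distinct places `P ≠ Q` there is a function with divisor `P - Q`. -/
theorem FA_S18_NB_exists_gen (hF : FA_RR_IsFF K F) (hg : genusFF K F = 0) (P Q : Place K F)
    (hPQ : P ≠ Q) :
    ∃ w : F, w ≠ 0 ∧ P.ord w = 1 ∧ Q.ord w = -1 ∧
      ∀ v : Place K F, v ≠ P → v ≠ Q → v.ord w = 0 := by
  classical
  have hdeg : Divisor.degree (Finsupp.single Q (1 : ℤ) - Finsupp.single P (1 : ℤ)
      : Divisor K F) = 0 := by
    rw [map_sub, Divisor.degree_single, Divisor.degree_single, deg_eq_one hF, deg_eq_one hF]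
    simp
  have hfr := FA_S18_C0_finrank_L hF _ (by rw [hdeg, hg]; norm_num)
  rw [hdeg, hg] at hfr
  have hfr1 : 0 < Module.finrank K
      (riemannRochSpace (Finsupp.single Q (1 : ℤ) - Finsupp.single P (1 : ℤ) : Divisor K F)) := by
    have : (0 : ℤ) < (Module.finrank K
      (riemannRochSpace (Finsupp.single Q (1 : ℤ) - Finsupp.single P (1 : ℤ)
        : Divisor K F)) : ℤ) := by
      rw [hfr]; norm_num
    exact_mod_cast this
  haveI := Module.nontrivial_of_finrank_pos hfr1
  obtain ⟨⟨w, hwE⟩, hw⟩ := exists_ne (0 : riemannRochSpace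
    (Finsupp.single Q (1 : ℤ) - Finsupp.single P (1 : ℤ) : Divisor K F))
  have hw0 : w ≠ 0 := fun h => hw (Subtype.ext h)
  have hord := FA_S18_C0_ord_eq_of_mem_L hF hdeg hw0 hwE
  refine ⟨w, hw0, ?_, ?_, ?_⟩
  · rw [hord P, Finsupp.sub_apply, Finsupp.single_apply, Finsupp.single_apply,
      if_neg (Ne.symm hPQ), if_pos rfl]
    norm_num
  · rw [hord Q, Finsupp.sub_apply, Finsupp.single_apply, Finsupp.single_apply,
      if_pos rfl, if_neg hPQ]
    norm_num
  · intro v hvP hvQ
    rw [hord v, Finsupp.sub_apply, Finsupp.single_apply, Finsupp.single_apply,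
      if_neg (Ne.symm hvQ), if_neg (Ne.symm hvP)]
    norm_num

/-- A function with a simple zero at the finite place `P` and no other finite zero or pole is a
"good generator": it lies in `B` and `B = K + w B`. -/
theorem FA_S18_NB_good_of_ord (hF : FA_RR_IsFF K F) {x : F} (hx : Transcendental K x) {w : F}
    (hw0 : w ≠ 0) (P : Place K F) (hP : 0 ≤ P.ord x) (hwP : P.ord w = 1)
    (hwv : ∀ v : Place K F, 0 ≤ v.ord x → v ≠ P → v.ord w = 0) :
    w ∈ FA_S18_H2_icl K x ∧ ∀ r ∈ FA_S18_H2_icl K x, ∃ c : K, ∃ r' ∈ FA_S18_H2_icl K x,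
      r = algebraMap K F c + w * r' := by
  haveI := finiteDimensional_adjoin hF hx
  have hwB : w ∈ FA_S18_H2_icl K x := by
    rw [FA_S18_H2_mem_icl_iff hx]
    intro v hv
    by_cases hvP : v = P
    · subst hvP; omega
    · rw [hwv v hv hvP]
  refine ⟨hwB, ?_⟩
  intro r hr
  have hrP : 0 ≤ P.ord r := (FA_S18_H2_mem_icl_iff hx).mp hr P hP
  obtain ⟨c, hc⟩ := residue hF P r (P.adicValuation_le_one_iff.mpr (Or.inr hrP))
  have hrc : r - algebraMap K F c ∈ FA_S18_H2_icl K x :=
    Subalgebra.sub_mem _ hr (Subalgebra.algebraMap_mem _ c)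
  refine ⟨c, (r - algebraMap K F c) * w⁻¹, ?_, ?_⟩
  · rw [FA_S18_H2_mem_icl_iff hx]
    intro v hv
    by_cases h0 : r - algebraMap K F c = 0
    · rw [h0, zero_mul, Place.ord_zero]
    rw [v.ord_mul h0 (inv_ne_zero hw0), v.ord_inv]
    have h1 := (FA_S18_H2_mem_icl_iff hx).mp hrc v hv
    by_cases hvP : v = P
    · subst hvP
      rcases (adicValuation_lt_one_iff v).mp hc with h | h
      · exact absurd h h0
      · omega
    · rw [hwv v hv hvP]; omega
  · field_simp
    ring

section Main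

variable (hF : FA_RR_IsFF K F) (hg : genusFF K F = 0) {x : F} (hx : Transcendental K x)
  (O : Set F)
  (hsc : ∀ y : F, y ≠ 0 → ∃ c : K, c ≠ 0 ∧ algebraMap K F c * y ∈ O ∧
    (algebraMap K F c * y)⁻¹ ∈ O)
include hF hg hx hsc

/-- For every finite place `P` there is a function `w`, unit of `O`, with a simple zero at `P`
and no other finite zero or pole. -/
theorem FA_S18_NB_exists_w (P : Place K F) (hP : 0 ≤ P.ord x) :
    ∃ w : F, w ≠ 0 ∧ P.ord w = 1 ∧ (∀ v : Place K F, 0 ≤ v.ord x → v ≠ P → v.ord w = 0) ∧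
      w ∈ O ∧ w⁻¹ ∈ O := by
  obtain ⟨Q, hQ⟩ := FA_S18_NB_exists_pole hF hx
  have hPQ : P ≠ Q := by rintro rfl; omega
  obtain ⟨w, hw0, hwP, -, hwv⟩ := FA_S18_NB_exists_gen hF hg P Q hPQ
  obtain ⟨c, hc, h1, h2⟩ := hsc w hw0
  have hc' : algebraMap K F c ≠ 0 := by rwa [Ne, map_eq_zero]
  refine ⟨algebraMap K F c * w, mul_ne_zero hc' hw0, ?_, ?_, h1, h2⟩
  · rw [P.ord_mul hc' hw0, ord_algebraMap, zero_add, hwP]
  · intro v hv hvP
    rw [v.ord_mul hc' hw0, ord_algebraMap, zero_add]
    exact hwv v hvP (by rintro rfl; omega)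

theorem FA_S18_NB_factor_aux (s : Finset (Place K F)) :
    ∀ g : F, g ∈ FA_S18_H2_icl K x → g ≠ 0 →
      (∀ v : Place K F, 0 ≤ v.ord x → 0 < v.ord g → v ∈ s) →
      ∃ (u : F) (ws : List F), g = u * ws.prod ∧ u ∈ FA_S18_H2_icl K x ∧
        u⁻¹ ∈ FA_S18_H2_icl K x ∧
        ∀ w ∈ ws, w ≠ 0 ∧ w ∈ FA_S18_H2_icl K x ∧ w ∈ O ∧ w⁻¹ ∈ O ∧
          ∀ r ∈ FA_S18_H2_icl K x, ∃ c : K, ∃ r' ∈ FA_S18_H2_icl K x,
            r = algebraMap K F c + w * r' := by
  classical
  haveI := finiteDimensional_adjoin hF hx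
  induction s using Finset.induction_on with
  | empty =>
    intro g hgB hg0 hs
    refine ⟨g, [], by simp, hgB, ?_, by simp⟩
    rw [FA_S18_H2_mem_icl_iff hx]
    intro v hv
    rw [v.ord_inv]
    have h1 := (FA_S18_H2_mem_icl_iff hx).mp hgB v hv
    by_contra hcon
    exact absurd (hs v hv (by omega)) (Finset.notMem_empty v)
  | insert P s hPs ih =>
    intro g hgB hg0 hs
    by_cases hP : 0 ≤ P.ord x ∧ 0 < P.ord g
    · obtain ⟨hPx, hPg⟩ := hP
      obtain ⟨w, hw0, hwP, hwv, hwO, hwO'⟩ := FA_S18_NB_exists_w hF hg hx O hsc P hPx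
      obtain ⟨hwB, hwres⟩ := FA_S18_NB_good_of_ord hF hx hw0 P hPx hwP hwv
      obtain ⟨k, hkP⟩ : ∃ k : ℕ, (k : ℤ) = P.ord g := ⟨(P.ord g).toNat, Int.toNat_of_nonneg hPg.le⟩
      have hg'0 : g * (w⁻¹) ^ k ≠ 0 := mul_ne_zero hg0 (pow_ne_zero _ (inv_ne_zero hw0))
      have hord : ∀ v : Place K F, v.ord (g * (w⁻¹) ^ k) = v.ord g - k * v.ord w := by
        intro v
        have h1 := v.ord_zpow w⁻¹ (k : ℤ)
        rw [zpow_natCast] at h1
        rw [v.ord_mul hg0 (pow_ne_zero _ (inv_ne_zero hw0)), h1, v.ord_inv]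
        ring
      have hg'B : g * (w⁻¹) ^ k ∈ FA_S18_H2_icl K x := by
        rw [FA_S18_H2_mem_icl_iff hx]
        intro v hv
        rw [hord v]
        have h1 := (FA_S18_H2_mem_icl_iff hx).mp hgB v hv
        by_cases hvP : v = P
        · subst hvP; rw [hwP, hkP]; omega
        · rw [hwv v hv hvP]; omega
      obtain ⟨u, ws, hgu, huB, huB', hws⟩ := ih (g * (w⁻¹) ^ k) hg'B hg'0 (by
        intro v hv hvg
        rw [hord v] at hvg
        have hvP : v ≠ P := by
          rintro rfl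
          rw [hwP, hkP] at hvg
          omega
        rw [hwv v hv hvP] at hvg
        have := hs v hv (by omega)
        exact (Finset.mem_insert.mp this).resolve_left hvP)
      refine ⟨u, List.replicate k w ++ ws, ?_, huB, huB', ?_⟩
      · rw [List.prod_append, List.prod_replicate]
        have h1 : g = g * (w⁻¹) ^ k * w ^ k := by
          rw [mul_assoc, ← mul_pow, inv_mul_cancel₀ hw0, one_pow, mul_one]
        rw [h1, hgu]; ring
      · intro w' hw'
        rcases List.mem_append.mp hw' with h | h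
        · rw [List.eq_of_mem_replicate h]
          exact ⟨hw0, hwB, hwO, hwO', hwres⟩
        · exact hws w' h
    · refine ih g hgB hg0 ?_
      intro v hv hvg
      have := hs v hv hvg
      rcases Finset.mem_insert.mp this with rfl | h
      · exact absurd ⟨hv, hvg⟩ hP
      · exact h

/-- **NB2 (general form)**: in genus `0`, every nonzero element of `B` is a unit of `B` times a
product of good generators that are units of `O`. -/
theorem FA_S18_NB_points_gen {g : F} (hgB : g ∈ FA_S18_H2_icl K x) (hg0 : g ≠ 0) :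
    ∃ (u : F) (ws : List F), g = u * ws.prod ∧ u ∈ FA_S18_H2_icl K x ∧
      u⁻¹ ∈ FA_S18_H2_icl K x ∧
      ∀ w ∈ ws, w ≠ 0 ∧ w ∈ FA_S18_H2_icl K x ∧ w ∈ O ∧ w⁻¹ ∈ O ∧
        ∀ r ∈ FA_S18_H2_icl K x, ∃ c : K, ∃ r' ∈ FA_S18_H2_icl K x,
          r = algebraMap K F c + w * r' := by
  haveI := hasPrincipalDivisors hF
  obtain ⟨Dg, hDg, -⟩ := HasPrincipalDivisors.exists_divisor (K := K) g hg0
  refine FA_S18_NB_factor_aux hF hg hx O hsc Dg.support g hgB hg0 ?_
  intro v _ hv
  rw [Finsupp.mem_support_iff, hDg v]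
  omega

end Main

end Fermat.Agent.S18

end
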