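import Mathlib
import Fermat.Agent.Lib.RR.ChartSum

/-!
# S18, leaf C: Dedekind charts of a function field at a separating element (any characteristic)

Copy of the `CharZero` part of `Lib/RR/ChartX.lean` with `[CharZero K]` replaced by
`[Algebra.IsSeparable K⟮x⟯ F]`.
-/

set_option autoImplicit false
set_option linter.style.haveILetI false

noncomputable section

open AlgebraicCurve IsDedekindDomain IntermediateField WithZero FA_RR
open scoped IntermediateField.algebraAdjoinAdjoin

namespace FA_S18_C

variable {K F : Type*} [Field K] [Field F] [Algebra K F]

section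
variable {x : F} (hx : Transcendental K x) [FiniteDimensional K⟮x⟯ F]
  [Algebra.IsSeparable K⟮x⟯ F]
include hx

theorem sep_isDedekindDomain_chartRing : IsDedekindDomain (chartRing K x) := by
  have : IsPrincipalIdealRing (Algebra.adjoin K {x}) := isPrincipalIdealRing_adjoin hx
  exact integralClosure.isDedekindDomain (Algebra.adjoin K {x}) K⟮x⟯ F

theorem sep_finite_chartRing : Module.Finite (Algebra.adjoin K {x}) (chartRing K x) := by
  have : IsPrincipalIdealRing (Algebra.adjoin K {x}) := isPrincipalIdealRing_adjoin hx
  exact IsIntegralClosure.finite (Algebra.adjoin K {x}) K⟮x⟯ F (chartRing K x)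

theorem sep_finiteType_chartRing : Algebra.FiniteType K (chartRing K x) := by
  have h1 : Module.Finite (Algebra.adjoin K {x}) (chartRing K x) := sep_finite_chartRing hx
  have h2 : Algebra.FiniteType K (Algebra.adjoin K {x}) := by
    rw [← Subalgebra.fg_iff_finiteType]
    have := Subalgebra.fg_adjoin_finset (R := K) (A := F) {x}
    simpa using this
  exact Algebra.FiniteType.trans h2 inferInstance

/-- The place attached to a height one prime of the chart ring. -/
def sep_chartPlace
    (w : @HeightOneSpectrum (chartRing K x) _) : Place K F :=
  haveI := sep_isDedekindDomain_chartRing hx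
  haveI := isFractionRing_chartRing (K := K) x
  Place.ofHeightOneSpectrum (K := K) (F := F) w

theorem sep_chartPlace_adicValuation (w : @HeightOneSpectrum (chartRing K x) _) (f : F) :
    (sep_chartPlace hx w).adicValuation f =
      (haveI := sep_isDedekindDomain_chartRing hx
       haveI := isFractionRing_chartRing (K := K) x
       w.valuation F f) := by
  haveI := sep_isDedekindDomain_chartRing hx
  haveI := isFractionRing_chartRing (K := K) x
  exact adicValuation_ofHeightOneSpectrum w f

/-- Every place with `x ∈ O_v` is a chart place. -/
theorem sep_exists_chartPlace_eq (v : Place K F) (hv : x ∈ v.toValuationSubring) :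
    ∃ w, sep_chartPlace hx w = v := by
  haveI := sep_isDedekindDomain_chartRing hx
  haveI := isFractionRing_chartRing (K := K) x
  exact exists_ofHeightOneSpectrum_eq v (chartRing_le v hv)

theorem sep_x_mem_chartPlace (w : @HeightOneSpectrum (chartRing K x) _) :
    x ∈ (sep_chartPlace hx w).toValuationSubring := by
  haveI := sep_isDedekindDomain_chartRing hx
  haveI := isFractionRing_chartRing (K := K) x
  show w.valuation F x ≤ 1
  exact w.valuation_le_one (⟨x, x_mem_chartRing x⟩ : chartRing K x)

/-- An element of `F` without poles at the places of the chart at `x` is integral over `K[x]`. -/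
theorem sep_mem_chartRing_of_forall_ord_nonneg (f : F)
    (h : ∀ v : Place K F, x ∈ v.toValuationSubring → 0 ≤ v.ord f) : f ∈ chartRing K x := by
  haveI := sep_isDedekindDomain_chartRing hx
  haveI := isFractionRing_chartRing (K := K) x
  have key : ∀ w : HeightOneSpectrum (chartRing K x), w.valuation F f ≤ 1 := by
    intro w
    have h1 := h (sep_chartPlace hx w) (sep_x_mem_chartPlace hx w)
    rw [← sep_chartPlace_adicValuation hx w f]
    exact (Place.adicValuation_le_one_iff (v := sep_chartPlace hx w)).mpr (Or.inr h1)
  obtain ⟨r, hr⟩ := HeightOneSpectrum.mem_integers_of_valuation_le_one F f key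
  rw [← hr]
  exact r.2

end

end FA_S18_C

end
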