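import Mathlib
import Fermat.Agent.S18.RRpChart
import Fermat.Agent.Lib.RR.Principal

/-!
# S18, leaf C: a function without poles is constant (any characteristic)

`K` algebraically closed, `F / K` a function field with a separating element `x`
(`F / K(x)` finite separable).  An element of `F` without poles is integral over `K[x]` and over
`K[1/x]`, so its minimal polynomial over `K(x)` has constant coefficients.
-/

set_option autoImplicit false
set_option linter.style.haveILetI false

noncomputable section

open AlgebraicCurve IsDedekindDomain IntermediateField WithZero FA_RR Polynomial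
open scoped IntermediateField.algebraAdjoinAdjoin

/-- `F / K` is a separably generated function field in one variable. -/
def FA_S18_C_IsFF (K F : Type*) [Field K] [Field F] [Algebra K F] : Prop :=
  ∃ x : F, Transcendental K x ∧ FiniteDimensional (IntermediateField.adjoin K {x}) F ∧
    Algebra.IsSeparable (IntermediateField.adjoin K {x}) F

namespace FA_S18_C

variable {K F : Type*} [Field K] [Field F] [Algebra K F]

theorem sep_ne_zero_of_transcendental {x : F} (hx : Transcendental K x) : x ≠ 0 := by
  rintro rfl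
  exact hx (isAlgebraic_zero)

/-- `K[x] ∩ K[1/x] = K`. -/
theorem sep_mem_range_of_mem_adjoin_inv {x : F} (hx : Transcendental K x) {c : F}
    (h1 : c ∈ Algebra.adjoin K {x}) (h2 : c ∈ Algebra.adjoin K {x⁻¹}) :
    c ∈ Set.range (algebraMap K F) := by
  rw [Algebra.adjoin_singleton_eq_range_aeval] at h1 h2
  obtain ⟨p, rfl⟩ := h1
  obtain ⟨q, hq⟩ := h2
  have hx0 : x ≠ 0 := sep_ne_zero_of_transcendental hx
  have key : aeval x (p * X ^ q.natDegree) = aeval x q.reverse := by
    letI : Invertible x⁻¹ := invertibleOfNonzero (inv_ne_zero hx0)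
    have h := eval₂_reverse_mul_pow (algebraMap K F) x⁻¹ q
    rw [invOf_eq_inv, inv_inv] at h
    have hq' : eval₂ (algebraMap K F) x⁻¹ q = aeval x p := hq
    rw [hq'] at h
    rw [map_mul, map_pow, aeval_X]
    have h3 : aeval x q.reverse = eval₂ (algebraMap K F) x q.reverse := rfl
    rw [h3, ← h, mul_assoc, ← mul_pow, inv_mul_cancel₀ hx0, one_pow, mul_one]
  have heq : p * X ^ q.natDegree = q.reverse := (transcendental_iff_injective.mp hx) key
  by_cases hp : p = 0
  · subst hp
    exact ⟨0, by simp⟩
  have hdeg : (p * X ^ q.natDegree).natDegree = p.natDegree + q.natDegree :=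
    natDegree_mul_X_pow q.natDegree hp
  have hle := reverse_natDegree_le q
  rw [← heq, hdeg] at hle
  have h0 : p.natDegree = 0 := by omega
  obtain ⟨a, rfl⟩ := natDegree_eq_zero.mp h0
  exact ⟨a, by simp⟩

theorem sep_map_minpoly_congr {E₁ E₂ : IntermediateField K F} (h : E₁ = E₂) (f : F) :
    (minpoly E₁ f).map (algebraMap E₁ F) = (minpoly E₂ f).map (algebraMap E₂ F) := by
  subst h
  rfl

theorem sep_finiteDimensional_congr {E₁ E₂ : IntermediateField K F} (h : E₁ = E₂)
    [FiniteDimensional E₂ F] : FiniteDimensional E₁ F := by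
  subst h
  infer_instance

theorem sep_isSeparable_congr {E₁ E₂ : IntermediateField K F} (h : E₁ = E₂)
    [Algebra.IsSeparable E₂ F] : Algebra.IsSeparable E₁ F := by
  subst h
  infer_instance

theorem sep_coeff_minpoly_mem {x : F} (hx : Transcendental K x) {f : F}
    (hf : f ∈ chartRing K x) (n : ℕ) :
    ((minpoly K⟮x⟯ f).map (algebraMap K⟮x⟯ F)).coeff n ∈ Algebra.adjoin K {x} := by
  have : IsPrincipalIdealRing (Algebra.adjoin K {x}) := isPrincipalIdealRing_adjoin hx
  have hi : IsIntegral (Algebra.adjoin K {x}) f := hf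
  have e := minpoly.isIntegrallyClosed_eq_field_fractions' K⟮x⟯ hi
  rw [e, Polynomial.map_map, coeff_map]
  exact ((minpoly (Algebra.adjoin K {x}) f).coeff n).2

/-- **Ring form**: an element of `F` integral over `K[x]` and over `K[1/x]` is algebraic
over `K` (no separability needed). -/
theorem sep_isAlgebraic_of_integral {x : F} (hx : Transcendental K x) {f : F}
    (h1 : f ∈ chartRing K x) (h2 : f ∈ chartRing K x⁻¹) : IsAlgebraic K f := by
  have hx' : Transcendental K x⁻¹ := transcendental_inv hx
  have hE : K⟮x⁻¹⟯ = K⟮x⟯ := adjoin_inv_eq x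
  set P := (minpoly K⟮x⟯ f).map (algebraMap K⟮x⟯ F) with hP
  have hP' : P = (minpoly K⟮x⁻¹⟯ f).map (algebraMap K⟮x⁻¹⟯ F) :=
    sep_map_minpoly_congr hE.symm f
  have hint : IsIntegral K⟮x⟯ f := by
    have hi : IsIntegral (Algebra.adjoin K {x}) f := h1
    exact hi.tower_top
  have hmonic : P.Monic := (minpoly.monic hint).map _
  have hroot : aeval f P = 0 := by
    rw [hP, aeval_map_algebraMap, minpoly.aeval]
  have hlifts : P ∈ lifts (algebraMap K F) := by
    rw [lifts_iff_coeff_lifts]
    intro n
    refine sep_mem_range_of_mem_adjoin_inv hx (sep_coeff_minpoly_mem hx h1 n) ?_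
    rw [hP']
    exact sep_coeff_minpoly_mem hx' h2 n
  obtain ⟨Q, hQ, -, hQm⟩ := lifts_and_natDegree_eq_and_monic hlifts hmonic
  refine ⟨Q, hQm.ne_zero, ?_⟩
  rw [← hQ, aeval_map_algebraMap] at hroot
  exact hroot

/-- **Ring form**: over an algebraically closed field, an element of `F` integral over `K[x]`
and over `K[1/x]` is a constant. -/
theorem sep_const_of_integral [IsAlgClosed K] {x : F} (hx : Transcendental K x) {f : F}
    (h1 : IsIntegral (Algebra.adjoin K {x}) f) (h2 : IsIntegral (Algebra.adjoin K {x⁻¹}) f) :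
    ∃ c : K, algebraMap K F c = f :=
  exists_const_of_isAlgebraic (sep_isAlgebraic_of_integral hx h1 h2)

/-- **A function without poles is constant** (chart form). -/
theorem sep_const_of_forall_ord_nonneg [IsAlgClosed K] {x : F} (hx : Transcendental K x)
    [FiniteDimensional K⟮x⟯ F] [Algebra.IsSeparable K⟮x⟯ F] (f : F)
    (h : ∀ v : Place K F, 0 ≤ v.ord f) : ∃ c : K, algebraMap K F c = f := by
  have hx' : Transcendental K x⁻¹ := transcendental_inv hx
  have hE : K⟮x⁻¹⟯ = K⟮x⟯ := adjoin_inv_eq x
  haveI : FiniteDimensional K⟮x⁻¹⟯ F := sep_finiteDimensional_congr hE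
  haveI : Algebra.IsSeparable K⟮x⁻¹⟯ F := sep_isSeparable_congr hE
  have h1 : f ∈ chartRing K x := sep_mem_chartRing_of_forall_ord_nonneg hx f (fun v _ => h v)
  have h2 : f ∈ chartRing K x⁻¹ :=
    sep_mem_chartRing_of_forall_ord_nonneg hx' f (fun v _ => h v)
  exact sep_const_of_integral hx h1 h2

/-- **A function without poles is constant.** -/
theorem sep_const [IsAlgClosed K] (hF : FA_S18_C_IsFF K F) (f : F)
    (h : ∀ v : Place K F, 0 ≤ v.ord f) : ∃ c : K, algebraMap K F c = f := by
  obtain ⟨x, hx, hfin, hsep⟩ := hF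
  exact sep_const_of_forall_ord_nonneg hx f h

end FA_S18_C

end
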