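import Fermat.Agent.S18.StageA3
import Fermat.Agent.S18.DescentMain

/-!
# S18, leaf H1: `Root` from `Core`

`FA_S18_Target_Core A M N p` (what stage 2 proves at the auxiliary level `N * M`): for integral
`y₁, y₂ ∈ F_N` with equal nonzero reductions and `div(y₁/y₂) ∈ p·Div(F_N)`, the `q^M`-expansion
`σ(y₁/y₂)` is `c · h^p` with `c ∈ ℚ̄ˣ`, `h ∈ F_{N·M}`.

* `FA_S18_H1_root_of_core` : `Core` at `M = r²` ⟹ `FA_S18_Target_Root` (descent, leaf G).
* `FA_S18_H1_qExpand_mem` : `σ F_N ⊆ F_{N·M}`.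
* `FA_S18_H1_transfer_divisor` : (G0) in divisor form: if all orders of `f ∈ F_N` are divisible
  by `p`, then `div(σ f) = p · D'` for a divisor `D'` of `F_{N·M}`.
-/

set_option autoImplicit false
set_option linter.unusedSectionVars false
set_option linter.style.haveILetI false

noncomputable section

namespace Fermat.Agent.S18

open ModularCurve AlgebraicCurve IntermediateField Fermat.Agent.S28

/-- **Target of stage 2** (at the auxiliary level `N * M`): for integral `y₁, y₂` in `F_N` with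
equal nonzero reductions and divisor of `y₁/y₂` divisible by `p`, the `q^M`-expansion of
`y₁/y₂` is a constant times a `p`-th power in `F_{N·M}`. -/
def FA_S18_Target_Core (A : ValuationSubring (AlgebraicClosure ℚ)) (M N : ℕ) [NeZero M]
    [NeZero N] (p : ℕ) : Prop :=
  ∀ (y₁ y₂ : LaurentSeries A) (h₁ : FA_S18_A_Int A (IsLocalRing.residue A) N y₁)
    (h₂ : FA_S18_A_Int A (IsLocalRing.residue A) N y₂),
    coeffMap (IsLocalRing.residue A) y₁ = coeffMap (IsLocalRing.residue A) y₂ →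
    coeffMap (IsLocalRing.residue A) y₁ ≠ 0 →
    (∀ P : Place (AlgebraicClosure ℚ) (modularFunctionFieldBar N),
      (p : ℤ) ∣ P.ord (FA_S18_A_gen y₁ h₁) - P.ord (FA_S18_A_gen y₂ h₂)) →
    ∃ c : AlgebraicClosure ℚ, c ≠ 0 ∧ ∃ h ∈ modularFunctionFieldBar (N * M),
      qExpand (AlgebraicClosure ℚ) M (coeffMap A.subtype y₁ / coeffMap A.subtype y₂)
        = algebraMap (AlgebraicClosure ℚ) (LaurentSeries (AlgebraicClosure ℚ)) c * h ^ p

/-- order of a quotient -/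
theorem FA_S18_H1_ord_div {K F : Type*} [Field K] [Field F] [Algebra K F] (P : Place K F)
    {a b : F} (ha : a ≠ 0) (hb : b ≠ 0) : P.ord (a / b) = P.ord a - P.ord b := by
  rw [div_eq_mul_inv, P.ord_mul ha (inv_ne_zero hb), P.ord_inv, sub_eq_add_neg]

/-- order of a natural power -/
theorem FA_S18_H1_ord_pow {K F : Type*} [Field K] [Field F] [Algebra K F] (P : Place K F)
    (a : F) (n : ℕ) : P.ord (a ^ n) = (n : ℤ) * P.ord a := by
  rw [← zpow_natCast, P.ord_zpow]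

/-- order of `c · h^p` -/
theorem FA_S18_H1_ord_const_mul_pow {K F : Type*} [Field K] [Field F] [Algebra K F]
    (P : Place K F) {c : K} (hc : c ≠ 0) {h : F} (hh : h ≠ 0) (p : ℕ) :
    P.ord (algebraMap K F c * h ^ p) = (p : ℤ) * P.ord h := by
  have hc' : algebraMap K F c ≠ 0 := by
    rw [Ne, map_eq_zero_iff _ (algebraMap K F).injective]
    exact hc
  rw [P.ord_mul hc' (pow_ne_zero p hh), FA_RR.ord_algebraMap, zero_add, FA_S18_H1_ord_pow]

/-- **(H1)** `Root` from `Core` at the auxiliary level `N·r²`. -/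
theorem FA_S18_H1_root_of_core (A : ValuationSubring (AlgebraicClosure ℚ)) (r : ℕ)
    (hr : r.Prime) (M : ℕ) [NeZero M] (hM : M = r * r) (N : ℕ) [NeZero N] (p : ℕ)
    (hp : p ≠ 0) (hcore : FA_S18_Target_Core A M N p) :
    FA_S18_Target_Root A (IsLocalRing.residue A) N p := by
  intro y₁ y₂ h₁ h₂ heq hne hdiv
  have hne₂ : coeffMap (IsLocalRing.residue A) y₂ ≠ 0 := heq ▸ hne
  have hg₁ := FA_S18_A_gen_ne_zero h₁ hne
  have hg₂ := FA_S18_A_gen_ne_zero h₂ hne₂
  obtain ⟨c, hc, h, hh, hpow⟩ := hcore y₁ y₂ h₁ h₂ heq hne hdiv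
  set fF : ↥(modularFunctionFieldBar N) := FA_S18_A_gen y₁ h₁ / FA_S18_A_gen y₂ h₂ with hfF
  have hfF0 : fF ≠ 0 := div_ne_zero hg₁ hg₂
  have hval : (fF : LaurentSeries (AlgebraicClosure ℚ))
      = coeffMap A.subtype y₁ / coeffMap A.subtype y₂ := rfl
  have hordP : ∀ P : Place (AlgebraicClosure ℚ) (modularFunctionFieldBar N),
      P.ord fF = P.ord (FA_S18_A_gen y₁ h₁) - P.ord (FA_S18_A_gen y₂ h₂) :=
    fun P => FA_S18_H1_ord_div P hg₁ hg₂
  have hord : (p : ℤ) ∣ (fF : LaurentSeries (AlgebraicClosure ℚ)).order :=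
    FA_S18_G_order_dvd N p fF hfF0 (fun P => by rw [hordP]; exact hdiv P)
  have hf0 : (fF : LaurentSeries (AlgebraicClosure ℚ)) ≠ 0 :=
    fun h0 => hfF0 (Subtype.ext h0)
  obtain ⟨h₀, hh₀, hfh⟩ := FA_S18_G_descent r hr M hM N (N * M) rfl p hp
    (fF : LaurentSeries (AlgebraicClosure ℚ)) h hf0 hord hh c hc (by rw [hval]; exact hpow)
  have hfh' : fF = algebraMap (AlgebraicClosure ℚ) ↥(modularFunctionFieldBar N) c
      * (⟨h₀, hh₀⟩ : ↥(modularFunctionFieldBar N)) ^ p := Subtype.ext hfh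
  have hh₀0 : (⟨h₀, hh₀⟩ : ↥(modularFunctionFieldBar N)) ≠ 0 := by
    intro h0
    apply hfF0
    rw [hfh', h0, zero_pow hp, mul_zero]
  refine ⟨⟨h₀, hh₀⟩, hh₀0, fun P => ?_⟩
  rw [← hordP, hfh', FA_S18_H1_ord_const_mul_pow P hc hh₀0]

/-- `σ_M F_N ⊆ F_{N·M}` (any `M ≥ 1`). -/
theorem FA_S18_H1_map_le (M N : ℕ) [NeZero M] [NeZero N] :
    haveI : NeZero (N * M) := ⟨Nat.mul_ne_zero (NeZero.ne N) (NeZero.ne M)⟩
    (modularFunctionFieldBar N).map (qExpandAlgHomC (AlgebraicClosure ℚ) M)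
      ≤ modularFunctionFieldBar (N * M) := by
  haveI hNM : NeZero (N * M) := ⟨Nat.mul_ne_zero (NeZero.ne N) (NeZero.ne M)⟩
  show (modularFunctionFieldBar N).map (qExpandAlgHomC (AlgebraicClosure ℚ) M)
      ≤ modularFunctionFieldBar (N * M)
  rw [FA_S18_G_bar_eq_fld N, FA_S18_G_bar_eq_fld (N * M), FA_S28_fld, FA_S28_fld,
    IntermediateField.adjoin_map, IntermediateField.adjoin_le_iff]
  rintro x ⟨y, hy, rfl⟩
  rcases hy with rfl | ⟨d, hd, rfl⟩
  · have h1 : (qExpandAlgHomC (AlgebraicClosure ℚ) M) (jqModC (AlgebraicClosure ℚ))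
        = FA_S28_jd (AlgebraicClosure ℚ) M := FA_S18_G_sigma_jq M
    rw [SetLike.mem_coe]
    show (qExpandAlgHomC (AlgebraicClosure ℚ) M) (jqModC (AlgebraicClosure ℚ)) ∈ _
    rw [h1]
    exact IntermediateField.subset_adjoin _ _
      (Set.mem_insert_of_mem _ ⟨M, Dvd.intro_left N rfl, rfl⟩)
  · have hd0 : d ≠ 0 := fun h0 => NeZero.ne N (by
      have hd' : d ∣ N := hd
      rw [h0] at hd'
      exact zero_dvd_iff.mp hd')
    have h1 : (qExpandAlgHomC (AlgebraicClosure ℚ) M) (FA_S28_jd (AlgebraicClosure ℚ) d)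
        = FA_S28_jd (AlgebraicClosure ℚ) (M * d) := FA_S18_G_sigma_jd M d hd0
    rw [SetLike.mem_coe]
    show (qExpandAlgHomC (AlgebraicClosure ℚ) M) (FA_S28_jd (AlgebraicClosure ℚ) d) ∈ _
    rw [h1]
    refine IntermediateField.subset_adjoin _ _
      (Set.mem_insert_of_mem _ ⟨M * d, ?_, rfl⟩)
    show M * d ∣ N * M
    rw [mul_comm M d]
    exact Nat.mul_dvd_mul_right hd M

/-- `σ_M f ∈ F_{N·M}` for `f ∈ F_N`. -/
theorem FA_S18_H1_qExpand_mem (M N N' : ℕ) [NeZero M] [NeZero N] (hN' : N' = N * M)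
    {f : LaurentSeries (AlgebraicClosure ℚ)} (hf : f ∈ modularFunctionFieldBar N) :
    qExpand (AlgebraicClosure ℚ) M f ∈ modularFunctionFieldBar N' := by
  subst hN'
  exact FA_S18_H1_map_le M N ((IntermediateField.mem_map _).mpr ⟨f, hf, rfl⟩)

/-- **(G0), divisor form**: if all orders of `f ∈ F_N` are divisible by `p ≠ 0`, then the
divisor of `σ f` at level `N·r²` is `p · D'`, with `deg D' = 0`. -/
theorem FA_S18_H1_transfer_divisor (r : ℕ) (hr : r.Prime) (M : ℕ) [NeZero M] (hM : M = r * r)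
    (N N' : ℕ) [NeZero N] [NeZero N'] (hN' : N' = N * M) (p : ℕ) (hp : p ≠ 0)
    (f₀ : LaurentSeries (AlgebraicClosure ℚ)) (hf₀ : f₀ ∈ modularFunctionFieldBar N)
    (hne : f₀ ≠ 0)
    (hdiv : ∀ w : Place (AlgebraicClosure ℚ) ↥(modularFunctionFieldBar N),
      (p : ℤ) ∣ w.ord ⟨f₀, hf₀⟩) :
    ∃ D' : Divisor (AlgebraicClosure ℚ) ↥(modularFunctionFieldBar N'),
      Divisor.degree D' = 0 ∧
      ∀ w' : Place (AlgebraicClosure ℚ) ↥(modularFunctionFieldBar N'),
        w'.ord ⟨qExpand (AlgebraicClosure ℚ) M f₀, FA_S18_H1_qExpand_mem M N N' hN' hf₀⟩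
          = (p : ℤ) * D' w' := by
  obtain ⟨hmem, hdiv'⟩ := FA_S18_G_transfer r hr M hM N N' hN' (p : ℤ) f₀ hf₀ hdiv
  have hne' : (⟨qExpand (AlgebraicClosure ℚ) M f₀, hmem⟩ : ↥(modularFunctionFieldBar N')) ≠ 0 := by
    intro h0
    apply hne
    apply qExpand_injective M
    rw [map_zero]
    exact congrArg Subtype.val h0
  obtain ⟨D, hD, hdeg⟩ := (FA_S18_A_hasPrincipalDivisors N').exists_divisor _ hne'
  have hp' : (p : ℤ) ≠ 0 := Int.natCast_ne_zero.mpr hp
  set D' : Divisor (AlgebraicClosure ℚ) ↥(modularFunctionFieldBar N') :=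
    Finsupp.mapRange (fun n : ℤ => n / (p : ℤ)) (by simp) D with hD'
  have hval : ∀ w', (p : ℤ) * D' w' = D w' := fun w' => by
    rw [hD', Finsupp.mapRange_apply, hD w']
    exact Int.mul_ediv_cancel' (hdiv' w')
  have hsmul : (p : ℤ) • D' = D := by
    refine Finsupp.ext fun w' => ?_
    rw [Finsupp.smul_apply, smul_eq_mul, hval]
  refine ⟨D', ?_, fun w' => ?_⟩
  · have h1 : (p : ℤ) • Divisor.degree D' = 0 := by
      rw [← map_zsmul, hsmul, hdeg]
    rw [smul_eq_mul] at h1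
    exact (mul_eq_zero.mp h1).resolve_left hp'
  · rw [hval, hD w']

/-- `Core` from its form inside `F_{N·M}` (the shape produced by the abstract core). -/
theorem FA_S18_H1_core_of_sub (A : ValuationSubring (AlgebraicClosure ℚ)) (M N N' : ℕ)
    [NeZero M] [NeZero N] (hN' : N' = N * M) (p : ℕ)
    (hsub : ∀ (y₁ y₂ : LaurentSeries A) (h₁ : FA_S18_A_Int A (IsLocalRing.residue A) N y₁)
      (h₂ : FA_S18_A_Int A (IsLocalRing.residue A) N y₂),
      coeffMap (IsLocalRing.residue A) y₁ = coeffMap (IsLocalRing.residue A) y₂ →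
      coeffMap (IsLocalRing.residue A) y₁ ≠ 0 →
      (∀ P : Place (AlgebraicClosure ℚ) (modularFunctionFieldBar N),
        (p : ℤ) ∣ P.ord (FA_S18_A_gen y₁ h₁) - P.ord (FA_S18_A_gen y₂ h₂)) →
      ∃ c : AlgebraicClosure ℚ, c ≠ 0 ∧ ∃ h : ↥(modularFunctionFieldBar N'),
        (⟨qExpand (AlgebraicClosure ℚ) M (coeffMap A.subtype y₁ / coeffMap A.subtype y₂),
          FA_S18_H1_qExpand_mem M N N' hN' (div_mem h₁.1 h₂.1)⟩ : ↥(modularFunctionFieldBar N'))
          = algebraMap (AlgebraicClosure ℚ) ↥(modularFunctionFieldBar N') c * h ^ p) :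
    FA_S18_Target_Core A M N p := by
  subst hN'
  intro y₁ y₂ h₁ h₂ heq hne hdiv
  obtain ⟨c, hc, h, hh⟩ := hsub y₁ y₂ h₁ h₂ heq hne hdiv
  exact ⟨c, hc, h.1, h.2, congrArg Subtype.val hh⟩

/-- **S18 from `Core`**: if `FA_S18_Target_Core` holds at the auxiliary level `N·r²` for all
primes `p ≠ ℓ`, the reduction map is injective on torsion prime to `ℓ`. -/
theorem FA_S18_H1_final (N : ℕ) [NeZero N] {ℓ : ℕ} (A : ValuationSubring (AlgebraicClosure ℚ))
    (r : ℕ) (hr : r.Prime) (M : ℕ) [NeZero M] (hM : M = r * r)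
    (hcore : ∀ p : ℕ, p.Prime → p ≠ ℓ → FA_S18_Target_Core A M N p)
    (h : ReductionInputsModL A N) (m : ℕ) (hm : ¬ ℓ ∣ m) (z : JZero N)
    (hmz : m • z = 0) (hz : reductionModL A N z = 0) : z = 0 :=
  FA_S18_A_final N A
    (fun p hp hpℓ => FA_S18_H1_root_of_core A r hr M hM N p hp.ne_zero (hcore p hp hpℓ))
    h m hm z hmz hz

end Fermat.Agent.S18
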