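import Fermat.Agent.S18.SepBar

/-!
# S18, leaf N / SEP (Kummer form): `F̄' = σ_w(F̄_n)(x̄)` is separable over `k(x̄)`

`σ = qExpand k w` (`q ↦ t^w`).  If `E₁ ⊂ k((t))` is an intermediate field containing `σ j̄`
(for instance `E₁ = k(x̄)` with `x̄^w = σ(1/j̄)`), then every `σ y`, `y ∈ F̄_n`, is separable over
`E₁`; hence `E₂ / E₁` is separable for every `E₁ ≤ E₂ ≤ k(σ F̄_n, E₁)`.

* `FA_S18_SEPK_push`  : push-forward of separability along an injective `k`-algebra map;
* `FA_S18_SEPK_sigma` : `σ y` is separable over `E₁ ∋ σ j̄`, for `y ∈ F̄_n`;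
* `FA_S18_SEPK_mem`, `FA_S18_SEPK_tower` : the field generated by `σ F̄_n` over `E₁`.
-/

set_option autoImplicit false
set_option linter.unusedSectionVars false
set_option linter.style.haveILetI false

noncomputable section

namespace Fermat.Agent.S18

open ModularCurve Polynomial Fermat.Agent.S28 IntermediateField

variable {k : Type} [Field k]

/-- Push-forward of separability along a `k`-algebra endomorphism of `k((q))`. -/
theorem FA_S18_SEPK_push (σ : LaurentSeries k →ₐ[k] LaurentSeries k)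
    (κ E : IntermediateField k (LaurentSeries k)) (hκE : ∀ c ∈ κ, σ c ∈ E)
    (y : LaurentSeries k) (hy : IsSeparable ↥κ y) : IsSeparable ↥E (σ y) := by
  let g : ↥κ →+* ↥E :=
    { toFun := fun c => ⟨σ c, hκE c c.2⟩
      map_one' := Subtype.ext (map_one σ)
      map_mul' := fun a b => Subtype.ext (map_mul σ _ _)
      map_zero' := Subtype.ext (map_zero σ)
      map_add' := fun a b => Subtype.ext (map_add σ _ _) }
  have hcomp : (algebraMap ↥E (LaurentSeries k)).comp g
      = (σ : LaurentSeries k →+* LaurentSeries k).comp (algebraMap ↥κ (LaurentSeries k)) := by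
    apply RingHom.ext
    intro c
    rfl
  have hsep : ((minpoly ↥κ y).map g).Separable := Polynomial.Separable.map hy
  have hint : IsIntegral ↥κ y := hy.isIntegral
  have hroot : Polynomial.aeval (σ y) ((minpoly ↥κ y).map g) = 0 := by
    rw [Polynomial.aeval_def, Polynomial.eval₂_map, hcomp]
    have h1 : Polynomial.eval₂ ((σ : LaurentSeries k →+* LaurentSeries k).comp
        (algebraMap ↥κ (LaurentSeries k))) (σ y) (minpoly ↥κ y)
        = σ (Polynomial.eval₂ (algebraMap ↥κ (LaurentSeries k)) y (minpoly ↥κ y)) :=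
      (Polynomial.hom_eval₂ (minpoly ↥κ y) (algebraMap ↥κ (LaurentSeries k))
        (σ : LaurentSeries k →+* LaurentSeries k) y).symm
    rw [h1]
    have h2 : Polynomial.eval₂ (algebraMap ↥κ (LaurentSeries k)) y (minpoly ↥κ y) = 0 :=
      minpoly.aeval ↥κ y
    rw [h2, map_zero]
  exact hsep.of_dvd (minpoly.dvd ↥E _ hroot)

/-- `σ y` is separable over every intermediate field containing `σ j̄`, for `y ∈ F̄_n`. -/
theorem FA_S18_SEPK_sigma (ℓ : ℕ) (hℓ : ℓ.Prime) [IsAlgClosed k] [CharP k ℓ] (n : ℕ) [NeZero n]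
    (hℓn : ¬ ℓ ∣ n) (w : ℕ) [NeZero w] (E₁ : IntermediateField k (LaurentSeries k))
    (hj : qExpand k w (jqModC k) ∈ E₁) (y : LaurentSeries k)
    (hy : y ∈ modularFunctionFieldFullC k n) : IsSeparable ↥E₁ (qExpand k w y) := by
  have hκ : FA_S28_kappa k ≤ E₁.comap (qExpandAlgHomC k w) := by
    rw [FA_S28_kappa, IntermediateField.adjoin_le_iff]
    rintro _ rfl
    exact hj
  exact FA_S18_SEPK_push (qExpandAlgHomC k w) (FA_S28_kappa k) E₁ (fun c hc => hκ hc) y
    (FA_S18_SEP_mem ℓ hℓ n hℓn y hy)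

/-- Every element of the field generated by `σ F̄_n` over `E₁ ∋ σ j̄` is separable over `E₁`. -/
theorem FA_S18_SEPK_mem (ℓ : ℕ) (hℓ : ℓ.Prime) [IsAlgClosed k] [CharP k ℓ] (n : ℕ) [NeZero n]
    (hℓn : ¬ ℓ ∣ n) (w : ℕ) [NeZero w] (E₁ : IntermediateField k (LaurentSeries k))
    (hj : qExpand k w (jqModC k) ∈ E₁) (x : LaurentSeries k)
    (hx : x ∈ IntermediateField.adjoin k
      ((qExpand k w '' (modularFunctionFieldFullC k n : Set (LaurentSeries k)))
        ∪ (E₁ : Set (LaurentSeries k)))) :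
    IsSeparable ↥E₁ x := by
  let SC := (separableClosure ↥E₁ (LaurentSeries k)).restrictScalars k
  have hle : IntermediateField.adjoin k
      ((qExpand k w '' (modularFunctionFieldFullC k n : Set (LaurentSeries k)))
        ∪ (E₁ : Set (LaurentSeries k))) ≤ SC := by
    rw [IntermediateField.adjoin_le_iff]
    rintro z (⟨y, hy, rfl⟩ | hz)
    · exact mem_separableClosure_iff.mpr (FA_S18_SEPK_sigma ℓ hℓ n hℓn w E₁ hj y hy)
    · exact mem_separableClosure_iff.mpr
        (isSeparable_algebraMap (F := ↥E₁) (K := LaurentSeries k) (⟨z, hz⟩ : ↥E₁))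
  exact mem_separableClosure_iff.mp (hle hx)

/-- **Separability of `E₂ / E₁`** for `σ j̄ ∈ E₁ ≤ E₂ ≤ k(σ F̄_n, E₁)`, inclusion algebra. -/
theorem FA_S18_SEPK_tower (ℓ : ℕ) (hℓ : ℓ.Prime) [IsAlgClosed k] [CharP k ℓ] (n : ℕ) [NeZero n]
    (hℓn : ¬ ℓ ∣ n) (w : ℕ) [NeZero w] (E₁ E₂ : IntermediateField k (LaurentSeries k))
    (hj : qExpand k w (jqModC k) ∈ E₁) (h12 : E₁ ≤ E₂)
    (h2 : E₂ ≤ IntermediateField.adjoin k
      ((qExpand k w '' (modularFunctionFieldFullC k n : Set (LaurentSeries k)))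
        ∪ (E₁ : Set (LaurentSeries k)))) :
    letI : Algebra ↥E₁ ↥E₂ := (IntermediateField.inclusion h12).toRingHom.toAlgebra
    Algebra.IsSeparable ↥E₁ ↥E₂ := by
  letI : Algebra ↥E₁ ↥E₂ := (IntermediateField.inclusion h12).toRingHom.toAlgebra
  haveI : IsScalarTower ↥E₁ ↥E₂ (LaurentSeries k) :=
    IsScalarTower.of_algebraMap_eq fun _ => rfl
  refine ⟨fun x => ?_⟩
  have hx1 := FA_S18_SEPK_mem ℓ hℓ n hℓn w E₁ hj (x : LaurentSeries k) (h2 x.2)
  have hmin : minpoly ↥E₁ (algebraMap ↥E₂ (LaurentSeries k) x) = minpoly ↥E₁ x :=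
    minpoly.algebraMap_eq (algebraMap ↥E₂ (LaurentSeries k)).injective x
  unfold IsSeparable
  rw [← hmin]
  exact hx1

/-- The Kummer case: `x̄ ^ w · σ j̄ = 1` puts `σ j̄` into every field containing `x̄`. -/
theorem FA_S18_SEPK_sigma_j_mem (w : ℕ) [NeZero w] (xb : LaurentSeries k)
    (hx : qExpand k w (jqModC k) * xb ^ w = 1)
    (E₁ : IntermediateField k (LaurentSeries k)) (hxE : xb ∈ E₁) :
    qExpand k w (jqModC k) ∈ E₁ := by
  have h1 : qExpand k w (jqModC k) = (xb ^ w)⁻¹ := eq_inv_of_mul_eq_one_left hx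
  rw [h1]
  exact E₁.inv_mem (E₁.pow_mem hxE w)

end Fermat.Agent.S18
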