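import Fermat.Agent.S18.SepKummer
import Fermat.Agent.S18.CuspKum

/-!
# S18, leaf N / SEP: the Kummer field `F̄' = σ(F̄_n)(x̄)` is separable over `k(x̄)`

Instance of `FA_S18_SEPK_tower` for `FA_S18_CUF_Kum w (modularFunctionFieldFullC k n) x̄`
(`S18/CuspField.lean`), `x̄ ^ w = σ(1/j̄)`.
-/

set_option autoImplicit false
set_option linter.unusedSectionVars false
set_option linter.style.haveILetI false

noncomputable section

namespace Fermat.Agent.S18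

open ModularCurve Polynomial Fermat.Agent.S28 IntermediateField

variable {k : Type} [Field k]

/-- `σ j̄ ∈ E₁` as soon as `x̄ ∈ E₁`, `x̄ ^ w = σ(1/j̄)`. -/
theorem FA_S18_SEPK_sigma_j_mem' (w : ℕ) [NeZero w] (xb : LaurentSeries k)
    (hx : xb ^ w = qExpand k w (FA_S18_CU_u k))
    (E₁ : IntermediateField k (LaurentSeries k)) (hxE : xb ∈ E₁) :
    qExpand k w (jqModC k) ∈ E₁ := by
  apply FA_S18_SEPK_sigma_j_mem w xb _ E₁ hxE
  rw [hx, ← map_mul, FA_S18_CU_j_mul_u, map_one]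

theorem FA_S18_SEPK_Kum_le (w : ℕ) [NeZero w] (F : IntermediateField k (LaurentSeries k))
    (xb : LaurentSeries k) (E₁ : IntermediateField k (LaurentSeries k)) (hxE : xb ∈ E₁) :
    FA_S18_CUF_Kum w F xb ≤ IntermediateField.adjoin k
      ((qExpand k w '' (F : Set (LaurentSeries k))) ∪ (E₁ : Set (LaurentSeries k))) := by
  rw [FA_S18_CUF_Kum, IntermediateField.adjoin_le_iff]
  rintro z (⟨y, hy, rfl⟩ | hz)
  · exact IntermediateField.subset_adjoin k _ (Or.inl ⟨y, hy, rfl⟩)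
  · rw [Set.mem_singleton_iff] at hz
    rw [hz]
    exact IntermediateField.subset_adjoin k _ (Or.inr hxE)

/-- Every element of the Kummer field `σ(F̄_n)(x̄)` is separable over every intermediate field
`E₁ ∋ x̄`. -/
theorem FA_S18_SEPK_Kum_mem (ℓ : ℕ) (hℓ : ℓ.Prime) [IsAlgClosed k] [CharP k ℓ] (n : ℕ) [NeZero n]
    (hℓn : ¬ ℓ ∣ n) (w : ℕ) [NeZero w] (xb : LaurentSeries k)
    (hx : xb ^ w = qExpand k w (FA_S18_CU_u k))
    (E₁ : IntermediateField k (LaurentSeries k)) (hxE : xb ∈ E₁) (y : LaurentSeries k)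
    (hy : y ∈ FA_S18_CUF_Kum w (modularFunctionFieldFullC k n) xb) : IsSeparable ↥E₁ y :=
  FA_S18_SEPK_mem ℓ hℓ n hℓn w E₁ (FA_S18_SEPK_sigma_j_mem' w xb hx E₁ hxE) y
    (FA_S18_SEPK_Kum_le w _ xb E₁ hxE hy)

/-- **`F̄' / E₁` is separable** for `x̄ ∈ E₁ ≤ F̄' = σ(F̄_n)(x̄)` (inclusion algebra); e.g.
`E₁ = k(x̄) = IntermediateField.adjoin k {x̄}`. -/
theorem FA_S18_SEPK_Kum (ℓ : ℕ) (hℓ : ℓ.Prime) [IsAlgClosed k] [CharP k ℓ] (n : ℕ) [NeZero n]
    (hℓn : ¬ ℓ ∣ n) (w : ℕ) [NeZero w] (xb : LaurentSeries k)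
    (hx : xb ^ w = qExpand k w (FA_S18_CU_u k))
    (E₁ : IntermediateField k (LaurentSeries k)) (hxE : xb ∈ E₁)
    (h12 : E₁ ≤ FA_S18_CUF_Kum w (modularFunctionFieldFullC k n) xb) :
    letI : Algebra ↥E₁ ↥(FA_S18_CUF_Kum w (modularFunctionFieldFullC k n) xb) :=
      (IntermediateField.inclusion h12).toRingHom.toAlgebra
    Algebra.IsSeparable ↥E₁ ↥(FA_S18_CUF_Kum w (modularFunctionFieldFullC k n) xb) :=
  FA_S18_SEPK_tower ℓ hℓ n hℓn w E₁ _ (FA_S18_SEPK_sigma_j_mem' w xb hx E₁ hxE) h12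
    (FA_S18_SEPK_Kum_le w _ xb E₁ hxE)

end Fermat.Agent.S18
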