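import Fermat.Agent.S18.StageA0

/-!
# S18, leaf A (Stage 1), part 1: integral elements and the lifting lemma

`FA_S18_A_Int A π N y` : `y ∈ A((q))` has generic image in `F_N` and special image in `F̄_N`.
Every element of `F̄_N` is a quotient of reductions of such `y`.
-/

set_option autoImplicit false
set_option linter.unusedSectionVars false
set_option linter.style.haveILetI false

noncomputable section

namespace Fermat.Agent.S18

open ModularCurve AlgebraicCurve IntermediateField

variable (A : ValuationSubring (AlgebraicClosure ℚ)) {k : Type*} [Field k] (π : A →+* k)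
  (N : ℕ) [NeZero N]

/-- `A`-integral `q`-expansions lying in `F_N` whose reductions lie in `F̄_N`. -/
def FA_S18_A_Int (y : LaurentSeries A) : Prop :=
  coeffMap A.subtype y ∈ modularFunctionFieldBar N ∧
    coeffMap π y ∈ modularFunctionFieldFullC k N

variable {A π N}

theorem FA_S18_A_Int_zero : FA_S18_A_Int A π N 0 := by
  refine ⟨?_, ?_⟩ <;> rw [map_zero] <;> exact zero_mem _

theorem FA_S18_A_Int_one : FA_S18_A_Int A π N 1 := by
  refine ⟨?_, ?_⟩ <;> rw [map_one] <;> exact one_mem _

theorem FA_S18_A_Int_add {x y : LaurentSeries A} (hx : FA_S18_A_Int A π N x)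
    (hy : FA_S18_A_Int A π N y) : FA_S18_A_Int A π N (x + y) := by
  refine ⟨?_, ?_⟩ <;> rw [map_add]
  · exact add_mem hx.1 hy.1
  · exact add_mem hx.2 hy.2

theorem FA_S18_A_Int_mul {x y : LaurentSeries A} (hx : FA_S18_A_Int A π N x)
    (hy : FA_S18_A_Int A π N y) : FA_S18_A_Int A π N (x * y) := by
  refine ⟨?_, ?_⟩ <;> rw [map_mul]
  · exact mul_mem hx.1 hy.1
  · exact mul_mem hx.2 hy.2

theorem FA_S18_A_Int_neg {x : LaurentSeries A} (hx : FA_S18_A_Int A π N x) :
    FA_S18_A_Int A π N (-x) := by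
  refine ⟨?_, ?_⟩ <;> rw [map_neg]
  · exact neg_mem hx.1
  · exact neg_mem hx.2

theorem FA_S18_A_Int_sub {x y : LaurentSeries A} (hx : FA_S18_A_Int A π N x)
    (hy : FA_S18_A_Int A π N y) : FA_S18_A_Int A π N (x - y) := by
  rw [sub_eq_add_neg]
  exact FA_S18_A_Int_add hx (FA_S18_A_Int_neg hy)

/-- constants -/
theorem FA_S18_A_Int_const (a : A) : FA_S18_A_Int A π N (HahnSeries.single 0 a) := by
  refine ⟨?_, ?_⟩
  · rw [coeffMap_single, ← algebraMap_laurentSeries_eq_single]
    exact (modularFunctionFieldBar N).algebraMap_mem _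
  · rw [coeffMap_single, ← algebraMap_laurentSeries_eq_single]
    exact (modularFunctionFieldFullC k N).algebraMap_mem _

theorem FA_S18_A_coeffMap_const (a : A) :
    coeffMap π (HahnSeries.single 0 a) = algebraMap k (LaurentSeries k) (π a) := by
  rw [coeffMap_single, ← algebraMap_laurentSeries_eq_single]

theorem FA_S18_A_coeffMap_const' (a : A) :
    coeffMap A.subtype (HahnSeries.single 0 a) =
      algebraMap (AlgebraicClosure ℚ) (LaurentSeries (AlgebraicClosure ℚ)) (a : AlgebraicClosure ℚ) := by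
  rw [coeffMap_single, ← algebraMap_laurentSeries_eq_single]
  rfl

/-- the generators `j(q^d)`, `d ∣ N` -/
theorem FA_S18_A_Int_gen {d : ℕ} [NeZero d] (hd : d ∣ N) :
    FA_S18_A_Int A π N (qExpand A d (jqModC A)) := by
  refine ⟨?_, ?_⟩
  · rw [coeffMap_qExpand, coeffMap_jqModC]
    have h := coeffEmb_mem_laurentBaseChange (AlgebraicClosure ℚ) (jqd_mem_full N hd)
    have h2 : coeffEmb (AlgebraicClosure ℚ) (qExpand ℚ d jq) =
        qExpand (AlgebraicClosure ℚ) d (jqModC (AlgebraicClosure ℚ)) := by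
      rw [coeffEmb, coeffMap_qExpand, ← jqModC_rat, coeffMap_jqModC]
    rw [← h2]
    exact h
  · rw [coeffMap_qExpand, coeffMap_jqModC]
    exact jqModCd_mem_full k N hd

/-- Every element of `k[j̄(q^d) : d ∣ N]` is the reduction of an integral element. -/
theorem FA_S18_A_lift_adjoin (hπ : Function.Surjective π) (x : LaurentSeries k)
    (hx : x ∈ Algebra.adjoin k (divisorExpansionsC k N)) :
    ∃ y : LaurentSeries A, FA_S18_A_Int A π N y ∧ coeffMap π y = x := by
  induction hx using Algebra.adjoin_induction with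
  | mem x hx =>
    obtain ⟨d, hne, hd, rfl⟩ := hx
    haveI := hne
    exact ⟨qExpand A d (jqModC A), FA_S18_A_Int_gen hd, by rw [coeffMap_qExpand, coeffMap_jqModC]⟩
  | algebraMap c =>
    obtain ⟨a, rfl⟩ := hπ c
    exact ⟨HahnSeries.single 0 a, FA_S18_A_Int_const a, FA_S18_A_coeffMap_const a⟩
  | add x y _ _ hx hy =>
    obtain ⟨x', hx', rfl⟩ := hx
    obtain ⟨y', hy', rfl⟩ := hy
    exact ⟨x' + y', FA_S18_A_Int_add hx' hy', map_add _ _ _⟩
  | mul x y _ _ hx hy =>
    obtain ⟨x', hx', rfl⟩ := hx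
    obtain ⟨y', hy', rfl⟩ := hy
    exact ⟨x' * y', FA_S18_A_Int_mul hx' hy', map_mul _ _ _⟩

/-- **Lifting lemma**: every element of `F̄_N` is a quotient of reductions of integral
elements. -/
theorem FA_S18_A_lift (hπ : Function.Surjective π) (x : LaurentSeries k)
    (hx : x ∈ modularFunctionFieldFullC k N) :
    ∃ ya yb : LaurentSeries A, FA_S18_A_Int A π N ya ∧ FA_S18_A_Int A π N yb ∧
      coeffMap π yb ≠ 0 ∧ coeffMap π ya = x * coeffMap π yb := by
  rw [modularFunctionFieldFullC, mem_adjoin_iff_div] at hx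
  obtain ⟨r, hr, s, hs, rfl⟩ := hx
  by_cases hs0 : s = 0
  · refine ⟨0, 1, FA_S18_A_Int_zero, FA_S18_A_Int_one, ?_, ?_⟩
    · rw [map_one]; exact one_ne_zero
    · rw [hs0, div_zero, zero_mul, map_zero]
  · obtain ⟨ya, hya, rfl⟩ := FA_S18_A_lift_adjoin hπ r hr
    obtain ⟨yb, hyb, rfl⟩ := FA_S18_A_lift_adjoin hπ s hs
    exact ⟨ya, yb, hya, hyb, hs0, by rw [div_mul_cancel₀ _ hs0]⟩

/-- `coeffMap A.subtype` is injective. -/
theorem FA_S18_A_coeffMap_subtype_injective :
    Function.Injective (coeffMap (A.subtype : A →+* AlgebraicClosure ℚ)) := by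
  intro x y h
  ext k
  have := congrArg (fun z => z.coeff k) h
  simp only [coeffMap_coeff] at this
  exact this

theorem FA_S18_A_coeffMap_subtype_ne_zero {y : LaurentSeries A}
    (hy : coeffMap π y ≠ 0) :
    coeffMap (A.subtype : A →+* AlgebraicClosure ℚ) y ≠ 0 := by
  intro h
  apply hy
  have : y = 0 := FA_S18_A_coeffMap_subtype_injective (by rw [h, map_zero])
  rw [this, map_zero]

end Fermat.Agent.S18
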