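import Fermat.Agent.S18.StageA1

/-!
# S18, leaf A (Stage 1), part 2: divisors of integral elements and the constants lemma

With a place reduction `r` (hypothesis `h` of S18): for integral `y₁, y₂` with nonzero
reductions, `div(y₁/y₂)` exists, has degree `0`, and `r_* div(y₁/y₂) = div(ȳ₁/ȳ₂)`.
A quotient `ȳ₁/ȳ₂` without zeros and poles is constant.
-/

set_option autoImplicit false
set_option linter.unusedSectionVars false
set_option linter.style.haveILetI false

noncomputable section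

namespace Fermat.Agent.S18

open ModularCurve AlgebraicCurve IntermediateField

variable {A : ValuationSubring (AlgebraicClosure ℚ)} {k : Type*} [Field k] {π : A →+* k}
  {N : ℕ} [NeZero N]

/-- generic image of an integral element -/
def FA_S18_A_gen (y : LaurentSeries A) (hy : FA_S18_A_Int A π N y) :
    ↥(modularFunctionFieldBar N) :=
  ⟨coeffMap A.subtype y, hy.1⟩

/-- special image (reduction) of an integral element -/
def FA_S18_A_red (y : LaurentSeries A) (hy : FA_S18_A_Int A π N y) :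
    ↥(modularFunctionFieldFullC k N) :=
  ⟨coeffMap π y, hy.2⟩

theorem FA_S18_A_gen_ne_zero {y : LaurentSeries A} (hy : FA_S18_A_Int A π N y)
    (hn : coeffMap π y ≠ 0) : FA_S18_A_gen y hy ≠ 0 := by
  intro h
  exact FA_S18_A_coeffMap_subtype_ne_zero hn (congrArg Subtype.val h)

theorem FA_S18_A_red_ne_zero {y : LaurentSeries A} (hy : FA_S18_A_Int A π N y)
    (hn : coeffMap π y ≠ 0) : FA_S18_A_red y hy ≠ 0 := by
  intro h
  exact hn (congrArg Subtype.val h)

theorem FA_S18_A_gen_mul {x y : LaurentSeries A} (hx : FA_S18_A_Int A π N x)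
    (hy : FA_S18_A_Int A π N y) :
    FA_S18_A_gen (x * y) (FA_S18_A_Int_mul hx hy) = FA_S18_A_gen x hx * FA_S18_A_gen y hy :=
  Subtype.ext (map_mul _ _ _)

theorem FA_S18_A_red_mul {x y : LaurentSeries A} (hx : FA_S18_A_Int A π N x)
    (hy : FA_S18_A_Int A π N y) :
    FA_S18_A_red (x * y) (FA_S18_A_Int_mul hx hy) = FA_S18_A_red x hx * FA_S18_A_red y hy :=
  Subtype.ext (map_mul _ _ _)

theorem FA_S18_A_gen_one :
    FA_S18_A_gen (1 : LaurentSeries A) (FA_S18_A_Int_one (π := π) (N := N)) = 1 :=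
  Subtype.ext (map_one _)

theorem FA_S18_A_red_one :
    FA_S18_A_red (1 : LaurentSeries A) (FA_S18_A_Int_one (π := π) (N := N)) = 1 :=
  Subtype.ext (map_one _)

theorem FA_S18_A_red_sub {x y : LaurentSeries A} (hx : FA_S18_A_Int A π N x)
    (hy : FA_S18_A_Int A π N y) :
    FA_S18_A_red (x - y) (FA_S18_A_Int_sub hx hy) = FA_S18_A_red x hx - FA_S18_A_red y hy :=
  Subtype.ext (map_sub _ _ _)

theorem FA_S18_A_red_const (a : A) :
    FA_S18_A_red (HahnSeries.single 0 a) (FA_S18_A_Int_const (π := π) (N := N) a) =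
      algebraMap k _ (π a) :=
  Subtype.ext (FA_S18_A_coeffMap_const a)

theorem FA_S18_A_gen_const (a : A) :
    FA_S18_A_gen (HahnSeries.single 0 a) (FA_S18_A_Int_const (π := π) (N := N) a) =
      algebraMap (AlgebraicClosure ℚ) _ (a : AlgebraicClosure ℚ) :=
  Subtype.ext (FA_S18_A_coeffMap_const' a)

variable {r : Place (AlgebraicClosure ℚ) (modularFunctionFieldBar N) →
  Place k (modularFunctionFieldFullC k N)}

/-- **Pair lemma**: `div(y₁/y₂)` exists, has degree zero and is compatible with `r`. -/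
theorem FA_S18_A_pair (hr : IsPlaceReductionAlong A π N r)
    {y₁ y₂ : LaurentSeries A} (h₁ : FA_S18_A_Int A π N y₁) (h₂ : FA_S18_A_Int A π N y₂)
    (hn₁ : coeffMap π y₁ ≠ 0)
    (hn₂ : coeffMap π y₂ ≠ 0) :
    ∃ E : Divisor (AlgebraicClosure ℚ) (modularFunctionFieldBar N),
      Divisor.degree E = 0 ∧
      (∀ P, E P = P.ord (FA_S18_A_gen y₁ h₁) - P.ord (FA_S18_A_gen y₂ h₂)) ∧
      (∀ Q, Finsupp.mapDomain r E Q =
        Q.ord (FA_S18_A_red y₁ h₁) - Q.ord (FA_S18_A_red y₂ h₂)) := by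
  obtain ⟨E₁, hE₁, hd₁⟩ := (FA_S18_A_hasPrincipalDivisors N).exists_divisor
    (FA_S18_A_gen y₁ h₁) (FA_S18_A_gen_ne_zero h₁ hn₁)
  obtain ⟨E₂, hE₂, hd₂⟩ := (FA_S18_A_hasPrincipalDivisors N).exists_divisor
    (FA_S18_A_gen y₂ h₂) (FA_S18_A_gen_ne_zero h₂ hn₂)
  refine ⟨E₁ - E₂, by rw [map_sub, hd₁, hd₂, sub_self], fun P => ?_, fun Q => ?_⟩
  · rw [Finsupp.sub_apply, hE₁, hE₂]
  · rw [Finsupp.mapDomain_sub, Finsupp.sub_apply,
      hr.2 y₁ h₁.1 h₁.2 hn₁ E₁ hE₁ Q, hr.2 y₂ h₂.1 h₂.2 hn₂ E₂ hE₂ Q]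
    rfl

/-- The degree of a divisor as a sum over its support. -/
theorem FA_S18_A_degree_eq_sum {K F : Type*} [Field K] [Field F] [Algebra K F]
    (D : Divisor K F) : Divisor.degree D = ∑ v ∈ D.support, D v * (v.deg : ℤ) := by
  simp [Divisor.degree, Finsupp.liftAddHom_apply, Finsupp.sum]

/-- An everywhere nonnegative divisor of degree `0` vanishes at all places of positive
degree. -/
theorem FA_S18_A_eq_zero_of_nonneg {K F : Type*} [Field K] [Field F] [Algebra K F]
    (D : Divisor K F) (hdeg : Divisor.degree D = 0) (hnn : ∀ v, 0 ≤ D v)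
    (v₀ : Place K F) (hv₀ : 0 < v₀.deg) : D v₀ = 0 := by
  by_contra hne
  have hpos : 0 < D v₀ := lt_of_le_of_ne (hnn v₀) (Ne.symm hne)
  have hmem : v₀ ∈ D.support := Finsupp.mem_support_iff.mpr hne
  have : 0 < ∑ v ∈ D.support, D v * (v.deg : ℤ) := by
    apply Finset.sum_pos'
    · intro v _
      exact mul_nonneg (hnn v) (Int.natCast_nonneg _)
    · exact ⟨v₀, hmem, mul_pos hpos (by exact_mod_cast hv₀)⟩
  rw [← FA_S18_A_degree_eq_sum, hdeg] at this
  exact lt_irrefl _ this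

/-- At a place of degree one every element of the valuation ring has a value in `K`. -/
theorem FA_S18_A_exists_value {K F : Type*} [Field K] [Field F] [Algebra K F]
    (v : Place K F) (hv : v.deg = 1) (u : F) (hu : u ∈ v.toValuationSubring) :
    ∃ c : K, u - algebraMap K F c = 0 ∨ 0 < v.ord (u - algebraMap K F c) := by
  have h1 : ∀ w : v.ResidueField, ∃ c : K, c • (1 : v.ResidueField) = w :=
    (finrank_eq_one_iff_of_nonzero' (1 : v.ResidueField) one_ne_zero).mp hv
  obtain ⟨c, hc⟩ := h1 (IsLocalRing.residue v.toValuationSubring ⟨u, hu⟩)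
  refine ⟨c, ?_⟩
  rw [← FA_RR.adicValuation_lt_one_iff]
  have h2 : u - algebraMap K F c =
      (((⟨u, hu⟩ : v.toValuationSubring) - algebraMap K v.toValuationSubring c :
        v.toValuationSubring) : F) := rfl
  rw [h2, v.adicValuation_coe]
  apply (v.heightOneSpectrum.intValuation_lt_one_iff_mem _).mpr
  show _ ∈ IsLocalRing.maximalIdeal v.toValuationSubring
  rw [← IsLocalRing.residue_eq_zero_iff, map_sub, sub_eq_zero, ← hc, Algebra.smul_def, mul_one]
  rfl

/-- **Constants lemma** (uses the place reduction `r`): if `ȳ₁/ȳ₂` has neither zeros nor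
poles, then `ȳ₁ = c̄ · ȳ₂` for a constant. -/
theorem FA_S18_A_const (hπ : Function.Surjective π) (hr : IsPlaceReductionAlong A π N r)
    {y₁ y₂ : LaurentSeries A} (h₁ : FA_S18_A_Int A π N y₁) (h₂ : FA_S18_A_Int A π N y₂)
    (hn₁ : coeffMap π y₁ ≠ 0)
    (hn₂ : coeffMap π y₂ ≠ 0)
    (hord : ∀ Q : Place k
        (modularFunctionFieldFullC k N),
      Q.ord (FA_S18_A_red y₁ h₁) - Q.ord (FA_S18_A_red y₂ h₂) = 0) :
    ∃ c : A, coeffMap π y₁ =
      coeffMap π (HahnSeries.single 0 c * y₂) := by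
  classical
  obtain ⟨P₀⟩ := FA_S18_A_exists_place N
  set Q₀ := r P₀ with hQ₀
  have hdegQ₀ : Q₀.deg = 1 := by rw [hQ₀, hr.1 P₀, FA_S18_A_deg_eq_one]
  have hr1 := FA_S18_A_red_ne_zero h₁ hn₁
  have hr2 := FA_S18_A_red_ne_zero h₂ hn₂
  set u := FA_S18_A_red y₁ h₁ / FA_S18_A_red y₂ h₂ with hu
  have hu0 : u ≠ 0 := div_ne_zero hr1 hr2
  have hordu : ∀ Q : Place k
      (modularFunctionFieldFullC k N), Q.ord u = 0 := by
    intro Q
    rw [hu, div_eq_mul_inv, Q.ord_mul hr1 (inv_ne_zero hr2), Q.ord_inv, ← sub_eq_add_neg]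
    exact hord Q
  have humem : ∀ Q : Place k
      (modularFunctionFieldFullC k N), u ∈ Q.toValuationSubring :=
    fun Q => (FA_RR.mem_iff_ord Q).mpr (Or.inr (hordu Q).ge)
  obtain ⟨cb, hcb⟩ := FA_S18_A_exists_value Q₀ hdegQ₀ u (humem Q₀)
  obtain ⟨c, rfl⟩ := hπ cb
  refine ⟨c, ?_⟩
  have hy3 : FA_S18_A_Int A π N (y₁ - HahnSeries.single 0 c * y₂) :=
    FA_S18_A_Int_sub h₁ (FA_S18_A_Int_mul (FA_S18_A_Int_const c) h₂)
  have hred3 : FA_S18_A_red _ hy3 =
      (u - algebraMap k _ (π c)) *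
        FA_S18_A_red y₂ h₂ := by
    rw [FA_S18_A_red_sub h₁ (FA_S18_A_Int_mul (FA_S18_A_Int_const c) h₂),
      FA_S18_A_red_mul (FA_S18_A_Int_const c) h₂, FA_S18_A_red_const, hu, sub_mul,
      div_mul_cancel₀ _ hr2]
  by_cases hz : u - algebraMap k _ (π c) = 0
  · have h3 : FA_S18_A_red _ hy3 = 0 := by rw [hred3, hz, zero_mul]
    have h4 := congrArg Subtype.val h3
    simp only [FA_S18_A_red, ZeroMemClass.coe_zero, map_sub] at h4
    exact sub_eq_zero.mp h4
  · exfalso
    have hpos : 0 < Q₀.ord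
        (u - algebraMap k _ (π c)) := by
      rcases hcb with h | h
      · exact absurd h hz
      · exact h
    have hn3 : coeffMap π (y₁ - HahnSeries.single 0 c * y₂) ≠ 0 := by
      intro h
      have : FA_S18_A_red _ hy3 = 0 := Subtype.ext h
      rw [hred3] at this
      rcases mul_eq_zero.mp this with h' | h'
      · exact hz h'
      · exact hr2 h'
    obtain ⟨E, hdegE, -, hE⟩ := FA_S18_A_pair hr hy3 h₂ hn3 hn₂
    have hval : ∀ Q, Finsupp.mapDomain r E Q =
        Q.ord (u - algebraMap k _ (π c)) := by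
      intro Q
      rw [hE Q, hred3, Q.ord_mul hz hr2]
      ring
    have hnn : ∀ Q, 0 ≤ Finsupp.mapDomain r E Q := by
      intro Q
      rw [hval Q]
      have hmem : u - algebraMap k _ (π c) ∈
          Q.toValuationSubring := sub_mem (humem Q) (Q.algebraMap_mem' _)
      rcases (FA_RR.mem_iff_ord Q).mp hmem with h | h
      · exact absurd h hz
      · exact h
    have hdeg' : Divisor.degree (Finsupp.mapDomain r E) = 0 := by
      rw [degree_mapDomain_of_deg_eq hr.1, hdegE]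
    have h0 := FA_S18_A_eq_zero_of_nonneg _ hdeg' hnn Q₀ (by rw [hdegQ₀]; exact Nat.one_pos)
    rw [hval Q₀] at h0
    omega

end Fermat.Agent.S18
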