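import Fermat.Agent.S18.StageA2

/-!
# S18, leaf A (Stage 1), part 3: the reduction of S18 to `FA_S18_Target_Root`

`FA_S18_Target_Root A π N p` (what stages 2 + 3 prove): integral `y₁, y₂ ∈ F_N` with equal
nonzero reductions and `div(y₁/y₂) ∈ p·Div(F_N)` have `div(y₁/y₂) = p·div(h₀)`, `h₀ ∈ F_N`.

`FA_S18_A_main` : `Root p` ⟹ (`p • z = 0`, `red z = 0` ⟹ `z = 0`).
`FA_S18_A_final` : `Root p` for all primes `p ≠ ℓ` ⟹ the statement of S18.
-/

set_option autoImplicit false
set_option linter.unusedSectionVars false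
set_option linter.style.haveILetI false

noncomputable section

namespace Fermat.Agent.S18

open ModularCurve AlgebraicCurve IntermediateField

variable {A : ValuationSubring (AlgebraicClosure ℚ)} {k : Type*} [Field k] {π : A →+* k}
  {N : ℕ} [NeZero N]

variable {r : Place (AlgebraicClosure ℚ) (modularFunctionFieldBar N) →
  Place k (modularFunctionFieldFullC k N)}

/-- Every divisor in the closure of the integral principal divisors is `div(y₁/y₂)` with
`y₁, y₂` integral with nonzero reductions, compatibly with `r`. -/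
theorem FA_S18_A_closure (hr : IsPlaceReductionAlong A π N r)
    {E : Divisor (AlgebraicClosure ℚ) (modularFunctionFieldBar N)}
    (hE : E ∈ AddSubgroup.closure (integralPrincipalDivisors A π N)) :
    ∃ (y₁ y₂ : LaurentSeries A) (h₁ : FA_S18_A_Int A π N y₁) (h₂ : FA_S18_A_Int A π N y₂),
      coeffMap π y₁ ≠ 0 ∧ coeffMap π y₂ ≠ 0 ∧
      (∀ P, E P = P.ord (FA_S18_A_gen y₁ h₁) - P.ord (FA_S18_A_gen y₂ h₂)) ∧
      (∀ Q, Finsupp.mapDomain r E Q =
        Q.ord (FA_S18_A_red y₁ h₁) - Q.ord (FA_S18_A_red y₂ h₂)) := by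
  have hone : coeffMap π (1 : LaurentSeries A) ≠ 0 := by rw [map_one]; exact one_ne_zero
  induction hE using AddSubgroup.closure_induction with
  | mem E hE =>
    obtain ⟨y, hy, hyk, hne, hEy⟩ := hE
    refine ⟨y, 1, ⟨hy, hyk⟩, FA_S18_A_Int_one, hne, hone, fun P => ?_, fun Q => ?_⟩
    · rw [hEy P, FA_S18_A_gen_one, Place.ord_one, sub_zero]
      rfl
    · rw [hr.2 y hy hyk hne E hEy Q, FA_S18_A_red_one, Place.ord_one, sub_zero]
      rfl
  | zero =>
    refine ⟨1, 1, FA_S18_A_Int_one, FA_S18_A_Int_one, hone, hone, fun P => ?_, fun Q => ?_⟩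
    · rw [sub_self]; rfl
    · rw [Finsupp.mapDomain_zero, sub_self]; rfl
  | add E E' _ _ hE hE' =>
    obtain ⟨y₁, y₂, h₁, h₂, hn₁, hn₂, hP, hQ⟩ := hE
    obtain ⟨y₁', y₂', h₁', h₂', hn₁', hn₂', hP', hQ'⟩ := hE'
    refine ⟨y₁ * y₁', y₂ * y₂', FA_S18_A_Int_mul h₁ h₁', FA_S18_A_Int_mul h₂ h₂',
      by rw [map_mul]; exact mul_ne_zero hn₁ hn₁', by rw [map_mul]; exact mul_ne_zero hn₂ hn₂',
      fun P => ?_, fun Q => ?_⟩
    · rw [Finsupp.add_apply, hP, hP', FA_S18_A_gen_mul h₁ h₁', FA_S18_A_gen_mul h₂ h₂',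
        P.ord_mul (FA_S18_A_gen_ne_zero h₁ hn₁) (FA_S18_A_gen_ne_zero h₁' hn₁'),
        P.ord_mul (FA_S18_A_gen_ne_zero h₂ hn₂) (FA_S18_A_gen_ne_zero h₂' hn₂')]
      ring
    · rw [Finsupp.mapDomain_add, Finsupp.add_apply, hQ, hQ', FA_S18_A_red_mul h₁ h₁',
        FA_S18_A_red_mul h₂ h₂',
        Q.ord_mul (FA_S18_A_red_ne_zero h₁ hn₁) (FA_S18_A_red_ne_zero h₁' hn₁'),
        Q.ord_mul (FA_S18_A_red_ne_zero h₂ hn₂) (FA_S18_A_red_ne_zero h₂' hn₂')]
      ring
  | neg E _ hE =>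
    obtain ⟨y₁, y₂, h₁, h₂, hn₁, hn₂, hP, hQ⟩ := hE
    refine ⟨y₂, y₁, h₂, h₁, hn₂, hn₁, fun P => ?_, fun Q => ?_⟩
    · rw [Finsupp.neg_apply, hP]; ring
    · rw [← Finsupp.mapDomain.addMonoidHom_apply, map_neg, Finsupp.mapDomain.addMonoidHom_apply,
        Finsupp.neg_apply, hQ]
      ring

variable (A π N) in
/-- **Target of stages 2 + 3**: a quotient `y₁/y₂` of integral elements of `F_N` with equal
nonzero reductions whose divisor is divisible by `p` has divisor `p · div(h₀)`. -/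
def FA_S18_Target_Root (p : ℕ) : Prop :=
  ∀ (y₁ y₂ : LaurentSeries A) (h₁ : FA_S18_A_Int A π N y₁) (h₂ : FA_S18_A_Int A π N y₂),
    coeffMap π y₁ = coeffMap π y₂ → coeffMap π y₁ ≠ 0 →
    (∀ P : Place (AlgebraicClosure ℚ) (modularFunctionFieldBar N),
      (p : ℤ) ∣ P.ord (FA_S18_A_gen y₁ h₁) - P.ord (FA_S18_A_gen y₂ h₂)) →
    ∃ h₀ : ↥(modularFunctionFieldBar N), h₀ ≠ 0 ∧
      ∀ P : Place (AlgebraicClosure ℚ) (modularFunctionFieldBar N),
        P.ord (FA_S18_A_gen y₁ h₁) - P.ord (FA_S18_A_gen y₂ h₂) = (p : ℤ) * P.ord h₀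

/-- **Stage 1**: from `Root p` to injectivity of the reduction on `p`-torsion. -/
theorem FA_S18_A_main (hπ : Function.Surjective π) (hin : ReductionInputsAlong A π N)
    (p : ℕ) (hp : p ≠ 0) (hroot : FA_S18_Target_Root A π N p)
    (z : Pic0 (AlgebraicClosure ℚ) (modularFunctionFieldBar N)) (hpz : p • z = 0)
    (hz : reductionAlong A π N z = 0) : z = 0 := by
  classical
  obtain ⟨D, rfl⟩ := Pic0.mk_surjective z
  have hr := hin.choose_spec.1
  have hgen := hin.choose_spec.2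
  set r := hin.choose with hrdef
  -- the reduction of `D` is principal
  rw [reductionAlong_mk hin D] at hz
  have hz' : reductionDegZeroAlong r hr.1 D ∈
      (Divisor.principal (K := k) (F := modularFunctionFieldFullC k N)).addSubgroupOf
        (Divisor.degZero (K := k) (F := modularFunctionFieldFullC k N)) :=
    (QuotientAddGroup.eq_zero_iff _).mp hz
  rw [AddSubgroup.mem_addSubgroupOf, coe_reductionDegZeroAlong] at hz'
  obtain ⟨g, hg0, hg⟩ := hz'
  -- lift `g`
  obtain ⟨ya, yb, hya, hyb, hnb, hab⟩ := FA_S18_A_lift hπ (g : LaurentSeries k) g.2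
  have hna : coeffMap π ya ≠ 0 := by
    rw [hab]
    exact mul_ne_zero (fun h => hg0 (Subtype.ext h)) hnb
  have hredab : FA_S18_A_red ya hya = g * FA_S18_A_red yb hyb := Subtype.ext hab
  obtain ⟨Eg, hdegEg, hEgP, hEgQ⟩ := FA_S18_A_pair hr hya hyb hna hnb
  have hEgQ' : ∀ Q, Finsupp.mapDomain r Eg Q = Q.ord g := by
    intro Q
    rw [hEgQ Q, hredab, Q.ord_mul hg0 (FA_S18_A_red_ne_zero hyb hnb)]
    ring
  have hEgprin : Eg ∈ Divisor.principal (K := AlgebraicClosure ℚ)
      (F := modularFunctionFieldBar N) := by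
    refine ⟨FA_S18_A_gen ya hya / FA_S18_A_gen yb hyb,
      div_ne_zero (FA_S18_A_gen_ne_zero hya hna) (FA_S18_A_gen_ne_zero hyb hnb), fun P => ?_⟩
    rw [hEgP P, div_eq_mul_inv, P.ord_mul (FA_S18_A_gen_ne_zero hya hna)
      (inv_ne_zero (FA_S18_A_gen_ne_zero hyb hnb)), P.ord_inv]
    ring
  -- `p • (D - Eg)` is principal
  have hpD : (p • D : Divisor.degZero (K := AlgebraicClosure ℚ)
      (F := modularFunctionFieldBar N)) ∈
      (Divisor.principal (K := AlgebraicClosure ℚ) (F := modularFunctionFieldBar N)).addSubgroupOf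
        (Divisor.degZero (K := AlgebraicClosure ℚ) (F := modularFunctionFieldBar N)) := by
    rw [← QuotientAddGroup.eq_zero_iff]
    exact hpz
  rw [AddSubgroup.mem_addSubgroupOf, AddSubgroupClass.coe_nsmul] at hpD
  have hpD' : p • ((D : Divisor (AlgebraicClosure ℚ) (modularFunctionFieldBar N)) - Eg) ∈
      Divisor.principal (K := AlgebraicClosure ℚ) (F := modularFunctionFieldBar N) := by
    rw [smul_sub]
    exact sub_mem hpD (nsmul_mem hEgprin p)
  obtain ⟨y₁, y₂, h₁, h₂, hn₁, hn₂, hP, hQ⟩ := FA_S18_A_closure hr (hgen hpD')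
  -- the reduction of `p • (D - Eg)` is zero
  have hQ0 : ∀ Q : Place k (modularFunctionFieldFullC k N),
      Q.ord (FA_S18_A_red y₁ h₁) - Q.ord (FA_S18_A_red y₂ h₂) = 0 := by
    intro Q
    rw [← hQ Q, ← Finsupp.mapDomain.addMonoidHom_apply, map_nsmul, map_sub,
      Finsupp.mapDomain.addMonoidHom_apply, Finsupp.mapDomain.addMonoidHom_apply,
      Finsupp.smul_apply, Finsupp.sub_apply, hg Q, hEgQ' Q, sub_self, smul_zero]
  obtain ⟨c, hc⟩ := FA_S18_A_const hπ hr h₁ h₂ hn₁ hn₂ hQ0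
  have hc0 : (c : AlgebraicClosure ℚ) ≠ 0 := by
    intro h
    have hc' : c = 0 := Subtype.ext h
    rw [hc', HahnSeries.single_eq_zero, zero_mul, map_zero] at hc
    exact hn₁ hc
  have h₂' : FA_S18_A_Int A π N (HahnSeries.single 0 c * y₂) :=
    FA_S18_A_Int_mul (FA_S18_A_Int_const c) h₂
  have hgen2 : ∀ P : Place (AlgebraicClosure ℚ) (modularFunctionFieldBar N),
      P.ord (FA_S18_A_gen _ h₂') = P.ord (FA_S18_A_gen y₂ h₂) := by
    intro P
    rw [FA_S18_A_gen_mul (FA_S18_A_Int_const c) h₂, FA_S18_A_gen_const,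
      P.ord_mul (by simpa using hc0) (FA_S18_A_gen_ne_zero h₂ hn₂), FA_RR.ord_algebraMap,
      zero_add]
  obtain ⟨h₀, hh₀, hh₀P⟩ := hroot y₁ (HahnSeries.single 0 c * y₂) h₁ h₂' hc hn₁ (by
    intro P
    rw [hgen2 P, ← hP P]
    exact ⟨((D : Divisor (AlgebraicClosure ℚ) (modularFunctionFieldBar N)) - Eg) P, by
      rw [Finsupp.smul_apply, nsmul_eq_mul]⟩)
  -- conclude
  have hDE : (D : Divisor (AlgebraicClosure ℚ) (modularFunctionFieldBar N)) - Eg ∈
      Divisor.principal (K := AlgebraicClosure ℚ) (F := modularFunctionFieldBar N) := by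
    refine ⟨h₀, hh₀, fun P => ?_⟩
    have h1 := hh₀P P
    rw [hgen2 P, ← hP P, Finsupp.smul_apply, nsmul_eq_mul] at h1
    exact mul_left_cancel₀ (by exact_mod_cast hp) h1
  have hDprin : (D : Divisor (AlgebraicClosure ℚ) (modularFunctionFieldBar N)) ∈
      Divisor.principal (K := AlgebraicClosure ℚ) (F := modularFunctionFieldBar N) := by
    have := add_mem hDE hEgprin
    rwa [sub_add_cancel] at this
  exact (QuotientAddGroup.eq_zero_iff _).mpr (AddSubgroup.mem_addSubgroupOf.mpr hDprin)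

/-- Reduction to prime order. -/
theorem FA_S18_A_wlog {G H : Type*} [AddCommGroup G] [AddCommGroup H] (red : G →+ H) (ℓ : ℕ)
    (hprime : ∀ p : ℕ, p.Prime → p ≠ ℓ → ∀ z : G, p • z = 0 → red z = 0 → z = 0)
    (m : ℕ) (hm : ¬ ℓ ∣ m) (z : G) (hmz : m • z = 0) (hz : red z = 0) : z = 0 := by
  induction m using Nat.strong_induction_on generalizing z with
  | _ m ih =>
    rcases Nat.lt_or_ge m 2 with h | h
    · interval_cases m
      · exact absurd (dvd_zero ℓ) hm
      · simpa using hmz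
    · obtain ⟨p, hp, hpm⟩ := Nat.exists_prime_and_dvd (show m ≠ 1 by omega)
      obtain ⟨m', rfl⟩ := hpm
      have hpℓ : p ≠ ℓ := fun h => hm (h ▸ dvd_mul_right p m')
      have hm'pos : 0 < m' := by
        rcases Nat.eq_zero_or_pos m' with h0 | h0
        · subst h0; omega
        · exact h0
      have h1 : m' • z = 0 := by
        apply hprime p hp hpℓ
        · rw [smul_smul]; exact hmz
        · rw [map_nsmul, hz, smul_zero]
      exact ih m' (by nlinarith [hp.two_le]) (fun h => hm (h.mul_left p)) z h1 hz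

/-- **S18 from `Root`**: if `FA_S18_Target_Root` holds for all primes `p ≠ ℓ`, the reduction
map is injective on torsion prime to `ℓ`. -/
theorem FA_S18_A_final (N : ℕ) [NeZero N] {ℓ : ℕ}
    (A : ValuationSubring (AlgebraicClosure ℚ))
    (hroot : ∀ p : ℕ, p.Prime → p ≠ ℓ → FA_S18_Target_Root A (IsLocalRing.residue A) N p)
    (h : ReductionInputsModL A N) (m : ℕ) (hm : ¬ ℓ ∣ m) (z : JZero N)
    (hmz : m • z = 0) (hz : reductionModL A N z = 0) : z = 0 :=
  FA_S18_A_wlog (reductionModL A N) ℓ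
    (fun p hp hpℓ z hpz hz =>
      FA_S18_A_main IsLocalRing.residue_surjective h p hp.ne_zero (hroot p hp hpℓ) z hpz hz)
    m hm z hmz hz

end Fermat.Agent.S18
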