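import Mathlib

/-!
# S18, leaf U: local unimodularity in valuation form (abstract algebra core)

Setting (no noetherian hypothesis on the base valuation ring).

* `K ⊂ K'` finite separable, `κ ⊂ κ'` finite separable, of the same degree `d = card ι`.
* `O` a valuation subring of `K`, `O'` a subring of `K'` containing `O`; `red : O → κ`,
  `red' : O' → κ'` compatible ring homomorphisms, `red` kills the non-units of `O`.
* `R'` a subring of `K` ("functions on the generic fibre of the chart"), `R := R' ∩ O`;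
  `B'` a subring of `K'`, stable under `R'`, with `Tr(B') ⊆ R'` and unimodular:
  `(∀ b ∈ B', Tr(y b) ∈ R') → y ∈ B'`.
* `b i ∈ B' ∩ O'` whose reductions `cb i` form a `κ`-basis of `κ'`, and the reduction of `B' ∩ O'`
  is contained in `⊕ red(R) cb i`.
* every nonzero element of `R'` is a unit times a product of *good* elements `w`: `w ∈ R`,
  `w⁻¹ ∈ O`, `red w` is not invertible in `red R`, and `R' = K0 + w R'` for a subfield
  `K0 ⊆ R'` of constants.

Conclusions: `B' ∩ O' = ⊕ R b i` (`FA_S18_U_coord`), the discriminant of `b` is a unit of `R`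
(`FA_S18_U_discr`), and every `x ∈ κ'` with `Tr(x cb j) ∈ red R` for all `j` is the reduction of an
element of `B' ∩ O'` (`FA_S18_U_lift`).
-/

set_option autoImplicit false

noncomputable section

namespace FA_S18

open Module

variable {K K' κ κ' ι : Type*} [Field K] [Field K'] [Algebra K K'] [FiniteDimensional K K']
  [Field κ] [Field κ'] [Algebra κ κ'] [Fintype ι] [DecidableEq ι]

/-- Good elements of the chart `R'`. -/
def FA_S18_U_Good (O : ValuationSubring K) (red : O →+* κ) (R' : Subring K) (K0 : Subfield K)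
    (w : K) : Prop :=
  w ≠ 0 ∧ w ∈ R' ∧ w ∈ O ∧ w⁻¹ ∈ O ∧
    (∀ w' v : O, (w' : K) = w → (v : K) ∈ R' → red w' * red v ≠ 1) ∧
    (∀ u ∈ R', ∃ k ∈ K0, ∃ u' ∈ R', u = k + w * u')

/-- The hypotheses of the local unimodularity lemma. -/
structure FA_S18_U_Hyp (O : ValuationSubring K) (O' : Subring K') (red : O →+* κ)
    (red' : O' →+* κ') (R' : Subring K) (K0 : Subfield K) (B' : Subring K')
    (cb : Basis ι κ κ') (b : ι → O') : Prop where
  card : Fintype.card ι = Module.finrank K K'
  red_max : ∀ a : O, (a : K)⁻¹ ∉ O → red a = 0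
  incl : ∀ a : O, algebraMap K K' a ∈ O'
  compat : ∀ (a : O) (y : O'), (y : K') = algebraMap K K' a → red' y = algebraMap κ κ' (red a)
  b_red : ∀ i, red' (b i) = cb i
  b_mem : ∀ i, (b i : K') ∈ B'
  redB : ∀ y' : O', (y' : K') ∈ B' → ∀ i, ∃ r : O, (r : K) ∈ R' ∧
    red r = cb.repr (red' y') i
  K0_le : ∀ k ∈ K0, k ∈ R'
  smul_mem : ∀ r ∈ R', ∀ y ∈ B', algebraMap K K' r * y ∈ B'
  tr_mem : ∀ y ∈ B', Algebra.trace K K' y ∈ R'
  dual : ∀ y : K', (∀ x ∈ B', Algebra.trace K K' (y * x) ∈ R') → y ∈ B'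
  fact : ∀ g ∈ R', g ≠ 0 → ∃ ws : List K, (∀ w ∈ ws, FA_S18_U_Good O red R' K0 w) ∧
    ∃ u ∈ R', u⁻¹ ∈ R' ∧ g = u * ws.prod

variable {O : ValuationSubring K} {O' : Subring K'} {red : O →+* κ} {red' : O' →+* κ'}
  {R' : Subring K} {K0 : Subfield K} {B' : Subring K'} {cb : Basis ι κ κ'} {b : ι → O'}

/-- Among finitely many elements of `K`, not all zero, one divides all the others in `O`. -/
theorem FA_S18_U_pivot (O : ValuationSubring K) (a : ι → K) (h : ∃ i, a i ≠ 0) :
    ∃ i₀, a i₀ ≠ 0 ∧ ∀ i, a i * (a i₀)⁻¹ ∈ O := by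
  classical
  -- induction on the finite set of indices with nonzero value
  have key : ∀ s : Finset ι, (∃ i ∈ s, a i ≠ 0) →
      ∃ i₀ ∈ s, a i₀ ≠ 0 ∧ ∀ i ∈ s, a i * (a i₀)⁻¹ ∈ O := by
    intro s
    induction s using Finset.induction_on with
    | empty => rintro ⟨i, hi, _⟩; exact absurd hi (Finset.notMem_empty i)
    | insert j s hj ih =>
      rintro ⟨i, hi, hai⟩
      by_cases hs : ∃ i ∈ s, a i ≠ 0
      · obtain ⟨i₀, hi₀, h0, hall⟩ := ih hs
        by_cases hj0 : a j = 0
        · refine ⟨i₀, Finset.mem_insert_of_mem hi₀, h0, fun i hi => ?_⟩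
          rcases Finset.mem_insert.mp hi with rfl | hi
          · rw [hj0, zero_mul]; exact O.zero_mem
          · exact hall i hi
        · rcases O.mem_or_inv_mem (a j * (a i₀)⁻¹) with h1 | h1
          · refine ⟨i₀, Finset.mem_insert_of_mem hi₀, h0, fun i hi => ?_⟩
            rcases Finset.mem_insert.mp hi with rfl | hi
            · exact h1
            · exact hall i hi
          · refine ⟨j, Finset.mem_insert_self j s, hj0, fun i hi => ?_⟩
            rcases Finset.mem_insert.mp hi with rfl | hi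
            · rw [mul_inv_cancel₀ hj0]; exact O.one_mem
            · have : a i * (a j)⁻¹ = (a i * (a i₀)⁻¹) * (a j * (a i₀)⁻¹)⁻¹ := by
                field_simp
              rw [this]
              exact O.mul_mem _ _ (hall i hi) h1
      · have hj0 : a j ≠ 0 := by
          rcases Finset.mem_insert.mp hi with rfl | hi'
          · exact hai
          · exact absurd ⟨i, hi', hai⟩ hs
        refine ⟨j, Finset.mem_insert_self j s, hj0, fun i hi => ?_⟩
        rcases Finset.mem_insert.mp hi with rfl | hi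
        · rw [mul_inv_cancel₀ hj0]; exact O.one_mem
        · have : a i = 0 := by
            by_contra h; exact hs ⟨i, hi, h⟩
          rw [this, zero_mul]; exact O.zero_mem
  obtain ⟨i, hi⟩ := h
  obtain ⟨i₀, _, h0, hall⟩ := key Finset.univ ⟨i, Finset.mem_univ i, hi⟩
  exact ⟨i₀, h0, fun i => hall i (Finset.mem_univ i)⟩

/-- The inclusion of `R' ∩ O` into `O`. -/
def FA_S18_U_toO (O : ValuationSubring K) (R' : Subring K) :
    (R' ⊓ O.toSubring : Subring K) →+* O where
  toFun r := ⟨r.1, (Subring.mem_inf.mp r.2).2⟩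
  map_one' := rfl
  map_mul' _ _ := rfl
  map_zero' := rfl
  map_add' _ _ := rfl

namespace FA_S18_U_Hyp

variable (H : FA_S18_U_Hyp O O' red red' R' K0 B' cb b)
include H

/-- `red' (a • y) = red a • red' y`. -/
theorem red_smul (a : O) (y : O') (z : O') (hz : (z : K') = algebraMap K K' a * y) :
    red' z = algebraMap κ κ' (red a) * red' y := by
  have : z = ⟨algebraMap K K' a, H.incl a⟩ * y := Subtype.ext hz
  rw [this, map_mul, H.compat a ⟨algebraMap K K' a, H.incl a⟩ rfl]

/-- A linear combination of the `b i` with coefficients in `O` lies in `O'` and reduces to the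
combination of the reductions. -/
theorem red_sum (a : ι → O) :
    ∃ z : O', (z : K') = ∑ i, algebraMap K K' (a i) * (b i : K') ∧
      red' z = ∑ i, algebraMap κ κ' (red (a i)) * cb i := by
  refine ⟨∑ i, ⟨algebraMap K K' (a i), H.incl (a i)⟩ * b i, ?_, ?_⟩
  · simp
  · rw [map_sum]
    refine Finset.sum_congr rfl fun i _ => ?_
    rw [map_mul, H.compat (a i) ⟨algebraMap K K' (a i), H.incl (a i)⟩ rfl, H.b_red]

/-- Key valuation lemma: if a combination `∑ a i • b i` with `a i ∈ K` lies in `O'`, then all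
`a i` lie in `O`. -/
theorem coeff_mem (a : ι → K) (hy : ∑ i, algebraMap K K' (a i) * (b i : K') ∈ O') :
    ∀ i, a i ∈ O := by
  classical
  by_contra hcon
  push Not at hcon
  obtain ⟨i₁, hi₁⟩ := hcon
  have hne : ∃ i, a i ≠ 0 := ⟨i₁, fun h => hi₁ (h ▸ O.zero_mem)⟩
  obtain ⟨i₀, h0, hall⟩ := FA_S18_U_pivot O a hne
  -- `a i₀ ∉ O`
  have hi₀ : a i₀ ∉ O := by
    intro h
    apply hi₁
    have : a i₁ = (a i₁ * (a i₀)⁻¹) * a i₀ := by field_simp
    rw [this]
    exact O.mul_mem _ _ (hall i₁) h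
  have hinv : (a i₀)⁻¹ ∈ O := (O.mem_or_inv_mem (a i₀)).resolve_left hi₀
  set c : O := ⟨(a i₀)⁻¹, hinv⟩ with hc
  have hc0 : red c = 0 := H.red_max c (by simpa [hc] using hi₀)
  obtain ⟨z, hz, hzred⟩ := H.red_sum (fun i => (⟨a i * (a i₀)⁻¹, hall i⟩ : O))
  -- `z = c • y`
  have hz2 : (z : K') = algebraMap K K' c * (⟨_, hy⟩ : O') := by
    rw [hz]
    simp only [hc]
    rw [Finset.mul_sum]
    refine Finset.sum_congr rfl fun i _ => ?_
    rw [map_mul]
    ring
  have h1 := H.red_smul c ⟨_, hy⟩ z hz2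
  rw [hc0, map_zero, zero_mul, hzred] at h1
  -- linear independence of `cb`
  have h2 : ∑ i, (red (⟨a i * (a i₀)⁻¹, hall i⟩ : O)) • cb i = 0 := by
    simpa [Algebra.smul_def] using h1
  have h3 := (Fintype.linearIndependent_iff.mp cb.linearIndependent) _ h2 i₀
  have h4 : (⟨a i₀ * (a i₀)⁻¹, hall i₀⟩ : O) = 1 := by
    apply Subtype.ext
    show a i₀ * (a i₀)⁻¹ = 1
    exact mul_inv_cancel₀ h0
  rw [h4, map_one] at h3
  exact one_ne_zero h3

/-- The `b i` are linearly independent over `K`. -/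
theorem linearIndependent : LinearIndependent K (fun i => (b i : K')) := by
  classical
  rw [Fintype.linearIndependent_iff]
  intro a ha
  by_contra hcon
  push Not at hcon
  obtain ⟨i₁, hi₁⟩ := hcon
  obtain ⟨i₀, h0, hall⟩ := FA_S18_U_pivot O a ⟨i₁, hi₁⟩
  obtain ⟨z, hz, hzred⟩ := H.red_sum (fun i => (⟨a i * (a i₀)⁻¹, hall i⟩ : O))
  have hz0 : (z : K') = 0 := by
    rw [hz]
    have : ∑ i, algebraMap K K' (a i * (a i₀)⁻¹) * (b i : K')
        = algebraMap K K' (a i₀)⁻¹ * ∑ i, a i • (b i : K') := by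
      rw [Finset.mul_sum]
      refine Finset.sum_congr rfl fun i _ => ?_
      rw [map_mul, Algebra.smul_def]
      ring
    rw [this, ha, mul_zero]
  have hz00 : z = 0 := Subtype.ext hz0
  rw [hz00, map_zero] at hzred
  have h2 : ∑ i, (red (⟨a i * (a i₀)⁻¹, hall i⟩ : O)) • cb i = 0 := by
    simpa [Algebra.smul_def] using hzred.symm
  have h3 := (Fintype.linearIndependent_iff.mp cb.linearIndependent) _ h2 i₀
  have h4 : (⟨a i₀ * (a i₀)⁻¹, hall i₀⟩ : O) = 1 := by
    apply Subtype.ext
    show a i₀ * (a i₀)⁻¹ = 1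
    exact mul_inv_cancel₀ h0
  rw [h4, map_one] at h3
  exact one_ne_zero h3

/-- The `K`-basis of `K'` given by the `b i`. -/
def basis : Basis ι K K' :=
  basisOfLinearIndependentOfCardEqFinrank' _ H.linearIndependent H.card

theorem basis_apply (i : ι) : H.basis i = (b i : K') := by
  simp [basis]

theorem sum_repr (y : K') : ∑ i, algebraMap K K' (H.basis.repr y i) * (b i : K') = y := by
  conv_rhs => rw [← H.basis.sum_repr y]
  refine Finset.sum_congr rfl fun i _ => ?_
  rw [Algebra.smul_def, H.basis_apply]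

/-- Coordinates of elements of `O'` lie in `O`. -/
theorem repr_mem_O (y : K') (hy : y ∈ O') (i : ι) : H.basis.repr y i ∈ O := by
  apply H.coeff_mem (fun i => H.basis.repr y i)
  rw [H.sum_repr]
  exact hy

/-- Reduction of coordinates. -/
theorem red_repr (y : O') (i : ι) :
    red ⟨H.basis.repr (y : K') i, H.repr_mem_O y y.2 i⟩ = cb.repr (red' y) i := by
  obtain ⟨z, hz, hzred⟩ := H.red_sum (fun i => ⟨H.basis.repr (y : K') i, H.repr_mem_O y y.2 i⟩)
  have hzy : z = y := by
    apply Subtype.ext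
    rw [hz]
    exact H.sum_repr y
  rw [hzy] at hzred
  rw [hzred]
  have : ∑ i, algebraMap κ κ' (red ⟨H.basis.repr (y : K') i, H.repr_mem_O y y.2 i⟩) * cb i
      = ∑ i, (red ⟨H.basis.repr (y : K') i, H.repr_mem_O y y.2 i⟩) • cb i := by
    refine Finset.sum_congr rfl fun i _ => ?_
    rw [Algebra.smul_def]
  rw [this, cb.repr_sum_self]

/-- Linear combinations of the `b i` with coefficients in `R'` lie in `B'`. -/
theorem sum_mem_B' (a : ι → K) (ha : ∀ i, a i ∈ R') :
    ∑ i, algebraMap K K' (a i) * (b i : K') ∈ B' :=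
  B'.sum_mem fun i _ => H.smul_mem _ (ha i) _ (H.b_mem i)

/-- The trace of `y * b j` in terms of coordinates and the trace matrix. -/
theorem trace_mul_b (y : K') (j : ι) :
    Algebra.trace K K' (y * (b j : K'))
      = ∑ i, H.basis.repr y i * Algebra.trace K K' ((b i : K') * (b j : K')) := by
  conv_lhs => rw [← H.sum_repr y]
  rw [Finset.sum_mul, map_sum]
  refine Finset.sum_congr rfl fun i _ => ?_
  rw [mul_assoc, ← Algebra.smul_def, map_smul, smul_eq_mul]

/-- The trace matrix of the `b i`. -/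
def G : Matrix ι ι K := fun i j => Algebra.trace K K' (H.basis i * H.basis j)

theorem G_apply (i j : ι) : H.G i j = Algebra.trace K K' ((b i : K') * (b j : K')) := by
  simp [G, basis_apply]

theorem G_mem (i j : ι) : H.G i j ∈ R' := by
  rw [H.G_apply]
  exact H.tr_mem _ (B'.mul_mem (H.b_mem i) (H.b_mem j))

theorem G_eq : H.G = Algebra.traceMatrix K H.basis := by
  ext i j
  simp [G, Algebra.traceMatrix_apply, Algebra.traceForm_apply]

theorem det_G_ne_zero [Algebra.IsSeparable K K'] : H.G.det ≠ 0 := by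
  rw [G_eq, ← Algebra.discr_def]
  exact Algebra.discr_not_zero_of_basis K H.basis

/-- The matrix `G` with entries in the subring `R'`. -/
def Gs : Matrix ι ι R' := fun i j => ⟨H.G i j, H.G_mem i j⟩

theorem Gs_map : H.Gs.map R'.subtype = H.G := by
  ext i j; rfl

theorem det_G_mem : H.G.det ∈ R' := by
  rw [← H.Gs_map]
  have := RingHom.map_det R'.subtype H.Gs
  rw [RingHom.mapMatrix_apply] at this
  rw [← this]
  exact (H.Gs.det).2

theorem adj_G_mem (i j : ι) : H.G.adjugate i j ∈ R' := by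
  rw [← H.Gs_map]
  have := RingHom.map_adjugate R'.subtype H.Gs
  rw [RingHom.mapMatrix_apply, RingHom.mapMatrix_apply] at this
  rw [← this]
  exact (H.Gs.adjugate i j).2

/-- Cramer: `det G * (coordinate of y)` lies in `R'` for `y ∈ B'`. -/
theorem det_mul_repr_mem (y : K') (hy : y ∈ B') (i : ι) :
    H.G.det * H.basis.repr y i ∈ R' := by
  have hT : ∀ j, Algebra.trace K K' (y * (b j : K')) ∈ R' := fun j =>
    H.tr_mem _ (B'.mul_mem hy (H.b_mem j))
  -- `T = a ᵥ* G`, so `T ᵥ* adj G = det G • a`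
  have h1 : (fun j => Algebra.trace K K' (y * (b j : K'))) =
      Matrix.vecMul (fun i => H.basis.repr y i) H.G := by
    ext j
    rw [H.trace_mul_b y j]
    simp [Matrix.vecMul, dotProduct, G_apply]
  have h2 : Matrix.vecMul (fun j => Algebra.trace K K' (y * (b j : K'))) H.G.adjugate
      = H.G.det • (fun i => H.basis.repr y i) := by
    rw [h1, Matrix.vecMul_vecMul, Matrix.mul_adjugate, Matrix.vecMul_smul, Matrix.vecMul_one]
  have h3 := congrFun h2 i
  simp only [Pi.smul_apply, smul_eq_mul] at h3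
  rw [← h3]
  simp only [Matrix.vecMul, dotProduct]
  exact R'.sum_mem fun j _ => R'.mul_mem (hT j) (H.adj_G_mem j i)

theorem repr_smul (r : K) (y : K') (i : ι) :
    H.basis.repr (algebraMap K K' r * y) i = r * H.basis.repr y i := by
  rw [← Algebra.smul_def, map_smul]
  rfl

/-- Cancelling a good element. -/
theorem good_cancel (w : K) (hw : FA_S18_U_Good O red R' K0 w) (y : K') (hy : y ∈ B')
    (h : ∀ i, w * H.basis.repr y i ∈ R') : ∀ i, H.basis.repr y i ∈ R' := by
  classical
  obtain ⟨hw0, hwR, hwO, hwinv, hwred, hwK0⟩ := hw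
  choose k hk u' hu' hku using fun i => hwK0 _ (h i)
  by_cases hk0 : ∀ i, k i = 0
  · intro i
    have := hku i
    rw [hk0 i, zero_add] at this
    have h2 : H.basis.repr y i = u' i := mul_left_cancel₀ hw0 this
    rw [h2]; exact hu' i
  · exfalso
    push Not at hk0
    obtain ⟨i₀, hi₀, hall⟩ := FA_S18_U_pivot O k hk0
    -- the element `y'' = ∑ (k i / k i₀) w⁻¹ b i`
    have hcoef : ∀ i, k i * (k i₀)⁻¹ * w⁻¹ ∈ O := fun i => O.mul_mem _ _ (hall i) hwinv
    obtain ⟨z, hz, hzred⟩ := H.red_sum (fun i => (⟨k i * (k i₀)⁻¹ * w⁻¹, hcoef i⟩ : O))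
    have hzB : (z : K') ∈ B' := by
      have e1 : (z : K') = algebraMap K K' (k i₀)⁻¹ *
          (y - ∑ i, algebraMap K K' (u' i) * (b i : K')) := by
        rw [hz]
        conv_rhs => rw [← H.sum_repr y, ← Finset.sum_sub_distrib, Finset.mul_sum]
        refine Finset.sum_congr rfl fun i _ => ?_
        have : H.basis.repr y i = k i * w⁻¹ + u' i := by
          have h3 := hku i
          field_simp
          linear_combination h3
        simp only
        rw [this, map_mul, map_mul, map_add, map_mul]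
        ring
      rw [e1]
      refine H.smul_mem _ (H.K0_le _ (K0.inv_mem (hk i₀))) _ (B'.sub_mem hy ?_)
      exact H.sum_mem_B' _ hu'
    obtain ⟨r, hrR, hr⟩ := H.redB z hzB i₀
    rw [hzred] at hr
    have e2 : ∑ i, algebraMap κ κ' (red (⟨k i * (k i₀)⁻¹ * w⁻¹, hcoef i⟩ : O)) * cb i
        = ∑ i, (red (⟨k i * (k i₀)⁻¹ * w⁻¹, hcoef i⟩ : O)) • cb i := by
      refine Finset.sum_congr rfl fun i _ => ?_
      rw [Algebra.smul_def]
    rw [e2, cb.repr_sum_self] at hr
    apply hwred ⟨w, hwO⟩ r rfl hrR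
    rw [hr, ← map_mul]
    have : (⟨w, hwO⟩ : O) * ⟨k i₀ * (k i₀)⁻¹ * w⁻¹, hcoef i₀⟩ = 1 := by
      apply Subtype.ext
      show w * (k i₀ * (k i₀)⁻¹ * w⁻¹) = 1
      field_simp
    rw [this, map_one]

theorem good_mem {w : K} (hw : FA_S18_U_Good O red R' K0 w) : w ∈ R' := hw.2.1

/-- Cancelling a product of good elements. -/
theorem good_list_cancel (ws : List K) (hws : ∀ w ∈ ws, FA_S18_U_Good O red R' K0 w) :
    ∀ (y : K'), y ∈ B' → (∀ i, ws.prod * H.basis.repr y i ∈ R') →
      ∀ i, H.basis.repr y i ∈ R' := by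
  induction ws with
  | nil =>
    intro y _ h i
    simpa using h i
  | cons w ws ih =>
    intro y hy h
    have hwsR : ws.prod ∈ R' :=
      R'.list_prod_mem fun x hx => H.good_mem (hws x (List.mem_cons_of_mem _ hx))
    apply ih (fun x hx => hws x (List.mem_cons_of_mem _ hx)) y hy
    have h2 := H.good_cancel w (hws w List.mem_cons_self) (algebraMap K K' ws.prod * y)
      (H.smul_mem _ hwsR _ hy) (fun i => by
        rw [H.repr_smul, ← mul_assoc, ← List.prod_cons]
        exact h i)
    intro i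
    rw [← H.repr_smul]
    exact h2 i

/-- **Step 2**: `B' = ⊕ R' b i`. -/
theorem repr_mem_R' [Algebra.IsSeparable K K'] (y : K') (hy : y ∈ B') (i : ι) :
    H.basis.repr y i ∈ R' := by
  obtain ⟨ws, hws, u, _, huinv, hg⟩ := H.fact _ H.det_G_mem H.det_G_ne_zero
  have hu0 : u ≠ 0 := by
    intro h
    rw [h, zero_mul] at hg
    exact H.det_G_ne_zero hg
  apply H.good_list_cancel ws hws y hy
  intro i
  have : ws.prod * H.basis.repr y i = u⁻¹ * (H.G.det * H.basis.repr y i) := by
    rw [hg]; field_simp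
  rw [this]
  exact R'.mul_mem huinv (H.det_mul_repr_mem y hy i)

/-- **Step 3**: `B' ∩ O' = ⊕ (R' ∩ O) b i`. -/
theorem FA_S18_U_coord [Algebra.IsSeparable K K'] (y : K') (hy : y ∈ B') (hy' : y ∈ O') :
    ∃ a : ι → K, (∀ i, a i ∈ R' ∧ a i ∈ O) ∧ y = ∑ i, algebraMap K K' (a i) * (b i : K') :=
  ⟨fun i => H.basis.repr y i, fun i => ⟨H.repr_mem_R' y hy i, H.repr_mem_O y hy' i⟩,
    (H.sum_repr y).symm⟩

/-! ### Step 4: traces commute with reduction, the discriminant is a unit -/

theorem trace_eq_sum (z : K') :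
    Algebra.trace K K' z = ∑ k, H.basis.repr (z * (b k : K')) k := by
  rw [Algebra.trace_eq_matrix_trace H.basis z, Matrix.trace]
  refine Finset.sum_congr rfl fun k _ => ?_
  rw [Matrix.diag_apply, Algebra.leftMulMatrix_eq_repr_mul, H.basis_apply]

omit H [FiniteDimensional K K'] in
theorem trace_eq_sum_cb (z : κ') :
    Algebra.trace κ κ' z = ∑ k, cb.repr (z * cb k) k := by
  rw [Algebra.trace_eq_matrix_trace cb z, Matrix.trace]
  refine Finset.sum_congr rfl fun k _ => ?_
  rw [Matrix.diag_apply, Algebra.leftMulMatrix_eq_repr_mul]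

theorem trace_mem_O (z : O') : Algebra.trace K K' (z : K') ∈ O := by
  rw [H.trace_eq_sum]
  exact sum_mem fun k _ => H.repr_mem_O _ (O'.mul_mem z.2 (b k).2) k

theorem red_trace (z : O') :
    red ⟨Algebra.trace K K' (z : K'), H.trace_mem_O z⟩ = Algebra.trace κ κ' (red' z) := by
  have e1 : (⟨Algebra.trace K K' (z : K'), H.trace_mem_O z⟩ : O)
      = ∑ k, ⟨H.basis.repr ((z * b k : O') : K') k, H.repr_mem_O _ (z * b k).2 k⟩ := by
    apply Subtype.ext
    show Algebra.trace K K' (z : K') = _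
    rw [H.trace_eq_sum]
    simp
  rw [e1, map_sum, trace_eq_sum_cb (cb := cb)]
  refine Finset.sum_congr rfl fun k _ => ?_
  rw [H.red_repr (z * b k) k, map_mul, H.b_red]

/-- The trace matrix with entries in `O`. -/
def Go : Matrix ι ι O := fun i j =>
  ⟨Algebra.trace K K' ((b i * b j : O') : K'), H.trace_mem_O (b i * b j)⟩

theorem Go_map_subtype : H.Go.map O.subtype = H.G := by
  ext i j
  simp [Go, G_apply]

theorem Go_map_red : H.Go.map red = Algebra.traceMatrix κ cb := by
  ext i j
  simp only [Matrix.map_apply, Go, Algebra.traceMatrix_apply, Algebra.traceForm_apply]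
  rw [H.red_trace (b i * b j), map_mul, H.b_red, H.b_red]

theorem det_G_eq : H.G.det = (H.Go.det : K) := by
  rw [← H.Go_map_subtype]
  have := RingHom.map_det O.subtype H.Go
  rw [RingHom.mapMatrix_apply] at this
  rw [← this]
  rfl

theorem red_det_ne_zero [FiniteDimensional κ κ'] [Algebra.IsSeparable κ κ'] :
    red H.Go.det ≠ 0 := by
  have := RingHom.map_det red H.Go
  rw [RingHom.mapMatrix_apply] at this
  rw [this, H.Go_map_red, ← Algebra.discr_def]
  exact Algebra.discr_not_zero_of_basis κ cb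

theorem det_G_mem_O : H.G.det ∈ O := by
  rw [H.det_G_eq]; exact H.Go.det.2

theorem det_G_inv_mem_O [FiniteDimensional κ κ'] [Algebra.IsSeparable κ κ'] :
    (H.G.det)⁻¹ ∈ O := by
  by_contra h
  rw [H.det_G_eq] at h
  exact H.red_det_ne_zero (H.red_max _ h)

/-- The dual basis of the `b i` for the trace form lies in `B'` (unimodularity). -/
theorem dualBasis_mem [Algebra.IsSeparable K K'] (i : ι) :
    (Algebra.traceForm K K').dualBasis (traceForm_nondegenerate K K') H.basis i ∈ B' := by
  apply H.dual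
  intro x hx
  have h1 : Algebra.trace K K'
      ((Algebra.traceForm K K').dualBasis (traceForm_nondegenerate K K') H.basis i * x)
      = H.basis.repr x i := by
    conv_lhs => rw [← H.basis.sum_repr x]
    rw [Finset.mul_sum, map_sum]
    have : ∀ j, Algebra.trace K K'
        ((Algebra.traceForm K K').dualBasis (traceForm_nondegenerate K K') H.basis i
          * (H.basis.repr x j • H.basis j)) = if j = i then H.basis.repr x j else 0 := by
      intro j
      rw [mul_smul_comm, map_smul, ← Algebra.traceForm_apply,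
        LinearMap.BilinForm.apply_dualBasis_left]
      split_ifs <;> simp
    simp only [this]
    simp
  rw [h1]
  exact H.repr_mem_R' x hx i

/-- The inverse of the trace matrix. -/
def Hm [Algebra.IsSeparable K K'] : Matrix ι ι K := fun i j =>
  H.basis.repr ((Algebra.traceForm K K').dualBasis (traceForm_nondegenerate K K') H.basis i) j

theorem Hm_mem [Algebra.IsSeparable K K'] (i j : ι) : H.Hm i j ∈ R' :=
  H.repr_mem_R' _ (H.dualBasis_mem i) j

theorem Hm_mul_G [Algebra.IsSeparable K K'] : H.Hm * H.G = 1 := by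
  ext i k
  rw [Matrix.mul_apply]
  have := H.trace_mul_b
    ((Algebra.traceForm K K').dualBasis (traceForm_nondegenerate K K') H.basis i) k
  simp only [Hm, G_apply]
  rw [← this, ← H.basis_apply k, ← Algebra.traceForm_apply,
    LinearMap.BilinForm.apply_dualBasis_left, Matrix.one_apply]
  by_cases h : i = k
  · subst h; simp
  · rw [if_neg h, if_neg (Ne.symm h)]

theorem det_G_inv_mem_R' [Algebra.IsSeparable K K'] : (H.G.det)⁻¹ ∈ R' := by
  have h1 : H.Hm.det * H.G.det = 1 := by
    rw [← Matrix.det_mul, H.Hm_mul_G, Matrix.det_one]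
  have h2 : (H.G.det)⁻¹ = H.Hm.det := by
    rw [eq_comm, ← mul_one H.Hm.det, ← mul_inv_cancel₀ H.det_G_ne_zero, ← mul_assoc, h1,
      one_mul]
  rw [h2]
  -- `det Hm ∈ R'`
  let Hs : Matrix ι ι R' := fun i j => ⟨H.Hm i j, H.Hm_mem i j⟩
  have h3 : Hs.map R'.subtype = H.Hm := by ext i j; rfl
  rw [← h3]
  have := RingHom.map_det R'.subtype Hs
  rw [RingHom.mapMatrix_apply] at this
  rw [← this]
  exact (Hs.det).2

/-- **Step 4**: the discriminant of the `b i` is a unit of `R = R' ∩ O`. -/
theorem FA_S18_U_discr [Algebra.IsSeparable K K'] [FiniteDimensional κ κ']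
    [Algebra.IsSeparable κ κ'] :
    (H.G.det ∈ R' ∧ H.G.det ∈ O) ∧ ((H.G.det)⁻¹ ∈ R' ∧ (H.G.det)⁻¹ ∈ O) :=
  ⟨⟨H.det_G_mem, H.det_G_mem_O⟩, ⟨H.det_G_inv_mem_R', H.det_G_inv_mem_O⟩⟩

/-! ### Step 5: lifting the trace dual of the special fibre -/

theorem G_mem_O (i j : ι) : H.G i j ∈ O := by
  rw [← H.Go_map_subtype]
  exact (H.Go i j).2

/-- **Step 5**: every `x ∈ κ'` whose traces against the `cb j` lie in `red R` is the reduction of
an element of `B' ∩ O'`. -/
theorem FA_S18_U_lift [Algebra.IsSeparable K K'] [FiniteDimensional κ κ']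
    [Algebra.IsSeparable κ κ'] (x : κ')
    (hx : ∀ j, ∃ s : O, (s : K) ∈ R' ∧ red s = Algebra.trace κ κ' (x * cb j)) :
    ∃ y : O', (y : K') ∈ B' ∧ red' y = x := by
  classical
  choose s hsR hs using hx
  let Ro : Subring K := R' ⊓ O.toSubring
  let toO : Ro →+* O := FA_S18_U_toO O R'
  let Gr : Matrix ι ι Ro := fun i j =>
    ⟨H.G i j, Subring.mem_inf.mpr ⟨H.G_mem i j, H.G_mem_O i j⟩⟩
  have hGr : Gr.map Ro.subtype = H.G := by ext; rfl
  have hdet : (Gr.det : K) = H.G.det := by
    have := RingHom.map_det Ro.subtype Gr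
    rw [RingHom.mapMatrix_apply, hGr] at this
    exact this
  have hunit : IsUnit Gr.det := by
    obtain ⟨_, ⟨h3, h4⟩⟩ := H.FA_S18_U_discr
    refine isUnit_iff_exists_inv.mpr ⟨⟨(H.G.det)⁻¹, Subring.mem_inf.mpr ⟨h3, h4⟩⟩, ?_⟩
    apply Subtype.ext
    show (Gr.det : K) * (H.G.det)⁻¹ = 1
    rw [hdet, mul_inv_cancel₀ H.det_G_ne_zero]
  let sr : ι → Ro := fun j => ⟨s j, Subring.mem_inf.mpr ⟨hsR j, (s j).2⟩⟩
  let a : ι → Ro := Matrix.mulVec Gr⁻¹ sr
  have ha : Matrix.mulVec Gr a = sr := by
    simp only [a]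
    rw [Matrix.mulVec_mulVec, Matrix.mul_nonsing_inv _ hunit, Matrix.one_mulVec]
  let redR : Ro →+* κ := red.comp toO
  have hGred : Gr.map redR = Algebra.traceMatrix κ cb := by
    ext i j
    have e : toO (Gr i j) = H.Go i j := by
      apply Subtype.ext
      show H.G i j = ((H.Go i j : O) : K)
      rw [← H.Go_map_subtype]; rfl
    have := congrFun (congrFun H.Go_map_red i) j
    simp only [Matrix.map_apply] at this
    simp only [Matrix.map_apply, redR, RingHom.comp_apply, e, this]
  have h1 : Matrix.mulVec (Algebra.traceMatrix κ cb) (fun i => redR (a i))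
      = fun j => Algebra.trace κ κ' (x * cb j) := by
    ext j
    rw [← hGred]
    have := RingHom.map_mulVec redR Gr a j
    rw [Function.comp_def] at this
    rw [← this, ha]
    show red (toO (sr j)) = _
    have e : toO (sr j) = s j := Subtype.ext rfl
    rw [e, hs]
  have h2 : Matrix.mulVec (Algebra.traceMatrix κ cb) (fun i => cb.repr x i)
      = fun j => Algebra.trace κ κ' (x * cb j) := by
    ext j
    simp only [Matrix.mulVec, dotProduct, Algebra.traceMatrix_apply, Algebra.traceForm_apply]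
    conv_rhs => rw [← cb.sum_repr x, Finset.sum_mul, map_sum]
    refine Finset.sum_congr rfl fun i _ => ?_
    rw [smul_mul_assoc, map_smul, smul_eq_mul, mul_comm (cb i) (cb j), mul_comm]
  have h3 : (fun i => redR (a i)) = fun i => cb.repr x i := by
    have hdetne : (Algebra.traceMatrix κ cb).det ≠ 0 := by
      rw [← Algebra.discr_def]; exact Algebra.discr_not_zero_of_basis κ cb
    have := Matrix.eq_zero_of_mulVec_eq_zero hdetne
      (v := (fun i => redR (a i)) - fun i => cb.repr x i)
      (by rw [Matrix.mulVec_sub, h1, h2, sub_self])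
    exact sub_eq_zero.mp this
  obtain ⟨z, hz, hzred⟩ := H.red_sum (fun i => toO (a i))
  refine ⟨z, ?_, ?_⟩
  · rw [hz]
    exact H.sum_mem_B' _ (fun i => (Subring.mem_inf.mp (a i).2).1)
  · rw [hzred]
    have e : ∀ i, red (toO (a i)) = cb.repr x i := fun i => congrFun h3 i
    simp only [e]
    conv_rhs => rw [← cb.sum_repr x]
    exact Finset.sum_congr rfl fun i _ => (Algebra.smul_def _ _).symm

end FA_S18_U_Hyp

end FA_S18
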